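import Fermat.Agent.BAD.H28_Stmts

/-!
# Item 65, package ABS: the two ALG leaves (helper55)

* `stmt_Ratio : Stmt_Ratio` (evaluate at the root `t = -A/A₀`; neither `Infinite k` nor
  `(n : k) ≠ 0` beyond `n ≠ 0` is used);
* `stmt_Avoid : Stmt_Avoid` (Mathlib `Subspace.biUnion_ne_univ_of_top_notMem`).
-/

set_option autoImplicit false

namespace Fermat.Agent.BAD.H55

theorem stmt_Ratio : Fermat.Agent.BAD.Stmt_Ratio := by
  intro k _ _ n hn A A₀ B B₀ lam hA₀ h
  have hn0 : n ≠ 0 := by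
    rintro rfl
    exact hn (by simp)
  -- the root of `A + t A₀`
  have h0 := h (-A / A₀)
  have e1 : A + -A / A₀ * A₀ = 0 := by field_simp; ring
  rw [e1, zero_pow hn0] at h0
  have hlam : lam ≠ 0 := by
    rintro rfl
    have h1 := h 0
    have h2 := h 1
    simp only [zero_mul, add_zero, one_mul] at h1 h2
    have hA : A = 0 := by
      have := pow_eq_zero_iff hn0 |>.mp h1
      exact this
    have hAA : A + A₀ = 0 := pow_eq_zero_iff hn0 |>.mp h2
    rw [hA, zero_add] at hAA
    exact hA₀ hAA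
  have h3 : (B + -A / A₀ * B₀) ^ n = 0 := by
    rcases mul_eq_zero.mp h0.symm with h4 | h4
    · exact absurd h4 hlam
    · exact h4
  have h4 : B + -A / A₀ * B₀ = 0 := pow_eq_zero_iff hn0 |>.mp h3
  have h5 : (B + -A / A₀ * B₀) * A₀ = B * A₀ - A * B₀ := by field_simp; ring
  rw [h4, zero_mul] at h5
  linear_combination h5

theorem stmt_Avoid : Fermat.Agent.BAD.Stmt_Avoid := by
  classical
  intro k V _ _ _ _ ι s W hW
  have hs : (⊤ : Submodule k V) ∉ s.image W := by
    intro h
    obtain ⟨i, hi, hWi⟩ := Finset.mem_image.mp h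
    exact hW i hi hWi
  have hne := Subspace.biUnion_ne_univ_of_top_notMem (k := k) (E := V) hs
  obtain ⟨v, hv⟩ := (Set.ne_univ_iff_exists_notMem _).mp hne
  refine ⟨v, fun i hi hvi => hv ?_⟩
  simp only [Set.mem_iUnion]
  exact ⟨W i, Finset.mem_image_of_mem W hi, hvi⟩

end Fermat.Agent.BAD.H55
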