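import Fermat.Agent.BAD.H28_Skel
import Fermat.Agent.BAD.H55_Alg

/-!
# Item 65, package ABS: leaf `Stmt_Moving` (helper90)

`moving_of_twSurj : Stmt_TwSurj → Stmt_Moving`.

For a twist datum `x` (function `f`, twist `ϑ`) there is `h`, a Gauss unit for `V₁` with `ϑ h` a
Gauss unit for `V₂`, such that `f h ^ n` has neither zero nor pole on the fibres of the nodes.

Proof: take `G = M (P₁ + P₂)` with `P_i` over a regular point of the `i`-th component, `M` large.
By `Stmt_TwSurj` the reduction of the unit ball of `L(D_x + G)` is `Λ^λ(G₁, G₂ + Δ)`.  For every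
node `s` the subspace `{ψ₁(s₁) = 0}` of `Λ^λ` is proper (Riemann's theorem on the two components:
interpolation at the branches), so there is `ψ ∈ Λ^λ` with `ψ₁(s₁) ≠ 0` for all nodes `s`
(`H55.stmt_Avoid`); lift it to `h`.  Then `F_h = f h ^ n` is a unit for both valuations, it is
regular on the fibres of the nodes (`G` is in good position), and the sum of its orders on the
fibre of `s` is `n ord_{s₁} ψ₁ + ord_{s₂} γ + n ord_{s₂} ψ₂ = 0` by `DIn`.
-/

set_option autoImplicit false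
set_option linter.style.haveILetI false

noncomputable section

open AlgebraicCurve

namespace Fermat.Agent.BAD.H90

open Fermat.Agent.RED.H17 Fermat.Agent.RED

local notation "L" => riemannRochSpace

section Interp

variable {k F : Type*} [Field k] [Field F] [Algebra k F]

/-- A function with a non-zero value at a place has order zero there. -/
theorem ord_eq_zero_of_value {v : Place k F} {f : F} {a : k} (ha : a ≠ 0)
    (h : VanAt v (f - algebraMap k F a)) : f ≠ 0 ∧ v.ord f = 0 := by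
  have hf0 : f ≠ 0 := by
    rintro rfl
    rw [zero_sub] at h
    have := h.neg
    rw [neg_neg] at this
    exact ha (const_eq_zero_of_vanAt this)
  refine ⟨hf0, ?_⟩
  have hreg : RegAt v f := RegAt.of_vanAt_sub h
  have h0 : 0 ≤ v.ord f := hreg.ord_nonneg
  by_contra hne
  have hpos : 0 < v.ord f := lt_of_le_of_ne h0 (Ne.symm hne)
  have hv : VanAt v f := vanAt_of_ord_pos hpos
  have := hv.sub h
  rw [sub_sub_cancel] at this
  exact ha (const_eq_zero_of_vanAt this)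

/-- Interpolation: if `deg D ≥ c + #T` and `D` has no support in `T`, there is `ψ ∈ L(D)` which
vanishes at the points of `T` other than `v` and does not vanish at `v`. -/
theorem exists_value_one (H : FFHyp k F) {g : ℕ} {c : ℤ} (hR : IsGenus k F g c)
    (D : Divisor k F) (T : Finset (Place k F)) {v : Place k F} (hv : v ∈ T)
    (hD : ∀ w ∈ T, D w = 0) (hdeg : c + T.card ≤ Divisor.degree D) :
    ∃ ψ ∈ L D, (∀ w ∈ T, w ≠ v → VanAt w ψ) ∧ RegAt v ψ ∧ ¬ VanAt v ψ := by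
  classical
  have hcard : (T.erase v).card + 1 = T.card := Finset.card_erase_add_one hv
  have hd' : Divisor.degree (D - ptsDiv (T.erase v))
      = Divisor.degree D - ((T.erase v).card : ℤ) := by
    rw [map_sub, degree_ptsDiv H.deg_one]
  have hd'' : Divisor.degree (D - ptsDiv T) = Divisor.degree D - (T.card : ℤ) := by
    rw [map_sub, degree_ptsDiv H.deg_one]
  have hcardZ : ((T.erase v).card : ℤ) + 1 = (T.card : ℤ) := by exact_mod_cast hcard
  have e' := (hR (D - ptsDiv (T.erase v))).2 (by rw [hd']; omega)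
  have e'' := (hR (D - ptsDiv T)).2 (by rw [hd'']; omega)
  rw [hd'] at e'
  rw [hd''] at e''
  have hex : ∃ ψ ∈ L (D - ptsDiv (T.erase v)), ψ ∉ L (D - ptsDiv T) := by
    by_contra hne
    have hle : L (D - ptsDiv (T.erase v)) ≤ L (D - ptsDiv T) := by
      intro ψ hψ
      by_contra h
      exact hne ⟨ψ, hψ, h⟩
    haveI := H.finite (D - ptsDiv T)
    have h1 := Submodule.finrank_mono hle
    have h2 : (Module.finrank k (L (D - ptsDiv (T.erase v))) : ℤ)
        ≤ (Module.finrank k (L (D - ptsDiv T)) : ℤ) := by exact_mod_cast h1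
    omega
  obtain ⟨ψ, hψ', hψ''⟩ := hex
  have hψ0 : ψ ≠ 0 := by
    rintro rfl
    exact hψ'' (L (D - ptsDiv T)).zero_mem
  have hord : ∀ w, -(D - ptsDiv (T.erase v)) w ≤ w.ord ψ := fun w =>
    ord_ge_of_mem_L hψ' hψ0 w
  refine ⟨ψ, ?_, ?_, ?_, ?_⟩
  · refine L_mono' (fun w => ?_) hψ'
    rw [Finsupp.sub_apply]
    have := ptsDiv_nonneg (T.erase v) w
    omega
  · intro w hw hwv
    apply vanAt_of_ord_pos
    have h1 := hord w
    rw [Finsupp.sub_apply, ptsDiv_apply, if_pos (Finset.mem_erase.mpr ⟨hwv, hw⟩), hD w hw] at h1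
    omega
  · apply regAt_of_ord_nonneg
    have h1 := hord v
    rw [Finsupp.sub_apply, ptsDiv_apply, if_neg (Finset.notMem_erase v T), hD v hv] at h1
    omega
  · intro hvan
    apply hψ''
    rw [mem_L_iff_ord]
    intro w
    right
    rw [Finsupp.sub_apply, ptsDiv_apply]
    by_cases hwv : w = v
    · subst hwv
      rw [if_pos hv, hD w hv]
      have := hvan.ord_pos hψ0
      omega
    · have h1 := hord w
      rw [Finsupp.sub_apply, ptsDiv_apply] at h1
      by_cases hwT : w ∈ T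
      · rw [if_pos (Finset.mem_erase.mpr ⟨hwv, hwT⟩)] at h1
        rw [if_pos hwT]
        exact h1
      · rw [if_neg (fun h => hwT (Finset.mem_of_mem_erase h))] at h1
        rw [if_neg hwT]
        exact h1

end Interp

/-- The submodule of the pairs whose first component vanishes at `v`. -/
def vanSub {k F₁ F₂ : Type*} [Field k] [Field F₁] [Algebra k F₁] [Field F₂] [Algebra k F₂]
    (v : Place k F₁) : Submodule k (F₁ × F₂) where
  carrier := {ψ | VanAt v ψ.1}
  zero_mem' := vanAt_zero v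
  add_mem' := fun {a b} ha hb => by
    show VanAt v (a + b).1
    rw [Prod.fst_add]
    exact VanAt.add ha hb
  smul_mem' := fun c ψ h => by
    show VanAt v (c • ψ).1
    rw [Prod.smul_fst, Algebra.smul_def]
    exact (regAt_algebraMap v c).mul_vanAt h

theorem mem_vanSub {k F₁ F₂ : Type*} [Field k] [Field F₁] [Algebra k F₁] [Field F₂]
    [Algebra k F₂] (v : Place k F₁) (ψ : F₁ × F₂) :
    ψ ∈ vanSub (F₂ := F₂) v ↔ VanAt v ψ.1 := Iff.rfl

/-- **P6, the moving lemma**, from the surjectivity of the twisted reduction. -/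
theorem moving_of_twSurj (hTw : Fermat.Agent.BAD.Stmt_TwSurj) :
    Fermat.Agent.BAD.Stmt_Moving := by
  classical
  intro K F k F₁ F₂ _ _ _ _ _ _ _ _ _ S H H₁ H₂ g g₁ g₂ c c₁ c₂ hR hR₁ hR₂ hnum n hn x
  have hn0 : n ≠ 0 := by
    rintro rfl
    exact hn (by simp)
  have hnZ : (n : ℤ) ≠ 0 := by exact_mod_cast hn0
  -- regular points on the two components and places over them
  obtain ⟨Q₁, hQ₁⟩ := H₁.exists_notMem S.br₁
  obtain ⟨Q₂, hQ₂⟩ := H₂.exists_notMem S.br₂
  have hQ₁n : ∀ s ∈ S.nodes, s.1 ≠ Q₁ := fun s hs h =>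
    hQ₁ (h ▸ Finset.mem_image_of_mem Prod.fst hs)
  have hQ₂n : ∀ s ∈ S.nodes, s.2 ≠ Q₂ := fun s hs h =>
    hQ₂ (h ▸ Finset.mem_image_of_mem Prod.snd hs)
  have hQ₁g : Q₁ ∈ S.c₁.good := (S.good₁ Q₁).mpr hQ₁n
  have hQ₂g : Q₂ ∈ S.c₂.good := (S.good₂ Q₂).mpr hQ₂n
  obtain ⟨P₁, hP₁⟩ := S.c₁.r_surjective H.principal Q₁ hQ₁g
  obtain ⟨P₂, hP₂⟩ := S.c₂.r_surjective H.principal Q₂ hQ₂g
  have hP₁' : S.c₂.r P₁ = none := by
    rcases S.r_cases P₁ with ⟨Q, _, _, h2⟩ | ⟨Q, _, _, h2⟩ | ⟨s, hs, h1, _⟩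
    · exact h2
    · rw [hP₁] at h2
      exact absurd h2 (Option.some_ne_none _)
    · rw [hP₁] at h1
      exact absurd (Option.some.inj h1).symm (hQ₁n s hs)
  have hP₂' : S.c₁.r P₂ = none := by
    rcases S.r_cases P₂ with ⟨Q, _, _, h2⟩ | ⟨Q, _, _, h2⟩ | ⟨s, hs, _, h2⟩
    · rw [hP₂] at h2
      exact absurd h2 (Option.some_ne_none _)
    · exact h2
    · rw [hP₂] at h2
      exact absurd (Option.some.inj h2).symm (hQ₂n s hs)
  -- the divisor `G`
  set Δ : Divisor k F₂ := x.Δ H₂.principal with hΔ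
  set M : ℤ := |c₁| + |c₂| + (S.nodes.card : ℤ) + |Divisor.degree Δ| with hM
  set G : Divisor K F := Finsupp.single P₁ M + Finsupp.single P₂ M with hG
  have hpush₁ : S.push₁ G = Finsupp.single Q₁ M := by
    unfold SSD.push₁
    rw [hG, Finsupp.mapDomain_add, Finsupp.mapDomain_single, Finsupp.mapDomain_single, hP₁, hP₂',
      Finsupp.some_add, Finsupp.some_single_some, Finsupp.some_single_none, add_zero]
  have hpush₂ : S.push₂ G = Finsupp.single Q₂ M := by
    unfold SSD.push₂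
    rw [hG, Finsupp.mapDomain_add, Finsupp.mapDomain_single, Finsupp.mapDomain_single, hP₂, hP₁',
      Finsupp.some_add, Finsupp.some_single_some, Finsupp.some_single_none, zero_add]
  have hGood : S.GoodPos G := by
    rintro P hP ⟨s, hs, hsP⟩
    have hPP : P = P₁ ∨ P = P₂ := by
      by_contra hne
      rw [not_or] at hne
      apply hP
      rw [hG, Finsupp.add_apply, Finsupp.single_apply, Finsupp.single_apply,
        if_neg (Ne.symm hne.1), if_neg (Ne.symm hne.2), add_zero]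
    rcases hPP with rfl | rfl
    · rw [hP₁] at hsP
      exact hQ₁n s hs (Option.some.inj hsP).symm
    · rw [hP₂'] at hsP
      exact absurd hsP.symm (Option.some_ne_none _)
  have hdeg₁ : Divisor.degree (S.push₁ G) = M := by
    rw [hpush₁, Divisor.degree_single, H₁.deg_one, Nat.cast_one, mul_one]
  have hdeg₂ : Divisor.degree (S.push₂ G) = M := by
    rw [hpush₂, Divisor.degree_single, H₂.deg_one, Nat.cast_one, mul_one]
  have hM₁ : c₁ + (S.nodes.card : ℤ) ≤ M := by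
    have h1 := le_abs_self c₁
    have h2 := abs_nonneg c₂
    have h3 := abs_nonneg (Divisor.degree Δ)
    linarith
  have hM₂ : c₂ + (S.nodes.card : ℤ) ≤ M + Divisor.degree Δ := by
    have h1 := abs_nonneg c₁
    have h2 := le_abs_self c₂
    have h3 := neg_abs_le (Divisor.degree Δ)
    linarith
  have hM₂' : c₂ + (S.nodes.card : ℤ) ≤ M := by
    have h1 := abs_nonneg c₁
    have h2 := le_abs_self c₂
    have h3 := abs_nonneg (Divisor.degree Δ)
    linarith
  obtain ⟨lam, hlam0, hRL, -⟩ := hTw K F k F₁ F₂ S H H₁ H₂ g g₁ g₂ c c₁ c₂ hR hR₁ hR₂ hnum n hn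
    x G hGood (by rw [hdeg₁]; exact hM₁) (by rw [hdeg₂]; exact hM₂')
  -- the divisors on the components have no support at the branches
  have hG₁ : ∀ w ∈ S.br₁, (S.push₁ G) w = 0 := by
    intro w hw
    rw [hpush₁, Finsupp.single_apply, if_neg]
    rintro rfl
    exact hQ₁ hw
  have hG₂ : ∀ w ∈ S.br₂, (S.push₂ G + Δ) w = 0 := by
    intro w hw
    obtain ⟨s, hs, rfl⟩ := Finset.mem_image.mp hw
    rw [Finsupp.add_apply, hpush₂, Finsupp.single_apply, if_neg (fun h => hQ₂n s hs h.symm),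
      zero_add, hΔ]
    unfold SSD.Twist.Δ
    rw [Finsupp.mapRange_apply, dv_apply]
    have := x.hγ s hs
    unfold SSD.Twist.γ
    rw [this]
    exact Int.zero_ediv _
  have hcard₁ : (S.br₁.card : ℤ) ≤ (S.nodes.card : ℤ) := by
    exact_mod_cast Finset.card_image_le
  have hcard₂ : (S.br₂.card : ℤ) ≤ (S.nodes.card : ℤ) := by
    exact_mod_cast Finset.card_image_le
  -- the hyperplanes
  let Λ : Submodule k (F₁ × F₂) := S.Lam lam (S.push₁ G) (S.push₂ G + Δ)
  let W : Place k F₁ × Place k F₂ → Submodule k Λ := fun s =>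
    (vanSub (F₂ := F₂) s.1).comap Λ.subtype
  have hprop : ∀ s ∈ S.nodes, W s ≠ ⊤ := by
    intro s hs htop
    obtain ⟨ψ₁, hψ₁L, hψ₁v, hψ₁r, hψ₁n⟩ := exists_value_one H₁ hR₁ (S.push₁ G) S.br₁
      (v := s.1) (Finset.mem_image_of_mem Prod.fst hs) hG₁ (by rw [hdeg₁]; linarith)
    obtain ⟨ψ₂, hψ₂L, hψ₂v, hψ₂r, hψ₂n⟩ := exists_value_one H₂ hR₂ (S.push₂ G + Δ) S.br₂
      (v := s.2) (Finset.mem_image_of_mem Prod.snd hs) hG₂
      (by rw [map_add, hdeg₂]; linarith)
    obtain ⟨a₁, ha₁⟩ := exists_value s.1 (H₁.deg_one _) hψ₁r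
    obtain ⟨b, hb⟩ := exists_value s.2 (H₂.deg_one _) hψ₂r
    have ha₁0 : a₁ ≠ 0 := by
      rintro rfl
      rw [map_zero, sub_zero] at ha₁
      exact hψ₁n ha₁
    have hb0 : b ≠ 0 := by
      rintro rfl
      rw [map_zero, sub_zero] at hb
      exact hψ₂n hb
    have hl0 : lam s ≠ 0 := hlam0 s hs
    have hmem : ((ψ₁, (a₁ / (lam s * b)) • ψ₂) : F₁ × F₂) ∈ Λ := by
      refine ⟨hψ₁L, (L (S.push₂ G + Δ)).smul_mem _ hψ₂L, fun s' hs' => ?_⟩
      by_cases hss : s' = s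
      · subst hss
        refine ⟨a₁, ha₁, ?_⟩
        have h1 := (regAt_algebraMap s'.2 (lam s' * (a₁ / (lam s' * b)))).mul_vanAt hb
        have hab : lam s' * (a₁ / (lam s' * b)) * b = a₁ := by
          field_simp
        have hab' : algebraMap k F₂ (lam s' * (a₁ / (lam s' * b))) * algebraMap k F₂ b
            = algebraMap k F₂ a₁ := by
          rw [← map_mul, hab]
        have e : algebraMap k F₂ (lam s' * (a₁ / (lam s' * b))) * (ψ₂ - algebraMap k F₂ b)
            = algebraMap k F₂ (lam s') * ((a₁ / (lam s' * b)) • ψ₂) - algebraMap k F₂ a₁ := by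
          rw [mul_sub, hab', map_mul, Algebra.smul_def, mul_assoc]
        rwa [e] at h1
      · have h1ne : s'.1 ≠ s.1 := fun h => hss (S.inj₁ s' hs' s hs h)
        have h2ne : s'.2 ≠ s.2 := fun h => hss (S.inj₂ s' hs' s hs h)
        refine ⟨0, ?_, ?_⟩
        · rw [map_zero, sub_zero]
          exact hψ₁v s'.1 (Finset.mem_image_of_mem Prod.fst hs') h1ne
        · rw [map_zero, sub_zero]
          have h2 := hψ₂v s'.2 (Finset.mem_image_of_mem Prod.snd hs') h2ne
          show VanAt s'.2 (algebraMap k F₂ (lam s') * ((a₁ / (lam s * b)) • ψ₂))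
          rw [Algebra.smul_def]
          exact (regAt_algebraMap s'.2 _).mul_vanAt ((regAt_algebraMap s'.2 _).mul_vanAt h2)
    have htop' : (⟨_, hmem⟩ : Λ) ∈ W s := by
      rw [htop]
      exact Submodule.mem_top
    exact hψ₁n htop'
  obtain ⟨v, hv⟩ := H55.stmt_Avoid k Λ (Place k F₁ × Place k F₂) S.nodes W hprop
  have hvnv : ∀ s ∈ S.nodes, ¬ VanAt s.1 (v : F₁ × F₂).1 := fun s hs h => hv s hs h
  have hvΛ : (v : F₁ × F₂) ∈ S.Lam lam (S.push₁ G) (S.push₂ G + Δ) := v.2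
  have hvR : (v : F₁ × F₂) ∈ S.Rsub x.ϑ (x.Dx H.principal + G) := by
    rw [hRL]
    exact hvΛ
  obtain ⟨h, hhL, hh1, hh2, e1, e2⟩ := S.mem_Rsub.mp hvR
  -- values at the nodes
  have hval : ∀ s ∈ S.nodes, ((v : F₁ × F₂).1 ≠ 0 ∧ s.1.ord (v : F₁ × F₂).1 = 0) ∧
      ((v : F₁ × F₂).2 ≠ 0 ∧ s.2.ord (v : F₁ × F₂).2 = 0) := by
    intro s hs
    obtain ⟨a, ha1, ha2⟩ := hvΛ.2.2 s hs
    have ha0 : a ≠ 0 := by
      rintro rfl
      rw [map_zero, sub_zero] at ha1
      exact hvnv s hs ha1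
    refine ⟨ord_eq_zero_of_value ha0 ha1, ?_⟩
    obtain ⟨h3, h4⟩ := ord_eq_zero_of_value ha0 ha2
    have h5 : (v : F₁ × F₂).2 ≠ 0 := right_ne_zero_of_mul h3
    refine ⟨h5, ?_⟩
    rw [ord_algebraMap_mul s.2 (hlam0 s hs)] at h4
    exact h4
  obtain ⟨s₀, hs₀⟩ := S.nodes_nonempty
  have hGU₁ : S.c₁.IsGU h := ⟨hh1, by rw [e1]; exact (hval s₀ hs₀).1.1⟩
  have hGU₂ : S.c₂.IsGU (x.ϑ * h) := ⟨hh2, by rw [e2]; exact (hval s₀ hs₀).2.1⟩
  refine ⟨h, hGU₁, hGU₂, ?_⟩
  -- the orders on the fibres of the nodes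
  have hf0 : x.f ≠ 0 := by
    intro h0
    have := x.hrd₁
    rw [h0, S.c₁.rd_zero] at this
    exact zero_ne_one this
  have hh0 : h ≠ 0 := hGU₁.ne_zero
  have hFh₁ : x.f * h ^ n ∈ S.c₁.V := S.c₁.V.mul_mem _ _ x.hf₁ (S.c₁.V.pow_mem hh1 n)
  have hFeq : x.f * h ^ n = x.f / x.ϑ ^ n * (x.ϑ * h) ^ n := by
    have := pow_ne_zero n x.hϑ
    rw [mul_pow]
    field_simp
  have hFh₂ : x.f * h ^ n ∈ S.c₂.V := by
    rw [hFeq]
    exact S.c₂.V.mul_mem _ _ x.hf₂.1 (S.c₂.V.pow_mem hh2 n)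
  have hrd₁ : S.c₁.rd (x.f * h ^ n) = (v : F₁ × F₂).1 ^ n := by
    rw [S.c₁.rd_mul x.hf₁ (S.c₁.V.pow_mem hh1 n), x.hrd₁, one_mul, S.c₁.rd_pow hh1, e1]
  have hrd₂ : S.c₂.rd (x.f * h ^ n) = S.c₂.rd (x.f / x.ϑ ^ n) * (v : F₁ × F₂).2 ^ n := by
    rw [hFeq, S.c₂.rd_mul x.hf₂.1 (S.c₂.V.pow_mem hh2 n), S.c₂.rd_pow hh2, e2]
  have hnonneg : ∀ P : Place K F, S.IsNodeP P → 0 ≤ P.ord (x.f * h ^ n) := by
    intro P hP
    have hGP : G P = 0 := by
      by_contra hne
      exact hGood P hne hP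
    have h1 := ord_ge_of_mem_L hhL hh0 P
    rw [Finsupp.add_apply, hGP, add_zero] at h1
    unfold SSD.Twist.Dx at h1
    rw [Finsupp.mapRange_apply, dv_apply] at h1
    have h2 := Int.mul_ediv_cancel' (x.hdiv P)
    rw [P.ord_mul hf0 (pow_ne_zero n hh0), ord_pow]
    have h3 : (n : ℤ) * (P.ord x.f / (n : ℤ)) + (n : ℤ) * P.ord h ≥ 0 := by
      have hnpos : (0 : ℤ) ≤ (n : ℤ) := Int.natCast_nonneg n
      have h4 : 0 ≤ P.ord x.f / (n : ℤ) + P.ord h := by omega
      have h5 := mul_nonneg hnpos h4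
      rw [mul_add] at h5
      exact h5
    omega
  intro P hP
  obtain ⟨s, hs, hsP⟩ := hP
  have hDIn := S.DIn s hs ⟨x.f * h ^ n, hFh₁⟩ ⟨x.f * h ^ n, hFh₂⟩
    (by
      rw [← S.c₁.rd_of_mem hFh₁, hrd₁]
      exact pow_ne_zero n (hval s hs).1.1)
    (by
      rw [← S.c₂.rd_of_mem hFh₂, hrd₂]
      exact mul_ne_zero x.hf₂.2 (pow_ne_zero n (hval s hs).2.1))
    ⟨1, by rw [map_one, one_mul]⟩ (dv H.principal (x.f * h ^ n))
    (fun P' => dv_apply H.principal _ P')
  rw [← S.c₁.rd_of_mem hFh₁, ← S.c₂.rd_of_mem hFh₂, hrd₁, hrd₂, ord_pow, (hval s hs).1.2,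
    s.2.ord_mul x.hf₂.2 (pow_ne_zero n (hval s hs).2.1), ord_pow, (hval s hs).2.2, x.hγ s hs,
    mul_zero, add_zero, add_zero, mapDomain_apply_eq_sum] at hDIn
  have hzero := (Finset.sum_eq_zero_iff_of_nonneg (fun P' _ => by
    split_ifs with hr
    · rw [dv_apply]
      exact hnonneg P' ⟨s, hs, hr⟩
    · exact le_rfl)).mp hDIn
  by_cases hPs : P ∈ (dv H.principal (x.f * h ^ n)).support
  · have := hzero P hPs
    rw [if_pos hsP, dv_apply] at this
    exact this
  · rw [Finsupp.notMem_support_iff, dv_apply] at hPs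
    exact hPs

end Fermat.Agent.BAD.H90
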