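import Fermat.Agent.BAD.H28_ABS
import Fermat.Agent.BAD.H90_Moving

/-!
# Item 65, package ABS: `Stmt_ABS` is PROVED

`Fermat.Agent.BAD.stmt_ABS : Stmt_ABS` (= (B1), abstract form): for a semistable Deuring datum
`S : SSD K F k F₁ F₂` (two components, ordinary double points), `K`, `k` algebraically closed,
Riemann's theorem for `F`, `F₁`, `F₂` with `g ≤ g₁ + g₂ + δ - 1`, `n` invertible in `k`, `σ`
inertial: if `f ∈ V₁`, `red₁ f = 1` and `n ∣ div f`, then `σ f / f` is an `n`-th power.

Also unconditional: `stmt_Moving` (moving lemma), `H28.stmt_TIss` (torsion injectivity in good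
position), `H28.stmt_GoodLift`, `H28.stmt_Coords`, `H28.stmt_TwSurj`.

Leaves: helper17 (Pivot, Contain, Contain0; author of route C), helper41 (Linearise, TwSurj),
helper60 (NS, LNeg, NodalNS, LamCount, GoodLift, Coords), helper90 (TwistExists, Moving,
Linearise), helper1 (TIss from the key lemma), helper55 (Ratio, Avoid, Eval), helper28 (SSD,
skeleton, PRed port, nodal key lemma, final assembly).
-/

set_option autoImplicit false

namespace Fermat.Agent.BAD

/-- The moving lemma. -/
theorem stmt_Moving : Stmt_Moving := H90.moving_of_twSurj H28.stmt_TwSurj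

/-- **Package ABS.** -/
theorem stmt_ABS : Stmt_ABS := H28.stmt_ABS_of_moving stmt_Moving

end Fermat.Agent.BAD
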