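import Fermat.Agent.RED.H17_FF
import Fermat.Prelude.Def_AlgebraicCurve_BaseChangeGalois

/-!
# Item 65, package ABS (helper28): the abstract semistable Deuring datum (SSD)

Interface file.  Plan: `NOTES/plan/BAD_ABS.md`.

* `PRed K F k F'` : a valuation ring `V` of the function field `F / K` with residue map
  `red : V → F'` onto a function field `F' / k`, a PARTIAL reduction map `r` on places and a set
  `good` of places of `F'` at which the conservation law (divisor identity) holds.  This is
  helper17's `RedSetup` (G-RED route C) with the divisor identity required at the good places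
  only.
* `SSD K F k F₁ F₂` : two such data (the two components `C₁`, `C₂` of the special fibre), a
  finite set of nodes (pairs of branches `(s₁, s₂)`), conservation at the nodes (`DIn`) and the
  gluing condition (`glue`).
* `SSD.IsInertial σ` : the semilinear automorphism `σ` preserves the datum and acts trivially on
  the reductions.
* `Stmt_ABS` : **(B1), abstract form**: if `f ∈ V₁` has reduction `1` on the first component and
  all its orders are divisible by `n` (`n` invertible in `k`), then `σ f / f` is an `n`-th power,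
  for every inertial `σ`.

This file contains definitions only.
-/

set_option autoImplicit false

noncomputable section

open AlgebraicCurve

namespace Fermat.Agent.BAD

open Fermat.Agent.RED.H17

/-- Reduction data at one component: a valuation ring of `F` with residue map onto `F'`, a
partial reduction map on places and the divisor identity at the good places. -/
structure PRed (K F k F' : Type*) [Field K] [Field F] [Algebra K F] [Field k] [Field F']
    [Algebra k F'] where
  /-- the valuation ring (Gauss valuation of the component) -/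
  V : ValuationSubring F
  /-- reduction of integral functions -/
  red : V →+* F'
  red_eq_zero_iff : ∀ u : V, red u = 0 ↔ u ∈ IsLocalRing.maximalIdeal V
  red_surj : Function.Surjective red
  /-- every non-zero function is a constant times a unit -/
  exists_scale : ∀ f : F, f ≠ 0 → ∃ c : K, c ≠ 0 ∧
    ∃ h : algebraMap K F c * f ∈ V, red ⟨_, h⟩ ≠ 0
  /-- integral constants reduce to constants -/
  red_const : ∀ (c : K) (h : algebraMap K F c ∈ V), ∃ c' : k, red ⟨_, h⟩ = algebraMap k F' c'
  /-- every constant of the residue field lifts -/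
  const_surj : ∀ c' : k, ∃ (c : K) (h : algebraMap K F c ∈ V),
    red ⟨_, h⟩ = algebraMap k F' c'
  /-- partial reduction of places: `none` = the place does not reduce to this component -/
  r : Place K F → Option (Place k F')
  /-- the places of the component at which the divisor identity holds (the regular points) -/
  good : Set (Place k F')
  /-- the divisor identity at the good places -/
  DI : ∀ u : V, red u ≠ 0 → ∀ D : Divisor K F, (∀ P, D P = P.ord (u : F)) →
    ∀ Q ∈ good, Finsupp.mapDomain r D (some Q) = Q.ord (red u)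

/-- **Semistable Deuring datum** with two components. -/
structure SSD (K F k F₁ F₂ : Type*) [Field K] [Field F] [Algebra K F] [Field k] [Field F₁]
    [Algebra k F₁] [Field F₂] [Algebra k F₂] where
  /-- the first component -/
  c₁ : PRed K F k F₁
  /-- the second component -/
  c₂ : PRed K F k F₂
  /-- the nodes, as pairs of branches -/
  nodes : Finset (Place k F₁ × Place k F₂)
  nodes_nonempty : nodes.Nonempty
  inj₁ : ∀ s ∈ nodes, ∀ s' ∈ nodes, s.1 = s'.1 → s = s'
  inj₂ : ∀ s ∈ nodes, ∀ s' ∈ nodes, s.2 = s'.2 → s = s'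
  /-- the good places of the first component are the places which are not branches of nodes -/
  good₁ : ∀ Q, Q ∈ c₁.good ↔ ∀ s ∈ nodes, s.1 ≠ Q
  good₂ : ∀ Q, Q ∈ c₂.good ↔ ∀ s ∈ nodes, s.2 ≠ Q
  /-- every place reduces to a regular point of `C₁`, or to a regular point of `C₂`, or to a
  node -/
  r_cases : ∀ P, (∃ Q ∈ c₁.good, c₁.r P = some Q ∧ c₂.r P = none) ∨
    (∃ Q ∈ c₂.good, c₂.r P = some Q ∧ c₁.r P = none) ∨
    ∃ s ∈ nodes, c₁.r P = some s.1 ∧ c₂.r P = some s.2
  /-- the two valuations agree on the constants -/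
  const_mem : ∀ c : K, algebraMap K F c ∈ c₁.V ↔ algebraMap K F c ∈ c₂.V
  const_red : ∀ (c : K) (h₁ : algebraMap K F c ∈ c₁.V) (h₂ : algebraMap K F c ∈ c₂.V) (a : k),
    c₁.red ⟨_, h₁⟩ = algebraMap k F₁ a → c₂.red ⟨_, h₂⟩ = algebraMap k F₂ a
  /-- conservation at the nodes: the number of zeros minus poles of `u` reducing to the node `s`
  is the sum of the orders of the two (scaled) reductions at the two branches -/
  DIn : ∀ s ∈ nodes, ∀ (u₁ : c₁.V) (u₂ : c₂.V), c₁.red u₁ ≠ 0 → c₂.red u₂ ≠ 0 →
    (∃ c : K, (u₂ : F) = algebraMap K F c * (u₁ : F)) →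
    ∀ D : Divisor K F, (∀ P, D P = P.ord (u₁ : F)) →
      Finsupp.mapDomain c₁.r D (some s.1) = s.1.ord (c₁.red u₁) + s.2.ord (c₂.red u₂)
  /-- gluing: a function integral for both valuations without pole reducing to the node `s` has
  reductions regular at the two branches, with the same value -/
  glue : ∀ s ∈ nodes, ∀ (f : F) (h₁ : f ∈ c₁.V) (h₂ : f ∈ c₂.V),
    (∀ P, c₁.r P = some s.1 → 0 ≤ P.ord f) →
    ∃ a : k, VanAt s.1 (c₁.red ⟨f, h₁⟩ - algebraMap k F₁ a) ∧
      VanAt s.2 (c₂.red ⟨f, h₂⟩ - algebraMap k F₂ a)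

namespace SSD

variable {K F k F₁ F₂ : Type*} [Field K] [Field F] [Algebra K F] [Field k] [Field F₁]
  [Algebra k F₁] [Field F₂] [Algebra k F₂]

/-- `σ` preserves the datum and acts trivially on the two reductions (an element of the inertia
group). -/
structure IsInertial (S : SSD K F k F₁ F₂) (σ : SemilinearAut K F) : Prop where
  mem₁ : ∀ f : F, f ∈ S.c₁.V → σ • f ∈ S.c₁.V
  mem₂ : ∀ f : F, f ∈ S.c₂.V → σ • f ∈ S.c₂.V
  red₁ : ∀ (f : F) (h : f ∈ S.c₁.V) (h' : σ • f ∈ S.c₁.V), S.c₁.red ⟨_, h'⟩ = S.c₁.red ⟨f, h⟩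
  red₂ : ∀ (f : F) (h : f ∈ S.c₂.V) (h' : σ • f ∈ S.c₂.V), S.c₂.red ⟨_, h'⟩ = S.c₂.red ⟨f, h⟩
  r₁ : ∀ P : Place K F, S.c₁.r (σ • P) = S.c₁.r P
  r₂ : ∀ P : Place K F, S.c₂.r (σ • P) = S.c₂.r P

end SSD

/-- **Package ABS = (B1), abstract form.**  `K`, `k` algebraically closed, `F / K`, `F₁ / k`,
`F₂ / k` function fields satisfying Riemann's theorem with genera `g`, `g₁`, `g₂`, with
`g ≤ g₁ + g₂ + δ - 1` (`δ` the number of nodes).  If `f ∈ V₁` has reduction `1` on the first
component and all orders of `f` are divisible by `n`, `n` invertible in `k`, then `σ f / f` is an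
`n`-th power in `F` for every inertial `σ`. -/
def Stmt_ABS : Prop :=
  ∀ (K F k F₁ F₂ : Type) [Field K] [Field F] [Algebra K F] [Field k] [Field F₁]
    [Algebra k F₁] [Field F₂] [Algebra k F₂] [IsAlgClosed K] [IsAlgClosed k]
    (S : SSD K F k F₁ F₂) (_ : FFHyp K F) (_ : FFHyp k F₁) (_ : FFHyp k F₂)
    (g g₁ g₂ : ℕ) (c c₁ c₂ : ℤ), IsGenus K F g c → IsGenus k F₁ g₁ c₁ → IsGenus k F₂ g₂ c₂ →
    g + 1 ≤ g₁ + g₂ + S.nodes.card →
    ∀ (n : ℕ), (n : k) ≠ 0 →
    ∀ (σ : SemilinearAut K F), S.IsInertial σ →
    ∀ (f : F) (hf : f ∈ S.c₁.V), S.c₁.red ⟨f, hf⟩ = 1 →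
      (∀ P : Place K F, (n : ℤ) ∣ P.ord f) →
      ∃ t : F, t ^ n = (σ • f) / f

end Fermat.Agent.BAD
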