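import Fermat.Agent.RED.H73_GAModular
import Fermat.Agent.RED.H73_GAVal
import Fermat.Agent.BAD.SSD
import Fermat.Prelude.Def_ModularCurve_ArithmeticGalois
import Fermat.Prelude.Def_FLTPrelim_Ramification

/-!
# Item 65, package BAD_q: interface statements of the S34 slice  (helper91, coordinator)

Plan: `NOTES/plan/BAD.md`.  Setting: `K = ℚ̄`, `A ⊂ K` a valuation ring over the prime `q`,
`F = F_N · K ⊂ K((t))`, `V = gaussValSub A F h` the Gauss valuation ring of helper73 (it exists for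
EVERY level `N`, also for `q ∣ N`), `res = gaussResF' A h`.

* `Stmt_TorsUnip N p` **(UNIP)** : `(σ - 1)(τ - 1) x = 0` for `σ, τ` in an inertia group over
  `q ‖ N`, `q ≠ p`, and `x ∈ J₀(N)[p^∞]`.  This is the torsion-level input of
  `Fermat.Agent.S34.H91.Stmt_TatePieceU`.
* `InK1 A N n x` : the class `x` has a Kummer function which is `≡ 1` for the Gauss valuation
  ("the Kummer cover of `x` splits completely over the component of `∞`").
* `Stmt_B0 N` **(B0)** : `(σ - 1) J₀(N)[n] ⊆ K1(n)` for `σ` in inertia.  FREE (`BAD/H91_B0.lean`).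
* `Stmt_B1core N q` **(B1), Kummer form** : if `f ∈ V`, `res f = 1` and `n ∣ div f`, `q ∤ n`, then
  `σ f / f` is an `n`-th power for `σ` in inertia over `q`.
* `Stmt_B1 N q` **(B1)** : inertia over `q` acts trivially on `K1(n)`, `q ∤ n`.
* `Stmt_ModSSD N q` : the modular side: a semistable Deuring datum (helper28's `SSD`) for
  `F_N · K` whose first component is the Gauss valuation, on which the inertia group acts
  inertially, with Riemann's theorem and enough nodes.

This file contains definitions only.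
-/

set_option autoImplicit false

noncomputable section

open AlgebraicCurve ModularCurve Fermat.Agent.S28.H73 Fermat.Agent.RED.H73

namespace Fermat.Agent.BAD

/-- The absolute Galois group of `ℚ`. -/
abbrev GalQ : Type := AlgebraicClosure ℚ ≃ₐ[ℚ] AlgebraicClosure ℚ

/-- The function field `F_N · ℚ̄`. -/
abbrev FNbar (N : ℕ) : IntermediateField (AlgebraicClosure ℚ) (LaurentSeries (AlgebraicClosure ℚ)) :=
  modularFunctionFieldBar N

/-- The Gauss valuation ring of `F_N · ℚ̄` with respect to `A`. -/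
abbrev gaussV (A : ValuationSubring (AlgebraicClosure ℚ)) (N : ℕ) : ValuationSubring ↥(FNbar N) :=
  gaussValSub A (FNbar N) (hasScale_laurentBaseChange A N)

/-- The reduction map of the Gauss valuation ring of `F_N · ℚ̄`. -/
abbrev gaussRes (A : ValuationSubring (AlgebraicClosure ℚ)) (N : ℕ) :
    ↥(gaussV A N) →+* ↥(redField A (FNbar N) (hasScale_laurentBaseChange A N)) :=
  gaussResF' A (hasScale_laurentBaseChange A N)

/-- The coefficientwise action of `σ ∈ G_ℚ` on `F_N · ℚ̄`. -/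
abbrev galF (N : ℕ) (σ : GalQ) : SemilinearAut (AlgebraicClosure ℚ) ↥(FNbar N) :=
  arithmeticGalois (modularFunctionFieldFull N) σ

/-- **(UNIP)**: inertia at `q ‖ N`, `q ≠ p`, acts unipotently (of level two) on the `p`-power
torsion of `J₀(N)`. -/
def Stmt_TorsUnip (N p : ℕ) [NeZero N] : Prop :=
  ∀ q : ℕ, q.Prime → q ∣ N → ¬ q ^ 2 ∣ N → q ≠ p →
    ∀ A : ValuationSubring (AlgebraicClosure ℚ), A.LiesOverPrime q →
      ∀ σ ∈ A.inertiaSubgroupIn ℚ, ∀ τ ∈ A.inertiaSubgroupIn ℚ,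
        ∀ x : JZero N, (∃ n : ℕ, p ^ n • x = 0) → σ • τ • x - σ • x - τ • x + x = 0

/-- `x ∈ K1(n)`: the class `x` is represented by a divisor `D` with `n D = div f` for a function
`f` of the Gauss valuation ring with reduction `1`. -/
def InK1 (A : ValuationSubring (AlgebraicClosure ℚ)) (N n : ℕ) (x : JZero N) : Prop :=
  ∃ (D : Divisor.degZero (K := AlgebraicClosure ℚ) (F := ↥(FNbar N))) (f : ↥(gaussV A N)),
    x = Pic0.mk D ∧ gaussRes A N f = 1 ∧
    ∀ P : Place (AlgebraicClosure ℚ) ↥(FNbar N),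
      (n : ℤ) * (D : Divisor (AlgebraicClosure ℚ) ↥(FNbar N)) P = P.ord ((f : ↥(FNbar N)))

/-- **(B0)**: `(σ - 1)` maps the `n`-torsion into `K1(n)`, for every `σ` in an inertia group
(every level, every prime, every `n`). -/
def Stmt_B0 (N : ℕ) : Prop :=
  ∀ A : ValuationSubring (AlgebraicClosure ℚ), ∀ σ ∈ A.inertiaSubgroupIn ℚ,
    ∀ (n : ℕ) (x : JZero N), n • x = 0 → InK1 A N n (σ • x - x)

/-- **(B1), Kummer form**, at the prime `q`: a function `f ≡ 1` for the Gauss valuation whose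
divisor is divisible by `n`, `q ∤ n`, satisfies `σ f / f ∈ (F^×)^n` for `σ` in inertia. -/
def Stmt_B1core (N q : ℕ) : Prop :=
  ∀ A : ValuationSubring (AlgebraicClosure ℚ), A.LiesOverPrime q →
    ∀ σ ∈ A.inertiaSubgroupIn ℚ, ∀ n : ℕ, ¬ q ∣ n →
      ∀ f : ↥(gaussV A N), gaussRes A N f = 1 →
        (∀ P : Place (AlgebraicClosure ℚ) ↥(FNbar N), (n : ℤ) ∣ P.ord ((f : ↥(FNbar N)))) →
        ∃ t : ↥(FNbar N), t ^ n = (galF N σ • ((f : ↥(FNbar N)))) / ((f : ↥(FNbar N)))

/-- **(B1)** at the prime `q`: inertia acts trivially on `K1(n)`, `q ∤ n`. -/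
def Stmt_B1 (N q : ℕ) : Prop :=
  ∀ A : ValuationSubring (AlgebraicClosure ℚ), A.LiesOverPrime q →
    ∀ σ ∈ A.inertiaSubgroupIn ℚ, ∀ n : ℕ, ¬ q ∣ n →
      ∀ x : JZero N, InK1 A N n x → σ • x = x

/-- **The modular side** of BAD_q at `(N, q)`: for every `A` over `q` there is a semistable
Deuring datum for `F_N · ℚ̄` whose first component is the Gauss valuation ring, such that the
inertia group of `A` acts inertially, Riemann's theorem holds for the three function fields and
there are enough nodes. -/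
def Stmt_ModSSD (N q : ℕ) : Prop :=
  ∀ A : ValuationSubring (AlgebraicClosure ℚ), A.LiesOverPrime q →
    ∃ (F₁ F₂ : Type) (_ : Field F₁) (_ : Algebra (kV A) F₁) (_ : Field F₂)
      (_ : Algebra (kV A) F₂)
      (S : SSD (AlgebraicClosure ℚ) ↥(FNbar N) (kV A) F₁ F₂)
      (_ : RED.H17.FFHyp (AlgebraicClosure ℚ) ↥(FNbar N)) (_ : RED.H17.FFHyp (kV A) F₁)
      (_ : RED.H17.FFHyp (kV A) F₂) (g g₁ g₂ : ℕ) (c c₁ c₂ : ℤ),
      RED.H17.IsGenus (AlgebraicClosure ℚ) ↥(FNbar N) g c ∧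
      RED.H17.IsGenus (kV A) F₁ g₁ c₁ ∧ RED.H17.IsGenus (kV A) F₂ g₂ c₂ ∧
      g + 1 ≤ g₁ + g₂ + S.nodes.card ∧
      (∀ f : ↥(FNbar N), f ∈ gaussV A N → f ∈ S.c₁.V) ∧
      (∀ (f : ↥(gaussV A N)) (hf : (f : ↥(FNbar N)) ∈ S.c₁.V), gaussRes A N f = 1 →
        S.c₁.red ⟨(f : ↥(FNbar N)), hf⟩ = 1) ∧
      ∀ σ ∈ A.inertiaSubgroupIn ℚ, S.IsInertial (galF N σ)

end Fermat.Agent.BAD
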