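import Fermat.Agent.BAD.H28_Stmts

/-!
# Item 65, package ABS, leaf P1 (helper60): `Stmt_NS` and `Stmt_LNeg`

* `H60.stmt_LNeg : Stmt_LNeg`: `L(G) = 0` if `deg G < 0`;
* `H60.stmt_NS : Stmt_NS`: the general "non-special points" lemma: if `l(G) = l₀` and
  `deg G + m ≤ g - 1 + l₀`, then there are `m` distinct places `A` outside a given finite set
  with `l(G + ∑ A) = l₀`.
-/

set_option autoImplicit false
set_option linter.style.haveILetI false

noncomputable section

open AlgebraicCurve

attribute [local instance] Classical.propDecidable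

namespace Fermat.Agent.BAD.H60

open Fermat.Agent.RED.H17

local notation "L" => riemannRochSpace

variable {k F : Type*} [Field k] [Field F] [Algebra k F]

/-- The degree of an effective divisor is non-negative (all places of degree one). -/
theorem degree_nonneg_of_nonneg (hdeg : ∀ v : Place k F, v.deg = 1) (D : Divisor k F)
    (hD : ∀ v, 0 ≤ D v) : 0 ≤ Divisor.degree D := by
  rw [degree_eq_sum hdeg, Finsupp.sum]
  exact Finset.sum_nonneg fun v _ => hD v

/-- `L(G) = 0` if `deg G < 0`. -/
theorem L_eq_bot_of_degree_neg (H : FFHyp k F) (G : Divisor k F)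
    (hG : Divisor.degree G < 0) : L G = ⊥ := by
  rw [eq_bot_iff]
  intro f hf
  rw [Submodule.mem_bot]
  by_contra hf0
  haveI := H.principal
  obtain ⟨D, hD, hD0⟩ := HasPrincipalDivisors.exists_divisor (K := k) f hf0
  have h1 : 0 ≤ Divisor.degree (D + G) := by
    apply degree_nonneg_of_nonneg H.deg_one
    intro v
    have h2 := ord_ge_of_mem_L hf hf0 v
    rw [Finsupp.add_apply, hD v]
    omega
  rw [map_add, hD0, zero_add] at h1
  omega

theorem stmt_LNeg : Stmt_LNeg := by
  intro k F _ _ _ H G hG
  exact L_eq_bot_of_degree_neg H G hG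

/-- One step of the search: either a good point outside `T`, or `N` bad points. -/
theorem search_good [Infinite k] (H : FFHyp k F) (D : Divisor k F) (T : Finset (Place k F))
    (N : ℕ) :
    (∃ v, v ∉ T ∧ L (D + Finsupp.single v 1) ≤ L D) ∨
      ∃ B : Finset (Place k F), B.card = N ∧
        ∀ v ∈ B, ¬ (L (D + Finsupp.single v 1) ≤ L D) := by
  induction N with
  | zero => exact Or.inr ⟨∅, rfl, fun v hv => absurd hv (Finset.notMem_empty v)⟩
  | succ N ihN =>
    rcases ihN with h | ⟨B, hB, hbad⟩
    · exact Or.inl h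
    obtain ⟨v, hv⟩ := H.exists_notMem (T ∪ B)
    rw [Finset.mem_union, not_or] at hv
    by_cases hgood : L (D + Finsupp.single v 1) ≤ L D
    · exact Or.inl ⟨v, hv.1, hgood⟩
    · right
      refine ⟨insert v B, by rw [Finset.card_insert_of_notMem hv.2, hB], ?_⟩
      intro w hw
      rcases Finset.mem_insert.mp hw with rfl | hw
      · exact hgood
      · exact hbad w hw

/-- A good point: if `l(D) + deg-bound` holds, there is a place `v` outside `T` with
`L(D + v) = L(D)`. -/
theorem exists_good_point [Infinite k] (H : FFHyp k F) {g : ℕ} {c : ℤ}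
    (hR : IsGenus k F g c) (D : Divisor k F) (T : Finset (Place k F))
    (hD : Divisor.degree D + 1 < (g : ℤ) + Module.finrank k (L D)) :
    ∃ v, v ∉ T ∧ Module.finrank k (L (D + Finsupp.single v 1)) = Module.finrank k (L D) := by
  rcases search_good H D T (c - Divisor.degree D).toNat with ⟨v, hv, hgood⟩ | ⟨B, hB, hbad⟩
  · refine ⟨v, hv, le_antisymm ?_ ?_⟩
    · haveI := H.finite D
      exact Submodule.finrank_mono hgood
    · haveI := H.finite (D + Finsupp.single v 1)
      apply Submodule.finrank_mono
      apply L_mono'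
      intro w
      simp only [Finsupp.add_apply, Finsupp.single_apply]
      split_ifs <;> omega
  · exfalso
    have h1 := H.finrank_add_ptsDiv_ge D B hbad
    have hdeg : Divisor.degree (D + ptsDiv B) = Divisor.degree D + (c - Divisor.degree D).toNat := by
      rw [map_add, degree_ptsDiv H.deg_one, hB]
    have h2 := (hR (D + ptsDiv B)).2 (by rw [hdeg]; omega)
    rw [hdeg] at h2
    rw [hB] at h1
    omega

theorem exists_nonspecial_general [Infinite k] (H : FFHyp k F) {g : ℕ} {c : ℤ}
    (hR : IsGenus k F g c) (G : Divisor k F) (T : Finset (Place k F)) (m l₀ : ℕ)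
    (hl : Module.finrank k (L G) = l₀) (hdeg : Divisor.degree G + m ≤ (g : ℤ) - 1 + l₀) :
    ∃ A : Finset (Place k F), A.card = m ∧ Disjoint A T ∧
      Module.finrank k (L (G + ptsDiv A)) = l₀ := by
  have key : ∀ j : ℕ, j ≤ m → ∃ A : Finset (Place k F), A.card = j ∧ Disjoint A T ∧
      Module.finrank k (L (G + ptsDiv A)) = l₀ := by
    intro j
    induction j with
    | zero =>
      intro _
      exact ⟨∅, rfl, Finset.disjoint_empty_left T, by rw [ptsDiv_empty, add_zero]; exact hl⟩
    | succ j ih =>
      intro hj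
      obtain ⟨A, hA, hAT, hlA⟩ := ih (by omega)
      have hdegA : Divisor.degree (G + ptsDiv A) = Divisor.degree G + j := by
        rw [map_add, degree_ptsDiv H.deg_one, hA]
      obtain ⟨v, hv, hlv⟩ := exists_good_point H hR (G + ptsDiv A) (A ∪ T) (by
        rw [hdegA, hlA]
        have : (j : ℤ) + 1 ≤ m := by exact_mod_cast hj
        omega)
      rw [Finset.mem_union, not_or] at hv
      refine ⟨insert v A, by rw [Finset.card_insert_of_notMem hv.1, hA], ?_, ?_⟩
      · rw [Finset.disjoint_insert_left]
        exact ⟨hv.2, hAT⟩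
      · rw [ptsDiv_insert hv.1, ← add_assoc, hlv, hlA]
  exact key m le_rfl

theorem stmt_NS : Stmt_NS := by
  intro k F _ _ _ _ H g c hR G T m l₀ hl hdeg
  exact exists_nonspecial_general H hR G T m l₀ hl hdeg

end Fermat.Agent.BAD.H60
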