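import Fermat.Agent.BAD.H28_Skel
import Fermat.Agent.BAD.H60_NS

/-!
# Item 65, package ABS, leaf 8 = P1' (helper60): `Stmt_NodalNS`

A non-special pair on the nodal curve: `A₂` of degree `g₂` with `L₂(A₂) = k` and `A₁` of degree
`g₁ + δ - 1` with `L₁(A₁ - ∑ s₁) = 0`.  A glued pair `(ψ₁, ψ₂) ∈ L₁(A₁) × L₂(A₂)` is then a
constant pair.
-/

set_option autoImplicit false
set_option linter.style.haveILetI false

noncomputable section

open AlgebraicCurve

attribute [local instance] Classical.propDecidable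

namespace Fermat.Agent.BAD.H60

open Fermat.Agent.RED.H17 Fermat.Agent.RED

local notation "L" => riemannRochSpace

section

variable {K F k F₁ F₂ : Type*} [Field K] [Field F] [Algebra K F] [Field k] [Field F₁]
  [Algebra k F₁] [Field F₂] [Algebra k F₂] (S : SSD K F k F₁ F₂)

theorem card_br₁ : S.br₁.card = S.nodes.card := by
  unfold SSD.br₁
  apply Finset.card_image_of_injOn
  intro s hs s' hs' h
  exact S.inj₁ s hs s' hs' h

theorem card_br₂ : S.br₂.card = S.nodes.card := by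
  unfold SSD.br₂
  apply Finset.card_image_of_injOn
  intro s hs s' hs' h
  exact S.inj₂ s hs s' hs' h

theorem fst_mem_br₁ {s : Place k F₁ × Place k F₂} (hs : s ∈ S.nodes) : s.1 ∈ S.br₁ :=
  Finset.mem_image_of_mem _ hs

theorem snd_mem_br₂ {s : Place k F₁ × Place k F₂} (hs : s ∈ S.nodes) : s.2 ∈ S.br₂ :=
  Finset.mem_image_of_mem _ hs

end

section

variable {k F : Type*} [Field k] [Field F] [Algebra k F]

/-- `l(0) = 1`. -/
theorem finrank_L_zero (H : FFHyp k F) : Module.finrank k (L (0 : Divisor k F)) = 1 := by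
  apply le_antisymm H.finrank_L_zero_le
  haveI := H.finite 0
  rw [Nat.one_le_iff_ne_zero, Ne, Submodule.finrank_eq_zero]
  intro hbot
  have := one_mem_L_of_nonneg (D := (0 : Divisor k F)) (fun _ => le_rfl)
  rw [hbot, Submodule.mem_bot] at this
  exact one_ne_zero this

/-- Constants belong to `L(D)` for `D ≥ 0`. -/
theorem algebraMap_mem_L_of_nonneg {D : Divisor k F} (hD : ∀ v, 0 ≤ D v) (a : k) :
    algebraMap k F a ∈ L D := by
  rw [Algebra.algebraMap_eq_smul_one]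
  exact (L D).smul_mem a (one_mem_L_of_nonneg hD)

/-- A function of `L(A)` vanishing at the points of `B` (disjoint from `A`) belongs to
`L(-B + A)`. -/
theorem mem_L_neg_add_of_vanAt {A B : Finset (Place k F)} (hAB : Disjoint A B) {φ : F}
    (hφ : φ ∈ L (ptsDiv A)) (hv : ∀ v ∈ B, VanAt v φ) : φ ∈ L (-ptsDiv B + ptsDiv A) := by
  rw [mem_L_iff_ord]
  intro v
  by_cases hφ0 : φ = 0
  · exact Or.inl hφ0
  right
  by_cases hvB : v ∈ B
  · have hvA : v ∉ A := fun h => (Finset.disjoint_left.mp hAB h) hvB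
    have h1 := (hv v hvB).ord_pos hφ0
    simp only [Finsupp.add_apply, Finsupp.neg_apply, ptsDiv_apply, if_pos hvB, if_neg hvA]
    omega
  · have h1 := ord_ge_of_mem_L hφ hφ0 v
    simp only [Finsupp.add_apply, Finsupp.neg_apply, ptsDiv_apply, if_neg hvB] at h1 ⊢
    omega

end

theorem stmt_NodalNS : Stmt_NodalNS := by
  intro K F k F₁ F₂ _ _ _ _ _ _ _ _ _ S H₁ H₂ g₁ g₂ c₁ c₂ hR₁ hR₂ T₁ T₂
  -- the divisor `A₂`
  obtain ⟨A₂, hA₂c, hA₂d, hA₂l⟩ := exists_nonspecial_general H₂ hR₂ 0 (S.br₂ ∪ T₂) g₂ 1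
    (finrank_L_zero H₂) (by rw [map_zero]; push_cast; omega)
  rw [zero_add] at hA₂l
  -- the divisor `A₁`
  have hδ : 1 ≤ S.nodes.card := Finset.card_pos.mpr S.nodes_nonempty
  have hdeg : Divisor.degree (-ptsDiv S.br₁) = -(S.nodes.card : ℤ) := by
    rw [map_neg, degree_ptsDiv H₁.deg_one, card_br₁]
  have hlG : Module.finrank k (L (-ptsDiv S.br₁)) = 0 := by
    rw [L_eq_bot_of_degree_neg H₁ _ (by rw [hdeg]; omega)]
    exact finrank_bot k F₁
  obtain ⟨A₁, hA₁c, hA₁d, hA₁l⟩ := exists_nonspecial_general H₁ hR₁ (-ptsDiv S.br₁)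
    (S.br₁ ∪ T₁) (g₁ + S.nodes.card - 1) 0 hlG (by rw [hdeg]; omega)
  have hA₁bot : L (-ptsDiv S.br₁ + ptsDiv A₁) = ⊥ := by
    haveI := H₁.finite (-ptsDiv S.br₁ + ptsDiv A₁)
    exact Submodule.finrank_eq_zero.mp hA₁l
  refine ⟨A₁, A₂, by rw [hA₁c, hA₂c]; omega, hA₁d, hA₂d, ?_⟩
  intro ψ₁ hψ₁ ψ₂ hψ₂ hglue
  obtain ⟨a, ha⟩ := H₂.const_of_mem_L (ptsDiv_nonneg A₂) (le_of_eq hA₂l) hψ₂
  refine ⟨a, ?_, ha⟩
  have hvan : ∀ v ∈ S.br₁, VanAt v (ψ₁ - algebraMap k F₁ a) := by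
    intro v hv
    obtain ⟨s, hs, rfl⟩ := Finset.mem_image.mp hv
    obtain ⟨b, hb1, hb2⟩ := hglue s hs
    have hab : a = b := by
      by_contra hab
      rw [ha, ← map_sub] at hb2
      exact not_vanAt_algebraMap s.2 (sub_ne_zero.mpr hab) hb2
    rw [hab]
    exact hb1
  have hmem : ψ₁ - algebraMap k F₁ a ∈ L (-ptsDiv S.br₁ + ptsDiv A₁) := by
    apply mem_L_neg_add_of_vanAt (Finset.disjoint_of_subset_right Finset.subset_union_left hA₁d)
      ((L (ptsDiv A₁)).sub_mem hψ₁ (algebraMap_mem_L_of_nonneg (ptsDiv_nonneg A₁) a)) hvan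
  rw [hA₁bot, Submodule.mem_bot, sub_eq_zero] at hmem
  exact hmem

end Fermat.Agent.BAD.H60
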