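import Fermat.Agent.BAD.H28_Skel
import Fermat.Agent.BAD.H60_LamCount

/-!
# Item 65, package ABS, leaf 5 (helper60): `Stmt_TwSurj` from the leaves 1 - 4

`twSurj_of : Stmt_Pivot → Stmt_Contain → Stmt_Linearise → Stmt_LamCount → Stmt_TwSurj`.

The count: `I = Rsub ϑ (D_x + G) ⊂ Λ^λ(G₁, G₂)` (Contain + Linearise), and
`dim Λ^λ ≤ l₁(G₁ - ∑ s₁) + l₂(G₂ - ∑ s₂) + δ = deg G + 2 - g₁ - g₂ - δ ≤ deg G + 1 - g
  ≤ l(D_x + G) ≤ dim I` (LamCount, Riemann equality on the components, Riemann inequality on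
`F`, Pivot).
-/

set_option autoImplicit false
set_option linter.style.haveILetI false

noncomputable section

open AlgebraicCurve

attribute [local instance] Classical.propDecidable

namespace Fermat.Agent.BAD.H60

open Fermat.Agent.RED.H17 Fermat.Agent.RED

local notation "L" => riemannRochSpace

/-! ### Division of a divisor by `n` -/

section DivN

variable {k F : Type*} [Field k] [Field F] [Algebra k F]

theorem mapRange_div_apply (E : Divisor k F) (n : ℕ) (v : Place k F) :
    (E.mapRange (fun m : ℤ => m / (n : ℤ)) (by simp)) v = E v / (n : ℤ) :=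
  Finsupp.mapRange_apply (hf := by simp)

/-- If all coefficients of `E` are divisible by `n ≠ 0` and `deg E = 0`, then `deg (E / n) = 0`. -/
theorem degree_mapRange_div (E : Divisor k F) (n : ℕ) (hn : n ≠ 0)
    (hdvd : ∀ v, (n : ℤ) ∣ E v) (hE : Divisor.degree E = 0) :
    Divisor.degree (E.mapRange (fun m : ℤ => m / (n : ℤ)) (by simp)) = 0 := by
  have h1 : (n : ℤ) • (E.mapRange (fun m : ℤ => m / (n : ℤ)) (by simp)) = E := by
    ext v
    rw [Finsupp.smul_apply, mapRange_div_apply, smul_eq_mul]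
    exact Int.mul_ediv_cancel' (hdvd v)
  have h2 := congrArg Divisor.degree h1
  rw [map_zsmul, hE, smul_eq_mul] at h2
  have hn' : (n : ℤ) ≠ 0 := by exact_mod_cast hn
  rcases mul_eq_zero.mp h2 with h | h
  · exact absurd h hn'
  · exact h

end DivN

/-! ### Degree of a push-forward along a partial map -/

section Push

variable {K F k F' : Type*} [Field K] [Field F] [Algebra K F] [Field k] [Field F']
  [Algebra k F']

/-- The push-forward along a partial map of places. -/
def pushOpt (r : Place K F → Option (Place k F')) (D : Divisor K F) : Divisor k F' :=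
  (Finsupp.mapDomain r D).some

theorem pushOpt_add (r : Place K F → Option (Place k F')) (D E : Divisor K F) :
    pushOpt r (D + E) = pushOpt r D + pushOpt r E := by
  unfold pushOpt
  rw [Finsupp.mapDomain_add, Finsupp.some_add]

theorem pushOpt_single (r : Place K F → Option (Place k F')) (P : Place K F) (m : ℤ) :
    pushOpt r (Finsupp.single P m) =
      match r P with
      | some Q => Finsupp.single Q m
      | none => 0 := by
  unfold pushOpt
  rw [Finsupp.mapDomain_single]
  cases h : r P with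
  | none => simp
  | some Q => simp

theorem degree_pushOpt (hdeg : ∀ v : Place k F', v.deg = 1)
    (r : Place K F → Option (Place k F')) (D : Divisor K F) :
    Divisor.degree (pushOpt r D) = D.sum fun P m => if (r P).isSome then m else 0 := by
  induction D using Finsupp.induction_linear with
  | zero => simp [pushOpt]
  | add D E hD hE =>
    rw [pushOpt_add, map_add, hD, hE, Finsupp.sum_add_index']
    · intro P; simp
    · intro P m m'; split_ifs <;> simp
  | single P m =>
    rw [pushOpt_single, Finsupp.sum_single_index (by simp)]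
    cases h : r P with
    | none => simp
    | some Q => simp [hdeg Q]

theorem pushOpt_apply (r : Place K F → Option (Place k F')) (D : Divisor K F)
    (Q : Place k F') :
    pushOpt r D Q = ∑ P ∈ D.support, if r P = some Q then D P else 0 := by
  unfold pushOpt
  rw [Finsupp.some_apply, mapDomain_apply_eq_sum]
  refine Finset.sum_congr rfl fun P _ => ?_
  congr

end Push

section

variable {K F k F₁ F₂ : Type*} [Field K] [Field F] [Algebra K F] [Field k] [Field F₁]
  [Algebra k F₁] [Field F₂] [Algebra k F₂] (S : SSD K F k F₁ F₂)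

theorem push₁_eq (D : Divisor K F) : S.push₁ D = pushOpt S.c₁.r D := rfl

theorem push₂_eq (D : Divisor K F) : S.push₂ D = pushOpt S.c₂.r D := rfl

/-- A place which reduces to a branch of a node on the second component reduces to a node. -/
theorem isNodeP_of_r₂ {P : Place K F} {s : Place k F₁ × Place k F₂} (hs : s ∈ S.nodes)
    (h : S.c₂.r P = some s.2) : S.IsNodeP P := by
  rcases S.r_cases P with ⟨Q, _, _, h2⟩ | ⟨Q, hQ, h2, _⟩ | ⟨s', hs', h1, _⟩
  · rw [h2] at h; exact absurd h (by simp)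
  · rw [h2] at h
    have hQs : Q = s.2 := Option.some.inj h
    exact absurd hQs.symm ((S.good₂ Q).mp hQ s hs)
  · exact ⟨s', hs', h1⟩

/-- A place which does not reduce to a node reduces to exactly one component. -/
theorem isSome_xor_of_not_isNodeP {P : Place K F} (h : ¬ S.IsNodeP P) :
    ((S.c₁.r P).isSome = true ∧ (S.c₂.r P).isSome = false) ∨
      ((S.c₁.r P).isSome = false ∧ (S.c₂.r P).isSome = true) := by
  rcases S.r_cases P with ⟨Q, _, h1, h2⟩ | ⟨Q, hQ, h2, h1⟩ | ⟨s', hs', h1, _⟩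
  · left; rw [h1, h2]; simp
  · right; rw [h1, h2]; simp
  · exact absurd ⟨s', hs', h1⟩ h

theorem push₁_node_eq_zero {G : Divisor K F} (hG : S.GoodPos G)
    {s : Place k F₁ × Place k F₂} (hs : s ∈ S.nodes) : S.push₁ G s.1 = 0 := by
  rw [push₁_eq, pushOpt_apply]
  apply Finset.sum_eq_zero
  intro P hP
  rw [Finsupp.mem_support_iff] at hP
  rw [if_neg]
  intro h
  exact hG P hP ⟨s, hs, h⟩

theorem push₂_node_eq_zero {G : Divisor K F} (hG : S.GoodPos G)
    {s : Place k F₁ × Place k F₂} (hs : s ∈ S.nodes) : S.push₂ G s.2 = 0 := by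
  rw [push₂_eq, pushOpt_apply]
  apply Finset.sum_eq_zero
  intro P hP
  rw [Finsupp.mem_support_iff] at hP
  rw [if_neg]
  intro h
  exact hG P hP (isNodeP_of_r₂ S hs h)

/-- For `G` in good position, `deg r₁_* G + deg r₂_* G = deg G`. -/
theorem degree_push_add (hdeg : ∀ v : Place K F, v.deg = 1) (hdeg₁ : ∀ v : Place k F₁, v.deg = 1)
    (hdeg₂ : ∀ v : Place k F₂, v.deg = 1) {G : Divisor K F} (hG : S.GoodPos G) :
    Divisor.degree (S.push₁ G) + Divisor.degree (S.push₂ G) = Divisor.degree G := by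
  rw [push₁_eq, push₂_eq, degree_pushOpt hdeg₁, degree_pushOpt hdeg₂, degree_eq_sum hdeg,
    Finsupp.sum, Finsupp.sum, Finsupp.sum, ← Finset.sum_add_distrib]
  refine Finset.sum_congr rfl fun P hP => ?_
  rw [Finsupp.mem_support_iff] at hP
  rcases isSome_xor_of_not_isNodeP S (hG P hP) with ⟨h1, h2⟩ | ⟨h1, h2⟩
  · rw [h1, h2]; simp
  · rw [h1, h2]; simp

/-! ### The twist -/

variable {S} {n : ℕ} (x : S.Twist n)

theorem twist_f_ne_zero : x.f ≠ 0 := by
  intro h
  have := x.hf₂.ne_zero
  rw [h, zero_div] at this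
  exact this rfl

theorem twist_γ_ne_zero : x.γ ≠ 0 := x.hf₂.rd_ne_zero

/-- The orders of `γ` are divisible by `n`. -/
theorem twist_dvd_ord_γ (hP : HasPrincipalDivisors K F) (Q : Place k F₂) :
    (n : ℤ) ∣ Q.ord x.γ := by
  by_cases hQ : Q ∈ S.c₂.good
  · unfold SSD.Twist.γ
    rw [S.c₂.ord_rd_eq_sum hP x.hf₂ Q hQ]
    apply Finset.dvd_sum
    intro P _
    split_ifs with h
    · rw [ord_div P (twist_f_ne_zero x) (pow_ne_zero n x.hϑ), ord_pow]
      exact dvd_sub (x.hdiv P) (dvd_mul_right _ _)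
    · exact dvd_zero _
  · rw [S.good₂] at hQ
    push Not at hQ
    obtain ⟨s, hs, hsQ⟩ := hQ
    rw [← hsQ]
    have := x.hγ s hs
    unfold SSD.Twist.γ
    rw [this]
    exact dvd_zero _

theorem twist_degree_Dx (hP : HasPrincipalDivisors K F) (hn : n ≠ 0) :
    Divisor.degree (x.Dx hP) = 0 := by
  unfold SSD.Twist.Dx
  apply degree_mapRange_div _ n hn
  · intro v
    rw [dv_apply]
    exact x.hdiv v
  · exact degree_dv hP x.f

theorem twist_degree_Δ (hP : HasPrincipalDivisors K F) (hP₂ : HasPrincipalDivisors k F₂)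
    (hn : n ≠ 0) : Divisor.degree (x.Δ hP₂) = 0 := by
  unfold SSD.Twist.Δ
  apply degree_mapRange_div _ n hn
  · intro v
    rw [dv_apply]
    exact twist_dvd_ord_γ x hP v
  · exact degree_dv hP₂ x.γ

theorem twist_Δ_node (hP₂ : HasPrincipalDivisors k F₂) {s : Place k F₁ × Place k F₂}
    (hs : s ∈ S.nodes) : x.Δ hP₂ s.2 = 0 := by
  unfold SSD.Twist.Δ
  rw [mapRange_div_apply, dv_apply]
  have := x.hγ s hs
  unfold SSD.Twist.γ
  rw [this, Int.zero_ediv]

end

/-- `Λ^λ(G₁, G₂)` is finite-dimensional. -/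
theorem finite_Lam {K F k F₁ F₂ : Type*} [Field K] [Field F] [Algebra K F] [Field k] [Field F₁]
    [Algebra k F₁] [Field F₂] [Algebra k F₂] (S : SSD K F k F₁ F₂) (H₁ : FFHyp k F₁)
    (H₂ : FFHyp k F₂) (lam : Place k F₁ × Place k F₂ → k) (G₁ : Divisor k F₁)
    (G₂ : Divisor k F₂) : Module.Finite k (S.Lam lam G₁ G₂) := by
  haveI := H₁.finite G₁
  haveI := H₂.finite G₂
  exact finite_of_toProdSub (S.Lam lam G₁ G₂).subtype (Submodule.injective_subtype _) (L G₁)
    (L G₂) (fun x => ((S.mem_Lam).mp x.2).1) (fun x => ((S.mem_Lam).mp x.2).2.1)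

/-- **Leaf 5**: surjectivity of the twisted reduction, from the leaves 1 - 4. -/
theorem twSurj_of (hPiv : Stmt_Pivot) (hCon : Stmt_Contain) (hLin : Stmt_Linearise)
    (hLC : Stmt_LamCount) : Stmt_TwSurj := by
  intro K F k F₁ F₂ _ _ _ _ _ _ _ _ _ S H H₁ H₂ g g₁ g₂ c c₁ c₂ hR hR₁ hR₂ hnum n hn x G hG
    hd₁ hd₂
  have hn0 : n ≠ 0 := by
    rintro rfl
    exact hn (by simp)
  -- containment and linearisation
  have hcon := hCon K F k F₁ F₂ S H H₁ H₂ n hn x G hG
  obtain ⟨lam, hlam, hlin⟩ := hLin k F₁ F₂ H₁ H₂ S.nodes n hn x.γ (twist_γ_ne_zero x)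
    (fun s hs => x.hγ s hs) (S.Rsub x.ϑ (x.Dx H.principal + G))
    (fun ψ hψ => (hcon ψ hψ).2.2)
  refine ⟨lam, hlam, ?_⟩
  have hle : S.Rsub x.ϑ (x.Dx H.principal + G) ≤
      S.Lam lam (S.push₁ G) (S.push₂ G + x.Δ H₂.principal) := by
    intro ψ hψ
    exact (S.mem_Lam).mpr ⟨(hcon ψ hψ).1, (hcon ψ hψ).2.1, hlin ψ hψ⟩
  haveI hfinLam := finite_Lam S H₁ H₂ lam (S.push₁ G) (S.push₂ G + x.Δ H₂.principal)
  haveI hfinR : Module.Finite k (S.Rsub x.ϑ (x.Dx H.principal + G)) :=
    Submodule.finiteDimensional_of_le hle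
  -- the count
  have h1 := hLC K F k F₁ F₂ S H₁ H₂ lam hlam (S.push₁ G) (S.push₂ G + x.Δ H₂.principal)
    (fun s hs => push₁_node_eq_zero S hG hs)
    (fun s hs => by
      rw [Finsupp.add_apply, push₂_node_eq_zero S hG hs, twist_Δ_node x H₂.principal hs, add_zero])
  have hdg₁ : Divisor.degree (S.push₁ G - ptsDiv S.br₁) =
      Divisor.degree (S.push₁ G) - S.nodes.card := by
    rw [map_sub, degree_ptsDiv H₁.deg_one, card_br₁]
  have hdg₂ : Divisor.degree (S.push₂ G + x.Δ H₂.principal - ptsDiv S.br₂) =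
      Divisor.degree (S.push₂ G) - S.nodes.card := by
    rw [map_sub, map_add, degree_ptsDiv H₂.deg_one, card_br₂,
      twist_degree_Δ x H.principal H₂.principal hn0, add_zero]
  have h2 := (hR₁ (S.push₁ G - ptsDiv S.br₁)).2 (by rw [hdg₁]; omega)
  have h3 := (hR₂ (S.push₂ G + x.Δ H₂.principal - ptsDiv S.br₂)).2 (by rw [hdg₂]; omega)
  rw [hdg₁] at h2
  rw [hdg₂] at h3
  have h4 := degree_push_add S H.deg_one H₁.deg_one H₂.deg_one hG
  have h5 := (hR (x.Dx H.principal + G)).1
  rw [map_add, twist_degree_Dx x H.principal hn0, zero_add] at h5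
  have h6 := hPiv K F k F₁ F₂ S H H₁ H₂ x.ϑ x.hϑ (x.Dx H.principal + G) hfinR
  have h7 := Submodule.finrank_mono hle
  constructor
  · exact Submodule.eq_of_le_of_finrank_le hle (by omega)
  · omega

end Fermat.Agent.BAD.H60
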