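import Fermat.Agent.BAD.H28_Skel
import Fermat.Agent.BAD.H60_TwSurj

/-!
# Item 65, package ABS, leaf 7 (helper60): `Stmt_GoodLift` from `Stmt_TwSurj`

`goodLift_of : Stmt_TwSurj → Stmt_GoodLift`.

The trivial twist (`f = 1`, `ϑ = 1`, `n = 1`) and `G = M (∑_{Q ∈ A₁} P_Q + ∑_{Q ∈ A₂} P_Q)`, where
`A_i` contains the poles of `y_i` and one more good point, `P_Q` is a place over `Q` and `M` is
large.  The multipliers are `1` because `(1, 1)` lies in the reduction.
-/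

set_option autoImplicit false
set_option linter.style.haveILetI false

noncomputable section

open AlgebraicCurve

attribute [local instance] Classical.propDecidable

namespace Fermat.Agent.BAD.H60

open Fermat.Agent.RED.H17 Fermat.Agent.RED

local notation "L" => riemannRochSpace

/-! ### More on push-forwards -/

section Push

variable {K F k F' : Type*} [Field K] [Field F] [Algebra K F] [Field k] [Field F']
  [Algebra k F']

theorem pushOpt_zero (r : Place K F → Option (Place k F')) :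
    pushOpt r (0 : Divisor K F) = 0 := by
  unfold pushOpt
  rw [Finsupp.mapDomain_zero]
  ext Q
  rw [Finsupp.some_apply]
  rfl

/-- The push-forward as an additive map. -/
def pushOptHom (r : Place K F → Option (Place k F')) : Divisor K F →+ Divisor k F' where
  toFun := pushOpt r
  map_zero' := pushOpt_zero r
  map_add' := pushOpt_add r

theorem pushOptHom_apply (r : Place K F → Option (Place k F')) (D : Divisor K F) :
    pushOptHom r D = pushOpt r D := rfl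

theorem pushOpt_nsmul (r : Place K F → Option (Place k F')) (M : ℕ) (D : Divisor K F) :
    pushOpt r (M • D) = M • pushOpt r D := by
  rw [← pushOptHom_apply, map_nsmul, pushOptHom_apply]

theorem pushOpt_single_some (r : Place K F → Option (Place k F')) {P : Place K F}
    {Q : Place k F'} (h : r P = some Q) (m : ℤ) :
    pushOpt r (Finsupp.single P m) = Finsupp.single Q m := by
  rw [pushOpt_single, h]

theorem pushOpt_single_none (r : Place K F → Option (Place k F')) {P : Place K F}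
    (h : r P = none) (m : ℤ) :
    pushOpt r (Finsupp.single P m) = 0 := by
  rw [pushOpt_single, h]

theorem pushOpt_ptsDiv_image (r : Place K F → Option (Place k F'))
    (p : Place k F' → Place K F) (A : Finset (Place k F'))
    (h : ∀ Q ∈ A, r (p Q) = some Q) : pushOpt r (ptsDiv (A.image p)) = ptsDiv A := by
  have hinj : Set.InjOn p A := by
    intro Q hQ Q' hQ' hpp
    have h1 := h Q hQ
    rw [hpp, h Q' hQ'] at h1
    exact (Option.some.inj h1).symm
  unfold ptsDiv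
  rw [Finset.sum_image hinj, ← pushOptHom_apply, map_sum]
  refine Finset.sum_congr rfl fun Q hQ => ?_
  rw [pushOptHom_apply, pushOpt_single_some r (h Q hQ)]

theorem pushOpt_ptsDiv_none (r : Place K F → Option (Place k F'))
    (B : Finset (Place K F)) (h : ∀ P ∈ B, r P = none) : pushOpt r (ptsDiv B) = 0 := by
  unfold ptsDiv
  rw [← pushOptHom_apply, map_sum]
  refine Finset.sum_eq_zero fun P hP => ?_
  rw [pushOptHom_apply, pushOpt_single_none r (h P hP)]

end Push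

section Poles

variable {k F : Type*} [Field k] [Field F] [Algebra k F]

/-- The poles of a function. -/
def polesOf (hP : HasPrincipalDivisors k F) (y : F) : Finset (Place k F) :=
  (dv hP y).support.filter fun Q => Q.ord y < 0

theorem mem_polesOf (hP : HasPrincipalDivisors k F) (y : F) (Q : Place k F) :
    Q ∈ polesOf hP y ↔ Q.ord y < 0 := by
  unfold polesOf
  rw [Finset.mem_filter, Finsupp.mem_support_iff, dv_apply]
  constructor
  · exact fun h => h.2
  · exact fun h => ⟨by omega, h⟩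

/-- `y ∈ L(M A)` if `A` contains the poles of `y` and `M` bounds the pole orders. -/
theorem mem_L_nsmul_ptsDiv (hP : HasPrincipalDivisors k F) (y : F) (A : Finset (Place k F))
    (M : ℕ) (hA : polesOf hP y ⊆ A) (hM : ∀ Q ∈ A, -(M : ℤ) ≤ Q.ord y) :
    y ∈ L (M • ptsDiv A) := by
  rw [mem_L_iff_ord]
  intro Q
  right
  rw [Finsupp.smul_apply, ptsDiv_apply, nsmul_eq_mul]
  by_cases hQ : Q ∈ A
  · rw [if_pos hQ, mul_one]
    exact hM Q hQ
  · rw [if_neg hQ, mul_zero, neg_zero]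
    by_contra hneg
    push Not at hneg
    exact hQ (hA ((mem_polesOf hP y Q).mpr hneg))

end Poles

section Triv

variable {K F k F₁ F₂ : Type*} [Field K] [Field F] [Algebra K F] [Field k] [Field F₁]
  [Algebra k F₁] [Field F₂] [Algebra k F₂] (S : SSD K F k F₁ F₂)

/-- The trivial twist. -/
def trivTwist : S.Twist 1 where
  f := 1
  ϑ := 1
  hϑ := one_ne_zero
  hf₁ := S.c₁.V.one_mem
  hrd₁ := S.c₁.rd_one
  hf₂ := by
    rw [pow_one, div_one]
    exact S.c₂.isGU_one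
  hdiv := fun P => by
    rw [Nat.cast_one]
    exact one_dvd _
  hγ := fun s _ => by
    rw [pow_one, div_one, S.c₂.rd_one, Place.ord_one]

theorem trivTwist_ϑ : (trivTwist S).ϑ = 1 := rfl

theorem trivTwist_γ : (trivTwist S).γ = 1 := by
  unfold SSD.Twist.γ
  show S.c₂.rd ((1 : F) / 1 ^ 1) = 1
  rw [pow_one, div_one, S.c₂.rd_one]

theorem trivTwist_Dx (hP : HasPrincipalDivisors K F) : (trivTwist S).Dx hP = 0 := by
  ext P
  unfold SSD.Twist.Dx
  rw [mapRange_div_apply, dv_apply]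
  show P.ord (1 : F) / ((1 : ℕ) : ℤ) = 0
  rw [Place.ord_one, Int.zero_ediv]

theorem trivTwist_Δ (hP₂ : HasPrincipalDivisors k F₂) : (trivTwist S).Δ hP₂ = 0 := by
  ext P
  unfold SSD.Twist.Δ
  rw [mapRange_div_apply, dv_apply, trivTwist_γ, Place.ord_one, Int.zero_ediv]
  rfl

/-- A place over a good point of the second component does not reduce to the first one. -/
theorem r₁_eq_none_of_r₂ {P : Place K F} {Q : Place k F₂} (hQ : Q ∈ S.c₂.good)
    (h : S.c₂.r P = some Q) : S.c₁.r P = none := by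
  rcases S.r_cases P with ⟨Q', _, _, h2⟩ | ⟨Q', _, _, h1⟩ | ⟨s', hs', _, h2⟩
  · rw [h2] at h; exact absurd h (by simp)
  · exact h1
  · rw [h2] at h
    exact absurd (Option.some.inj h) ((S.good₂ Q).mp hQ s' hs')

/-- A place over a good point of the first component does not reduce to the second one. -/
theorem r₂_eq_none_of_r₁ {P : Place K F} {Q : Place k F₁} (hQ : Q ∈ S.c₁.good)
    (h : S.c₁.r P = some Q) : S.c₂.r P = none := by
  rcases S.r_cases P with ⟨Q', _, _, h2⟩ | ⟨Q', _, _, h1⟩ | ⟨s', hs', h1, _⟩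
  · exact h2
  · rw [h1] at h; exact absurd h (by simp)
  · rw [h1] at h
    exact absurd (Option.some.inj h) ((S.good₁ Q).mp hQ s' hs')

theorem not_mem_br₁_iff (Q : Place k F₁) : Q ∉ S.br₁ ↔ Q ∈ S.c₁.good := by
  rw [S.good₁]
  unfold SSD.br₁
  rw [Finset.mem_image]
  constructor
  · intro h s hs hsQ
    exact h ⟨s, hs, hsQ⟩
  · rintro h ⟨s, hs, hsQ⟩
    exact h s hs hsQ

theorem not_mem_br₂_iff (Q : Place k F₂) : Q ∉ S.br₂ ↔ Q ∈ S.c₂.good := by
  rw [S.good₂]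
  unfold SSD.br₂
  rw [Finset.mem_image]
  constructor
  · intro h s hs hsQ
    exact h ⟨s, hs, hsQ⟩
  · rintro h ⟨s, hs, hsQ⟩
    exact h s hs hsQ

end Triv

/-- The set `A` for one component: the poles of `y` and one more point, outside `T` and the
branches. -/
theorem exists_pole_set {k F : Type*} [Field k] [Field F] [Algebra k F] [Infinite k]
    (H : FFHyp k F) (y : F) (T B : Finset (Place k F)) (hT : ∀ Q ∈ T, 0 ≤ Q.ord y)
    (hB : ∀ Q ∈ B, 0 ≤ Q.ord y) :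
    ∃ A : Finset (Place k F), A.Nonempty ∧ polesOf H.principal y ⊆ A ∧ Disjoint A T ∧
      Disjoint A B := by
  obtain ⟨Q₀, hQ₀⟩ := H.exists_notMem (T ∪ B)
  rw [Finset.mem_union, not_or] at hQ₀
  refine ⟨insert Q₀ (polesOf H.principal y), Finset.insert_nonempty _ _,
    Finset.subset_insert _ _, ?_, ?_⟩
  · rw [Finset.disjoint_insert_left]
    refine ⟨hQ₀.1, ?_⟩
    rw [Finset.disjoint_left]
    intro Q hQ hQT
    rw [mem_polesOf] at hQ
    have := hT Q hQT
    omega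
  · rw [Finset.disjoint_insert_left]
    refine ⟨hQ₀.2, ?_⟩
    rw [Finset.disjoint_left]
    intro Q hQ hQT
    rw [mem_polesOf] at hQ
    have := hB Q hQT
    omega

/-- **Leaf 7**: good lifts, from the surjectivity of the (untwisted) reduction. -/
theorem goodLift_of (hTS : Stmt_TwSurj) : Stmt_GoodLift := by
  intro K F k F₁ F₂ _ _ _ _ _ _ _ _ _ S H H₁ H₂ g g₁ g₂ c c₁ c₂ hR hR₁ hR₂ hnum y₁ y₂ T₁ T₂
    hT₁ hT₂ hglue
  -- regularity at the branches
  have hB₁ : ∀ Q ∈ S.br₁, 0 ≤ Q.ord y₁ := by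
    intro Q hQ
    obtain ⟨s, hs, rfl⟩ := Finset.mem_image.mp hQ
    obtain ⟨a, ha, -⟩ := hglue s hs
    exact (RegAt.of_vanAt_sub ha).ord_nonneg
  have hB₂ : ∀ Q ∈ S.br₂, 0 ≤ Q.ord y₂ := by
    intro Q hQ
    obtain ⟨s, hs, rfl⟩ := Finset.mem_image.mp hQ
    obtain ⟨a, -, ha⟩ := hglue s hs
    exact (RegAt.of_vanAt_sub ha).ord_nonneg
  obtain ⟨A₁, hA₁ne, hA₁p, hA₁T, hA₁B⟩ := exists_pole_set H₁ y₁ T₁ S.br₁ hT₁ hB₁
  obtain ⟨A₂, hA₂ne, hA₂p, hA₂T, hA₂B⟩ := exists_pole_set H₂ y₂ T₂ S.br₂ hT₂ hB₂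
  have hgood₁ : ∀ Q ∈ A₁, Q ∈ S.c₁.good := fun Q hQ =>
    (not_mem_br₁_iff S Q).mp (Finset.disjoint_left.mp hA₁B hQ)
  have hgood₂ : ∀ Q ∈ A₂, Q ∈ S.c₂.good := fun Q hQ =>
    (not_mem_br₂_iff S Q).mp (Finset.disjoint_left.mp hA₂B hQ)
  -- places over the points of `A₁`, `A₂`
  have hex₁ : ∀ Q : Place k F₁, ∃ P : Place K F, Q ∈ S.c₁.good → S.c₁.r P = some Q := by
    intro Q
    by_cases hQ : Q ∈ S.c₁.good
    · obtain ⟨P, hP⟩ := S.c₁.r_surjective H.principal Q hQ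
      exact ⟨P, fun _ => hP⟩
    · obtain ⟨P⟩ : Nonempty (Place K F) := by
        haveI := H₁.infinite_place
        obtain ⟨Q', hQ'⟩ := H₁.exists_notMem S.br₁
        obtain ⟨P, -⟩ := S.c₁.r_surjective H.principal Q' ((not_mem_br₁_iff S Q').mp hQ')
        exact ⟨P⟩
      exact ⟨P, fun h => absurd h hQ⟩
  have hex₂ : ∀ Q : Place k F₂, ∃ P : Place K F, Q ∈ S.c₂.good → S.c₂.r P = some Q := by
    intro Q
    by_cases hQ : Q ∈ S.c₂.good
    · obtain ⟨P, hP⟩ := S.c₂.r_surjective H.principal Q hQ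
      exact ⟨P, fun _ => hP⟩
    · obtain ⟨P⟩ : Nonempty (Place K F) := by
        obtain ⟨Q', hQ'⟩ := H₁.exists_notMem S.br₁
        obtain ⟨P, -⟩ := S.c₁.r_surjective H.principal Q' ((not_mem_br₁_iff S Q').mp hQ')
        exact ⟨P⟩
      exact ⟨P, fun h => absurd h hQ⟩
  choose p₁ hp₁ using hex₁
  choose p₂ hp₂ using hex₂
  have hr₁ : ∀ Q ∈ A₁, S.c₁.r (p₁ Q) = some Q := fun Q hQ => hp₁ Q (hgood₁ Q hQ)
  have hr₂ : ∀ Q ∈ A₂, S.c₂.r (p₂ Q) = some Q := fun Q hQ => hp₂ Q (hgood₂ Q hQ)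
  -- the multiplicity
  set M : ℕ := (c₁ + S.nodes.card).toNat + (c₂ + S.nodes.card).toNat +
    ∑ Q ∈ A₁, (Q.ord y₁).natAbs + ∑ Q ∈ A₂, (Q.ord y₂).natAbs with hM
  have hM₁ : ∀ Q ∈ A₁, -(M : ℤ) ≤ Q.ord y₁ := by
    intro Q hQ
    have h1 : (Q.ord y₁).natAbs ≤ ∑ Q' ∈ A₁, (Q'.ord y₁).natAbs :=
      Finset.single_le_sum (f := fun Q' : Place k F₁ => (Q'.ord y₁).natAbs)
        (fun _ _ => Nat.zero_le _) hQ
    have h2 : (Q.ord y₁).natAbs ≤ M := by omega
    have h3 : ((Q.ord y₁).natAbs : ℤ) ≤ (M : ℤ) := by exact_mod_cast h2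
    omega
  have hM₂ : ∀ Q ∈ A₂, -(M : ℤ) ≤ Q.ord y₂ := by
    intro Q hQ
    have h1 : (Q.ord y₂).natAbs ≤ ∑ Q' ∈ A₂, (Q'.ord y₂).natAbs :=
      Finset.single_le_sum (f := fun Q' : Place k F₂ => (Q'.ord y₂).natAbs)
        (fun _ _ => Nat.zero_le _) hQ
    have h2 : (Q.ord y₂).natAbs ≤ M := by omega
    have h3 : ((Q.ord y₂).natAbs : ℤ) ≤ (M : ℤ) := by exact_mod_cast h2
    omega
  -- the divisor `G`
  set G : Divisor K F := M • (ptsDiv (A₁.image p₁) + ptsDiv (A₂.image p₂)) with hGdef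
  have hGsupp : ∀ P, G P ≠ 0 → (∃ Q ∈ A₁, P = p₁ Q) ∨ ∃ Q ∈ A₂, P = p₂ Q := by
    intro P hP
    by_contra hcon
    rw [not_or] at hcon
    apply hP
    rw [hGdef, Finsupp.smul_apply, Finsupp.add_apply, ptsDiv_apply, ptsDiv_apply, if_neg,
      if_neg, add_zero, smul_zero]
    · intro h
      obtain ⟨Q, hQ, rfl⟩ := Finset.mem_image.mp h
      exact hcon.2 ⟨Q, hQ, rfl⟩
    · intro h
      obtain ⟨Q, hQ, rfl⟩ := Finset.mem_image.mp h
      exact hcon.1 ⟨Q, hQ, rfl⟩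
  have hnotnode : ∀ P, G P ≠ 0 → ¬ S.IsNodeP P := by
    intro P hP
    rintro ⟨s, hs, hsP⟩
    rcases hGsupp P hP with ⟨Q, hQ, rfl⟩ | ⟨Q, hQ, rfl⟩
    · rw [hr₁ Q hQ] at hsP
      exact (S.good₁ Q).mp (hgood₁ Q hQ) s hs (Option.some.inj hsP).symm
    · rw [r₁_eq_none_of_r₂ S (hgood₂ Q hQ) (hr₂ Q hQ)] at hsP
      exact absurd hsP (by simp)
  have hG : S.GoodPos G := hnotnode
  have hpush₁ : S.push₁ G = M • ptsDiv A₁ := by
    rw [push₁_eq, hGdef, pushOpt_nsmul, pushOpt_add, pushOpt_ptsDiv_image _ _ _ hr₁,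
      pushOpt_ptsDiv_none, add_zero]
    intro P hP
    obtain ⟨Q, hQ, rfl⟩ := Finset.mem_image.mp hP
    exact r₁_eq_none_of_r₂ S (hgood₂ Q hQ) (hr₂ Q hQ)
  have hpush₂ : S.push₂ G = M • ptsDiv A₂ := by
    rw [push₂_eq, hGdef, pushOpt_nsmul, pushOpt_add, pushOpt_ptsDiv_image _ _ _ hr₂,
      pushOpt_ptsDiv_none, zero_add]
    intro P hP
    obtain ⟨Q, hQ, rfl⟩ := Finset.mem_image.mp hP
    exact r₂_eq_none_of_r₁ S (hgood₁ Q hQ) (hr₁ Q hQ)
  have hcard₁ : 1 ≤ A₁.card := Finset.card_pos.mpr hA₁ne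
  have hcard₂ : 1 ≤ A₂.card := Finset.card_pos.mpr hA₂ne
  have hd₁ : c₁ + S.nodes.card ≤ Divisor.degree (S.push₁ G) := by
    rw [hpush₁, map_nsmul, degree_ptsDiv H₁.deg_one, nsmul_eq_mul]
    have h1 : (M : ℤ) * 1 ≤ (M : ℤ) * (A₁.card : ℤ) :=
      mul_le_mul_of_nonneg_left (by exact_mod_cast hcard₁) (Int.natCast_nonneg M)
    have h2 : c₁ + S.nodes.card ≤ (M : ℤ) := by
      have := Int.self_le_toNat (c₁ + S.nodes.card)
      have h3 : ((c₁ + S.nodes.card).toNat : ℤ) ≤ (M : ℤ) := by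
        exact_mod_cast (by omega : (c₁ + S.nodes.card).toNat ≤ M)
      omega
    omega
  have hd₂ : c₂ + S.nodes.card ≤ Divisor.degree (S.push₂ G) := by
    rw [hpush₂, map_nsmul, degree_ptsDiv H₂.deg_one, nsmul_eq_mul]
    have h1 : (M : ℤ) * 1 ≤ (M : ℤ) * (A₂.card : ℤ) :=
      mul_le_mul_of_nonneg_left (by exact_mod_cast hcard₂) (Int.natCast_nonneg M)
    have h2 : c₂ + S.nodes.card ≤ (M : ℤ) := by
      have := Int.self_le_toNat (c₂ + S.nodes.card)
      have h3 : ((c₂ + S.nodes.card).toNat : ℤ) ≤ (M : ℤ) := by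
        exact_mod_cast (by omega : (c₂ + S.nodes.card).toNat ≤ M)
      omega
    omega
  -- surjectivity of the reduction
  obtain ⟨lam, hlam, hRL, -⟩ := hTS K F k F₁ F₂ S H H₁ H₂ g g₁ g₂ c c₁ c₂ hR hR₁ hR₂ hnum 1
    (by rw [Nat.cast_one]; exact one_ne_zero) (trivTwist S) G hG hd₁ hd₂
  rw [trivTwist_Dx, trivTwist_Δ, zero_add, add_zero, trivTwist_ϑ, hpush₁, hpush₂] at hRL
  have hGnn : ∀ P, 0 ≤ G P := by
    intro P
    rw [hGdef, Finsupp.smul_apply, Finsupp.add_apply, nsmul_eq_mul]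
    have h1 := ptsDiv_nonneg (A₁.image p₁) P
    have h2 := ptsDiv_nonneg (A₂.image p₂) P
    positivity
  -- the multipliers are `1`
  have hlam1 : ∀ s ∈ S.nodes, lam s = 1 := by
    intro s hs
    have h11 : ((1 : F₁), (1 : F₂)) ∈ S.Rsub 1 G := by
      rw [S.mem_Rsub]
      refine ⟨1, one_mem_L_of_nonneg hGnn, S.c₁.V.one_mem, ?_, S.c₁.rd_one, ?_⟩
      · rw [mul_one]; exact S.c₂.V.one_mem
      · rw [mul_one]; exact S.c₂.rd_one
    rw [hRL, S.mem_Lam] at h11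
    obtain ⟨a, ha1, ha2⟩ := h11.2.2 s hs
    have ha : a = 1 := by
      by_contra hne
      have h0 : (1 : F₁) - algebraMap k F₁ a = algebraMap k F₁ (1 - a) := by
        rw [map_sub, map_one]
      rw [h0] at ha1
      exact not_vanAt_algebraMap s.1 (sub_ne_zero.mpr (Ne.symm hne)) ha1
    subst ha
    by_contra hne
    have h0 : algebraMap k F₂ (lam s) * (1 : F₂) - algebraMap k F₂ 1 =
        algebraMap k F₂ (lam s - 1) := by
      rw [map_sub, mul_one]
    rw [h0] at ha2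
    exact not_vanAt_algebraMap s.2 (sub_ne_zero.mpr hne) ha2
  -- the pair `(y₁, y₂)` lies in `Λ`
  have hy : (y₁, y₂) ∈ S.Rsub 1 G := by
    rw [hRL, S.mem_Lam]
    refine ⟨mem_L_nsmul_ptsDiv H₁.principal y₁ A₁ M hA₁p hM₁,
      mem_L_nsmul_ptsDiv H₂.principal y₂ A₂ M hA₂p hM₂, ?_⟩
    intro s hs
    obtain ⟨a, ha1, ha2⟩ := hglue s hs
    refine ⟨a, ha1, ?_⟩
    rw [hlam1 s hs, map_one, one_mul]
    exact ha2
  rw [S.mem_Rsub] at hy
  obtain ⟨u, huL, hu1, hu2, hr1, hr2⟩ := hy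
  rw [one_mul] at hu2 hr2
  have hord : ∀ P, G P = 0 → 0 ≤ P.ord u := by
    intro P hP
    by_cases hu0 : u = 0
    · rw [hu0, Place.ord_zero]
    · have := ord_ge_of_mem_L huL hu0 P
      omega
  refine ⟨u, hu1, hu2, hr1, hr2, ?_, ?_, ?_⟩
  · intro P Q hQ hPQ
    apply hord
    by_contra hne
    rcases hGsupp P hne with ⟨Q', hQ', rfl⟩ | ⟨Q', hQ', rfl⟩
    · rw [hr₁ Q' hQ'] at hPQ
      rw [Option.some.inj hPQ] at hQ'
      exact Finset.disjoint_left.mp hA₁T hQ' hQ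
    · rw [r₁_eq_none_of_r₂ S (hgood₂ Q' hQ') (hr₂ Q' hQ')] at hPQ
      exact absurd hPQ (by simp)
  · intro P Q hQ hPQ
    apply hord
    by_contra hne
    rcases hGsupp P hne with ⟨Q', hQ', rfl⟩ | ⟨Q', hQ', rfl⟩
    · rw [r₂_eq_none_of_r₁ S (hgood₁ Q' hQ') (hr₁ Q' hQ')] at hPQ
      exact absurd hPQ (by simp)
    · rw [hr₂ Q' hQ'] at hPQ
      rw [Option.some.inj hPQ] at hQ'
      exact Finset.disjoint_left.mp hA₂T hQ' hQ
  · intro P hP
    apply hord
    by_contra hne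
    exact hnotnode P hne hP

end Fermat.Agent.BAD.H60
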