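import Fermat.Agent.BAD.H28_Skel
import Fermat.Agent.BAD.H60_GoodLift

/-!
# Item 65, package ABS, leaf 9 (helper60): `Stmt_Coords` from `Stmt_GoodLift`

`coords_of : Stmt_GoodLift → Stmt_Coords`.

For `Q ∈ A₁`: `y₁` with a simple zero at `Q` and order `0` at the other points of `A₁` and at the
branches (weak approximation with exact orders), `y₂` with the values of `y₁` at the nodes and the
value `1` on `A₂` (weak approximation); lift the pair by `Stmt_GoodLift`; the lift has no zero on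
the fibres of the nodes by the conservation law `DIn`.
-/

set_option autoImplicit false
set_option linter.style.haveILetI false

noncomputable section

open AlgebraicCurve

attribute [local instance] Classical.propDecidable

namespace Fermat.Agent.BAD.H60

open Fermat.Agent.RED.H17 Fermat.Agent.RED

local notation "L" => riemannRochSpace

section OneField

variable {k F : Type*} [Field k] [Field F] [Algebra k F]

/-- A function with a non-zero value at `v` has order `0` at `v`. -/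
theorem ord_eq_zero_of_vanAt_sub {v : Place k F} {y : F} {a : k} (ha : a ≠ 0)
    (h : VanAt v (y - algebraMap k F a)) : y ≠ 0 ∧ v.ord y = 0 := by
  have ha' : algebraMap k F a ≠ 0 := by
    intro h0
    exact ha ((map_eq_zero (algebraMap k F)).mp h0)
  have h1 : H51.OrdGe v (v.ord (algebraMap k F a) + 1) (y - algebraMap k F a) := by
    rw [ord_algebraMap, zero_add]
    rcases (vanAt_iff_ord v _).mp h with h0 | h0
    · exact Or.inl h0
    · exact Or.inr (by omega)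
  have h2 := H51.ord_add_eq v ha' h1
  rw [add_sub_cancel, ord_algebraMap] at h2
  exact h2

/-- A function of order `0` at a place of degree one has a non-zero value there. -/
theorem exists_value_ne_zero {v : Place k F} (hdeg : v.deg = 1) {y : F} (hy : y ≠ 0)
    (h : v.ord y = 0) : ∃ a : k, a ≠ 0 ∧ VanAt v (y - algebraMap k F a) := by
  obtain ⟨a, ha⟩ := exists_value v hdeg (regAt_of_ord_nonneg (le_of_eq h.symm))
  refine ⟨a, ?_, ha⟩
  rintro rfl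
  rw [map_zero, sub_zero] at ha
  have := ha.ord_pos hy
  omega

end OneField

/-- The pair of functions on the two components (symmetric form). -/
theorem exists_coord_pair {k F₁ F₂ : Type*} [Field k] [Field F₁] [Algebra k F₁] [Field F₂]
    [Algebra k F₂] (hdeg₁ : ∀ v : Place k F₁, v.deg = 1)
    (nodes : Finset (Place k F₁ × Place k F₂)) (hne : nodes.Nonempty)
    (inj₂ : ∀ s ∈ nodes, ∀ s' ∈ nodes, s.2 = s'.2 → s = s')
    (A₁ : Finset (Place k F₁)) (A₂ : Finset (Place k F₂))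
    (hA₁ : Disjoint A₁ (nodes.image Prod.fst)) (hA₂ : Disjoint A₂ (nodes.image Prod.snd))
    (Q : Place k F₁) (hQ : Q ∈ A₁) :
    ∃ (y₁ : F₁) (y₂ : F₂), y₁ ≠ 0 ∧ y₂ ≠ 0 ∧ Q.ord y₁ = 1 ∧
      (∀ Q' ∈ A₁, Q' ≠ Q → Q'.ord y₁ = 0) ∧ (∀ Q' ∈ A₂, Q'.ord y₂ = 0) ∧
      ∀ s ∈ nodes, ∃ a : k, a ≠ 0 ∧ VanAt s.1 (y₁ - algebraMap k F₁ a) ∧
        VanAt s.2 (y₂ - algebraMap k F₂ a) := by
  -- the first function
  obtain ⟨y₁, hy₁0, hy₁⟩ := H51.exists_ord_eq_family (A₁ ∪ nodes.image Prod.fst)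
    (fun v => if v = Q then 1 else 0)
  have hQ1 : Q.ord y₁ = 1 := by
    rw [hy₁ Q (Finset.mem_union_left _ hQ), if_pos rfl]
  have hA1 : ∀ Q' ∈ A₁, Q' ≠ Q → Q'.ord y₁ = 0 := by
    intro Q' hQ' hne
    rw [hy₁ Q' (Finset.mem_union_left _ hQ'), if_neg hne]
  have hbr : ∀ s ∈ nodes, s.1.ord y₁ = 0 := by
    intro s hs
    have hmem : s.1 ∈ nodes.image Prod.fst := Finset.mem_image_of_mem _ hs
    rw [hy₁ s.1 (Finset.mem_union_right _ hmem), if_neg]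
    rintro rfl
    exact Finset.disjoint_left.mp hA₁ hQ hmem
  -- its values at the nodes
  have hval : ∀ s : Place k F₁ × Place k F₂, ∃ a : k, s ∈ nodes →
      a ≠ 0 ∧ VanAt s.1 (y₁ - algebraMap k F₁ a) := by
    intro s
    by_cases hs : s ∈ nodes
    · obtain ⟨a, ha0, ha⟩ := exists_value_ne_zero (hdeg₁ s.1) hy₁0 (hbr s hs)
      exact ⟨a, fun _ => ⟨ha0, ha⟩⟩
    · exact ⟨0, fun h => absurd h hs⟩
  choose a ha using hval
  -- the second function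
  obtain ⟨y₂, hy₂⟩ := H51.exists_approx (A₂ ∪ nodes.image Prod.snd)
    (fun v => if h : ∃ s ∈ nodes, s.2 = v then algebraMap k F₂ (a h.choose) else 1) 1
  have hnode₂ : ∀ s ∈ nodes, VanAt s.2 (y₂ - algebraMap k F₂ (a s)) := by
    intro s hs
    have hmem : s.2 ∈ nodes.image Prod.snd := Finset.mem_image_of_mem _ hs
    have h1 := hy₂ s.2 (Finset.mem_union_right _ hmem)
    have hex : ∃ s' ∈ nodes, s'.2 = s.2 := ⟨s, hs, rfl⟩
    rw [dif_pos hex] at h1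
    have h2 : hex.choose = s := inj₂ _ hex.choose_spec.1 s hs hex.choose_spec.2
    rw [h2] at h1
    rw [vanAt_iff_ord]
    rcases h1 with h1 | h1
    · exact Or.inl h1
    · exact Or.inr (by omega)
  have hA2' : ∀ Q' ∈ A₂, VanAt Q' (y₂ - algebraMap k F₂ 1) := by
    intro Q' hQ'
    have h1 := hy₂ Q' (Finset.mem_union_left _ hQ')
    have hnex : ¬ ∃ s ∈ nodes, s.2 = Q' := by
      rintro ⟨s, hs, rfl⟩
      exact Finset.disjoint_left.mp hA₂ hQ' (Finset.mem_image_of_mem _ hs)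
    rw [dif_neg hnex] at h1
    rw [vanAt_iff_ord, map_one]
    rcases h1 with h1 | h1
    · exact Or.inl h1
    · exact Or.inr (by omega)
  have hy₂0 : y₂ ≠ 0 := by
    obtain ⟨s, hs⟩ := hne
    exact (ord_eq_zero_of_vanAt_sub (ha s hs).1 (hnode₂ s hs)).1
  refine ⟨y₁, y₂, hy₁0, hy₂0, hQ1, hA1, ?_, ?_⟩
  · intro Q' hQ'
    exact (ord_eq_zero_of_vanAt_sub one_ne_zero (hA2' Q' hQ')).2
  · intro s hs
    exact ⟨a s, (ha s hs).1, (ha s hs).2, hnode₂ s hs⟩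

section Core

variable {K F k F₁ F₂ : Type*} [Field K] [Field F] [Algebra K F] [Field k] [Field F₁]
  [Algebra k F₁] [Field F₂] [Algebra k F₂] (S : SSD K F k F₁ F₂)

/-- A function integral for both valuations, regular on the fibres of the nodes, whose
reductions have order `0` at the branches, has no zero on the fibres of the nodes. -/
theorem ord_eq_zero_of_isNodeP (hP : HasPrincipalDivisors K F) {u : F} (h₁ : S.c₁.IsGU u)
    (h₂ : S.c₂.IsGU u) (hreg : ∀ P, S.IsNodeP P → 0 ≤ P.ord u)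
    (ho₁ : ∀ s ∈ S.nodes, s.1.ord (S.c₁.rd u) = 0)
    (ho₂ : ∀ s ∈ S.nodes, s.2.ord (S.c₂.rd u) = 0) :
    ∀ P, S.IsNodeP P → P.ord u = 0 := by
  rintro P ⟨s, hs, hsP⟩
  have h := S.DIn s hs ⟨u, h₁.1⟩ ⟨u, h₂.1⟩ (by rw [← S.c₁.rd_of_mem h₁.1]; exact h₁.2)
    (by rw [← S.c₂.rd_of_mem h₂.1]; exact h₂.2) ⟨1, by rw [map_one, one_mul]⟩ (dv hP u)
    (fun P => dv_apply hP u P)
  rw [← S.c₁.rd_of_mem h₁.1, ← S.c₂.rd_of_mem h₂.1, ho₁ s hs, ho₂ s hs, add_zero,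
    mapDomain_apply_eq_sum] at h
  by_cases hmem : P ∈ (dv hP u).support
  · have h0 := eq_zero_of_sum_eq_zero _ _ (fun P' _ => by
      split_ifs with hP'
      · rw [dv_apply]
        exact hreg P' ⟨s, hs, hP'⟩
      · exact le_rfl) h hmem
    rw [if_pos hsP, dv_apply] at h0
    exact h0
  · rw [Finsupp.notMem_support_iff, dv_apply] at hmem
    exact hmem

theorem isNodeP_iff_r₂ (P : Place K F) : S.IsNodeP P ↔ ∃ s ∈ S.nodes, S.c₂.r P = some s.2 := by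
  constructor
  · rintro ⟨s, hs, hsP⟩
    rcases S.r_cases P with ⟨Q, hQ, h1, _⟩ | ⟨Q, _, _, h1⟩ | ⟨s', hs', h1, h2⟩
    · rw [h1] at hsP
      exact absurd (Option.some.inj hsP).symm ((S.good₁ Q).mp hQ s hs)
    · rw [h1] at hsP; exact absurd hsP (by simp)
    · exact ⟨s', hs', h2⟩
  · rintro ⟨s, hs, hsP⟩
    exact isNodeP_of_r₂ S hs hsP

end Core

/-- **Leaf 9**: coordinates on the residue discs, from good lifts. -/
theorem coords_of (hGL : Stmt_GoodLift) : Stmt_Coords := by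
  intro K F k F₁ F₂ _ _ _ _ _ _ _ _ _ S H H₁ H₂ g g₁ g₂ c c₁ c₂ hR hR₁ hR₂ hnum A₁ A₂ hA₁ hA₂
  -- the common part: lift a pair with non-zero values at the nodes
  have core : ∀ (y₁ : F₁) (y₂ : F₂), y₁ ≠ 0 → y₂ ≠ 0 → (∀ Q' ∈ A₁, 0 ≤ Q'.ord y₁) →
      (∀ Q' ∈ A₂, 0 ≤ Q'.ord y₂) →
      (∀ s ∈ S.nodes, ∃ a : k, a ≠ 0 ∧ VanAt s.1 (y₁ - algebraMap k F₁ a) ∧
        VanAt s.2 (y₂ - algebraMap k F₂ a)) →
      ∃ u : F, S.c₁.IsGU u ∧ S.c₂.IsGU u ∧ S.c₁.rd u = y₁ ∧ S.c₂.rd u = y₂ ∧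
        (∀ P, ∀ Q ∈ A₁, S.c₁.r P = some Q → 0 ≤ P.ord u) ∧
        (∀ P, ∀ Q ∈ A₂, S.c₂.r P = some Q → 0 ≤ P.ord u) ∧
        ∀ P, S.IsNodeP P → P.ord u = 0 := by
    intro y₁ y₂ hy₁ hy₂ hr₁ hr₂ hglue
    obtain ⟨u, hu₁, hu₂, hrd₁, hrd₂, hf₁, hf₂, hfn⟩ := hGL K F k F₁ F₂ S H H₁ H₂ g g₁ g₂ c c₁ c₂
      hR hR₁ hR₂ hnum y₁ y₂ A₁ A₂ hr₁ hr₂ (fun s hs => by
        obtain ⟨a, -, h1, h2⟩ := hglue s hs
        exact ⟨a, h1, h2⟩)
    have hGU₁ : S.c₁.IsGU u := ⟨hu₁, by rw [hrd₁]; exact hy₁⟩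
    have hGU₂ : S.c₂.IsGU u := ⟨hu₂, by rw [hrd₂]; exact hy₂⟩
    refine ⟨u, hGU₁, hGU₂, hrd₁, hrd₂, hf₁, hf₂, ?_⟩
    apply ord_eq_zero_of_isNodeP S H.principal hGU₁ hGU₂ hfn
    · intro s hs
      obtain ⟨a, ha0, h1, -⟩ := hglue s hs
      rw [hrd₁]
      exact (ord_eq_zero_of_vanAt_sub ha0 h1).2
    · intro s hs
      obtain ⟨a, ha0, -, h2⟩ := hglue s hs
      rw [hrd₂]
      exact (ord_eq_zero_of_vanAt_sub ha0 h2).2
  constructor
  · intro Q hQ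
    obtain ⟨y₁, y₂, hy₁, hy₂, hQ1, hA1, hA2, hglue⟩ := exists_coord_pair H₁.deg_one S.nodes
      S.nodes_nonempty S.inj₂ A₁ A₂ hA₁ hA₂ Q hQ
    obtain ⟨u, hGU₁, hGU₂, hrd₁, hrd₂, hf₁, hf₂, hfn⟩ := core y₁ y₂ hy₁ hy₂
      (fun Q' hQ' => by
        by_cases hQQ : Q' = Q
        · rw [hQQ, hQ1]; exact zero_le_one
        · rw [hA1 Q' hQ' hQQ])
      (fun Q' hQ' => by rw [hA2 Q' hQ']) hglue
    refine ⟨u, ⟨(not_mem_br₁_iff S Q).mp (Finset.disjoint_left.mp hA₁ hQ), hGU₁,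
      fun P hPQ => hf₁ P Q hQ hPQ, by rw [hrd₁]; exact hQ1⟩, hGU₂, ?_, ?_, hf₁, hf₂, hfn⟩
    · intro Q' hQ' hne
      rw [hrd₁]
      exact hA1 Q' hQ' hne
    · intro Q' hQ'
      rw [hrd₂]
      exact hA2 Q' hQ'
  · intro Q hQ
    -- the symmetric case: swap the components
    have hinj : ∀ s ∈ S.nodes.image Prod.swap, ∀ s' ∈ S.nodes.image Prod.swap,
        s.2 = s'.2 → s = s' := by
      intro s hs s' hs' h
      obtain ⟨t, ht, rfl⟩ := Finset.mem_image.mp hs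
      obtain ⟨t', ht', rfl⟩ := Finset.mem_image.mp hs'
      rw [S.inj₁ t ht t' ht' h]
    have himg₁ : (S.nodes.image Prod.swap).image Prod.fst = S.br₂ := by
      rw [Finset.image_image]
      rfl
    have himg₂ : (S.nodes.image Prod.swap).image Prod.snd = S.br₁ := by
      rw [Finset.image_image]
      rfl
    obtain ⟨y₂, y₁, hy₂, hy₁, hQ1, hA2, hA1, hglue⟩ := exists_coord_pair H₂.deg_one
      (S.nodes.image Prod.swap) (S.nodes_nonempty.image _) hinj A₂ A₁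
      (by rw [himg₁]; exact hA₂) (by rw [himg₂]; exact hA₁) Q hQ
    obtain ⟨u, hGU₁, hGU₂, hrd₁, hrd₂, hf₁, hf₂, hfn⟩ := core y₁ y₂ hy₁ hy₂
      (fun Q' hQ' => by rw [hA1 Q' hQ'])
      (fun Q' hQ' => by
        by_cases hQQ : Q' = Q
        · rw [hQQ, hQ1]; exact zero_le_one
        · rw [hA2 Q' hQ' hQQ])
      (fun s hs => by
        obtain ⟨a, ha0, h2, h1⟩ := hglue s.swap (Finset.mem_image_of_mem _ hs)
        exact ⟨a, ha0, h1, h2⟩)
    refine ⟨u, ⟨(not_mem_br₂_iff S Q).mp (Finset.disjoint_left.mp hA₂ hQ), hGU₂,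
      fun P hPQ => hf₂ P Q hQ hPQ, by rw [hrd₂]; exact hQ1⟩, hGU₁, ?_, ?_, hf₁, hf₂, hfn⟩
    · intro Q' hQ' hne
      rw [hrd₂]
      exact hA2 Q' hQ' hne
    · intro Q' hQ'
      rw [hrd₁]
      exact hA1 Q' hQ'

end Fermat.Agent.BAD.H60
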