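import Fermat.Agent.BAD.H28_GlueStmt
import Fermat.Agent.BAD.H60_Coords

/-!
# Item 65, package ABS (helper60): `Stmt_GlueFrob` from `Stmt_Moving`, `Stmt_GoodLift`, `Stmt_TIss`

`glueFrob_of : Stmt_Moving → Stmt_GoodLift → Stmt_TIss → Stmt_GlueFrob`  ((B2') for S35).

Twist datum `ϑ = c₀`; the moving lemma gives `h` with `F_h = f h ^ n` a unit for both valuations
without zero or pole on the fibres of the nodes; its reductions are `ψ₁ ^ n`, `ψ₂ ^ n` with `ψ_i`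
of order `0` at the branches (`glue` + `DIn`); `G = τ F_h / F_h ^ Q` has reductions `u_i ^ n`,
`u_i = τ_i ψ_i / ψ_i ^ Q`, with value `1` at the branches; lift `(u₁, u₂)` to `u` (good lift,
no zero on the fibres of the nodes); `G / u ^ n` satisfies TI-ss-gp.
-/

set_option autoImplicit false
set_option linter.style.haveILetI false
set_option maxHeartbeats 1000000

noncomputable section

open AlgebraicCurve

attribute [local instance] Classical.propDecidable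

namespace Fermat.Agent.BAD.H60

open Fermat.Agent.RED.H17 Fermat.Agent.RED

local notation "L" => riemannRochSpace

section OneField

variable {k F : Type*} [Field k] [Field F] [Algebra k F]

/-- The value of a power. -/
theorem vanAt_pow_sub {v : Place k F} {ψ : F} {a : k} (h : VanAt v (ψ - algebraMap k F a))
    (Q : ℕ) : VanAt v (ψ ^ Q - algebraMap k F (a ^ Q)) := by
  induction Q with
  | zero =>
    rw [pow_zero, pow_zero, map_one, sub_self]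
    exact vanAt_zero v
  | succ Q ih =>
    have h1 := ((RegAt.of_vanAt_sub h).pow Q).mul_vanAt h
    have h2 := (regAt_algebraMap v a).mul_vanAt ih
    have h3 := h1.add h2
    have e : ψ ^ (Q + 1) - algebraMap k F (a ^ (Q + 1)) =
        ψ ^ Q * (ψ - algebraMap k F a) +
          algebraMap k F a * (ψ ^ Q - algebraMap k F (a ^ Q)) := by
      rw [map_pow, map_pow]
      ring
    rw [e]
    exact h3

/-- Two functions with the same non-zero value: the quotient has value `1`. -/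
theorem vanAt_div_sub_one {v : Place k F} {x y : F} {a : k} (ha : a ≠ 0)
    (hx : VanAt v (x - algebraMap k F a)) (hy : VanAt v (y - algebraMap k F a)) :
    VanAt v (x / y - algebraMap k F 1) := by
  obtain ⟨hy0, hyo⟩ := ord_eq_zero_of_vanAt_sub ha hy
  have h1 : VanAt v (x - y) := by
    have := hx.sub hy
    rwa [sub_sub_sub_cancel_right] at this
  have h2 : RegAt v y⁻¹ := by
    apply regAt_of_ord_nonneg
    rw [Place.ord_inv, hyo, neg_zero]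
  have h3 := h1.mul_regAt h2
  have e : x / y - algebraMap k F 1 = (x - y) * y⁻¹ := by
    rw [map_one]
    field_simp
  rw [e]
  exact h3

/-- An identity in a field. -/
theorem pow_div_aux {E : Type*} [Field E] (A B : E) (n Q : ℕ) (hA : A ≠ 0) (hB : B ≠ 0) :
    A ^ n / ((B ^ n) ^ Q * (A / B ^ Q) ^ n) = 1 := by
  have h1 : (B ^ n) ^ Q * (A / B ^ Q) ^ n = A ^ n := by
    rw [div_pow, ← pow_mul, ← pow_mul, mul_comm Q n]
    field_simp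
  rw [h1, div_self (pow_ne_zero _ hA)]

end OneField

section Node

variable {K F k F₁ F₂ : Type*} [Field K] [Field F] [Algebra K F] [Field k] [Field F₁]
  [Algebra k F₁] [Field F₂] [Algebra k F₂] (S : SSD K F k F₁ F₂)

/-- A unit for both valuations without zero or pole on the fibres of the nodes: its reductions
have order `0` at the branches. -/
theorem ord_rd_eq_zero_of_node (hP : HasPrincipalDivisors K F) {u : F} (h₁ : S.c₁.IsGU u)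
    (h₂ : S.c₂.IsGU u) (hnode : ∀ P, S.IsNodeP P → P.ord u = 0)
    {s : Place k F₁ × Place k F₂} (hs : s ∈ S.nodes) :
    s.1.ord (S.c₁.rd u) = 0 ∧ s.2.ord (S.c₂.rd u) = 0 := by
  obtain ⟨a, ha1, ha2⟩ := S.glue s hs u h₁.1 h₂.1 (fun P hPs => by
    rw [hnode P ⟨s, hs, hPs⟩])
  rw [← S.c₁.rd_of_mem h₁.1] at ha1
  rw [← S.c₂.rd_of_mem h₂.1] at ha2
  have hn1 := (RegAt.of_vanAt_sub ha1).ord_nonneg
  have hn2 := (RegAt.of_vanAt_sub ha2).ord_nonneg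
  have h := S.DIn s hs ⟨u, h₁.1⟩ ⟨u, h₂.1⟩ (by rw [← S.c₁.rd_of_mem h₁.1]; exact h₁.2)
    (by rw [← S.c₂.rd_of_mem h₂.1]; exact h₂.2) ⟨1, by rw [map_one, one_mul]⟩ (dv hP u)
    (fun P => dv_apply hP u P)
  rw [← S.c₁.rd_of_mem h₁.1, ← S.c₂.rd_of_mem h₂.1] at h
  have h0 : Finsupp.mapDomain S.c₁.r (dv hP u) (some s.1) = 0 := by
    rw [mapDomain_apply_eq_sum]
    apply Finset.sum_eq_zero
    intro P _
    split_ifs with hPs
    · rw [dv_apply, hnode P ⟨s, hs, hPs⟩]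
    · rfl
  rw [h0] at h
  constructor <;> omega

end Node

/-- **GLUE, Frobenius form**, from the moving lemma, good lifts and TI-ss-gp. -/
theorem glueFrob_of (hMv : Stmt_Moving) (hGL : Stmt_GoodLift) (hTI : Stmt_TIss) :
    Stmt_GlueFrob := by
  intro K F k F₁ F₂ _ _ _ _ _ _ _ _ _ _ S H H₁ H₂ g g₁ g₂ c c₁ c₂ hR hR₁ hR₂ hnum n hn τ τ₁ τ₂
    Q hτ f c₀ hc₀ hf hf1 hf₂ hf₂1 hdiv
  have hn0 : n ≠ 0 := by
    rintro rfl
    exact hn Nat.cast_zero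
  have hϑ0 : algebraMap K F c₀ ≠ 0 := by
    intro h0
    exact hc₀ ((map_eq_zero (algebraMap K F)).mp h0)
  -- the twist datum
  let x : S.Twist n :=
    { f := f
      ϑ := algebraMap K F c₀
      hϑ := hϑ0
      hf₁ := hf
      hrd₁ := hf1
      hf₂ := ⟨hf₂, by rw [hf₂1]; exact one_ne_zero⟩
      hdiv := hdiv
      hγ := fun s _ => by rw [hf₂1, Place.ord_one] }
  obtain ⟨h, hh₁, hh₂, hnode⟩ :=
    hMv K F k F₁ F₂ S H H₁ H₂ g g₁ g₂ c c₁ c₂ hR hR₁ hR₂ hnum n hn x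
  change S.c₂.IsGU (algebraMap K F c₀ * h) at hh₂
  change ∀ P : Place K F, S.IsNodeP P → P.ord (f * h ^ n) = 0 at hnode
  have hfGU₁ : S.c₁.IsGU f := ⟨hf, by rw [hf1]; exact one_ne_zero⟩
  have hfGU₂ : S.c₂.IsGU (f / algebraMap K F c₀ ^ n) := ⟨hf₂, by rw [hf₂1]; exact one_ne_zero⟩
  have hf0 : f ≠ 0 := hfGU₁.ne_zero
  have hh0 : h ≠ 0 := hh₁.ne_zero
  set Fh : F := f * h ^ n with hFh
  have hFh0 : Fh ≠ 0 := mul_ne_zero hf0 (pow_ne_zero _ hh0)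
  have hFh₁ : S.c₁.IsGU Fh := hfGU₁.mul (hh₁.pow n)
  have eFh : Fh = (f / algebraMap K F c₀ ^ n) * (algebraMap K F c₀ * h) ^ n := by
    have hϑn : algebraMap K F c₀ ^ n ≠ 0 := pow_ne_zero _ hϑ0
    rw [hFh, mul_pow]
    field_simp
  have hFh₂ : S.c₂.IsGU Fh := by
    rw [eFh]
    exact hfGU₂.mul (hh₂.pow n)
  -- the reductions of `F_h`
  set ψ₁ : F₁ := S.c₁.rd h with hψ₁
  set ψ₂ : F₂ := S.c₂.rd (algebraMap K F c₀ * h) with hψ₂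
  have hψ₁0 : ψ₁ ≠ 0 := hh₁.2
  have hψ₂0 : ψ₂ ≠ 0 := hh₂.2
  have hrdF₁ : S.c₁.rd Fh = ψ₁ ^ n := by
    rw [hFh, S.c₁.rd_mul hf (hh₁.pow n).1, hf1, one_mul, S.c₁.rd_pow hh₁.1]
  have hrdF₂ : S.c₂.rd Fh = ψ₂ ^ n := by
    rw [eFh, S.c₂.rd_mul hf₂ (hh₂.pow n).1, hf₂1, one_mul, S.c₂.rd_pow hh₂.1]
  have hordψ : ∀ s ∈ S.nodes, s.1.ord ψ₁ = 0 ∧ s.2.ord ψ₂ = 0 := by
    intro s hs
    obtain ⟨h1, h2⟩ := ord_rd_eq_zero_of_node S H.principal hFh₁ hFh₂ hnode hs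
    rw [hrdF₁, ord_pow] at h1
    rw [hrdF₂, ord_pow] at h2
    have hnZ : (n : ℤ) ≠ 0 := by exact_mod_cast hn0
    exact ⟨(mul_eq_zero.mp h1).resolve_left hnZ, (mul_eq_zero.mp h2).resolve_left hnZ⟩
  -- the functions `u₁`, `u₂`
  set u₁ : F₁ := τ₁ ψ₁ / ψ₁ ^ Q with hu₁
  set u₂ : F₂ := τ₂ ψ₂ / ψ₂ ^ Q with hu₂
  have hτψ₁0 : τ₁ ψ₁ ≠ 0 := (map_ne_zero τ₁).mpr hψ₁0
  have hτψ₂0 : τ₂ ψ₂ ≠ 0 := (map_ne_zero τ₂).mpr hψ₂0
  have hu₁0 : u₁ ≠ 0 := div_ne_zero hτψ₁0 (pow_ne_zero _ hψ₁0)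
  have hu₂0 : u₂ ≠ 0 := div_ne_zero hτψ₂0 (pow_ne_zero _ hψ₂0)
  have hval₁ : ∀ s ∈ S.nodes, VanAt s.1 (u₁ - algebraMap k F₁ 1) := by
    intro s hs
    obtain ⟨b, hb0, hb⟩ := exists_value_ne_zero (H₁.deg_one s.1) hψ₁0 (hordψ s hs).1
    exact vanAt_div_sub_one (pow_ne_zero Q hb0) (hτ.val₁ s hs ψ₁ b hb) (vanAt_pow_sub hb Q)
  have hval₂ : ∀ s ∈ S.nodes, VanAt s.2 (u₂ - algebraMap k F₂ 1) := by
    intro s hs
    obtain ⟨b, hb0, hb⟩ := exists_value_ne_zero (H₂.deg_one s.2) hψ₂0 (hordψ s hs).2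
    exact vanAt_div_sub_one (pow_ne_zero Q hb0) (hτ.val₂ s hs ψ₂ b hb) (vanAt_pow_sub hb Q)
  -- the lift `u`
  obtain ⟨u, hu1, hu2, hrdu₁, hrdu₂, -, -, hureg⟩ := hGL K F k F₁ F₂ S H H₁ H₂ g g₁ g₂ c c₁ c₂
    hR hR₁ hR₂ hnum u₁ u₂ ∅ ∅ (fun Q hQ => absurd hQ (Finset.notMem_empty Q))
    (fun Q hQ => absurd hQ (Finset.notMem_empty Q)) (fun s hs => ⟨1, hval₁ s hs, hval₂ s hs⟩)
  have huGU₁ : S.c₁.IsGU u := ⟨hu1, by rw [hrdu₁]; exact hu₁0⟩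
  have huGU₂ : S.c₂.IsGU u := ⟨hu2, by rw [hrdu₂]; exact hu₂0⟩
  have hu0 : u ≠ 0 := huGU₁.ne_zero
  have hunode : ∀ P, S.IsNodeP P → P.ord u = 0 :=
    ord_eq_zero_of_isNodeP S H.principal huGU₁ huGU₂ hureg
      (fun s hs => by rw [hrdu₁]; exact (ord_eq_zero_of_vanAt_sub one_ne_zero (hval₁ s hs)).2)
      (fun s hs => by rw [hrdu₂]; exact (ord_eq_zero_of_vanAt_sub one_ne_zero (hval₂ s hs)).2)
  -- `τ F_h`
  have hτ₁ : S.c₁.IsGU (τ • Fh) ∧ S.c₁.rd (τ • Fh) = τ₁ ψ₁ ^ n := by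
    have hm := hτ.mem₁ Fh hFh₁.1
    have hr : S.c₁.rd (τ • Fh) = τ₁ ψ₁ ^ n := by
      rw [S.c₁.rd_of_mem hm, hτ.red₁ Fh hFh₁.1 hm, ← S.c₁.rd_of_mem hFh₁.1, hrdF₁, map_pow]
    exact ⟨⟨hm, by rw [hr]; exact pow_ne_zero _ hτψ₁0⟩, hr⟩
  have hτ₂ : S.c₂.IsGU (τ • Fh) ∧ S.c₂.rd (τ • Fh) = τ₂ ψ₂ ^ n := by
    have hm := hτ.mem₂ Fh hFh₂.1
    have hr : S.c₂.rd (τ • Fh) = τ₂ ψ₂ ^ n := by
      rw [S.c₂.rd_of_mem hm, hτ.red₂ Fh hFh₂.1 hm, ← S.c₂.rd_of_mem hFh₂.1, hrdF₂, map_pow]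
    exact ⟨⟨hm, by rw [hr]; exact pow_ne_zero _ hτψ₂0⟩, hr⟩
  -- the function `gg = τ F_h / (F_h ^ Q u ^ n)`
  set gg : F := (τ • Fh) / (Fh ^ Q * u ^ n) with hgg
  have hden₁ : S.c₁.IsGU (Fh ^ Q * u ^ n) := (hFh₁.pow Q).mul (huGU₁.pow n)
  have hden₂ : S.c₂.IsGU (Fh ^ Q * u ^ n) := (hFh₂.pow Q).mul (huGU₂.pow n)
  have hgg₁ : S.c₁.IsGU gg := hτ₁.1.div hden₁
  have hgg₂ : S.c₂.IsGU gg := hτ₂.1.div hden₂
  have hggrd₁ : S.c₁.rd gg = 1 := by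
    rw [hτ₁.1.rd_div hden₁, hτ₁.2, S.c₁.rd_mul (hFh₁.pow Q).1 (huGU₁.pow n).1,
      S.c₁.rd_pow hFh₁.1, S.c₁.rd_pow hu1, hrdF₁, hrdu₁, hu₁]
    exact pow_div_aux _ _ n Q hτψ₁0 hψ₁0
  have hggrd₂ : S.c₂.rd gg = 1 := by
    rw [hτ₂.1.rd_div hden₂, hτ₂.2, S.c₂.rd_mul (hFh₂.pow Q).1 (huGU₂.pow n).1,
      S.c₂.rd_pow hFh₂.1, S.c₂.rd_pow hu2, hrdF₂, hrdu₂, hu₂]
    exact pow_div_aux _ _ n Q hτψ₂0 hψ₂0
  -- orders
  have hordτ : ∀ (P : Place K F) (y : F), P.ord (τ • y) = (τ⁻¹ • P).ord y := by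
    intro P y
    have := SemilinearAut.ord_smul τ (τ⁻¹ • P) y
    rwa [smul_inv_smul] at this
  have hordF : ∀ P : Place K F, (n : ℤ) ∣ P.ord Fh := by
    intro P
    rw [hFh, P.ord_mul hf0 (pow_ne_zero _ hh0), ord_pow]
    exact dvd_add (hdiv P) (dvd_mul_right _ _)
  have hordg : ∀ P : Place K F,
      P.ord gg = (τ⁻¹ • P).ord Fh - (Q * P.ord Fh + n * P.ord u) := by
    intro P
    rw [hgg, ord_div P hτ₁.1.ne_zero hden₁.ne_zero, hordτ,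
      P.ord_mul (pow_ne_zero _ hFh0) (pow_ne_zero _ hu0), ord_pow, ord_pow]
  have hdivg : ∀ P : Place K F, (n : ℤ) ∣ P.ord gg := by
    intro P
    rw [hordg]
    exact dvd_sub (hordF _) (dvd_add (dvd_mul_of_dvd_right (hordF P) _) (dvd_mul_right _ _))
  have hnodeg : ∀ P : Place K F, S.IsNodeP P → P.ord gg = 0 := by
    intro P hP
    rw [hordg, hnode P hP, hnode _ (hτ.node P hP), hunode P hP]
    ring
  obtain ⟨t, ht⟩ := hTI K F k F₁ F₂ S H H₁ H₂ g g₁ g₂ c c₁ c₂ hR hR₁ hR₂ hnum n hn gg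
    hgg₁.1 hgg₂.1 hggrd₁ hggrd₂ hdivg hnodeg
  -- conclusion
  have hτh0 : τ • h ≠ 0 := by
    intro h0
    apply hh0
    have := congrArg (fun y => τ⁻¹ • y) h0
    simpa using this
  have hτFh : τ • Fh = (τ • f) * (τ • h) ^ n := by
    rw [hFh, smul_mul', smul_pow']
  refine ⟨t * u * h ^ Q / (τ • h), ?_⟩
  rw [div_pow, mul_pow, mul_pow, ht, hgg, hτFh, hFh]
  field_simp
  ring

end Fermat.Agent.BAD.H60
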