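import Fermat.Agent.BAD.ABS
import Fermat.Agent.BAD.H60_GlueFrob

/-!
# BAD_q: the glue theorem (toric part), unconditional  (helper28 + helper60)

`Fermat.Agent.BAD.stmt_GlueFrob : Stmt_GlueFrob` -- for a semistable Deuring datum `S` and a
Frobenius-like automorphism `τ` (scaling parameter `Q`), every Kummer function `f` of the toric
part (`f ∈ S.c₁.V`, `S.c₁.red f = 1`, `S.c₂.red (c₂ f) = 1`, `n ∣ ord_v f`) satisfies
`τ f ≡ f ^ Q` modulo `n`-th powers and constants.  (Input (ST-c) of S35.)
-/

set_option autoImplicit false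

namespace Fermat.Agent.BAD

/-- **GLUE (toric part), unconditional.** -/
theorem stmt_GlueFrob : Stmt_GlueFrob :=
  H60.glueFrob_of stmt_Moving H28.stmt_GoodLift H28.stmt_TIss

end Fermat.Agent.BAD
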