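import Fermat.Agent.BAD.H28_Skel

/-!
# Item 65, package ABS (helper28): basic API for the two valuations of an `SSD`

* constants: `mem₂_iff`, `rd₂_const`, `rd₁_const`, `rd_const_zero_iff`;
* fibres: `isNodeP_iff₂`, `r₂_none_of_good₁`, `r₁_none_of_good₂`, `not_good₁_of_mem`, ...;
* scaling: `exists_scale₂` (unit ball of the pair of norms), `exists_scale_max₂`;
* conservation at the nodes in the fibre: `sum_node`, `ord_eq_zero_of_node`.
-/

set_option autoImplicit false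
set_option linter.style.haveILetI false

noncomputable section

open AlgebraicCurve

attribute [local instance] Classical.propDecidable

namespace Fermat.Agent.BAD

open Fermat.Agent.RED.H17 Fermat.Agent.RED

local notation "L" => riemannRochSpace

namespace SSD

variable {K F k F₁ F₂ : Type*} [Field K] [Field F] [Algebra K F] [Field k] [Field F₁]
  [Algebra k F₁] [Field F₂] [Algebra k F₂] (S : SSD K F k F₁ F₂)

/-! ### Constants -/

theorem rd₂_const {c : K} (h₁ : algebraMap K F c ∈ S.c₁.V) {a : k}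
    (h : S.c₁.rd (algebraMap K F c) = algebraMap k F₁ a) :
    algebraMap K F c ∈ S.c₂.V ∧ S.c₂.rd (algebraMap K F c) = algebraMap k F₂ a := by
  have h₂ := (S.const_mem c).mp h₁
  refine ⟨h₂, ?_⟩
  rw [S.c₂.rd_of_mem h₂]
  rw [S.c₁.rd_of_mem h₁] at h
  exact S.const_red c h₁ h₂ a h

theorem rd₁_const {c : K} (h₂ : algebraMap K F c ∈ S.c₂.V) {a : k}
    (h : S.c₂.rd (algebraMap K F c) = algebraMap k F₂ a) :
    algebraMap K F c ∈ S.c₁.V ∧ S.c₁.rd (algebraMap K F c) = algebraMap k F₁ a := by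
  have h₁ := (S.const_mem c).mpr h₂
  refine ⟨h₁, ?_⟩
  obtain ⟨a', ha'⟩ := S.c₁.rd_const_eq c h₁
  have := (S.rd₂_const h₁ ha').2
  rw [h] at this
  have haa : a = a' := (algebraMap k F₂).injective this
  rw [ha', haa]

theorem rd₂_const_zero {c : K} (h₁ : algebraMap K F c ∈ S.c₁.V)
    (h : S.c₁.rd (algebraMap K F c) = 0) :
    algebraMap K F c ∈ S.c₂.V ∧ S.c₂.rd (algebraMap K F c) = 0 := by
  have := S.rd₂_const h₁ (a := 0) (by rw [h, map_zero])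
  rwa [map_zero] at this

theorem rd₁_const_zero {c : K} (h₂ : algebraMap K F c ∈ S.c₂.V)
    (h : S.c₂.rd (algebraMap K F c) = 0) :
    algebraMap K F c ∈ S.c₁.V ∧ S.c₁.rd (algebraMap K F c) = 0 := by
  have := S.rd₁_const h₂ (a := 0) (by rw [h, map_zero])
  rwa [map_zero] at this

/-- A constant is a unit for `V₁` iff it is a unit for `V₂`. -/
theorem isGU₂_const {c : K} (h : S.c₁.IsGU (algebraMap K F c)) : S.c₂.IsGU (algebraMap K F c) := by
  obtain ⟨a, ha⟩ := S.c₁.rd_const_eq c h.1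
  obtain ⟨h2, h3⟩ := S.rd₂_const h.1 ha
  refine ⟨h2, ?_⟩
  rw [h3]
  intro h0
  apply h.2
  have ha0 : a = 0 := (map_eq_zero_iff _ (algebraMap k F₂).injective).mp h0
  rw [ha, ha0, map_zero]

theorem isGU₁_const {c : K} (h : S.c₂.IsGU (algebraMap K F c)) : S.c₁.IsGU (algebraMap K F c) := by
  obtain ⟨a, ha⟩ := S.c₂.rd_const_eq c h.1
  obtain ⟨h2, h3⟩ := S.rd₁_const h.1 ha
  refine ⟨h2, ?_⟩
  rw [h3]
  intro h0
  apply h.2
  have ha0 : a = 0 := (map_eq_zero_iff _ (algebraMap k F₁).injective).mp h0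
  rw [ha, ha0, map_zero]

/-! ### Fibres -/

theorem not_good₁ {s : Place k F₁ × Place k F₂} (hs : s ∈ S.nodes) : s.1 ∉ S.c₁.good :=
  fun h => (S.good₁ s.1).mp h s hs rfl

theorem not_good₂ {s : Place k F₁ × Place k F₂} (hs : s ∈ S.nodes) : s.2 ∉ S.c₂.good :=
  fun h => (S.good₂ s.2).mp h s hs rfl

theorem good₁_of_notMem {Q : Place k F₁} (h : Q ∉ S.br₁) : Q ∈ S.c₁.good := by
  rw [S.good₁]
  intro s hs hsQ
  exact h (Finset.mem_image.mpr ⟨s, hs, hsQ⟩)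

theorem good₂_of_notMem {Q : Place k F₂} (h : Q ∉ S.br₂) : Q ∈ S.c₂.good := by
  rw [S.good₂]
  intro s hs hsQ
  exact h (Finset.mem_image.mpr ⟨s, hs, hsQ⟩)

theorem notMem_br₁ {Q : Place k F₁} (h : Q ∈ S.c₁.good) : Q ∉ S.br₁ := by
  intro hQ
  obtain ⟨s, hs, rfl⟩ := Finset.mem_image.mp hQ
  exact S.not_good₁ hs h

theorem notMem_br₂ {Q : Place k F₂} (h : Q ∈ S.c₂.good) : Q ∉ S.br₂ := by
  intro hQ
  obtain ⟨s, hs, rfl⟩ := Finset.mem_image.mp hQ
  exact S.not_good₂ hs h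

/-- The three cases of `r_cases` exclude each other: a place over a good place of `C₁`. -/
theorem r₂_none_of_good₁ {P : Place K F} {Q : Place k F₁} (hQ : Q ∈ S.c₁.good)
    (hP : S.c₁.r P = some Q) : S.c₂.r P = none := by
  rcases S.r_cases P with ⟨Q', _, h1, h2⟩ | ⟨Q', _, _, h2⟩ | ⟨s, hs, h1, _⟩
  · exact h2
  · rw [h2] at hP; exact absurd hP (by simp)
  · rw [h1] at hP
    have : s.1 = Q := Option.some.inj hP
    exact absurd (this ▸ hQ) (S.not_good₁ hs)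

theorem r₁_none_of_good₂ {P : Place K F} {Q : Place k F₂} (hQ : Q ∈ S.c₂.good)
    (hP : S.c₂.r P = some Q) : S.c₁.r P = none := by
  rcases S.r_cases P with ⟨Q', _, _, h2⟩ | ⟨Q', _, h1, h2⟩ | ⟨s, hs, _, h2⟩
  · rw [h2] at hP; exact absurd hP (by simp)
  · exact h2
  · rw [h2] at hP
    have : s.2 = Q := Option.some.inj hP
    exact absurd (this ▸ hQ) (S.not_good₂ hs)

/-- A place over the first branch of a node lies over the second branch. -/
theorem r₂_of_node {P : Place K F} {s : Place k F₁ × Place k F₂} (hs : s ∈ S.nodes)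
    (hP : S.c₁.r P = some s.1) : S.c₂.r P = some s.2 := by
  rcases S.r_cases P with ⟨Q', hQ', h1, _⟩ | ⟨Q', _, _, h2⟩ | ⟨s', hs', h1, h2⟩
  · rw [h1] at hP
    have : Q' = s.1 := Option.some.inj hP
    exact absurd (this ▸ hQ') (S.not_good₁ hs)
  · rw [h2] at hP; exact absurd hP (by simp)
  · rw [h1] at hP
    have : s'.1 = s.1 := Option.some.inj hP
    rw [h2, S.inj₁ s' hs' s hs this]

theorem r₁_of_node {P : Place K F} {s : Place k F₁ × Place k F₂} (hs : s ∈ S.nodes)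
    (hP : S.c₂.r P = some s.2) : S.c₁.r P = some s.1 := by
  rcases S.r_cases P with ⟨Q', _, _, h2⟩ | ⟨Q', hQ', h1, _⟩ | ⟨s', hs', h1, h2⟩
  · rw [h2] at hP; exact absurd hP (by simp)
  · rw [h1] at hP
    have : Q' = s.2 := Option.some.inj hP
    exact absurd (this ▸ hQ') (S.not_good₂ hs)
  · rw [h2] at hP
    have : s'.2 = s.2 := Option.some.inj hP
    rw [h1, S.inj₂ s' hs' s hs this]

theorem isNodeP_iff₂ {P : Place K F} : S.IsNodeP P ↔ ∃ s ∈ S.nodes, S.c₂.r P = some s.2 :=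
  ⟨fun ⟨s, hs, h⟩ => ⟨s, hs, S.r₂_of_node hs h⟩, fun ⟨s, hs, h⟩ => ⟨s, hs, S.r₁_of_node hs h⟩⟩

theorem not_isNodeP_of_good₁ {P : Place K F} {Q : Place k F₁} (hQ : Q ∈ S.c₁.good)
    (hP : S.c₁.r P = some Q) : ¬ S.IsNodeP P := by
  rintro ⟨s, hs, h⟩
  rw [hP] at h
  exact S.not_good₁ hs (Option.some.inj h ▸ hQ)

theorem not_isNodeP_of_good₂ {P : Place K F} {Q : Place k F₂} (hQ : Q ∈ S.c₂.good)
    (hP : S.c₂.r P = some Q) : ¬ S.IsNodeP P := by
  rw [S.isNodeP_iff₂]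
  rintro ⟨s, hs, h⟩
  rw [hP] at h
  exact S.not_good₂ hs (Option.some.inj h ▸ hQ)

/-- If `r₁ P = some Q`, then `Q` is good or `P` reduces to a node. -/
theorem good₁_or_node {P : Place K F} {Q : Place k F₁} (hP : S.c₁.r P = some Q) :
    Q ∈ S.c₁.good ∨ S.IsNodeP P := by
  rcases S.r_cases P with ⟨Q', hQ', h1, _⟩ | ⟨Q', _, _, h2⟩ | ⟨s, hs, h1, _⟩
  · rw [h1] at hP
    exact Or.inl (Option.some.inj hP ▸ hQ')
  · rw [h2] at hP; exact absurd hP (by simp)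
  · exact Or.inr ⟨s, hs, h1⟩

theorem good₂_or_node {P : Place K F} {Q : Place k F₂} (hP : S.c₂.r P = some Q) :
    Q ∈ S.c₂.good ∨ S.IsNodeP P := by
  rcases S.r_cases P with ⟨Q', _, _, h2⟩ | ⟨Q', hQ', h1, _⟩ | ⟨s, hs, h1, _⟩
  · rw [h2] at hP; exact absurd hP (by simp)
  · rw [h1] at hP
    exact Or.inl (Option.some.inj hP ▸ hQ')
  · exact Or.inr ⟨s, hs, h1⟩

/-! ### Scaling -/

/-- Scaling to the unit sphere of the pair of norms `|u|₁`, `|ϑ u|₂`. -/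
theorem exists_scale₂ {u ϑ : F} (hu : u ≠ 0) (hϑ : ϑ ≠ 0) :
    ∃ a : K, a ≠ 0 ∧ algebraMap K F a * u ∈ S.c₁.V ∧ ϑ * (algebraMap K F a * u) ∈ S.c₂.V ∧
      (S.c₁.IsGU (algebraMap K F a * u) ∨ S.c₂.IsGU (ϑ * (algebraMap K F a * u))) := by
  obtain ⟨a₁, ha₁, hGU₁⟩ := S.c₁.exists_isGU_scale hu
  obtain ⟨a₂, ha₂, hGU₂⟩ := S.c₂.exists_isGU_scale (mul_ne_zero hϑ hu)
  have ha₁F : algebraMap K F a₁ ≠ 0 := (map_ne_zero_iff _ (algebraMap K F).injective).mpr ha₁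
  have ha₂F : algebraMap K F a₂ ≠ 0 := (map_ne_zero_iff _ (algebraMap K F).injective).mpr ha₂
  rcases S.c₁.const_mem_or_inv_mem (a₂ / a₁) with h | h
  · -- `a₂ / a₁` integral: take `a₂`
    refine ⟨a₂, ha₂, ?_, ?_, Or.inr ?_⟩
    · have : algebraMap K F a₂ * u = algebraMap K F (a₂ / a₁) * (algebraMap K F a₁ * u) := by
        rw [map_div₀]; field_simp
      rw [this]
      exact S.c₁.V.mul_mem _ _ h hGU₁.1
    · have : ϑ * (algebraMap K F a₂ * u) = algebraMap K F a₂ * (ϑ * u) := by ring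
      rw [this]; exact hGU₂.1
    · have : ϑ * (algebraMap K F a₂ * u) = algebraMap K F a₂ * (ϑ * u) := by ring
      rw [this]; exact hGU₂
  · -- `a₁ / a₂` integral: take `a₁`
    have h' : algebraMap K F (a₁ / a₂) ∈ S.c₂.V := by
      have : (a₂ / a₁)⁻¹ = a₁ / a₂ := inv_div a₂ a₁
      rw [this] at h
      exact (S.const_mem _).mp h
    refine ⟨a₁, ha₁, hGU₁.1, ?_, Or.inl hGU₁⟩
    have : ϑ * (algebraMap K F a₁ * u) = algebraMap K F (a₁ / a₂) * (algebraMap K F a₂ * (ϑ * u)) := by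
      rw [map_div₀]; field_simp
    rw [this]
    exact S.c₂.V.mul_mem _ _ h' hGU₂.1

/-- A common scale, for both valuations, for finitely many elements of both maximal ideals. -/
theorem exists_scale_max₂ (I : Finset F)
    (hI : ∀ z ∈ I, (z ∈ S.c₁.V ∧ S.c₁.rd z = 0) ∧ (z ∈ S.c₂.V ∧ S.c₂.rd z = 0))
    (hne : ∃ z ∈ I, z ≠ 0) :
    ∃ c : K, c ≠ 0 ∧ (algebraMap K F c⁻¹ ∈ S.c₁.V ∧ S.c₁.rd (algebraMap K F c⁻¹) = 0) ∧
      (algebraMap K F c⁻¹ ∈ S.c₂.V ∧ S.c₂.rd (algebraMap K F c⁻¹) = 0) ∧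
      (∀ z ∈ I, algebraMap K F c * z ∈ S.c₁.V ∧ algebraMap K F c * z ∈ S.c₂.V) ∧
      ∃ z ∈ I, S.c₁.IsGU (algebraMap K F c * z) ∨ S.c₂.IsGU (algebraMap K F c * z) := by
  obtain ⟨c₁, hc₁, hd₁, hdr₁, hI₁, z₁, hz₁, hG₁⟩ :=
    S.c₁.exists_scale_max I (fun z hz => (hI z hz).1) hne
  obtain ⟨c₂, hc₂, hd₂, hdr₂, hI₂, z₂, hz₂, hG₂⟩ :=
    S.c₂.exists_scale_max I (fun z hz => (hI z hz).2) hne
  have hc₁F : algebraMap K F c₁ ≠ 0 := (map_ne_zero_iff _ (algebraMap K F).injective).mpr hc₁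
  have hc₂F : algebraMap K F c₂ ≠ 0 := (map_ne_zero_iff _ (algebraMap K F).injective).mpr hc₂
  rcases S.c₁.const_mem_or_inv_mem (c₁ / c₂) with h | h
  · -- `c₁ / c₂` integral: take `c₁`
    have h' := (S.const_mem _).mp h
    refine ⟨c₁, hc₁, ⟨hd₁, hdr₁⟩, S.rd₂_const_zero hd₁ hdr₁, fun z hz => ⟨hI₁ z hz, ?_⟩,
      z₁, hz₁, Or.inl hG₁⟩
    have : algebraMap K F c₁ * z = algebraMap K F (c₁ / c₂) * (algebraMap K F c₂ * z) := by
      rw [map_div₀]; field_simp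
    rw [this]
    exact S.c₂.V.mul_mem _ _ h' (hI₂ z hz)
  · have h1 : algebraMap K F (c₂ / c₁) ∈ S.c₁.V := by
      have : (c₁ / c₂)⁻¹ = c₂ / c₁ := inv_div c₁ c₂
      rwa [this] at h
    refine ⟨c₂, hc₂, S.rd₁_const_zero hd₂ hdr₂, ⟨hd₂, hdr₂⟩, fun z hz => ⟨?_, hI₂ z hz⟩,
      z₂, hz₂, Or.inr hG₂⟩
    have : algebraMap K F c₂ * z = algebraMap K F (c₂ / c₁) * (algebraMap K F c₁ * z) := by
      rw [map_div₀]; field_simp
    rw [this]
    exact S.c₁.V.mul_mem _ _ h1 (hI₁ z hz)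

/-! ### Conservation at the nodes -/

/-- Conservation at a node, as a sum over the support of `div u`. -/
theorem sum_node (hP : HasPrincipalDivisors K F) {s : Place k F₁ × Place k F₂}
    (hs : s ∈ S.nodes) {u₁ u₂ : F} (h₁ : S.c₁.IsGU u₁) (h₂ : S.c₂.IsGU u₂)
    (hc : ∃ c : K, u₂ = algebraMap K F c * u₁) :
    s.1.ord (S.c₁.rd u₁) + s.2.ord (S.c₂.rd u₂) =
      ∑ P ∈ (dv hP u₁).support, if S.c₁.r P = some s.1 then P.ord u₁ else 0 := by
  have h := S.DIn s hs ⟨u₁, h₁.1⟩ ⟨u₂, h₂.1⟩ (by rw [← S.c₁.rd_of_mem h₁.1]; exact h₁.2)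
    (by rw [← S.c₂.rd_of_mem h₂.1]; exact h₂.2) hc (dv hP u₁) (fun P => dv_apply hP u₁ P)
  rw [← S.c₁.rd_of_mem h₁.1, ← S.c₂.rd_of_mem h₂.1] at h
  rw [← h, mapDomain_apply_eq_sum]
  refine Finset.sum_congr rfl fun P _ => ?_
  by_cases hPQ : S.c₁.r P = some s.1
  · rw [if_pos hPQ, if_pos hPQ, dv_apply]
  · rw [if_neg hPQ, if_neg hPQ]

/-- If `u` is a unit for both valuations (up to a constant), regular on the fibre of the node
`s`, and the two reductions have no zero or pole at the branches, then `u` has no zero on the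
fibre of `s`. -/
theorem ord_eq_zero_of_node (hP : HasPrincipalDivisors K F) {s : Place k F₁ × Place k F₂}
    (hs : s ∈ S.nodes) {u₁ u₂ : F} (h₁ : S.c₁.IsGU u₁) (h₂ : S.c₂.IsGU u₂)
    (hc : ∃ c : K, u₂ = algebraMap K F c * u₁)
    (hreg : ∀ P, S.c₁.r P = some s.1 → 0 ≤ P.ord u₁)
    (ho₁ : s.1.ord (S.c₁.rd u₁) = 0) (ho₂ : s.2.ord (S.c₂.rd u₂) = 0)
    {P : Place K F} (hPs : S.c₁.r P = some s.1) : P.ord u₁ = 0 := by
  have hsum := S.sum_node hP hs h₁ h₂ hc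
  rw [ho₁, ho₂, add_zero] at hsum
  by_cases hmem : P ∈ (dv hP u₁).support
  · have hnn : ∀ P' ∈ (dv hP u₁).support,
        0 ≤ (if S.c₁.r P' = some s.1 then P'.ord u₁ else 0) := by
      intro P' _
      split_ifs with h
      · exact hreg P' h
      · exact le_rfl
    have := eq_zero_of_sum_eq_zero _ _ hnn hsum.symm hmem
    rwa [if_pos hPs] at this
  · rw [Finsupp.notMem_support_iff, dv_apply] at hmem
    exact hmem

end SSD

end Fermat.Agent.BAD
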