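import Fermat.Agent.BAD.H28_KeyStmt
import Fermat.Agent.BAD.H28_Two

/-!
# Item 65, package ABS, part P5 (helper1): torsion injectivity in good position

`stmt_TIss_of : Stmt_NodalNS → Stmt_Coords → Stmt_Contain0 → Stmt_KeyNodal → Stmt_TIss`.

Port of helper17's `RedSetup.ticore` (`RED/H17_Main.lean`) to a semistable Deuring datum with two
components: non-special pair `(A₁, A₂)` on the nodal curve, coordinates on the residue discs of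
the points of `A₁ ⊔ A₂`, the divisor `E' = ∑ Y_Q` of the zeros of the coordinates, a function
`u ∈ L((1/n) div f + E')` on the unit sphere of the pair of norms; its reductions are glued at the
nodes, hence a constant pair; `E = div u + (1/n) div f + E' = ∑ X_Q` is in good position, and the
nodal key lemma applies to `f u ^ n / (f u ^ n)(P∞)`.
-/

set_option autoImplicit false
set_option linter.style.haveILetI false
set_option maxHeartbeats 1000000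

noncomputable section

open AlgebraicCurve

attribute [local instance] Classical.propDecidable

namespace Fermat.Agent.BAD.H01

open Fermat.Agent.RED.H17 Fermat.Agent.RED Fermat.Agent.BAD

local notation "L" => riemannRochSpace

section Aux

variable {K F : Type*} [Field K] [Field F] [Algebra K F]

/-- Push-forward of a sum of points. -/
theorem mapDomain_ptsDiv_apply {β : Type*} (r : Place K F → β) (B : Finset (Place K F))
    (b : β) :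
    Finsupp.mapDomain r (ptsDiv B) b = ((B.filter fun P => r P = b).card : ℤ) := by
  unfold ptsDiv
  rw [Finsupp.mapDomain_finsetSum, Finsupp.finsetSum_apply, Finset.card_filter]
  push_cast
  refine Finset.sum_congr rfl fun P _ => ?_
  rw [Finsupp.mapDomain_single, Finsupp.single_apply]

theorem mapDomain_ptsDiv_eq_one {β : Type*} (r : Place K F → β) (B : Finset (Place K F))
    (b : β) (Y : Place K F) (hY : ∀ P, (P ∈ B ∧ r P = b) ↔ P = Y) :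
    Finsupp.mapDomain r (ptsDiv B) b = 1 := by
  rw [mapDomain_ptsDiv_apply, Nat.cast_eq_one, Finset.card_eq_one]
  refine ⟨Y, ?_⟩
  ext P
  rw [Finset.mem_filter, Finset.mem_singleton]
  exact hY P

theorem mapDomain_ptsDiv_eq_zero {β : Type*} (r : Place K F → β) (B : Finset (Place K F))
    (b : β) (h : ∀ P ∈ B, r P ≠ b) :
    Finsupp.mapDomain r (ptsDiv B) b = 0 := by
  rw [mapDomain_ptsDiv_apply, Nat.cast_eq_zero, Finset.card_eq_zero,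
    Finset.filter_eq_empty_iff]
  exact h

variable {k F' : Type*} [Field k] [Field F'] [Algebra k F']

/-- The divisor identity for the divisor of a unit, at a good place. -/
theorem mapDomain_dv (c : PRed K F k F') (hP : HasPrincipalDivisors K F) {u : F}
    (hu : c.IsGU u) {Q : Place k F'} (hQ : Q ∈ c.good) :
    Finsupp.mapDomain c.r (dv hP u) (some Q) = Q.ord (c.rd u) := by
  have h := c.DI ⟨u, hu.1⟩ (by rw [← c.rd_of_mem hu.1]; exact hu.2) (dv hP u)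
    (fun P => dv_apply hP u P) Q hQ
  rwa [← c.rd_of_mem hu.1] at h

/-- A divisor vanishing on the fibre of `b` has push-forward `0` at `b`. -/
theorem mapDomain_eq_zero_of_fibre {α β : Type*} (r : α → β) (D : α →₀ ℤ) (b : β)
    (h : ∀ a, r a = b → D a = 0) : Finsupp.mapDomain r D b = 0 := by
  rw [mapDomain_apply_eq_sum]
  refine Finset.sum_eq_zero fun a _ => ?_
  split_ifs with hab
  · exact h a hab
  · rfl

end Aux


/-- **P5, torsion injectivity in good position**, from the non-special pair, the coordinates,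
the untwisted containment and the nodal key lemma. -/
theorem stmt_TIss_of (hNS : Stmt_NodalNS) (hCo : Stmt_Coords) (hC0 : Stmt_Contain0)
    (hKey : Stmt_KeyNodal) : Stmt_TIss := by
  intro K F k F₁ F₂ _ _ _ _ _ _ _ _ _ _ S H H₁ H₂ g g₁ g₂ c c₁ c₂ hR hR₁ hR₂ hgen n hn f hf₁ hf₂
    hrd₁ hrd₂ hdiv hnode
  have hP := H.principal
  have hn0 : n ≠ 0 := by
    rintro rfl
    exact hn Nat.cast_zero
  have hnZ : (n : ℤ) ≠ 0 := by exact_mod_cast hn0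
  have hfGU₁ : S.c₁.IsGU f := ⟨hf₁, by rw [hrd₁]; exact one_ne_zero⟩
  have hfGU₂ : S.c₂.IsGU f := ⟨hf₂, by rw [hrd₂]; exact one_ne_zero⟩
  -- the non-special pair
  obtain ⟨A₁, A₂, hcard, hdis₁, hdis₂, hNSA⟩ :=
    hNS K F k F₁ F₂ S H₁ H₂ g₁ g₂ c₁ c₂ hR₁ hR₂ ∅ ∅
  rw [Finset.union_empty] at hdis₁ hdis₂
  have hA₁g : ∀ Q ∈ A₁, Q ∈ S.c₁.good := fun Q hQ =>
    S.good₁_of_notMem (Finset.disjoint_left.mp hdis₁ hQ)
  have hA₂g : ∀ Q ∈ A₂, Q ∈ S.c₂.good := fun Q hQ =>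
    S.good₂_of_notMem (Finset.disjoint_left.mp hdis₂ hQ)
  -- the place at infinity
  obtain ⟨Qinf, hQinf⟩ := H₁.exists_notMem (A₁ ∪ S.br₁)
  rw [Finset.mem_union, not_or] at hQinf
  have hQinfg : Qinf ∈ S.c₁.good := S.good₁_of_notMem hQinf.2
  obtain ⟨Pinf, hPinf⟩ := S.c₁.r_surjective hP Qinf hQinfg
  -- the coordinates
  obtain ⟨hco₁, hco₂⟩ :=
    hCo K F k F₁ F₂ S H H₁ H₂ g g₁ g₂ c c₁ c₂ hR hR₁ hR₂ hgen A₁ A₂ hdis₁ hdis₂
  have hs₁ex : ∀ Q, ∃ s : F, Q ∈ A₁ → S.IsCoordA₁ A₁ A₂ s Q := by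
    intro Q
    by_cases hQ : Q ∈ A₁
    · obtain ⟨s, hs⟩ := hco₁ Q hQ
      exact ⟨s, fun _ => hs⟩
    · exact ⟨0, fun h => absurd h hQ⟩
  choose s₁ hs₁ using hs₁ex
  have hs₂ex : ∀ Q, ∃ s : F, Q ∈ A₂ → S.IsCoordA₂ A₁ A₂ s Q := by
    intro Q
    by_cases hQ : Q ∈ A₂
    · obtain ⟨s, hs⟩ := hco₂ Q hQ
      exact ⟨s, fun _ => hs⟩
    · exact ⟨0, fun h => absurd h hQ⟩
  choose s₂ hs₂ using hs₂ex
  have hsC₁ : ∀ Q ∈ A₁, S.c₁.IsCoord (s₁ Q) Q := fun Q hQ => (hs₁ Q hQ).1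
  have hsC₂ : ∀ Q ∈ A₂, S.c₂.IsCoord (s₂ Q) Q := fun Q hQ => (hs₂ Q hQ).1
  -- the zeros `Y` of the coordinates
  have hY₁ex : ∀ Q, ∃ Y : Place K F, Q ∈ A₁ → S.c₁.r Y = some Q ∧ Y.ord (s₁ Q) = 1 ∧
      ∀ P, S.c₁.r P = some Q → P ≠ Y → P.ord (s₁ Q) = 0 := by
    intro Q
    by_cases hQ : Q ∈ A₁
    · obtain ⟨Y, h1, h2, h3⟩ := (hsC₁ Q hQ).exists_zero hP
      exact ⟨Y, fun _ => ⟨h1, h2, h3⟩⟩
    · exact ⟨Pinf, fun h => absurd h hQ⟩
  choose Y₁ hY₁ using hY₁ex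
  have hY₂ex : ∀ Q, ∃ Y : Place K F, Q ∈ A₂ → S.c₂.r Y = some Q ∧ Y.ord (s₂ Q) = 1 ∧
      ∀ P, S.c₂.r P = some Q → P ≠ Y → P.ord (s₂ Q) = 0 := by
    intro Q
    by_cases hQ : Q ∈ A₂
    · obtain ⟨Y, h1, h2, h3⟩ := (hsC₂ Q hQ).exists_zero hP
      exact ⟨Y, fun _ => ⟨h1, h2, h3⟩⟩
    · exact ⟨Pinf, fun h => absurd h hQ⟩
  choose Y₂ hY₂ using hY₂ex
  have hrY₁ : ∀ Q ∈ A₁, S.c₁.r (Y₁ Q) = some Q := fun Q hQ => (hY₁ Q hQ).1
  have hrY₂ : ∀ Q ∈ A₂, S.c₂.r (Y₂ Q) = some Q := fun Q hQ => (hY₂ Q hQ).1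
  -- the set `B` of the zeros and the divisor `E'`
  obtain ⟨B, hBdef⟩ : ∃ B : Finset (Place K F), B = A₁.image Y₁ ∪ A₂.image Y₂ := ⟨_, rfl⟩
  have hBmem : ∀ P, P ∈ B ↔ (∃ Q ∈ A₁, Y₁ Q = P) ∨ ∃ Q ∈ A₂, Y₂ Q = P := by
    intro P
    rw [hBdef, Finset.mem_union, Finset.mem_image, Finset.mem_image]
  have hB₁ : ∀ P Q, S.c₁.r P = some Q → (P ∈ B ↔ Q ∈ A₁ ∧ P = Y₁ Q) := by
    intro P Q hPQ
    rw [hBmem]
    constructor
    · rintro (⟨Q', hQ', rfl⟩ | ⟨Q', hQ', rfl⟩)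
      · have := hrY₁ Q' hQ'
        rw [hPQ] at this
        have e : Q = Q' := Option.some.inj this
        subst e
        exact ⟨hQ', rfl⟩
      · have := S.r₁_none_of_good₂ (hA₂g Q' hQ') (hrY₂ Q' hQ')
        rw [hPQ] at this
        exact absurd this (by simp)
    · rintro ⟨hQ, rfl⟩
      exact Or.inl ⟨Q, hQ, rfl⟩
  have hB₂ : ∀ P Q, S.c₂.r P = some Q → (P ∈ B ↔ Q ∈ A₂ ∧ P = Y₂ Q) := by
    intro P Q hPQ
    rw [hBmem]
    constructor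
    · rintro (⟨Q', hQ', rfl⟩ | ⟨Q', hQ', rfl⟩)
      · have := S.r₂_none_of_good₁ (hA₁g Q' hQ') (hrY₁ Q' hQ')
        rw [hPQ] at this
        exact absurd this (by simp)
      · have := hrY₂ Q' hQ'
        rw [hPQ] at this
        have e : Q = Q' := Option.some.inj this
        subst e
        exact ⟨hQ', rfl⟩
    · rintro ⟨hQ, rfl⟩
      exact Or.inr ⟨Q, hQ, rfl⟩
  have hBnode : ∀ P, S.IsNodeP P → P ∉ B := by
    intro P hPn hPB
    rcases (hBmem P).mp hPB with ⟨Q', hQ', rfl⟩ | ⟨Q', hQ', rfl⟩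
    · exact S.not_isNodeP_of_good₁ (hA₁g Q' hQ') (hrY₁ Q' hQ') hPn
    · exact S.not_isNodeP_of_good₂ (hA₂g Q' hQ') (hrY₂ Q' hQ') hPn
  have hBcard : B.card = A₁.card + A₂.card := by
    rw [hBdef, Finset.card_union_of_disjoint, Finset.card_image_of_injOn,
      Finset.card_image_of_injOn]
    · intro Q hQ Q' hQ' h
      have h1 := hrY₂ Q hQ
      have h1' : S.c₂.r (Y₂ Q) = some Q' := by
        have := hrY₂ Q' hQ'
        rwa [← show Y₂ Q = Y₂ Q' from h] at this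
      rw [h1] at h1'
      exact Option.some.inj h1'
    · intro Q hQ Q' hQ' h
      have h1 := hrY₁ Q hQ
      have h1' : S.c₁.r (Y₁ Q) = some Q' := by
        have := hrY₁ Q' hQ'
        rwa [← show Y₁ Q = Y₁ Q' from h] at this
      rw [h1] at h1'
      exact Option.some.inj h1'
    · rw [Finset.disjoint_left]
      intro P hP₁ hP₂
      obtain ⟨Q, hQ, rfl⟩ := Finset.mem_image.mp hP₁
      obtain ⟨Q', hQ', hQQ'⟩ := Finset.mem_image.mp hP₂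
      have h1 := S.r₂_none_of_good₁ (hA₁g Q hQ) (hrY₁ Q hQ)
      have h2 := hrY₂ Q' hQ'
      rw [hQQ', h1] at h2
      exact absurd h2 (by simp)
  obtain ⟨E', hE'def⟩ : ∃ E' : Divisor K F, E' = ptsDiv B := ⟨_, rfl⟩
  have hE'a : ∀ P, E' P = if P ∈ B then 1 else 0 := fun P => by
    rw [hE'def, ptsDiv_apply]
  have hdegE' : Divisor.degree E' = (A₁.card + A₂.card : ℕ) := by
    rw [hE'def, degree_ptsDiv H.deg_one, hBcard]
  have hrE'₁ : ∀ Q, Finsupp.mapDomain S.c₁.r E' (some Q) = ptsDiv A₁ Q := by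
    intro Q
    rw [hE'def, ptsDiv_apply]
    by_cases hQ : Q ∈ A₁
    · rw [if_pos hQ]
      refine mapDomain_ptsDiv_eq_one _ _ _ (Y₁ Q) fun P => ?_
      constructor
      · rintro ⟨hPB, hPQ⟩
        exact ((hB₁ P Q hPQ).mp hPB).2
      · rintro rfl
        exact ⟨(hB₁ _ Q (hrY₁ Q hQ)).mpr ⟨hQ, rfl⟩, hrY₁ Q hQ⟩
    · rw [if_neg hQ]
      refine mapDomain_ptsDiv_eq_zero _ _ _ fun P hPB hPQ => ?_
      exact absurd ((hB₁ P Q hPQ).mp hPB).1 hQ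
  have hrE'₂ : ∀ Q, Finsupp.mapDomain S.c₂.r E' (some Q) = ptsDiv A₂ Q := by
    intro Q
    rw [hE'def, ptsDiv_apply]
    by_cases hQ : Q ∈ A₂
    · rw [if_pos hQ]
      refine mapDomain_ptsDiv_eq_one _ _ _ (Y₂ Q) fun P => ?_
      constructor
      · rintro ⟨hPB, hPQ⟩
        exact ((hB₂ P Q hPQ).mp hPB).2
      · rintro rfl
        exact ⟨(hB₂ _ Q (hrY₂ Q hQ)).mpr ⟨hQ, rfl⟩, hrY₂ Q hQ⟩
    · rw [if_neg hQ]
      refine mapDomain_ptsDiv_eq_zero _ _ _ fun P hPB hPQ => ?_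
      exact absurd ((hB₂ P Q hPQ).mp hPB).1 hQ
  -- the divisor `D₀ = (1/n) div f`
  obtain ⟨D₀, hD₀def⟩ : ∃ D₀ : Divisor K F,
      D₀ = (dv hP f).mapRange (fun m : ℤ => m / (n : ℤ)) (by simp) := ⟨_, rfl⟩
  have hD₀a : ∀ P, (n : ℤ) * D₀ P = P.ord f := by
    intro P
    rw [hD₀def, Finsupp.mapRange_apply, dv_apply]
    exact Int.mul_ediv_cancel' (hdiv P)
  have hnD₀ : (n : ℤ) • D₀ = dv hP f := by
    ext P
    rw [Finsupp.smul_apply, smul_eq_mul, hD₀a, dv_apply]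
  have hdegD₀ : Divisor.degree D₀ = 0 := by
    have h1 : Divisor.degree ((n : ℤ) • D₀) = 0 := by rw [hnD₀, degree_dv]
    rw [map_zsmul, smul_eq_mul] at h1
    exact (mul_eq_zero.mp h1).resolve_left hnZ
  have hD₀node : ∀ P, S.IsNodeP P → D₀ P = 0 := by
    intro P hPn
    have := hD₀a P
    rw [hnode P hPn] at this
    exact (mul_eq_zero.mp this).resolve_left hnZ
  have hrD₀₁ : ∀ Q, Finsupp.mapDomain S.c₁.r D₀ (some Q) = 0 := by
    intro Q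
    by_cases hQ : Q ∈ S.c₁.good
    · have h1 : (n : ℤ) • Finsupp.mapDomain S.c₁.r D₀ (some Q) = 0 := by
        rw [← Finsupp.smul_apply, ← Finsupp.mapDomain_smul, hnD₀, mapDomain_dv S.c₁ hP hfGU₁ hQ,
          hrd₁, Place.ord_one]
      exact (smul_eq_zero.mp h1).resolve_left hnZ
    · apply mapDomain_eq_zero_of_fibre
      intro P hPQ
      exact hD₀node P ((S.good₁_or_node hPQ).resolve_left hQ)
  have hrD₀₂ : ∀ Q, Finsupp.mapDomain S.c₂.r D₀ (some Q) = 0 := by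
    intro Q
    by_cases hQ : Q ∈ S.c₂.good
    · have h1 : (n : ℤ) • Finsupp.mapDomain S.c₂.r D₀ (some Q) = 0 := by
        rw [← Finsupp.smul_apply, ← Finsupp.mapDomain_smul, hnD₀, mapDomain_dv S.c₂ hP hfGU₂ hQ,
          hrd₂, Place.ord_one]
      exact (smul_eq_zero.mp h1).resolve_left hnZ
    · apply mapDomain_eq_zero_of_fibre
      intro P hPQ
      exact hD₀node P ((S.good₂_or_node hPQ).resolve_left hQ)
  -- `D₀ + E'` is in good position, with push-forwards `A₁`, `A₂`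
  have hGP : S.GoodPos (D₀ + E') := by
    intro P hne hPn
    apply hne
    rw [Finsupp.add_apply, hD₀node P hPn, hE'a, if_neg (hBnode P hPn), add_zero]
  have hpush₁ : S.push₁ (D₀ + E') = ptsDiv A₁ := by
    ext Q
    rw [S.push₁_apply, Finsupp.mapDomain_add, Finsupp.add_apply, hrD₀₁, hrE'₁, zero_add]
  have hpush₂ : S.push₂ (D₀ + E') = ptsDiv A₂ := by
    ext Q
    rw [S.push₂_apply, Finsupp.mapDomain_add, Finsupp.add_apply, hrD₀₂, hrE'₂, zero_add]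
  -- the function `u`
  have hex : ∃ u₀ : F, u₀ ∈ L (D₀ + E') ∧ u₀ ≠ 0 := by
    have h1 := (hR (D₀ + E')).1
    rw [map_add, hdegD₀, hdegE'] at h1
    have h2 : L (D₀ + E') ≠ ⊥ := by
      intro hbot
      rw [hbot, finrank_bot] at h1
      push_cast at h1
      omega
    exact (Submodule.ne_bot_iff _).mp h2
  obtain ⟨u₀, hu₀, hu₀0⟩ := hex
  obtain ⟨a₀, ha₀, hu₁V, hu₂V, hGU⟩ := S.exists_scale₂ hu₀0 (one_ne_zero : (1 : F) ≠ 0)
  obtain ⟨u, hudef⟩ : ∃ u : F, u = algebraMap K F a₀ * u₀ := ⟨_, rfl⟩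
  rw [← hudef] at hu₁V hu₂V hGU
  rw [one_mul] at hu₂V hGU
  have huL : u ∈ L (D₀ + E') := by
    rw [hudef, ← Algebra.smul_def]
    exact (L (D₀ + E')).smul_mem a₀ hu₀
  have hu0 : u ≠ 0 := by
    rw [hudef]
    exact mul_ne_zero ((map_ne_zero_iff _ (algebraMap K F).injective).mpr ha₀) hu₀0
  -- the reductions of `u` are a constant pair
  have hRs : ((S.c₁.rd u, S.c₂.rd u) : F₁ × F₂) ∈ S.Rsub 1 (D₀ + E') :=
    ⟨u, huL, hu₁V, by rw [one_mul]; exact hu₂V, rfl, by rw [one_mul]⟩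
  have hLam := hC0 K F k F₁ F₂ S H H₁ H₂ (D₀ + E') hGP hRs
  rw [S.mem_Lam, hpush₁, hpush₂] at hLam
  obtain ⟨hL₁, hL₂, hglue⟩ := hLam
  obtain ⟨cu, hcu₁, hcu₂⟩ := hNSA _ hL₁ _ hL₂ (by
    intro s hs
    obtain ⟨a, ha1, ha2⟩ := hglue s hs
    refine ⟨a, ha1, ?_⟩
    simpa using ha2)
  simp only at hcu₁ hcu₂
  have hcu0 : cu ≠ 0 := by
    rintro rfl
    rw [map_zero] at hcu₁ hcu₂
    rcases hGU with h | h
    · exact h.2 hcu₁
    · exact h.2 hcu₂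
  have huGU₁ : S.c₁.IsGU u := ⟨hu₁V, by
    rw [hcu₁]; exact (map_ne_zero_iff _ (algebraMap k F₁).injective).mpr hcu0⟩
  have huGU₂ : S.c₂.IsGU u := ⟨hu₂V, by
    rw [hcu₂]; exact (map_ne_zero_iff _ (algebraMap k F₂).injective).mpr hcu0⟩
  -- the divisor `E`
  obtain ⟨E, hEdef⟩ : ∃ E : Divisor K F, E = dv hP u + D₀ + E' := ⟨_, rfl⟩
  have hEa : ∀ P, E P = P.ord u + D₀ P + E' P := fun P => by
    rw [hEdef, Finsupp.add_apply, Finsupp.add_apply, dv_apply]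
  have hEnn : ∀ P, 0 ≤ E P := by
    intro P
    have := ord_ge_of_mem_L huL hu0 P
    rw [Finsupp.add_apply] at this
    rw [hEa]
    omega
  have hrE₁ : ∀ Q ∈ S.c₁.good, Finsupp.mapDomain S.c₁.r E (some Q) = ptsDiv A₁ Q := by
    intro Q hQ
    rw [hEdef, Finsupp.mapDomain_add, Finsupp.mapDomain_add, Finsupp.add_apply,
      Finsupp.add_apply, hrD₀₁, hrE'₁, mapDomain_dv S.c₁ hP huGU₁ hQ, hcu₁, ord_algebraMap]
    ring
  have hrE₂ : ∀ Q ∈ S.c₂.good, Finsupp.mapDomain S.c₂.r E (some Q) = ptsDiv A₂ Q := by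
    intro Q hQ
    rw [hEdef, Finsupp.mapDomain_add, Finsupp.mapDomain_add, Finsupp.add_apply,
      Finsupp.add_apply, hrD₀₂, hrE'₂, mapDomain_dv S.c₂ hP huGU₂ hQ, hcu₂, ord_algebraMap]
    ring
  have hEnode : ∀ P, S.IsNodeP P → E P = 0 := by
    intro P hPn
    obtain ⟨s, hs, hPs⟩ := hPn
    have hEu : ∀ P', S.c₁.r P' = some s.1 → E P' = P'.ord u := by
      intro P' hP's
      rw [hEa, hD₀node P' ⟨s, hs, hP's⟩, hE'a, if_neg (hBnode P' ⟨s, hs, hP's⟩)]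
      ring
    rw [hEu P hPs]
    refine S.ord_eq_zero_of_node hP hs huGU₁ huGU₂ ⟨1, by rw [map_one, one_mul]⟩ ?_ ?_ ?_ hPs
    · intro P' hP's
      rw [← hEu P' hP's]
      exact hEnn P'
    · rw [hcu₁, ord_algebraMap]
    · rw [hcu₂, ord_algebraMap]
  -- the points `X`
  have hX₁ex : ∀ Q, ∃ X, Q ∈ A₁ → S.c₁.r X = some Q ∧ E X = 1 ∧
      ∀ P, S.c₁.r P = some Q → P ≠ X → E P = 0 := by
    intro Q
    by_cases hQ : Q ∈ A₁
    · obtain ⟨X, h1, h2, h3⟩ := fibre_one S.c₁.r hEnn (b := some Q) (by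
        rw [hrE₁ Q (hA₁g Q hQ), ptsDiv_apply, if_pos hQ])
      exact ⟨X, fun _ => ⟨h1, h2, h3⟩⟩
    · exact ⟨Pinf, fun h => absurd h hQ⟩
  choose X₁ hX₁ using hX₁ex
  have hX₂ex : ∀ Q, ∃ X, Q ∈ A₂ → S.c₂.r X = some Q ∧ E X = 1 ∧
      ∀ P, S.c₂.r P = some Q → P ≠ X → E P = 0 := by
    intro Q
    by_cases hQ : Q ∈ A₂
    · obtain ⟨X, h1, h2, h3⟩ := fibre_one S.c₂.r hEnn (b := some Q) (by
        rw [hrE₂ Q (hA₂g Q hQ), ptsDiv_apply, if_pos hQ])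
      exact ⟨X, fun _ => ⟨h1, h2, h3⟩⟩
    · exact ⟨Pinf, fun h => absurd h hQ⟩
  choose X₂ hX₂ using hX₂ex
  -- outside the discs `E` and `E'` vanish
  have hout : ∀ P, (∀ Q ∈ A₁, S.c₁.r P ≠ some Q) → (∀ Q ∈ A₂, S.c₂.r P ≠ some Q) →
      E P = 0 ∧ E' P = 0 := by
    intro P h₁ h₂
    have hPB : P ∉ B := by
      intro hPB
      rcases (hBmem P).mp hPB with ⟨Q', hQ', rfl⟩ | ⟨Q', hQ', rfl⟩
      · exact h₁ Q' hQ' (hrY₁ Q' hQ')
      · exact h₂ Q' hQ' (hrY₂ Q' hQ')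
    refine ⟨?_, by rw [hE'a, if_neg hPB]⟩
    rcases S.r_cases P with ⟨Q, hQ, hPQ, -⟩ | ⟨Q, hQ, hPQ, -⟩ | ⟨s, hs, hPs, -⟩
    · have hQA : Q ∉ A₁ := fun hQA => h₁ Q hQA hPQ
      exact fibre_zero S.c₁.r hEnn (b := some Q) (by
        rw [hrE₁ Q hQ, ptsDiv_apply, if_neg hQA]) hPQ
    · have hQA : Q ∉ A₂ := fun hQA => h₂ Q hQA hPQ
      exact fibre_zero S.c₂.r hEnn (b := some Q) (by
        rw [hrE₂ Q hQ, ptsDiv_apply, if_neg hQA]) hPQ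
    · exact hEnode P ⟨s, hs, hPs⟩
  -- the values `a`
  have ha₁ex : ∀ Q, ∃ a : K, Q ∈ A₁ → algebraMap K F a ∈ S.c₁.V ∧
      S.c₁.rd (algebraMap K F a) = 0 ∧ VanAt (X₁ Q) (s₁ Q - algebraMap K F a) := by
    intro Q
    by_cases hQ : Q ∈ A₁
    · obtain ⟨a, h1, h2, h3⟩ := (hsC₁ Q hQ).exists_value hP H.deg_one (hX₁ Q hQ).1
      exact ⟨a, fun _ => ⟨h1, h2, h3⟩⟩
    · exact ⟨0, fun h => absurd h hQ⟩
  choose a₁ ha₁ using ha₁ex
  have ha₂ex : ∀ Q, ∃ a : K, Q ∈ A₂ → algebraMap K F a ∈ S.c₂.V ∧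
      S.c₂.rd (algebraMap K F a) = 0 ∧ VanAt (X₂ Q) (s₂ Q - algebraMap K F a) := by
    intro Q
    by_cases hQ : Q ∈ A₂
    · obtain ⟨a, h1, h2, h3⟩ := (hsC₂ Q hQ).exists_value hP H.deg_one (hX₂ Q hQ).1
      exact ⟨a, fun _ => ⟨h1, h2, h3⟩⟩
    · exact ⟨0, fun h => absurd h hQ⟩
  choose a₂ ha₂ using ha₂ex
  -- the function `f₀ = f u ^ n`
  obtain ⟨f₀, hf₀def⟩ : ∃ f₀ : F, f₀ = f * u ^ n := ⟨_, rfl⟩
  have hf₀GU₁ : S.c₁.IsGU f₀ := by rw [hf₀def]; exact hfGU₁.mul (huGU₁.pow n)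
  have hf₀GU₂ : S.c₂.IsGU f₀ := by rw [hf₀def]; exact hfGU₂.mul (huGU₂.pow n)
  have hf₀rd₁ : S.c₁.rd f₀ = algebraMap k F₁ (cu ^ n) := by
    rw [hf₀def, S.c₁.rd_mul hf₁ (huGU₁.pow n).1, hrd₁, one_mul, S.c₁.rd_pow huGU₁.1, hcu₁,
      map_pow]
  have hf₀rd₂ : S.c₂.rd f₀ = algebraMap k F₂ (cu ^ n) := by
    rw [hf₀def, S.c₂.rd_mul hf₂ (huGU₂.pow n).1, hrd₂, one_mul, S.c₂.rd_pow huGU₂.1, hcu₂,
      map_pow]
  have hf₀ord : ∀ P, P.ord f₀ = n * (E P - E' P) := by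
    intro P
    rw [hf₀def, P.ord_mul hfGU₁.ne_zero (pow_ne_zero _ hu0), ord_pow, ← hD₀a, hEa]
    ring
  have hPinfout : (∀ Q ∈ A₁, S.c₁.r Pinf ≠ some Q) ∧ ∀ Q ∈ A₂, S.c₂.r Pinf ≠ some Q := by
    constructor
    · intro Q hQ h
      rw [hPinf] at h
      exact hQinf.1 (Option.some.inj h ▸ hQ)
    · intro Q hQ h
      rw [S.r₂_none_of_good₁ hQinfg hPinf] at h
      exact absurd h (by simp)
  have hQinfout : ∀ P, S.c₁.r P = some Qinf →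
      (∀ Q ∈ A₁, S.c₁.r P ≠ some Q) ∧ ∀ Q ∈ A₂, S.c₂.r P ≠ some Q := by
    intro P hPQ
    constructor
    · intro Q hQ h
      rw [hPQ] at h
      exact hQinf.1 (Option.some.inj h ▸ hQ)
    · intro Q hQ h
      rw [S.r₂_none_of_good₁ hQinfg hPQ] at h
      exact absurd h (by simp)
  have hf₀ord0 : ∀ P, (∀ Q ∈ A₁, S.c₁.r P ≠ some Q) → (∀ Q ∈ A₂, S.c₂.r P ≠ some Q) →
      P.ord f₀ = 0 := by
    intro P h₁ h₂
    obtain ⟨e1, e2⟩ := hout P h₁ h₂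
    rw [hf₀ord, e1, e2]
    simp
  -- the value of `f₀` at infinity
  obtain ⟨e₀, he₀⟩ := exists_value Pinf (H.deg_one Pinf)
    (regAt_of_ord_nonneg (le_of_eq (hf₀ord0 Pinf hPinfout.1 hPinfout.2).symm))
  obtain ⟨he₀V, he₀rd⟩ := S.c₁.const_of_vanAt_of_rd_const hP hf₀GU₁.1 hQinfg
    (fun P hPQ => le_of_eq (hf₀ord0 P (hQinfout P hPQ).1 (hQinfout P hPQ).2).symm)
    hPinf he₀ hf₀rd₁
  have he₀GU₁ : S.c₁.IsGU (algebraMap K F e₀) := ⟨he₀V, by rw [he₀rd]; exact hf₀GU₁.2⟩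
  have he₀GU₂ : S.c₂.IsGU (algebraMap K F e₀) := S.isGU₂_const he₀GU₁
  have he₀rd₂ : S.c₂.rd (algebraMap K F e₀) = S.c₂.rd f₀ := by
    rw [hf₀rd₂]
    exact (S.rd₂_const he₀V (by rw [he₀rd, hf₀rd₁])).2
  have he₀0 : e₀ ≠ 0 := by
    rintro rfl
    rw [map_zero] at he₀GU₁
    exact he₀GU₁.ne_zero rfl
  obtain ⟨f₁, hf₁def⟩ : ∃ f₁ : F, f₁ = f₀ / algebraMap K F e₀ := ⟨_, rfl⟩
  have hf₁GU₁ : S.c₁.IsGU f₁ := by rw [hf₁def]; exact hf₀GU₁.div he₀GU₁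
  have hf₁GU₂ : S.c₂.IsGU f₁ := by rw [hf₁def]; exact hf₀GU₂.div he₀GU₂
  have hf₁rd₁ : S.c₁.rd f₁ = 1 := by
    rw [hf₁def, hf₀GU₁.rd_div he₀GU₁, he₀rd, div_self hf₀GU₁.2]
  have hf₁rd₂ : S.c₂.rd f₁ = 1 := by
    rw [hf₁def, hf₀GU₂.rd_div he₀GU₂, he₀rd₂, div_self hf₀GU₂.2]
  have hf₁ord : ∀ P, P.ord f₁ = n * (E P - E' P) := by
    intro P
    rw [hf₁def, ord_div P hf₀GU₁.ne_zero he₀GU₁.ne_zero, ord_algebraMap, sub_zero, hf₀ord]
  have hf₁inf : VanAt Pinf (f₁ - 1) := by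
    have : f₁ - 1 = (f₀ - algebraMap K F e₀) * algebraMap K F e₀⁻¹ := by
      rw [hf₁def, map_inv₀]
      field_simp [he₀GU₁.ne_zero]
    rw [this]
    exact he₀.mul_regAt (regAt_algebraMap Pinf _)
  -- the key lemma
  have hkey : f₁ = 1 := by
    refine hKey K F k F₁ F₂ S H H₁ H₂ A₁ A₂ hdis₁ hdis₂ hNSA s₁ s₂ hs₁ hs₂ n hn f₁
      hf₁GU₁.1 hf₁GU₂.1 hf₁rd₁ hf₁rd₂ Pinf Qinf hQinfg hQinf.1 hPinf hf₁inf a₁ a₂
      (fun Q hQ => ⟨(ha₁ Q hQ).1, (ha₁ Q hQ).2.1⟩)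
      (fun Q hQ => ⟨(ha₂ Q hQ).1, (ha₂ Q hQ).2.1⟩) ?_ ?_ ?_
    · intro P h₁ h₂
      obtain ⟨e1, e2⟩ := hout P h₁ h₂
      rw [hf₁ord, e1, e2]
      simp
    · intro Q hQ P hPQ
      have h1 : P.ord (s₁ Q - algebraMap K F (a₁ Q)) = if P = X₁ Q then 1 else 0 :=
        (hsC₁ Q hQ).ord_sub_eq hP (ha₁ Q hQ).1 (ha₁ Q hQ).2.1 (hX₁ Q hQ).1 (ha₁ Q hQ).2.2 hPQ
      have h2 : E P = if P = X₁ Q then 1 else 0 := by
        split_ifs with hPX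
        · rw [hPX]; exact (hX₁ Q hQ).2.1
        · exact (hX₁ Q hQ).2.2 P hPQ hPX
      have h3 : P.ord (s₁ Q) = if P = Y₁ Q then 1 else 0 := by
        split_ifs with hPY
        · rw [hPY]; exact (hY₁ Q hQ).2.1
        · exact (hY₁ Q hQ).2.2 P hPQ hPY
      have h4 : E' P = if P = Y₁ Q then 1 else 0 := by
        rw [hE'a]
        by_cases hPY : P = Y₁ Q
        · rw [if_pos hPY, if_pos ((hB₁ P Q hPQ).mpr ⟨hQ, hPY⟩)]
        · rw [if_neg hPY, if_neg fun hPB => hPY ((hB₁ P Q hPQ).mp hPB).2]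
      rw [hf₁ord, h1, h2, h3, h4]
    · intro Q hQ P hPQ
      have h1 : P.ord (s₂ Q - algebraMap K F (a₂ Q)) = if P = X₂ Q then 1 else 0 :=
        (hsC₂ Q hQ).ord_sub_eq hP (ha₂ Q hQ).1 (ha₂ Q hQ).2.1 (hX₂ Q hQ).1 (ha₂ Q hQ).2.2 hPQ
      have h2 : E P = if P = X₂ Q then 1 else 0 := by
        split_ifs with hPX
        · rw [hPX]; exact (hX₂ Q hQ).2.1
        · exact (hX₂ Q hQ).2.2 P hPQ hPX
      have h3 : P.ord (s₂ Q) = if P = Y₂ Q then 1 else 0 := by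
        split_ifs with hPY
        · rw [hPY]; exact (hY₂ Q hQ).2.1
        · exact (hY₂ Q hQ).2.2 P hPQ hPY
      have h4 : E' P = if P = Y₂ Q then 1 else 0 := by
        rw [hE'a]
        by_cases hPY : P = Y₂ Q
        · rw [if_pos hPY, if_pos ((hB₂ P Q hPQ).mpr ⟨hQ, hPY⟩)]
        · rw [if_neg hPY, if_neg fun hPB => hPY ((hB₂ P Q hPQ).mp hPB).2]
      rw [hf₁ord, h1, h2, h3, h4]
  -- conclusion
  obtain ⟨t₀, ht₀⟩ := IsAlgClosed.exists_pow_nat_eq e₀ (Nat.pos_of_ne_zero hn0)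
  refine ⟨algebraMap K F t₀ * u⁻¹, ?_⟩
  have h1 : f₀ = algebraMap K F e₀ := by
    have := hkey
    rw [hf₁def, div_eq_one_iff_eq he₀GU₁.ne_zero] at this
    exact this
  have hum : u ^ n ≠ 0 := pow_ne_zero _ hu0
  rw [mul_pow, ← map_pow, ht₀, ← h1, hf₀def, inv_pow, mul_assoc, mul_inv_cancel₀ hum, mul_one]

end Fermat.Agent.BAD.H01
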