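import Fermat.Agent.BAD.H28_Skel
import Fermat.Agent.RED.H17_Lift

/-!
# Item 65, package ABS, leaves `Stmt_Contain` and `Stmt_Contain0` (helper17)

* `stmt_Contain : Stmt_Contain`: for a twist datum `x` and `G` in good position, the reduction of
  the unit ball of `L(D_x + G)` lies in `L₁(r₁_* G) × L₂(r₂_* G + Δ)` and satisfies the `n`-th
  power gluing condition at the nodes.
* `stmt_Contain0 : Stmt_Contain0`: the untwisted case.

Proof: at the good places the divisor identity (`PRed.DI`); at the nodes the gluing condition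
(`SSD.glue`) applied to `f hⁿ = (f / ϑⁿ) (ϑ h)ⁿ`, which is regular on the fibres of the nodes
because `G` is in good position.
-/

set_option autoImplicit false
set_option linter.style.haveILetI false
set_option maxHeartbeats 1000000

noncomputable section

open AlgebraicCurve

attribute [local instance] Classical.propDecidable

namespace Fermat.Agent.BAD.H17

open Fermat.Agent.RED.H17 Fermat.Agent.RED Fermat.Agent.BAD

local notation "L" => riemannRochSpace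

section Comp

variable {K F k F' : Type*} [Field K] [Field F] [Algebra K F] [Field k] [Field F']
  [Algebra k F']

/-- The divisor identity at a good place, as an inequality: if `div w ≥ -E`, then
`ord_Q (rd w) ≥ -(r_* E)(Q)`. -/
theorem ord_rd_ge_of_le (c : PRed K F k F') (hP : HasPrincipalDivisors K F) {w : F}
    (hw : c.IsGU w) (E : Divisor K F) (hE : ∀ P, -E P ≤ P.ord w) {Q : Place k F'}
    (hQ : Q ∈ c.good) :
    -(Finsupp.mapDomain c.r E (some Q)) ≤ Q.ord (c.rd w) := by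
  have h1 := c.DI ⟨w, hw.1⟩ (by rw [← c.rd_of_mem hw.1]; exact hw.2) (dv hP w)
    (fun P => dv_apply hP w P) Q hQ
  rw [← c.rd_of_mem hw.1] at h1
  have h2 := mapDomain_nonneg' c.r (D := dv hP w + E) (fun P => by
    rw [Finsupp.add_apply, dv_apply]
    have := hE P
    omega) (some Q)
  rw [Finsupp.mapDomain_add, Finsupp.add_apply, h1] at h2
  omega

/-- The divisor identity for a divisor `E` with `n E = div w`. -/
theorem mapDomain_eq_ediv (c : PRed K F k F') (_hP : HasPrincipalDivisors K F) {w : F}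
    (hw : c.IsGU w) {n : ℕ} (hn : n ≠ 0) (E : Divisor K F)
    (hE : ∀ P, (n : ℤ) * E P = P.ord w) {Q : Place k F'} (hQ : Q ∈ c.good) :
    Finsupp.mapDomain c.r E (some Q) = Q.ord (c.rd w) / (n : ℤ) := by
  have h1 := c.DI ⟨w, hw.1⟩ (by rw [← c.rd_of_mem hw.1]; exact hw.2) ((n : ℤ) • E)
    (fun P => by rw [Finsupp.smul_apply, smul_eq_mul]; exact hE P) Q hQ
  rw [← c.rd_of_mem hw.1, Finsupp.mapDomain_smul, Finsupp.smul_apply, smul_eq_mul] at h1
  rw [← h1, Int.mul_ediv_cancel_left _ (by exact_mod_cast hn)]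

end Comp

section Main

variable {K F k F₁ F₂ : Type*} [Field K] [Field F] [Algebra K F] [Field k] [Field F₁]
  [Algebra k F₁] [Field F₂] [Algebra k F₂] (S : SSD K F k F₁ F₂)

theorem isNodeP_of_r₂ {s : Place k F₁ × Place k F₂} (hs : s ∈ S.nodes) {P : Place K F}
    (h : S.c₂.r P = some s.2) : S.IsNodeP P := by
  rcases S.r_cases P with ⟨Q, hQ, h1, h2⟩ | ⟨Q, hQ, h1, h2⟩ | ⟨s', hs', h1, h2⟩
  · rw [h2] at h
    cases h
  · rw [h1] at h
    have hQs : Q = s.2 := Option.some.inj h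
    exact absurd hQs.symm ((S.good₂ Q).mp hQ s hs)
  · exact ⟨s', hs', h1⟩

theorem push₁_node {G : Divisor K F} (hG : S.GoodPos G) {s : Place k F₁ × Place k F₂}
    (hs : s ∈ S.nodes) : S.push₁ G s.1 = 0 := by
  rw [S.push₁_apply, mapDomain_apply_eq_sum]
  refine Finset.sum_eq_zero fun P hP => ?_
  rw [if_neg]
  intro h
  exact hG P (Finsupp.mem_support_iff.mp hP) ⟨s, hs, h⟩

theorem push₂_node {G : Divisor K F} (hG : S.GoodPos G) {s : Place k F₁ × Place k F₂}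
    (hs : s ∈ S.nodes) : S.push₂ G s.2 = 0 := by
  rw [S.push₂_apply, mapDomain_apply_eq_sum]
  refine Finset.sum_eq_zero fun P hP => ?_
  rw [if_neg]
  intro h
  exact hG P (Finsupp.mem_support_iff.mp hP) (isNodeP_of_r₂ S hs h)

theorem not_good₁ {Q : Place k F₁} (hQ : Q ∉ S.c₁.good) : ∃ s ∈ S.nodes, s.1 = Q := by
  rw [S.good₁] at hQ
  push Not at hQ
  exact hQ

theorem not_good₂ {Q : Place k F₂} (hQ : Q ∉ S.c₂.good) : ∃ s ∈ S.nodes, s.2 = Q := by
  rw [S.good₂] at hQ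
  push Not at hQ
  exact hQ

/-- Regularity of `ψ` from regularity of `u ψⁿ`, `u` a unit at the place. -/
theorem ord_nonneg_of_regAt_mul_pow {k' F' : Type*} [Field k'] [Field F'] [Algebra k' F']
    (Q : Place k' F') {u ψ : F'} (hu : u ≠ 0) (hu0 : Q.ord u = 0) {n : ℕ} (hn : n ≠ 0)
    (h : RegAt Q (u * ψ ^ n)) (hψ : ψ ≠ 0) : 0 ≤ Q.ord ψ := by
  have h1 := h.ord_nonneg
  rw [Q.ord_mul hu (pow_ne_zero n hψ), hu0, zero_add, ord_pow] at h1
  have hn' : (0 : ℤ) < n := by exact_mod_cast Nat.pos_of_ne_zero hn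
  by_contra hneg
  push Not at hneg
  have := mul_neg_of_pos_of_neg hn' hneg
  omega

/-! ### Twist data -/

variable {S}

theorem twist_isGU₁ {n : ℕ} (x : S.Twist n) : S.c₁.IsGU x.f :=
  ⟨x.hf₁, by rw [x.hrd₁]; exact one_ne_zero⟩

theorem Dx_apply {n : ℕ} (x : S.Twist n) (hP : HasPrincipalDivisors K F) (P : Place K F) :
    x.Dx hP P = P.ord x.f / (n : ℤ) := by
  unfold SSD.Twist.Dx
  rw [Finsupp.mapRange_apply, dv_apply]

theorem n_mul_Dx {n : ℕ} (x : S.Twist n) (hP : HasPrincipalDivisors K F) (P : Place K F) :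
    (n : ℤ) * x.Dx hP P = P.ord x.f := by
  rw [Dx_apply]
  exact Int.mul_ediv_cancel' (x.hdiv P)

theorem Δ_apply {n : ℕ} (x : S.Twist n) (hP₂ : HasPrincipalDivisors k F₂) (Q : Place k F₂) :
    x.Δ hP₂ Q = Q.ord x.γ / (n : ℤ) := by
  unfold SSD.Twist.Δ
  rw [Finsupp.mapRange_apply, dv_apply]

/-- The `n`-th power gluing condition for the reduction of `h ∈ L(D_x + G)`. -/
theorem glue_twist (hP : HasPrincipalDivisors K F) {n : ℕ} (hn : n ≠ 0) (x : S.Twist n)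
    (G : Divisor K F) (hG : S.GoodPos G) {h : F} (hL : h ∈ L (x.Dx hP + G))
    (h1 : h ∈ S.c₁.V) (h2 : x.ϑ * h ∈ S.c₂.V) :
    ∀ s ∈ S.nodes, ∃ a : k, VanAt s.1 (S.c₁.rd h ^ n - algebraMap k F₁ a) ∧
      VanAt s.2 (x.γ * S.c₂.rd (x.ϑ * h) ^ n - algebraMap k F₂ a) := by
  intro s hs
  have hf0 : x.f ≠ 0 := (twist_isGU₁ x).ne_zero
  have hfh1 : x.f * h ^ n ∈ S.c₁.V := S.c₁.V.mul_mem _ _ x.hf₁ (pow_mem h1 n)
  have e : x.f * h ^ n = (x.f / x.ϑ ^ n) * (x.ϑ * h) ^ n := by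
    have := x.hϑ
    field_simp
    ring
  have hfh2 : x.f * h ^ n ∈ S.c₂.V := by
    rw [e]
    exact S.c₂.V.mul_mem _ _ x.hf₂.1 (pow_mem h2 n)
  have hreg : ∀ P, S.c₁.r P = some s.1 → 0 ≤ P.ord (x.f * h ^ n) := by
    intro P hPs
    by_cases hh0 : h = 0
    · rw [hh0, zero_pow hn, mul_zero, Place.ord_zero]
    · have hGP : G P = 0 := by
        by_contra hne
        exact hG P hne ⟨s, hs, hPs⟩
      have h3 := ord_ge_of_mem_L hL hh0 P
      rw [Finsupp.add_apply, hGP, add_zero] at h3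
      have h4 := n_mul_Dx x hP P
      rw [P.ord_mul hf0 (pow_ne_zero n hh0), ord_pow]
      have hn' : (0 : ℤ) ≤ n := Int.natCast_nonneg n
      nlinarith
  obtain ⟨a, ha1, ha2⟩ := S.glue s hs _ hfh1 hfh2 hreg
  refine ⟨a, ?_, ?_⟩
  · rw [← S.c₁.rd_of_mem hfh1, S.c₁.rd_mul x.hf₁ (pow_mem h1 n), x.hrd₁, one_mul,
      S.c₁.rd_pow h1] at ha1
    exact ha1
  · have e3 : S.c₂.red ⟨_, hfh2⟩ = x.γ * S.c₂.rd (x.ϑ * h) ^ n := by
      rw [← S.c₂.rd_of_mem hfh2, e, S.c₂.rd_mul x.hf₂.1 (pow_mem h2 n), S.c₂.rd_pow h2]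
      rfl
    rw [e3] at ha2
    exact ha2

/-- **Containment.** -/
theorem contain (H : FFHyp K F) (H₂ : FFHyp k F₂) {n : ℕ} (hn : n ≠ 0) (x : S.Twist n)
    (G : Divisor K F) (hG : S.GoodPos G) {ψ : F₁ × F₂}
    (hψ : ψ ∈ S.Rsub x.ϑ (x.Dx H.principal + G)) :
    ψ.1 ∈ L (S.push₁ G) ∧ ψ.2 ∈ L (S.push₂ G + x.Δ H₂.principal) ∧
      ∀ s ∈ S.nodes, ∃ a : k, VanAt s.1 (ψ.1 ^ n - algebraMap k F₁ a) ∧
        VanAt s.2 (x.γ * ψ.2 ^ n - algebraMap k F₂ a) := by
  obtain ⟨h, hL, h1, h2, e1, e2⟩ := hψ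
  have hP := H.principal
  have hf0 : x.f ≠ 0 := (twist_isGU₁ x).ne_zero
  have hglue := glue_twist hP hn x G hG hL h1 h2
  rw [e1, e2] at hglue
  refine ⟨?_, ?_, hglue⟩
  · rw [mem_L_iff_ord]
    intro Q
    by_cases hψ0 : ψ.1 = 0
    · exact Or.inl hψ0
    right
    have hGU : S.c₁.IsGU h := ⟨h1, by rw [e1]; exact hψ0⟩
    by_cases hQ : Q ∈ S.c₁.good
    · have h3 := ord_rd_ge_of_le S.c₁ hP hGU (x.Dx hP + G)
        (fun P => ord_ge_of_mem_L hL hGU.ne_zero P) hQ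
      rw [Finsupp.mapDomain_add, Finsupp.add_apply, e1] at h3
      have hDx := mapDomain_eq_ediv S.c₁ hP (twist_isGU₁ x) hn (x.Dx hP) (n_mul_Dx x hP) hQ
      rw [x.hrd₁, Place.ord_one, Int.zero_ediv] at hDx
      rw [S.push₁_apply]
      omega
    · obtain ⟨s, hs, rfl⟩ := not_good₁ S hQ
      rw [push₁_node S hG hs, neg_zero]
      obtain ⟨a, ha1, -⟩ := hglue s hs
      have hreg : RegAt s.1 (1 * ψ.1 ^ n) := by
        rw [one_mul]
        exact RegAt.of_vanAt_sub ha1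
      exact ord_nonneg_of_regAt_mul_pow s.1 one_ne_zero (Place.ord_one _) hn hreg hψ0
  · rw [mem_L_iff_ord]
    intro Q
    by_cases hψ0 : ψ.2 = 0
    · exact Or.inl hψ0
    right
    have hGU : S.c₂.IsGU (x.ϑ * h) := ⟨h2, by rw [e2]; exact hψ0⟩
    have hh0 : h ≠ 0 := fun h0 => hGU.ne_zero (by rw [h0, mul_zero])
    rw [Finsupp.add_apply, Δ_apply]
    by_cases hQ : Q ∈ S.c₂.good
    · have h3 := ord_rd_ge_of_le S.c₂ hP hGU ((x.Dx hP - dv hP x.ϑ) + G) (fun P => by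
        have := ord_ge_of_mem_L hL hh0 P
        rw [Finsupp.add_apply] at this
        rw [Finsupp.add_apply, Finsupp.sub_apply, dv_apply, P.ord_mul x.hϑ hh0]
        omega) hQ
      rw [Finsupp.mapDomain_add, Finsupp.add_apply, e2] at h3
      rw [S.push₂_apply]
      have hDx := mapDomain_eq_ediv S.c₂ hP x.hf₂ hn (x.Dx hP - dv hP x.ϑ) (fun P => by
        rw [Finsupp.sub_apply, mul_sub, n_mul_Dx, dv_apply,
          ord_div _ hf0 (pow_ne_zero n x.hϑ), ord_pow]) hQ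
      change _ = Q.ord x.γ / _ at hDx
      omega
    · obtain ⟨s, hs, rfl⟩ := not_good₂ S hQ
      have hγ0 : s.2.ord x.γ = 0 := x.hγ s hs
      rw [push₂_node S hG hs, hγ0, Int.zero_ediv, add_zero, neg_zero]
      obtain ⟨a, -, ha2⟩ := hglue s hs
      have hreg : RegAt s.2 (x.γ * ψ.2 ^ n) := RegAt.of_vanAt_sub ha2
      exact ord_nonneg_of_regAt_mul_pow s.2 x.hf₂.2 hγ0 hn hreg hψ0

/-- **Untwisted containment.** -/
theorem contain0 (H : FFHyp K F) (D : Divisor K F) (hD : S.GoodPos D) :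
    S.Rsub 1 D ≤ S.Lam (fun _ => 1) (S.push₁ D) (S.push₂ D) := by
  rintro ψ ⟨h, hL, h1, h2, e1, e2⟩
  have hP := H.principal
  rw [one_mul] at h2 e2
  have hglue : ∀ s ∈ S.nodes, ∃ a : k, VanAt s.1 (ψ.1 - algebraMap k F₁ a) ∧
      VanAt s.2 (ψ.2 - algebraMap k F₂ a) := by
    intro s hs
    have hreg : ∀ P, S.c₁.r P = some s.1 → 0 ≤ P.ord h := by
      intro P hPs
      by_cases hh0 : h = 0
      · rw [hh0, Place.ord_zero]
      · have hDP : D P = 0 := by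
          by_contra hne
          exact hD P hne ⟨s, hs, hPs⟩
        have h3 := ord_ge_of_mem_L hL hh0 P
        rw [hDP] at h3
        omega
    obtain ⟨a, ha1, ha2⟩ := S.glue s hs h h1 h2 hreg
    rw [← S.c₁.rd_of_mem h1, e1] at ha1
    rw [← S.c₂.rd_of_mem h2, e2] at ha2
    exact ⟨a, ha1, ha2⟩
  rw [SSD.mem_Lam]
  refine ⟨?_, ?_, fun s hs => ?_⟩
  · rw [mem_L_iff_ord]
    intro Q
    by_cases hψ0 : ψ.1 = 0
    · exact Or.inl hψ0
    right
    have hGU : S.c₁.IsGU h := ⟨h1, by rw [e1]; exact hψ0⟩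
    by_cases hQ : Q ∈ S.c₁.good
    · have h3 := ord_rd_ge_of_le S.c₁ hP hGU D
        (fun P => ord_ge_of_mem_L hL hGU.ne_zero P) hQ
      rw [← S.push₁_apply, e1] at h3
      exact h3
    · obtain ⟨s, hs, rfl⟩ := not_good₁ S hQ
      rw [push₁_node S hD hs, neg_zero]
      obtain ⟨a, ha1, -⟩ := hglue s hs
      exact (RegAt.of_vanAt_sub ha1).ord_nonneg
  · rw [mem_L_iff_ord]
    intro Q
    by_cases hψ0 : ψ.2 = 0
    · exact Or.inl hψ0
    right
    have hGU : S.c₂.IsGU h := ⟨h2, by rw [e2]; exact hψ0⟩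
    by_cases hQ : Q ∈ S.c₂.good
    · have h3 := ord_rd_ge_of_le S.c₂ hP hGU D
        (fun P => ord_ge_of_mem_L hL hGU.ne_zero P) hQ
      rw [← S.push₂_apply, e2] at h3
      exact h3
    · obtain ⟨s, hs, rfl⟩ := not_good₂ S hQ
      rw [push₂_node S hD hs, neg_zero]
      obtain ⟨a, -, ha2⟩ := hglue s hs
      exact (RegAt.of_vanAt_sub ha2).ord_nonneg
  · obtain ⟨a, ha1, ha2⟩ := hglue s hs
    refine ⟨a, ha1, ?_⟩
    rw [map_one, one_mul]
    exact ha2

end Main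

/-- **Leaf `Stmt_Contain`.** -/
theorem stmt_Contain : Stmt_Contain := by
  intro K F k F₁ F₂ _ _ _ _ _ _ _ _ S H _ H₂ n hn x G hG ψ hψ
  have hn0 : n ≠ 0 := by
    rintro rfl
    exact hn Nat.cast_zero
  exact contain H H₂ hn0 x G hG hψ

/-- **Leaf `Stmt_Contain0`.** -/
theorem stmt_Contain0 : Stmt_Contain0 := by
  intro K F k F₁ F₂ _ _ _ _ _ _ _ _ S H _ _ D hD
  exact contain0 H D hD

end Fermat.Agent.BAD.H17
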