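import Fermat.Agent.BAD.H91_B0
import Fermat.Agent.RED.H76_DR2
import Fermat.Agent.RED.H33_UniGal
import Fermat.Agent.S18.Final

/-!
# BAD_q, leaf RHO (helper91): the reduction map of level `M` on the places of level `M q`

`q` prime, `q ∤ M`, `(M, q)` tame, `A` over `q`.  G-RED (`RED.H76.stmt_DR2`) gives a reduction
map `rM` of the places of `E = F_M · ℚ̄` with the conservation law `IsRed` and `GenusLE`.

* `incl M q : F_M · ℚ̄ →ₐ F_{M q} · ℚ̄` the inclusion, `incl_isIntegral`;
* `restrictAlong_galF` : restriction of places commutes with the coefficientwise Galois action;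
* `rM`, `rM_isRed`, `rM_genusLE`, `isFF_redM` : the chosen Deuring datum of level `M`;
* `rM_inertia` : `rM (σ P) = rM P` for `σ` in inertia (helper33's UNIQ/EQ);
* `rhoM P := rM (P restricted to level M)`, `rhoM_inertia`;
* `seM` : helper17's `RedSetup` of level `M`, `seM_genusLE'`.
-/

set_option autoImplicit false
set_option linter.style.haveILetI false
set_option synthInstance.maxHeartbeats 400000
set_option maxHeartbeats 400000

noncomputable section

open HahnSeries IntermediateField AlgebraicCurve ModularCurve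
open Fermat.Agent.S28.H73 Fermat.Agent.RED.H73 Fermat.Agent.RED

namespace Fermat.Agent.BAD.H91

open Fermat.Agent.BAD

/-- The tame condition in terms of the level `M` prime to `q`. -/
def TameAt (M q : ℕ) : Prop := 5 ≤ q ∨ (q = 3 ∧ 2 ∣ M) ∨ (q = 2 ∧ 3 ∣ M)

section AbsRestrict

variable {K F F' : Type*} [Field K] [Field F] [Field F'] [Algebra K F] [Algebra K F']

theorem mem_restrictAlong_iff (φ : F →ₐ[K] F') (hφ : φ.toRingHom.IsIntegral) (w : Place K F')
    (f : F) : f ∈ (w.restrictAlong φ hφ).toValuationSubring ↔ φ f ∈ w.toValuationSubring :=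
  Iff.rfl

/-- Restriction of places commutes with semilinear automorphisms compatible with `φ`. -/
theorem restrictAlong_smul (φ : F →ₐ[K] F') (hφ : φ.toRingHom.IsIntegral)
    (σ' : SemilinearAut K F') (σ : SemilinearAut K F) (hc : ∀ f : F, φ (σ • f) = σ' • φ f)
    (P : Place K F') :
    (σ' • P).restrictAlong φ hφ = σ • P.restrictAlong φ hφ := by
  apply Place.ext
  ext x
  rw [mem_restrictAlong_iff, SemilinearAut.smul_toValuationSubring,
    SemilinearAut.smul_toValuationSubring, ValuationSubring.mem_pointwise_smul_iff_inv_smul_mem,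
    ValuationSubring.mem_pointwise_smul_iff_inv_smul_mem, mem_restrictAlong_iff]
  have e : σ'⁻¹ • φ x = φ (σ⁻¹ • x) := by
    have h := hc (σ⁻¹ • x)
    rw [smul_inv_smul] at h
    rw [h, inv_smul_smul]
  rw [e]

end AbsRestrict

section Incl

variable (M q : ℕ)

theorem fnbar_le : FNbar M ≤ FNbar (M * q) :=
  S18.modularFunctionFieldBar_mono (Dvd.intro q rfl)

/-- The inclusion of the function field of level `M` into that of level `M q`. -/
def incl : ↥(FNbar M) →ₐ[AlgebraicClosure ℚ] ↥(FNbar (M * q)) :=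
  IntermediateField.inclusion (fnbar_le M q)

@[simp] theorem coe_incl (f : ↥(FNbar M)) :
    ((incl M q f : ↥(FNbar (M * q))) : LaurentSeries (AlgebraicClosure ℚ))
      = (f : LaurentSeries (AlgebraicClosure ℚ)) :=
  IntermediateField.coe_inclusion (fnbar_le M q) f

theorem incl_isIntegral [NeZero M] [NeZero (M * q)] : (incl M q).toRingHom.IsIntegral :=
  (H51.stmt_FFB_finite _ _ _ (H95.stmt_HKA_isFF M) (H95.stmt_HKA_isFF (M * q)) _).1

/-- The inclusion commutes with the coefficientwise Galois action. -/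
theorem incl_galF (σ : GalQ) (f : ↥(FNbar M)) :
    incl M q (galF M σ • f) = galF (M * q) σ • incl M q f := by
  apply Subtype.ext
  rw [coe_incl, coe_arithmeticGalois_smul, coe_arithmeticGalois_smul, coe_incl]

/-- Restriction of places commutes with the coefficientwise Galois action. -/
theorem restrictAlong_galF [NeZero M] [NeZero (M * q)] (σ : GalQ)
    (P : Place (AlgebraicClosure ℚ) ↥(FNbar (M * q))) :
    (galF (M * q) σ • P).restrictAlong (incl M q) (incl_isIntegral M q)
      = galF M σ • P.restrictAlong (incl M q) (incl_isIntegral M q) :=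
  restrictAlong_smul (incl M q) (incl_isIntegral M q) (galF (M * q) σ) (galF M σ)
    (incl_galF M q σ) P

end Incl

section Level

variable (A : ValuationSubring (AlgebraicClosure ℚ)) (M q : ℕ) [NeZero M]

/-- The reduced function field of level `M`. -/
abbrev redM : IntermediateField (kV A) (LaurentSeries (kV A)) :=
  redField A (FNbar M) (hasScale_laurentBaseChange A M)

variable {A M q}

theorem hasDR_M (hq : q.Prime) (hqM : ¬ q ∣ M) (ht : TameAt M q) (hA : A.LiesOverPrime q) :
    HasDR A (hasScale_laurentBaseChange A M) :=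
  RED.H76.stmt_DR2 M q hq hqM ht A hA

/-- The chosen reduction map of level `M`. -/
def rM (hq : q.Prime) (hqM : ¬ q ∣ M) (ht : TameAt M q) (hA : A.LiesOverPrime q) :
    Place (AlgebraicClosure ℚ) ↥(FNbar M) → Place (kV A) ↥(redM A M) :=
  Classical.choose (hasDR_M hq hqM ht hA).2

theorem isFF_redM (hq : q.Prime) (hqM : ¬ q ∣ M) (ht : TameAt M q) (hA : A.LiesOverPrime q) :
    IsFF (kV A) ↥(redM A M) :=
  (hasDR_M hq hqM ht hA).1

theorem rM_isRed (hq : q.Prime) (hqM : ¬ q ∣ M) (ht : TameAt M q) (hA : A.LiesOverPrime q) :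
    IsRed A (hasScale_laurentBaseChange A M) (rM hq hqM ht hA) :=
  (Classical.choose_spec (hasDR_M hq hqM ht hA).2).1

theorem rM_genusLE (hq : q.Prime) (hqM : ¬ q ∣ M) (ht : TameAt M q) (hA : A.LiesOverPrime q) :
    GenusLE A (hasScale_laurentBaseChange A M) (rM hq hqM ht hA) :=
  (Classical.choose_spec (hasDR_M hq hqM ht hA).2).2

/-- The reduction map of level `M` is invariant under inertia. -/
theorem rM_inertia (hq : q.Prime) (hqM : ¬ q ∣ M) (ht : TameAt M q) (hA : A.LiesOverPrime q)
    {σ : GalQ} (hσ : σ ∈ A.inertiaSubgroupIn ℚ) (P : Place (AlgebraicClosure ℚ) ↥(FNbar M)) :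
    rM hq hqM ht hA (galF M σ • P) = rM hq hqM ht hA P := by
  haveI : IsAlgClosed (kV A) := isAlgClosed_kV A
  exact RED.H33.isRed_inertia A (modularFunctionFieldFull M) (hasScale_laurentBaseChange A M)
    (H95.stmt_HKA_isFF M) (isFF_redM hq hqM ht hA) (H42.fracScalable_laurentBaseChange A M) hσ
    (rM_isRed hq hqM ht hA) P

/-- The reduction to level `M` of a place of level `M q`. -/
def rhoM [NeZero (M * q)] (hq : q.Prime) (hqM : ¬ q ∣ M) (ht : TameAt M q)
    (hA : A.LiesOverPrime q) (P : Place (AlgebraicClosure ℚ) ↥(FNbar (M * q))) :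
    Place (kV A) ↥(redM A M) :=
  rM hq hqM ht hA (P.restrictAlong (incl M q) (incl_isIntegral M q))

/-- `rhoM` is invariant under inertia. -/
theorem rhoM_inertia [NeZero (M * q)] (hq : q.Prime) (hqM : ¬ q ∣ M) (ht : TameAt M q)
    (hA : A.LiesOverPrime q) {σ : GalQ} (hσ : σ ∈ A.inertiaSubgroupIn ℚ)
    (P : Place (AlgebraicClosure ℚ) ↥(FNbar (M * q))) :
    rhoM hq hqM ht hA (galF (M * q) σ • P) = rhoM hq hqM ht hA P := by
  unfold rhoM
  rw [restrictAlong_galF, rM_inertia hq hqM ht hA hσ]

/-- helper17's reduction setup of level `M`. -/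
def seM (hq : q.Prime) (hqM : ¬ q ∣ M) (ht : TameAt M q) (hA : A.LiesOverPrime q) :
    RED.H17.RedSetup (AlgebraicClosure ℚ) ↥(FNbar M) (kV A) ↥(redM A M) :=
  RED.H17.redSetupOf A (hasScale_laurentBaseChange A M) (rM hq hqM ht hA) (rM_isRed hq hqM ht hA)

theorem seM_genusLE' (hq : q.Prime) (hqM : ¬ q ∣ M) (ht : TameAt M q) (hA : A.LiesOverPrime q) :
    (seM hq hqM ht hA).GenusLE' :=
  rM_genusLE hq hqM ht hA

end Level

end Fermat.Agent.BAD.H91
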