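import Fermat.Agent.RED.H76_RHR
import Fermat.Agent.RED.H95_IsFF
import Fermat.Agent.RED.H17_LiftMove
import Fermat.Agent.S24.Asm.One
import Fermat.Agent.BAD.H91_Rho

/-!
# BAD_q, leaf GENUS (helper17)

* `genus_FN_eq` : the Riemann genus of `F_N · ℚ̄` (`RED.H17.IsGenus`) is `genusFormula N`
  (`N > 1`; from RH-R `RED.H76.stmt_RHR`, the S24 counts and `asm_genus_arith`);
* `ffHyp_FN`, `exists_isGenus_FN` : FF-B and Riemann's theorem for `F_N · ℚ̄`;
* `genus_le_of_hasDR` : a Deuring datum does not lower the Riemann genus;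
* `ffHyp_redM`, `exists_isGenus_redM`, `genusFormula_le_redM` : the same for the reduced field
  of level `M` at a tame prime `q ∤ M`, with `genusFormula M ≤ g₁`;
* `genus_ineq` : the numerical inequality `g + 1 ≤ g₁ + g₁ + #Z` of `Stmt_ModSSD` from
  NUM (`genusFormula (M q) + 1 ≤ 2 genusFormula M + #Z`).
-/

set_option autoImplicit false
set_option linter.style.haveILetI false
set_option synthInstance.maxHeartbeats 400000
set_option maxHeartbeats 1000000

noncomputable section

open AlgebraicCurve ModularCurve IntermediateField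
open Fermat.Agent.S28.H73 Fermat.Agent.RED.H73 Fermat.Agent.RED Fermat.Agent.S24
open CongruenceSubgroup ModularGroup
open scoped MatrixGroups

namespace Fermat.Agent.BAD.H17

/-- FF-B for `F_N · ℚ̄`. -/
theorem ffHyp_FN (N : ℕ) [NeZero N] : RED.H17.FFHyp Kbar (FN N) :=
  RED.H17.ffHyp_of_isFF Kbar (FN N) (RED.H95.isFF_FN N)

/-- Riemann's theorem for `F_N · ℚ̄`. -/
theorem exists_isGenus_FN (N : ℕ) [NeZero N] :
    ∃ (g : ℕ) (c : ℤ), RED.H17.IsGenus Kbar (FN N) g c :=
  RED.H17.exists_isGenus Kbar (FN N) (RED.H95.isFF_FN N)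

/-- RH-R with the branch values `0` and `1728`. -/
theorem rhr_two_values {K F : Type} [Field K] [Field F] [Algebra K F] [IsAlgClosed K]
    [CharZero K] {g : ℕ} {c : ℤ} (hg : RED.H17.IsGenus K F g c) (x : F)
    (hx : Transcendental K x) (hfd : FiniteDimensional K⟮x⟯ F) (n r0 r1 rinf : ℕ)
    (hn : Module.finrank K⟮x⟯ F = n)
    (h0 : Nat.card {v : Place K F // 0 < v.ord (x - algebraMap K F 0)} = r0)
    (h1 : Nat.card {v : Place K F // 0 < v.ord (x - algebraMap K F 1728)} = r1)
    (hgen : ∀ a : K, a ≠ 0 → a ≠ 1728 →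
      Nat.card {v : Place K F // 0 < v.ord (x - algebraMap K F a)} = n)
    (hinf : Nat.card {v : Place K F // v.ord x < 0} = rinf) :
    2 * (g : ℤ) - 2 = (((n : ℤ) - r0) + ((n : ℤ) - r1)) - n - rinf := by
  classical
  have h01728 : (0 : K) ≠ 1728 := by norm_num
  have key := RED.H76.stmt_RHR K F g c hg x hx hfd {0, 1728}
    (fun a => if a = 0 then r0 else r1)
    (by
      intro a ha
      rcases Finset.mem_insert.mp ha with rfl | ha
      · rw [if_pos rfl]; exact h0
      · rw [Finset.mem_singleton] at ha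
        subst ha
        rw [if_neg h01728.symm]; exact h1)
    (by
      intro a ha
      rw [Finset.mem_insert, Finset.mem_singleton, not_or] at ha
      rw [hn]
      exact hgen a ha.1 ha.2)
    rinf hinf
  rw [key, Finset.sum_pair h01728, hn, if_pos rfl, if_neg h01728.symm]

/-- **The Riemann genus of `F_N · ℚ̄` is `genusFormula N`** (`N > 1`). -/
theorem genus_FN_eq (N : ℕ) [NeZero N] (hN : 1 < N) {g : ℕ} {c : ℤ}
    (hg : RED.H17.IsGenus Kbar (FN N) g c) : (g : ℚ) = genusFormula N := by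
  have key := rhr_two_values hg (S24.jF N) (asm_transcendental_jF (modClosure N))
    (asm_finiteDimensional (modClosure N)) (dedekindPsi N) (orbN N (S * T)) (orbN N S)
    (orbN N T) (asm_finrank (modClosure N)) (asm_card_zeros_zero (modClosure N) hN)
    (asm_card_zeros_1728 (modClosure N) hN)
    (fun a h0 h1 => asm_card_zeros_generic (modClosure N) a h0 h1)
    (asm_card_poles (modClosure N))
  have harith := asm_genus_arith N (2 * (g : ℤ) - 2) key
  rw [← harith]
  have e : (2 * (g : ℤ) - 2 + 2).toNat / 2 = g := by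
    have : (2 * (g : ℤ) - 2 + 2).toNat = 2 * g := by omega
    rw [this]
    omega
  rw [e]

/-- A Deuring datum does not lower the Riemann genus. -/
theorem genus_le_of_hasDR {C : Type} [Field C] [IsAlgClosed C] (O : ValuationSubring C)
    [IsAlgClosed (kV O)] {F : IntermediateField C (LaurentSeries C)} (h : HasScale O F)
    (hFF : IsFF C ↥F) (hDR : HasDR O h) {g : ℕ} {c : ℤ} (hg : RED.H17.IsGenus C ↥F g c)
    {g' : ℕ} {c' : ℤ} (hg' : RED.H17.IsGenus (kV O) ↥(redField O F h) g' c') : g ≤ g' := by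
  obtain ⟨hFF', r, hr, hG⟩ := hDR
  exact (RED.H17.redSetupOf O h r hr).genus_le (RED.H17.ffHyp_of_isFF C ↥F hFF)
    (RED.H17.ffHyp_of_isFF _ _ hFF') hg hg' hG

section Level

variable {A : ValuationSubring (AlgebraicClosure ℚ)} {M q : ℕ} [NeZero M]

/-- FF-B for the reduced field of level `M`. -/
theorem ffHyp_redM (hq : q.Prime) (hqM : ¬ q ∣ M) (ht : H91.TameAt M q)
    (hA : A.LiesOverPrime q) : RED.H17.FFHyp (kV A) ↥(H91.redM A M) := by
  haveI : IsAlgClosed (kV A) := isAlgClosed_kV A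
  exact RED.H17.ffHyp_of_isFF _ _ (H91.isFF_redM hq hqM ht hA)

/-- Riemann's theorem for the reduced field of level `M`. -/
theorem exists_isGenus_redM (hq : q.Prime) (hqM : ¬ q ∣ M) (ht : H91.TameAt M q)
    (hA : A.LiesOverPrime q) :
    ∃ (g₁ : ℕ) (c₁ : ℤ), RED.H17.IsGenus (kV A) ↥(H91.redM A M) g₁ c₁ := by
  haveI : IsAlgClosed (kV A) := isAlgClosed_kV A
  exact RED.H17.exists_isGenus _ _ (H91.isFF_redM hq hqM ht hA)

/-- The Riemann genus of the reduced field of level `M` is at least `genusFormula M`. -/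
theorem genusFormula_le_redM (hq : q.Prime) (hqM : ¬ q ∣ M) (ht : H91.TameAt M q)
    (hA : A.LiesOverPrime q) {g₁ : ℕ} {c₁ : ℤ}
    (hg₁ : RED.H17.IsGenus (kV A) ↥(H91.redM A M) g₁ c₁) : genusFormula M ≤ (g₁ : ℚ) := by
  haveI : IsAlgClosed (kV A) := isAlgClosed_kV A
  by_cases hM : 1 < M
  · obtain ⟨g, c, hg⟩ := exists_isGenus_FN M
    have hle : g ≤ g₁ := genus_le_of_hasDR A (hasScale_laurentBaseChange A M)
      (RED.H95.isFF_FN M) (H91.hasDR_M hq hqM ht hA) hg hg₁
    rw [← genus_FN_eq M hM hg]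
    exact_mod_cast hle
  · have hM1 : M = 1 := by
      have := NeZero.ne M
      omega
    subst hM1
    rw [asm_genusFormula_one]
    positivity

/-- **GENUS**: the numerical inequality of `Stmt_ModSSD` from the count of NUM. -/
theorem genus_ineq [NeZero (M * q)] (hq : q.Prime) (hqM : ¬ q ∣ M) (ht : H91.TameAt M q)
    (hA : A.LiesOverPrime q) {g : ℕ} {c : ℤ}
    (hg : RED.H17.IsGenus Kbar (FN (M * q)) g c) {g₁ : ℕ} {c₁ : ℤ}
    (hg₁ : RED.H17.IsGenus (kV A) ↥(H91.redM A M) g₁ c₁) (n : ℕ)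
    (hnum : genusFormula (M * q) + 1 ≤ 2 * genusFormula M + (n : ℚ)) :
    g + 1 ≤ g₁ + g₁ + n := by
  have hMq : 1 < M * q := by
    have h1 : 0 < M := Nat.pos_of_ne_zero (NeZero.ne M)
    have h2 := hq.two_le
    nlinarith
  have h1 := genus_FN_eq (M * q) hMq hg
  have h2 := genusFormula_le_redM hq hqM ht hA hg₁
  have h3 : (g : ℚ) + 1 ≤ (g₁ : ℚ) + g₁ + n := by
    rw [h1]
    linarith
  exact_mod_cast h3

end Level

end Fermat.Agent.BAD.H17
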