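import Fermat.Agent.S24.Closure.Val
import Fermat.Prelude.Def_ModularCurve_ArithmeticGalois

/-!
# Item 65, package V2 (helper82), part 1: the Atkin-Lehner involution `w_r` on `F_N`

`N = M r`, `r` prime to `M` (here `M = N / r`).  Choose `a, b` with `r a - M b = 1` and put
`W = [[r a, b], [N, r]]` (determinant `r`).  Composition with `W` is a `Q̄`-algebra endomorphism of
the ring `Hol` of holomorphic functions on the upper half plane; on the generators
`j_d = j (d τ)`, `d ∣ N`, of `F_N` it is `j_d ↦ j_{r d}` and `j_{r d} ↦ j_d` (`d ∣ M`).  Hence it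
induces a `Q̄`-automorphism `wAL` of `F_N`, an involution, commuting with the arithmetic Galois
action (the action of `Gal(Q̄/ℚ)` on the coefficients of `q`-expansions).

Main results (namespace `Fermat.Agent.BAD.H82`):
* `wAL N r hr hrN hcop : FN N ≃ₐ[Kbar] FN N`;
* `wAL_jdF_mul`, `wAL_jdF_of_mul` : the values on the generators;
* `wAL_wAL` : `wAL (wAL x) = x`;
* `wAL_arith` : `wAL (σ x) = σ (wAL x)` for the arithmetic Galois action;
* `ringHom_ext_jdF` : ring homomorphisms out of `F_N` agreeing on constants and on the `j_d`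
  are equal.
-/

set_option autoImplicit false

noncomputable section

namespace Fermat.Agent.BAD.H82

open Fermat.Agent.S24 ModularCurve UpperHalfPlane
open scoped MatrixGroups Manifold

/-! ## Extensionality on `F_N` -/

/-- Two ring homomorphisms out of `F_N` which agree on the constants and on the generators
`j (q ^ d)` are equal. -/
theorem ringHom_ext_jdF (N : ℕ) [NeZero N] {E : Type*} [Field E] (f g : FN N →+* E)
    (hc : ∀ c : Kbar, f (algebraMap Kbar (FN N) c) = g (algebraMap Kbar (FN N) c))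
    (hj : ∀ (d : ℕ) (_ : NeZero d) (hd : d ∣ N), f (jdF N d hd) = g (jdF N d hd)) :
    f = g := by
  let M : IntermediateField Kbar (FN N) :=
    { carrier := {x | f x = g x}
      mul_mem' := fun {a b} ha hb => by
        show f (a * b) = g (a * b)
        rw [map_mul, map_mul, show f a = g a from ha, show f b = g b from hb]
      one_mem' := by
        show f 1 = g 1
        rw [map_one, map_one]
      add_mem' := fun {a b} ha hb => by
        show f (a + b) = g (a + b)
        rw [map_add, map_add, show f a = g a from ha, show f b = g b from hb]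
      zero_mem' := by
        show f 0 = g 0
        rw [map_zero, map_zero]
      algebraMap_mem' := fun c => hc c
      inv_mem' := fun a ha => by
        show f a⁻¹ = g a⁻¹
        rw [map_inv₀, map_inv₀, show f a = g a from ha] }
  have hM : M = ⊤ := by
    rw [eq_top_iff, ← adjoin_jdF N, IntermediateField.adjoin_le_iff]
    rintro _ ⟨d, hd0, hd, rfl⟩
    exact hj d hd0 hd
  ext x
  have : x ∈ M := by rw [hM]; exact IntermediateField.mem_top
  exact this

/-! ## Composition with a real matrix of positive determinant -/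

/-- `f ↦ f ∘ g` on holomorphic functions, `g ∈ GL₂(ℝ)⁺`. -/
def compGL (g : GL (Fin 2) ℝ) (hg : 0 < g.det.val) : Hol →+* Hol where
  toFun f := ⟨fun τ => (f : ℍ → ℂ) (g • τ), f.2.comp (mdifferentiable_smul hg)⟩
  map_one' := Subtype.ext (funext fun _ => rfl)
  map_mul' _ _ := Subtype.ext (funext fun _ => rfl)
  map_zero' := Subtype.ext (funext fun _ => rfl)
  map_add' _ _ := Subtype.ext (funext fun _ => rfl)

theorem compGL_apply (g : GL (Fin 2) ℝ) (hg : 0 < g.det.val) (f : Hol) (τ : ℍ) :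
    ((compGL g hg f : Hol) : ℍ → ℂ) τ = (f : ℍ → ℂ) (g • τ) := rfl

theorem compGL_algebraMap (g : GL (Fin 2) ℝ) (hg : 0 < g.det.val) (c : Kbar) :
    compGL g hg (algebraMap Kbar Hol c) = algebraMap Kbar Hol c :=
  Subtype.ext (funext fun _ => rfl)

theorem compGL_injective (g : GL (Fin 2) ℝ) (hg : 0 < g.det.val) :
    Function.Injective (compGL g hg) := by
  intro f₁ f₂ h
  apply Subtype.ext
  funext τ
  have h1 := congrArg (fun f : Hol => (f : ℍ → ℂ) (g⁻¹ • τ)) h
  simp only [compGL_apply] at h1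
  rwa [smul_inv_smul] at h1

/-- Composition with an integer matrix of positive determinant. -/
def compW (W : Matrix (Fin 2) (Fin 2) ℤ) (hW : 0 < W.det) : Hol →+* Hol :=
  compGL (intGL W hW) (intGL_det_pos W hW)

theorem compW_JA (W : Matrix (Fin 2) (Fin 2) ℤ) (hW : 0 < W.det)
    (A : Matrix (Fin 2) (Fin 2) ℤ) (hA : 0 < A.det) :
    compW W hW (JA A) = JA (A * W) := by
  have hAW : 0 < (A * W).det := by
    rw [Matrix.det_mul]; exact mul_pos hA hW
  apply Subtype.ext
  funext τ
  show (JA A : ℍ → ℂ) (intGL W hW • τ) = (JA (A * W) : ℍ → ℂ) τ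
  rw [JA_apply A hA, JA_apply _ hAW, intGL_mul_smul A W hA hW hAW]

/-- Scalar matrices act trivially. -/
theorem intGL_smul_scalar (c : ℤ) (hc : 0 < c) (B : Matrix (Fin 2) (Fin 2) ℤ) (hB : 0 < B.det)
    (hcB : 0 < (c • B).det) (τ : ℍ) : intGL (c • B) hcB • τ = intGL B hB • τ := by
  apply UpperHalfPlane.ext
  rw [coe_intGL_smul, coe_intGL_smul]
  have hc' : (c : ℂ) ≠ 0 := by exact_mod_cast hc.ne'
  simp only [Matrix.smul_apply, smul_eq_mul, Int.cast_mul]
  rw [show (c : ℂ) * (B 0 0 : ℂ) * (τ : ℂ) + (c : ℂ) * (B 0 1 : ℂ)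
      = (c : ℂ) * ((B 0 0 : ℂ) * τ + B 0 1) by ring,
    show (c : ℂ) * (B 1 0 : ℂ) * (τ : ℂ) + (c : ℂ) * (B 1 1 : ℂ)
      = (c : ℂ) * ((B 1 0 : ℂ) * τ + B 1 1) by ring,
    mul_div_mul_left _ _ hc']

theorem JA_smul_scalar (c : ℤ) (hc : 0 < c) (B : Matrix (Fin 2) (Fin 2) ℤ) (hB : 0 < B.det) :
    JA (c • B) = JA B := by
  have hcB : 0 < (c • B).det := by
    rw [Matrix.det_smul]
    exact mul_pos (pow_pos hc _) hB
  apply Subtype.ext
  funext τ
  rw [JA_apply _ hcB, JA_apply B hB, intGL_smul_scalar c hc B hB hcB]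

/-! ## The Atkin-Lehner matrix -/

/-- The Atkin-Lehner matrix `[[r a, b], [M r, r]]`. -/
def matW (r M a b : ℤ) : Matrix (Fin 2) (Fin 2) ℤ := !![r * a, b; M * r, r]

theorem det_matW (r M a b : ℤ) (h : r * a - M * b = 1) : (matW r M a b).det = r := by
  rw [matW, Matrix.det_fin_two_of]
  linear_combination r * h

/-- `j_d ∘ W = j_{r d}` for `d ∣ M`. -/
theorem JA_diag_mul_matW (r M a b : ℤ) (hr : 0 < r) (h : r * a - M * b = 1) (d e : ℤ)
    (hd : 0 < d) (hde : M = d * e) :
    JA (!![d, 0; 0, 1] * matW r M a b) = JA !![r * d, 0; 0, 1] := by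
  let γ : SL(2, ℤ) := ⟨!![a, d * b; e, r], by
    rw [Matrix.det_fin_two_of]; rw [hde] at h; linear_combination h⟩
  have hA : 0 < (!![r * d, 0; 0, 1] : Matrix (Fin 2) (Fin 2) ℤ).det := by
    rw [Matrix.det_fin_two_of]; simp only [mul_one, mul_zero, sub_zero]; exact mul_pos hr hd
  have key : (!![d, 0; 0, 1] : Matrix (Fin 2) (Fin 2) ℤ) * matW r M a b
      = γ.1 * !![r * d, 0; 0, 1] := by
    show _ = !![a, d * b; e, r] * !![r * d, 0; 0, 1]
    rw [matW, hde]
    ext i j
    fin_cases i <;> fin_cases j <;> simp [Matrix.mul_apply, Fin.sum_univ_two] <;> ring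
  rw [key, JA_mul_left γ _ hA]

/-- `j_{r d} ∘ W = j_d` for `d ∣ M`. -/
theorem JA_diag_mul_matW' (r M a b : ℤ) (hr : 0 < r) (h : r * a - M * b = 1) (d e : ℤ)
    (hd : 0 < d) (hde : M = d * e) :
    JA (!![r * d, 0; 0, 1] * matW r M a b) = JA !![d, 0; 0, 1] := by
  let γ : SL(2, ℤ) := ⟨!![r * a, d * b; e, 1], by
    rw [Matrix.det_fin_two_of]; rw [hde] at h; linear_combination h⟩
  have hA : 0 < (!![d, 0; 0, 1] : Matrix (Fin 2) (Fin 2) ℤ).det := by
    rw [Matrix.det_fin_two_of]; simp only [mul_one, mul_zero, sub_zero]; exact hd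
  have hγA : 0 < (γ.1 * !![d, 0; 0, 1] : Matrix (Fin 2) (Fin 2) ℤ).det := by
    rw [Matrix.det_mul, γ.2, one_mul]; exact hA
  have key : (!![r * d, 0; 0, 1] : Matrix (Fin 2) (Fin 2) ℤ) * matW r M a b
      = r • (γ.1 * !![d, 0; 0, 1]) := by
    show _ = r • (!![r * a, d * b; e, 1] * !![d, 0; 0, 1])
    rw [matW, hde]
    ext i j
    fin_cases i <;> fin_cases j <;> simp [Matrix.mul_apply, Fin.sum_univ_two] <;> ring
  rw [key, JA_smul_scalar r hr _ hγA, JA_mul_left γ _ hA]

/-! ## The fraction field of `Hol` -/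

/-- The field of fractions of `Hol`. -/
abbrev LH : Type := FractionRing Hol

theorem algebraMap_valAT_injective (N : ℕ) :
    Function.Injective ((algebraMap Hol LH).comp (valAT N)) :=
  (IsFractionRing.injective Hol LH).comp (valAT_injective N)

/-- The embedding of the Galois closure into the fraction field of `Hol`. -/
def eL (N : ℕ) : LN N →+* LH := IsFractionRing.lift (algebraMap_valAT_injective N)

theorem eL_algebraMap (N : ℕ) (f : AT N) :
    eL N (algebraMap (AT N) (LN N) f) = algebraMap Hol LH (valAT N f) :=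
  IsFractionRing.lift_algebraMap (algebraMap_valAT_injective N) f

/-- The embedding `F_N → Frac(Hol)`. -/
def eH (N : ℕ) [NeZero N] : FN N →+* LH := (eL N).comp (phi N).toRingHom

theorem eH_injective (N : ℕ) [NeZero N] : Function.Injective (eH N) := (eH N).injective

theorem eH_algebraMap (N : ℕ) [NeZero N] (c : Kbar) :
    eH N (algebraMap Kbar (FN N) c) = algebraMap Hol LH (algebraMap Kbar Hol c) := by
  show eL N (phi N (algebraMap Kbar (FN N) c)) = _
  rw [(phi N).commutes c, IsScalarTower.algebraMap_apply Kbar (AT N) (LN N), eL_algebraMap,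
    valAT_algebraMap]

theorem eH_jdF (N : ℕ) [NeZero N] (d : ℕ) [NeZero d] (hd : d ∣ N) :
    eH N (jdF N d hd) = algebraMap Hol LH (JA !![(d : ℤ), 0; 0, 1]) := by
  show eL N (phi N (jdF N d hd)) = _
  rw [phi_jdF, eL_algebraMap]
  congr 1
  show (((toAT N).symm (toAT N (jdA N d)) : Atil N) : Hol) = _
  rw [AlgEquiv.symm_apply_apply, jdA_coe N d (Nat.pos_of_ne_zero (NeZero.ne d)) hd]

theorem algebraMap_compW_injective (W : Matrix (Fin 2) (Fin 2) ℤ) (hW : 0 < W.det) :
    Function.Injective ((algebraMap Hol LH).comp (compW W hW)) :=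
  (IsFractionRing.injective Hol LH).comp (compGL_injective (intGL W hW) (intGL_det_pos W hW))

/-- Composition with `W` on the fraction field of `Hol`. -/
def cH (W : Matrix (Fin 2) (Fin 2) ℤ) (hW : 0 < W.det) : LH →+* LH :=
  IsFractionRing.lift (algebraMap_compW_injective W hW)

theorem cH_algebraMap (W : Matrix (Fin 2) (Fin 2) ℤ) (hW : 0 < W.det) (f : Hol) :
    cH W hW (algebraMap Hol LH f) = algebraMap Hol LH (compW W hW f) :=
  IsFractionRing.lift_algebraMap (algebraMap_compW_injective W hW) f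

/-! ## The Atkin-Lehner data -/

/-- The hypotheses: `r` is a prime exactly dividing `N`. -/
structure ALHyp (N r : ℕ) : Prop where
  prime : r.Prime
  dvd : r ∣ N
  coprime : Nat.Coprime r (N / r)

namespace ALHyp

variable {N r : ℕ} (h : ALHyp N r)

include h

theorem r_pos : 0 < r := h.prime.pos

theorem N_eq : N = N / r * r := (Nat.div_mul_cancel h.dvd).symm

theorem exists_bezout : ∃ a b : ℤ, (r : ℤ) * a - ((N / r : ℕ) : ℤ) * b = 1 := by
  have h1 : IsCoprime (r : ℤ) ((N / r : ℕ) : ℤ) := Nat.isCoprime_iff_coprime.mpr h.coprime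
  obtain ⟨u, v, huv⟩ := h1
  exact ⟨u, -v, by linear_combination huv⟩

/-- The Bezout coefficient `a`. -/
def a : ℤ := h.exists_bezout.choose

/-- The Bezout coefficient `b`. -/
def b : ℤ := h.exists_bezout.choose_spec.choose

theorem bezout : (r : ℤ) * h.a - ((N / r : ℕ) : ℤ) * h.b = 1 :=
  h.exists_bezout.choose_spec.choose_spec

/-- The Atkin-Lehner matrix. -/
def W : Matrix (Fin 2) (Fin 2) ℤ := matW r ((N / r : ℕ) : ℤ) h.a h.b

theorem det_W : h.W.det = r := det_matW _ _ _ _ h.bezout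

theorem det_W_pos : 0 < h.W.det := by
  rw [h.det_W]; exact_mod_cast h.r_pos

theorem not_dvd_of_dvd {d : ℕ} (hd : d ∣ N / r) : ¬ r ∣ d := fun hrd =>
  h.prime.one_lt.ne' (h.coprime.eq_one_of_dvd (hrd.trans hd))

theorem dvd_of_dvd {d : ℕ} (hd : d ∣ N / r) : d ∣ N := hd.trans (Nat.div_dvd_of_dvd h.dvd)

theorem mul_dvd {d : ℕ} (hd : d ∣ N / r) : r * d ∣ N := by
  obtain ⟨e, he⟩ := hd
  refine ⟨e, ?_⟩
  rw [h.N_eq, he]
  ring

/-- Every divisor of `N` is `d` or `r d` with `d ∣ N / r`. -/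
theorem divisor_cases {d' : ℕ} (hd' : d' ∣ N) :
    d' ∣ N / r ∨ ∃ d, d ∣ N / r ∧ d' = r * d := by
  by_cases hr : r ∣ d'
  · obtain ⟨d, rfl⟩ := hr
    refine Or.inr ⟨d, ?_, rfl⟩
    have h1 : r * d ∣ r * (N / r) := by
      rw [Nat.mul_div_cancel' h.dvd]; exact hd'
    exact (Nat.mul_dvd_mul_iff_left h.r_pos).mp h1
  · left
    have hc : Nat.Coprime d' r := ((Nat.Prime.coprime_iff_not_dvd h.prime).mpr hr).symm
    have h1 : d' ∣ N / r * r := by rw [← h.N_eq]; exact hd'
    exact hc.dvd_of_dvd_mul_right h1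

end ALHyp

section Construction

variable {N r : ℕ} [NeZero N] (h : ALHyp N r)

theorem det_diag_pos (d : ℕ) [NeZero d] :
    0 < (!![(d : ℤ), 0; 0, 1] : Matrix (Fin 2) (Fin 2) ℤ).det := by
  rw [Matrix.det_fin_two_of]
  simp only [mul_one, mul_zero, sub_zero]
  exact_mod_cast Nat.pos_of_ne_zero (NeZero.ne d)

include h in
/-- `W` sends `j_d` to `j_{r d}`, `d ∣ N / r`. -/
theorem cH_eH_jdF (d : ℕ) [NeZero d] (hd : d ∣ N / r) [NeZero (r * d)] :
    cH h.W h.det_W_pos (eH N (jdF N d (h.dvd_of_dvd hd))) = eH N (jdF N (r * d) (h.mul_dvd hd)) := by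
  rw [eH_jdF, eH_jdF, cH_algebraMap, compW_JA _ _ _ (det_diag_pos d)]
  congr 1
  obtain ⟨e, he⟩ := hd
  have h1 := JA_diag_mul_matW (r : ℤ) ((N / r : ℕ) : ℤ) h.a h.b (by exact_mod_cast h.r_pos)
    h.bezout (d : ℤ) (e : ℤ) (by exact_mod_cast Nat.pos_of_ne_zero (NeZero.ne d))
    (by exact_mod_cast he)
  rw [Nat.cast_mul]
  exact h1

include h in
/-- `W` sends `j_{r d}` to `j_d`, `d ∣ N / r`. -/
theorem cH_eH_jdF' (d : ℕ) [NeZero d] (hd : d ∣ N / r) [NeZero (r * d)] :
    cH h.W h.det_W_pos (eH N (jdF N (r * d) (h.mul_dvd hd))) = eH N (jdF N d (h.dvd_of_dvd hd)) := by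
  rw [eH_jdF, eH_jdF, cH_algebraMap, compW_JA _ _ _ (det_diag_pos (r * d))]
  congr 1
  obtain ⟨e, he⟩ := hd
  have h1 := JA_diag_mul_matW' (r : ℤ) ((N / r : ℕ) : ℤ) h.a h.b (by exact_mod_cast h.r_pos)
    h.bezout (d : ℤ) (e : ℤ) (by exact_mod_cast Nat.pos_of_ne_zero (NeZero.ne d))
    (by exact_mod_cast he)
  rw [Nat.cast_mul]
  exact h1

theorem cH_eH_algebraMap (c : Kbar) :
    cH h.W h.det_W_pos (eH N (algebraMap Kbar (FN N) c)) = eH N (algebraMap Kbar (FN N) c) := by
  rw [eH_algebraMap, cH_algebraMap]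
  exact congrArg _ (compGL_algebraMap _ _ c)

include h in
theorem cH_eH_mem (x : FN N) : cH h.W h.det_W_pos (eH N x) ∈ (eH N).range := by
  let M : IntermediateField Kbar (FN N) :=
    { carrier := {x | cH h.W h.det_W_pos (eH N x) ∈ (eH N).range}
      mul_mem' := fun {a b} ha hb => by
        show cH h.W h.det_W_pos (eH N (a * b)) ∈ (eH N).range
        rw [RingHom.map_mul (eH N), RingHom.map_mul (cH h.W h.det_W_pos)]
        exact mul_mem ha hb
      one_mem' := by
        show cH h.W h.det_W_pos (eH N 1) ∈ (eH N).range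
        rw [RingHom.map_one (eH N), RingHom.map_one (cH h.W h.det_W_pos)]
        exact one_mem _
      add_mem' := fun {a b} ha hb => by
        show cH h.W h.det_W_pos (eH N (a + b)) ∈ (eH N).range
        rw [RingHom.map_add (eH N), RingHom.map_add (cH h.W h.det_W_pos)]
        exact add_mem ha hb
      zero_mem' := by
        show cH h.W h.det_W_pos (eH N 0) ∈ (eH N).range
        rw [RingHom.map_zero (eH N), RingHom.map_zero (cH h.W h.det_W_pos)]
        exact zero_mem _
      algebraMap_mem' := fun c => by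
        show cH h.W h.det_W_pos (eH N (algebraMap Kbar (FN N) c)) ∈ (eH N).range
        rw [cH_eH_algebraMap]; exact ⟨_, rfl⟩
      inv_mem' := fun a ha => by
        show cH h.W h.det_W_pos (eH N a⁻¹) ∈ (eH N).range
        obtain ⟨y, hy⟩ := ha
        refine ⟨y⁻¹, ?_⟩
        have hy' : eH N y = cH h.W h.det_W_pos (eH N a) := hy
        show eH N y⁻¹ = cH h.W h.det_W_pos (eH N a⁻¹)
        rw [map_inv₀ (eH N) y, map_inv₀ (eH N) a, map_inv₀ (cH h.W h.det_W_pos), hy'] }
  have hM : M = ⊤ := by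
    rw [eq_top_iff, ← adjoin_jdF N, IntermediateField.adjoin_le_iff]
    rintro _ ⟨d', hd0, hd', rfl⟩
    show cH h.W h.det_W_pos (eH N (jdF N d' hd')) ∈ (eH N).range
    rcases h.divisor_cases hd' with hd | ⟨d, hd, rfl⟩
    · have : NeZero (r * d') := ⟨Nat.mul_ne_zero h.r_pos.ne' (NeZero.ne d')⟩
      exact ⟨_, (cH_eH_jdF h d' hd).symm⟩
    · have : NeZero d := ⟨fun h0 => (NeZero.ne (r * d)) (by rw [h0, mul_zero])⟩
      exact ⟨_, (cH_eH_jdF' h d hd).symm⟩
  have : x ∈ M := by rw [hM]; exact IntermediateField.mem_top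
  exact this

/-- The Atkin-Lehner map as a function. -/
def wFun (x : FN N) : FN N := (cH_eH_mem h x).choose

theorem eH_wFun (x : FN N) : eH N (wFun h x) = cH h.W h.det_W_pos (eH N x) :=
  (cH_eH_mem h x).choose_spec

/-- The Atkin-Lehner map as a `Q̄`-algebra homomorphism. -/
def wAlgHom : FN N →ₐ[Kbar] FN N where
  toFun := wFun h
  map_one' := eH_injective N (by
    rw [eH_wFun, RingHom.map_one (eH N), RingHom.map_one (cH h.W h.det_W_pos)])
  map_mul' x y := eH_injective N (by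
    rw [eH_wFun, RingHom.map_mul (eH N), RingHom.map_mul (cH h.W h.det_W_pos),
      RingHom.map_mul (eH N), eH_wFun, eH_wFun])
  map_zero' := eH_injective N (by
    rw [eH_wFun, RingHom.map_zero (eH N), RingHom.map_zero (cH h.W h.det_W_pos)])
  map_add' x y := eH_injective N (by
    rw [eH_wFun, RingHom.map_add (eH N), RingHom.map_add (cH h.W h.det_W_pos),
      RingHom.map_add (eH N), eH_wFun, eH_wFun])
  commutes' c := eH_injective N (by rw [eH_wFun, cH_eH_algebraMap])

theorem eH_wAlgHom (x : FN N) : eH N (wAlgHom h x) = cH h.W h.det_W_pos (eH N x) :=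
  eH_wFun h x

/-- `w (j_d) = j_{r d}` for `d ∣ N / r`. -/
theorem wAlgHom_jdF (d : ℕ) [NeZero d] (hd : d ∣ N / r) [NeZero (r * d)] :
    wAlgHom h (jdF N d (h.dvd_of_dvd hd)) = jdF N (r * d) (h.mul_dvd hd) :=
  eH_injective N (by rw [eH_wAlgHom, cH_eH_jdF h d hd])

/-- `w (j_{r d}) = j_d` for `d ∣ N / r`. -/
theorem wAlgHom_jdF' (d : ℕ) [NeZero d] (hd : d ∣ N / r) [NeZero (r * d)] :
    wAlgHom h (jdF N (r * d) (h.mul_dvd hd)) = jdF N d (h.dvd_of_dvd hd) :=
  eH_injective N (by rw [eH_wAlgHom, cH_eH_jdF' h d hd])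

/-- `w` is an involution. -/
theorem wAlgHom_wAlgHom (x : FN N) : wAlgHom h (wAlgHom h x) = x := by
  have key : ((wAlgHom h).comp (wAlgHom h) : FN N →ₐ[Kbar] FN N).toRingHom
      = RingHom.id (FN N) := by
    apply ringHom_ext_jdF N
    · intro c
      show wAlgHom h (wAlgHom h (algebraMap Kbar (FN N) c)) = algebraMap Kbar (FN N) c
      rw [(wAlgHom h).commutes, (wAlgHom h).commutes]
    · intro d' hd0 hd'
      show wAlgHom h (wAlgHom h (jdF N d' hd')) = jdF N d' hd'
      rcases h.divisor_cases hd' with hd | ⟨d, hd, rfl⟩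
      · have : NeZero (r * d') := ⟨Nat.mul_ne_zero h.r_pos.ne' (NeZero.ne d')⟩
        rw [wAlgHom_jdF h d' hd, wAlgHom_jdF' h d' hd]
      · have : NeZero d := ⟨fun h0 => (NeZero.ne (r * d)) (by rw [h0, mul_zero])⟩
        rw [wAlgHom_jdF' h d hd, wAlgHom_jdF h d hd]
  exact congrArg (fun f : FN N →+* FN N => f x) key

/-- **The Atkin-Lehner involution** `w_r` of `F_N`, `r ∥ N`. -/
def wAL : FN N ≃ₐ[Kbar] FN N :=
  AlgEquiv.ofAlgHom (wAlgHom h) (wAlgHom h)
    (AlgHom.ext fun x => wAlgHom_wAlgHom h x) (AlgHom.ext fun x => wAlgHom_wAlgHom h x)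

theorem wAL_apply (x : FN N) : wAL h x = wAlgHom h x := rfl

theorem wAL_symm_apply (x : FN N) : (wAL h).symm x = wAlgHom h x := rfl

theorem wAL_wAL (x : FN N) : wAL h (wAL h x) = x := wAlgHom_wAlgHom h x

theorem wAL_symm : (wAL h).symm = wAL h := AlgEquiv.ext fun _ => rfl

/-- `w (j_d) = j_{r d}` for `d ∣ N / r`. -/
theorem wAL_jdF (d : ℕ) [NeZero d] (hd : d ∣ N / r) [NeZero (r * d)] :
    wAL h (jdF N d (h.dvd_of_dvd hd)) = jdF N (r * d) (h.mul_dvd hd) :=
  wAlgHom_jdF h d hd

/-- `w (j_{r d}) = j_d` for `d ∣ N / r`. -/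
theorem wAL_jdF' (d : ℕ) [NeZero d] (hd : d ∣ N / r) [NeZero (r * d)] :
    wAL h (jdF N (r * d) (h.mul_dvd hd)) = jdF N d (h.dvd_of_dvd hd) :=
  wAlgHom_jdF' h d hd

/-! ## Commutation with the arithmetic Galois action -/

theorem arithmeticRingAut_jdF (σ : Kbar ≃ₐ[ℚ] Kbar) (d : ℕ) [NeZero d] (hd : d ∣ N) :
    arithmeticRingAut (modularFunctionFieldFull N) σ (jdF N d hd) = jdF N d hd :=
  Subtype.ext (coeffMap_coeffEmb σ _)

/-- The Atkin-Lehner involution commutes with the action of `Gal(Q̄/ℚ)` on coefficients. -/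
theorem wAL_arith (σ : Kbar ≃ₐ[ℚ] Kbar) (x : FN N) :
    wAL h (arithmeticRingAut (modularFunctionFieldFull N) σ x)
      = arithmeticRingAut (modularFunctionFieldFull N) σ (wAL h x) := by
  have key : ((wAL h : FN N ≃ₐ[Kbar] FN N) : FN N →+* FN N).comp
        ((arithmeticRingAut (modularFunctionFieldFull N) σ : FN N ≃+* FN N) : FN N →+* FN N)
      = ((arithmeticRingAut (modularFunctionFieldFull N) σ : FN N ≃+* FN N) : FN N →+* FN N).comp
        ((wAL h : FN N ≃ₐ[Kbar] FN N) : FN N →+* FN N) := by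
    apply ringHom_ext_jdF N
    · intro c
      show wAL h (arithmeticRingAut (modularFunctionFieldFull N) σ (algebraMap Kbar (FN N) c))
        = arithmeticRingAut (modularFunctionFieldFull N) σ (wAL h (algebraMap Kbar (FN N) c))
      rw [arithmeticRingAut_algebraMap, (wAL h).commutes, (wAL h).commutes,
        arithmeticRingAut_algebraMap]
    · intro d' hd0 hd'
      show wAL h (arithmeticRingAut (modularFunctionFieldFull N) σ (jdF N d' hd'))
        = arithmeticRingAut (modularFunctionFieldFull N) σ (wAL h (jdF N d' hd'))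
      rw [arithmeticRingAut_jdF]
      rcases h.divisor_cases hd' with hd | ⟨d, hd, rfl⟩
      · have : NeZero (r * d') := ⟨Nat.mul_ne_zero h.r_pos.ne' (NeZero.ne d')⟩
        rw [wAL_jdF h d' hd, arithmeticRingAut_jdF]
      · have : NeZero d := ⟨fun h0 => (NeZero.ne (r * d)) (by rw [h0, mul_zero])⟩
        rw [wAL_jdF' h d hd, arithmeticRingAut_jdF]
  exact congrArg (fun f : FN N →+* FN N => f x) key

theorem wAL_arithmeticGalois (σ : Kbar ≃ₐ[ℚ] Kbar) (x : FN N) :
    wAL h (arithmeticGalois (modularFunctionFieldFull N) σ • x)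
      = arithmeticGalois (modularFunctionFieldFull N) σ • wAL h x :=
  wAL_arith h σ x

end Construction

end Fermat.Agent.BAD.H82
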