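import Mathlib

/-!
# Item 65, package V2 (helper82): counting linearly independent elements in a tower of
intermediate fields
-/

set_option autoImplicit false

noncomputable section

namespace Fermat.Agent.BAD.H82

/-- A family of elements of `B'`, linearly independent over `A' ≤ B'` (stated inside the ambient
field), has at most `[B' : A']` elements. -/
theorem card_le_relfinrank {K L : Type*} [Field K] [Field L] [Algebra K L]
    (A' B' : IntermediateField K L) (h : A' ≤ B') (hfin : A'.relfinrank B' ≠ 0)
    {ι : Type*} [Fintype ι] (v : ι → L) (hv : ∀ i, v i ∈ B')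
    (hli : ∀ g : ι → L, (∀ i, g i ∈ A') → ∑ i, g i * v i = 0 → ∀ i, g i = 0) :
    Fintype.card ι ≤ A'.relfinrank B' := by
  rw [IntermediateField.relfinrank_eq_finrank_of_le h] at hfin ⊢
  have : Module.Finite ↥A' ↥(IntermediateField.extendScalars h) :=
    Module.finite_of_finrank_pos (Nat.pos_of_ne_zero hfin)
  let w : ι → ↥(IntermediateField.extendScalars h) := fun i => ⟨v i, hv i⟩
  have hw : LinearIndependent ↥A' w := by
    rw [Fintype.linearIndependent_iff]
    intro g hg i
    have h1 : ∑ i, ((g i : ↥A') : L) * v i = 0 := by
      have h2 := congrArg (fun x : ↥(IntermediateField.extendScalars h) => (x : L)) hg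
      simp only [AddSubmonoidClass.coe_finsetSum, ZeroMemClass.coe_zero] at h2
      rw [← h2]
      refine Finset.sum_congr rfl fun i _ => ?_
      rfl
    exact Subtype.ext (hli (fun i => ((g i : ↥A') : L)) (fun i => (g i).2) h1 i)
  exact hw.fintype_card_le_finrank

end Fermat.Agent.BAD.H82
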