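import Fermat.Agent.RED.H10_Kronecker
import Fermat.Prelude.Def_ModularCurve_X0ModL

/-!
# Item 65, package V2 (helper82), part (D): `k((t))` over `k((t ^ q))` in characteristic `q`

`k` a field of characteristic `q`, `j = jqModC k`.

* `FrRange k q = k((t ^ q))`, the image of the substitution `t ↦ t ^ q`;
* `linearIndependent_jq_pow` : `1, j, …, j ^ (q - 1)` are linearly independent over `k((t ^ q))`;
* `linearIndependent_jq_pow_mul` : if `κ ⊆ E ∩ k((t ^ q))`, `j ∈ E` and `θ ∉ E`, then the `2 q`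
  elements `j ^ i θ ^ ε` (`i < q`, `ε < 2`) are linearly independent over `κ`.
-/

set_option autoImplicit false

noncomputable section

open Polynomial ModularCurve

namespace Fermat.Agent.BAD.H82

section

variable (k : Type*) [Field k] (q : ℕ) [NeZero q]

/-- The field `k((t ^ q))`. -/
def FrRange : Subfield (LaurentSeries k) := (qExpand k q).fieldRange

theorem mem_FrRange_iff (x : LaurentSeries k) : x ∈ FrRange k q ↔ ∃ y, qExpand k q y = x :=
  RingHom.mem_fieldRange

theorem coeff_eq_zero_of_mem_FrRange {x : LaurentSeries k} (hx : x ∈ FrRange k q) {n : ℤ}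
    (hn : ¬ (q : ℤ) ∣ n) : x.coeff n = 0 := by
  obtain ⟨y, rfl⟩ := (mem_FrRange_iff k q x).1 hx
  exact qExpand_coeff_of_not_dvd q y hn

variable [Fact q.Prime]

theorem jqModC_not_mem_FrRange : jqModC k ∉ FrRange k q := by
  intro h
  have hq1 : 1 < q := (Fact.out : q.Prime).one_lt
  have hnd : ¬ ((q : ℕ) : ℤ) ∣ (-1 : ℤ) := by
    intro hd
    have h1 : ((q : ℕ) : ℤ) ∣ 1 := (dvd_neg (a := (q : ℤ)) (b := 1)).mp hd
    have h2 : q ∣ 1 := by exact_mod_cast h1
    exact hq1.ne' (Nat.dvd_one.mp h2)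
  have h1 := coeff_eq_zero_of_mem_FrRange k q h hnd
  rw [coeff_jqModC_neg_one] at h1
  exact one_ne_zero h1

variable [CharP k q]

theorem jqModC_pow_char : jqModC k ^ q = qExpand k q (jqModC k) := by
  rw [Fermat.Agent.RED.H10.pow_char_eq q (jqModC k), coeffMap_jqModC]

theorem jqModC_pow_mem_FrRange : jqModC k ^ q ∈ FrRange k q :=
  (mem_FrRange_iff k q _).2 ⟨jqModC k, (jqModC_pow_char k q).symm⟩

/-- `X ^ q - j ^ q` is the minimal polynomial of `j` over `k((t ^ q))`. -/
theorem minpoly_jqModC :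
    minpoly (FrRange k q) (jqModC k)
      = X ^ q - C (⟨jqModC k ^ q, jqModC_pow_mem_FrRange k q⟩ : FrRange k q) := by
  have hq : q.Prime := Fact.out
  have : ExpChar (LaurentSeries k) q := by
    have : CharP (LaurentSeries k) q :=
      charP_of_injective_algebraMap (algebraMap k (LaurentSeries k)).injective q
    exact ExpChar.prime hq
  symm
  apply minpoly.eq_of_irreducible_of_monic
  · apply X_pow_sub_C_irreducible_of_prime hq
    intro b hb
    have h1 : ((b : FrRange k q) : LaurentSeries k) ^ q = jqModC k ^ q :=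
      congrArg Subtype.val hb
    have h2 : ((b : FrRange k q) : LaurentSeries k) = jqModC k :=
      frobenius_inj (LaurentSeries k) q h1
    exact jqModC_not_mem_FrRange k q (h2 ▸ b.2)
  · rw [map_sub, map_pow, aeval_X, aeval_C]
    exact sub_self _
  · exact monic_X_pow_sub_C _ hq.ne_zero

theorem natDegree_minpoly_jqModC : (minpoly (FrRange k q) (jqModC k)).natDegree = q := by
  rw [minpoly_jqModC, natDegree_X_pow_sub_C]

/-- `1, j, …, j ^ (q - 1)` are linearly independent over `k((t ^ q))`. -/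
theorem linearIndependent_jq_pow :
    LinearIndependent (FrRange k q) (fun i : Fin q => jqModC k ^ (i : ℕ)) := by
  have h := linearIndependent_pow (K := FrRange k q) (jqModC k)
  have e : q = (minpoly (FrRange k q) (jqModC k)).natDegree := (natDegree_minpoly_jqModC k q).symm
  have h2 := h.comp (Fin.cast e) (Fin.cast_injective e)
  exact h2

/-- If `κ ⊆ E ∩ k((t ^ q))`, `j ∈ E` and `θ ∉ E`, then the `2 q` elements `j ^ i θ ^ ε` are
linearly independent over `κ`. -/
theorem linearIndependent_jq_pow_mul (κ E : Subfield (LaurentSeries k)) (hκE : κ ≤ E)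
    (hκF : κ ≤ FrRange k q) (hj : jqModC k ∈ E) {θ : LaurentSeries k} (hθ : θ ∉ E) :
    LinearIndependent κ
      (fun p : Fin q × Fin 2 => jqModC k ^ (p.1 : ℕ) * θ ^ (p.2 : ℕ)) := by
  rw [Fintype.linearIndependent_iff]
  intro g hg
  -- the two partial sums
  set S : Fin 2 → LaurentSeries k := fun ε => ∑ i : Fin q, (g (i, ε) : LaurentSeries k)
    * jqModC k ^ (i : ℕ) with hS
  have hSE : ∀ ε, S ε ∈ E := fun ε =>
    E.sum_mem fun i _ => E.mul_mem (hκE (g (i, ε)).2) (E.pow_mem hj _)
  have hrel : S 0 + S 1 * θ = 0 := by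
    have h1 : ∑ p : Fin q × Fin 2, g p • (jqModC k ^ (p.1 : ℕ) * θ ^ (p.2 : ℕ))
        = ∑ i : Fin q, ∑ ε : Fin 2,
          (g (i, ε) : LaurentSeries k) * (jqModC k ^ (i : ℕ) * θ ^ (ε : ℕ)) := by
      rw [Fintype.sum_prod_type]
      rfl
    rw [h1] at hg
    rw [← hg, hS]
    simp only [Fin.sum_univ_two, Fin.val_zero, Fin.val_one, pow_zero, pow_one, mul_one]
    rw [Finset.sum_add_distrib, Finset.sum_mul]
    congr 1
    refine Finset.sum_congr rfl fun i _ => ?_
    ring
  have hS1 : S 1 = 0 := by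
    by_contra h1
    apply hθ
    have h2 : θ = -(S 0) / S 1 := by
      rw [eq_div_iff h1]
      linear_combination hrel
    rw [h2]
    exact E.div_mem (E.neg_mem (hSE 0)) (hSE 1)
  have hS0 : S 0 = 0 := by
    rw [hS1, zero_mul, add_zero] at hrel
    exact hrel
  -- independence of the powers of `j`
  have hli := (linearIndependent_jq_pow k q)
  rw [Fintype.linearIndependent_iff] at hli
  have key : ∀ ε, S ε = 0 → ∀ i, g (i, ε) = 0 := by
    intro ε h0 i
    have h1 := hli (fun i => ⟨(g (i, ε) : LaurentSeries k), hκF (g (i, ε)).2⟩) h0 i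
    have h2 : ((g (i, ε) : κ) : LaurentSeries k) = 0 :=
      congrArg (fun z : FrRange k q => (z : LaurentSeries k)) h1
    exact Subtype.ext h2
  rintro ⟨i, ε⟩
  fin_cases ε
  · exact key 0 hS0 i
  · exact key 1 hS1 i

end

end Fermat.Agent.BAD.H82
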