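import Fermat.Agent.RED.H73_GACore

/-!
# Item 65, package V2 (helper82), part (D): the substitution `t ↦ t ^ q` and the Gauss ring;
the inequality `f ≤ n`

* `Fr_mem_gaussRingV`, `gaussRedV_Fr` : the substitution `Fr = (t ↦ t ^ n)` preserves the Gauss
  ring and commutes with the reduction;
* `mem_gaussRingV_of_Fr_mem` : conversely, for `x` with the scaling property, `Fr x` in the Gauss
  ring implies `x` in the Gauss ring;
* `linearIndependent_of_red` (**`f ≤ n`**) : elements of a valuation ring `V` of `F` whose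
  reductions are linearly independent over a subfield containing the reductions of `V ∩ E` are
  linearly independent over `E`.
-/

set_option autoImplicit false

noncomputable section

open ModularCurve Fermat.Agent.S28 Fermat.Agent.S28.H73 Fermat.Agent.RED.H73

namespace Fermat.Agent.BAD.H82

section Fr

variable {C : Type} [Field C] (O : ValuationSubring C) (n : ℕ) [NeZero n]

theorem Fr_iotaV (g : LaurentSeries ↥O) :
    qExpand C n (iotaV O g) = iotaV O (qExpand ↥O n g) := by
  rw [iotaV, coeffMap_qExpand]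

theorem redV_Fr (g : LaurentSeries ↥O) :
    redV O (qExpand ↥O n g) = qExpand (kV O) n (redV O g) := by
  rw [redV, coeffMap_qExpand]

theorem redV_Fr_ne_zero {g : LaurentSeries ↥O} (hg : redV O g ≠ 0) :
    redV O (qExpand ↥O n g) ≠ 0 := by
  rw [redV_Fr]
  intro h
  exact hg (qExpand_injective (R := kV O) n (by rw [h, map_zero]))

/-- `Fr` preserves the Gauss ring. -/
theorem Fr_mem_gaussRingV {x : LaurentSeries C} (hx : x ∈ gaussRingV O) :
    qExpand C n x ∈ gaussRingV O := by
  obtain ⟨g, h, hg, e⟩ := hx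
  refine ⟨qExpand ↥O n g, qExpand ↥O n h, redV_Fr_ne_zero O n hg, ?_⟩
  rw [← Fr_iotaV, ← Fr_iotaV, ← map_mul, e]

/-- `Fr` commutes with the reduction. -/
theorem gaussRedV_Fr {x : LaurentSeries C} (hx : x ∈ gaussRingV O)
    (hx' : qExpand C n x ∈ gaussRingV O) :
    gaussRedV O ⟨qExpand C n x, hx'⟩ = qExpand (kV O) n (gaussRedV O ⟨x, hx⟩) := by
  have hx0 := hx
  obtain ⟨g, h, hg, e⟩ := hx0
  have e' : iotaV O (qExpand ↥O n g) * qExpand C n x = iotaV O (qExpand ↥O n h) := by
    rw [← Fr_iotaV, ← Fr_iotaV, ← map_mul, e]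
  rw [gaussRedV_eq O ⟨qExpand C n x, hx'⟩ (redV_Fr_ne_zero O n hg) e',
    gaussRedV_eq O ⟨x, hx⟩ hg e, map_div₀, redV_Fr, redV_Fr]

theorem GaussUnit.Fr {x : LaurentSeries C} (hx : GaussUnit O x) :
    GaussUnit O (qExpand C n x) := by
  obtain ⟨g, h, hg, hh, e⟩ := hx
  refine ⟨qExpand ↥O n g, qExpand ↥O n h, redV_Fr_ne_zero O n hg, redV_Fr_ne_zero O n hh, ?_⟩
  rw [← Fr_iotaV, ← Fr_iotaV, ← map_mul, e]

/-- If `x` has the scaling property and `Fr x` is in the Gauss ring, then `x` is in the Gauss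
ring. -/
theorem mem_gaussRingV_of_Fr_mem {x : LaurentSeries C}
    (hsc : ∃ c : C, c ≠ 0 ∧ GaussUnit O (HahnSeries.C c * x))
    (hx : qExpand C n x ∈ gaussRingV O) : x ∈ gaussRingV O := by
  obtain ⟨c, hc, hu⟩ := hsc
  have hu' : GaussUnit O (HahnSeries.C c * qExpand C n x) := by
    have := GaussUnit.Fr O n hu
    rwa [map_mul, qExpand_C] at this
  -- `C c⁻¹ = Fr x * (C c * Fr x)⁻¹`
  have hx0 : qExpand C n x ≠ 0 := by
    intro h0
    rw [h0, mul_zero] at hu'
    exact hu'.ne_zero rfl
  have h1 : (HahnSeries.C c⁻¹ : LaurentSeries C)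
      = qExpand C n x * (HahnSeries.C c * qExpand C n x)⁻¹ := by
    rw [C_inv', mul_inv, mul_comm (HahnSeries.C c)⁻¹, ← mul_assoc, mul_inv_cancel₀ hx0, one_mul]
  have h2 : (HahnSeries.C c⁻¹ : LaurentSeries C) ∈ gaussRingV O := by
    rw [h1]
    exact (gaussRingV O).mul_mem hx hu'.inv.mem
  have h3 : x = HahnSeries.C c⁻¹ * (HahnSeries.C c * x) := by
    rw [C_inv', ← mul_assoc, inv_mul_cancel₀ (C_ne_zero' hc), one_mul]
  rw [h3]
  exact (gaussRingV O).mul_mem h2 hu.mem

end Fr

section FLeN

variable {F κ : Type*} [Field F] [Field κ]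

/-- **`f ≤ n`**: elements of a valuation ring `V` of `F` whose reductions are linearly
independent over a subfield `κE` of the residue field containing the reductions of `V ∩ E` are
linearly independent over the subfield `E` of `F`. -/
theorem linearIndependent_of_red (E : Subfield F) (V : ValuationSubring F) (red : V →+* κ)
    (κE : Subfield κ) (hE : ∀ (α : F) (_ : α ∈ E) (hV : α ∈ V), red ⟨α, hV⟩ ∈ κE)
    {ι : Type*} [Fintype ι] (u : ι → V)
    (hu : LinearIndependent κE (fun i => red (u i))) :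
    LinearIndependent E (fun i => ((u i : V) : F)) := by
  classical
  rw [Fintype.linearIndependent_iff]
  intro g hg
  by_contra hne
  rw [not_forall] at hne
  obtain ⟨i₁, hi₁⟩ := hne
  -- an index of maximal valuation
  obtain ⟨i₀, -, hi₀⟩ := Finset.exists_max_image Finset.univ
    (fun i => V.valuation ((g i : E) : F)) ⟨i₁, Finset.mem_univ _⟩
  have hg0 : ((g i₀ : E) : F) ≠ 0 := by
    intro h0
    have h1 := hi₀ i₁ (Finset.mem_univ _)
    rw [h0, map_zero] at h1
    have h2 : V.valuation ((g i₁ : E) : F) = 0 := le_antisymm h1 zero_le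
    rw [map_eq_zero] at h2
    exact hi₁ (Subtype.ext h2)
  -- the normalised coefficients
  have hβV : ∀ i, ((g i : E) : F) / ((g i₀ : E) : F) ∈ V := by
    intro i
    rw [← V.valuation_le_one_iff, map_div₀]
    have h0 : V.valuation ((g i₀ : E) : F) ≠ 0 := (Valuation.ne_zero_iff _).2 hg0
    exact (div_le_one₀ (lt_of_le_of_ne zero_le h0.symm)).2 (hi₀ i (Finset.mem_univ _))
  have hβE : ∀ i, ((g i : E) : F) / ((g i₀ : E) : F) ∈ E :=
    fun i => E.div_mem (g i).2 (g i₀).2
  let β : ι → V := fun i => ⟨_, hβV i⟩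
  have hsum : ∑ i, β i * u i = 0 := by
    apply Subtype.ext
    have h1 : ((∑ i, β i * u i : V) : F) = ∑ i, ((β i : V) : F) * ((u i : V) : F) := by
      rw [← ValuationSubring.subtype_apply, map_sum]
      rfl
    rw [h1]
    have h2 : ∑ i, ((β i : V) : F) * ((u i : V) : F)
        = (((g i₀ : E) : F))⁻¹ * ∑ i, ((g i : E) : F) * ((u i : V) : F) := by
      rw [Finset.mul_sum]
      refine Finset.sum_congr rfl fun i _ => ?_
      show ((g i : E) : F) / ((g i₀ : E) : F) * _ = _
      rw [div_eq_mul_inv]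
      ring
    rw [h2]
    have h3 : ∑ i, ((g i : E) : F) * ((u i : V) : F) = 0 := hg
    rw [h3, mul_zero]
    rfl
  have hred : ∑ i, red (β i) * red (u i) = 0 := by
    rw [← map_zero red, ← hsum, map_sum]
    simp only [map_mul]
  -- the reduced relation is non-trivial
  let c : ι → κE := fun i => ⟨red (β i), hE _ (hβE i) (hβV i)⟩
  have hc : ∑ i, c i • red (u i) = 0 := hred
  have hci := (Fintype.linearIndependent_iff.1 hu) c hc i₀
  have h1 : red (β i₀) = 1 := by
    have e : β i₀ = 1 := Subtype.ext (div_self hg0)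
    rw [e, map_one]
  have h2 : red (β i₀) = 0 := congrArg Subtype.val hci
  rw [h1] at h2
  exact one_ne_zero h2

end FLeN

end Fermat.Agent.BAD.H82
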