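import Fermat.Agent.BAD.H88_AL

/-!
# Item 65 (BAD_q), package V2 (helper88): the Atkin–Lehner involution `w_q` on `F_N · Q̄`, part 2

`N = M q` with `a q + b M = 1`.  `W = !![q a, -b; M q, q]`, `det W = q`.
* `wq : F_N ≃ₐ[Q̄] F_N` with `wq (j (q^d)) = j (q^(d q))`, `wq (j (q^(d q))) = j (q^d)` for `d ∣ M`;
* `wq` is an involution and commutes with the coefficientwise action of `Gal(Q̄/ℚ)`.
-/

set_option autoImplicit false
set_option synthInstance.maxHeartbeats 400000
set_option maxHeartbeats 1000000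
set_option linter.unusedSectionVars false
set_option linter.style.haveILetI false

noncomputable section

namespace Fermat.Agent.BAD.H88

open Fermat.Agent.S24 ModularCurve UpperHalfPlane
open scoped MatrixGroups Manifold

/-! ## Generalities -/

/-- Two `K`-algebra homomorphisms of fields which agree on a generating set are equal. -/
theorem algHom_ext_of_adjoin {K F E : Type*} [Field K] [Field F] [Field E] [Algebra K F]
    [Algebra K E] (S : Set F) (hS : IntermediateField.adjoin K S = ⊤) (f g : F →ₐ[K] E)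
    (h : ∀ x ∈ S, f x = g x) : f = g := by
  ext x
  have hx : x ∈ IntermediateField.adjoin K S := by rw [hS]; exact IntermediateField.mem_top
  induction hx using IntermediateField.adjoin_induction with
  | mem y hy => exact h y hy
  | algebraMap c => rw [f.commutes, g.commutes]
  | add y z _ _ hy hz => rw [map_add, map_add, hy, hz]
  | inv y _ hy => rw [map_inv₀, map_inv₀, hy]
  | mul y z _ _ hy hz => rw [map_mul, map_mul, hy, hz]

/-! ## The matrix `W` -/

/-- The Atkin–Lehner matrix `!![q a, -b; M q, q]`. -/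
def Wmat (q M : ℕ) (a b : ℤ) : Matrix (Fin 2) (Fin 2) ℤ := !![(q : ℤ) * a, -b; (M : ℤ) * q, q]

theorem Wmat_det (q M : ℕ) (a b : ℤ) (hab : a * q + b * M = 1) : (Wmat q M a b).det = q := by
  rw [Wmat, Matrix.det_fin_two_of]
  linear_combination (q : ℤ) * hab

theorem Wmat_det_pos (q M : ℕ) (a b : ℤ) (hab : a * q + b * M = 1) (hq : 0 < q) :
    0 < (Wmat q M a b).det := by
  rw [Wmat_det q M a b hab]; exact_mod_cast hq

/-- `diag(d, 1) W = γ diag(d q, 1)` with `γ ∈ SL₂(ℤ)`, for `M = d e`. -/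
theorem diag_mul_Wmat (q M : ℕ) (a b : ℤ) (hab : a * q + b * M = 1) (d e : ℕ) (hM : M = d * e) :
    ∃ γ : SL(2, ℤ), (!![(d : ℤ), 0; 0, 1] : Matrix (Fin 2) (Fin 2) ℤ) * Wmat q M a b
      = γ.1 * !![((d * q : ℕ) : ℤ), 0; 0, 1] := by
  refine ⟨⟨!![a, -(d : ℤ) * b; (e : ℤ), q], ?_⟩, ?_⟩
  · rw [Matrix.det_fin_two_of]
    subst hM
    push_cast at hab
    linear_combination hab
  · subst hM
    rw [Wmat]
    ext i j
    fin_cases i <;> fin_cases j <;> simp [Matrix.mul_apply, Fin.sum_univ_two] <;> ring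

/-- `diag(d q, 1) W = q • (γ diag(d, 1))` with `γ ∈ SL₂(ℤ)`, for `M = d e`. -/
theorem diagq_mul_Wmat (q M : ℕ) (a b : ℤ) (hab : a * q + b * M = 1) (d e : ℕ)
    (hM : M = d * e) :
    ∃ γ : SL(2, ℤ), (!![((d * q : ℕ) : ℤ), 0; 0, 1] : Matrix (Fin 2) (Fin 2) ℤ) * Wmat q M a b
      = (q : ℤ) • (γ.1 * !![(d : ℤ), 0; 0, 1]) := by
  refine ⟨⟨!![(q : ℤ) * a, -(d : ℤ) * b; (e : ℤ), 1], ?_⟩, ?_⟩
  · rw [Matrix.det_fin_two_of]
    subst hM
    push_cast at hab
    linear_combination hab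
  · subst hM
    rw [Wmat]
    ext i j
    fin_cases i <;> fin_cases j <;>
      simp [Matrix.mul_apply, Fin.sum_univ_two, Matrix.smul_apply] <;> ring

theorem diag_det_pos (d : ℕ) (hd : 0 < d) :
    0 < (!![(d : ℤ), 0; 0, 1] : Matrix (Fin 2) (Fin 2) ℤ).det := by
  simpa [Matrix.det_fin_two] using hd

/-- `j (d W τ) = j (d q τ)`. -/
theorem compHol_JA_diag (q M : ℕ) (a b : ℤ) (hab : a * q + b * M = 1) (hq : 0 < q)
    (d e : ℕ) (hd : 0 < d) (hM : M = d * e) :
    compHol (Wmat q M a b) (Wmat_det_pos q M a b hab hq) (JA !![(d : ℤ), 0; 0, 1])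
      = JA !![((d * q : ℕ) : ℤ), 0; 0, 1] := by
  obtain ⟨γ, hγ⟩ := diag_mul_Wmat q M a b hab d e hM
  rw [compHol_JA _ _ _ (diag_det_pos d hd), hγ,
    JA_mul_left γ _ (diag_det_pos (d * q) (Nat.mul_pos hd hq))]

/-- `j (d q W τ) = j (d τ)`. -/
theorem compHol_JA_diagq (q M : ℕ) (a b : ℤ) (hab : a * q + b * M = 1) (hq : 0 < q)
    (d e : ℕ) (hd : 0 < d) (hM : M = d * e) :
    compHol (Wmat q M a b) (Wmat_det_pos q M a b hab hq) (JA !![((d * q : ℕ) : ℤ), 0; 0, 1])
      = JA !![(d : ℤ), 0; 0, 1] := by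
  obtain ⟨γ, hγ⟩ := diagq_mul_Wmat q M a b hab d e hM
  have h1 : 0 < (γ.1 * !![(d : ℤ), 0; 0, 1]).det := by
    rw [Matrix.det_mul, γ.2, one_mul]; exact diag_det_pos d hd
  rw [compHol_JA _ _ _ (diag_det_pos (d * q) (Nat.mul_pos hd hq)), hγ,
    JA_smul (q : ℤ) (by exact_mod_cast hq) _ h1, JA_mul_left γ _ (diag_det_pos d hd)]

/-! ## The automorphism `wq` of `F_N` -/

section Wq

variable (q M : ℕ) (a b : ℤ) (hab : a * q + b * M = 1) (hq : q.Prime) [NeZero (M * q)]

include hab hq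

theorem q_not_dvd_M : ¬ q ∣ M := by
  intro h
  obtain ⟨m, rfl⟩ := h
  have h1 : (q : ℤ) ∣ 1 := by
    rw [← hab]
    exact dvd_add (dvd_mul_left _ _) (by push_cast; exact (dvd_mul_right _ _).mul_left b)
  have h2 : q ∣ 1 := by exact_mod_cast h1
  exact hq.one_lt.ne' (Nat.dvd_one.mp h2)

/-- The divisors of `M q` are the `d` and the `d q`, `d ∣ M`. -/
theorem dvd_cases (D : ℕ) (hD : D ∣ M * q) :
    (∃ e, M = D * e) ∨ ∃ d e, D = d * q ∧ M = d * e := by
  by_cases h : q ∣ D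
  · obtain ⟨d, rfl⟩ := h
    right
    have h2 : d ∣ M := by
      have h3 : q * d ∣ q * M := by rwa [mul_comm q M]
      exact (Nat.mul_dvd_mul_iff_left hq.pos).mp h3
    obtain ⟨e, he⟩ := h2
    exact ⟨d, e, mul_comm _ _, he⟩
  · left
    have hcop : Nat.Coprime D q := ((Nat.Prime.coprime_iff_not_dvd hq).mpr h).symm
    exact hcop.dvd_of_dvd_mul_right hD

theorem M_pos : 0 < M := by
  rcases Nat.eq_zero_or_pos M with h | h
  · exfalso
    exact q_not_dvd_M q M a b hab hq (h ▸ dvd_zero q)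
  · exact h

/-- `W` maps the analytic image of `F_N` into itself. -/
theorem compMer_emb_mem_range (x : FN (M * q)) :
    compMer (Wmat q M a b) (Wmat_det_pos q M a b hab hq.pos) (emb (M * q) x)
      ∈ (emb (M * q)).range := by
  have hx : x ∈ IntermediateField.adjoin Kbar
      {x : FN (M * q) | ∃ (d : ℕ) (_ : NeZero d) (hd : d ∣ M * q), x = jdF (M * q) d hd} := by
    rw [adjoin_jdF]; exact IntermediateField.mem_top
  induction hx using IntermediateField.adjoin_induction with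
  | mem y hy =>
    obtain ⟨D, hD0, hD, rfl⟩ := hy
    rw [emb_jdF, compMer_holToMer]
    rcases dvd_cases q M a b hab hq D hD with ⟨e, he⟩ | ⟨d, e, rfl, he⟩
    · have hDpos : 0 < D := Nat.pos_of_ne_zero (NeZero.ne D)
      rw [compHol_JA_diag q M a b hab hq.pos D e hDpos he]
      haveI : NeZero (D * q) := ⟨(Nat.mul_pos hDpos hq.pos).ne'⟩
      have hdvd : D * q ∣ M * q := Nat.mul_dvd_mul_right ⟨e, he⟩ q
      exact ⟨jdF (M * q) (D * q) hdvd, emb_jdF (M * q) (D * q) hdvd⟩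
    · have hdpos : 0 < d := by
        rcases Nat.eq_zero_or_pos d with h | h
        · exfalso; apply NeZero.ne (d * q); rw [h, zero_mul]
        · exact h
      rw [compHol_JA_diagq q M a b hab hq.pos d e hdpos he]
      haveI : NeZero d := ⟨hdpos.ne'⟩
      have hdvd : d ∣ M * q := Dvd.dvd.mul_right ⟨e, he⟩ q
      exact ⟨jdF (M * q) d hdvd, emb_jdF (M * q) d hdvd⟩
  | algebraMap c =>
    rw [AlgHom.commutes, AlgHom.commutes]
    exact Subalgebra.algebraMap_mem _ c
  | add y z _ _ hy hz =>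
    rw [map_add, map_add]; exact add_mem hy hz
  | inv y _ hy =>
    rw [map_inv₀, map_inv₀]
    obtain ⟨t, ht⟩ := hy
    exact ⟨t⁻¹, by rw [map_inv₀]; exact congrArg _ ht⟩
  | mul y z _ _ hy hz =>
    rw [map_mul, map_mul]; exact mul_mem hy hz

/-- The Atkin–Lehner involution, as an algebra homomorphism. -/
def wqHom : FN (M * q) →ₐ[Kbar] FN (M * q) :=
  ((AlgEquiv.ofInjective (emb (M * q)) (emb_injective (M * q))).symm.toAlgHom).comp
    (((compMer (Wmat q M a b) (Wmat_det_pos q M a b hab hq.pos)).comp (emb (M * q))).codRestrict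
      (emb (M * q)).range (compMer_emb_mem_range q M a b hab hq))

theorem emb_wqHom (x : FN (M * q)) :
    emb (M * q) (wqHom q M a b hab hq x)
      = compMer (Wmat q M a b) (Wmat_det_pos q M a b hab hq.pos) (emb (M * q) x) := by
  have h := (AlgEquiv.ofInjective (emb (M * q)) (emb_injective (M * q))).apply_symm_apply
    ((((compMer (Wmat q M a b) (Wmat_det_pos q M a b hab hq.pos)).comp (emb (M * q))).codRestrict
      (emb (M * q)).range (compMer_emb_mem_range q M a b hab hq)) x)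
  exact congrArg Subtype.val h

/-- `wq (j (q^d)) = j (q^(d q))` for `d ∣ M`. -/
theorem wqHom_jdF (d : ℕ) [NeZero d] [NeZero (d * q)] (hd : d ∣ M) :
    wqHom q M a b hab hq (jdF (M * q) d (Dvd.dvd.mul_right hd q))
      = jdF (M * q) (d * q) (Nat.mul_dvd_mul_right hd q) := by
  apply emb_injective (M * q)
  obtain ⟨e, he⟩ := hd
  rw [emb_wqHom, emb_jdF, emb_jdF, compMer_holToMer,
    compHol_JA_diag q M a b hab hq.pos d e (Nat.pos_of_ne_zero (NeZero.ne d)) he]

/-- `wq (j (q^(d q))) = j (q^d)` for `d ∣ M`. -/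
theorem wqHom_jdF_mul (d : ℕ) [NeZero d] [NeZero (d * q)] (hd : d ∣ M) :
    wqHom q M a b hab hq (jdF (M * q) (d * q) (Nat.mul_dvd_mul_right hd q))
      = jdF (M * q) d (Dvd.dvd.mul_right hd q) := by
  apply emb_injective (M * q)
  obtain ⟨e, he⟩ := hd
  rw [emb_wqHom, emb_jdF, emb_jdF, compMer_holToMer,
    compHol_JA_diagq q M a b hab hq.pos d e (Nat.pos_of_ne_zero (NeZero.ne d)) he]

/-- `wq` is an involution. -/
theorem wqHom_comp_self :
    (wqHom q M a b hab hq).comp (wqHom q M a b hab hq) = AlgHom.id Kbar (FN (M * q)) := by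
  apply algHom_ext_of_adjoin _ (adjoin_jdF (M * q))
  rintro x ⟨D, hD0, hD, rfl⟩
  rw [AlgHom.comp_apply, AlgHom.id_apply]
  rcases dvd_cases q M a b hab hq D hD with ⟨e, he⟩ | ⟨d, e, rfl, he⟩
  · haveI : NeZero (D * q) := ⟨(Nat.mul_pos (Nat.pos_of_ne_zero (NeZero.ne D)) hq.pos).ne'⟩
    rw [wqHom_jdF q M a b hab hq D ⟨e, he⟩, wqHom_jdF_mul q M a b hab hq D ⟨e, he⟩]
  · have hdpos : 0 < d := by
      rcases Nat.eq_zero_or_pos d with h | h
      · exfalso; apply NeZero.ne (d * q); rw [h, zero_mul]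
      · exact h
    haveI : NeZero d := ⟨hdpos.ne'⟩
    rw [wqHom_jdF_mul q M a b hab hq d ⟨e, he⟩, wqHom_jdF q M a b hab hq d ⟨e, he⟩]

theorem wqHom_wqHom (x : FN (M * q)) :
    wqHom q M a b hab hq (wqHom q M a b hab hq x) = x :=
  congrArg (fun f : FN (M * q) →ₐ[Kbar] FN (M * q) => f x) (wqHom_comp_self q M a b hab hq)

/-- **The Atkin–Lehner involution `w_q`** of `F_N = Q̄(j(q^d) : d ∣ N)`, `N = M q`. -/
def wq : FN (M * q) ≃ₐ[Kbar] FN (M * q) :=
  AlgEquiv.ofAlgHom (wqHom q M a b hab hq) (wqHom q M a b hab hq)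
    (wqHom_comp_self q M a b hab hq) (wqHom_comp_self q M a b hab hq)

theorem wq_apply (x : FN (M * q)) : wq q M a b hab hq x = wqHom q M a b hab hq x := rfl

theorem wq_symm : (wq q M a b hab hq).symm = wq q M a b hab hq := by
  ext x
  rfl

theorem wq_wq (x : FN (M * q)) : wq q M a b hab hq (wq q M a b hab hq x) = x :=
  wqHom_wqHom q M a b hab hq x

end Wq

end Fermat.Agent.BAD.H88
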