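import Fermat.Agent.BAD.H82_Kron
import Fermat.Agent.BAD.H88_Wq
import Fermat.Agent.BAD.Defs

/-!
# Item 65, package V2 (helper82), part (K): the two Gauss valuations of `F_{Mq}` are different

`N = M q`, `q ∤ M`, `A` a valuation ring of `Q̄` over `q`, `V₁ = gaussV A N`, `w = wq` (helper88's
Atkin-Lehner involution), `V₂ = w⁻¹ V₁`.

* `kronF q M = j_q - j^q ∈ F_N` lies in `V₁` and reduces to `0` (`kronF_mem`, `gaussRes_kronF`);
* `w (kronF q M) = j - j_q^q` lies in `V₁` and does not reduce to `0`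
  (`wq_kronF_mem`, `gaussRes_wq_kronF_ne_zero`);
* `exists_sep` : there is `e ∈ V₁` with `red₁ e = 1`, `w e ∈ V₁`, `red₁ (w e) = 0`
  (an approximate idempotent separating the two valuations);
* `gaussV_ne_comap` : `V₁ ≠ V₁.comap w`.
-/

set_option autoImplicit false

noncomputable section

open ModularCurve Fermat.Agent.S24 Fermat.Agent.S28 Fermat.Agent.S28.H73 Fermat.Agent.RED.H73
open Fermat.Agent.BAD.H88

namespace Fermat.Agent.BAD.H82

theorem jdF_congr (N : ℕ) [NeZero N] {d d' : ℕ} [NeZero d] [NeZero d'] (h : d = d')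
    (hd : d ∣ N) (hd' : d' ∣ N) : jdF N d hd = jdF N d' hd' := by
  subst h
  rfl

theorem coe_jdF (N : ℕ) [NeZero N] (d : ℕ) [NeZero d] (hd : d ∣ N) :
    ((jdF N d hd : FN N) : LaurentSeries Kbar) = qExpand Kbar d (jqModC Kbar) :=
  coeffEmb_qExpand_jq d

theorem coe_jdF_one (N : ℕ) [NeZero N] :
    ((jdF N 1 (one_dvd N) : FN N) : LaurentSeries Kbar) = jqModC Kbar := by
  rw [coe_jdF, qExpand_one_apply]

theorem neZero_of_mul_right (q M : ℕ) [NeZero (M * q)] : NeZero q :=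
  ⟨fun h => NeZero.ne (M * q) (by rw [h, mul_zero])⟩

section

variable (q M : ℕ) [NeZero (M * q)]

/-- `j_q - j^q` as an element of `F_{Mq}`. -/
def kronF : FN (M * q) :=
  haveI : NeZero q := neZero_of_mul_right q M
  jdF (M * q) q (dvd_mul_left q M) - jdF (M * q) 1 (one_dvd _) ^ q

/-- `j - j_q^q` as an element of `F_{Mq}`. -/
def kronG : FN (M * q) :=
  haveI : NeZero q := neZero_of_mul_right q M
  jdF (M * q) 1 (one_dvd _) - jdF (M * q) q (dvd_mul_left q M) ^ q

theorem coe_kronF :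
    haveI : NeZero q := neZero_of_mul_right q M
    ((kronF q M : FN (M * q)) : LaurentSeries Kbar) = kronX Kbar q := by
  have : NeZero q := neZero_of_mul_right q M
  show ((jdF (M * q) q (dvd_mul_left q M) : FN (M * q)) : LaurentSeries Kbar)
    - ((jdF (M * q) 1 (one_dvd _) : FN (M * q)) : LaurentSeries Kbar) ^ q = _
  rw [coe_jdF, coe_jdF_one, kronX]

theorem coe_kronG :
    haveI : NeZero q := neZero_of_mul_right q M
    ((kronG q M : FN (M * q)) : LaurentSeries Kbar) = kronY Kbar q := by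
  have : NeZero q := neZero_of_mul_right q M
  show ((jdF (M * q) 1 (one_dvd _) : FN (M * q)) : LaurentSeries Kbar)
    - ((jdF (M * q) q (dvd_mul_left q M) : FN (M * q)) : LaurentSeries Kbar) ^ q = _
  rw [coe_jdF_one, coe_jdF, kronY]

variable (a b : ℤ) (hab : a * q + b * M = 1) (hq : q.Prime)

theorem wq_kronF : wq q M a b hab hq (kronF q M) = kronG q M := by
  have : NeZero q := neZero_of_mul_right q M
  have : NeZero (1 * q) := ⟨by rw [one_mul]; exact NeZero.ne q⟩
  have h1 : wq q M a b hab hq (jdF (M * q) 1 (one_dvd _)) = jdF (M * q) q (dvd_mul_left q M) := by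
    rw [wq_apply]
    have := wqHom_jdF q M a b hab hq 1 (one_dvd M)
    rw [jdF_congr (M * q) (rfl : 1 = 1) (one_dvd _) (Dvd.dvd.mul_right (one_dvd M) q), this]
    exact jdF_congr (M * q) (one_mul q) _ _
  have h2 : wq q M a b hab hq (jdF (M * q) q (dvd_mul_left q M)) = jdF (M * q) 1 (one_dvd _) := by
    rw [wq_apply]
    have := wqHom_jdF_mul q M a b hab hq 1 (one_dvd M)
    rw [jdF_congr (M * q) (one_mul q).symm (dvd_mul_left q M)
      (Nat.mul_dvd_mul_right (one_dvd M) q), this]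
  rw [kronF, kronG, map_sub, map_pow, h1, h2]

variable (A : ValuationSubring Kbar)

theorem kronF_mem : kronF q M ∈ gaussV A (M * q) := by
  have : NeZero q := neZero_of_mul_right q M
  show ((kronF q M : FN (M * q)) : LaurentSeries Kbar) ∈ gaussRingV A
  rw [coe_kronF]
  exact kronX_mem_gaussRingV A q

theorem kronG_mem : kronG q M ∈ gaussV A (M * q) := by
  have : NeZero q := neZero_of_mul_right q M
  show ((kronG q M : FN (M * q)) : LaurentSeries Kbar) ∈ gaussRingV A
  rw [coe_kronG]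
  exact kronY_mem_gaussRingV A q

include hq in
/-- `j_q - j^q` is in the maximal ideal of the Gauss valuation ring. -/
theorem gaussRes_kronF (hA : A.LiesOverPrime q) :
    gaussRes A (M * q) ⟨kronF q M, kronF_mem q M A⟩ = 0 := by
  have : NeZero q := neZero_of_mul_right q M
  have : Fact q.Prime := ⟨hq⟩
  have : CharP (kV A) q := charP_kV A hq hA
  apply Subtype.ext
  show gaussRedV A ⟨((kronF q M : FN (M * q)) : LaurentSeries Kbar), kronF_mem q M A⟩ = 0
  have e : (⟨((kronF q M : FN (M * q)) : LaurentSeries Kbar), kronF_mem q M A⟩ : gaussRingV A)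
      = ⟨kronX Kbar q, kronX_mem_gaussRingV A q⟩ := Subtype.ext (coe_kronF q M)
  rw [e]
  exact gaussRedV_kronX A q _

include hq in
/-- `j - j_q^q` is a unit of the Gauss valuation ring. -/
theorem gaussRes_kronG_ne_zero (hA : A.LiesOverPrime q) :
    gaussRes A (M * q) ⟨kronG q M, kronG_mem q M A⟩ ≠ 0 := by
  have : NeZero q := neZero_of_mul_right q M
  have : Fact q.Prime := ⟨hq⟩
  have : CharP (kV A) q := charP_kV A hq hA
  intro h0
  have h1 : gaussRedV A ⟨((kronG q M : FN (M * q)) : LaurentSeries Kbar), kronG_mem q M A⟩ = 0 :=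
    congrArg Subtype.val h0
  have e : (⟨((kronG q M : FN (M * q)) : LaurentSeries Kbar), kronG_mem q M A⟩ : gaussRingV A)
      = ⟨kronY Kbar q, kronY_mem_gaussRingV A q⟩ := Subtype.ext (coe_kronG q M)
  rw [e] at h1
  exact gaussRedV_kronY_ne_zero A q _ h1

theorem wq_kronF_mem : wq q M a b hab hq (kronF q M) ∈ gaussV A (M * q) := by
  rw [wq_kronF]
  exact kronG_mem q M A

theorem gaussRes_wq_kronF_ne_zero (hA : A.LiesOverPrime q) :
    gaussRes A (M * q) ⟨wq q M a b hab hq (kronF q M), wq_kronF_mem q M a b hab hq A⟩ ≠ 0 := by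
  have e : (⟨wq q M a b hab hq (kronF q M), wq_kronF_mem q M a b hab hq A⟩ : ↥(gaussV A (M * q)))
      = ⟨kronG q M, kronG_mem q M A⟩ := Subtype.ext (wq_kronF q M a b hab hq)
  rw [e]
  exact gaussRes_kronG_ne_zero q M hq A hA

/-- **(K)**: the Gauss valuation ring is not stable under the Atkin-Lehner involution:
`V₁ ≠ V₂ = w⁻¹ V₁`. -/
theorem gaussV_ne_comap (hA : A.LiesOverPrime q) :
    gaussV A (M * q) ≠ (gaussV A (M * q)).comap
      ((wq q M a b hab hq : FN (M * q) ≃ₐ[Kbar] FN (M * q)) : FN (M * q) →+* FN (M * q)) := by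
  intro h
  -- `x = kronF` is a non-unit of `V₁`; `w x` is a unit of `V₁`, so `x⁻¹ ∈ V₂ = V₁`
  set x := kronF q M with hx
  have hxm : gaussRes A (M * q) ⟨x, kronF_mem q M A⟩ = 0 := gaussRes_kronF q M hq A hA
  have hwu := gaussRes_wq_kronF_ne_zero q M a b hab hq A hA
  have hunit : IsUnit (⟨wq q M a b hab hq x, wq_kronF_mem q M a b hab hq A⟩ :
      ↥(gaussV A (M * q))) := by
    rw [isUnit_iff_gaussResF_ne_zero]
    intro h0
    exact hwu (Subtype.ext h0)
  have hinv : (wq q M a b hab hq x)⁻¹ ∈ gaussV A (M * q) := by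
    obtain ⟨u, hu⟩ := hunit
    have h1 : ((u⁻¹ : (↥(gaussV A (M * q)))ˣ) : ↥(gaussV A (M * q))).1
        = (wq q M a b hab hq x)⁻¹ := by
      have h2 : (u : ↥(gaussV A (M * q))).1 * ((u⁻¹ : (↥(gaussV A (M * q)))ˣ) :
          ↥(gaussV A (M * q))).1 = 1 := by
        have := congrArg Subtype.val (u.mul_inv)
        exact this
      rw [hu] at h2
      exact eq_inv_of_mul_eq_one_right h2
    rw [← h1]
    exact Subtype.property _
  have hxinv : x⁻¹ ∈ gaussV A (M * q) := by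
    rw [h, ValuationSubring.mem_comap]
    have : ((wq q M a b hab hq : FN (M * q) ≃ₐ[Kbar] FN (M * q)) : FN (M * q) →+* FN (M * q)) x⁻¹
        = (wq q M a b hab hq x)⁻¹ := map_inv₀ _ _
    rw [this]
    exact hinv
  -- but `x` is not a unit of `V₁`
  have hnu : ¬ IsUnit (⟨x, kronF_mem q M A⟩ : ↥(gaussV A (M * q))) := by
    rw [isUnit_iff_gaussResF_ne_zero, not_not]
    exact congrArg Subtype.val hxm
  apply hnu
  have hx0 : x ≠ 0 := fun h0 =>
    hunit.ne_zero (Subtype.ext (by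
      show wq q M a b hab hq x = 0
      rw [h0, map_zero]))
  refine IsUnit.of_mul_eq_one (⟨x⁻¹, hxinv⟩ : ↥(gaussV A (M * q))) ?_
  exact Subtype.ext (mul_inv_cancel₀ hx0)

end

/-- Inverses of elements of the Gauss valuation ring with non-zero reduction. -/
theorem inv_mem_gaussV (N : ℕ) (A : ValuationSubring Kbar) (v : ↥(gaussV A N))
    (hv : gaussRes A N v ≠ 0) :
    ∃ h : ((v : ↥(FNbar N)))⁻¹ ∈ gaussV A N,
      gaussRes A N ⟨_, h⟩ = (gaussRes A N v)⁻¹ := by
  have hunit : IsUnit v := by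
    rw [isUnit_iff_gaussResF_ne_zero]
    intro h0
    exact hv (Subtype.ext h0)
  obtain ⟨u, rfl⟩ := hunit
  have h2 : ((u : ↥(gaussV A N)) : ↥(FNbar N)) * ((u⁻¹ : (↥(gaussV A N))ˣ) : ↥(gaussV A N)).1 = 1 :=
    congrArg Subtype.val (u.mul_inv)
  have h1 : ((u⁻¹ : (↥(gaussV A N))ˣ) : ↥(gaussV A N)).1 = ((u : ↥(gaussV A N)) : ↥(FNbar N))⁻¹ :=
    eq_inv_of_mul_eq_one_right h2
  have hmem : ((u : ↥(gaussV A N)) : ↥(FNbar N))⁻¹ ∈ gaussV A N := by
    rw [← h1]; exact Subtype.property _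
  refine ⟨hmem, ?_⟩
  have e : (⟨((u : ↥(gaussV A N)) : ↥(FNbar N))⁻¹, hmem⟩ : ↥(gaussV A N))
      = ((u⁻¹ : (↥(gaussV A N))ˣ) : ↥(gaussV A N)) := Subtype.ext h1.symm
  rw [e]
  have h3 : gaussRes A N (u : ↥(gaussV A N)) * gaussRes A N ((u⁻¹ : (↥(gaussV A N))ˣ)) = 1 := by
    rw [← map_mul, u.mul_inv, map_one]
  exact eq_inv_of_mul_eq_one_right h3

section Sep

variable (q M : ℕ) [NeZero (M * q)] (a b : ℤ) (hab : a * q + b * M = 1) (hq : q.Prime)
variable (A : ValuationSubring Kbar)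

/-- **Separation**: an element `e` with `e ≡ 1` for `V₁` and `e ≡ 0` for `V₂ = w⁻¹ V₁`. -/
theorem exists_sep (hA : A.LiesOverPrime q) :
    ∃ (e : FN (M * q)) (h1 : e ∈ gaussV A (M * q))
      (h2 : wq q M a b hab hq e ∈ gaussV A (M * q)),
      gaussRes A (M * q) ⟨e, h1⟩ = 1 ∧ gaussRes A (M * q) ⟨_, h2⟩ = 0 := by
  set V := gaussV A (M * q) with hV
  let x : ↥V := ⟨kronF q M, kronF_mem q M A⟩
  let y : ↥V := ⟨kronG q M, kronG_mem q M A⟩
  have hx : gaussRes A (M * q) x = 0 := gaussRes_kronF q M hq A hA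
  have hy : gaussRes A (M * q) y ≠ 0 := gaussRes_kronG_ne_zero q M hq A hA
  have hxy : gaussRes A (M * q) (x + y) = gaussRes A (M * q) y := by
    rw [map_add, hx, zero_add]
  have hxy0 : gaussRes A (M * q) (x + y) ≠ 0 := by rw [hxy]; exact hy
  obtain ⟨hinv, hres⟩ := inv_mem_gaussV (M * q) A (x + y) hxy0
  let z : ↥V := ⟨_, hinv⟩
  have hz : gaussRes A (M * q) z = (gaussRes A (M * q) y)⁻¹ := by
    rw [← hxy]; exact hres
  have hwx : wq q M a b hab hq (kronF q M) = kronG q M := wq_kronF q M a b hab hq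
  have hwy : wq q M a b hab hq (kronG q M) = kronF q M := by
    rw [← hwx, wq_wq]
  have hwe : wq q M a b hab hq ((y * z : ↥V) : FN (M * q)) = ((x * z : ↥V) : FN (M * q)) := by
    show wq q M a b hab hq (kronG q M * (kronF q M + kronG q M)⁻¹)
      = kronF q M * (kronF q M + kronG q M)⁻¹
    rw [map_mul, map_inv₀, map_add, hwx, hwy, add_comm]
  refine ⟨((y * z : ↥V) : FN (M * q)), (y * z).2, ?_, ?_, ?_⟩
  · rw [hwe]; exact (x * z).2
  · show gaussRes A (M * q) (y * z) = 1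
    rw [map_mul, hz, mul_inv_cancel₀ hy]
  · have e : (⟨wq q M a b hab hq ((y * z : ↥V) : FN (M * q)), by rw [hwe]; exact (x * z).2⟩ : ↥V)
        = x * z := Subtype.ext hwe
    rw [e, map_mul, hx, zero_mul]

end Sep

end Fermat.Agent.BAD.H82
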