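import Fermat.Agent.BAD.H88_WqGal
import Fermat.Agent.RED.H73_GAModular
import Fermat.Agent.RED.H17_TIabs

/-!
# Item 65 (BAD_q), package V2 (helper88), part 4: the second Gauss valuation `V₂ = V₁ ∘ w_q`

Abstract part: transport of a valuation ring with residue map along a `K`-automorphism `w`.
Concrete part: `N = M q`, `V₁ = gaussValSub A F_N`, `red₁ = gaussResF'`,
`V₂ = V₁.comap w_q`, `red₂ = red₁ ∘ w_q` (so the second residue field is `F₂ := F₁ = redField`).
-/

set_option autoImplicit false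
set_option synthInstance.maxHeartbeats 400000
set_option maxHeartbeats 1000000
set_option linter.unusedSectionVars false
set_option linter.style.haveILetI false

noncomputable section

namespace Fermat.Agent.BAD.H88

open Fermat.Agent.S24 ModularCurve Fermat.Agent.S28 Fermat.Agent.S28.H73 Fermat.Agent.RED.H73

/-! ## Abstract transport -/

section Transport

variable {K F F' : Type*} [Field K] [Field F] [Algebra K F] [Field F']
variable (V : ValuationSubring F) (red : V →+* F') (w : F ≃ₐ[K] F)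

/-- The valuation ring `V ∘ w = w⁻¹ V`. -/
def comapV : ValuationSubring F := V.comap (w : F →+* F)

theorem mem_comapV_iff (x : F) : x ∈ comapV V w ↔ w x ∈ V := Iff.rfl

/-- `w : V ∘ w → V`. -/
def comapRestrict : ↥(comapV V w) →+* ↥V where
  toFun x := ⟨w (x : F), x.2⟩
  map_one' := Subtype.ext (map_one w)
  map_mul' x y := Subtype.ext (map_mul w (x : F) (y : F))
  map_zero' := Subtype.ext (map_zero w)
  map_add' x y := Subtype.ext (map_add w (x : F) (y : F))

theorem coe_comapRestrict (x : ↥(comapV V w)) : ((comapRestrict V w x : ↥V) : F) = w (x : F) := rfl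

/-- The residue map of `V ∘ w`: `red ∘ w`. -/
def comapRed : ↥(comapV V w) →+* F' := red.comp (comapRestrict V w)

theorem comapRed_mk (x : F) (h : x ∈ comapV V w) :
    comapRed V red w ⟨x, h⟩ = red ⟨w x, h⟩ := rfl

theorem comapRed_surjective (hs : Function.Surjective red) :
    Function.Surjective (comapRed V red w) := by
  intro y
  obtain ⟨v, rfl⟩ := hs y
  have hm : w.symm (v : F) ∈ comapV V w := by
    rw [mem_comapV_iff, AlgEquiv.apply_symm_apply]; exact v.2
  refine ⟨⟨w.symm (v : F), hm⟩, ?_⟩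
  rw [comapRed_mk]
  congr 1
  exact Subtype.ext (w.apply_symm_apply _)

/-- In a valuation ring, the maximal ideal consists of `0` and the elements whose inverse is not
in the ring. -/
theorem mem_maximalIdeal_iff' (U : ValuationSubring F) (u : ↥U) :
    u ∈ IsLocalRing.maximalIdeal ↥U ↔ ((u : F) = 0 ∨ (u : F)⁻¹ ∉ U) := by
  rw [IsLocalRing.mem_maximalIdeal, mem_nonunits_iff]
  constructor
  · intro hu
    by_contra hc
    rw [not_or, not_not] at hc
    apply hu
    refine IsUnit.of_mul_eq_one (⟨(u : F)⁻¹, hc.2⟩ : ↥U) ?_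
    exact Subtype.ext (mul_inv_cancel₀ hc.1)
  · rintro (h0 | hinv) hu
    · have : u = 0 := Subtype.ext h0
      rw [this] at hu
      exact not_isUnit_zero hu
    · apply hinv
      obtain ⟨v, hv⟩ := hu.exists_right_inv
      have h1 : (u : F) * (v : F) = 1 := congrArg Subtype.val hv
      have h2 : (u : F)⁻¹ = (v : F) := (eq_inv_of_mul_eq_one_right h1).symm
      rw [h2]
      exact v.2

theorem comapRed_eq_zero_iff
    (hz : ∀ u : ↥V, red u = 0 ↔ u ∈ IsLocalRing.maximalIdeal ↥V) (u : ↥(comapV V w)) :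
    comapRed V red w u = 0 ↔ u ∈ IsLocalRing.maximalIdeal ↥(comapV V w) := by
  show red (comapRestrict V w u) = 0 ↔ _
  rw [hz, mem_maximalIdeal_iff', mem_maximalIdeal_iff', coe_comapRestrict, mem_comapV_iff,
    map_inv₀]
  constructor
  · rintro (h | h)
    · left
      exact (map_eq_zero_iff w w.injective).mp h
    · exact Or.inr h
  · rintro (h | h)
    · left
      rw [h, map_zero]
    · exact Or.inr h

theorem comap_exists_scale
    (hsc : ∀ f : F, f ≠ 0 → ∃ c : K, c ≠ 0 ∧
      ∃ h : algebraMap K F c * f ∈ V, red ⟨_, h⟩ ≠ 0) (f : F) (hf : f ≠ 0) :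
    ∃ c : K, c ≠ 0 ∧ ∃ h : algebraMap K F c * f ∈ comapV V w, comapRed V red w ⟨_, h⟩ ≠ 0 := by
  have hwf : w f ≠ 0 := fun h => hf ((map_eq_zero_iff w w.injective).mp h)
  obtain ⟨c, hc, h, hr⟩ := hsc (w f) hwf
  have e : w (algebraMap K F c * f) = algebraMap K F c * w f := by
    rw [map_mul, AlgEquiv.commutes]
  have hm : algebraMap K F c * f ∈ comapV V w := by
    rw [mem_comapV_iff, e]; exact h
  refine ⟨c, hc, hm, ?_⟩
  rw [comapRed_mk]
  have e2 : (⟨w (algebraMap K F c * f), hm⟩ : ↥V) = ⟨algebraMap K F c * w f, h⟩ :=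
    Subtype.ext e
  rw [e2]
  exact hr

theorem comap_const_mem (c : K) : algebraMap K F c ∈ comapV V w ↔ algebraMap K F c ∈ V := by
  rw [mem_comapV_iff, AlgEquiv.commutes]

theorem comap_const_red (c : K) (h₁ : algebraMap K F c ∈ V) (h₂ : algebraMap K F c ∈ comapV V w) :
    comapRed V red w ⟨_, h₂⟩ = red ⟨_, h₁⟩ := by
  rw [comapRed_mk]
  congr 1
  exact Subtype.ext (w.commutes c)

end Transport

/-! ## The two Gauss valuations of `F_N`, `N = M q` -/

section Concrete

open Fermat.Agent.RED.H17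

variable (A : ValuationSubring Kbar)
variable (q M : ℕ) (a b : ℤ) (hab : a * q + b * M = 1) (hq : q.Prime) [NeZero (M * q)]

/-- The scaling property of `F_N`. -/
theorem hSc : HasScale A (modularFunctionFieldBar (M * q)) :=
  hasScale_laurentBaseChange A (M * q)

/-- The first valuation ring: the Gauss valuation of the `q`-expansion at `∞`. -/
abbrev V1 : ValuationSubring (FN (M * q)) :=
  gaussValSub A (modularFunctionFieldBar (M * q)) (hSc A q M)

/-- The common residue field `F₁ = F₂` of the two valuations, inside `k((q))`. -/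
abbrev F1 : Type := ↥(redField A (modularFunctionFieldBar (M * q)) (hSc A q M))

/-- The first residue map. -/
abbrev red1 : ↥(V1 A q M) →+* F1 A q M := gaussResF' A (hSc A q M)

theorem red1_eq_zero_iff (u : ↥(V1 A q M)) :
    red1 A q M u = 0 ↔ u ∈ IsLocalRing.maximalIdeal ↥(V1 A q M) :=
  gaussResF'_eq_zero_iff A (hSc A q M) u

theorem red1_surjective : Function.Surjective (red1 A q M) :=
  gaussResF'_surjective A (hSc A q M)

theorem exists_scale1 (f : FN (M * q)) (hf : f ≠ 0) :
    ∃ c : Kbar, c ≠ 0 ∧ ∃ h : algebraMap Kbar (FN (M * q)) c * f ∈ V1 A q M,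
      red1 A q M ⟨_, h⟩ ≠ 0 := by
  obtain ⟨c, u, hc, hfu⟩ := exists_unit_scale A (hSc A q M) f hf
  refine ⟨c⁻¹, inv_ne_zero hc, ?_⟩
  have e : algebraMap Kbar (FN (M * q)) c⁻¹ * f = ((u : ↥(V1 A q M)) : FN (M * q)) := by
    rw [hfu, ← mul_assoc, ← map_mul, inv_mul_cancel₀ hc, map_one, one_mul]
  have hmem : algebraMap Kbar (FN (M * q)) c⁻¹ * f ∈ V1 A q M := e ▸ (u : ↥(V1 A q M)).2
  refine ⟨hmem, ?_⟩
  have e2 : (⟨_, hmem⟩ : ↥(V1 A q M)) = u := Subtype.ext e
  rw [e2]
  exact (gaussResF'_ne_zero_iff_isUnit A (hSc A q M) _).mpr u.isUnit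

theorem const_mem1 (c : Kbar) : algebraMap Kbar (FN (M * q)) c ∈ V1 A q M ↔ c ∈ A :=
  algebraMap_mem_gaussValSub_iff A (hSc A q M) c

theorem red1_const (c : ↥A) (h : algebraMap Kbar (FN (M * q)) (c : Kbar) ∈ V1 A q M) :
    red1 A q M ⟨_, h⟩ = algebraMap (kV A) (F1 A q M) (resV A c) :=
  gaussResF'_algebraMap A (hSc A q M) c h

include hab hq

/-- **The second valuation ring** `V₂ = V₁ ∘ w_q`. -/
def V2 : ValuationSubring (FN (M * q)) := comapV (V1 A q M) (wq q M a b hab hq)

theorem mem_V2_iff (x : FN (M * q)) :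
    x ∈ V2 A q M a b hab hq ↔ wq q M a b hab hq x ∈ V1 A q M := Iff.rfl

/-- **The second residue map** `red₂ = red₁ ∘ w_q`, with values in `F₂ := F₁`. -/
def red2 : ↥(V2 A q M a b hab hq) →+* F1 A q M :=
  comapRed (V1 A q M) (red1 A q M) (wq q M a b hab hq)

theorem red2_mk (x : FN (M * q)) (h : x ∈ V2 A q M a b hab hq) :
    red2 A q M a b hab hq ⟨x, h⟩ = red1 A q M ⟨wq q M a b hab hq x, h⟩ := rfl

theorem red2_eq_zero_iff (u : ↥(V2 A q M a b hab hq)) :
    red2 A q M a b hab hq u = 0 ↔ u ∈ IsLocalRing.maximalIdeal ↥(V2 A q M a b hab hq) :=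
  comapRed_eq_zero_iff _ _ _ (red1_eq_zero_iff A q M) u

theorem red2_surjective : Function.Surjective (red2 A q M a b hab hq) :=
  comapRed_surjective _ _ _ (red1_surjective A q M)

theorem exists_scale2 (f : FN (M * q)) (hf : f ≠ 0) :
    ∃ c : Kbar, c ≠ 0 ∧ ∃ h : algebraMap Kbar (FN (M * q)) c * f ∈ V2 A q M a b hab hq,
      red2 A q M a b hab hq ⟨_, h⟩ ≠ 0 :=
  comap_exists_scale _ _ _ (exists_scale1 A q M) f hf

/-- The two valuations agree on the constants. -/
theorem const_mem2 (c : Kbar) :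
    algebraMap Kbar (FN (M * q)) c ∈ V2 A q M a b hab hq ↔
      algebraMap Kbar (FN (M * q)) c ∈ V1 A q M :=
  comap_const_mem _ _ c

theorem const_red2 (c : Kbar) (h₁ : algebraMap Kbar (FN (M * q)) c ∈ V1 A q M)
    (h₂ : algebraMap Kbar (FN (M * q)) c ∈ V2 A q M a b hab hq) :
    red2 A q M a b hab hq ⟨_, h₂⟩ = red1 A q M ⟨_, h₁⟩ :=
  comap_const_red _ _ _ c h₁ h₂

/-- `w_q` exchanges the two valuation rings. -/
theorem wq_mem_V1_iff (x : FN (M * q)) :
    wq q M a b hab hq x ∈ V1 A q M ↔ x ∈ V2 A q M a b hab hq := Iff.rfl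

theorem wq_mem_V2_iff (x : FN (M * q)) :
    wq q M a b hab hq x ∈ V2 A q M a b hab hq ↔ x ∈ V1 A q M := by
  rw [mem_V2_iff, wq_wq]

/-! ### Compatibility with the Galois action -/

/-- If `σ` preserves `V₁` then it preserves `V₂`. -/
theorem arith_mem_V2 (σ : Kbar ≃ₐ[ℚ] Kbar)
    (h₁ : ∀ f : FN (M * q), f ∈ V1 A q M →
      arithmeticRingAut (modularFunctionFieldFull (M * q)) σ f ∈ V1 A q M)
    (f : FN (M * q)) (hf : f ∈ V2 A q M a b hab hq) :
    arithmeticRingAut (modularFunctionFieldFull (M * q)) σ f ∈ V2 A q M a b hab hq := by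
  rw [mem_V2_iff, wq_arith]
  exact h₁ _ hf

/-- If `σ` acts trivially on the first reduction then it acts trivially on the second. -/
theorem arith_red2 (σ : Kbar ≃ₐ[ℚ] Kbar)
    (h₁ : ∀ (f : FN (M * q)) (h : f ∈ V1 A q M)
      (h' : arithmeticRingAut (modularFunctionFieldFull (M * q)) σ f ∈ V1 A q M),
      red1 A q M ⟨_, h'⟩ = red1 A q M ⟨f, h⟩)
    (f : FN (M * q)) (h : f ∈ V2 A q M a b hab hq)
    (h' : arithmeticRingAut (modularFunctionFieldFull (M * q)) σ f ∈ V2 A q M a b hab hq) :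
    red2 A q M a b hab hq ⟨_, h'⟩ = red2 A q M a b hab hq ⟨f, h⟩ := by
  have e := wq_arith q M a b hab hq σ f
  have hm : arithmeticRingAut (modularFunctionFieldFull (M * q)) σ (wq q M a b hab hq f)
      ∈ V1 A q M := e ▸ h'
  have key : red1 A q M ⟨wq q M a b hab hq
      (arithmeticRingAut (modularFunctionFieldFull (M * q)) σ f), h'⟩
      = red1 A q M ⟨_, hm⟩ := by
    congr 1
    exact Subtype.ext e
  show red1 A q M ⟨wq q M a b hab hq
      (arithmeticRingAut (modularFunctionFieldFull (M * q)) σ f), h'⟩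
      = red1 A q M ⟨wq q M a b hab hq f, h⟩
  exact key.trans (h₁ _ h hm)

end Concrete

end Fermat.Agent.BAD.H88
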