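import Fermat.Agent.RED.H73_GACard
import Fermat.Agent.BAD.H88_V2
import Fermat.Agent.BAD.H82_AL
import Fermat.Agent.BAD.H82_KronF
import Fermat.Agent.BAD.H82_FrGauss
import Fermat.Agent.BAD.H82_DegSeries
import Fermat.Agent.BAD.H82_Count

/-!
# Item 65, package V2 (helper82), part (D): the residue field of the Gauss valuation of
`F_{Mq} · Q̄` at a prime over `q ∤ M` is `k(j~(t^d) : d ∣ M)`

`N = M q`, `q ∤ M`, `A` over `q`, `k` the residue field of `A`.

* `wq_eq_Fr` : the Atkin-Lehner involution is the substitution `t ↦ t ^ q` on `F_M`;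
* `relfinrank_FM_FN` : `[F_{Mq} · Q̄ : F_M · Q̄] = q + 1`;
* `redField_eq_fullC` **(D1)** : `redField A (F_{Mq} · Q̄) = modularFunctionFieldFullC k M`
  (so `d₁ = 1`);
  proof: if `θ` were a new element of the residue field, the `2 q` elements `j~^i θ^ε` would be
  linearly independent over `red₂ (F_M) ⊆ Fr (F~_M)`, but `f ≤ n = q + 1` for `V₂`.
-/

set_option autoImplicit false



noncomputable section

open ModularCurve Fermat.Agent.S24 Fermat.Agent.S28 Fermat.Agent.S28.H73 Fermat.Agent.RED.H73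
open Fermat.Agent.BAD.H88

namespace Fermat.Agent.BAD.H82

/-! ## Levels `M` and `M q` in characteristic `q` -/

/-- In characteristic `q`: `k(j(t^d) : d ∣ M q) ⊆ k(j(t^d) : d ∣ M)`. -/
theorem fullC_mul_char_le (k : Type*) [Field k] (q M : ℕ) [Fact q.Prime] [CharP k q] :
    modularFunctionFieldFullC k (M * q) ≤ modularFunctionFieldFullC k M := by
  have hq : q.Prime := Fact.out
  rw [modularFunctionFieldFullC, IntermediateField.adjoin_le_iff]
  rintro x ⟨d, hd0, hd, rfl⟩
  haveI := hd0
  by_cases hqd : q ∣ d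
  · obtain ⟨d', rfl⟩ := hqd
    have hd'M : d' ∣ M := by
      have h3 : q * d' ∣ q * M := by rwa [mul_comm q M]
      exact (Nat.mul_dvd_mul_iff_left hq.pos).mp h3
    haveI : NeZero d' := ⟨fun h0 => NeZero.ne (q * d') (by rw [h0, mul_zero])⟩
    haveI : NeZero q := ⟨hq.ne_zero⟩
    have e : qExpand k (q * d') (jqModC k) = (qExpand k d' (jqModC k)) ^ q := by
      rw [Fermat.Agent.RED.H10.pow_char_eq q (qExpand k d' (jqModC k)), coeffMap_qExpand,
        coeffMap_jqModC, qExpand_qExpand]
    show qExpand k (q * d') (jqModC k) ∈ modularFunctionFieldFullC k M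
    rw [e]
    exact pow_mem (jqModCd_mem_full k M hd'M) q
  · have hcop : Nat.Coprime d q := ((Nat.Prime.coprime_iff_not_dvd hq).mpr hqd).symm
    exact jqModCd_mem_full k M (hcop.dvd_of_dvd_mul_right hd)

/-- In characteristic `q`, the substitution `t ↦ t ^ q` maps `k(j(t^d) : d ∣ M)` into itself. -/
theorem Fr_mem_fullC (k : Type*) [Field k] (q M : ℕ) [NeZero M] [NeZero q] [Fact q.Prime]
    [CharP k q] {x : LaurentSeries k} (hx : x ∈ modularFunctionFieldFullC k M) :
    qExpand k q x ∈ modularFunctionFieldFullC k M := by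
  apply fullC_mul_char_le k q M
  apply full_degeneracyC_map_le k M q
  exact ⟨x, hx, rfl⟩

theorem neZero_of_mul_left (q M : ℕ) [NeZero (M * q)] : NeZero M :=
  ⟨fun h => NeZero.ne (M * q) (by rw [h, zero_mul])⟩

section

variable (q M : ℕ) [NeZero (M * q)]

/-- `F_M · Q̄ ⊆ F_{Mq} · Q̄`. -/
theorem FM_le : modularFunctionFieldBar M ≤ modularFunctionFieldBar (M * q) := by
  have : NeZero M := neZero_of_mul_left q M
  show laurentBaseChange Kbar (modularFunctionFieldFull M)
    ≤ laurentBaseChange Kbar (modularFunctionFieldFull (M * q))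
  rw [laurentBaseChange_full_eq, laurentBaseChange_full_eq]
  exact full_degeneracyC_le Kbar (Dvd.intro q rfl)

/-- The inclusion `F_M → F_{Mq}`. -/
def inclM : FN M →ₐ[Kbar] FN (M * q) := IntermediateField.inclusion (FM_le q M)

theorem coe_inclM (x : FN M) : ((inclM q M x : FN (M * q)) : LaurentSeries Kbar) = x :=
  IntermediateField.coe_inclusion (FM_le q M) x

theorem inclM_jdF (d : ℕ) [NeZero d] (hd : d ∣ M) :
    haveI : NeZero M := neZero_of_mul_left q M
    inclM q M (jdF M d hd) = jdF (M * q) d (Dvd.dvd.mul_right hd q) := by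
  have : NeZero M := neZero_of_mul_left q M
  apply Subtype.ext
  rw [coe_inclM, coe_jdF, coe_jdF]

variable (a b : ℤ) (hab : a * q + b * M = 1) (hq : q.Prime)

/-- **`w_q` is the substitution `t ↦ t ^ q` on `F_M`.** -/
theorem wq_eq_Fr (x : FN M) :
    haveI : NeZero q := neZero_of_mul_right q M
    ((wq q M a b hab hq (inclM q M x) : FN (M * q)) : LaurentSeries Kbar)
      = qExpand Kbar q (x : LaurentSeries Kbar) := by
  have : NeZero q := neZero_of_mul_right q M
  have : NeZero M := neZero_of_mul_left q M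
  let f₁ : FN M →+* LaurentSeries Kbar :=
    ((modularFunctionFieldBar (M * q)).val : FN (M * q) →+* LaurentSeries Kbar).comp
      (((wq q M a b hab hq : FN (M * q) ≃ₐ[Kbar] FN (M * q)) : FN (M * q) →+* FN (M * q)).comp
        ((inclM q M : FN M →ₐ[Kbar] FN (M * q)) : FN M →+* FN (M * q)))
  let f₂ : FN M →+* LaurentSeries Kbar :=
    (qExpand Kbar q).comp ((modularFunctionFieldBar M).val : FN M →+* LaurentSeries Kbar)
  have key : f₁ = f₂ := by
    apply ringHom_ext_jdF M
    · intro c
      show ((wq q M a b hab hq (inclM q M (algebraMap Kbar (FN M) c)) : FN (M * q)) :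
        LaurentSeries Kbar) = qExpand Kbar q ((algebraMap Kbar (FN M) c : FN M) : LaurentSeries Kbar)
      rw [(inclM q M).commutes c, AlgEquiv.commutes]
      show algebraMap Kbar (LaurentSeries Kbar) c
        = qExpandAlgHomC Kbar q (algebraMap Kbar (LaurentSeries Kbar) c)
      rw [AlgHom.commutes]
    · intro d hd0 hd
      haveI : NeZero (d * q) := ⟨Nat.mul_ne_zero (NeZero.ne d) (NeZero.ne q)⟩
      show ((wq q M a b hab hq (inclM q M (jdF M d hd)) : FN (M * q)) : LaurentSeries Kbar)
        = qExpand Kbar q ((jdF M d hd : FN M) : LaurentSeries Kbar)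
      rw [inclM_jdF, wq_apply, wqHom_jdF q M a b hab hq d hd, coe_jdF, coe_jdF, qExpand_qExpand]
      exact qExpand_congr (mul_comm d q) _
  exact congrArg (fun f : FN M →+* LaurentSeries Kbar => f x) key

end

/-! ## The degree `[F_{Mq} : F_M] = q + 1` -/

section Degree

variable (q M : ℕ) [NeZero (M * q)]

theorem dedekindPsi_ne_zero' (N : ℕ) [NeZero N] : dedekindPsi N ≠ 0 := by
  rw [dedekindPsi]
  have h1 : (1 : ℕ) ∈ (N.divisors).filter (fun d => Squarefree d) := by
    rw [Finset.mem_filter]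
    exact ⟨Nat.one_mem_divisors.mpr (NeZero.ne N), squarefree_one⟩
  have h2 : N / 1 ≤ ∑ d ∈ (N.divisors).filter (fun d => Squarefree d), N / d :=
    Finset.single_le_sum (f := fun d => N / d) (fun _ _ => Nat.zero_le _) h1
  have h3 : 0 < N := Nat.pos_of_ne_zero (NeZero.ne N)
  rw [Nat.div_one] at h2
  omega

theorem relfinrank_bar (N : ℕ) [NeZero N] :
    (IntermediateField.adjoin Kbar ({jqModC Kbar} : Set (LaurentSeries Kbar))).relfinrank
      (modularFunctionFieldBar N) = dedekindPsi N := by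
  have h := relfinrank_fullC_bar N
  rw [← laurentBaseChange_full_eq (L := AlgebraicClosure ℚ) N] at h
  exact h

theorem adjoin_j_le (N : ℕ) [NeZero N] :
    IntermediateField.adjoin Kbar ({jqModC Kbar} : Set (LaurentSeries Kbar))
      ≤ modularFunctionFieldBar N := by
  rw [IntermediateField.adjoin_le_iff]
  rintro x hx
  rw [Set.mem_singleton_iff] at hx
  subst hx
  have h := (jdF N 1 (one_dvd N)).2
  rw [coe_jdF_one] at h
  exact h

/-- `[F_{Mq} · Q̄ : F_M · Q̄] = q + 1`. -/
theorem relfinrank_FM_FN (hq : q.Prime) (hqM : ¬ q ∣ M) :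
    (modularFunctionFieldBar M).relfinrank (modularFunctionFieldBar (M * q)) = q + 1 := by
  have : NeZero M := neZero_of_mul_left q M
  have h1 := relfinrank_bar M
  have h2 := relfinrank_bar (M * q)
  have hcop : Nat.Coprime M q := ((Nat.Prime.coprime_iff_not_dvd hq).mpr hqM).symm
  rw [Fermat.Agent.S20.H19.dedekindPsi_mul hcop, dedekindPsi_prime hq] at h2
  have h3 := IntermediateField.relfinrank_mul_relfinrank (adjoin_j_le M) (FM_le q M)
  rw [h1, h2] at h3
  exact Nat.eq_of_mul_eq_mul_left (Nat.pos_of_ne_zero (dedekindPsi_ne_zero' M)) h3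

end Degree

/-! ## The residue field -/

section Main

variable (q M : ℕ) [NeZero (M * q)] (a b : ℤ) (hab : a * q + b * M = 1) (hq : q.Prime)
variable (A : ValuationSubring Kbar)

/-- `F_M` as a subfield of `F_{Mq}`. -/
def subM : Subfield (FN (M * q)) :=
  (modularFunctionFieldBar M).toSubfield.comap
    ((modularFunctionFieldBar (M * q)).val : FN (M * q) →+* LaurentSeries Kbar)

theorem mem_subM_iff (x : FN (M * q)) :
    x ∈ subM q M ↔ (x : LaurentSeries Kbar) ∈ modularFunctionFieldBar M := Iff.rfl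

/-- The second reduction map, with values in `k((t))`. -/
def red2LS : ↥(V2 A q M a b hab hq) →+* LaurentSeries (kV A) :=
  (gaussResF A (hSc A q M)).comp (comapRestrict (V1 A q M) (wq q M a b hab hq))

theorem red2LS_mk (x : FN (M * q)) (h : x ∈ V2 A q M a b hab hq) :
    red2LS q M a b hab hq A ⟨x, h⟩
      = gaussRedV A ⟨((wq q M a b hab hq x : FN (M * q)) : LaurentSeries Kbar), h⟩ := rfl

/-- The image of `F~_M` under the substitution `t ↦ t ^ q`. -/
def kapE : Subfield (LaurentSeries (kV A)) :=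
  have : NeZero q := neZero_of_mul_right q M
  (modularFunctionFieldFullC (kV A) M).toSubfield.map (qExpand (kV A) q)

include hq in
/-- The second reduction of an element of `F_M` lies in `Fr (F~_M)`. -/
theorem red2LS_inclM_mem_kapE (hA : A.LiesOverPrime q) (x : FN M)
    (hV : inclM q M x ∈ V2 A q M a b hab hq) :
    red2LS q M a b hab hq A ⟨inclM q M x, hV⟩ ∈ kapE q M A := by
  have hq0 : NeZero q := neZero_of_mul_right q M
  have hM0 : NeZero M := neZero_of_mul_left q M
  by_cases hx0 : x = 0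
  · have h0 : inclM q M x = 0 := by rw [hx0, map_zero]
    have e : (⟨inclM q M x, hV⟩ : ↥(V2 A q M a b hab hq)) = 0 :=
      Subtype.ext (h0.trans (ZeroMemClass.coe_zero _).symm)
    rw [e, map_zero]
    exact (kapE q M A).zero_mem
  -- `w x = Fr x`
  have hwq := wq_eq_Fr q M a b hab hq x
  have hV' : ((wq q M a b hab hq (inclM q M x) : FN (M * q)) : LaurentSeries Kbar)
      ∈ gaussRingV A := hV
  have hFr : qExpand Kbar q (x : LaurentSeries Kbar) ∈ gaussRingV A := hwq ▸ hV'
  -- `x` is in the Gauss ring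
  have hx0' : (x : LaurentSeries Kbar) ≠ 0 := fun h0 => hx0 (Subtype.ext h0)
  have hsc := hasScale_laurentBaseChange A M (x : LaurentSeries Kbar) x.2 hx0'
  have hxG : (x : LaurentSeries Kbar) ∈ gaussRingV A := mem_gaussRingV_of_Fr_mem A q hsc hFr
  -- the reduction
  have e1 : red2LS q M a b hab hq A ⟨inclM q M x, hV⟩
      = qExpand (kV A) q (gaussRedV A ⟨(x : LaurentSeries Kbar), hxG⟩) := by
    rw [red2LS_mk]
    have e : (⟨((wq q M a b hab hq (inclM q M x) : FN (M * q)) : LaurentSeries Kbar), hV'⟩ :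
        gaussRingV A) = ⟨qExpand Kbar q (x : LaurentSeries Kbar), hFr⟩ := Subtype.ext hwq
    rw [e, gaussRedV_Fr A q hxG hFr]
  rw [e1]
  -- the reduction of `x` at level `M`
  have hqM : ¬ q ∣ M := q_not_dvd_M q M a b hab hq
  have hGA := stmt_GA M q hq hqM A hA
  have hmem : gaussRedV A ⟨(x : LaurentSeries Kbar), hxG⟩
      ∈ modularFunctionFieldFullC (kV A) M := by
    rw [← hGA]
    exact ⟨⟨x, hxG⟩, rfl⟩
  exact ⟨_, hmem, rfl⟩

include hq in
theorem red2LS_mem_kapE (hA : A.LiesOverPrime q) (α : FN (M * q)) (hα : α ∈ subM q M)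
    (hV : α ∈ V2 A q M a b hab hq) :
    red2LS q M a b hab hq A ⟨α, hV⟩ ∈ kapE q M A := by
  have hx : inclM q M ⟨(α : LaurentSeries Kbar), hα⟩ = α :=
    Subtype.ext ((coe_inclM q M _).trans (Subtype.coe_mk _ _))
  obtain ⟨x, rfl⟩ : ∃ x : FN M, inclM q M x = α := ⟨_, hx⟩
  exact red2LS_inclM_mem_kapE q M a b hab hq A hA x hV

/-- The reduction of `j`. -/
theorem gaussRedV_jqModC (h : jqModC Kbar ∈ gaussRingV A) :
    gaussRedV A ⟨jqModC Kbar, h⟩ = jqModC (kV A) := by
  have e0 : iotaV A (jqModC ↥A) = jqModC Kbar := coeffMap_jqModC _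
  have e : (⟨jqModC Kbar, h⟩ : gaussRingV A)
      = ⟨iotaV A (jqModC ↥A), iotaV_mem_gaussRingV A _⟩ := Subtype.ext e0.symm
  rw [e, gaussRedV_iotaV]
  exact coeffMap_jqModC _

theorem jqModC_mem_gaussRingV : jqModC Kbar ∈ gaussRingV A := by
  have e0 : iotaV A (jqModC ↥A) = jqModC Kbar := coeffMap_jqModC _
  rw [← e0]
  exact iotaV_mem_gaussRingV A _

include hab hq in
/-- **(D1), the inclusion**: the residue field of the Gauss valuation of level `M q` is contained
in `k(j~(t^d) : d ∣ M)`. -/
theorem redField_le_fullC (hA : A.LiesOverPrime q) :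
    redField A (modularFunctionFieldBar (M * q)) (hSc A q M)
      ≤ modularFunctionFieldFullC (kV A) M := by
  have hq0 : NeZero q := neZero_of_mul_right q M
  have hM0 : NeZero M := neZero_of_mul_left q M
  have hqF : Fact q.Prime := ⟨hq⟩
  have hchar : CharP (kV A) q := charP_kV A hq hA
  have hqM : ¬ q ∣ M := q_not_dvd_M q M a b hab hq
  intro θ hθ
  by_contra hθE
  obtain ⟨bV, hb⟩ := hθ
  -- `j` in the Gauss valuation ring
  have hjm : (jdF (M * q) 1 (one_dvd _) : FN (M * q)) ∈ V1 A q M := by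
    show ((jdF (M * q) 1 (one_dvd _) : FN (M * q)) : LaurentSeries Kbar) ∈ gaussRingV A
    rw [coe_jdF_one]
    exact jqModC_mem_gaussRingV A
  set jV : ↥(V1 A q M) := ⟨jdF (M * q) 1 (one_dvd _), hjm⟩ with hjV
  have hjres : gaussResF A (hSc A q M) jV = jqModC (kV A) := by
    rw [gaussResF_apply]
    have e : (⟨((jV : FN (M * q)) : LaurentSeries Kbar), jV.2⟩ : gaussRingV A)
        = ⟨jqModC Kbar, jqModC_mem_gaussRingV A⟩ := Subtype.ext (coe_jdF_one (M * q))
    rw [e, gaussRedV_jqModC]
  -- the family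
  set y : Fin q × Fin 2 → ↥(V1 A q M) := fun p => jV ^ (p.1 : ℕ) * bV ^ (p.2 : ℕ) with hy
  have hyres : ∀ p, gaussResF A (hSc A q M) (y p)
      = jqModC (kV A) ^ (p.1 : ℕ) * θ ^ (p.2 : ℕ) := by
    intro p
    rw [hy]
    simp only [map_mul, map_pow, hjres, hb]
  have hum : ∀ p, wq q M a b hab hq ((y p : ↥(V1 A q M)) : FN (M * q)) ∈ V2 A q M a b hab hq := by
    intro p
    rw [wq_mem_V2_iff]
    exact (y p).2
  set u : Fin q × Fin 2 → ↥(V2 A q M a b hab hq) := fun p => ⟨_, hum p⟩ with hu
  have hures : ∀ p, red2LS q M a b hab hq A (u p)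
      = jqModC (kV A) ^ (p.1 : ℕ) * θ ^ (p.2 : ℕ) := by
    intro p
    rw [← hyres p]
    show gaussResF A (hSc A q M) (comapRestrict (V1 A q M) (wq q M a b hab hq) (u p)) = _
    congr 1
    apply Subtype.ext
    exact wq_wq q M a b hab hq _
  -- linear independence of the reductions
  have hκE : kapE q M A ≤ (modularFunctionFieldFullC (kV A) M).toSubfield := by
    rintro _ ⟨x, hx, rfl⟩
    exact Fr_mem_fullC (kV A) q M hx
  have hκF : kapE q M A ≤ FrRange (kV A) q := by
    rintro _ ⟨x, -, rfl⟩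
    exact (mem_FrRange_iff (kV A) q _).2 ⟨x, rfl⟩
  have hli0 := linearIndependent_jq_pow_mul (kV A) q (kapE q M A)
    (modularFunctionFieldFullC (kV A) M).toSubfield hκE hκF (jqModC_mem_full (kV A) M) hθE
  have hli1 : LinearIndependent (kapE q M A) (fun p => red2LS q M a b hab hq A (u p)) := by
    have e : (fun p => red2LS q M a b hab hq A (u p))
        = fun p : Fin q × Fin 2 => jqModC (kV A) ^ (p.1 : ℕ) * θ ^ (p.2 : ℕ) := funext hures
    rw [e]
    exact hli0
  -- `f ≤ n`
  have hli2 := linearIndependent_of_red (subM q M) (V2 A q M a b hab hq)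
    (red2LS q M a b hab hq A) (kapE q M A)
    (fun α hα hV => red2LS_mem_kapE q M a b hab hq A hA α hα hV) u hli1
  rw [Fintype.linearIndependent_iff] at hli2
  -- counting
  have hdeg := relfinrank_FM_FN q M hq hqM
  have hcard := card_le_relfinrank (modularFunctionFieldBar M) (modularFunctionFieldBar (M * q))
    (FM_le q M) (by rw [hdeg]; exact Nat.succ_ne_zero q)
    (fun p => (((u p : ↥(V2 A q M a b hab hq)) : FN (M * q)) : LaurentSeries Kbar))
    (fun p => ((u p : ↥(V2 A q M a b hab hq)) : FN (M * q)).2)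
    (by
      intro g hg hsum p
      have h1 := hli2 (fun p => (⟨⟨g p, FM_le q M (hg p)⟩, hg p⟩ : ↥(subM q M)))
        (Subtype.ext (by
          have h2 : ((∑ p, (⟨⟨g p, FM_le q M (hg p)⟩, hg p⟩ : ↥(subM q M))
              • ((u p : ↥(V2 A q M a b hab hq)) : FN (M * q)) : FN (M * q)) : LaurentSeries Kbar)
              = ∑ p, g p * (((u p : ↥(V2 A q M a b hab hq)) : FN (M * q)) : LaurentSeries Kbar) := by
            rw [← IntermediateField.coe_val, map_sum]
            exact Finset.sum_congr rfl (fun p _ => rfl)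
          rw [h2, hsum]
          rfl)) p
      exact congrArg (fun z : ↥(subM q M) => ((z : FN (M * q)) : LaurentSeries Kbar)) h1)
  rw [hdeg, Fintype.card_prod, Fintype.card_fin, Fintype.card_fin] at hcard
  have hq2 : 2 ≤ q := hq.two_le
  omega

/-- The easy inclusion: `k(j~(t^d) : d ∣ M)` is contained in the residue field of the Gauss
valuation of level `M q`. -/
theorem fullC_le_redField_bar :
    modularFunctionFieldFullC (kV A) M
      ≤ redField A (modularFunctionFieldBar (M * q)) (hSc A q M) := by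
  rw [modularFunctionFieldFullC, IntermediateField.adjoin_le_iff]
  rintro x ⟨d, hd0, hd, rfl⟩
  have hm : ((jdF (M * q) d (Dvd.dvd.mul_right hd q) : FN (M * q)) : LaurentSeries Kbar)
      ∈ gaussRingV A := by
    rw [coe_jdF]
    exact qExpand_jqModC_mem_gaussRingV A d
  refine ⟨⟨jdF (M * q) d (Dvd.dvd.mul_right hd q), hm⟩, ?_⟩
  rw [gaussResF_apply]
  have e : (⟨((jdF (M * q) d (Dvd.dvd.mul_right hd q) : FN (M * q)) : LaurentSeries Kbar), hm⟩ :
      gaussRingV A) = ⟨qExpand Kbar d (jqModC Kbar), qExpand_jqModC_mem_gaussRingV A d⟩ :=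
    Subtype.ext (coe_jdF (M * q) d (Dvd.dvd.mul_right hd q))
  exact (congrArg (gaussRedV A) e).trans (gaussRedV_qExpand_jqModC A d _)

include hab hq in
/-- **(D1)**: the residue field of the Gauss valuation of `F_{Mq} · Q̄` at a prime over `q ∤ M`
is `k(j~(t^d) : d ∣ M)`; in particular `d₁ = [F₁ : red₁ (F_M)] = 1`. -/
theorem redField_eq_fullC (hA : A.LiesOverPrime q) :
    redField A (modularFunctionFieldBar (M * q)) (hSc A q M)
      = modularFunctionFieldFullC (kV A) M :=
  le_antisymm (redField_le_fullC q M a b hab hq A hA) (fullC_le_redField_bar q M A)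

include hab hq in
/-- **(D1)**, second form: the residue fields of the Gauss valuations of levels `M q` and `M`
coincide. -/
theorem redField_eq_redField (hA : A.LiesOverPrime q) :
    redField A (modularFunctionFieldBar (M * q)) (hSc A q M)
      = redField A (modularFunctionFieldBar M) (hasScale_laurentBaseChange A M) := by
  have hM0 : NeZero M := neZero_of_mul_left q M
  rw [redField_eq_fullC q M a b hab hq A hA]
  exact (stmt_GA M q hq (q_not_dvd_M q M a b hab hq) A hA).symm

end Main



end Fermat.Agent.BAD.H82
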