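import Fermat.Agent.BAD.H17_Genus
import Fermat.Agent.BAD.H82_Deg

/-!
# BAD_q, leaf GENUS on `F₁` (helper17)

Transport of `BAD/H17_Genus.lean` along (D) (`H82.redField_eq_redField`): the residue field
`F₁` of the Gauss valuation of level `M q` is the residue field of level `M`.

* `isGenus_congr`, `ffHyp_congr` : transport along an equality of intermediate fields;
* `ffHyp_F1`, `exists_isGenus_F1`, `genusFormula_le_F1`;
* `genus_ineq_F1` : `g + 1 ≤ g₁ + g₁ + n` from NUM, in the form of `H91.modSSD_of_totData`.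
-/

set_option autoImplicit false
set_option linter.style.haveILetI false
set_option synthInstance.maxHeartbeats 400000
set_option maxHeartbeats 1000000

noncomputable section

open AlgebraicCurve ModularCurve IntermediateField
open Fermat.Agent.S28.H73 Fermat.Agent.RED.H73 Fermat.Agent.RED Fermat.Agent.S24
open Fermat.Agent.BAD.H88

namespace Fermat.Agent.BAD.H17

section Abs

variable {k X : Type} [Field k] [Field X] [Algebra k X]

/-- Transport of Riemann's theorem along an equality of intermediate fields. -/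
theorem isGenus_congr {E₁ E₂ : IntermediateField k X} (h : E₁ = E₂) {g : ℕ} {c : ℤ}
    (hg : RED.H17.IsGenus k ↥E₁ g c) : RED.H17.IsGenus k ↥E₂ g c := by
  subst h
  exact hg

/-- Transport of FF-B along an equality of intermediate fields. -/
theorem ffHyp_congr {E₁ E₂ : IntermediateField k X} (h : E₁ = E₂)
    (H : RED.H17.FFHyp k ↥E₁) : RED.H17.FFHyp k ↥E₂ := by
  subst h
  exact H

end Abs

section Mod

variable {A : ValuationSubring Kbar} {q M : ℕ} (a b : ℤ) (hab : a * q + b * M = 1)
  (hq : q.Prime) [NeZero M] [NeZero (M * q)] (hA : A.LiesOverPrime q)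
  (hqM : ¬ q ∣ M) (ht : H91.TameAt M q)

include hab hq hA hqM ht

/-- FF-B for the residue field `F₁` of level `M q`. -/
theorem ffHyp_F1 : RED.H17.FFHyp (kV A) (F1 A q M) :=
  ffHyp_congr (H82.redField_eq_redField q M a b hab hq A hA).symm (ffHyp_redM hq hqM ht hA)

/-- Riemann's theorem for `F₁`. -/
theorem exists_isGenus_F1 : ∃ (g₁ : ℕ) (c₁ : ℤ), RED.H17.IsGenus (kV A) (F1 A q M) g₁ c₁ := by
  obtain ⟨g₁, c₁, h⟩ := exists_isGenus_redM (A := A) hq hqM ht hA
  exact ⟨g₁, c₁, isGenus_congr (H82.redField_eq_redField q M a b hab hq A hA).symm h⟩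

/-- The Riemann genus of `F₁` is at least `genusFormula M`. -/
theorem genusFormula_le_F1 {g₁ : ℕ} {c₁ : ℤ}
    (hg₁ : RED.H17.IsGenus (kV A) (F1 A q M) g₁ c₁) : genusFormula M ≤ (g₁ : ℚ) :=
  genusFormula_le_redM hq hqM ht hA
    (isGenus_congr (H82.redField_eq_redField q M a b hab hq A hA) hg₁)

/-- **GENUS** in the form consumed by `H91.modSSD_of_totData`. -/
theorem genus_ineq_F1 {g : ℕ} {c : ℤ} (hg : RED.H17.IsGenus Kbar (FN (M * q)) g c)
    {g₁ : ℕ} {c₁ : ℤ} (hg₁ : RED.H17.IsGenus (kV A) (F1 A q M) g₁ c₁) (n : ℕ)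
    (hnum : genusFormula (M * q) + 1 ≤ 2 * genusFormula M + (n : ℚ)) :
    g + 1 ≤ g₁ + g₁ + n :=
  genus_ineq hq hqM ht hA hg
    (isGenus_congr (H82.redField_eq_redField q M a b hab hq A hA) hg₁) n hnum

end Mod

end Fermat.Agent.BAD.H17
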