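import Fermat.Agent.BAD.H28_Skel

/-!
# Item 65, package ABS, leaf `Stmt_Pivot` (helper17): pivots at places with two valuations

`stmt_Pivot : Stmt_Pivot`: the reduction `S.Rsub ϑ D` of the unit ball of `L(D)` for the norms
`|h|₁`, `|ϑ h|₂` has dimension at least `l(D)`.

Proof (route C, "pivots at places"): scale `u ∈ L(D)` to `max (|u|₁, |ϑ u|₂) = 1`; on the
component where the scaled element is a unit choose a general good point `Q` and a place `P`
over `Q`; then `u ∉ L(D - P)`, and the reduction of `u` is not in the reduction of `L(D - P)`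
(whose elements vanish at `Q`).
-/

set_option autoImplicit false
set_option linter.style.haveILetI false
set_option maxHeartbeats 1000000

noncomputable section

open AlgebraicCurve

attribute [local instance] Classical.propDecidable

namespace Fermat.Agent.BAD.H17

open Fermat.Agent.RED.H17 Fermat.Agent.RED Fermat.Agent.BAD

local notation "L" => riemannRochSpace

section Step

variable {K F k F' : Type*} [Field K] [Field F] [Algebra K F] [Field k] [Field F']
  [Algebra k F']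

/-- **The pivot step** on one component. -/
theorem pivot_step (c : PRed K F k F') (H : FFHyp K F) (H' : FFHyp k F') [Infinite k]
    (B : Finset (Place k F')) (hB : ∀ Q, Q ∉ B → Q ∈ c.good) {θ : F} (hθ : θ ≠ 0)
    (D : Divisor K F) {u : F} (hu : u ∈ L D) (hGU : c.IsGU (θ * u)) :
    ∃ P : Place K F, P.ord u = 0 ∧ D P = 0 ∧
      ∀ h : F, h ∈ L (D - Finsupp.single P 1) → θ * h ∈ c.V → c.rd (θ * h) ≠ c.rd (θ * u) := by
  have hP := H.principal
  have hu0 : u ≠ 0 := fun h0 => hGU.ne_zero (by rw [h0, mul_zero])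
  obtain ⟨Q, hQ⟩ := H'.exists_notMem
    (B ∪ (dv H'.principal (c.rd (θ * u))).support ∪ (D.support.image c.r).eraseNone ∪
      ((dv hP θ).support.image c.r).eraseNone)
  simp only [Finset.mem_union, not_or] at hQ
  obtain ⟨⟨⟨hQB, hQ2⟩, hQ3⟩, hQ4⟩ := hQ
  have hQg : Q ∈ c.good := hB Q hQB
  have hQ2' : Q.ord (c.rd (θ * u)) = 0 := by
    rw [Finsupp.notMem_support_iff, dv_apply] at hQ2
    exact hQ2
  have hQ3' : ∀ P', c.r P' = some Q → D P' = 0 := by
    intro P' hP'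
    by_contra hne
    apply hQ3
    rw [Finset.mem_eraseNone, Finset.mem_image]
    exact ⟨P', Finsupp.mem_support_iff.mpr hne, hP'⟩
  have hQ4' : ∀ P', c.r P' = some Q → P'.ord θ = 0 := by
    intro P' hP'
    by_contra hne
    apply hQ4
    rw [Finset.mem_eraseNone, Finset.mem_image]
    exact ⟨P', by rw [Finsupp.mem_support_iff, dv_apply]; exact hne, hP'⟩
  obtain ⟨P, hPQ⟩ := c.r_surjective hP Q hQg
  have hreg : ∀ P', c.r P' = some Q → 0 ≤ P'.ord (θ * u) := by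
    intro P' hP'
    have := ord_ge_of_mem_L hu hu0 P'
    rw [P'.ord_mul hθ hu0, hQ4' P' hP']
    rw [hQ3' P' hP'] at this
    omega
  have hPu : P.ord (θ * u) = 0 := c.ord_eq_zero_of_ord_rd_eq_zero hP hGU Q hQg hreg hQ2' hPQ
  rw [P.ord_mul hθ hu0, hQ4' P hPQ, zero_add] at hPu
  refine ⟨P, hPu, hQ3' P hPQ, fun h hh hθh heq => ?_⟩
  have hGUh : c.IsGU (θ * h) := ⟨hθh, by rw [heq]; exact hGU.2⟩
  have hh0 : h ≠ 0 := fun h0 => hGUh.ne_zero (by rw [h0, mul_zero])
  have hregh : ∀ P', c.r P' = some Q → 0 ≤ P'.ord (θ * h) := by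
    intro P' hP'
    have := ord_ge_of_mem_L hh hh0 P'
    rw [Finsupp.sub_apply, hQ3' P' hP', Finsupp.single_apply] at this
    rw [P'.ord_mul hθ hh0, hQ4' P' hP']
    split_ifs at this <;> omega
  have h1 := c.ord_le_ord_rd hP hGUh Q hQg hregh hPQ
  have h2 := ord_ge_of_mem_L hh hh0 P
  rw [Finsupp.sub_apply, hQ3' P hPQ, Finsupp.single_eq_same] at h2
  rw [heq, hQ2', P.ord_mul hθ hh0, hQ4' P hPQ] at h1
  omega

end Step

section Main

variable {K F k F₁ F₂ : Type*} [Field K] [Field F] [Algebra K F] [Field k] [Field F₁]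
  [Algebra k F₁] [Field F₂] [Algebra k F₂] (S : SSD K F k F₁ F₂)

theorem Rsub_mono (ϑ : F) {D D' : Divisor K F} (h : ∀ v, D v ≤ D' v) :
    S.Rsub ϑ D ≤ S.Rsub ϑ D' := by
  rintro ψ ⟨u, huD, h1, h2, e1, e2⟩
  exact ⟨u, L_mono' h huD, h1, h2, e1, e2⟩

/-- Scaling for the pair of norms `|u|₁`, `|ϑ u|₂`. -/
theorem exists_scale_pair {ϑ : F} (hϑ : ϑ ≠ 0) {u₀ : F} (hu₀ : u₀ ≠ 0) :
    ∃ c : K, c ≠ 0 ∧ algebraMap K F c * u₀ ∈ S.c₁.V ∧ ϑ * (algebraMap K F c * u₀) ∈ S.c₂.V ∧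
      (S.c₁.IsGU (algebraMap K F c * u₀) ∨ S.c₂.IsGU (ϑ * (algebraMap K F c * u₀))) := by
  obtain ⟨a₁, ha₁, hG₁⟩ := S.c₁.exists_isGU_scale hu₀
  obtain ⟨a₂, ha₂, hG₂⟩ := S.c₂.exists_isGU_scale (mul_ne_zero hϑ hu₀)
  have hF₁ : algebraMap K F a₁ ≠ 0 := (map_ne_zero_iff _ (algebraMap K F).injective).mpr ha₁
  have hF₂ : algebraMap K F a₂ ≠ 0 := (map_ne_zero_iff _ (algebraMap K F).injective).mpr ha₂
  rcases S.c₁.const_mem_or_inv_mem (a₁ / a₂) with he | he
  · -- `|a₁| ≤ |a₂|`: scale by `a₁`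
    refine ⟨a₁, ha₁, hG₁.1, ?_, Or.inl hG₁⟩
    have e : ϑ * (algebraMap K F a₁ * u₀)
        = algebraMap K F (a₁ / a₂) * (algebraMap K F a₂ * (ϑ * u₀)) := by
      rw [map_div₀]
      field_simp
    rw [e]
    exact S.c₂.V.mul_mem _ _ ((S.const_mem _).mp he) hG₂.1
  · -- `|a₂| ≤ |a₁|`: scale by `a₂`
    have e2 : ϑ * (algebraMap K F a₂ * u₀) = algebraMap K F a₂ * (ϑ * u₀) := by ring
    refine ⟨a₂, ha₂, ?_, by rw [e2]; exact hG₂.1, Or.inr (by rw [e2]; exact hG₂)⟩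
    have e : algebraMap K F a₂ * u₀ = algebraMap K F (a₁ / a₂)⁻¹ * (algebraMap K F a₁ * u₀) := by
      rw [map_inv₀, map_div₀]
      field_simp
    rw [e]
    exact S.c₁.V.mul_mem _ _ he hG₁.1

theorem good₁_of_notMem {Q : Place k F₁} (hQ : Q ∉ S.br₁) : Q ∈ S.c₁.good := by
  rw [S.good₁]
  intro s hs hsQ
  apply hQ
  rw [SSD.br₁, Finset.mem_image]
  exact ⟨s, hs, hsQ⟩

theorem good₂_of_notMem {Q : Place k F₂} (hQ : Q ∉ S.br₂) : Q ∈ S.c₂.good := by
  rw [S.good₂]
  intro s hs hsQ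
  apply hQ
  rw [SSD.br₂, Finset.mem_image]
  exact ⟨s, hs, hsQ⟩

/-- **Twisted pivot.** -/
theorem pivot (H : FFHyp K F) (H₁ : FFHyp k F₁) (H₂ : FFHyp k F₂) [Infinite k] {ϑ : F}
    (hϑ : ϑ ≠ 0) :
    ∀ (n : ℕ) (D : Divisor K F), Module.Finite k (S.Rsub ϑ D) → Module.finrank K (L D) = n →
      n ≤ Module.finrank k (S.Rsub ϑ D) := by
  intro n
  induction n with
  | zero => intro D _ _; exact Nat.zero_le _
  | succ n ih =>
    intro D hfin hD
    haveI := H.finite D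
    have hne : L D ≠ ⊥ := by
      intro hbot
      rw [hbot, finrank_bot] at hD
      omega
    obtain ⟨u₀, hu₀, hu₀0⟩ := (Submodule.ne_bot_iff _).mp hne
    obtain ⟨c, hc, hu1, hu2, hcase⟩ := exists_scale_pair S hϑ hu₀0
    set u := algebraMap K F c * u₀ with hu
    have huD : u ∈ L D := by
      rw [hu, ← Algebra.smul_def]
      exact (L D).smul_mem c hu₀
    have hmemD : ((S.c₁.rd u, S.c₂.rd (ϑ * u)) : F₁ × F₂) ∈ S.Rsub ϑ D :=
      ⟨u, huD, hu1, hu2, rfl, rfl⟩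
    -- the pivot
    have hpiv : ∃ P : Place K F, P.ord u = 0 ∧ D P = 0 ∧
        ((S.c₁.rd u, S.c₂.rd (ϑ * u)) : F₁ × F₂) ∉ S.Rsub ϑ (D - Finsupp.single P 1) := by
      rcases hcase with hG | hG
      · have hG' : S.c₁.IsGU (1 * u) := by rw [one_mul]; exact hG
        obtain ⟨P, h1, h2, h3⟩ := pivot_step S.c₁ H H₁ S.br₁
          (fun Q hQ => good₁_of_notMem S hQ) one_ne_zero D huD hG'
        refine ⟨P, h1, h2, ?_⟩
        rintro ⟨h, hhD, hh1, -, e1, -⟩
        refine h3 h hhD (by rw [one_mul]; exact hh1) ?_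
        rw [one_mul, one_mul]
        exact e1
      · obtain ⟨P, h1, h2, h3⟩ := pivot_step S.c₂ H H₂ S.br₂
          (fun Q hQ => good₂_of_notMem S hQ) hϑ D huD hG
        refine ⟨P, h1, h2, ?_⟩
        rintro ⟨h, hhD, -, hh2, -, e2⟩
        exact h3 h hhD hh2 e2
    obtain ⟨P, hPu, hDP, hnot⟩ := hpiv
    set D' : Divisor K F := D - Finsupp.single P 1 with hD'
    have hD'D : D' + Finsupp.single P 1 = D := sub_add_cancel _ _
    have hD'le : ∀ v, D' v ≤ D v := by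
      intro v
      rw [hD', Finsupp.sub_apply, Finsupp.single_apply]
      split_ifs <;> omega
    have hle : L D' ≤ L D := L_mono' hD'le
    have hu0 : u ≠ 0 := by
      rw [hu]
      exact mul_ne_zero ((map_ne_zero_iff _ (algebraMap K F).injective).mpr hc) hu₀0
    have hnotL : u ∉ L D' := by
      intro hmem
      have := ord_ge_of_mem_L hmem hu0 P
      rw [hD', Finsupp.sub_apply, hDP, Finsupp.single_eq_same, hPu] at this
      omega
    have hlt : L D' < L D := lt_of_le_of_ne hle (fun heq => hnotL (heq ▸ huD))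
    have h1 := Submodule.finrank_lt_finrank_of_lt hlt
    have h2 := H.finrank_add_single_le D' P
    rw [hD'D] at h2
    have hn : Module.finrank K (L D') = n := by omega
    have hRle : S.Rsub ϑ D' ≤ S.Rsub ϑ D := Rsub_mono S ϑ hD'le
    haveI : Module.Finite k (S.Rsub ϑ D') := Submodule.finiteDimensional_of_le hRle
    have h3 := ih D' inferInstance hn
    have hRlt : S.Rsub ϑ D' < S.Rsub ϑ D :=
      lt_of_le_of_ne hRle (fun heq => hnot (heq ▸ hmemD))
    have h4 := Submodule.finrank_lt_finrank_of_lt hRlt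
    omega

end Main

/-- **Leaf `Stmt_Pivot`.** -/
theorem stmt_Pivot : Stmt_Pivot := by
  intro K F k F₁ F₂ _ _ _ _ _ _ _ _ _ S H H₁ H₂ ϑ hϑ D hfin
  exact pivot S H H₁ H₂ hϑ _ D hfin rfl

end Fermat.Agent.BAD.H17
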