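import Fermat.Agent.BAD.H21_SSHasse
import Fermat.Agent.S16.H41_Hev
import Mathlib.Algebra.MvPolynomial.Division

/-!
# The supersingular polynomial (BAD_q / NUM / (SS), module D; helper21)

`F` is a field in which `1728 ≠ 0`.  In `F[Q, R]` put `U = Q³`, `V = (Q³ - R²) / 1728`.
An isobaric polynomial `A` of weight `12 m + 4 a + 6 b` (`a < 3`, `b < 2`) is
`Q^a R^b * hev U V m g` for a polynomial `g ∈ F[X]` of degree `≤ m`
(`hev` = homogeneous evaluation, helper41).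
-/

set_option autoImplicit false

noncomputable section

namespace Fermat.Agent.BAD.H21

open Polynomial
open Fermat.Agent.S16.H70 Fermat.Agent.S16.H41

section Decomp

variable (F : Type*) [Field F]

/-- `U = Q³`. -/
def H21_U : MvPolynomial (Fin 2) F := MvPolynomial.X 0 ^ 3

/-- `V = (Q³ - R²) / 1728`. -/
def H21_V : MvPolynomial (Fin 2) F := MvPolynomial.C ((1728 : F)⁻¹) * Dp

variable {F}

lemma H21_U_sub_V (h1728 : (1728 : F) ≠ 0) :
    H21_U F - MvPolynomial.C (1728 : F) * H21_V F = MvPolynomial.X 1 ^ 2 := by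
  rw [H21_U, H21_V, ← mul_assoc, ← map_mul, mul_inv_cancel₀ h1728, map_one, one_mul, Dp]
  ring

lemma H21_hev_X_sub (h1728 : (1728 : F) ≠ 0) :
    hev (H21_U F) (H21_V F) 1 (X - C (1728 : F)) = MvPolynomial.X 1 ^ 2 := by
  rw [hev_X_sub_C, ← H21_U_sub_V h1728]
  rfl

lemma H21_hev_mono (h1728 : (1728 : F) ≠ 0) (r : F) (i j : ℕ) :
    hev (H21_U F) (H21_V F) (i + j) (C r * (X ^ i * (X - C (1728 : F)) ^ j)) =
      MvPolynomial.C r * (MvPolynomial.X 0 ^ (3 * i) * MvPolynomial.X 1 ^ (2 * j)) := by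
  have h1 : (X ^ i : F[X]).natDegree ≤ i := natDegree_X_pow_le i
  have h2 : ((X - C (1728 : F)) ^ j : F[X]).natDegree ≤ j := by
    refine natDegree_pow_le.trans ?_
    rw [natDegree_X_sub_C, mul_one]
  have h3 : (X - C (1728 : F) : F[X]).natDegree ≤ 1 := by rw [natDegree_X_sub_C]
  have h4 : (X : F[X]).natDegree ≤ 1 := by rw [natDegree_X]
  rw [hev_C_mul, hev_mul _ _ h1 h2]
  have e1 : hev (H21_U F) (H21_V F) i (X ^ i : F[X]) = H21_U F ^ i := by
    have := hev_pow (H21_U F) (H21_V F) h4 i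
    rw [one_mul, hev_X] at this
    exact this
  have e2 : hev (H21_U F) (H21_V F) j ((X - C (1728 : F)) ^ j : F[X]) =
      (MvPolynomial.X 1 ^ 2) ^ j := by
    have := hev_pow (H21_U F) (H21_V F) h3 j
    rw [one_mul, H21_hev_X_sub h1728] at this
    exact this
  rw [e1, e2, H21_U, ← pow_mul, ← pow_mul]
  rfl

/-- **Decomposition** of an isobaric polynomial. -/
theorem H21_decomp (h1728 : (1728 : F) ≠ 0) {m a b : ℕ} (ha : a < 3) (hb : b < 2)
    {A : MvPolynomial (Fin 2) F}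
    (hA : MvPolynomial.IsWeightedHomogeneous wQR A (12 * m + 4 * a + 6 * b)) :
    ∃ g : F[X], g.natDegree ≤ m ∧
      A = MvPolynomial.X 0 ^ a * MvPolynomial.X 1 ^ b * hev (H21_U F) (H21_V F) m g := by
  induction hA using MvPolynomial.IsWeightedHomogeneous.induction_on with
  | zero => exact ⟨0, by simp, by simp⟩
  | add p q hp hq ihp ihq =>
    obtain ⟨g₁, hg₁, e₁⟩ := ihp
    obtain ⟨g₂, hg₂, e₂⟩ := ihq
    refine ⟨g₁ + g₂, (natDegree_add_le _ _).trans (max_le hg₁ hg₂), ?_⟩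
    rw [hev_add, mul_add, ← e₁, ← e₂]
  | monomial d r hr =>
    rw [weight_fin_two] at hr
    obtain ⟨i, hi⟩ : ∃ i, d 0 = a + 3 * i := ⟨(d 0 - a) / 3, by omega⟩
    obtain ⟨j, hj⟩ : ∃ j, d 1 = b + 2 * j := ⟨(d 1 - b) / 2, by omega⟩
    have hij : i + j = m := by omega
    subst hij
    refine ⟨C r * (X ^ i * (X - C (1728 : F)) ^ j), ?_, ?_⟩
    · refine (natDegree_C_mul_le _ _).trans ?_
      refine natDegree_mul_le.trans ?_
      refine add_le_add (natDegree_X_pow_le i) ?_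
      refine natDegree_pow_le.trans ?_
      rw [natDegree_X_sub_C, mul_one]
    · rw [H21_hev_mono h1728, monomial_fin_two, hi, hj]
      ring

end Decomp

section Weights

variable {F : Type*} [Field F]

lemma H21_isWH_U : MvPolynomial.IsWeightedHomogeneous wQR (H21_U F) 12 :=
  isWH_of_eq (isWH_X0.pow 3) (by simp)

lemma H21_isWH_V : MvPolynomial.IsWeightedHomogeneous wQR (H21_V F) 12 :=
  isWH_of_eq (isWH_Dp.C_mul _) rfl

/-- `hev U V n p` is isobaric of weight `12 n`. -/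
lemma H21_isWH_hev (n : ℕ) (p : F[X]) :
    MvPolynomial.IsWeightedHomogeneous wQR (hev (H21_U F) (H21_V F) n p) (12 * n) := by
  rw [hev_eq_sum]
  refine MvPolynomial.IsWeightedHomogeneous.sum _ _ _ ?_
  rintro ⟨i, l⟩ hil
  rw [Finset.mem_antidiagonal] at hil
  have := ((H21_isWH_U (F := F)).pow i).mul ((H21_isWH_V (F := F)).pow l)
  have h2 := isWH_of_eq this (k' := 12 * n) (by simp only [smul_eq_mul]; simp at hil; omega)
  exact h2.C_mul _

lemma H21_eps_U : H21_eps F (H21_U F) = H21_Qb F ^ 3 := by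
  simp [H21_eps, H21_U]

lemma H21_eps_V (h1728 : (1728 : F) ≠ 0) : H21_eps F (H21_V F) = H21_Db F := by
  rw [H21_V, map_mul, H21_eps_Dp]
  have hC : H21_eps F (MvPolynomial.C ((1728 : F)⁻¹)) = PowerSeries.C ((1728 : F)⁻¹) := by
    simp [H21_eps]
  rw [hC, ← mul_assoc, ← map_mul, inv_mul_cancel₀ h1728, map_one, one_mul]

/-- Naturality of `hev` under `ε`. -/
lemma H21_eps_hev (h1728 : (1728 : F) ≠ 0) (n : ℕ) (p : F[X]) :
    H21_eps F (hev (H21_U F) (H21_V F) n p) = hev (H21_Qb F ^ 3) (H21_Db F) n p := by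
  rw [hev, hev, MvPolynomial.comp_aeval_apply]
  congr 2
  funext i
  fin_cases i
  · simpa using H21_eps_U
  · simpa using H21_eps_V h1728

lemma H21_constantCoeff_Qb_cube : PowerSeries.constantCoeff (H21_Qb F ^ 3) = 1 := by
  rw [map_pow, H21_constantCoeff_Qb, one_pow]

/-- `hev U V n` is injective on polynomials of degree `≤ n`. -/
lemma H21_hev_ne_zero (h1728 : (1728 : F) ≠ 0) {n : ℕ} {p : F[X]} (hp : p.natDegree ≤ n)
    (hp0 : p ≠ 0) : hev (H21_U F) (H21_V F) n p ≠ 0 := by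
  intro h
  have h2 := congrArg (H21_eps F) h
  rw [H21_eps_hev h1728, map_zero] at h2
  exact hp0 (eq_zero_of_hev_eq_zero H21_constantCoeff_Qb_cube H21_constantCoeff_Db
    H21_Db_ne_zero n p hp h2)

/-- `hev U V r p` is not a unit when `r ≥ 1` and `p ≠ 0`. -/
lemma H21_hev_not_isUnit (h1728 : (1728 : F) ≠ 0) {r : ℕ} (hr : 0 < r) {p : F[X]}
    (hp : p.natDegree ≤ r) (hp0 : p ≠ 0) : ¬ IsUnit (hev (H21_U F) (H21_V F) r p) := by
  intro hu
  obtain ⟨B, hB⟩ := hu.exists_right_inv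
  have h1 : MvPolynomial.IsWeightedHomogeneous wQR (hev (H21_U F) (H21_V F) r p * B) 0 :=
    hB ▸ MvPolynomial.isWeightedHomogeneous_one F wQR
  obtain ⟨a, b, hab, ha, _⟩ := isWH_of_mul h1 (hB ▸ one_ne_zero)
  have := weight_unique (H21_hev_ne_zero h1728 hp hp0) ha (H21_isWH_hev r p)
  omega

end Weights

section Sqf

variable {F : Type*} [Field F]

/-- The hypotheses on `(A, g)`: `A = Q^a R^b hev U V m g` is squarefree with `ε A = 1`. -/
structure H21_SSData (F : Type*) [Field F] (m a b : ℕ) where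
  A : MvPolynomial (Fin 2) F
  g : F[X]
  h1728 : (1728 : F) ≠ 0
  hg : g.natDegree ≤ m
  hAg : A = MvPolynomial.X 0 ^ a * MvPolynomial.X 1 ^ b * hev (H21_U F) (H21_V F) m g
  hsq : ∀ π : MvPolynomial (Fin 2) F, Prime π → ¬ π ^ 2 ∣ A
  hA1 : H21_eps F A = 1

namespace H21_SSData

variable {m a b : ℕ} (d : H21_SSData F m a b)

lemma A_ne_zero : d.A ≠ 0 := by
  intro h
  have := d.hA1
  rw [h, map_zero] at this
  exact zero_ne_one this

lemma g_ne_zero : d.g ≠ 0 := by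
  intro h
  apply d.A_ne_zero
  rw [d.hAg, h, hev_zero, mul_zero]

include d in
lemma a_le_one : a ≤ 1 := by
  by_contra h
  apply d.hsq (MvPolynomial.X 0) MvPolynomial.X_prime
  rw [d.hAg]
  have : (MvPolynomial.X 0 : MvPolynomial (Fin 2) F) ^ 2 ∣ MvPolynomial.X 0 ^ a :=
    pow_dvd_pow _ (by omega)
  exact Dvd.dvd.mul_right (Dvd.dvd.mul_right this _) _

include d in
lemma b_le_one : b ≤ 1 := by
  by_contra h
  apply d.hsq (MvPolynomial.X 1) MvPolynomial.X_prime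
  rw [d.hAg]
  have : (MvPolynomial.X 1 : MvPolynomial (Fin 2) F) ^ 2 ∣ MvPolynomial.X 1 ^ b :=
    pow_dvd_pow _ (by omega)
  exact Dvd.dvd.mul_right (Dvd.dvd.mul_left this _) _

/-- The degree of `g` is exactly `m` (otherwise `Δ ∣ A`). -/
lemma natDegree_g : d.g.natDegree = m := by
  by_contra hne
  have hlt : d.g.natDegree < m := lt_of_le_of_ne d.hg hne
  obtain ⟨n, rfl⟩ : ∃ n, m = n + 1 := ⟨m - 1, by omega⟩
  have hn : d.g.natDegree ≤ n := by omega
  have h1 := d.hA1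
  rw [d.hAg, hev_succ _ _ hn, ← mul_assoc, map_mul, H21_eps_V d.h1728] at h1
  have h2 := congrArg PowerSeries.constantCoeff h1
  rw [map_mul, H21_constantCoeff_Db, mul_zero, map_one] at h2
  exact zero_ne_one h2

/-- A root `c` of `g` gives the factor `hev U V 1 (X - c) = U - c V` of `A`. -/
lemma dvd_of_isRoot {c : F} (hc : d.g.IsRoot c) :
    hev (H21_U F) (H21_V F) 1 (X - C c) ∣ d.A := by
  obtain ⟨g₁, hg₁⟩ := (dvd_iff_isRoot.mpr hc)
  have hg0 := d.g_ne_zero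
  have hg₁0 : g₁ ≠ 0 := by
    rintro rfl
    rw [mul_zero] at hg₁
    exact hg0 hg₁
  have hdeg : d.g.natDegree = 1 + g₁.natDegree := by
    rw [hg₁, natDegree_mul (X_sub_C_ne_zero c) hg₁0, natDegree_X_sub_C]
  obtain ⟨n, rfl⟩ : ∃ n, m = 1 + n := ⟨m - 1, by have := d.hg; omega⟩
  have hn : g₁.natDegree ≤ n := by have := d.hg; omega
  rw [d.hAg, hg₁, hev_mul _ _ (by rw [natDegree_X_sub_C]) hn]
  exact Dvd.dvd.mul_left (Dvd.intro _ rfl) _

lemma not_isRoot_zero : ¬ d.g.IsRoot 0 := by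
  intro h
  have h1 := d.dvd_of_isRoot h
  rw [hev_X_sub_C, map_zero, zero_mul, sub_zero] at h1
  apply d.hsq (MvPolynomial.X 0) MvPolynomial.X_prime
  refine dvd_trans ?_ h1
  rw [H21_U]
  exact pow_dvd_pow _ (by norm_num)

lemma not_isRoot_1728 : ¬ d.g.IsRoot 1728 := by
  intro h
  have h1 := d.dvd_of_isRoot h
  rw [H21_hev_X_sub d.h1728] at h1
  exact d.hsq (MvPolynomial.X 1) MvPolynomial.X_prime h1

/-- **`g` is squarefree.** -/
lemma squarefree_g : Squarefree d.g := by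
  intro x hx
  by_contra hxu
  obtain ⟨h, hh⟩ := hx
  have hg0 := d.g_ne_zero
  have hx0 : x ≠ 0 := by
    rintro rfl
    rw [zero_mul, zero_mul] at hh
    exact hg0 hh
  have hh0 : h ≠ 0 := by
    rintro rfl
    rw [mul_zero] at hh
    exact hg0 hh
  have hr : 0 < x.natDegree := by
    rw [Nat.pos_iff_ne_zero]
    intro h0
    apply hxu
    rw [Polynomial.isUnit_iff]
    refine ⟨x.coeff 0, ?_, (Polynomial.eq_C_of_natDegree_eq_zero h0).symm⟩
    rw [isUnit_iff_ne_zero]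
    intro hc
    apply hx0
    rw [Polynomial.eq_C_of_natDegree_eq_zero h0, hc, map_zero]
  have hdeg : d.g.natDegree = x.natDegree + x.natDegree + h.natDegree := by
    rw [hh, natDegree_mul (mul_ne_zero hx0 hx0) hh0, natDegree_mul hx0 hx0]
  obtain ⟨n, hn⟩ : ∃ n, m = x.natDegree + x.natDegree + n :=
    ⟨m - (x.natDegree + x.natDegree), by have := d.hg; omega⟩
  have hhn : h.natDegree ≤ n := by have := d.hg; omega
  have hxx : (x * x).natDegree ≤ x.natDegree + x.natDegree := natDegree_mul_le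
  have e : hev (H21_U F) (H21_V F) m d.g =
      hev (H21_U F) (H21_V F) x.natDegree x * hev (H21_U F) (H21_V F) x.natDegree x *
        hev (H21_U F) (H21_V F) n h := by
    have e1 : hev (H21_U F) (H21_V F) m d.g =
        hev (H21_U F) (H21_V F) (x.natDegree + x.natDegree + n) (x * x * h) := by
      rw [← hn, ← hh]
    rw [e1, hev_mul _ _ hxx hhn, hev_mul _ _ le_rfl le_rfl]
  set P := hev (H21_U F) (H21_V F) x.natDegree x with hP
  have hPnu : ¬ IsUnit P := H21_hev_not_isUnit d.h1728 hr le_rfl hx0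
  have hP0 : P ≠ 0 := H21_hev_ne_zero d.h1728 le_rfl hx0
  obtain ⟨π, hπi, hπP⟩ := WfDvdMonoid.exists_irreducible_factor hPnu hP0
  have hπ : Prime π := UniqueFactorizationMonoid.irreducible_iff_prime.mp hπi
  apply d.hsq π hπ
  rw [d.hAg, e, pow_two]
  exact Dvd.dvd.mul_left (Dvd.dvd.mul_right (mul_dvd_mul hπP hπP) _) _

/-- The supersingular polynomial `H = X^{4a} (X - 1728)^{6b} g^{12}`. -/
def H : F[X] := X ^ (4 * a) * (X - C (1728 : F)) ^ (6 * b) * d.g ^ 12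

lemma natDegree_H_le : d.H.natDegree ≤ 12 * m + 4 * a + 6 * b := by
  rw [H]
  refine natDegree_mul_le.trans ?_
  have h1 : (X ^ (4 * a) * (X - C (1728 : F)) ^ (6 * b) : F[X]).natDegree ≤ 4 * a + 6 * b := by
    refine natDegree_mul_le.trans (add_le_add (natDegree_X_pow_le _) ?_)
    refine natDegree_pow_le.trans ?_
    rw [natDegree_X_sub_C, mul_one]
  have h2 : (d.g ^ 12).natDegree ≤ 12 * m := by
    refine natDegree_pow_le.trans ?_
    exact Nat.mul_le_mul_left 12 d.hg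
  omega

/-- `hev U V (ℓ - 1) H = A ^ 12` in `F[Q, R]`. -/
lemma hev_H : hev (H21_U F) (H21_V F) (12 * m + 4 * a + 6 * b) d.H = d.A ^ 12 := by
  have h1 : (X ^ (4 * a) * (X - C (1728 : F)) ^ (6 * b) : F[X]).natDegree ≤ 4 * a + 6 * b := by
    refine natDegree_mul_le.trans (add_le_add (natDegree_X_pow_le _) ?_)
    refine natDegree_pow_le.trans ?_
    rw [natDegree_X_sub_C, mul_one]
  have h2 : (d.g ^ 12).natDegree ≤ m * 12 := by
    refine natDegree_pow_le.trans ?_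
    rw [mul_comm]
    exact Nat.mul_le_mul_right 12 d.hg
  have e0 : 12 * m + 4 * a + 6 * b = (4 * a + 6 * b) + m * 12 := by ring
  have e1 := H21_hev_mono d.h1728 1 (4 * a) (6 * b)
  rw [map_one, one_mul, map_one, one_mul] at e1
  rw [e0, H, hev_mul _ _ h1 h2, hev_pow _ _ d.hg, e1]
  conv_rhs => rw [d.hAg]
  ring

/-- **The supersingular identity** `∑ Hᵢ (Ẽ₄³)ⁱ Δ̃^{ℓ-1-i} = 1`, i.e. `H(j̃) = Δ̃^{1-ℓ}`. -/
theorem hev_H_series :
    hev (H21_Qb F ^ 3) (H21_Db F) (12 * m + 4 * a + 6 * b) d.H = 1 := by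
  rw [← H21_eps_hev d.h1728, d.hev_H, map_pow, d.hA1, one_pow]

lemma isRoot_H_iff (x : F) :
    d.H.IsRoot x ↔ (a ≠ 0 ∧ x = 0) ∨ (b ≠ 0 ∧ x = 1728) ∨ d.g.IsRoot x := by
  have hx4 : x ^ (4 * a) = 0 ↔ (a ≠ 0 ∧ x = 0) := by
    rcases Nat.eq_zero_or_pos a with rfl | ha
    · simp
    · rw [pow_eq_zero_iff (by omega)]
      exact ⟨fun h => ⟨by omega, h⟩, fun h => h.2⟩
  have hx6 : (x - 1728) ^ (6 * b) = 0 ↔ (b ≠ 0 ∧ x = 1728) := by
    rcases Nat.eq_zero_or_pos b with rfl | hb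
    · simp
    · rw [pow_eq_zero_iff (by omega), sub_eq_zero]
      exact ⟨fun h => ⟨by omega, h⟩, fun h => h.2⟩
  have hg12 : (eval x d.g) ^ 12 = 0 ↔ d.g.IsRoot x := pow_eq_zero_iff (by norm_num)
  simp only [H, IsRoot.def, eval_mul, eval_pow, eval_sub, eval_X, eval_C, mul_eq_zero, hx4, hx6]
  rw [hg12, or_assoc]
  rfl

section Closed

open Classical

/-- The set of supersingular `j`-invariants. -/
def SS : Finset F :=
  d.g.roots.toFinset ∪ ((if a = 0 then ∅ else {0}) ∪ (if b = 0 then ∅ else {1728}))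

lemma mem_SS_iff (x : F) : x ∈ d.SS ↔ d.H.IsRoot x := by
  rw [d.isRoot_H_iff, SS, Finset.mem_union, Finset.mem_union, Multiset.mem_toFinset,
    mem_roots d.g_ne_zero]
  by_cases ha : a = 0 <;> by_cases hb : b = 0 <;> simp [ha, hb] <;> tauto

lemma zero_mem_SS_iff : (0 : F) ∈ d.SS ↔ a = 1 := by
  rw [d.mem_SS_iff, d.isRoot_H_iff]
  have h1 := d.not_isRoot_zero
  have h2 := d.a_le_one
  have h3 : (0 : F) ≠ 1728 := fun h => d.h1728 h.symm
  constructor
  · rintro (⟨h, -⟩ | ⟨-, h⟩ | h)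
    · omega
    · exact absurd h h3
    · exact absurd h h1
  · intro h
    exact Or.inl ⟨by omega, rfl⟩

lemma mem_SS_1728_iff : (1728 : F) ∈ d.SS ↔ b = 1 := by
  rw [d.mem_SS_iff, d.isRoot_H_iff]
  have h1 := d.not_isRoot_1728
  have h2 := d.b_le_one
  constructor
  · rintro (⟨-, h⟩ | ⟨h, -⟩ | h)
    · exact absurd h d.h1728
    · omega
    · exact absurd h h1
  · intro h
    exact Or.inr (Or.inl ⟨by omega, rfl⟩)

variable [IsAlgClosed F]

lemma card_roots_g : d.g.roots.toFinset.card = m := by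
  have hsep : d.g.Separable := PerfectField.separable_iff_squarefree.mpr d.squarefree_g
  rw [Multiset.toFinset_card_of_nodup (nodup_roots hsep), IsAlgClosed.card_roots_eq_natDegree,
    d.natDegree_g]

/-- **The number of supersingular `j`-invariants** is `m + a + b`. -/
theorem card_SS : d.SS.card = m + a + b := by
  have ha := d.a_le_one
  have hb := d.b_le_one
  have h0 : (0 : F) ∉ d.g.roots.toFinset := by
    rw [Multiset.mem_toFinset, mem_roots d.g_ne_zero]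
    exact d.not_isRoot_zero
  have h1 : (1728 : F) ∉ d.g.roots.toFinset := by
    rw [Multiset.mem_toFinset, mem_roots d.g_ne_zero]
    exact d.not_isRoot_1728
  have h3 : (0 : F) ≠ 1728 := fun h => d.h1728 h.symm
  rw [SS, Finset.card_union_of_disjoint, d.card_roots_g, Finset.card_union_of_disjoint]
  · rcases Nat.eq_zero_or_pos a with rfl | ha'
    · rcases Nat.eq_zero_or_pos b with rfl | hb'
      · simp
      · have : b = 1 := by omega
        subst this; simp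
    · have : a = 1 := by omega
      subst this
      rcases Nat.eq_zero_or_pos b with rfl | hb'
      · simp
      · have : b = 1 := by omega
        subst this; simp
  · by_cases ha0 : a = 0 <;> by_cases hb0 : b = 0 <;> simp [ha0, hb0, h3]
  · rw [Finset.disjoint_union_right]
    constructor
    · by_cases ha0 : a = 0 <;> simp [ha0, h0]
    · by_cases hb0 : b = 0 <;> simp [hb0, h1]

end Closed

end H21_SSData

end Sqf

section Main

open Classical

variable {F : Type*} [Field F] {ℓ : ℕ} [hℓ : Fact ℓ.Prime] [CharP F ℓ]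

/-- The exponent `a ∈ {0, 1}`: `a = 1` iff `ℓ ≡ 2 mod 3`. -/
def H21_ssA (ℓ : ℕ) : ℕ := if ℓ % 3 = 2 then 1 else 0

/-- The exponent `b ∈ {0, 1}`: `b = 1` iff `ℓ ≡ 3 mod 4`. -/
def H21_ssB (ℓ : ℕ) : ℕ := if ℓ % 4 = 3 then 1 else 0

/-- The number `m = (ℓ - 1 - 4 a - 6 b) / 12` of supersingular `j`-invariants `≠ 0, 1728`. -/
def H21_ssM (ℓ : ℕ) : ℕ := (ℓ - 1 - 4 * H21_ssA ℓ - 6 * H21_ssB ℓ) / 12

omit hℓ in
lemma H21_ss_weight (hp : ℓ.Prime) (h5 : 5 ≤ ℓ) :
    ℓ - 1 = 12 * H21_ssM ℓ + 4 * H21_ssA ℓ + 6 * H21_ssB ℓ := by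
  have h2 : ¬ 2 ∣ ℓ := fun h => by
    have := (Nat.prime_dvd_prime_iff_eq Nat.prime_two hp).mp h
    omega
  have h3 : ¬ 3 ∣ ℓ := fun h => by
    have := (Nat.prime_dvd_prime_iff_eq Nat.prime_three hp).mp h
    omega
  unfold H21_ssM H21_ssA H21_ssB
  split_ifs <;> omega

/-- The supersingular datum in characteristic `ℓ ≥ 5`. -/
theorem H21_exists_ssData (h5 : 5 ≤ ℓ) :
    Nonempty (H21_SSData F (H21_ssM ℓ) (H21_ssA ℓ) (H21_ssB ℓ)) := by
  obtain ⟨A, hAw, hA1⟩ := H21_exists_hasse (F := F) (ℓ := ℓ) h5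
  have h1728 := H21_1728_ne_zero (F := F) (ℓ := ℓ) h5
  have hw := H21_ss_weight hℓ.out h5
  have ha : H21_ssA ℓ < 3 := by unfold H21_ssA; split_ifs <;> omega
  have hb : H21_ssB ℓ < 2 := by unfold H21_ssB; split_ifs <;> omega
  obtain ⟨g, hg, hAg⟩ := H21_decomp h1728 ha hb (hw ▸ hAw)
  exact ⟨{ A := A, g := g, h1728 := h1728, hg := hg, hAg := hAg,
           hsq := fun π hπ => H21_hasse_squarefree (F := F) (ℓ := ℓ) h5 hAw hA1 hπ,
           hA1 := hA1 }⟩

/-- **(SS): the supersingular polynomial.**  For a prime `ℓ ≥ 5` and an algebraically closed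
field `F` of characteristic `ℓ` there are `H ∈ F[X]` of degree `≤ ℓ - 1` and a finite set `S ⊂ F`
(the supersingular `j`-invariants) such that
* `∑ Hᵢ (Ẽ₄³)ⁱ Δ̃^{ℓ-1-i} = 1` in `F⟦q⟧` (that is, `H(j̃) = Δ̃^{1-ℓ}`),
* `S` is the set of roots of `H`,
* `#S = m + a + b`, `0 ∈ S ↔ ℓ ≡ 2 mod 3`, `1728 ∈ S ↔ ℓ ≡ 3 mod 4`. -/
theorem H21_supersingular [IsAlgClosed F] (h5 : 5 ≤ ℓ) :
    ∃ (H : F[X]) (S : Finset F), H.natDegree ≤ ℓ - 1 ∧
      hev (H21_Qb F ^ 3) (H21_Db F) (ℓ - 1) H = 1 ∧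
      (∀ x, x ∈ S ↔ H.IsRoot x) ∧
      S.card = H21_ssM ℓ + H21_ssA ℓ + H21_ssB ℓ ∧
      ((0 : F) ∈ S ↔ ℓ % 3 = 2) ∧ ((1728 : F) ∈ S ↔ ℓ % 4 = 3) := by
  obtain ⟨d⟩ := H21_exists_ssData (F := F) (ℓ := ℓ) h5
  have hw := H21_ss_weight hℓ.out h5
  refine ⟨d.H, d.SS, ?_, ?_, d.mem_SS_iff, d.card_SS, ?_, ?_⟩
  · rw [hw]; exact d.natDegree_H_le
  · rw [hw]; exact d.hev_H_series
  · rw [d.zero_mem_SS_iff]
    unfold H21_ssA
    split_ifs with h <;> simp [h]
  · rw [d.mem_SS_1728_iff]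
    unfold H21_ssB
    split_ifs with h <;> simp [h]

end Main

section Field

variable {k K : Type*} [Field k] [Field K] [Algebra k K]

/-- In a field, `hev U V n H = Vⁿ * H(U / V)` for `deg H ≤ n` and `V ≠ 0`. -/
lemma H21_hev_eq_pow_mul_aeval {U V : K} (hV : V ≠ 0) {n : ℕ} {H : k[X]}
    (hH : H.natDegree ≤ n) : hev U V n H = V ^ n * Polynomial.aeval (U / V) H := by
  rw [hev_eq_sum, Polynomial.aeval_eq_sum_range' (Nat.lt_succ_of_le hH), Finset.mul_sum,
    Finset.Nat.sum_antidiagonal_eq_sum_range_succ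
      (fun i l => algebraMap k K (H.coeff i) * (U ^ i * V ^ l))]
  refine Finset.sum_congr rfl fun i hi => ?_
  have hi' : i ≤ n := Nat.lt_succ_iff.mp (Finset.mem_range.mp hi)
  rw [Algebra.smul_def, div_pow]
  have : V ^ n = V ^ i * V ^ (n - i) := by rw [← pow_add]; congr 1; omega
  rw [this]
  field_simp

end Field

end Fermat.Agent.BAD.H21
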