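import Fermat.Prelude.Def_ModularCurve_GenusNumerics
import Fermat.Agent.BAD.H21_SSPoly
import Fermat.Agent.S20.H19_Arith
import Mathlib.NumberTheory.LegendreSymbol.Basic
import Mathlib.GroupTheory.SpecificGroups.Cyclic
import Mathlib.RingTheory.IntegralDomain
import Mathlib.Data.ZMod.Units

/-!
# (ARITH) for BAD_q / NUM (helper21)

For a prime `ℓ ≥ 5` not dividing `M`:
`genusFormula (M ℓ) + 1 - 2 genusFormula M = (ℓ-1) ψ(M)/12 + ν₂(M) b / 2 + 2 ν₃(M) a / 3`
with `a = 1` iff `ℓ ≡ 2 mod 3`, `b = 1` iff `ℓ ≡ 3 mod 4`.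
-/

set_option autoImplicit false

noncomputable section

namespace Fermat.Agent.BAD.H21

open ModularCurve

/-! ### CRT for the numbers of roots -/

section CRT

variable {R S : Type*} [CommRing R] [CommRing S]

/-- Roots of `x² + 1`. -/
def H21_Sol2 (R : Type*) [CommRing R] : Type _ := {x : R // x ^ 2 + 1 = 0}

/-- Roots of `x² + x + 1`. -/
def H21_Sol3 (R : Type*) [CommRing R] : Type _ := {x : R // x ^ 2 + x + 1 = 0}

def H21_sol2Congr (e : R ≃+* S) : H21_Sol2 R ≃ H21_Sol2 S where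
  toFun x := ⟨e x.1, by rw [← map_pow, ← map_one e, ← map_add, x.2, map_zero]⟩
  invFun y := ⟨e.symm y.1, by rw [← map_pow, ← map_one e.symm, ← map_add, y.2, map_zero]⟩
  left_inv x := Subtype.ext (e.symm_apply_apply _)
  right_inv y := Subtype.ext (e.apply_symm_apply _)

def H21_sol3Congr (e : R ≃+* S) : H21_Sol3 R ≃ H21_Sol3 S where
  toFun x := ⟨e x.1, by rw [← map_pow, ← map_one e, ← map_add, ← map_add, x.2, map_zero]⟩
  invFun y := ⟨e.symm y.1, by
    rw [← map_pow, ← map_one e.symm, ← map_add, ← map_add, y.2, map_zero]⟩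
  left_inv x := Subtype.ext (e.symm_apply_apply _)
  right_inv y := Subtype.ext (e.apply_symm_apply _)

def H21_sol2Prod : H21_Sol2 (R × S) ≃ H21_Sol2 R × H21_Sol2 S where
  toFun x := (⟨x.1.1, by have := congrArg Prod.fst x.2; simpa using this⟩,
    ⟨x.1.2, by have := congrArg Prod.snd x.2; simpa using this⟩)
  invFun y := ⟨(y.1.1, y.2.1), by
    ext
    · simpa using y.1.2
    · simpa using y.2.2⟩
  left_inv x := rfl
  right_inv y := rfl

def H21_sol3Prod : H21_Sol3 (R × S) ≃ H21_Sol3 R × H21_Sol3 S where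
  toFun x := (⟨x.1.1, by have := congrArg Prod.fst x.2; simpa using this⟩,
    ⟨x.1.2, by have := congrArg Prod.snd x.2; simpa using this⟩)
  invFun y := ⟨(y.1.1, y.2.1), by
    ext
    · simpa using y.1.2
    · simpa using y.2.2⟩
  left_inv x := rfl
  right_inv y := rfl

end CRT

lemma H21_nuTwo_mul {a b : ℕ} (hab : a.Coprime b) : nuTwo (a * b) = nuTwo a * nuTwo b := by
  unfold nuTwo
  rw [← Nat.card_prod]
  exact Nat.card_congr ((H21_sol2Congr (ZMod.chineseRemainder hab)).trans H21_sol2Prod)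

lemma H21_nuThree_mul {a b : ℕ} (hab : a.Coprime b) :
    nuThree (a * b) = nuThree a * nuThree b := by
  unfold nuThree
  rw [← Nat.card_prod]
  exact Nat.card_congr ((H21_sol3Congr (ZMod.chineseRemainder hab)).trans H21_sol3Prod)

/-! ### Prime values -/

section Prime

variable {ℓ : ℕ} [hℓ : Fact ℓ.Prime]

lemma H21_card_sol_pair {x₀ x₁ : ZMod ℓ} (hne : x₀ ≠ x₁) (P : ZMod ℓ → Prop)
    (hP : ∀ x, P x ↔ x = x₀ ∨ x = x₁) : Nat.card {x : ZMod ℓ // P x} = 2 := by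
  classical
  rw [Nat.card_eq_fintype_card, Fintype.card_subtype]
  have : (Finset.univ.filter fun x => P x) = {x₀, x₁} := by
    ext x
    simp [hP x]
  rw [this, Finset.card_pair hne]

omit hℓ in
lemma H21_card_sol_empty (P : ZMod ℓ → Prop) (hP : ∀ x, ¬ P x) :
    Nat.card {x : ZMod ℓ // P x} = 0 := by
  have : IsEmpty {x : ZMod ℓ // P x} := ⟨fun x => hP x.1 x.2⟩
  exact Nat.card_of_isEmpty

lemma H21_two_ne_zero (h3 : 3 ≤ ℓ) : (2 : ZMod ℓ) ≠ 0 := by
  intro h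
  have h2 : ((2 : ℕ) : ZMod ℓ) = 0 := by exact_mod_cast h
  rw [ZMod.natCast_eq_zero_iff] at h2
  have := Nat.le_of_dvd (by norm_num) h2
  omega

lemma H21_three_ne_zero (h5 : 5 ≤ ℓ) : (3 : ZMod ℓ) ≠ 0 := by
  intro h
  have h2 : ((3 : ℕ) : ZMod ℓ) = 0 := by exact_mod_cast h
  rw [ZMod.natCast_eq_zero_iff] at h2
  have := Nat.le_of_dvd (by norm_num) h2
  omega

/-- `ν₂(ℓ) = 0` for `ℓ ≡ 3 mod 4`. -/
lemma H21_nuTwo_prime_three (h : ℓ % 4 = 3) : nuTwo ℓ = 0 := by
  unfold nuTwo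
  refine H21_card_sol_empty _ fun x hx => ?_
  have h1 : IsSquare (-1 : ZMod ℓ) := ⟨x, by rw [← pow_two]; linear_combination -hx⟩
  exact (ZMod.exists_sq_eq_neg_one_iff.mp h1) h

/-- `ν₂(ℓ) = 2` for `ℓ ≡ 1 mod 4`. -/
lemma H21_nuTwo_prime_one (h : ℓ % 4 = 1) : nuTwo ℓ = 2 := by
  unfold nuTwo
  obtain ⟨x₀, hx₀⟩ : IsSquare (-1 : ZMod ℓ) := ZMod.exists_sq_eq_neg_one_iff.mpr (by omega)
  have h3 : 3 ≤ ℓ := by
    have := hℓ.out.two_le
    omega
  have h2 := H21_two_ne_zero (ℓ := ℓ) h3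
  have hx0 : x₀ ≠ 0 := by
    rintro rfl
    simp at hx₀
  refine H21_card_sol_pair (x₀ := x₀) (x₁ := -x₀) ?_ _ fun x => ?_
  · intro hh
    have : (2 : ZMod ℓ) * x₀ = 0 := by linear_combination hh
    rcases mul_eq_zero.mp this with h' | h'
    · exact h2 h'
    · exact hx0 h'
  · rw [← sq_eq_sq_iff_eq_or_eq_neg]
    constructor
    · intro hx
      linear_combination hx + hx₀
    · intro hx
      linear_combination hx - hx₀

/-- `ν₃(ℓ) = 0` for `ℓ ≡ 2 mod 3`. -/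
lemma H21_nuThree_prime_two (h5 : 5 ≤ ℓ) (h : ℓ % 3 = 2) : nuThree ℓ = 0 := by
  unfold nuThree
  refine H21_card_sol_empty _ fun x hx => ?_
  have h3 := H21_three_ne_zero (ℓ := ℓ) h5
  have hx3 : x ^ 3 = 1 := by linear_combination (x - 1) * hx
  have hx1 : x ≠ 1 := by
    rintro rfl
    apply h3
    linear_combination hx
  have hx0 : x ≠ 0 := by
    rintro rfl
    simp at hx3
  let u : (ZMod ℓ)ˣ := Units.mk0 x hx0
  have hu3 : u ^ 3 = 1 := by
    ext
    simpa [u] using hx3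
  have hu1 : u ≠ 1 := by
    intro hh
    apply hx1
    have := congrArg Units.val hh
    simpa [u] using this
  have hord : orderOf u = 3 := by
    have hdvd := orderOf_dvd_of_pow_eq_one hu3
    rcases (Nat.dvd_prime Nat.prime_three).mp hdvd with h1 | h1
    · exact absurd (orderOf_eq_one_iff.mp h1) hu1
    · exact h1
  have hcard : orderOf u ∣ Fintype.card (ZMod ℓ)ˣ := orderOf_dvd_card
  rw [ZMod.card_units_eq_totient, Nat.totient_prime hℓ.out, hord] at hcard
  omega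

/-- `ν₃(ℓ) = 2` for `ℓ ≡ 1 mod 3`. -/
lemma H21_nuThree_prime_one (h5 : 5 ≤ ℓ) (h : ℓ % 3 = 1) : nuThree ℓ = 2 := by
  unfold nuThree
  have h3 := H21_three_ne_zero (ℓ := ℓ) h5
  have hdvd : 3 ∣ Fintype.card (ZMod ℓ)ˣ := by
    rw [ZMod.card_units_eq_totient, Nat.totient_prime hℓ.out]
    omega
  have hcount := IsCyclic.card_orderOf_eq_totient (α := (ZMod ℓ)ˣ) hdvd
  have hpos : 0 < (Finset.univ.filter fun a : (ZMod ℓ)ˣ => orderOf a = 3).card := by
    rw [hcount]; decide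
  obtain ⟨u, hu⟩ := Finset.card_pos.mp hpos
  rw [Finset.mem_filter] at hu
  have hu3 : (u : ZMod ℓ) ^ 3 = 1 := by
    have := pow_orderOf_eq_one u
    rw [hu.2] at this
    have := congrArg Units.val this
    simpa using this
  have hu1 : (u : ZMod ℓ) ≠ 1 := by
    intro hh
    have : u = 1 := Units.ext hh
    rw [this, orderOf_one] at hu
    omega
  set ω : ZMod ℓ := (u : ZMod ℓ) with hω
  have hω2 : ω ^ 2 + ω + 1 = 0 := by
    have : (ω - 1) * (ω ^ 2 + ω + 1) = 0 := by linear_combination hu3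
    rcases mul_eq_zero.mp this with h' | h'
    · exact absurd (sub_eq_zero.mp h') hu1
    · exact h'
  refine H21_card_sol_pair (x₀ := ω) (x₁ := -1 - ω) ?_ _ fun x => ?_
  · intro hh
    -- 2 ω = -1, so 4 ω² + 4 ω + 4 = 3 = 0
    apply h3
    have h2ω : 2 * ω + 1 = 0 := by linear_combination hh
    linear_combination 4 * hω2 - (2 * ω + 1) * h2ω
  · constructor
    · intro hx
      have : (x - ω) * (x - (-1 - ω)) = 0 := by linear_combination hx - hω2
      rcases mul_eq_zero.mp this with h' | h'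
      · exact Or.inl (sub_eq_zero.mp h')
      · exact Or.inr (sub_eq_zero.mp h')
    · rintro (rfl | rfl)
      · exact hω2
      · linear_combination hω2

end Prime

/-! ### The cusps -/

lemma H21_cuspCount_mul_prime {M ℓ : ℕ} (hℓ : ℓ.Prime) (hM : ¬ ℓ ∣ M) :
    cuspCount (M * ℓ) = 2 * cuspCount M := by
  have hcop : M.Coprime ℓ := ((Nat.Prime.coprime_iff_not_dvd hℓ).mpr hM).symm
  unfold cuspCount
  rw [Fermat.Agent.S20.H19.sum_divisors_mul_of_coprime hcop, Finset.mul_sum]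
  refine Finset.sum_congr rfl fun d hd => ?_
  have hdM : d ∣ M := Nat.dvd_of_mem_divisors hd
  have hd0 : d ≠ 0 := fun h => by
    rw [h] at hd
    simp at hd
  have hdpos : 0 < d := Nat.pos_of_ne_zero hd0
  obtain ⟨e, rfl⟩ := hdM
  have hcd : d.Coprime ℓ := hcop.coprime_dvd_left (Dvd.intro _ rfl)
  have hce : e.Coprime ℓ := hcop.coprime_dvd_left (Dvd.intro_left _ rfl)
  rw [Nat.Prime.divisors hℓ, Finset.sum_pair hℓ.one_lt.ne, mul_one]
  have e1 : d * e * ℓ / d = e * ℓ := by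
    rw [mul_assoc]; exact Nat.mul_div_cancel_left _ hdpos
  have e2 : d * e * ℓ / (d * ℓ) = e := by
    have : d * e * ℓ = (d * ℓ) * e := by ring
    rw [this]
    exact Nat.mul_div_cancel_left _ (Nat.mul_pos hdpos hℓ.pos)
  have e3 : d * e / d = e := Nat.mul_div_cancel_left _ hdpos
  rw [e1, e2, e3]
  have g1 : Nat.gcd d (e * ℓ) = Nat.gcd d e := Nat.Coprime.gcd_mul_right_cancel_right e hcd.symm
  have g2 : Nat.gcd (d * ℓ) e = Nat.gcd d e := Nat.Coprime.gcd_mul_right_cancel d hce.symm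
  rw [g1, g2]
  ring

/-! ### (ARITH) -/

/-- **(ARITH)**: for a prime `ℓ ≥ 5` not dividing `M`, the number
`m ψ(M) + a #(fibre over 0) + b #(fibre over 1728)` of supersingular points of `X₀(M)` in
characteristic `ℓ` is `g(M ℓ) + 1 - 2 g(M)`.  Here `oST`, `oS` are the numbers of points of
`X₀(M)` over `j = 0` and `j = 1728` (`3 oST = ψ + 2 ν₃`, `2 oS = ψ + ν₂`, S24). -/
theorem H21_arith {M ℓ : ℕ} [hℓ : Fact ℓ.Prime] (h5 : 5 ≤ ℓ) (hM : ¬ ℓ ∣ M) (oS oST : ℕ)
    (hS : 2 * oS = dedekindPsi M + nuTwo M) (hST : 3 * oST = dedekindPsi M + 2 * nuThree M) :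
    genusFormula (M * ℓ) + 1 - 2 * genusFormula M =
      ((H21_ssM ℓ * dedekindPsi M + H21_ssA ℓ * oST + H21_ssB ℓ * oS : ℕ) : ℚ) := by
  have hp := hℓ.out
  have hcop : M.Coprime ℓ := ((Nat.Prime.coprime_iff_not_dvd hp).mpr hM).symm
  have hψ : dedekindPsi (M * ℓ) = dedekindPsi M * (ℓ + 1) := by
    rw [Fermat.Agent.S20.H19.dedekindPsi_mul hcop]
    have := Fermat.Agent.S20.H19.dedekindPsi_prime_pow hp (n := 1) one_pos
    simp only [pow_one, Nat.sub_self, pow_zero] at this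
    rw [this]
  have hw := H21_ss_weight hp h5
  have hℓQ : (ℓ : ℚ) = 12 * (H21_ssM ℓ : ℚ) + 4 * (H21_ssA ℓ : ℚ) + 6 * (H21_ssB ℓ : ℚ) + 1 := by
    have h1 : ℓ = 12 * H21_ssM ℓ + 4 * H21_ssA ℓ + 6 * H21_ssB ℓ + 1 := by omega
    exact_mod_cast h1
  have hSQ : (2 : ℚ) * oS = dedekindPsi M + nuTwo M := by exact_mod_cast hS
  have hSTQ : (3 : ℚ) * oST = dedekindPsi M + 2 * nuThree M := by exact_mod_cast hST
  have h2 : ¬ 2 ∣ ℓ := fun h => by
    have := (Nat.prime_dvd_prime_iff_eq Nat.prime_two hp).mp h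
    omega
  have h3 : ¬ 3 ∣ ℓ := fun h => by
    have := (Nat.prime_dvd_prime_iff_eq Nat.prime_three hp).mp h
    omega
  rw [genusFormula, genusFormula, hψ, H21_cuspCount_mul_prime hp hM, H21_nuTwo_mul hcop,
    H21_nuThree_mul hcop]
  push_cast
  rw [hℓQ]
  have h4 : ℓ % 4 = 1 ∨ ℓ % 4 = 3 := by omega
  have h3' : ℓ % 3 = 1 ∨ ℓ % 3 = 2 := by omega
  rcases h4 with h4 | h4 <;> rcases h3' with h3' | h3'
  · have hb : H21_ssB ℓ = 0 := by unfold H21_ssB; rw [if_neg (by omega)]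
    have ha : H21_ssA ℓ = 0 := by unfold H21_ssA; rw [if_neg (by omega)]
    rw [H21_nuTwo_prime_one h4, H21_nuThree_prime_one h5 h3', ha, hb]
    push_cast
    ring
  · have hb : H21_ssB ℓ = 0 := by unfold H21_ssB; rw [if_neg (by omega)]
    have ha : H21_ssA ℓ = 1 := by unfold H21_ssA; rw [if_pos h3']
    rw [H21_nuTwo_prime_one h4, H21_nuThree_prime_two h5 h3', ha, hb]
    push_cast
    linear_combination (-(1 : ℚ) / 3) * hSTQ
  · have hb : H21_ssB ℓ = 1 := by unfold H21_ssB; rw [if_pos h4]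
    have ha : H21_ssA ℓ = 0 := by unfold H21_ssA; rw [if_neg (by omega)]
    rw [H21_nuTwo_prime_three h4, H21_nuThree_prime_one h5 h3', ha, hb]
    push_cast
    linear_combination (-(1 : ℚ) / 2) * hSQ
  · have hb : H21_ssB ℓ = 1 := by unfold H21_ssB; rw [if_pos h4]
    have ha : H21_ssA ℓ = 1 := by unfold H21_ssA; rw [if_pos h3']
    rw [H21_nuTwo_prime_three h4, H21_nuThree_prime_two h5 h3', ha, hb]
    push_cast
    linear_combination (-(1 : ℚ) / 2) * hSQ + (-(1 : ℚ) / 3) * hSTQ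

end Fermat.Agent.BAD.H21
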