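import Fermat.Agent.BAD.H21_Arith

/-!
# (ARITH) for BAD_q / NUM-23 (helper21): the small primes `q = 3` and `q = 2`

* `H21_nuTwo_eq_zero_of_three_dvd` : `ν₂(N) = 0` if `3 ∣ N`;
* `H21_nuThree_eq_zero_of_two_dvd` : `ν₃(N) = 0` if `2 ∣ N`;
* `H21_arith_three` : `2 ∣ M`, `3 ∤ M`: `g(3 M) + 1 - 2 g(M) = ψ(M)/6 + ν₂(M)/2`;
* `H21_arith_two` : `3 ∣ M`, `2 ∤ M`: `g(2 M) + 1 - 2 g(M) = ψ(M)/12 + 2 ν₃(M)/3`.
-/

set_option autoImplicit false

noncomputable section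

namespace Fermat.Agent.BAD.H21

open ModularCurve

/-- `ν₂(N) = 0` if `3 ∣ N`: `x² + 1` has no root modulo `3`. -/
lemma H21_nuTwo_eq_zero_of_three_dvd {N : ℕ} (h : 3 ∣ N) : nuTwo N = 0 := by
  unfold nuTwo
  have : IsEmpty {x : ZMod N // x ^ 2 + 1 = 0} := by
    refine ⟨fun x => ?_⟩
    have h1 := congrArg (ZMod.castHom h (ZMod 3)) x.2
    rw [map_add, map_pow, map_one, map_zero] at h1
    generalize (ZMod.castHom h (ZMod 3)) x.1 = y at h1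
    revert y
    decide
  exact Nat.card_of_isEmpty

/-- `ν₃(N) = 0` if `2 ∣ N`: `x² + x + 1` has no root modulo `2`. -/
lemma H21_nuThree_eq_zero_of_two_dvd {N : ℕ} (h : 2 ∣ N) : nuThree N = 0 := by
  unfold nuThree
  have : IsEmpty {x : ZMod N // x ^ 2 + x + 1 = 0} := by
    refine ⟨fun x => ?_⟩
    have h1 := congrArg (ZMod.castHom h (ZMod 2)) x.2
    rw [map_add, map_add, map_pow, map_one, map_zero] at h1
    generalize (ZMod.castHom h (ZMod 2)) x.1 = y at h1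
    revert y
    decide
  exact Nat.card_of_isEmpty

lemma H21_dedekindPsi_mul_prime {M q : ℕ} (hq : q.Prime) (hM : ¬ q ∣ M) :
    dedekindPsi (M * q) = dedekindPsi M * (q + 1) := by
  have hcop : M.Coprime q := ((Nat.Prime.coprime_iff_not_dvd hq).mpr hM).symm
  rw [Fermat.Agent.S20.H19.dedekindPsi_mul hcop]
  have := Fermat.Agent.S20.H19.dedekindPsi_prime_pow hq (n := 1) one_pos
  simp only [pow_one, Nat.sub_self, pow_zero] at this
  rw [this]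

/-- **(ARITH), `q = 3`**: for `2 ∣ M`, `3 ∤ M`:
`g(3 M) + 1 - 2 g(M) = ψ(M)/6 + ν₂(M)/2`. -/
theorem H21_arith_three {M : ℕ} (h2 : 2 ∣ M) (h3 : ¬ 3 ∣ M) :
    genusFormula (M * 3) + 1 - 2 * genusFormula M
      = (dedekindPsi M : ℚ) / 6 + (nuTwo M : ℚ) / 2 := by
  rw [genusFormula, genusFormula, H21_dedekindPsi_mul_prime Nat.prime_three h3,
    H21_cuspCount_mul_prime Nat.prime_three h3,
    H21_nuTwo_eq_zero_of_three_dvd (dvd_mul_left 3 M),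
    H21_nuThree_eq_zero_of_two_dvd (Dvd.dvd.mul_right h2 3),
    H21_nuThree_eq_zero_of_two_dvd h2]
  push_cast
  ring

/-- **(ARITH), `q = 2`**: for `3 ∣ M`, `2 ∤ M`:
`g(2 M) + 1 - 2 g(M) = ψ(M)/12 + 2 ν₃(M)/3`. -/
theorem H21_arith_two {M : ℕ} (h3 : 3 ∣ M) (h2 : ¬ 2 ∣ M) :
    genusFormula (M * 2) + 1 - 2 * genusFormula M
      = (dedekindPsi M : ℚ) / 12 + 2 * (nuThree M : ℚ) / 3 := by
  rw [genusFormula, genusFormula, H21_dedekindPsi_mul_prime Nat.prime_two h2,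
    H21_cuspCount_mul_prime Nat.prime_two h2,
    H21_nuTwo_eq_zero_of_three_dvd (Dvd.dvd.mul_right h3 2),
    H21_nuThree_eq_zero_of_two_dvd (dvd_mul_left 2 M),
    H21_nuTwo_eq_zero_of_three_dvd h3]
  push_cast
  ring

/-- `3 ∣ ψ(M)` if `2 ∣ M`. -/
theorem H21_three_dvd_psi {M : ℕ} (hM : M ≠ 0) (h2 : 2 ∣ M) : 3 ∣ dedekindPsi M := by
  obtain ⟨a, M', hM', rfl⟩ := Nat.exists_eq_pow_mul_and_not_dvd hM 2 (by norm_num)
  have ha : 0 < a := by
    rcases Nat.eq_zero_or_pos a with rfl | ha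
    · rw [pow_zero, one_mul] at h2
      exact absurd h2 hM'
    · exact ha
  have hcop : (2 ^ a).Coprime M' :=
    Nat.Coprime.pow_left a ((Nat.Prime.coprime_iff_not_dvd Nat.prime_two).mpr hM')
  rw [Fermat.Agent.S20.H19.dedekindPsi_mul hcop,
    Fermat.Agent.S20.H19.dedekindPsi_prime_pow Nat.prime_two ha]
  obtain ⟨b, rfl⟩ := Nat.exists_eq_succ_of_ne_zero ha.ne'
  rw [Nat.succ_sub_one]
  exact Dvd.dvd.mul_right ⟨2 ^ b, by rw [Nat.succ_eq_add_one]; ring⟩ _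

/-- `4 ∣ ψ(M)` if `3 ∣ M`. -/
theorem H21_four_dvd_psi {M : ℕ} (hM : M ≠ 0) (h3 : 3 ∣ M) : 4 ∣ dedekindPsi M := by
  obtain ⟨a, M', hM', rfl⟩ := Nat.exists_eq_pow_mul_and_not_dvd hM 3 (by norm_num)
  have ha : 0 < a := by
    rcases Nat.eq_zero_or_pos a with rfl | ha
    · rw [pow_zero, one_mul] at h3
      exact absurd h3 hM'
    · exact ha
  have hcop : (3 ^ a).Coprime M' :=
    Nat.Coprime.pow_left a ((Nat.Prime.coprime_iff_not_dvd Nat.prime_three).mpr hM')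
  rw [Fermat.Agent.S20.H19.dedekindPsi_mul hcop,
    Fermat.Agent.S20.H19.dedekindPsi_prime_pow Nat.prime_three ha]
  obtain ⟨b, rfl⟩ := Nat.exists_eq_succ_of_ne_zero ha.ne'
  rw [Nat.succ_sub_one]
  exact Dvd.dvd.mul_right ⟨3 ^ b, by rw [Nat.succ_eq_add_one]; ring⟩ _

end Fermat.Agent.BAD.H21
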