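import Fermat.Agent.RED.H51_ZerosLe
import Fermat.Agent.BAD.H21_Arith

/-!
# BAD_q, package NUM (helper21): abstract counting of the zeros of `H(x)`

`K ⊂ F` a function field, `x ∈ F`, `H ∈ K[X]` a polynomial with root set `S`.

* `H21_fibre_disjoint` : a place is a zero of `x - a` for at most one constant `a`;
* `H21_ord_nonneg_of_fibre` : `x` is regular at the zeros of `x - a`;
* `H21_ord_aeval_pos` : a zero of `x - a`, `a` a root of `H`, is a zero of `H(x)`;
* `H21_exists_zeros` : if the fibre of `x` over `a ∈ S` has at least `c a > 0` points, there is a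
  finite set `Z` of places, each a zero of some `x - a`, `a ∈ S`, with `∑_{a ∈ S} c a ≤ #Z`;
* `H21_sum_ss` : the sum `∑_{J ∈ S} c J` for the supersingular set.
-/

set_option autoImplicit false
set_option linter.style.haveILetI false
set_option linter.unusedSectionVars false

noncomputable section

open AlgebraicCurve Polynomial

namespace Fermat.Agent.BAD.H21

open Fermat.Agent.RED.H51

section Abs

variable {K F : Type*} [Field K] [Field F] [Algebra K F]

/-- A place is a zero of `x - a` for at most one constant `a`. -/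
theorem H21_fibre_disjoint (z : Place K F) {x : F} {a b : K}
    (ha : 0 < z.ord (x - algebraMap K F a)) (hb : 0 < z.ord (x - algebraMap K F b)) :
    a = b := by
  by_contra hab
  have h1 : OrdGe z 1 (x - algebraMap K F a) := Or.inr (by omega)
  have h2 : OrdGe z 1 (x - algebraMap K F b) := Or.inr (by omega)
  have h3 := h2.sub h1
  have e : x - algebraMap K F b - (x - algebraMap K F a) = algebraMap K F (a - b) := by
    rw [map_sub]; ring
  rw [e] at h3
  have hne : algebraMap K F (a - b) ≠ 0 :=
    (map_ne_zero (algebraMap K F)).mpr (sub_ne_zero.mpr hab)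
  have := h3.le hne
  rw [ord_algebraMap] at this
  omega

/-- `x` is regular at the zeros of `x - a`. -/
theorem H21_ord_nonneg_of_fibre (z : Place K F) {x : F} {a : K}
    (ha : 0 < z.ord (x - algebraMap K F a)) : 0 ≤ z.ord x := by
  rcases eq_or_ne x 0 with rfl | hx
  · rw [Place.ord_zero]
  have h1 : OrdGe z 0 (x - algebraMap K F a) := Or.inr ha.le
  have h2 : OrdGe z 0 (algebraMap K F a) := ordGe_algebraMap z a
  have h3 := h1.add h2
  rw [sub_add_cancel] at h3
  exact h3.le hx

/-- The order of `p(h)` at a zero of `h - ρ`. -/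
theorem H21_ord_aeval_sub (v : Place K F) {h : F} {ρ : K}
    (hv : 0 < v.ord (h - algebraMap K F ρ)) {p : K[X]} (hp : p ≠ 0) :
    aeval h p ≠ 0 ∧
      v.ord (aeval h p) = (p.rootMultiplicity ρ : ℤ) * v.ord (h - algebraMap K F ρ) := by
  have hcomp : aeval (h - algebraMap K F ρ) (p.comp (X + C ρ)) = aeval h p := by
    rw [aeval_comp]
    congr 1
    simp
  have hp' : p.comp (X + C ρ) ≠ 0 := by
    intro h0
    apply hp
    have := congrArg (fun q : K[X] => q.comp (X - C ρ)) h0
    simpa [Polynomial.comp_assoc] using this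
  have := ord_aeval v hv hp'
  rw [hcomp, ← rootMultiplicity_eq_rootMultiplicity] at this
  exact this

/-- A zero of `x - a`, `a` a root of `H ≠ 0`, is a zero of `H(x)`. -/
theorem H21_ord_aeval_pos (z : Place K F) {x : F} {a : K}
    (ha : 0 < z.ord (x - algebraMap K F a)) {H : K[X]} (hH : H ≠ 0) (hroot : H.IsRoot a) :
    0 < z.ord (aeval x H) := by
  obtain ⟨-, h2⟩ := H21_ord_aeval_sub z ha hH
  rw [h2]
  have hm : 0 < H.rootMultiplicity a := (rootMultiplicity_pos hH).mpr hroot
  positivity

open Classical in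
/-- **Counting**: if the fibre of `x` over every `a ∈ S` has at least `c a > 0` points, there is
a finite set `Z` of zeros of the `x - a`, `a ∈ S`, with at least `∑_{a ∈ S} c a` elements. -/
theorem H21_exists_zeros (x : F) (S : Finset K) (c : K → ℕ)
    (hc : ∀ a ∈ S, 0 < c a ∧ c a ≤ Nat.card {z : Place K F // 0 < z.ord (x - algebraMap K F a)}) :
    ∃ Z : Finset (Place K F), (∀ z ∈ Z, ∃ a ∈ S, 0 < z.ord (x - algebraMap K F a)) ∧
      ∑ a ∈ S, c a ≤ Z.card := by
  have hfin : ∀ a ∈ S, {z : Place K F | 0 < z.ord (x - algebraMap K F a)}.Finite := by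
    intro a ha
    have h1 := hc a ha
    have h2 : Nat.card {z : Place K F // 0 < z.ord (x - algebraMap K F a)} ≠ 0 := by omega
    exact Nat.finite_of_card_ne_zero h2
  let Zf : K → Finset (Place K F) := fun a => if h : a ∈ S then (hfin a h).toFinset else ∅
  refine ⟨S.biUnion Zf, ?_, ?_⟩
  · intro z hz
    rw [Finset.mem_biUnion] at hz
    obtain ⟨a, ha, hza⟩ := hz
    refine ⟨a, ha, ?_⟩
    simp only [Zf, dif_pos ha, Set.Finite.mem_toFinset] at hza
    exact hza
  · rw [Finset.card_biUnion]
    · apply Finset.sum_le_sum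
      intro a ha
      simp only [Zf, dif_pos ha]
      rw [← Set.ncard_eq_toFinset_card _ (hfin a ha), ← Nat.card_coe_set_eq]
      exact (hc a ha).2
    · intro a ha b hb hab
      rw [Function.onFun, Finset.disjoint_left]
      intro z hza hzb
      simp only [Zf, dif_pos (Finset.mem_coe.mp ha), dif_pos (Finset.mem_coe.mp hb),
        Set.Finite.mem_toFinset] at hza hzb
      exact hab (H21_fibre_disjoint z hza hzb)

open Classical in
/-- The sum of the fibre cardinalities over the supersingular set. -/
theorem H21_sum_ss (S : Finset K) (h01 : (0 : K) ≠ 1728) (ψ oS oST m a b : ℕ)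
    (hcard : S.card = m + a + b) (h0 : (0 : K) ∈ S ↔ a = 1) (h1 : (1728 : K) ∈ S ↔ b = 1)
    (ha : a ≤ 1) (hb : b ≤ 1) :
    ∑ J ∈ S, (if J = 0 then oST else if J = 1728 then oS else ψ)
      = m * ψ + a * oST + b * oS := by
  have key : ∀ T : Finset K, (0 : K) ∉ T → (1728 : K) ∉ T →
      ∑ J ∈ T, (if J = 0 then oST else if J = 1728 then oS else ψ) = T.card * ψ := by
    intro T h0 h1
    rw [Finset.sum_congr rfl (g := fun _ => ψ), Finset.sum_const, smul_eq_mul]
    intro J hJ
    have e0 : J ≠ 0 := fun h => h0 (h ▸ hJ)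
    have e1 : J ≠ 1728 := fun h => h1 (h ▸ hJ)
    rw [if_neg e0, if_neg e1]
  by_cases m0 : (0 : K) ∈ S <;> by_cases m1 : (1728 : K) ∈ S
  · have ea : a = 1 := h0.mp m0
    have eb : b = 1 := h1.mp m1
    have m1' : (1728 : K) ∈ S.erase 0 := Finset.mem_erase.mpr ⟨h01.symm, m1⟩
    rw [← Finset.add_sum_erase S _ m0, ← Finset.add_sum_erase (S.erase 0) _ m1',
      key ((S.erase 0).erase 1728) (fun h => Finset.notMem_erase 0 S (Finset.mem_of_mem_erase h))
        (Finset.notMem_erase _ _),
      Finset.card_erase_of_mem m1', Finset.card_erase_of_mem m0, hcard, ea, eb]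
    simp only [if_true, if_neg h01.symm]
    simp
    ring
  · have ea : a = 1 := h0.mp m0
    have eb : b = 0 := by
      have : b ≠ 1 := fun h => m1 (h1.mpr h)
      omega
    rw [← Finset.add_sum_erase S _ m0,
      key (S.erase 0) (Finset.notMem_erase _ _) (fun h => m1 (Finset.mem_of_mem_erase h)),
      Finset.card_erase_of_mem m0, hcard, ea, eb]
    simp
    ring
  · have ea : a = 0 := by
      have : a ≠ 1 := fun h => m0 (h0.mpr h)
      omega
    have eb : b = 1 := h1.mp m1
    rw [← Finset.add_sum_erase S _ m1,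
      key (S.erase 1728) (fun h => m0 (Finset.mem_of_mem_erase h)) (Finset.notMem_erase _ _),
      Finset.card_erase_of_mem m1, hcard, ea, eb]
    simp only [if_neg h01.symm]
    simp
    ring
  · have ea : a = 0 := by
      have : a ≠ 1 := fun h => m0 (h0.mpr h)
      omega
    have eb : b = 0 := by
      have : b ≠ 1 := fun h => m1 (h1.mpr h)
      omega
    rw [key S m0 m1, hcard, ea, eb]
    simp

end Abs

end Fermat.Agent.BAD.H21
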