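import Fermat.Agent.RED.H10_Kronecker
import Fermat.Agent.RED.H73_GARes

/-!
# Item 65, package V2 (helper82), part (K): Kronecker's congruence `j(t^q) ≡ j(t)^q mod q`

Pure Laurent series statements for a valuation ring `O` of `C` with residue characteristic `q`.

* `kronX C q = j(t^q) - j(t)^q` lies in the Gauss ring and reduces to `0`;
* `kronY C q = j(t) - j(t^q)^q` lies in the Gauss ring and its reduction is not `0`.

The Atkin-Lehner involution `w_q` of `F_N`, `q ‖ N`, exchanges `kronX` and `kronY`, so that the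
Gauss valuation `V₁` and `V₂ = V₁ ∘ w_q` are different: `kronX` is in the maximal ideal of `V₁` and
a unit of `V₂`.
-/

set_option autoImplicit false

noncomputable section

open ModularCurve Fermat.Agent.S28 Fermat.Agent.S28.H73 Fermat.Agent.RED.H73

namespace Fermat.Agent.BAD.H82

/-- The residue field of a valuation subring over `q` has characteristic `q`. -/
theorem charP_kV {L : Type} [Field L] (A : ValuationSubring L) {q : ℕ}
    (hq : q.Prime) (hA : (q : L) ∈ A.nonunits) : CharP (kV A) q := by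
  apply (CharP.charP_iff_prime_eq_zero hq).2
  have h1 : (((q : ℕ) : A) : L) ∈ A.nonunits := by
    rw [show (((q : ℕ) : A) : L) = (q : L) by simp]
    exact hA
  obtain ⟨ha, hmem⟩ := (A.mem_nonunits_iff_exists_mem_maximalIdeal).1 h1
  rw [← map_natCast (IsLocalRing.residue A)]
  exact (IsLocalRing.residue_eq_zero_iff _).2 hmem

section Series

variable (R : Type*) [CommRing R] (q : ℕ) [NeZero q]

/-- `j(t^q) - j(t)^q`. -/
def kronX : LaurentSeries R := qExpand R q (jqModC R) - jqModC R ^ q

/-- `j(t) - j(t^q)^q`. -/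
def kronY : LaurentSeries R := jqModC R - qExpand R q (jqModC R) ^ q

variable {R}

theorem coeffMap_kronX {S : Type*} [CommRing S] (f : R →+* S) :
    coeffMap f (kronX R q) = kronX S q := by
  rw [kronX, kronX, map_sub, map_pow, coeffMap_qExpand, coeffMap_jqModC]

theorem coeffMap_kronY {S : Type*} [CommRing S] (f : R →+* S) :
    coeffMap f (kronY R q) = kronY S q := by
  rw [kronY, kronY, map_sub, map_pow, coeffMap_qExpand, coeffMap_jqModC]

variable (k : Type*) [CommRing k] [Fact q.Prime] [CharP k q]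

/-- **Kronecker**: `j(t^q) = j(t)^q` in characteristic `q`. -/
theorem kronX_eq_zero : kronX k q = 0 := by
  rw [kronX, Fermat.Agent.RED.H10.pow_char_eq q (jqModC k), coeffMap_jqModC, sub_self]

theorem kronY_eq : kronY k q = jqModC k - qExpand k q (qExpand k q (jqModC k)) := by
  rw [kronY, Fermat.Agent.RED.H10.pow_char_eq q (qExpand k q (jqModC k)), coeffMap_qExpand,
    coeffMap_jqModC]

theorem kronY_coeff_neg_one : (kronY k q).coeff (-1) = 1 := by
  rw [kronY_eq, HahnSeries.coeff_sub, coeff_jqModC_neg_one]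
  have hq1 : 1 < q := (Fact.out : q.Prime).one_lt
  have h : ¬ ((q : ℕ) : ℤ) ∣ (-1 : ℤ) := by
    intro hd
    have h1 : ((q : ℕ) : ℤ) ∣ 1 := (dvd_neg (a := (q : ℤ)) (b := 1)).mp hd
    have h2 : q ∣ 1 := by exact_mod_cast h1
    exact hq1.ne' (Nat.dvd_one.mp h2)
  rw [qExpand_coeff_of_not_dvd q _ h, sub_zero]

theorem kronY_ne_zero [Nontrivial k] : kronY k q ≠ 0 := by
  intro h
  have h1 := kronY_coeff_neg_one q k
  rw [h, HahnSeries.coeff_zero] at h1
  exact zero_ne_one h1

end Series

section Gauss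

variable {C : Type} [Field C] (O : ValuationSubring C) (q : ℕ) [NeZero q]

theorem iotaV_kronX : iotaV O (kronX ↥O q) = kronX C q := coeffMap_kronX q _

theorem iotaV_kronY : iotaV O (kronY ↥O q) = kronY C q := coeffMap_kronY q _

theorem kronX_mem_gaussRingV : kronX C q ∈ gaussRingV O := by
  rw [← iotaV_kronX O q]
  exact iotaV_mem_gaussRingV O _

theorem kronY_mem_gaussRingV : kronY C q ∈ gaussRingV O := by
  rw [← iotaV_kronY O q]
  exact iotaV_mem_gaussRingV O _

theorem gaussRedV_kronX' (h : kronX C q ∈ gaussRingV O) :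
    gaussRedV O ⟨kronX C q, h⟩ = kronX (kV O) q := by
  have e : (⟨kronX C q, h⟩ : gaussRingV O)
      = ⟨iotaV O (kronX ↥O q), iotaV_mem_gaussRingV O _⟩ :=
    Subtype.ext (iotaV_kronX O q).symm
  rw [e, gaussRedV_iotaV]
  exact coeffMap_kronX q _

theorem gaussRedV_kronY' (h : kronY C q ∈ gaussRingV O) :
    gaussRedV O ⟨kronY C q, h⟩ = kronY (kV O) q := by
  have e : (⟨kronY C q, h⟩ : gaussRingV O)
      = ⟨iotaV O (kronY ↥O q), iotaV_mem_gaussRingV O _⟩ :=
    Subtype.ext (iotaV_kronY O q).symm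
  rw [e, gaussRedV_iotaV]
  exact coeffMap_kronY q _

variable [Fact q.Prime] [CharP (kV O) q]

/-- `j(t^q) - j(t)^q` reduces to `0`. -/
theorem gaussRedV_kronX (h : kronX C q ∈ gaussRingV O) :
    gaussRedV O ⟨kronX C q, h⟩ = 0 := by
  rw [gaussRedV_kronX', kronX_eq_zero]

/-- `j(t) - j(t^q)^q` does not reduce to `0`. -/
theorem gaussRedV_kronY_ne_zero (h : kronY C q ∈ gaussRingV O) :
    gaussRedV O ⟨kronY C q, h⟩ ≠ 0 := by
  rw [gaussRedV_kronY']
  exact kronY_ne_zero q (kV O)

end Gauss

end Fermat.Agent.BAD.H82
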