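import Fermat.Agent.BAD.H21_Count
import Fermat.Agent.RED.H76_GoodChartJ
import Fermat.Agent.RED.H34_Fib
import Fermat.Agent.RED.H51_Final
import Fermat.Agent.BAD.H82_Kron
import Fermat.Agent.S24.Asm.One

/-!
# BAD_q, package NUM (helper21): the number of supersingular points of `X₀(M)` mod `ℓ`, `ℓ ≥ 5`

`ℓ ≥ 5` prime, `ℓ ∤ M`, `A` a valuation ring of `ℚ̄` over `ℓ`, `k = kV A`, `F~ = redField` the
residue field of the Gauss valuation of `F_M · ℚ̄`, `j~` the reduction of `j`.

* `H21_fibre_ge` : (FIB ≥, helper34) in terms of places: the fibre of `j~` over `ρ mod m` has at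
  least as many points as the fibre of `j` over `ρ`;
* `H21_card_generic_ge`, `H21_card_zero_ge`, `H21_card_1728_ge` : the fibres of `j~` have at least
  `ψ(M)`, `orbN M (S T)`, `orbN M S` points;
* `H21_num` : **NUM at level `M`**: for the supersingular polynomial `H` (any polynomial with
  `m + a + b` roots, `0` a root iff `ℓ ≡ 2 mod 3`, `1728` a root iff `ℓ ≡ 3 mod 4`) there is a
  finite set `Z` of places of `F~`, none a pole of `j~`, all zeros of `H(j~)`, with
  `g(M ℓ) + 1 ≤ 2 g(M) + #Z`.
-/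

set_option autoImplicit false
set_option linter.style.haveILetI false
set_option linter.unusedSectionVars false
set_option synthInstance.maxHeartbeats 400000
set_option maxHeartbeats 1000000

noncomputable section

open AlgebraicCurve Polynomial IntermediateField

namespace Fermat.Agent.BAD.H21

open ModularCurve Fermat.Agent.S28.H73 Fermat.Agent.RED.H73 Fermat.Agent.RED.H34
  Fermat.Agent.RED.H76 Fermat.Agent.RED.H51
open Fermat.Agent.S24 (Kbar FN)

section Modular

variable (M : ℕ) [NeZero M] {ℓ : ℕ} (hℓ : ℓ.Prime) (hℓM : ¬ ℓ ∣ M)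
  (A : ValuationSubring Kbar) (hA : A.LiesOverPrime ℓ)

/-- The reduction `j~` of `j` at level `M`. -/
abbrev H21_jt : ↥(redField A (laurentBaseChange Kbar (modularFunctionFieldFull M))
    (hasScale_laurentBaseChange A M)) :=
  (redSetting A (hasScale_laurentBaseChange A M)).red ⟨jF M, jF_mem A M⟩

include hℓ hℓM hA in
/-- **(FIB ≥)** in terms of places. -/
theorem H21_fibre_ge (ρ : ↥(redSetting A (hasScale_laurentBaseChange A M)).O)
    (hρ : ∀ ρ' : ↥(redSetting A (hasScale_laurentBaseChange A M)).O,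
      IsBranchValue (jF (L := Kbar) M) (ρ' : Kbar) →
      (redSetting A (hasScale_laurentBaseChange A M)).resO ρ'
        = (redSetting A (hasScale_laurentBaseChange A M)).resO ρ → ρ' = ρ) :
    Nat.card {v : Place Kbar (FN M) //
        0 < v.ord (jF (L := Kbar) M - algebraMap Kbar (FN M) (ρ : Kbar))}
      ≤ Nat.card {z : Place (kV A) ↥(redField A
          (laurentBaseChange Kbar (modularFunctionFieldFull M))
          (hasScale_laurentBaseChange A M)) //
        0 < z.ord (H21_jt M A - algebraMap (kV A) _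
          ((redSetting A (hasScale_laurentBaseChange A M)).resO ρ))} := by
  haveI : IsAlgClosed (kV A) := isAlgClosed_kV A
  obtain ⟨h1, h2, h3, h4, h5⟩ := goodChart_pre M ℓ hℓ hℓM A hA
  haveI := h2
  haveI := h3
  haveI := h5
  haveI hfdt := RedSetting.finiteDimensional_red (jF_mem A M) h4
  rw [← card_ptsOver _ (transcendental_jF M) (ρ : Kbar),
    ← card_ptsOver _ h1 ((redSetting A (hasScale_laurentBaseChange A M)).resO ρ),
    Nat.card_coe_set_eq, Nat.card_coe_set_eq]
  exact RedSetting.ncard_ptsOver_red_ge (jF_mem A M) h1 h4 ρ hρ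

/-- Every fibre of `j` on `X₀(M)` in characteristic `0` is finite and nonempty. -/
theorem H21_char0_pos (a : Kbar) :
    1 ≤ Nat.card {v : Place Kbar (FN M) //
      0 < v.ord (jF (L := Kbar) M - algebraMap Kbar (FN M) a)} := by
  have hx := transcendental_jF M
  haveI := finiteDimensional_jF M
  have hf := Fermat.Agent.S24.h85_transcendental_sub hx a
  haveI := Fermat.Agent.S24.ff_finite_of_transcendental (jF (L := Kbar) M) hx _ hf
  have hz := Fermat.Agent.RED.H51.zerosAll Kbar (FN M) (Fermat.Agent.RED.H95.isFF_FN M)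
  obtain ⟨hfin, -⟩ := hz _ hf
  obtain ⟨v, hv⟩ := Fermat.Agent.RED.H42.exists_zero_of_zeros hz hf
  haveI : Finite {v : Place Kbar (FN M) //
      0 < v.ord (jF (L := Kbar) M - algebraMap Kbar (FN M) a)} := hfin.to_subtype
  haveI : Nonempty {v : Place Kbar (FN M) //
      0 < v.ord (jF (L := Kbar) M - algebraMap Kbar (FN M) a)} := ⟨⟨v, hv⟩⟩
  exact Nat.card_pos

theorem H21_psi_pos : 0 < dedekindPsi M := by
  rw [← finrank_jF M]
  haveI := finiteDimensional_jF M
  exact Module.finrank_pos

theorem H21_orbN_S_pos : 0 < Fermat.Agent.S24.orbN M ModularGroup.S := by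
  have h1 := Fermat.Agent.S24.asm_orb_S M
  have h2 := H21_psi_pos M
  omega

theorem H21_orbN_ST_pos : 0 < Fermat.Agent.S24.orbN M (ModularGroup.S * ModularGroup.T) := by
  have h1 := Fermat.Agent.S24.asm_orb_ST M
  have h2 := H21_psi_pos M
  omega

/-- The fibre of `j` over `0` in characteristic `0` has at least `orbN M (S T)` points. -/
theorem H21_char0_zero_ge :
    Fermat.Agent.S24.orbN M (ModularGroup.S * ModularGroup.T)
      ≤ Nat.card {v : Place Kbar (FN M) //
        0 < v.ord (jF (L := Kbar) M - algebraMap Kbar (FN M) 0)} := by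
  rcases Nat.lt_or_ge 1 M with hM | hM
  · rw [← jF_eq]
    exact (Fermat.Agent.S24.asm_card_zeros_zero (Fermat.Agent.S24.modClosure M) hM).ge
  · have hM1 : M = 1 := le_antisymm hM (Nat.pos_of_ne_zero (NeZero.ne M))
    refine le_trans ?_ (H21_char0_pos M 0)
    have h1 := Fermat.Agent.S24.asm_orb_ST M
    rw [hM1, dedekindPsi_one, Fermat.Agent.S24.asm_nuThree_one] at h1
    rw [hM1]
    omega

/-- The fibre of `j` over `1728` in characteristic `0` has at least `orbN M S` points. -/
theorem H21_char0_1728_ge :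
    Fermat.Agent.S24.orbN M ModularGroup.S
      ≤ Nat.card {v : Place Kbar (FN M) //
        0 < v.ord (jF (L := Kbar) M - algebraMap Kbar (FN M) 1728)} := by
  rcases Nat.lt_or_ge 1 M with hM | hM
  · rw [← jF_eq]
    exact (Fermat.Agent.S24.asm_card_zeros_1728 (Fermat.Agent.S24.modClosure M) hM).ge
  · have hM1 : M = 1 := le_antisymm hM (Nat.pos_of_ne_zero (NeZero.ne M))
    refine le_trans ?_ (H21_char0_pos M 1728)
    have h1 := Fermat.Agent.S24.asm_orb_S M
    rw [hM1, dedekindPsi_one, Fermat.Agent.S24.asm_nuTwo_one] at h1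
    rw [hM1]
    omega

omit [NeZero M] in
include hℓ hA in
theorem H21_resO_1728_ne_zero (h5 : 5 ≤ ℓ) : (1728 : kV A) ≠ 0 := by
  haveI : Fact ℓ.Prime := ⟨hℓ⟩
  haveI : CharP (kV A) ℓ := Fermat.Agent.BAD.H82.charP_kV A hℓ hA
  exact H21_1728_ne_zero h5

section Red

variable (h5 : 5 ≤ ℓ)

include hℓ hℓM hA h5

/-- The generic fibres of `j~` have at least `ψ(M)` points. -/
theorem H21_card_generic_ge (γ : kV A) (h0 : γ ≠ 0) (h1728 : γ ≠ 1728) :
    dedekindPsi M ≤ Nat.card {z : Place (kV A) ↥(redField A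
          (laurentBaseChange Kbar (modularFunctionFieldFull M))
          (hasScale_laurentBaseChange A M)) //
        0 < z.ord (H21_jt M A - algebraMap (kV A) _ γ)} := by
  obtain ⟨ρ, rfl⟩ := (redSetting A (hasScale_laurentBaseChange A M)).resO_surj γ
  have hρ0 : (ρ : Kbar) ≠ 0 := by
    intro h
    apply h0
    have : ρ = 0 := Subtype.ext h
    rw [this, map_zero]
  have hρ1 : (ρ : Kbar) ≠ 1728 := by
    intro h
    apply h1728
    have : ρ = 1728 := Subtype.ext h
    rw [this, map_ofNat]
  refine le_trans (le_of_eq (card_zeros_jF M (ρ : Kbar) hρ0 hρ1).symm)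
    (H21_fibre_ge M hℓ hℓM A hA ρ ?_)
  intro ρ' hb hres
  exfalso
  rcases isBranchValue_jF M hb with h | h
  · apply h0
    rw [← hres]
    have : ρ' = 0 := Subtype.ext h
    rw [this, map_zero]
  · apply h1728
    rw [← hres]
    have : ρ' = 1728 := Subtype.ext h
    rw [this, map_ofNat]

/-- The fibre of `j~` over `0` has at least `orbN M (S T)` points. -/
theorem H21_card_zero_ge :
    Fermat.Agent.S24.orbN M (ModularGroup.S * ModularGroup.T)
      ≤ Nat.card {z : Place (kV A) ↥(redField A
          (laurentBaseChange Kbar (modularFunctionFieldFull M))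
          (hasScale_laurentBaseChange A M)) //
        0 < z.ord (H21_jt M A - algebraMap (kV A) _ 0)} := by
  have key := H21_fibre_ge M hℓ hℓM A hA 0 (by
    intro ρ' hb hres
    rcases isBranchValue_jF M hb with h | h
    · exact Subtype.ext h
    · exfalso
      have : ρ' = 1728 := Subtype.ext h
      rw [this, map_ofNat, map_zero] at hres
      exact H21_resO_1728_ne_zero hℓ A hA h5 hres)
  rw [map_zero] at key
  exact le_trans (H21_char0_zero_ge M) key

/-- The fibre of `j~` over `1728` has at least `orbN M S` points. -/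
theorem H21_card_1728_ge :
    Fermat.Agent.S24.orbN M ModularGroup.S
      ≤ Nat.card {z : Place (kV A) ↥(redField A
          (laurentBaseChange Kbar (modularFunctionFieldFull M))
          (hasScale_laurentBaseChange A M)) //
        0 < z.ord (H21_jt M A - algebraMap (kV A) _ 1728)} := by
  have key := H21_fibre_ge M hℓ hℓM A hA 1728 (by
    intro ρ' hb hres
    rcases isBranchValue_jF M hb with h | h
    · exfalso
      have : ρ' = 0 := Subtype.ext h
      rw [this, map_ofNat, map_zero] at hres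
      exact H21_resO_1728_ne_zero hℓ A hA h5 hres.symm
    · exact Subtype.ext h)
  rw [map_ofNat] at key
  exact le_trans (H21_char0_1728_ge M) key

open Classical in
/-- **NUM at level `M`** (`ℓ ≥ 5`): a finite set `Z` of places of the reduced curve of level `M`,
none a pole of `j~`, all zeros of `H(j~)`, with `g(M ℓ) + 1 ≤ 2 g(M) + #Z`. -/
theorem H21_num (H : Polynomial (kV A)) (S : Finset (kV A)) (hH0 : H ≠ 0)
    (hS : ∀ x, x ∈ S ↔ H.IsRoot x)
    (hcard : S.card = H21_ssM ℓ + H21_ssA ℓ + H21_ssB ℓ)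
    (h0 : (0 : kV A) ∈ S ↔ ℓ % 3 = 2) (h1728 : (1728 : kV A) ∈ S ↔ ℓ % 4 = 3) :
    ∃ Z : Finset (Place (kV A) ↥(redField A
          (laurentBaseChange Kbar (modularFunctionFieldFull M))
          (hasScale_laurentBaseChange A M))),
      Z.Nonempty ∧
      (∀ z ∈ Z, 0 ≤ z.ord (H21_jt M A) ∧ 0 < z.ord (aeval (H21_jt M A) H)) ∧
      genusFormula (M * ℓ) + 1 ≤ 2 * genusFormula M + (Z.card : ℚ) := by
  haveI : Fact ℓ.Prime := ⟨hℓ⟩
  have hSne : S.Nonempty := by
    rw [← Finset.card_pos, hcard]
    have := H21_ss_weight hℓ h5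
    omega
  have h01 : (0 : kV A) ≠ 1728 := (H21_resO_1728_ne_zero hℓ A hA h5).symm
  obtain ⟨Z, hZ, hcardZ⟩ := H21_exists_zeros (H21_jt M A) S
    (fun J => if J = 0 then Fermat.Agent.S24.orbN M (ModularGroup.S * ModularGroup.T)
      else if J = 1728 then Fermat.Agent.S24.orbN M ModularGroup.S else dedekindPsi M) (by
    intro a ha
    by_cases e0 : a = 0
    · subst e0
      simp only [if_true]
      exact ⟨H21_orbN_ST_pos M, H21_card_zero_ge M hℓ hℓM A hA h5⟩
    · by_cases e1 : a = 1728
      · subst e1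
        simp only [if_neg e0, if_true]
        exact ⟨H21_orbN_S_pos M, H21_card_1728_ge M hℓ hℓM A hA h5⟩
      · simp only [if_neg e0, if_neg e1]
        exact ⟨H21_psi_pos M, H21_card_generic_ge M hℓ hℓM A hA h5 a e0 e1⟩)
  refine ⟨Z, ?_, ?_, ?_⟩
  · rw [← Finset.card_pos]
    refine lt_of_lt_of_le (Finset.sum_pos (fun a _ => ?_) hSne) hcardZ
    show 0 < (if a = 0 then Fermat.Agent.S24.orbN M (ModularGroup.S * ModularGroup.T)
      else if a = 1728 then Fermat.Agent.S24.orbN M ModularGroup.S else dedekindPsi M)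
    split_ifs
    · exact H21_orbN_ST_pos M
    · exact H21_orbN_S_pos M
    · exact H21_psi_pos M
  · intro z hz
    obtain ⟨a, ha, hza⟩ := hZ z hz
    exact ⟨H21_ord_nonneg_of_fibre z hza, H21_ord_aeval_pos z hza hH0 ((hS a).mp ha)⟩
  · have hA1 : H21_ssA ℓ ≤ 1 := by unfold H21_ssA; split_ifs <;> omega
    have hB1 : H21_ssB ℓ ≤ 1 := by unfold H21_ssB; split_ifs <;> omega
    have hA' : ℓ % 3 = 2 ↔ H21_ssA ℓ = 1 := by unfold H21_ssA; split_ifs <;> simp [*]
    have hB' : ℓ % 4 = 3 ↔ H21_ssB ℓ = 1 := by unfold H21_ssB; split_ifs <;> simp [*]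
    have hsum := H21_sum_ss S h01 (dedekindPsi M) (Fermat.Agent.S24.orbN M ModularGroup.S)
      (Fermat.Agent.S24.orbN M (ModularGroup.S * ModularGroup.T)) (H21_ssM ℓ) (H21_ssA ℓ)
      (H21_ssB ℓ) hcard (h0.trans hA') (h1728.trans hB') hA1 hB1
    have har := H21_arith h5 hℓM (Fermat.Agent.S24.orbN M ModularGroup.S)
      (Fermat.Agent.S24.orbN M (ModularGroup.S * ModularGroup.T))
      (Fermat.Agent.S24.asm_orb_S M) (Fermat.Agent.S24.asm_orb_ST M)
    rw [hsum] at hcardZ
    have h2 : ((H21_ssM ℓ * dedekindPsi M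
        + H21_ssA ℓ * Fermat.Agent.S24.orbN M (ModularGroup.S * ModularGroup.T)
        + H21_ssB ℓ * Fermat.Agent.S24.orbN M ModularGroup.S : ℕ) : ℚ) ≤ (Z.card : ℚ) := by
      exact_mod_cast hcardZ
    linarith

end Red

end Modular

end Fermat.Agent.BAD.H21
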