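import Fermat.Agent.BAD.H21_SSPoly
import Fermat.Agent.S28.H76_Bridge
import Fermat.Prelude.Def_ModularCurve_JqCoeff

/-!
# (SS) in terms of the prelude's `j` (BAD_q / NUM, module E; helper21)

* `H21_eisenstein4_eq`, `H21_X_mul_etaUnit` : the prelude's formal series are the S23 series.
* `H21_jqModC_mul_Db` : `j̃ * Δ̃ = Ẽ₄³` in `F((t))`, `j̃ = ModularCurve.jqModC F`.
* `H21_aeval_jqModC` : `H(j̃) = (Δ̃^n)⁻¹` whenever `hev Ẽ₄³ Δ̃ n H = 1`, `deg H ≤ n`.
* `H21_supersingular_jq` : (SS) for the prelude's `j̃`.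
-/

set_option autoImplicit false

noncomputable section

namespace Fermat.Agent.BAD.H21

open Polynomial
open Fermat.Agent.S23.H96 Fermat.Agent.S16.H41

lemma H21_eisenstein4_eq : ModularCurve.eisenstein4 = e4Series :=
  H21_map_int_injective
    (Fermat.Agent.S28.H76.qExpansion_E4_eq_eisenstein4.symm.trans qExpansion_E₄_eq)

lemma H21_X_mul_etaUnit : PowerSeries.X * ModularCurve.dedekindEtaUnit = deltaSeries := by
  apply H21_map_int_injective
  rw [← qExpansion_discriminant_eq, Fermat.Agent.S28.H76.qExpansion_disc_eq_etaProd,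
    ModularCurve.dedekindEtaUnit, map_mul, map_pow, PowerSeries.map_X]

section Laurent

variable (F : Type*) [Field F]

/-- `Δ̃` as a Laurent series. -/
def H21_DL : LaurentSeries F := HahnSeries.ofPowerSeries ℤ F (H21_Db F)

variable {F}

lemma H21_DL_ne_zero : H21_DL F ≠ 0 := by
  intro h
  apply H21_Db_ne_zero (F := F)
  apply HahnSeries.ofPowerSeries_injective (Γ := ℤ)
  rw [map_zero]
  exact h

/-- `j̃ * Δ̃ = Ẽ₄³`. -/
theorem H21_jqModC_mul_Db :
    ModularCurve.jqModC F * H21_DL F = HahnSeries.ofPowerSeries ℤ F (H21_Qb F ^ 3) := by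
  have h1 : H21_Db F = PowerSeries.X *
      ModularCurve.dedekindEtaUnit.map (Int.castRingHom F) := by
    rw [H21_Db, ← H21_X_mul_etaUnit, map_mul, PowerSeries.map_X]
  have h2 : ModularCurve.jNum.map (Int.castRingHom F) *
      ModularCurve.dedekindEtaUnit.map (Int.castRingHom F) = H21_Qb F ^ 3 := by
    rw [← map_mul, ModularCurve.jNum, mul_assoc, mul_comm ModularCurve.dedekindEtaUnitInv,
      ModularCurve.dedekindEtaUnit_mul_inv, mul_one, H21_eisenstein4_eq, map_pow, H21_Qb]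
  rw [H21_DL, h1, ← h2, ModularCurve.jqModC, map_mul, map_mul, HahnSeries.ofPowerSeries_X]
  have h3 : (HahnSeries.single (-1 : ℤ) (1 : F)) * HahnSeries.single (1 : ℤ) (1 : F) = 1 := by
    rw [HahnSeries.single_mul_single]
    simp
  calc HahnSeries.single (-1 : ℤ) (1 : F) *
        (HahnSeries.ofPowerSeries ℤ F) ((PowerSeries.map (Int.castRingHom F)) ModularCurve.jNum) *
        (HahnSeries.single 1 1 * (HahnSeries.ofPowerSeries ℤ F)
          ((PowerSeries.map (Int.castRingHom F)) ModularCurve.dedekindEtaUnit))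
      = (HahnSeries.single (-1 : ℤ) (1 : F) * HahnSeries.single (1 : ℤ) (1 : F)) *
        ((HahnSeries.ofPowerSeries ℤ F) ((PowerSeries.map (Int.castRingHom F)) ModularCurve.jNum) *
        (HahnSeries.ofPowerSeries ℤ F)
          ((PowerSeries.map (Int.castRingHom F)) ModularCurve.dedekindEtaUnit)) := by ring
    _ = _ := by rw [h3, one_mul]

lemma H21_jqModC_eq :
    ModularCurve.jqModC F = HahnSeries.ofPowerSeries ℤ F (H21_Qb F ^ 3) / H21_DL F := by
  rw [eq_div_iff H21_DL_ne_zero, H21_jqModC_mul_Db]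

/-- Naturality of `hev` under `ofPowerSeries`. -/
lemma H21_ofPowerSeries_hev (U V : PowerSeries F) (n : ℕ) (H : F[X]) :
    HahnSeries.ofPowerSeries ℤ F (hev U V n H) =
      hev (HahnSeries.ofPowerSeries ℤ F U) (HahnSeries.ofPowerSeries ℤ F V) n H := by
  rw [hev_eq_sum, hev_eq_sum, map_sum]
  refine Finset.sum_congr rfl fun kl _ => ?_
  rw [map_mul, map_mul, map_pow, map_pow]
  congr 1

/-- **`H(j̃) = Δ̃^{-n}`** for every polynomial `H` of degree `≤ n` with `hev Ẽ₄³ Δ̃ n H = 1`. -/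
theorem H21_aeval_jqModC {n : ℕ} {H : F[X]} (hH : H.natDegree ≤ n)
    (h1 : hev (H21_Qb F ^ 3) (H21_Db F) n H = 1) :
    Polynomial.aeval (ModularCurve.jqModC F) H = (H21_DL F ^ n)⁻¹ := by
  have h2 := congrArg (HahnSeries.ofPowerSeries ℤ F) h1
  rw [H21_ofPowerSeries_hev, map_one] at h2
  change hev ((HahnSeries.ofPowerSeries ℤ F) (H21_Qb F ^ 3)) (H21_DL F) n H = 1 at h2
  rw [H21_hev_eq_pow_mul_aeval (k := F) (K := LaurentSeries F) H21_DL_ne_zero hH] at h2
  rw [H21_jqModC_eq]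
  exact eq_inv_of_mul_eq_one_right h2

end Laurent

section Main

variable {F : Type*} [Field F] {ℓ : ℕ} [hℓ : Fact ℓ.Prime] [CharP F ℓ]

/-- **(SS) for the prelude's `j̃ = jqModC F`.**  For a prime `ℓ ≥ 5` and an algebraically closed
field `F` of characteristic `ℓ` there are `H ∈ F[X]` and a finite set `S ⊂ F` (the supersingular
`j`-invariants) with `H(j̃) = Δ̃^{1-ℓ}` in `F((t))`, `S` = the set of roots of `H`,
`#S = m + a + b`, `0 ∈ S ↔ ℓ ≡ 2 mod 3`, `1728 ∈ S ↔ ℓ ≡ 3 mod 4`. -/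
theorem H21_supersingular_jq [IsAlgClosed F] (h5 : 5 ≤ ℓ) :
    ∃ (H : F[X]) (S : Finset F), H ≠ 0 ∧
      Polynomial.aeval (ModularCurve.jqModC F) H = (H21_DL F ^ (ℓ - 1))⁻¹ ∧
      (∀ x, x ∈ S ↔ H.IsRoot x) ∧
      S.card = H21_ssM ℓ + H21_ssA ℓ + H21_ssB ℓ ∧
      ((0 : F) ∈ S ↔ ℓ % 3 = 2) ∧ ((1728 : F) ∈ S ↔ ℓ % 4 = 3) := by
  obtain ⟨H, S, hdeg, hH, hS, hcard, h0, h1728⟩ := H21_supersingular (F := F) (ℓ := ℓ) h5
  refine ⟨H, S, ?_, H21_aeval_jqModC hdeg hH, hS, hcard, h0, h1728⟩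
  rintro rfl
  rw [hev_zero] at hH
  exact zero_ne_one hH

omit hℓ in
lemma H21_Qb_eq_one_of_small (h23 : ℓ = 2 ∨ ℓ = 3) : H21_Qb F = 1 := by
  have h240 : ((240 : ℤ) : F) = 0 := by
    rw [CharP.intCast_eq_zero_iff F ℓ]
    rcases h23 with rfl | rfl <;> norm_num
  rw [H21_Qb, e4Series, map_add, map_one, map_mul, PowerSeries.map_C]
  simp only [eq_intCast]
  rw [h240, map_zero, zero_mul, add_zero]

omit hℓ in
/-- **(SS) for `ℓ = 2, 3`**: `j̃^{ℓ-1} = Δ̃^{1-ℓ}` (here `H = X^{ℓ-1}`, `S = {0}`). -/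
theorem H21_supersingular_jq_small (h23 : ℓ = 2 ∨ ℓ = 3) :
    ModularCurve.jqModC F ^ (ℓ - 1) = (H21_DL F ^ (ℓ - 1))⁻¹ := by
  rw [H21_jqModC_eq, H21_Qb_eq_one_of_small (F := F) h23, one_pow, map_one, one_div, inv_pow]

end Main

end Fermat.Agent.BAD.H21
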