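import Fermat.Agent.BAD.H30_UnitGauss
import Fermat.Agent.BAD.H21_SSBridge

/-!
# BAD_q, UNIT-GAUSS + (SS) (helper30): the reduction of the modular unit is `H(j~)`

Bridge between `H30_UnitGauss` (`gaussRes (unitF N q) = (Δ~ ^ (q - 1))⁻¹`) and helper21's
supersingular polynomial (`H21_supersingular_jq` : `H(j~) = (Δ~ ^ (q - 1))⁻¹`).

* `deltaR_eq_DL` : `deltaR F = H21_DL F`;
* `gaussRes_unitF_eq_aeval` : for `q ≥ 5`, `A` over `q`, `q ∣ N`: there are `H ≠ 0` and the finite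
  set `S` of its roots, `#S = m + a + b`, with `gaussRes (unitF N q) = H(j~)`;
* `gaussRes_unitF_small` : for `q = 2, 3`: `gaussRes (unitF N q) = j~ ^ (q - 1)`.
-/

set_option autoImplicit false
set_option linter.unusedSectionVars false
set_option linter.unusedVariables false

open ModularCurve Fermat.Agent.S28 Fermat.Agent.S28.H73 Fermat.Agent.RED.H73

noncomputable section

namespace Fermat.Agent.BAD.H30

open Fermat.Agent.BAD.H21

theorem deltaR_eq_DL (F : Type*) [Field F] : deltaR F = H21_DL F := by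
  rw [H21_DL, H21_Db, ← H21_X_mul_etaUnit, map_mul, PowerSeries.map_X, map_mul,
    HahnSeries.ofPowerSeries_X]
  rfl

section Main

variable (A : ValuationSubring (AlgebraicClosure ℚ)) (N : ℕ) [NeZero N] (q : ℕ) [Fact q.Prime]

/-- **UNIT + (SS)**, `q ≥ 5`: the Gauss reduction of `Δ(t)/Δ(t^q)` is `H(j~)`, `H` the
supersingular polynomial. -/
theorem gaussRes_unitF_eq_aeval (hA : A.LiesOverPrime q) (hd : q ∣ N) (h5 : 5 ≤ q) :
    haveI : NeZero q := ⟨(Fact.out : q.Prime).ne_zero⟩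
    ∃ (H : Polynomial (kV A)) (S : Finset (kV A)), H ≠ 0 ∧
      ((gaussRes A N ⟨unitF N q hd, unitF_mem_gaussV A N q hd⟩ :
        ↥(redField A (FNbar N) (hasScale_laurentBaseChange A N))) : LaurentSeries (kV A))
        = Polynomial.aeval (jqModC (kV A)) H ∧
      (∀ x, x ∈ S ↔ H.IsRoot x) ∧
      S.card = H21_ssM q + H21_ssA q + H21_ssB q ∧
      ((0 : kV A) ∈ S ↔ q % 3 = 2) ∧ ((1728 : kV A) ∈ S ↔ q % 4 = 3) := by
  have : NeZero q := ⟨(Fact.out : q.Prime).ne_zero⟩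
  have : CharP (kV A) q := Fermat.Agent.BAD.H82.charP_kV A (Fact.out : q.Prime) hA
  have : IsAlgClosed (kV A) := Fermat.Agent.RED.H73.isAlgClosed_kV A
  obtain ⟨H, S, hH0, hH, hS, hcard, h0, h1728⟩ :=
    H21_supersingular_jq (F := kV A) (ℓ := q) h5
  refine ⟨H, S, hH0, ?_, hS, hcard, h0, h1728⟩
  rw [gaussRes_unitF_char A N q hA hd, hH, deltaR_eq_DL]

/-- **UNIT + (SS)**, `q = 2, 3`: the Gauss reduction of `Δ(t)/Δ(t^q)` is `j~ ^ (q - 1)`. -/
theorem gaussRes_unitF_small (hA : A.LiesOverPrime q) (hd : q ∣ N) (h23 : q = 2 ∨ q = 3) :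
    haveI : NeZero q := ⟨(Fact.out : q.Prime).ne_zero⟩
    ((gaussRes A N ⟨unitF N q hd, unitF_mem_gaussV A N q hd⟩ :
        ↥(redField A (FNbar N) (hasScale_laurentBaseChange A N))) : LaurentSeries (kV A))
      = jqModC (kV A) ^ (q - 1) := by
  have : NeZero q := ⟨(Fact.out : q.Prime).ne_zero⟩
  have : CharP (kV A) q := Fermat.Agent.BAD.H82.charP_kV A (Fact.out : q.Prime) hA
  rw [gaussRes_unitF_char A N q hA hd, H21_supersingular_jq_small (F := kV A) (ℓ := q) h23,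
    deltaR_eq_DL]

end Main

end Fermat.Agent.BAD.H30
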