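import Fermat.Agent.BAD.H21_CountMod
import Fermat.Agent.BAD.H30_UnitGaussSS

/-!
# BAD_q, package NUM (helper21), `q ≥ 5`: the final form at level `M`

`H21_num_final` : for a prime `q ≥ 5`, `q ∤ M`, `A` over `q`: there is a nonempty finite set `Z`
of places of the reduced function field of level `M` (`redField A (FNbar M) _`), none a pole of
`j~`, such that every element `y` of the reduced field of level `M` with the same `q`-expansion
as the Gauss reduction of the modular unit `unitF (M q) q = Δ(t)/Δ(t^q)` (of level `M q`) has a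
zero at every `z ∈ Z`, and `g(M q) + 1 ≤ 2 g(M) + #Z`.

(Interface NUM → MODSSD of helper91.)
-/

set_option autoImplicit false
set_option linter.style.haveILetI false
set_option linter.unusedSectionVars false
set_option synthInstance.maxHeartbeats 400000
set_option maxHeartbeats 1000000

noncomputable section

open AlgebraicCurve Polynomial IntermediateField

namespace Fermat.Agent.BAD.H21

open ModularCurve Fermat.Agent.S28.H73 Fermat.Agent.RED.H73 Fermat.Agent.RED.H34
  Fermat.Agent.RED.H76 Fermat.Agent.RED.H51 Fermat.Agent.BAD.H30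
open Fermat.Agent.S24 (Kbar FN)

/-- The `q`-expansion of `H(j~)`. -/
theorem H21_coe_aeval_jt (M : ℕ) [NeZero M] (A : ValuationSubring Kbar)
    (H : Polynomial (kV A)) :
    ((aeval (H21_jt M A) H : ↥(redField A
        (laurentBaseChange Kbar (modularFunctionFieldFull M))
        (hasScale_laurentBaseChange A M))) : LaurentSeries (kV A))
      = aeval (jqModC (kV A)) H := by
  have h1 := Polynomial.aeval_algHom_apply
    (IntermediateField.val (redField A (laurentBaseChange Kbar (modularFunctionFieldFull M))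
      (hasScale_laurentBaseChange A M))) (H21_jt M A) H
  rw [IntermediateField.val_mk] at h1
  have h2 : ((H21_jt M A : ↥(redField A (laurentBaseChange Kbar (modularFunctionFieldFull M))
      (hasScale_laurentBaseChange A M))) : LaurentSeries (kV A)) = jqModC (kV A) :=
    red_jF A M
  rw [← h2]
  exact h1.symm

/-- **NUM at level `M`, `q ≥ 5`** (interface NUM → MODSSD). -/
theorem H21_num_final (M q : ℕ) [NeZero M] [NeZero (M * q)] (hq : q.Prime) (h5 : 5 ≤ q)
    (hqM : ¬ q ∣ M) (A : ValuationSubring (AlgebraicClosure ℚ)) (hA : A.LiesOverPrime q)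
    (hd : q ∣ M * q) :
    haveI : NeZero q := ⟨hq.ne_zero⟩
    ∃ Z : Finset (Place (kV A) ↥(redField A (FNbar M) (hasScale_laurentBaseChange A M))),
      Z.Nonempty ∧
      (∀ z ∈ Z, 0 ≤ z.ord (gaussRes A M ⟨jF (L := Kbar) M, jF_mem A M⟩)) ∧
      (∀ z ∈ Z, ∀ y : ↥(redField A (FNbar M) (hasScale_laurentBaseChange A M)),
        (y : LaurentSeries (kV A))
          = ((gaussRes A (M * q) ⟨unitF (M * q) q hd, unitF_mem_gaussV A (M * q) q hd⟩ :
              ↥(redField A (FNbar (M * q)) (hasScale_laurentBaseChange A (M * q)))) :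
              LaurentSeries (kV A)) → 0 < z.ord y) ∧
      genusFormula (M * q) + 1 ≤ 2 * genusFormula M + (Z.card : ℚ) := by
  haveI : NeZero q := ⟨hq.ne_zero⟩
  haveI : Fact q.Prime := ⟨hq⟩
  obtain ⟨H, S, hH0, hH, hS, hcard, h0, h1728⟩ :=
    gaussRes_unitF_eq_aeval A (M * q) q hA hd h5
  obtain ⟨Z, hne, hZ, hg⟩ := H21_num M hq hqM A hA h5 H S hH0 hS hcard h0 h1728
  refine ⟨Z, hne, fun z hz => (hZ z hz).1, ?_, hg⟩
  intro z hz y hy
  have e : y = aeval (H21_jt M A) H := by
    apply Subtype.ext
    rw [hy, H21_coe_aeval_jt]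
    exact hH
  rw [e]
  exact (hZ z hz).2

end Fermat.Agent.BAD.H21
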