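import Fermat.Agent.S20.H70_Ramanujan

/-!
# Ramanujan's identity for `E₂` (BAD_q / NUM / (SS), module A; helper21)

* `H21_D_eq_qParam_mul_deriv` : `D F z = q * (cuspFunction 1 F)'(q)` for every `1`-periodic
  holomorphic `F` bounded at `i∞`.
* `H21_tendsto_D_atImInfty` : `D F → 0` at `i∞` for such `F`.
* `H21_ramanujan_E2` : `D E₂ = (E₂² - E₄) / 12`.
-/

set_option autoImplicit false

noncomputable section

namespace Fermat.Agent.BAD.H21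

open UpperHalfPlane hiding I
open ModularForm EisensteinSeries Derivative Filter Topology Complex
open scoped MatrixGroups Manifold Real

local notation "𝕢" => Function.Periodic.qParam

/-- On the upper half plane `F ∘ ofComplex` agrees with `cuspFunction 1 F ∘ 𝕢 1`. -/
lemma H21_comp_ofComplex_eventuallyEq {F : ℍ → ℂ}
    (hper : Function.Periodic (F ∘ ofComplex) (1 : ℝ)) (z : ℍ) :
    (F ∘ ofComplex) =ᶠ[𝓝 (z : ℂ)] fun w ↦ cuspFunction 1 F (𝕢 1 w) := by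
  filter_upwards [isOpen_upperHalfPlaneSet.mem_nhds z.im_pos] with w hw
  have := UpperHalfPlane.eq_cuspFunction (h := 1) (f := F) ⟨w, hw⟩ one_ne_zero hper
  simp only [Function.comp_apply, ofComplex_apply_of_im_pos hw]
  exact this.symm

lemma H21_hasDerivAt_qParam (z : ℂ) : HasDerivAt (𝕢 1) (2 * π * I * 𝕢 1 z) z := by
  have h1 : HasDerivAt (fun w : ℂ ↦ 2 * π * I * w / ((1 : ℝ) : ℂ)) (2 * π * I) z := by
    simpa using ((hasDerivAt_id z).const_mul (2 * π * I)).div_const ((1 : ℝ) : ℂ)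
  have h2 : HasDerivAt (fun w : ℂ ↦ cexp (2 * π * I * w / ((1 : ℝ) : ℂ)))
      (cexp (2 * π * I * z / ((1 : ℝ) : ℂ)) * (2 * π * I)) z := h1.cexp
  have h3 : (𝕢 1) = fun w : ℂ ↦ cexp (2 * π * I * w / ((1 : ℝ) : ℂ)) := by
    funext w; simp [Function.Periodic.qParam]
  rw [h3]
  convert h2 using 1
  ring

/-- `D F z = q * (d/dq) (cuspFunction F) (q)`. -/
lemma H21_D_eq_qParam_mul_deriv {F : ℍ → ℂ}
    (hper : Function.Periodic (F ∘ ofComplex) (1 : ℝ)) (hhol : MDiff F)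
    (hbdd : IsBoundedAtImInfty F) (z : ℍ) :
    D F z = 𝕢 1 (z : ℂ) * deriv (cuspFunction 1 F) (𝕢 1 (z : ℂ)) := by
  have hq := H21_hasDerivAt_qParam (z : ℂ)
  have hc : HasDerivAt (cuspFunction 1 F) (deriv (cuspFunction 1 F) (𝕢 1 (z : ℂ)))
      (𝕢 1 (z : ℂ)) :=
    (UpperHalfPlane.differentiableAt_cuspFunction one_pos hper hhol hbdd
      (Fermat.Agent.S20.H70.norm_qParam_lt_one z)).hasDerivAt
  have hcomp : HasDerivAt (fun w ↦ cuspFunction 1 F (𝕢 1 w))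
      (deriv (cuspFunction 1 F) (𝕢 1 (z : ℂ)) * (2 * π * I * 𝕢 1 (z : ℂ))) (z : ℂ) :=
    hc.comp (z : ℂ) hq
  have hd : deriv (F ∘ ofComplex) (z : ℂ) =
      deriv (cuspFunction 1 F) (𝕢 1 (z : ℂ)) * (2 * π * I * 𝕢 1 (z : ℂ)) := by
    rw [(H21_comp_ofComplex_eventuallyEq hper z).deriv_eq]
    exact hcomp.deriv
  have h2pi : (2 * π * I : ℂ) ≠ 0 := by
    simp [Real.pi_ne_zero, I_ne_zero]
  rw [normalizedDerivOfComplex, hd]
  field_simp

/-- The normalized derivative of a periodic holomorphic function bounded at `i∞` tends to `0`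
at `i∞`. -/
lemma H21_tendsto_D_atImInfty {F : ℍ → ℂ}
    (hper : Function.Periodic (F ∘ ofComplex) (1 : ℝ)) (hhol : MDiff F)
    (hbdd : IsBoundedAtImInfty F) :
    Tendsto (D F) atImInfty (𝓝 0) := by
  have hq : Tendsto (fun τ : ℍ ↦ 𝕢 1 (τ : ℂ)) atImInfty (𝓝 0) :=
    qParam_tendsto_atImInfty one_pos
  have hdiff : DifferentiableOn ℂ (cuspFunction 1 F) (Metric.ball 0 1) :=
    UpperHalfPlane.differentiableOn_cuspFunction_ball one_pos hper hhol hbdd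
  have hcont : ContinuousAt (deriv (cuspFunction 1 F)) 0 :=
    ((hdiff.analyticOnNhd Metric.isOpen_ball).deriv 0 (by simp)).continuousAt
  have h1 : Tendsto (fun τ : ℍ ↦ deriv (cuspFunction 1 F) (𝕢 1 (τ : ℂ))) atImInfty
      (𝓝 (deriv (cuspFunction 1 F) 0)) := hcont.tendsto.comp hq
  have h2 := hq.mul h1
  rw [zero_mul] at h2
  refine h2.congr fun τ ↦ ?_
  exact (H21_D_eq_qParam_mul_deriv hper hhol hbdd τ).symm

/-- `D (D2 γ) z = -(γ₁₀)² / (cz+d)²`. -/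
lemma H21_D_D2 (γ : SL(2, ℤ)) (z : ℍ) :
    D (D2 γ) z = -((γ 1 0 : ℂ)) ^ 2 / (denom γ z) ^ 2 := by
  have h2pi : (2 * π * I : ℂ) ≠ 0 := by
    simp [Real.pi_ne_zero, I_ne_zero]
  have hz := denom_ne_zero (γ : GL (Fin 2) ℝ) z
  have h1 := hasDerivAt_denom_zpow (γ : GL (Fin 2) ℝ) (-1) z
  have h2 : HasDerivAt (fun w : ℂ ↦ (2 * π * I * (γ 1 0 : ℂ)) * denom (γ : GL (Fin 2) ℝ) w ^ (-1 : ℤ))
      ((2 * π * I * (γ 1 0 : ℂ)) *
        (((-1 : ℤ) : ℂ) * ((γ : GL (Fin 2) ℝ) 1 0 : ℂ) * denom (γ : GL (Fin 2) ℝ) z ^ ((-1 : ℤ) - 1)))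
      (z : ℂ) := h1.const_mul _
  have h3 : (D2 γ ∘ ofComplex) =ᶠ[𝓝 (z : ℂ)]
      fun w : ℂ ↦ (2 * π * I * (γ 1 0 : ℂ)) * denom (γ : GL (Fin 2) ℝ) w ^ (-1 : ℤ) := by
    filter_upwards [isOpen_upperHalfPlaneSet.mem_nhds z.im_pos] with w hw
    simp [D2, Function.comp_apply, ofComplex_apply_of_im_pos hw, div_eq_mul_inv]
  rw [normalizedDerivOfComplex, (h2.congr_of_eventuallyEq h3).deriv]
  have h4 : denom (γ : GL (Fin 2) ℝ) z ^ ((-1 : ℤ) - 1) = ((denom (γ : GL (Fin 2) ℝ) z) ^ 2)⁻¹ := by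
    rw [show ((-1 : ℤ) - 1) = -2 by norm_num, zpow_neg]
    norm_cast
  rw [h4]
  have h5 : (((γ : GL (Fin 2) ℝ) 1 0 : ℝ) : ℂ) = (γ 1 0 : ℂ) := by
    simp
  rw [h5]
  field_simp
  push_cast
  ring

lemma H21_mdiff_D2 (γ : SL(2, ℤ)) : MDiff (D2 γ) := by
  have h := (mdifferentiable_inv_denom (γ : GL (Fin 2) ℝ)).const_smul (2 * π * I * (γ 1 0 : ℂ))
  have e : D2 γ = (2 * π * I * (γ 1 0 : ℂ)) • fun τ : ℍ ↦ (denom (γ : GL (Fin 2) ℝ) τ)⁻¹ := by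
    funext z
    simp [D2, div_eq_mul_inv]
  rw [e]
  exact h

/-- The function `D E₂ - E₂² / 12`. -/
def H21_ramFun : ℍ → ℂ := fun z ↦ D E2 z - 12⁻¹ * E2 z ^ 2

lemma H21_alg_F1 (p c d : ℂ) (hp : p ≠ 0) (hd : d ≠ 0) :
    1 / (2 * (p ^ 2 / 6)) * (-c ^ 2 / d ^ 2) =
      12⁻¹ * (1 / (2 * (p ^ 2 / 6)) * (2 * p * I * c / d)) ^ 2 := by
  field_simp
  linear_combination (-(12 : ℂ) * c ^ 2) * I_sq

lemma H21_alg_F2 (p c d : ℂ) (hp : p ≠ 0) (hd : d ≠ 0) :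
    2 * (2 * p * I)⁻¹ * (c / d) = -(6⁻¹ * (1 / (2 * (p ^ 2 / 6)) * (2 * p * I * c / d))) := by
  have hI : (I : ℂ) ≠ 0 := I_ne_zero
  field_simp
  linear_combination c * I_sq

lemma H21_ramFun_slash (γ : SL(2, ℤ)) : H21_ramFun ∣[(4 : ℤ)] γ = H21_ramFun := by
  ext z
  have hpi : (π : ℂ) ≠ 0 := by exact_mod_cast Real.pi_ne_zero
  have hz := denom_ne_zero (γ : GL (Fin 2) ℝ) z
  have hD := congrFun (normalizedDerivOfComplex_SL_slash (k := 2) E2_mdifferentiable (γ := γ)) z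
  have hE := E2_slash_action γ
  have hEz : (E2 ∣[(2 : ℤ)] γ) z = E2 z - 1 / (2 * riemannZeta 2) * D2 γ z := by
    rw [hE]; rfl
  have hDsub : D (E2 ∣[(2 : ℤ)] γ) z = D E2 z - 1 / (2 * riemannZeta 2) * D (D2 γ) z := by
    rw [hE, normalizedDerivOfComplex_sub _ _ E2_mdifferentiable ((H21_mdiff_D2 γ).const_smul _),
      normalizedDerivOfComplex_smul _ _ (H21_mdiff_D2 γ)]
    rfl
  rw [hDsub, H21_D_D2] at hD
  simp only [Pi.sub_apply] at hD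
  rw [hEz] at hD
  rw [ModularForm.SL_slash_apply] at hD hEz ⊢
  simp only [H21_ramFun, D2, riemannZeta_two] at hD hEz ⊢
  have e4 : denom (γ : GL (Fin 2) ℝ) z ^ (-(4 : ℤ)) = ((denom (γ : GL (Fin 2) ℝ) z) ^ 4)⁻¹ := by
    rw [zpow_neg]; norm_cast
  have e4' : denom (γ : GL (Fin 2) ℝ) z ^ (-((2 : ℤ) + 2)) =
      ((denom (γ : GL (Fin 2) ℝ) z) ^ 4)⁻¹ := by
    rw [show (-((2 : ℤ) + 2)) = -4 by norm_num, zpow_neg]; norm_cast
  have e2 : denom (γ : GL (Fin 2) ℝ) z ^ (-(2 : ℤ)) = ((denom (γ : GL (Fin 2) ℝ) z) ^ 2)⁻¹ := by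
    rw [zpow_neg]; norm_cast
  rw [e4'] at hD
  push_cast at hD
  rw [e2] at hEz
  rw [e4]
  rw [H21_alg_F1 _ _ _ hpi hz, H21_alg_F2 _ _ _ hpi hz] at hD
  generalize (1 / (2 * ((π : ℂ) ^ 2 / 6)) *
    (2 * π * I * (γ 1 0 : ℂ) / denom (γ : GL (Fin 2) ℝ) z)) = ε at hD hEz
  generalize denom (γ : GL (Fin 2) ℝ) z = d at hD hEz hz ⊢
  generalize D E2 (γ • z) = X at hD ⊢
  generalize E2 (γ • z) = Y at hEz ⊢
  have hY : Y = (E2 z - ε) * d ^ 2 := by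
    rw [← hEz]; field_simp
  have hX : X = (D E2 z - 12⁻¹ * ε ^ 2 - 6⁻¹ * ε * (E2 z - ε)) * d ^ 4 := by
    have : X * (d ^ 4)⁻¹ = D E2 z - 12⁻¹ * ε ^ 2 - 6⁻¹ * ε * (E2 z - ε) := by
      linear_combination -hD
    rw [← this]; field_simp
  rw [hX, hY]
  field_simp
  ring

lemma H21_ramFun_mdiff : MDiff H21_ramFun := by
  have h1 : MDiff (D E2) := normalizedDerivOfComplex_mdifferentiable E2_mdifferentiable
  have h2 : MDiff (fun z : ℍ ↦ (12⁻¹ : ℂ) * (E2 z * E2 z)) :=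
    MDifferentiable.mul mdifferentiable_const (E2_mdifferentiable.mul E2_mdifferentiable)
  have := h1.sub h2
  convert this using 1
  funext z
  simp [H21_ramFun, pow_two]

lemma H21_tendsto_ramFun : Tendsto H21_ramFun atImInfty (𝓝 (-(12⁻¹ : ℂ))) := by
  have h1 := H21_tendsto_D_atImInfty Fermat.Agent.S20.H70.E2_periodic E2_mdifferentiable
    isBoundedAtImInfty_E2
  have h2 := (Fermat.Agent.S20.H70.tendsto_E2_atImInfty.pow 2).const_mul (12⁻¹ : ℂ)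
  have := h1.sub h2
  simp only [one_pow, mul_one, zero_sub] at this
  exact this

/-- `D E₂ - E₂²/12` as a modular form of weight `4` and level one. -/
def H21_ramMF : ModularForm 𝒮ℒ 4 where
  toFun := H21_ramFun
  slash_action_eq' A hA := by
    obtain ⟨γ, rfl⟩ := hA
    exact H21_ramFun_slash γ
  holo' := H21_ramFun_mdiff
  bdd_at_cusps' hc := by
    rw [Subgroup.IsArithmetic.isCusp_iff_isCusp_SL2Z] at hc
    rw [OnePoint.isBoundedAt_iff_forall_SL2Z hc]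
    intro γ _
    rw [H21_ramFun_slash γ]
    exact H21_tendsto_ramFun.isBigO_one ℝ

/-- **Ramanujan's identity** `D E₂ = (E₂² - E₄) / 12`. -/
theorem H21_ramanujan_E2 (z : ℍ) : D E2 z = (E2 z ^ 2 - E₄ z) / 12 := by
  obtain ⟨c, hc⟩ : ∃ c : ℂ, c • E₄ = H21_ramMF :=
    (finrank_eq_one_iff_of_nonzero' E₄ (E_ne_zero _ ⟨2, rfl⟩)).mp
      (Module.rank_eq_one_iff_finrank_eq_one.mp levelOne_weight_four_rank_one) _
  have hF : ∀ τ : ℍ, H21_ramMF τ = H21_ramFun τ := fun τ ↦ rfl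
  have hcE : ∀ τ : ℍ, c * E₄ τ = H21_ramFun τ := fun τ ↦ by
    rw [← hF, ← hc]; rfl
  have h1 : Tendsto (fun τ : ℍ ↦ c * E₄ τ) atImInfty (𝓝 (c * 1)) :=
    Fermat.Agent.S20.H70.tendsto_E₄_atImInfty.const_mul c
  have h2 : Tendsto (fun τ : ℍ ↦ c * E₄ τ) atImInfty (𝓝 (-(12⁻¹ : ℂ))) :=
    H21_tendsto_ramFun.congr fun τ ↦ (hcE τ).symm
  have hc' : c = -(12⁻¹ : ℂ) := by
    have := tendsto_nhds_unique h1 h2
    rwa [mul_one] at this
  have := hcE z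
  rw [hc', H21_ramFun] at this
  linear_combination -this

end Fermat.Agent.BAD.H21
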