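import Fermat.Agent.BAD.H21_RamE2
import Fermat.Agent.S23.H22_Nice
import Fermat.Agent.S23.H96_LevelOne

/-!
# Ramanujan's identities for integral `q`-series (BAD_q / NUM / (SS), module B; helper21)

* `H21_nice_D` : `D F` is nice when `F` is.
* `H21_qExpansion_D` : `qExpansion 1 (D F) = X * d/dX (qExpansion 1 F)`.
* `H21_e2Series`, and the three identities `H21_theta_e2Series`, `H21_theta_e4Series`,
  `H21_theta_e6Series` in `ℤ⟦X⟧`.
-/

set_option autoImplicit false

noncomputable section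

namespace Fermat.Agent.BAD.H21

open UpperHalfPlane hiding I
open ModularForm EisensteinSeries Derivative Filter Topology Complex
open scoped MatrixGroups Manifold Real
open Fermat.Agent.S23.H22 Fermat.Agent.S23.H96

local notation "𝕢" => Function.Periodic.qParam

lemma H21_qParam_add_one (z : ℂ) : 𝕢 1 (z + 1) = 𝕢 1 z := by
  unfold Function.Periodic.qParam
  have : 2 * π * I * (z + 1) / ((1 : ℝ) : ℂ) = 2 * π * I * z / ((1 : ℝ) : ℂ) + 2 * π * I := by
    simp; ring
  rw [this, Complex.exp_add, Complex.exp_two_pi_mul_I, mul_one]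

lemma H21_periodic_of_qParam (Ψ : ℂ → ℂ) :
    Function.Periodic ((fun z : ℍ => Ψ (𝕢 1 z)) ∘ ofComplex) (1 : ℝ) := by
  intro w
  simp only [Function.comp_apply]
  by_cases hw : 0 < w.im
  · have hw' : 0 < (w + ((1 : ℝ) : ℂ)).im := by simpa using hw
    rw [ofComplex_apply_of_im_pos hw, ofComplex_apply_of_im_pos hw']
    show Ψ (𝕢 1 (w + ((1 : ℝ) : ℂ))) = Ψ (𝕢 1 w)
    rw [ofReal_one, H21_qParam_add_one]
  · have hw1 : w.im ≤ 0 := not_lt.mp hw
    have hw' : (w + ((1 : ℝ) : ℂ)).im ≤ 0 := by simpa using hw1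
    rw [ofComplex_apply_eq_of_im_nonpos hw' hw1]

/-- `D` preserves niceness. -/
lemma H21_nice_D {F : ℍ → ℂ} (hF : Nice 1 F) : Nice 1 (D F) where
  per := by
    have e : D F = fun z : ℍ => (fun q : ℂ => q * deriv (cuspFunction 1 F) q) (𝕢 1 z) := by
      funext z
      exact H21_D_eq_qParam_mul_deriv hF.per hF.hol hF.bdd z
    rw [e]
    exact H21_periodic_of_qParam (fun q : ℂ => q * deriv (cuspFunction 1 F) q)
  hol := normalizedDerivOfComplex_mdifferentiable hF.hol
  bdd := (H21_tendsto_D_atImInfty hF.per hF.hol hF.bdd).isBigO_one ℝ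

/-- The `q`-expansion of `D F`, as a convergent sum. -/
lemma H21_hasSum_D {F : ℍ → ℂ} (hF : Nice 1 F) (τ : ℍ) :
    HasSum (fun m : ℕ ↦ ((m : ℂ) * (qExpansion 1 F).coeff m) • 𝕢 1 (τ : ℂ) ^ m) (D F τ) := by
  have hdiff : DifferentiableOn ℂ (cuspFunction 1 F) (Metric.ball 0 1) :=
    UpperHalfPlane.differentiableOn_cuspFunction_ball one_pos hF.per hF.hol hF.bdd
  have hdiff' : DifferentiableOn ℂ (deriv (cuspFunction 1 F)) (Metric.ball 0 1) :=
    ((hdiff.analyticOnNhd Metric.isOpen_ball).deriv).differentiableOn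
  have hq : 𝕢 1 (τ : ℂ) ∈ Metric.ball (0 : ℂ) 1 := by
    simpa using Fermat.Agent.S20.H70.norm_qParam_lt_one τ
  have h1 := Complex.hasSum_taylorSeries_on_ball hdiff' hq
  have h2 := h1.mul_left (𝕢 1 (τ : ℂ))
  rw [← H21_D_eq_qParam_mul_deriv hF.per hF.hol hF.bdd τ] at h2
  rw [← hasSum_nat_add_iff' 1]
  simp only [Finset.range_one, Finset.sum_singleton, Nat.cast_zero, zero_mul, zero_smul, sub_zero]
  have key : (fun n : ℕ ↦ (((n + 1 : ℕ) : ℂ) * (qExpansion 1 F).coeff (n + 1)) •
        𝕢 1 (τ : ℂ) ^ (n + 1)) =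
      fun i : ℕ ↦ 𝕢 1 (τ : ℂ) * ((i.factorial : ℂ)⁻¹ • (𝕢 1 (τ : ℂ) - 0) ^ i •
        iteratedDeriv i (deriv (cuspFunction 1 F)) 0) := by
    funext n
    rw [qExpansion_coeff, ← iteratedDeriv_succ', sub_zero]
    simp only [smul_eq_mul, Nat.factorial_succ, Nat.cast_mul, Nat.cast_succ]
    have hn : ((n : ℂ) + 1) ≠ 0 := by exact_mod_cast Nat.succ_ne_zero n
    have hf : ((n.factorial : ℕ) : ℂ) ≠ 0 := by exact_mod_cast Nat.factorial_ne_zero n
    field_simp
    ring
  rw [key]
  exact h2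

/-- **`q`-expansion of the normalized derivative**: `a_m(D F) = m a_m(F)`. -/
lemma H21_qExpansion_D_coeff {F : ℍ → ℂ} (hF : Nice 1 F) (m : ℕ) :
    (qExpansion 1 (D F)).coeff m = (m : ℂ) * (qExpansion 1 F).coeff m :=
  (UpperHalfPlane.qExpansion_coeff_unique
    (ContinuousMap.mk (D F) (H21_nice_D hF).hol.continuous) one_pos
    ((H21_nice_D hF).analyticAt one_pos) (H21_hasSum_D hF) m).symm

/-- **`q`-expansion of the normalized derivative**: `qExp (D F) = X * d/dX (qExp F)`. -/
lemma H21_qExpansion_D {F : ℍ → ℂ} (hF : Nice 1 F) :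
    qExpansion 1 (D F) = PowerSeries.X * PowerSeries.derivative ℂ (qExpansion 1 F) := by
  ext m
  rw [H21_qExpansion_D_coeff hF]
  rcases m with _ | m
  · simp
  · rw [mul_comm PowerSeries.X, PowerSeries.coeff_succ_mul_X, PowerSeries.coeff_derivative]
    push_cast
    ring

/-! ### The integral series -/

/-- The integral `q`-expansion of `E₂`. -/
def H21_e2Series : PowerSeries ℤ := 1 - PowerSeries.C (24 : ℤ) * sigmaSeries 1

lemma H21_coeff_e2Series (m : ℕ) :
    H21_e2Series.coeff m = if m = 0 then 1 else -24 * ((ArithmeticFunction.sigma 1 m : ℕ) : ℤ) := by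
  simp only [H21_e2Series, map_sub, PowerSeries.coeff_one, PowerSeries.coeff_C_mul,
    coeff_sigmaSeries]
  split_ifs with h
  · subst h; simp
  · simp

lemma H21_nice_E2 : Nice 1 E2 where
  per := Fermat.Agent.S20.H70.E2_periodic
  hol := E2_mdifferentiable
  bdd := isBoundedAtImInfty_E2

lemma H21_qExpansion_E2_eq : qExpansion 1 E2 = H21_e2Series.map (Int.castRingHom ℂ) := by
  ext m
  have h := UpperHalfPlane.qExpansion_coeff_unique
    (ContinuousMap.mk E2 H21_nice_E2.hol.continuous) one_pos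
    (H21_nice_E2.analyticAt one_pos) Fermat.Agent.S20.H70.hasSum_E2_qParam m
  rw [PowerSeries.coeff_map, H21_coeff_e2Series]
  have h' : (qExpansion 1 E2).coeff m = Fermat.Agent.S20.H70.E2coeff m := h.symm
  rw [h', Fermat.Agent.S20.H70.E2coeff]
  split_ifs with hm
  · simp
  · simp only [eq_intCast]; push_cast; ring

lemma H21_map_derivative (P : PowerSeries ℤ) :
    (PowerSeries.derivative ℤ P).map (Int.castRingHom ℂ) =
      PowerSeries.derivative ℂ (P.map (Int.castRingHom ℂ)) := by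
  ext m
  simp [PowerSeries.coeff_derivative, PowerSeries.coeff_map]

lemma H21_map_int_injective :
    Function.Injective (PowerSeries.map (Int.castRingHom ℂ)) := by
  intro P Q h
  ext m
  have := congrArg (PowerSeries.coeff m) h
  simpa [PowerSeries.coeff_map] using this

/-- **Ramanujan**: `12 θ P = P² - Q` in `ℤ⟦X⟧`. -/
theorem H21_theta_e2Series :
    12 * (PowerSeries.X * PowerSeries.derivative ℤ H21_e2Series) = H21_e2Series ^ 2 - e4Series := by
  apply H21_map_int_injective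
  have hfun : (12 : ℂ) • D E2 = E2 ^ 2 - ⇑E₄ := by
    funext z
    simp only [Pi.smul_apply, Pi.sub_apply, Pi.pow_apply, smul_eq_mul, H21_ramanujan_E2 z]
    ring
  have h := congrArg (qExpansion 1) hfun
  rw [Nice.qExpansion_smul one_pos (H21_nice_D H21_nice_E2),
    Nice.qExpansion_sub one_pos (H21_nice_E2.pow 2) (nice_levelOne E₄),
    Nice.qExpansion_pow one_pos H21_nice_E2, H21_qExpansion_D H21_nice_E2,
    H21_qExpansion_E2_eq, qExpansion_E₄_eq, ← H21_map_derivative] at h
  simp only [map_mul, map_sub, map_pow, PowerSeries.map_X, map_ofNat]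
  rw [← h, PowerSeries.smul_eq_C_mul, map_ofNat]

/-- **Ramanujan**: `3 θ Q = P Q - R` in `ℤ⟦X⟧`. -/
theorem H21_theta_e4Series :
    3 * (PowerSeries.X * PowerSeries.derivative ℤ e4Series) =
      H21_e2Series * e4Series - e6Series := by
  apply H21_map_int_injective
  have hfun : (3 : ℂ) • D ⇑E₄ = E2 * ⇑E₄ - ⇑E₆ := by
    funext z
    simp only [Pi.smul_apply, Pi.sub_apply, Pi.mul_apply, smul_eq_mul,
      Fermat.Agent.S20.H70.ramanujan_E₄ z]
    ring
  have h := congrArg (qExpansion 1) hfun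
  rw [Nice.qExpansion_smul one_pos (H21_nice_D (nice_levelOne E₄)),
    Nice.qExpansion_sub one_pos (H21_nice_E2.mul (nice_levelOne E₄)) (nice_levelOne E₆),
    Nice.qExpansion_mul one_pos H21_nice_E2 (nice_levelOne E₄),
    H21_qExpansion_D (nice_levelOne E₄),
    H21_qExpansion_E2_eq, qExpansion_E₄_eq, qExpansion_E₆_eq, ← H21_map_derivative] at h
  simp only [map_mul, map_sub, PowerSeries.map_X, map_ofNat]
  rw [← h, PowerSeries.smul_eq_C_mul, map_ofNat]

/-- **Ramanujan**: `2 θ R = P R - Q²` in `ℤ⟦X⟧`. -/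
theorem H21_theta_e6Series :
    2 * (PowerSeries.X * PowerSeries.derivative ℤ e6Series) =
      H21_e2Series * e6Series - e4Series ^ 2 := by
  apply H21_map_int_injective
  have hfun : (2 : ℂ) • D ⇑E₆ = E2 * ⇑E₆ - ⇑E₄ ^ 2 := by
    funext z
    simp only [Pi.smul_apply, Pi.sub_apply, Pi.mul_apply, Pi.pow_apply, smul_eq_mul,
      Fermat.Agent.S20.H70.ramanujan_E₆ z]
    ring
  have h := congrArg (qExpansion 1) hfun
  rw [Nice.qExpansion_smul one_pos (H21_nice_D (nice_levelOne E₆)),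
    Nice.qExpansion_sub one_pos (H21_nice_E2.mul (nice_levelOne E₆)) ((nice_levelOne E₄).pow 2),
    Nice.qExpansion_mul one_pos H21_nice_E2 (nice_levelOne E₆),
    Nice.qExpansion_pow one_pos (nice_levelOne E₄),
    H21_qExpansion_D (nice_levelOne E₆),
    H21_qExpansion_E2_eq, qExpansion_E₄_eq, qExpansion_E₆_eq, ← H21_map_derivative] at h
  simp only [map_mul, map_sub, map_pow, PowerSeries.map_X, map_ofNat]
  rw [← h, PowerSeries.smul_eq_C_mul, map_ofNat]

end Fermat.Agent.BAD.H21
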