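import Fermat.Agent.BAD.H21_RamSeries
import Fermat.Agent.S16.H70_SwDAlg
import Fermat.Agent.S16.H55_RhoInt
import Fermat.Agent.S16.H41_Bern

/-!
# The Hasse invariant (BAD_q / NUM / (SS), module C; helper21)

* `H21_int_poly` : a level one form with integral `q`-expansion `f` is, modulo a field `F` in which
  `1728` is invertible, an isobaric polynomial in `Ẽ₄, Ẽ₆`.
* `H21_swd F` : the Swinnerton-Dyer datum `(Ẽ₄, Ẽ₆, Ẽ₂)` over a field of characteristic `ℓ ≥ 5`.
* `H21_exists_hasse` : the Hasse invariant `A`, isobaric of weight `ℓ - 1` with `A(Ẽ₄, Ẽ₆) = 1`.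
-/

set_option autoImplicit false

noncomputable section

namespace Fermat.Agent.BAD.H21

open UpperHalfPlane ModularForm EisensteinSeries ModularFormClass
open scoped MatrixGroups
open Fermat.Agent.S23.H96 Fermat.Agent.S16.H70

section Reduction

variable (F : Type*) [Field F]

/-- The reduction of `E₄`. -/
def H21_Qb : PowerSeries F := e4Series.map (Int.castRingHom F)

/-- The reduction of `E₆`. -/
def H21_Rb : PowerSeries F := e6Series.map (Int.castRingHom F)

/-- The reduction of `E₂`. -/
def H21_Pb : PowerSeries F := H21_e2Series.map (Int.castRingHom F)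

/-- The reduction of `Δ`. -/
def H21_Db : PowerSeries F := deltaSeries.map (Int.castRingHom F)

/-- The substitution `Q ↦ Ẽ₄`, `R ↦ Ẽ₆`. -/
def H21_eps : MvPolynomial (Fin 2) F →ₐ[F] PowerSeries F :=
  MvPolynomial.aeval ![H21_Qb F, H21_Rb F]

variable {F}

lemma H21_Qb_cube_sub_Rb_sq :
    H21_Qb F ^ 3 - H21_Rb F ^ 2 = PowerSeries.C (1728 : F) * H21_Db F := by
  have := congrArg (PowerSeries.map (Int.castRingHom F)) e4Series_cube_sub_e6Series_sq
  rw [map_sub, map_pow, map_pow, map_mul, PowerSeries.map_C] at this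
  rw [H21_Qb, H21_Rb, H21_Db, this]
  simp

lemma H21_eps_Dp : H21_eps F Dp = PowerSeries.C (1728 : F) * H21_Db F := by
  rw [← H21_Qb_cube_sub_Rb_sq]
  simp [H21_eps, Dp]

lemma H21_eps_mono (a b : ℕ) :
    H21_eps F (MvPolynomial.X 0 ^ a * MvPolynomial.X 1 ^ b) = H21_Qb F ^ a * H21_Rb F ^ b := by
  simp [H21_eps]

end Reduction

/-- Division by `Δ` preserves integrality. -/
lemma H21_int_div (P : PowerSeries ℂ) (h : PowerSeries ℤ)
    (hP : deltaSeries.map (Int.castRingHom ℂ) * P = h.map (Int.castRingHom ℂ)) :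
    ∃ g : PowerSeries ℤ, P = g.map (Int.castRingHom ℂ) := by
  have key := Fermat.Agent.S16.H55.mem_serO_of_mul_mem (Int.castRingHom ℂ).range
    (deltaSeries.map (Int.castRingHom ℂ)) P
    (Fermat.Agent.S16.H55.intSeries_le_serO _ ⟨deltaSeries, rfl⟩)
    (by simp [coeff_zero_deltaSeries]) (by simp [coeff_one_deltaSeries])
    (hP ▸ Fermat.Agent.S16.H55.intSeries_le_serO _ ⟨h, rfl⟩)
  rw [Fermat.Agent.S16.H55.mem_serO_iff] at key
  choose m hm using key
  refine ⟨PowerSeries.mk m, ?_⟩
  ext n
  simp [hm n]

section IntPoly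

variable {F : Type*} [Field F]

lemma H21_eq_zero_of_form_eq_zero {k : ℤ} {G : ModularForm 𝒮ℒ k} {f : PowerSeries ℤ}
    (hf : qExpansion 1 G = f.map (Int.castRingHom ℂ)) (hG : G = 0) : f = 0 := by
  subst hG
  apply H21_map_int_injective
  rw [← hf, map_zero, FunLike.coe_zero]
  exact UpperHalfPlane.qExpansion_zero 1

lemma H21_exists_exponents {k : ℤ} (hk : 4 ≤ k) (hk2 : Even k) :
    ∃ a b : ℕ, (a : ℤ) * 4 + (b : ℤ) * 6 = k := by
  obtain ⟨m, hm⟩ := hk2
  rcases Int.emod_two_eq_zero_or_one m with h | h
  · refine ⟨(m / 2).toNat, 0, ?_⟩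
    have : 0 ≤ m / 2 := by omega
    rw [Int.toNat_of_nonneg this]
    omega
  · refine ⟨((m - 3) / 2).toNat, 1, ?_⟩
    have : 0 ≤ (m - 3) / 2 := by omega
    rw [Int.toNat_of_nonneg this]
    omega

/-- **Integrality**: a level one form with integral `q`-expansion `f` is, over a field `F` in
which `1728` is invertible, an isobaric polynomial in the reductions of `E₄` and `E₆`. -/
theorem H21_int_poly (h1728 : (1728 : F) ≠ 0) : ∀ (n : ℕ) (k : ℤ), k ≤ n →
    ∀ (G : ModularForm 𝒮ℒ k) (f : PowerSeries ℤ),
    qExpansion 1 G = f.map (Int.castRingHom ℂ) →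
    ∃ A : MvPolynomial (Fin 2) F, MvPolynomial.IsWeightedHomogeneous wQR A k.toNat ∧
      H21_eps F A = f.map (Int.castRingHom F) := by
  intro n
  induction n using Nat.strong_induction_on with
  | _ n ih =>
    intro k hk G f hf
    have hzero : G = 0 → ∃ A : MvPolynomial (Fin 2) F,
        MvPolynomial.IsWeightedHomogeneous wQR A k.toNat ∧
        H21_eps F A = f.map (Int.castRingHom F) := by
      intro hG
      refine ⟨0, MvPolynomial.isWeightedHomogeneous_zero F wQR _, ?_⟩
      rw [H21_eq_zero_of_form_eq_zero hf hG]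
      simp
    rcases lt_trichotomy k 0 with hneg | rfl | hpos
    · exact hzero (rank_zero_iff_forall_zero.mp (levelOne_neg_weight_rank_zero hneg) G)
    · -- weight zero
      obtain ⟨c, hc⟩ := levelOne_weight_zero_const G
      have h1 : qExpansion 1 G = PowerSeries.C c := by
        have : (G : ℍ → ℂ) = ((c • (1 : ModularForm 𝒮ℒ 0) : ModularForm 𝒮ℒ 0) : ℍ → ℂ) := by
          rw [hc]; ext z; simp
        rw [this, FunLike.coe_smul, ModularForm.qExpansion_smul one_pos one_mem_strictPeriods_SL,
          ModularForm.qExpansion_one]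
        ext n
        simp [PowerSeries.coeff_C, PowerSeries.coeff_one]
      have hfC : f = PowerSeries.C (f.coeff 0) := by
        ext m
        have h2 := congrArg (PowerSeries.coeff m) (hf.symm.trans h1)
        rw [PowerSeries.coeff_map, PowerSeries.coeff_C] at h2
        rw [PowerSeries.coeff_C]
        split_ifs with hm
        · rw [hm]
        · rw [if_neg hm] at h2
          have : ((f.coeff m : ℤ) : ℂ) = 0 := by simpa using h2
          exact_mod_cast this
      refine ⟨MvPolynomial.C ((f.coeff 0 : ℤ) : F),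
        MvPolynomial.isWeightedHomogeneous_C wQR _, ?_⟩
      rw [hfC]
      simp [H21_eps]
    · rcases Int.even_or_odd k with he | ho
      · rcases lt_or_ge k 4 with h4 | h4
        · have hk2 : k = 2 := by
            obtain ⟨r, hr⟩ := he
            omega
          subst hk2
          exact hzero (rank_zero_iff_forall_zero.mp levelOne_weight_two_rank_zero G)
        · obtain ⟨a, b, hab⟩ := H21_exists_exponents h4 he
          set U : ModularForm 𝒮ℒ k := ModularForm.mcast hab ((E₄.pow a).mul (E₆.pow b)) with hUdef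
          have hU : qExpansion 1 U = (e4Series ^ a * e6Series ^ b).map (Int.castRingHom ℂ) := by
            rw [hUdef, ModularForm.qExpansion_mcast,
              ModularForm.qExpansion_mul one_pos one_mem_strictPeriods_SL,
              ModularForm.qExpansion_pow one_pos one_mem_strictPeriods_SL,
              ModularForm.qExpansion_pow one_pos one_mem_strictPeriods_SL,
              qExpansion_E₄_eq, qExpansion_E₆_eq]
            simp
          set a₀ : ℤ := f.coeff 0 with ha₀
          have hq : qExpansion 1 (G - (a₀ : ℂ) • U : ModularForm 𝒮ℒ k)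
              = (f - PowerSeries.C a₀ * (e4Series ^ a * e6Series ^ b)).map
                (Int.castRingHom ℂ) := by
            rw [FunLike.coe_sub, ModularForm.qExpansion_sub one_pos one_mem_strictPeriods_SL,
              FunLike.coe_smul, ModularForm.qExpansion_smul one_pos one_mem_strictPeriods_SL,
              hf, hU, PowerSeries.smul_eq_C_mul]
            simp
          have h0 : (qExpansion 1 (G - (a₀ : ℂ) • U : ModularForm 𝒮ℒ k)).coeff 0 = 0 := by
            rw [hq, PowerSeries.coeff_map]
            have h4c : PowerSeries.constantCoeff e4Series = 1 := by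
              simp [e4Series, sigmaSeries]
            have h6c : PowerSeries.constantCoeff e6Series = 1 := by
              simp [e6Series, sigmaSeries]
            have : (f - PowerSeries.C a₀ * (e4Series ^ a * e6Series ^ b)).coeff 0 = 0 := by
              rw [PowerSeries.coeff_zero_eq_constantCoeff_apply]
              simp [h4c, h6c, ha₀]
            rw [this]; simp
          set G' := CuspForm.discriminantEquiv
            (toCuspForm (G - (a₀ : ℂ) • U : ModularForm 𝒮ℒ k) h0) with hG'
          have hmul := ModularForm.qExpansion_eq_qExpansion_discriminant_mul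
            (G - (a₀ : ℂ) • U : ModularForm 𝒮ℒ k) h0
          rw [qExpansion_discriminant_eq, hq] at hmul
          obtain ⟨g, hg⟩ := H21_int_div (qExpansion 1 G')
            (f - PowerSeries.C a₀ * (e4Series ^ a * e6Series ^ b)) hmul.symm
          have hfg : f = PowerSeries.C a₀ * (e4Series ^ a * e6Series ^ b) + deltaSeries * g := by
            have h3 : (f - PowerSeries.C a₀ * (e4Series ^ a * e6Series ^ b)).map
                (Int.castRingHom ℂ) = (deltaSeries * g).map (Int.castRingHom ℂ) := by
              rw [map_mul, ← hg]; exact hmul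
            have h4 := H21_map_int_injective h3
            rw [← h4]; ring
          have hkn : (4 * a + 6 * b : ℕ) = k.toNat := by omega
          -- the second summand
          obtain ⟨B, hBw, hB⟩ : ∃ B : MvPolynomial (Fin 2) F,
              MvPolynomial.IsWeightedHomogeneous wQR B k.toNat ∧
              H21_eps F B = (deltaSeries * g).map (Int.castRingHom F) := by
            rcases lt_or_ge (k - 12) 0 with h12 | h12
            · have hG0 : G' = 0 :=
                rank_zero_iff_forall_zero.mp (levelOne_neg_weight_rank_zero h12) G'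
              have hg0 : g = 0 := H21_eq_zero_of_form_eq_zero hg hG0
              refine ⟨0, MvPolynomial.isWeightedHomogeneous_zero F wQR _, ?_⟩
              rw [hg0]; simp
            · obtain ⟨A', hA'w, hA'⟩ := ih (k - 12).toNat (by omega) (k - 12) (by omega) G' g hg
              refine ⟨MvPolynomial.C ((1728 : F)⁻¹) * (Dp * A'), ?_, ?_⟩
              · have := (isWH_Dp.mul hA'w).C_mul ((1728 : F)⁻¹)
                exact isWH_of_eq this (by omega)
              · rw [map_mul, map_mul, hA', H21_eps_Dp, map_mul]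
                have hC : H21_eps F (MvPolynomial.C ((1728 : F)⁻¹)) =
                    PowerSeries.C ((1728 : F)⁻¹) := by
                  simp [H21_eps]
                rw [hC, H21_Db]
                have hCC : PowerSeries.C ((1728 : F)⁻¹) * PowerSeries.C (1728 : F) = 1 := by
                  rw [← map_mul, inv_mul_cancel₀ h1728, map_one]
                calc PowerSeries.C ((1728 : F)⁻¹) *
                      (PowerSeries.C (1728 : F) * (PowerSeries.map (Int.castRingHom F)) deltaSeries *
                        (PowerSeries.map (Int.castRingHom F)) g)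
                    = (PowerSeries.C ((1728 : F)⁻¹) * PowerSeries.C (1728 : F)) *
                        ((PowerSeries.map (Int.castRingHom F)) deltaSeries *
                        (PowerSeries.map (Int.castRingHom F)) g) := by ring
                  _ = _ := by rw [hCC, one_mul]
          refine ⟨MvPolynomial.C ((a₀ : ℤ) : F) * (MvPolynomial.X 0 ^ a * MvPolynomial.X 1 ^ b)
            + B, ?_, ?_⟩
          · exact ((isWH_mono a b k.toNat hkn).C_mul _).add hBw
          · rw [map_add, map_mul, H21_eps_mono, hB]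
            have hC : H21_eps F (MvPolynomial.C ((a₀ : ℤ) : F)) =
                PowerSeries.C ((a₀ : ℤ) : F) := by
              simp [H21_eps]
            rw [hC]
            conv_rhs => rw [hfg]
            simp [H21_Qb, H21_Rb]
      · exact hzero (levelOne_odd_weight_eq_zero ho G)

end IntPoly

section Swd

variable {F : Type*} [Field F]

lemma H21_map_derivative_gen (P : PowerSeries ℤ) :
    (PowerSeries.derivative ℤ P).map (Int.castRingHom F) =
      PowerSeries.derivative F (P.map (Int.castRingHom F)) := by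
  ext m
  simp [PowerSeries.coeff_derivative, PowerSeries.coeff_map]

lemma H21_theta_map (P : PowerSeries ℤ) :
    theta (P.map (Int.castRingHom F)) =
      (PowerSeries.X * PowerSeries.derivative ℤ P).map (Int.castRingHom F) := by
  rw [theta, map_mul, PowerSeries.map_X, H21_map_derivative_gen]

lemma H21_constantCoeff_Qb : PowerSeries.constantCoeff (H21_Qb F) = 1 := by
  rw [H21_Qb, ← PowerSeries.coeff_zero_eq_constantCoeff_apply, PowerSeries.coeff_map,
    coeff_e4Series]
  simp

lemma H21_constantCoeff_Rb : PowerSeries.constantCoeff (H21_Rb F) = 1 := by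
  rw [H21_Rb, ← PowerSeries.coeff_zero_eq_constantCoeff_apply, PowerSeries.coeff_map,
    coeff_e6Series]
  simp

lemma H21_constantCoeff_Pb : PowerSeries.constantCoeff (H21_Pb F) = 1 := by
  rw [H21_Pb, ← PowerSeries.coeff_zero_eq_constantCoeff_apply, PowerSeries.coeff_map,
    H21_coeff_e2Series]
  simp

lemma H21_constantCoeff_Db : PowerSeries.constantCoeff (H21_Db F) = 0 := by
  rw [H21_Db, ← PowerSeries.coeff_zero_eq_constantCoeff_apply, PowerSeries.coeff_map,
    coeff_zero_deltaSeries]
  simp

lemma H21_coeff_one_Db : (H21_Db F).coeff 1 = 1 := by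
  simp [H21_Db, coeff_one_deltaSeries]

lemma H21_Db_ne_zero : H21_Db F ≠ 0 := by
  intro h
  have := H21_coeff_one_Db (F := F)
  rw [h] at this
  simp at this

/-- The Swinnerton-Dyer datum `(Ẽ₄, Ẽ₆, Ẽ₂)` over a field in which `1728 ≠ 0`. -/
def H21_swd (h1728 : (1728 : F) ≠ 0) : SwDData F where
  Qt := H21_Qb F
  Rt := H21_Rb F
  Pt := H21_Pb F
  hQ0 := H21_constantCoeff_Qb
  hR0 := H21_constantCoeff_Rb
  hP0 := H21_constantCoeff_Pb
  hΔ := by
    rw [H21_Qb_cube_sub_Rb_sq]
    intro h
    rcases mul_eq_zero.mp h with h1 | h1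
    · exact h1728 (by simpa using h1)
    · exact H21_Db_ne_zero h1
  hθQ := by
    have := congrArg (PowerSeries.map (Int.castRingHom F)) H21_theta_e4Series
    rw [map_mul, ← H21_theta_map, map_sub, map_mul, map_ofNat] at this
    exact this
  hθR := by
    have := congrArg (PowerSeries.map (Int.castRingHom F)) H21_theta_e6Series
    rw [map_mul, ← H21_theta_map, map_sub, map_mul, map_pow, map_ofNat] at this
    exact this
  hθP := by
    have := congrArg (PowerSeries.map (Int.castRingHom F)) H21_theta_e2Series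
    rw [map_mul, ← H21_theta_map, map_sub, map_pow, map_ofNat] at this
    exact this

lemma H21_swd_eps (h1728 : (1728 : F) ≠ 0) (A : MvPolynomial (Fin 2) F) :
    (H21_swd h1728).eps A = H21_eps F A := rfl

end Swd

section Hasse

variable {F : Type*} [Field F] {ℓ : ℕ} [hℓ : Fact ℓ.Prime] [CharP F ℓ]

lemma H21_1728_ne_zero (h5 : 5 ≤ ℓ) : (1728 : F) ≠ 0 := by
  have h : ((1728 : ℕ) : F) ≠ 0 := by
    rw [Ne, CharP.cast_eq_zero_iff F ℓ]
    intro hdvd
    have h1 : ℓ ∣ 2 ^ 6 * 3 ^ 3 := by norm_num; exact hdvd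
    rcases (Nat.Prime.dvd_mul hℓ.out).mp h1 with h | h
    · have h2 := Nat.Prime.dvd_of_dvd_pow hℓ.out h
      have := Nat.le_of_dvd (by norm_num) h2
      omega
    · have h2 := Nat.Prime.dvd_of_dvd_pow hℓ.out h
      have := Nat.le_of_dvd (by norm_num) h2
      omega
  exact_mod_cast h

/-- **The Hasse invariant**: for `ℓ ≥ 5` there is an isobaric polynomial `A` of weight `ℓ - 1`
with `A(Ẽ₄, Ẽ₆) = 1` in characteristic `ℓ` (the reduction of `E_{ℓ-1}`). -/
theorem H21_exists_hasse (h5 : 5 ≤ ℓ) :
    ∃ A : MvPolynomial (Fin 2) F, MvPolynomial.IsWeightedHomogeneous wQR A (ℓ - 1) ∧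
      H21_eps F A = 1 := by
  have hp := hℓ.out
  obtain ⟨D, b, hD, hb, hDb⟩ := Fermat.Agent.S16.H41.exists_bernoulli_form ℓ hp (by omega)
  have hk3 : 3 ≤ ℓ - 1 := by omega
  have hkev : Even (ℓ - 1) := by
    have hodd : Odd ℓ := hp.odd_of_ne_two (by omega)
    obtain ⟨m, hm⟩ := hodd
    exact ⟨m, by omega⟩
  set f : PowerSeries ℤ := PowerSeries.C b -
    PowerSeries.C (2 * ((ℓ - 1 : ℕ) : ℤ) * (ℓ : ℤ) * D) * sigmaSeries (ℓ - 1 - 1) with hfdef
  have hDbC : (ℓ : ℂ) * (D : ℂ) * ((bernoulli (ℓ - 1) : ℚ) : ℂ) = (b : ℂ) := by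
    exact_mod_cast hDb
  have hbC : (b : ℂ) ≠ 0 := by
    intro h0
    have : b = 0 := by exact_mod_cast h0
    exact hb (this ▸ dvd_zero _)
  have hB : ((bernoulli (ℓ - 1) : ℚ) : ℂ) ≠ 0 := by
    intro h0
    rw [h0, mul_zero] at hDbC
    exact hbC hDbC.symm
  have hq : qExpansion 1 (((b : ℂ) • E hk3 : ModularForm 𝒮ℒ ((ℓ - 1 : ℕ) : ℤ)) : ℍ → ℂ)
      = f.map (Int.castRingHom ℂ) := by
    rw [FunLike.coe_smul, ModularForm.qExpansion_smul one_pos one_mem_strictPeriods_SL]
    ext m
    rw [PowerSeries.coeff_smul, E_qExpansion_coeff hk3 hkev m, PowerSeries.coeff_map]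
    simp only [hfdef, map_sub, PowerSeries.coeff_C_mul, coeff_sigmaSeries, PowerSeries.coeff_C]
    split_ifs with hm
    · subst hm; simp
    · simp only [eq_intCast, smul_eq_mul]
      push_cast
      rw [← hDbC]
      field_simp
      ring
  obtain ⟨A₀, hA₀w, hA₀⟩ := H21_int_poly (F := F) (H21_1728_ne_zero h5) (ℓ - 1)
    ((ℓ - 1 : ℕ) : ℤ) le_rfl ((b : ℂ) • E hk3) f hq
  rw [Int.toNat_natCast] at hA₀w
  have hbF : ((b : ℤ) : F) ≠ 0 := by
    rw [Ne, CharP.intCast_eq_zero_iff F ℓ]
    exact hb
  have hfF : f.map (Int.castRingHom F) = PowerSeries.C ((b : ℤ) : F) := by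
    rw [hfdef, map_sub, map_mul, PowerSeries.map_C, PowerSeries.map_C]
    have : (Int.castRingHom F) (2 * ((ℓ - 1 : ℕ) : ℤ) * (ℓ : ℤ) * D) = 0 := by
      simp
    rw [this]
    simp
  refine ⟨MvPolynomial.C (((b : ℤ) : F)⁻¹) * A₀, ?_, ?_⟩
  · exact hA₀w.C_mul _
  · rw [map_mul, hA₀, hfF]
    have hC : H21_eps F (MvPolynomial.C (((b : ℤ) : F)⁻¹)) =
        PowerSeries.C (((b : ℤ) : F)⁻¹) := by
      simp [H21_eps]
    rw [hC, ← map_mul, inv_mul_cancel₀ hbF, map_one]

/-- **Igusa**: the Hasse invariant is squarefree. -/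
theorem H21_hasse_squarefree (h5 : 5 ≤ ℓ) {A : MvPolynomial (Fin 2) F}
    (hA : MvPolynomial.IsWeightedHomogeneous wQR A (ℓ - 1)) (hA1 : H21_eps F A = 1)
    {π : MvPolynomial (Fin 2) F} (hπ : Prime π) : ¬ π ^ 2 ∣ A :=
  (H21_swd (H21_1728_ne_zero (F := F) h5)).not_sq_dvd_A hA hA1 hπ

end Hasse

end Fermat.Agent.BAD.H21
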