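import Fermat.Agent.BAD.H30_UnitC
import Fermat.Agent.S15.H30_CuspTors

/-!
# BAD_q, package UNIT (helper30), part 2: the modular unit `Δ(q)/Δ(q^d)` in `F_N` over `ℚ̄`

For `d ∣ N`:
* `unit_mem N d hd : coeffEmb ℚ̄ (modularUnitSeries d) ∈ modularFunctionFieldBar N`;
* `unitF N d hd : FN N` the unit as an element of the function field;
* `ord_unitF N d hd P hP : P.ord (unitF N d hd) = 0` for every place `P` at which `j` is regular
  (no zero and no pole off the cusps).
-/

set_option autoImplicit false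
set_option linter.unusedSectionVars false
set_option linter.unusedVariables false
set_option synthInstance.maxHeartbeats 400000

open ModularCurve Polynomial

noncomputable section

namespace Fermat.Agent.BAD.H30

open Fermat.Agent.S23.H22 (Q q1)
open Fermat.Agent.S28 (coeffRing iotaN)
open Fermat.Agent.S28.H30 (Xfam_coeff_mem Xfam_coeff_neg_sq)
open Fermat.Agent.S28.H90 (chi chi_eval chi_eval_self chi_monic coeff_mem_of_eval_mem)
open Fermat.Agent.RED.H73 (JL lagrange_swap)
open Fermat.Agent.RED.H30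

section Transfer

variable {K : Type} [Field K] [IsAlgClosed K] (ι : K →+* ℂ) {N : ℕ} [NeZero N] {d : ℕ}

lemma exists_liftUnit (hd : d ∣ N) (q : Q N) :
    ∃ g : LaurentSeries K, coeffMap ι g = unitU N d q :=
  exists_coeffMap_eq ι fun n => mem_range_of_mem_coeffRing ι N (unitU_coeff_mem hd q n)

/-- The conjugates of the unit over `K`. -/
def liftUnit (hd : d ∣ N) (q : Q N) : LaurentSeries K := Classical.choose (exists_liftUnit ι hd q)

lemma coeffMap_liftUnit (hd : d ∣ N) (q : Q N) :
    coeffMap ι (liftUnit ι hd q) = unitU N d q :=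
  Classical.choose_spec (exists_liftUnit ι hd q)

variable (N) in
lemma exists_liftXN (q : Q N) :
    ∃ g : LaurentSeries K, coeffMap ι g = Fermat.Agent.S28.H76.Xfam N N q :=
  exists_coeffMap_eq ι fun n => mem_range_of_mem_coeffRing ι N (Xfam_coeff_mem N dvd_rfl q n)

variable (N) in
/-- The conjugates of `j(Nz)` over `K`. -/
def liftXN (q : Q N) : LaurentSeries K := Classical.choose (exists_liftXN ι N q)

variable (N) in
lemma coeffMap_liftXN (q : Q N) :
    coeffMap ι (liftXN ι N q) = Fermat.Agent.S28.H76.Xfam N N q :=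
  Classical.choose_spec (exists_liftXN ι N q)

/-- The symmetric functions over `K`. -/
theorem sym_lift (hd : d ∣ N) (c s : K) :
    (∏ q : Q N, (HahnSeries.C c - liftUnit ι hd q - HahnSeries.C s * liftXN ι N q)) ∈
      Algebra.adjoin K ({JL K N} : Set (LaurentSeries K)) := by
  refine mem_adjoin_of_coeffMap_mem ι _ _ ?_
  have hJ : coeffMap ι (JL K N) = iotaN N jq := coeffMap_qExpand_jqModC_one ι N
  rw [hJ, map_prod]
  have := sym_unitU hd (dvd_refl N) (ι c) (ι s)
  convert this using 2
  rename_i q _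
  rw [map_sub, map_sub, map_mul, coeffMap_C, coeffMap_C, coeffMap_liftUnit, coeffMap_liftXN]

variable (N) in
lemma liftXN_q1 : liftXN ι N (q1 : Q N) = qExpand K N (qExpand K N (jqModC K)) := by
  apply coeffMap_injective ι
  rw [coeffMap_liftXN, Fermat.Agent.S28.H76.Xfam_q1 N dvd_rfl, coeffMap_qExpand_jqModC]

variable (N) in
lemma liftXN_ne (q : Q N) (hq : q ≠ q1) : liftXN ι N q ≠ liftXN ι N (q1 : Q N) := by
  intro h
  have h1 : (liftXN ι N q).coeff (-((N : ℤ) ^ 2)) = 0 := by
    apply ι.injective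
    rw [← coeffMap_coeff, coeffMap_liftXN, map_zero]
    exact Xfam_coeff_neg_sq N q hq
  rw [h, liftXN_q1] at h1
  have e : (-((N : ℤ) ^ 2)) = (N : ℤ) * ((N : ℤ) * (-1)) := by ring
  rw [e, qExpand_coeff_mul, qExpand_coeff_mul, coeff_jqModC_neg_one] at h1
  exact one_ne_zero h1

/-- **Lagrange with exchanged roles**: the unit lies in `K(j(t^{N²}), j(t^N))`. -/
theorem liftUnit_q1_mem [Infinite K] (hd : d ∣ N) :
    liftUnit ι hd (q1 : Q N) ∈
      IntermediateField.adjoin K ({liftXN ι N (q1 : Q N), JL K N} : Set (LaurentSeries K)) := by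
  refine lagrange_swap (F := K) (L := LaurentSeries K) (q1 : Q N)
    (Algebra.adjoin K ({JL K N} : Set (LaurentSeries K))) _ ?_ (liftUnit ι hd) (liftXN ι N) ?_
    (liftXN_ne ι N) ?_
  · intro a ha
    have hle : Algebra.adjoin K ({JL K N} : Set (LaurentSeries K))
        ≤ (IntermediateField.adjoin K ({liftXN ι N (q1 : Q N), JL K N} :
            Set (LaurentSeries K))).toSubalgebra := by
      refine Algebra.adjoin_le ?_
      intro x hx
      rw [Set.mem_singleton_iff] at hx
      subst hx
      exact IntermediateField.subset_adjoin K _ (by simp)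
    exact hle ha
  · exact IntermediateField.subset_adjoin K _ (by simp)
  · intro c s
    have := sym_lift ι hd c s
    simp only [Fermat.Agent.S28.H92.hahnC_eq_algebraMap] at this
    exact this

/-- The unit lies in the image of `F_N` under `q ↦ t^N`. -/
theorem liftUnit_q1_mem_map [Infinite K] (hd : d ∣ N) :
    liftUnit ι hd (q1 : Q N) ∈
      (modularFunctionFieldFullC K N).map (qExpandAlgHomC K N) := by
  have hJ : JL K N ∈ (modularFunctionFieldFullC K N).map (qExpandAlgHomC K N) :=
    ⟨jqModC K, jqModC_mem_full K N, rfl⟩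
  have hX : liftXN ι N (q1 : Q N) ∈ (modularFunctionFieldFullC K N).map (qExpandAlgHomC K N) := by
    rw [liftXN_q1]
    exact ⟨qExpand K N (jqModC K), jqModCd_mem_full K N dvd_rfl, rfl⟩
  have hle : IntermediateField.adjoin K ({liftXN ι N (q1 : Q N), JL K N} : Set (LaurentSeries K))
      ≤ (modularFunctionFieldFullC K N).map (qExpandAlgHomC K N) := by
    rw [IntermediateField.adjoin_le_iff]
    rintro x (rfl | hx)
    · exact hX
    · rw [Set.mem_singleton_iff] at hx
      subst hx
      exact hJ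
  exact hle (liftUnit_q1_mem ι hd)

/-- All conjugates are integral over `K[J]`. -/
theorem isIntegral_liftUnit [Infinite K] (hd : d ∣ N) (q : Q N) :
    IsIntegral ↥(Algebra.adjoin K ({JL K N} : Set (LaurentSeries K))) (liftUnit ι hd q) := by
  have hcoeff : ∀ k : ℕ, (chi (liftUnit ι hd)).coeff k ∈
      Algebra.adjoin K ({JL K N} : Set (LaurentSeries K)) := by
    intro k
    have := coeff_mem_of_eval_mem (C := K)
      (Subalgebra.toSubmodule (Algebra.adjoin K ({JL K N} : Set (LaurentSeries K))))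
      (chi (liftUnit ι hd))
      (fun c => by
        rw [chi_eval, LaurentSeries.algebraMap_apply]
        have h := sym_lift ι hd c 0
        have e : (∏ q : Q N, (HahnSeries.C c - liftUnit ι hd q - HahnSeries.C 0 * liftXN ι N q))
            = ∏ q : Q N, (HahnSeries.C c - liftUnit ι hd q) :=
          Finset.prod_congr rfl fun q _ => by rw [map_zero, zero_mul, sub_zero]
        rw [e] at h
        exact h) k
    exact this
  have hl : chi (liftUnit ι hd) ∈ Polynomial.lifts
      (algebraMap ↥(Algebra.adjoin K ({JL K N} : Set (LaurentSeries K))) (LaurentSeries K)) := by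
    rw [Polynomial.lifts_iff_coeff_lifts]
    intro n
    exact ⟨⟨_, hcoeff n⟩, rfl⟩
  obtain ⟨P, hP, -, hm⟩ := Polynomial.lifts_and_natDegree_eq_and_monic hl (chi_monic _)
  refine ⟨P, hm, ?_⟩
  rw [← aeval_def, aeval_def, ← eval_map, hP]
  exact chi_eval_self _ q

/-- A series over `K` which is a nonzero constant over `ℂ` is a nonzero constant. -/
lemma eq_C_of_coeffMap_eq_C {g : LaurentSeries K} {c₀ : ℂ} (hc₀ : c₀ ≠ 0)
    (hmap : coeffMap ι g = HahnSeries.C c₀) : ∃ c : K, c ≠ 0 ∧ g = HahnSeries.C c := by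
  have hcoeff : ∀ n : ℤ, ι (g.coeff n) = (HahnSeries.C c₀ : LaurentSeries ℂ).coeff n := fun n => by
    rw [← coeffMap_coeff, hmap]
  refine ⟨g.coeff 0, ?_, ?_⟩
  · intro h0
    have := hcoeff 0
    rw [h0, map_zero, HahnSeries.C_apply, HahnSeries.coeff_single_same] at this
    exact hc₀ this.symm
  · ext n
    by_cases hn : n = 0
    · subst hn
      rw [HahnSeries.C_apply, HahnSeries.coeff_single_same]
    · rw [HahnSeries.C_apply, HahnSeries.coeff_single_of_ne hn]
      apply ι.injective
      rw [hcoeff n, map_zero, HahnSeries.C_apply, HahnSeries.coeff_single_of_ne hn]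

/-- The norm of the unit over `K` is a nonzero constant. -/
theorem prod_liftUnit_eq_C (hd : d ∣ N) :
    ∃ c : K, c ≠ 0 ∧ ∏ q : Q N, liftUnit ι hd q = HahnSeries.C c := by
  obtain ⟨c₀, hc₀, hprod⟩ := prod_unitU_eq_C (N := N) hd
  refine eq_C_of_coeffMap_eq_C ι hc₀ ?_
  rw [map_prod, ← hprod]
  exact Finset.prod_congr rfl fun q _ => coeffMap_liftUnit ι hd q

/-- The inverse of the unit is integral over `K[J]`. -/
theorem isIntegral_liftUnit_inv [Infinite K] (hd : d ∣ N) :
    IsIntegral ↥(Algebra.adjoin K ({JL K N} : Set (LaurentSeries K)))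
      (liftUnit ι hd (q1 : Q N))⁻¹ := by
  classical
  obtain ⟨c, hc, hprod⟩ := prod_liftUnit_eq_C ι hd
  have hU0 : liftUnit ι hd (q1 : Q N) ≠ 0 := by
    intro h
    apply unitU_ne_zero hd (q1 : Q N)
    rw [← coeffMap_liftUnit ι hd, h, map_zero]
  have hsplit : liftUnit ι hd (q1 : Q N) *
      ∏ q ∈ Finset.univ.erase (q1 : Q N), liftUnit ι hd q = HahnSeries.C c := by
    rw [Finset.mul_prod_erase Finset.univ (liftUnit ι hd) (Finset.mem_univ _), hprod]
  have hinv : (liftUnit ι hd (q1 : Q N))⁻¹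
      = algebraMap K (LaurentSeries K) c⁻¹ *
          ∏ q ∈ Finset.univ.erase (q1 : Q N), liftUnit ι hd q := by
    have hC : (HahnSeries.C c : LaurentSeries K) ≠ 0 := by
      rw [Ne, map_eq_zero]
      exact hc
    rw [LaurentSeries.algebraMap_apply, map_inv₀, inv_mul_eq_div, eq_div_iff hC, ← hsplit,
      ← mul_assoc, inv_mul_cancel₀ hU0, one_mul]
  rw [hinv]
  refine IsIntegral.mul ?_ (IsIntegral.prod _ fun q _ => isIntegral_liftUnit ι hd q)
  have : algebraMap K (LaurentSeries K) c⁻¹
      = algebraMap ↥(Algebra.adjoin K ({JL K N} : Set (LaurentSeries K)))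
          (LaurentSeries K) (algebraMap K _ c⁻¹) := rfl
  rw [this]
  exact isIntegral_algebraMap

/-- The expansion of the unit at the identity coset, over `K`. -/
theorem liftUnit_q1 [Algebra ℚ K] [NeZero d] (hd : d ∣ N) :
    liftUnit ι hd (q1 : Q N)
      = HahnSeries.C (((d : K) ^ ((12 : ℤ) - 1))⁻¹) *
          qExpand K N (coeffEmb K (modularUnitSeries d)) := by
  apply coeffMap_injective ι
  rw [coeffMap_liftUnit, unitU_q1 hd, map_mul, coeffMap_C, ModularCurve.coeffMap_qExpand,
    coeffEmb, ModularCurve.coeffMap_coeffMap, iotaN, RingHom.comp_apply]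
  have e1 : ι (((d : K) ^ ((12 : ℤ) - 1))⁻¹) = ((d : ℂ) ^ ((12 : ℤ) - 1))⁻¹ := by
    rw [map_inv₀, map_zpow₀, map_natCast]
  have e2 : ι.comp (algebraMap ℚ K) = algebraMap ℚ ℂ := Subsingleton.elim _ _
  rw [e1, e2]

end Transfer

/-! ### The unit in `F_N` over `ℚ̄` -/

open Fermat.Agent.S24 (Kbar FN jF iotaC)
open Fermat.Agent.S15.H30 (psi psi_apply psi_injective psi_jF mem_of_isIntegral_map)
open AlgebraicCurve

variable (N : ℕ) [NeZero N] (d : ℕ) [NeZero d]

theorem unit_const_ne_zero : ((d : Kbar) ^ ((12 : ℤ) - 1))⁻¹ ≠ 0 :=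
  inv_ne_zero (zpow_ne_zero _ (Nat.cast_ne_zero.mpr (NeZero.ne d)))

/-- **(U1)** `Δ(q)/Δ(q^d) ∈ F_N` for `d ∣ N`. -/
theorem unit_mem (hd : d ∣ N) :
    coeffEmb Kbar (modularUnitSeries d) ∈ modularFunctionFieldBar N := by
  have h := liftUnit_q1_mem_map iotaC hd
  rw [liftUnit_q1 iotaC hd] at h
  have hc := unit_const_ne_zero d
  have hC : (HahnSeries.C (((d : Kbar) ^ ((12 : ℤ) - 1))⁻¹) : LaurentSeries Kbar)
      ∈ (modularFunctionFieldFullC Kbar N).map (qExpandAlgHomC Kbar N) := by
    rw [← LaurentSeries.algebraMap_apply]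
    exact IntermediateField.algebraMap_mem _ _
  have hC0 : (HahnSeries.C (((d : Kbar) ^ ((12 : ℤ) - 1))⁻¹) : LaurentSeries Kbar) ≠ 0 := by
    rw [Ne, map_eq_zero]
    exact hc
  have h2 : qExpand Kbar N (coeffEmb Kbar (modularUnitSeries d))
      ∈ (modularFunctionFieldFullC Kbar N).map (qExpandAlgHomC Kbar N) := by
    have := mul_mem (inv_mem hC) h
    rwa [← mul_assoc, inv_mul_cancel₀ hC0, one_mul] at this
  obtain ⟨y, hy, hye⟩ := h2
  have hye' : qExpand Kbar N y = qExpand Kbar N (coeffEmb Kbar (modularUnitSeries d)) := hye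
  have hy' : y = coeffEmb Kbar (modularUnitSeries d) := qExpand_injective N hye'
  show coeffEmb Kbar (modularUnitSeries d) ∈ laurentBaseChange Kbar (modularFunctionFieldFull N)
  rw [Fermat.Agent.RED.H73.laurentBaseChange_full_eq, ← hy']
  exact hy

/-- The modular unit `Δ(q)/Δ(q^d)` as an element of `F_N`. -/
def unitF (hd : d ∣ N) : FN N := ⟨coeffEmb Kbar (modularUnitSeries d), unit_mem N d hd⟩

theorem unitF_coe (hd : d ∣ N) :
    ((unitF N d hd : FN N) : LaurentSeries Kbar) = coeffEmb Kbar (modularUnitSeries d) := rfl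

theorem psi_unitF (hd : d ∣ N) :
    psi N (unitF N d hd)
      = HahnSeries.C ((d : Kbar) ^ ((12 : ℤ) - 1)) * liftUnit iotaC hd (q1 : Q N) := by
  rw [liftUnit_q1 iotaC hd, ← mul_assoc, ← map_mul, mul_inv_cancel₀
    (zpow_ne_zero _ (Nat.cast_ne_zero.mpr (NeZero.ne d))), map_one, one_mul]
  rfl

theorem unitF_ne_zero (hd : d ∣ N) : unitF N d hd ≠ 0 := by
  intro h
  have h1 := congrArg (Subtype.val : FN N → LaurentSeries Kbar) h
  have h2 : coeffEmb Kbar (modularUnitSeries d) = coeffEmb Kbar 0 := by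
    rw [map_zero]; exact h1
  exact modularUnitSeries_ne_zero d (coeffMap_injective _ h2)

/-- **(U2)** the unit has neither zeros nor poles at the places where `j` is regular. -/
theorem ord_unitF (hd : d ∣ N) (P : Place Kbar (FN N)) (hP : 0 ≤ P.ord (jF N)) :
    P.ord (unitF N d hd) = 0 := by
  have hj : jF N ∈ P.toValuationSubring := Fermat.Agent.S24.H85.mem_of_ord_nonneg P hP
  have hcint : ∀ c : Kbar, IsIntegral ↥(Algebra.adjoin Kbar ({JL Kbar N} : Set (LaurentSeries Kbar)))
      (HahnSeries.C c : LaurentSeries Kbar) := by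
    intro c
    have : (HahnSeries.C c : LaurentSeries Kbar)
        = algebraMap ↥(Algebra.adjoin Kbar ({JL Kbar N} : Set (LaurentSeries Kbar)))
            (LaurentSeries Kbar) (algebraMap Kbar _ c) := by
      rw [← LaurentSeries.algebraMap_apply]
      rfl
    rw [this]
    exact isIntegral_algebraMap
  have h1 : unitF N d hd ∈ P.toValuationSubring := by
    refine mem_of_isIntegral_map (psi N) (psi_injective N) P (jF N) hj _ ?_
    rw [psi_jF, psi_unitF]
    exact IsIntegral.mul (hcint _) (isIntegral_liftUnit iotaC hd _)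
  have h2 : (unitF N d hd)⁻¹ ∈ P.toValuationSubring := by
    refine mem_of_isIntegral_map (psi N) (psi_injective N) P (jF N) hj _ ?_
    rw [psi_jF, map_inv₀, psi_unitF, mul_inv, ← map_inv₀]
    exact IsIntegral.mul (hcint _) (isIntegral_liftUnit_inv iotaC hd)
  have h3 := Fermat.Agent.S24.H85.ord_nonneg_of_mem P h1
  have h4 := Fermat.Agent.S24.H85.ord_nonneg_of_mem P h2
  rw [Place.ord_inv] at h4
  omega

end Fermat.Agent.BAD.H30
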