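import Fermat.Agent.BAD.H88_Wq
import Fermat.Agent.BAD.H30_UnitL

/-!
# BAD_q / COORD (helper21), leaf UNIT-W: the Atkin–Lehner involution on the modular unit

`N = M q`, `a q + b M = 1`, `U = unitF (M q) q = Δ(τ)/Δ(q τ)`.  Then

  `wq U = q ^ 12 / U`.

Proof: through the analytic embedding `emb : F_N → Frac Hol` the unit `U` is `Δ / Δ_q`
(`Δ_q (τ) = Δ (q τ)`; comparison of expansions at `∞`), and `Δ (W τ) = (q (M τ + 1)) ^ 12 Δ (q τ)`,
`Δ (q W τ) = (M τ + 1) ^ 12 Δ (τ)` by the modularity of `Δ`.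
-/

set_option autoImplicit false
set_option synthInstance.maxHeartbeats 400000
set_option maxHeartbeats 1000000
set_option linter.unusedSectionVars false
set_option linter.style.haveILetI false

noncomputable section

namespace Fermat.Agent.BAD.H21

open Fermat.Agent.S24 ModularCurve UpperHalfPlane Fermat.Agent.BAD.H88 Fermat.Agent.BAD.H30
open scoped MatrixGroups Manifold

/-! ## The discriminant as a holomorphic function and its expansions -/

/-- The discriminant, as an element of `Hol`. -/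
def H21_DeltaH : Hol := ⟨fun τ => ModularForm.discriminant τ, CuspForm.discriminant.holo'⟩

theorem H21_DeltaH_apply (τ : ℍ) : (H21_DeltaH : ℍ → ℂ) τ = ModularForm.discriminant τ := rfl

/-- From a power series expansion in `q` to `HasUExp 1`. -/
theorem H21_hasUExp_of_hasSum {f : ℍ → ℂ} {P : PowerSeries ℂ}
    (h : ∀ τ : ℍ, HasSum (fun n : ℕ => PowerSeries.coeff n P *
      Function.Periodic.qParam 1 (τ : ℂ) ^ n) (f τ)) :
    HasUExp 1 f (HahnSeries.ofPowerSeries ℤ ℂ P) := by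
  intro τ
  have hu : uPar 1 τ = Function.Periodic.qParam 1 (τ : ℂ) := by simp [uPar]
  rw [hu]
  have hφ : Function.Injective (fun n : ℕ => (n : ℤ)) := Nat.cast_injective
  refine (hφ.hasSum_iff ?_).mp ?_
  · intro m hm
    have hneg : m < 0 := by
      by_contra hge
      apply hm
      exact ⟨m.toNat, by simp only; omega⟩
    rw [PowerSeries.coeff_coe, if_pos hneg, zero_mul]
  · have hfun : ((fun m : ℤ => (HahnSeries.ofPowerSeries ℤ ℂ P).coeff m *
        Function.Periodic.qParam 1 (τ : ℂ) ^ m) ∘ fun n : ℕ => (n : ℤ))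
        = fun n : ℕ => PowerSeries.coeff n P * Function.Periodic.qParam 1 (τ : ℂ) ^ n := by
      funext n
      show (HahnSeries.ofPowerSeries ℤ ℂ P).coeff (n : ℤ) *
        Function.Periodic.qParam 1 (τ : ℂ) ^ (n : ℤ) = _
      rw [HahnSeries.ofPowerSeries_apply_coeff, zpow_natCast]
    rw [hfun]
    exact h τ

/-- The expansion of `Δ` at `∞`. -/
theorem H21_hasUExp_Delta :
    HasUExp 1 (H21_DeltaH : ℍ → ℂ) (coeffMap iotaC (coeffEmb Kbar deltaSeries)) := by
  have e : coeffMap iotaC (coeffEmb Kbar deltaSeries)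
      = coeffMap (algebraMap ℚ ℂ) deltaSeries := by
    rw [coeffEmb, ModularCurve.coeffMap_coeffMap]
    have e2 : iotaC.comp (algebraMap ℚ Kbar) = algebraMap ℚ ℂ := Subsingleton.elim _ _
    rw [e2]
  rw [e, coeffMap_deltaSeries]
  refine H21_hasUExp_of_hasSum fun τ => ?_
  have h := ModularForm.hasSum_qExpansion (f := CuspForm.discriminant) (h := 1) one_pos
    (by simp) τ
  exact h

/-- `Δ (e τ)`, as an element of `Hol`. -/
def H21_DeltaD (e : ℕ) (he : 0 < e) : Hol :=
  compHol !![(e : ℤ), 0; 0, 1] (diag_det_pos e he) H21_DeltaH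

theorem H21_DeltaD_apply (e : ℕ) (he : 0 < e) (τ : ℍ) :
    (H21_DeltaD e he : ℍ → ℂ) τ
      = ModularForm.discriminant (intGL !![(e : ℤ), 0; 0, 1] (diag_det_pos e he) • τ) := rfl

theorem H21_DeltaD_ne_zero (e : ℕ) (he : 0 < e) : H21_DeltaD e he ≠ 0 := by
  intro h
  have h1 := congrArg (fun f : Hol => (f : ℍ → ℂ) UpperHalfPlane.I) h
  simp only [H21_DeltaD_apply] at h1
  exact ModularForm.discriminant_ne_zero _ h1

/-- The expansion of `Δ (e τ)` in the parameter `u = exp (2 π i τ / N)`. -/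
theorem H21_hasUExp_DeltaD (N : ℕ) [NeZero N] (e : ℕ) [NeZero e] (he : 0 < e) :
    HasUExp N (H21_DeltaD e he : ℍ → ℂ)
      (coeffMap iotaC (qExpand Kbar N (qExpand Kbar e (coeffEmb Kbar deltaSeries)))) := by
  haveI : NeZero (N * e) := ⟨Nat.mul_ne_zero (NeZero.ne N) (NeZero.ne e)⟩
  obtain ⟨c', hc', h1, h2⟩ := HasUExp.comp_affine (N := N) H21_hasUExp_Delta e 1 0 he one_pos
    (one_dvd N) (H21_DeltaD e he : ℍ → ℂ) (fun τ τ' hτ' => by
      rw [H21_DeltaD_apply, H21_DeltaH_apply]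
      congr 1
      apply UpperHalfPlane.ext
      rw [coe_intGL_smul, hτ']
      simp)
  have hNe : N / 1 * e = N * e := by rw [Nat.div_one]
  have : c' = coeffMap iotaC (qExpand Kbar N (qExpand Kbar e (coeffEmb Kbar deltaSeries))) := by
    ext m
    rw [qExpand_qExpand, coeffMap_coeff]
    by_cases hm : ((N * e : ℕ) : ℤ) ∣ m
    · obtain ⟨n, rfl⟩ := hm
      rw [qExpand_coeff_mul]
      have h3 := h1 n
      rw [hNe] at h3
      rw [h3, coeffMap_coeff]
      simp
    · rw [qExpand_coeff_of_not_dvd _ _ hm, map_zero]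
      exact h2 m (by rw [hNe]; exact hm)
  rw [← this]
  exact hc'

theorem H21_DeltaD_one : H21_DeltaD 1 one_pos = H21_DeltaH := by
  apply Subtype.ext
  funext τ
  rw [H21_DeltaD_apply, H21_DeltaH_apply]
  congr 1
  apply UpperHalfPlane.ext
  rw [coe_intGL_smul]
  simp

/-! ## The analytic image of the modular unit -/

/-- **(E1)** the analytic image of the modular unit `Δ(q)/Δ(q^d)` is `Δ(τ)/Δ(d τ)`. -/
theorem H21_emb_unitF (N : ℕ) [NeZero N] (d : ℕ) [NeZero d] (hd : d ∣ N) :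
    emb N (unitF N d hd) = holToMer H21_DeltaH /
      holToMer (H21_DeltaD d (Nat.pos_of_ne_zero (NeZero.ne d))) := by
  have hdpos : 0 < d := Nat.pos_of_ne_zero (NeZero.ne d)
  obtain ⟨X, Y, hY, hXY⟩ := IsFractionRing.div_surjective (A := AT N) (phi N (unitF N d hd))
  have hY0 : Y ≠ 0 := nonZeroDivisors.ne_zero hY
  have hY' : uExpT N Y ≠ 0 := fun h => hY0 (uExpT_injective N (by rw [h, map_zero]))
  -- the series
  set δ : LaurentSeries Kbar := coeffEmb Kbar deltaSeries with hδ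
  have hδd : coeffEmb Kbar (modularUnitSeries d) = δ * (qExpand Kbar d δ)⁻¹ := by
    rw [modularUnitSeries, map_mul, map_inv₀, deltaSeriesN, coeffEmb,
      ModularCurve.coeffMap_qExpand]
    rfl
  have hδd0 : qExpand Kbar N (qExpand Kbar d δ) ≠ 0 := by
    intro h
    have h1 : qExpand Kbar d δ = 0 := qExpand_injective N (by rw [h, map_zero])
    have h2 : δ = 0 := qExpand_injective d (by rw [h1, map_zero])
    have h3 : coeffEmb Kbar deltaSeries = coeffEmb Kbar 0 := by rw [map_zero]; exact h2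
    exact deltaSeries_ne_zero (Fermat.Agent.RED.H30.coeffMap_injective _ h3)
  have hU : uExpT N X * qExpand Kbar N (qExpand Kbar d δ) = uExpT N Y * qExpand Kbar N δ := by
    have h1 := UL_phi N (unitF N d hd)
    rw [← hXY, map_div₀, UL_algebraMap, UL_algebraMap, qN_apply, unitF_coe, hδd, map_mul,
      map_inv₀, div_eq_iff hY'] at h1
    rw [h1]
    field_simp
  -- the functions
  have key : inclAT N X * H21_DeltaD d hdpos = inclAT N Y * H21_DeltaH := by
    apply Subtype.ext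
    funext τ
    have hX := uExp_spec N ((toAT N).symm X)
    have hYs := uExp_spec N ((toAT N).symm Y)
    have hΔd := H21_hasUExp_DeltaD N d hdpos
    have hΔ1 := H21_hasUExp_DeltaD N 1 one_pos
    rw [H21_DeltaD_one, qExpand_one_apply] at hΔ1
    have hL := (hX.mul hΔd) τ
    have hR := (hYs.mul hΔ1) τ
    have hser : coeffMap iotaC (uExp N ((toAT N).symm X)) *
        coeffMap iotaC (qExpand Kbar N (qExpand Kbar d (coeffEmb Kbar deltaSeries)))
        = coeffMap iotaC (uExp N ((toAT N).symm Y)) *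
          coeffMap iotaC (qExpand Kbar N (coeffEmb Kbar deltaSeries)) := by
      rw [← map_mul, ← map_mul]
      exact congrArg _ hU
    rw [hser] at hL
    exact hL.unique hR
  have hYH : holToMer (inclAT N Y) ≠ 0 := fun h =>
    hY0 (holToMer_comp_inclAT_injective N (by
      rw [AlgHom.comp_apply, h, map_zero]))
  have hDH : holToMer (H21_DeltaD d hdpos) ≠ 0 := fun h =>
    H21_DeltaD_ne_zero d hdpos (holToMer_injective (by rw [h, map_zero]))
  show inclLN N (phi N (unitF N d hd)) = _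
  rw [← hXY, map_div₀, inclLN_algebraMap, inclLN_algebraMap, div_eq_div_iff hYH hDH,
    ← map_mul, ← map_mul, key, mul_comm]

/-! ## The transformation of `Δ` under the Atkin–Lehner matrix -/

/-- `Δ` transforms with weight `12` under `SL₂(ℤ)`. -/
theorem H21_Delta_smul (γ : SL(2, ℤ)) (τ : ℍ) :
    ModularForm.discriminant (γ • τ) = denom γ τ ^ (12 : ℤ) * ModularForm.discriminant τ := by
  have hγ : (γ : GL (Fin 2) ℝ) ∈ 𝒮ℒ := ⟨γ, rfl⟩
  exact SlashInvariantForm.slash_action_eqn'' CuspForm.discriminant hγ τ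

/-- Scalar matrices act trivially on `ℍ`. -/
theorem H21_intGL_smul_smul (c : ℤ) (hc : 0 < c) (A : Matrix (Fin 2) (Fin 2) ℤ) (hA : 0 < A.det)
    (hcA : 0 < (c • A).det) (τ : ℍ) : intGL (c • A) hcA • τ = intGL A hA • τ := by
  apply UpperHalfPlane.ext
  rw [coe_intGL_smul, coe_intGL_smul]
  have hc' : (c : ℂ) ≠ 0 := by exact_mod_cast hc.ne'
  simp only [Matrix.smul_apply, smul_eq_mul, Int.cast_mul]
  have hden : ((A 1 0 : ℂ) * τ + A 1 1) ≠ 0 := by
    have := UpperHalfPlane.denom_ne_zero (intGL A hA) τ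
    simpa [denom, intGL_val] using this
  field_simp

theorem H21_intGL_congr {A B : Matrix (Fin 2) (Fin 2) ℤ} (h : A = B) (hA : 0 < A.det)
    (hB : 0 < B.det) : intGL A hA = intGL B hB := by
  subst h
  rfl

section AL

variable (q M : ℕ) (a b : ℤ) (hab : a * q + b * M = 1) (hq : 0 < q)

/-- `γ = !![a, -b; M, q] ∈ SL₂(ℤ)`. -/
def H21_gam : SL(2, ℤ) :=
  ⟨!![a, -b; (M : ℤ), q], by rw [Matrix.det_fin_two_of]; linear_combination hab⟩

/-- `γ' = !![q a, -b; M, 1] ∈ SL₂(ℤ)`. -/
def H21_gam' : SL(2, ℤ) :=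
  ⟨!![(q : ℤ) * a, -b; (M : ℤ), 1], by rw [Matrix.det_fin_two_of]; linear_combination hab⟩

theorem H21_Wmat_eq : Wmat q M a b = (H21_gam q M a b hab).1 * !![(q : ℤ), 0; 0, 1] := by
  rw [Wmat, H21_gam]
  ext i j
  fin_cases i <;> fin_cases j <;> simp [Matrix.mul_apply, Fin.sum_univ_two] <;> ring

theorem H21_diag_mul_Wmat :
    (!![(q : ℤ), 0; 0, 1] : Matrix (Fin 2) (Fin 2) ℤ) * Wmat q M a b
      = (q : ℤ) • (H21_gam' q M a b hab).1 := by
  rw [Wmat, H21_gam']
  ext i j
  fin_cases i <;> fin_cases j <;>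
    simp [Matrix.mul_apply, Fin.sum_univ_two, Matrix.smul_apply] <;> ring

/-- `Δ (W τ) = (M (q τ) + q) ^ 12 Δ (q τ)`. -/
theorem H21_Delta_W (τ : ℍ) :
    ModularForm.discriminant (intGL (Wmat q M a b) (Wmat_det_pos q M a b hab hq) • τ)
      = ((M : ℂ) * ((q : ℂ) * τ) + q) ^ 12 *
        ModularForm.discriminant (intGL !![(q : ℤ), 0; 0, 1] (diag_det_pos q hq) • τ) := by
  have hγ : 0 < ((H21_gam q M a b hab).1).det := intGL_SL_det_pos _
  have h1 : intGL (Wmat q M a b) (Wmat_det_pos q M a b hab hq) • τ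
      = H21_gam q M a b hab • (intGL !![(q : ℤ), 0; 0, 1] (diag_det_pos q hq) • τ) := by
    rw [← intGL_SL_smul _ hγ, ← intGL_mul_smul _ _ hγ (diag_det_pos q hq)
      (by rw [← H21_Wmat_eq]; exact Wmat_det_pos q M a b hab hq)]
    rw [H21_intGL_congr (H21_Wmat_eq q M a b hab)]
  rw [h1, H21_Delta_smul]
  congr 1
  have h2 : ((intGL !![(q : ℤ), 0; 0, 1] (diag_det_pos q hq) • τ : ℍ) : ℂ) = (q : ℂ) * τ := by
    rw [coe_intGL_smul]
    simp
  have h3 : denom (H21_gam q M a b hab)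
      ((intGL !![(q : ℤ), 0; 0, 1] (diag_det_pos q hq) • τ : ℍ) : ℂ)
        = (M : ℂ) * ((q : ℂ) * τ) + q := by
    rw [ModularGroup.denom_apply, h2]
    simp [H21_gam]
  rw [h3]
  norm_cast

/-- `Δ (q W τ) = (M τ + 1) ^ 12 Δ (τ)`. -/
theorem H21_Delta_qW (τ : ℍ) :
    ModularForm.discriminant (intGL !![(q : ℤ), 0; 0, 1] (diag_det_pos q hq) •
        (intGL (Wmat q M a b) (Wmat_det_pos q M a b hab hq) • τ))
      = ((M : ℂ) * τ + 1) ^ 12 * ModularForm.discriminant τ := by
  have hγ : 0 < ((H21_gam' q M a b hab).1).det := intGL_SL_det_pos _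
  have hW := Wmat_det_pos q M a b hab hq
  have hdW : 0 < ((!![(q : ℤ), 0; 0, 1] : Matrix (Fin 2) (Fin 2) ℤ) * Wmat q M a b).det := by
    rw [Matrix.det_mul]
    exact mul_pos (diag_det_pos q hq) hW
  have hqγ : 0 < ((q : ℤ) • (H21_gam' q M a b hab).1).det := by
    rw [← H21_diag_mul_Wmat]
    exact hdW
  have h1 : intGL !![(q : ℤ), 0; 0, 1] (diag_det_pos q hq) •
      (intGL (Wmat q M a b) hW • τ) = H21_gam' q M a b hab • τ := by
    rw [← intGL_mul_smul _ _ (diag_det_pos q hq) hW hdW,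
      H21_intGL_congr (H21_diag_mul_Wmat q M a b hab) hdW hqγ,
      H21_intGL_smul_smul (q : ℤ) (by exact_mod_cast hq) _ hγ hqγ, intGL_SL_smul]
  rw [h1, H21_Delta_smul]
  congr 1
  rw [ModularGroup.denom_apply]
  simp [H21_gam']

end AL

/-! ## The theorem -/

/-- **UNIT-W**: `w_q (Δ(τ)/Δ(q τ)) = q ^ 12 Δ(q τ)/Δ(τ)`. -/
theorem wq_unitF (q M : ℕ) (a b : ℤ) (hab : a * q + b * M = 1) (hq : q.Prime)
    [NeZero (M * q)] [NeZero q] (hd : q ∣ M * q) :
    wq q M a b hab hq (unitF (M * q) q hd)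
      = algebraMap Kbar (FN (M * q)) ((q : Kbar) ^ 12) * (unitF (M * q) q hd)⁻¹ := by
  have hqpos : 0 < q := hq.pos
  have hW := Wmat_det_pos q M a b hab hqpos
  have hΔ0 : holToMer H21_DeltaH ≠ 0 := by
    intro h
    have h1 : H21_DeltaH = 0 := holToMer_injective (by rw [h, map_zero])
    rw [← H21_DeltaD_one] at h1
    exact H21_DeltaD_ne_zero 1 one_pos h1
  have hΔq0 : holToMer (H21_DeltaD q (Nat.pos_of_ne_zero (NeZero.ne q))) ≠ 0 := fun h =>
    H21_DeltaD_ne_zero q _ (holToMer_injective (by rw [h, map_zero]))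
  have hcΔq0 : holToMer (compHol (Wmat q M a b) hW
      (H21_DeltaD q (Nat.pos_of_ne_zero (NeZero.ne q)))) ≠ 0 := fun h =>
    H21_DeltaD_ne_zero q _ (holToMer_comp_compHol_injective (Wmat q M a b) hW (by
      rw [AlgHom.comp_apply, h, map_zero]))
  have key : compHol (Wmat q M a b) hW H21_DeltaH * H21_DeltaH
      = algebraMap Kbar Hol ((q : Kbar) ^ 12) * H21_DeltaD q (Nat.pos_of_ne_zero (NeZero.ne q)) *
        compHol (Wmat q M a b) hW (H21_DeltaD q (Nat.pos_of_ne_zero (NeZero.ne q))) := by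
    apply Subtype.ext
    funext τ
    show ModularForm.discriminant (intGL (Wmat q M a b) hW • τ) * ModularForm.discriminant τ
      = iotaC ((q : Kbar) ^ 12) *
          ModularForm.discriminant (intGL !![(q : ℤ), 0; 0, 1] (diag_det_pos q hqpos) • τ) *
        ModularForm.discriminant (intGL !![(q : ℤ), 0; 0, 1] (diag_det_pos q hqpos) •
          (intGL (Wmat q M a b) hW • τ))
    rw [H21_Delta_W q M a b hab hqpos, H21_Delta_qW q M a b hab hqpos, map_pow, map_natCast]
    ring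
  apply emb_injective (M * q)
  rw [wq_apply, emb_wqHom, map_mul, map_inv₀, AlgHom.commutes, H21_emb_unitF, map_div₀,
    compMer_holToMer, compMer_holToMer, inv_div, ← holToMer.commutes, ← mul_div_assoc,
    div_eq_div_iff hcΔq0 hΔ0, ← map_mul, ← map_mul, ← map_mul, key]

end Fermat.Agent.BAD.H21
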