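import Fermat.Agent.RED.H10_NormRedAbs

/-!
# Item 65, package CONS-ss, step S1 (helper42): NORM-RED for two valuations

Abstract setting: `E ⊆ L` a finite extension of fields, `V_E` a valuation ring of `E` with residue
map `red_E : V_E → Et`, two incomparable valuation rings `V₁`, `V₂` of `L` over `V_E` with residue
maps `red_i : V_i → L_i` onto fields `L_i ⊇ Et`, with `[L : E] = [L₁ : Et] + [L₂ : Et]`
(the two extensions of `V_E`, both unramified, no defect), `V₁`, `V₂` of rank one (`IsArch`).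

* `exists_unit_lt`, `exists_idem`, `exists_lift_aux`, `exists_lift_plain` : the Chinese remainder
  theorem for two incomparable valuation rings;
* `IsArch`, `exists_lift_small` : approximation (the lift can be made small for `V₁`);
* `isArch_eq_of_le`, `not_le_of_isArch` : a valuation ring of rank one is a maximal subring;
* `lat_li`, `lat_coord` : lifts of an `Et`-independent family of `R / m` (`R` a subring of `L`
  over `V_E`) are `E`-independent, and the coordinates of the elements of `R` are in `V_E`;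
* `normRed_two_aux` : `u₁ = c u₂`, `c ∈ V_E`  ⇒  `N u₁ = c ^ [L₂ : Et] δ`,
  `red_E δ = N (red₁ u₁) · N (red₂ u₂)`;
* `normRed_two` : `f = c₁ u₁ = c₂ u₂`  ⇒  `N f = c₁ ^ [L₁ : Et] c₂ ^ [L₂ : Et] δ`, same `δ`.

This file contains no `sorry`.
-/

set_option autoImplicit false

noncomputable section

namespace Fermat.Agent.BAD.H42

section Sep

variable {L : Type} [Field L]

/-- If `V₁ ⊄ V₂` there is a unit of `V₁` in the maximal ideal of `V₂`. -/
theorem exists_unit_lt (V₁ V₂ : ValuationSubring L) (h : ¬ V₁ ≤ V₂) :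
    ∃ t : L, V₁.valuation t = 1 ∧ V₂.valuation t < 1 := by
  obtain ⟨a, ha₁, ha₂⟩ := SetLike.not_le_iff_exists.1 h
  rw [← ValuationSubring.valuation_le_one_iff] at ha₁ ha₂
  push Not at ha₂
  rcases ha₁.lt_or_eq with hlt | heq
  · refine ⟨(1 + a)⁻¹, ?_, ?_⟩
    · rw [map_inv₀, Valuation.map_one_add_of_lt _ hlt, inv_one]
    · rw [map_inv₀]
      have h1 : V₂.valuation (1 + a) = V₂.valuation a := by
        rw [Valuation.map_add_eq_of_lt_right]
        rwa [map_one]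
      rw [h1]
      exact inv_lt_one_of_one_lt₀ ha₂
  · refine ⟨a⁻¹, by rw [map_inv₀, heq, inv_one], ?_⟩
    rw [map_inv₀]
    exact inv_lt_one_of_one_lt₀ ha₂

/-- Two incomparable valuation rings: there is `e` with `e ≡ 1 mod m₂` and `e ∈ m₁`. -/
theorem exists_idem (V₁ V₂ : ValuationSubring L) (h₁₂ : ¬ V₁ ≤ V₂) (h₂₁ : ¬ V₂ ≤ V₁) :
    ∃ e : L, V₁.valuation e < 1 ∧ V₂.valuation (e - 1) < 1 := by
  obtain ⟨t, ht₁, ht₂⟩ := exists_unit_lt V₁ V₂ h₁₂
  obtain ⟨s, hs₂, hs₁⟩ := exists_unit_lt V₂ V₁ h₂₁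
  have h1 : V₁.valuation (s + t) = 1 := by
    rw [Valuation.map_add_eq_of_lt_right, ht₁]
    rwa [ht₁]
  have h2 : V₂.valuation (s + t) = 1 := by
    rw [Valuation.map_add_eq_of_lt_left, hs₂]
    rwa [hs₂]
  have hne : s + t ≠ 0 := by
    intro h0
    rw [h0, map_zero] at h1
    exact zero_ne_one h1
  refine ⟨s / (s + t), ?_, ?_⟩
  · rw [map_div₀, h1, div_one]; exact hs₁
  · have : s / (s + t) - 1 = - (t / (s + t)) := by
      field_simp
      ring
    rw [this, Valuation.map_neg, map_div₀, h2, div_one]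
    exact ht₂

/-- `x ≡ 1 mod m` implies `x ^ n ≡ 1 mod m`. -/
theorem val_pow_sub_one_lt (V : ValuationSubring L) (e : L) (he : V.valuation (e - 1) < 1)
    (n : ℕ) : V.valuation (e ^ n - 1) < 1 := by
  have he1 : V.valuation e ≤ 1 := by
    have : e = (e - 1) + 1 := by ring
    rw [this]
    refine (V.valuation.map_add _ _).trans (max_le he.le ?_)
    rw [map_one]
  have hmem : e ∈ V := (ValuationSubring.valuation_le_one_iff V e).1 he1
  have hsum : (∑ i ∈ Finset.range n, e ^ i) ∈ V := sum_mem fun i _ => pow_mem hmem i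
  rw [← geom_sum_mul, map_mul]
  exact Right.mul_lt_one_of_le_of_lt ((ValuationSubring.valuation_le_one_iff V _).2 hsum) he

/-- Chinese remainder theorem for two incomparable valuation rings, first step: every element of
`V₂` is congruent mod `m₂` to an element of `V₁ ∩ V₂`. -/
theorem exists_lift_aux (V₁ V₂ : ValuationSubring L) (h₁₂ : ¬ V₁ ≤ V₂) (y : L) (hy : y ∈ V₂) :
    ∃ y' : L, V₁.valuation y' ≤ 1 ∧ V₂.valuation (y' - y) < 1 := by
  by_cases hy₁ : y ∈ V₁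
  · exact ⟨y, (ValuationSubring.valuation_le_one_iff V₁ y).2 hy₁, by simp⟩
  have hy₁' : 1 < V₁.valuation y := by
    rw [← ValuationSubring.valuation_le_one_iff] at hy₁
    exact not_le.1 hy₁
  have hy₂ : V₂.valuation y ≤ 1 := (ValuationSubring.valuation_le_one_iff V₂ y).2 hy
  rcases hy₂.lt_or_eq with hlt | heq
  · exact ⟨0, by simp, by simpa using hlt⟩
  obtain ⟨s, hs₁, hs₂⟩ := exists_unit_lt V₁ V₂ h₁₂
  have hy0 : y ≠ 0 := by
    intro h0
    rw [h0, map_zero] at heq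
    exact zero_ne_one heq
  have hyi₁ : V₁.valuation y⁻¹ < 1 := by
    rw [map_inv₀]; exact inv_lt_one_of_one_lt₀ hy₁'
  have hyi₂ : V₂.valuation y⁻¹ = 1 := by
    rw [map_inv₀, heq, inv_one]
  have h1 : V₁.valuation (y⁻¹ + s) = 1 := by
    rw [Valuation.map_add_eq_of_lt_right, hs₁]
    rwa [hs₁]
  have h2 : V₂.valuation (y⁻¹ + s) = 1 := by
    rw [Valuation.map_add_eq_of_lt_left, hyi₂]
    rwa [hyi₂]
  have hne : y⁻¹ + s ≠ 0 := by
    intro h0
    rw [h0, map_zero] at h1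
    exact zero_ne_one h1
  refine ⟨(y⁻¹ + s)⁻¹, by rw [map_inv₀, h1, inv_one], ?_⟩
  have : (y⁻¹ + s)⁻¹ - y = - (y * s) / (y⁻¹ + s) := by
    have hne' : 1 + y * s ≠ 0 := by
      intro h0
      apply hne
      have : y⁻¹ + s = y⁻¹ * (1 + y * s) := by
        field_simp
      rw [this, h0, mul_zero]
    rw [div_eq_mul_inv, eq_comm, ← sub_eq_zero]
    have h3 : (y⁻¹ + s)⁻¹ = y * (1 + y * s)⁻¹ := by
      rw [inv_eq_iff_eq_inv, mul_inv, inv_inv]
      field_simp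
    rw [h3]
    field_simp
    ring
  rw [this, map_div₀, h2, div_one, Valuation.map_neg, map_mul, heq, one_mul]
  exact hs₂

/-- A valuation ring of rank one (archimedean value group), in the form used here. -/
def IsArch (V : ValuationSubring L) : Prop :=
  ∀ x y : L, V.valuation x < 1 → y ≠ 0 → ∃ n : ℕ, V.valuation (x ^ n) < V.valuation y

/-- A valuation ring of rank one is maximal among the proper subrings. -/
theorem isArch_eq_of_le {V₁ V₂ : ValuationSubring L} (hA : IsArch V₁) (h : V₁ ≤ V₂) :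
    V₁ = V₂ ∨ V₂ = ⊤ := by
  by_cases htop : V₂ = ⊤
  · exact Or.inr htop
  left
  refine le_antisymm h fun y hy => ?_
  by_contra hy₁
  -- `y ∈ V₂ ∖ V₁`, `z ∉ V₂`
  obtain ⟨z, hz⟩ : ∃ z : L, z ∉ V₂ := by
    by_contra hall
    push Not at hall
    exact htop (eq_top_iff.2 fun z _ => hall z)
  have hy0 : y ≠ 0 := fun h0 => hy₁ (h0 ▸ zero_mem _)
  have hz0 : z ≠ 0 := fun h0 => hz (h0 ▸ zero_mem _)
  have hyi : V₁.valuation y⁻¹ < 1 := by
    rw [map_inv₀]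
    apply inv_lt_one_of_one_lt₀
    rw [← ValuationSubring.valuation_le_one_iff] at hy₁
    exact not_le.1 hy₁
  obtain ⟨n, hn⟩ := hA y⁻¹ z⁻¹ hyi (inv_ne_zero hz0)
  -- `y⁻ⁿ z ∈ V₁ ⊆ V₂`, hence `z = yⁿ · (y⁻ⁿ z) ∈ V₂`
  have h1 : y⁻¹ ^ n * z ∈ V₁ := by
    rw [← ValuationSubring.valuation_le_one_iff, map_mul]
    rw [map_inv₀ _ z] at hn
    have hzv : V₁.valuation z ≠ 0 := (Valuation.ne_zero_iff _).2 hz0
    have := hn.le
    calc V₁.valuation (y⁻¹ ^ n) * V₁.valuation z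
        ≤ (V₁.valuation z)⁻¹ * V₁.valuation z := mul_le_mul_left this _
      _ = 1 := inv_mul_cancel₀ hzv
  apply hz
  have h2 : z = y ^ n * (y⁻¹ ^ n * z) := by
    rw [inv_pow, ← mul_assoc, mul_inv_cancel₀ (pow_ne_zero n hy0), one_mul]
  rw [h2]
  exact mul_mem (pow_mem hy n) (h h1)

/-- Two different non-trivial valuation rings, the first of rank one, are incomparable (one
direction). -/
theorem not_le_of_isArch {V₁ V₂ : ValuationSubring L} (hA : IsArch V₁) (hne : V₁ ≠ V₂)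
    (htop : V₂ ≠ ⊤) : ¬ V₁ ≤ V₂ := fun h =>
  (isArch_eq_of_le hA h).elim hne htop

/-- Approximation for two incomparable valuation rings, `V₁` of rank one: every element of `V₂`
is congruent mod `m₂` to an element which is arbitrarily small for `V₁`. -/
theorem exists_lift_small (V₁ V₂ : ValuationSubring L) (h₁₂ : ¬ V₁ ≤ V₂) (h₂₁ : ¬ V₂ ≤ V₁)
    (hA : IsArch V₁) (y : L) (hy : y ∈ V₂) (c : L) (hc : c ≠ 0) :
    ∃ b : L, V₁.valuation b < V₁.valuation c ∧ V₂.valuation (b - y) < 1 := by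
  obtain ⟨e, he₁, he₂⟩ := exists_idem V₁ V₂ h₁₂ h₂₁
  obtain ⟨y', hy'₁, hy'₂⟩ := exists_lift_aux V₁ V₂ h₁₂ y hy
  obtain ⟨n, hn⟩ := hA e c he₁ hc
  refine ⟨y' * e ^ n, ?_, ?_⟩
  · rw [map_mul]
    exact mul_lt_of_le_one_of_lt hy'₁ hn
  · have h1 : y' * e ^ n - y = y' * (e ^ n - 1) + (y' - y) := by ring
    have hy2 : V₂.valuation y' ≤ 1 := by
      have : y' = (y' - y) + y := by ring
      rw [this]
      exact (V₂.valuation.map_add _ _).trans
        (max_le hy'₂.le ((ValuationSubring.valuation_le_one_iff V₂ y).2 hy))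
    rw [h1]
    refine lt_of_le_of_lt (V₂.valuation.map_add _ _) (max_lt ?_ hy'₂)
    rw [map_mul]
    exact Right.mul_lt_one_of_le_of_lt hy2 (val_pow_sub_one_lt V₂ e he₂ n)

/-- Chinese remainder theorem for two incomparable valuation rings. -/
theorem exists_lift_plain (V₁ V₂ : ValuationSubring L) (h₁₂ : ¬ V₁ ≤ V₂) (h₂₁ : ¬ V₂ ≤ V₁)
    (y : L) (hy : y ∈ V₂) :
    ∃ b : L, V₁.valuation b < 1 ∧ V₂.valuation (b - y) < 1 := by
  obtain ⟨e, he₁, he₂⟩ := exists_idem V₁ V₂ h₁₂ h₂₁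
  obtain ⟨y', hy'₁, hy'₂⟩ := exists_lift_aux V₁ V₂ h₁₂ y hy
  refine ⟨y' * e, ?_, ?_⟩
  · rw [map_mul]
    exact Right.mul_lt_one_of_le_of_lt hy'₁ he₁
  · have h1 : y' * e - y = y' * (e - 1) + (y' - y) := by ring
    have hy2 : V₂.valuation y' ≤ 1 := by
      have : y' = (y' - y) + y := by ring
      rw [this]
      exact (V₂.valuation.map_add _ _).trans
        (max_le hy'₂.le ((ValuationSubring.valuation_le_one_iff V₂ y).2 hy))
    rw [h1]
    refine lt_of_le_of_lt (V₂.valuation.map_add _ _) (max_lt ?_ hy'₂)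
    rw [map_mul]
    exact Right.mul_lt_one_of_le_of_lt hy2 he₂

end Sep

section Lattice

variable {E L Et Λ : Type} [Field E] [Field L] [Field Et] [CommRing Λ] [Algebra E L]
  [Algebra Et Λ]
variable {VE : ValuationSubring E} {R : Subring L} {redE : ↥VE →+* Et} {ρ : ↥R →+* Λ}

/-- The inclusion `V_E → R`. -/
def incR (hVR : ∀ a : E, a ∈ VE → algebraMap E L a ∈ R) : ↥VE →+* ↥R :=
  ((algebraMap E L).comp VE.subtype).codRestrict R (fun a => hVR a a.2)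

@[simp] theorem coe_incR (hVR : ∀ a : E, a ∈ VE → algebraMap E L a ∈ R) (a : ↥VE) :
    ((incR hVR a : ↥R) : L) = algebraMap E L (a : E) := rfl

theorem rho_sum (hVR : ∀ a : E, a ∈ VE → algebraMap E L a ∈ R)
    (hcompat : ∀ a : ↥VE, ρ (incR hVR a) = algebraMap Et Λ (redE a))
    {ι : Type} [Fintype ι] (B : ι → ↥R) (a : ι → ↥VE) :
    ρ (∑ i, incR hVR (a i) * B i) = ∑ i, redE (a i) • ρ (B i) := by
  rw [map_sum]
  refine Finset.sum_congr rfl fun i _ => ?_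
  rw [map_mul, hcompat, Algebra.smul_def]

/-- The scaling argument. -/
theorem lat_aux (hVR : ∀ a : E, a ∈ VE → algebraMap E L a ∈ R)
    (hcompat : ∀ a : ↥VE, ρ (incR hVR a) = algebraMap Et Λ (redE a))
    {ι : Type} [Fintype ι] (B : ι → ↥R)
    (hli : LinearIndependent Et (fun i => ρ (B i)))
    (c : ι → E) (j : ι) (hj : c j ≠ 0) (hmax : ∀ i, VE.valuation (c i) ≤ VE.valuation (c j))
    (h : (c j)⁻¹ • ∑ i, c i • ((B i : ↥R) : L) ∈ R) :
    ρ ⟨(c j)⁻¹ • ∑ i, c i • ((B i : ↥R) : L), h⟩ ≠ 0 := by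
  intro h0
  have hvj : VE.valuation (c j) ≠ 0 := (Valuation.ne_zero_iff _).2 hj
  have hmem : ∀ i, c i / c j ∈ VE := by
    intro i
    rw [← ValuationSubring.valuation_le_one_iff, map_div₀]
    exact (div_le_one₀ (zero_lt_iff.2 hvj)).2 (hmax i)
  let a : ι → ↥VE := fun i => ⟨c i / c j, hmem i⟩
  have hsum : (∑ i, incR hVR (a i) * B i : ↥R) =
      ⟨(c j)⁻¹ • ∑ i, c i • ((B i : ↥R) : L), h⟩ := by
    apply Subtype.ext
    simp only [AddSubmonoidClass.coe_finsetSum, MulMemClass.coe_mul, coe_incR]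
    rw [Finset.smul_sum]
    refine Finset.sum_congr rfl fun i _ => ?_
    simp only [a, Algebra.smul_def, map_div₀, map_inv₀]
    field_simp
  have h1 : ∑ i, redE (a i) • ρ (B i) = 0 := by
    rw [← rho_sum hVR hcompat, hsum, h0]
  have h2 := Fintype.linearIndependent_iff.1 hli _ h1 j
  have h3 : a j = 1 := Subtype.ext (div_self hj)
  rw [h3, map_one] at h2
  exact one_ne_zero h2

/-- Lifts of an `Et`-independent family are `E`-independent. -/
theorem lat_li (hVR : ∀ a : E, a ∈ VE → algebraMap E L a ∈ R)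
    (hcompat : ∀ a : ↥VE, ρ (incR hVR a) = algebraMap Et Λ (redE a))
    {ι : Type} [Fintype ι] (B : ι → ↥R)
    (hli : LinearIndependent Et (fun i => ρ (B i))) :
    LinearIndependent E (fun i => ((B i : ↥R) : L)) := by
  rw [Fintype.linearIndependent_iff]
  intro c hc
  by_contra hne
  push Not at hne
  obtain ⟨i₀, hi₀⟩ := hne
  have : Nonempty ι := ⟨i₀⟩
  obtain ⟨j, hj⟩ := Fermat.Agent.RED.H10.exists_max_val VE c
  have hcj : c j ≠ 0 := by
    intro h0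
    have := hj i₀
    rw [h0, map_zero, le_zero_iff, Valuation.zero_iff] at this
    exact hi₀ this
  have h : (c j)⁻¹ • ∑ i, c i • ((B i : ↥R) : L) ∈ R := by
    rw [hc, smul_zero]; exact zero_mem _
  refine lat_aux hVR hcompat B hli c j hcj hj h ?_
  have : (⟨(c j)⁻¹ • ∑ i, c i • ((B i : ↥R) : L), h⟩ : ↥R) = 0 := by
    apply Subtype.ext
    simp [hc]
  rw [this, map_zero]

/-- The coordinates of an element of `R` in a lifted independent family lie in `V_E`. -/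
theorem lat_coord (hVR : ∀ a : E, a ∈ VE → algebraMap E L a ∈ R)
    (hkerE : ∀ a : ↥VE, ¬ IsUnit a → redE a = 0)
    (hcompat : ∀ a : ↥VE, ρ (incR hVR a) = algebraMap Et Λ (redE a))
    {ι : Type} [Fintype ι] (B : ι → ↥R)
    (hli : LinearIndependent Et (fun i => ρ (B i)))
    (c : ι → E) (g : L) (hg : g ∈ R) (hsum : ∑ i, c i • ((B i : ↥R) : L) = g) (i : ι) :
    c i ∈ VE := by
  by_contra hne
  have : Nonempty ι := ⟨i⟩
  obtain ⟨j, hj⟩ := Fermat.Agent.RED.H10.exists_max_val VE c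
  have hcjV : c j ∉ VE := by
    intro hmem
    apply hne
    rw [← ValuationSubring.valuation_le_one_iff] at hmem ⊢
    exact (hj i).trans hmem
  have hcj : c j ≠ 0 := by
    intro h0
    exact hcjV (h0 ▸ zero_mem _)
  have hinv : (c j)⁻¹ ∈ VE := (VE.mem_or_inv_mem (c j)).resolve_left hcjV
  have hnu : ¬ IsUnit (⟨(c j)⁻¹, hinv⟩ : ↥VE) := by
    rintro ⟨u, hu⟩
    apply hcjV
    have h1 : (((u⁻¹ : (↥VE)ˣ) : ↥VE) : E) = c j := by
      have h2 : (((u : ↥VE) : E) * ((u⁻¹ : (↥VE)ˣ) : ↥VE)) = 1 := by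
        rw [← MulMemClass.coe_mul, Units.mul_inv]; rfl
      rw [hu] at h2
      simp only at h2
      field_simp at h2
      exact h2
    rw [← h1]
    exact SetLike.coe_mem _
  have h : (c j)⁻¹ • ∑ i, c i • ((B i : ↥R) : L) ∈ R := by
    rw [hsum, Algebra.smul_def]
    exact mul_mem (hVR _ hinv) hg
  refine lat_aux hVR hcompat B hli c j hcj hj h ?_
  have : (⟨(c j)⁻¹ • ∑ i, c i • ((B i : ↥R) : L), h⟩ : ↥R) =
      incR hVR ⟨(c j)⁻¹, hinv⟩ * ⟨g, hg⟩ := by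
    apply Subtype.ext
    simp only [MulMemClass.coe_mul, coe_incR]
    rw [hsum, Algebra.smul_def]
  rw [this, map_mul, hcompat, hkerE _ hnu, map_zero, zero_mul]

end Lattice

section NormProd

variable {Et L₁ L₂ : Type} [Field Et] [CommRing L₁] [CommRing L₂] [Algebra Et L₁] [Algebra Et L₂]

/-- The matrix of the multiplication by `(x₁, x₂)` on a product algebra is block diagonal. -/
theorem leftMulMatrix_prod_basis {ι₁ ι₂ : Type} [Fintype ι₁] [Fintype ι₂] [DecidableEq ι₁]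
    [DecidableEq ι₂] (β₁ : Module.Basis ι₁ Et L₁) (β₂ : Module.Basis ι₂ Et L₂) (x : L₁ × L₂) :
    Algebra.leftMulMatrix (β₁.prod β₂) x =
      Matrix.fromBlocks (Algebra.leftMulMatrix β₁ x.1) 0 0 (Algebra.leftMulMatrix β₂ x.2) := by
  refine Matrix.ext fun i j => ?_
  rw [Algebra.leftMulMatrix_eq_repr_mul]
  rcases i with i | i <;> rcases j with j | j
  · rw [Module.Basis.prod_repr_inl, Matrix.fromBlocks_apply₁₁,
      Algebra.leftMulMatrix_eq_repr_mul]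
    simp
  · rw [Module.Basis.prod_repr_inl, Matrix.fromBlocks_apply₁₂]
    simp
  · rw [Module.Basis.prod_repr_inr, Matrix.fromBlocks_apply₂₁]
    simp
  · rw [Module.Basis.prod_repr_inr, Matrix.fromBlocks_apply₂₂,
      Algebra.leftMulMatrix_eq_repr_mul]
    simp

theorem det_leftMulMatrix_prod_basis {ι₁ ι₂ : Type} [Fintype ι₁] [Fintype ι₂] [DecidableEq ι₁]
    [DecidableEq ι₂] (β₁ : Module.Basis ι₁ Et L₁) (β₂ : Module.Basis ι₂ Et L₂) (x : L₁ × L₂) :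
    (Algebra.leftMulMatrix (β₁.prod β₂) x).det = Algebra.norm Et x.1 * Algebra.norm Et x.2 := by
  rw [leftMulMatrix_prod_basis, Matrix.det_fromBlocks_zero₁₂,
    ← Algebra.norm_eq_matrix_det, ← Algebra.norm_eq_matrix_det]

end NormProd

section Main

variable {E L Et L₁ L₂ : Type} [Field E] [Field L] [Field Et] [Field L₁] [Field L₂]
  [Algebra E L] [Algebra Et L₁] [Algebra Et L₂]

theorem red_eq_zero_of_val_lt {F F' : Type} [Field F] [Field F'] {V : ValuationSubring F}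
    {red : ↥V →+* F'} (hker : ∀ a : ↥V, ¬ IsUnit a → red a = 0) (a : ↥V)
    (h : V.valuation (a : F) < 1) : red a = 0 := by
  apply hker
  rw [ValuationSubring.valuation_eq_one_iff]
  exact h.ne

theorem mem_of_val_sub_lt {F : Type} [Field F] (V : ValuationSubring F) {b y : F} (hy : y ∈ V)
    (h : V.valuation (b - y) < 1) : b ∈ V := by
  have : b = (b - y) + y := by ring
  rw [this]
  exact add_mem ((ValuationSubring.valuation_le_one_iff V _).1 h.le) hy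

theorem red_eq_of_val_sub_lt {F F' : Type} [Field F] [Field F'] {V : ValuationSubring F}
    {red : ↥V →+* F'} (hker : ∀ a : ↥V, ¬ IsUnit a → red a = 0) (b y : ↥V)
    (h : V.valuation ((b : F) - (y : F)) < 1) : red b = red y := by
  rw [← sub_eq_zero, ← map_sub]
  exact red_eq_zero_of_val_lt hker _ h

/-- **NORM-RED for two valuations, core case.**  `V₁ ≠ V₂` two valuation rings of `L` over the
valuation ring `V_E` of `E`, with residue fields `L₁`, `L₂` over `Et`,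
`[L : E] = [L₁ : Et] + [L₂ : Et]`, `V₁` of rank one.  If `u₁ ∈ V₁`, `u₂ ∈ V₂`, `u₁ = c u₂` with
`c ∈ V_E`, `c ≠ 0`, then `N_{L/E} u₁ = c ^ [L₂ : Et] · δ` with `δ ∈ V_E` and
`red_E δ = N_{L₁/Et} (red₁ u₁) · N_{L₂/Et} (red₂ u₂)`. -/
theorem normRed_two_aux [Module.Finite E L] [Module.Finite Et L₁] [Module.Finite Et L₂]
    (VE : ValuationSubring E) (V₁ V₂ : ValuationSubring L)
    (redE : ↥VE →+* Et) (red₁ : ↥V₁ →+* L₁) (red₂ : ↥V₂ →+* L₂)
    (hV₁ : ∀ a : E, a ∈ VE → algebraMap E L a ∈ V₁)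
    (hV₂ : ∀ a : E, a ∈ VE → algebraMap E L a ∈ V₂)
    (hkerE : ∀ a : ↥VE, ¬ IsUnit a → redE a = 0)
    (hsurj₁ : Function.Surjective red₁) (hsurj₂ : Function.Surjective red₂)
    (hker₁ : ∀ a : ↥V₁, ¬ IsUnit a → red₁ a = 0) (hker₂ : ∀ a : ↥V₂, ¬ IsUnit a → red₂ a = 0)
    (hcompat₁ : ∀ (a : ↥VE) (ha : algebraMap E L (a : E) ∈ V₁),
      red₁ ⟨algebraMap E L (a : E), ha⟩ = algebraMap Et L₁ (redE a))
    (hcompat₂ : ∀ (a : ↥VE) (ha : algebraMap E L (a : E) ∈ V₂),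
      red₂ ⟨algebraMap E L (a : E), ha⟩ = algebraMap Et L₂ (redE a))
    (h₁₂ : ¬ V₁ ≤ V₂) (h₂₁ : ¬ V₂ ≤ V₁) (hA : IsArch V₁)
    (hdeg : Module.finrank E L = Module.finrank Et L₁ + Module.finrank Et L₂)
    (u₁ : ↥V₁) (u₂ : ↥V₂) (c : E) (hc : c ∈ VE) (hc0 : c ≠ 0)
    (hu : (u₁ : L) = algebraMap E L c * (u₂ : L)) :
    ∃ δ : ↥VE, Algebra.norm E (u₁ : L) = c ^ Module.finrank Et L₂ * (δ : E) ∧
      redE δ = Algebra.norm Et (red₁ u₁) * Algebra.norm Et (red₂ u₂) := by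
  classical
  let β₁ := Module.finBasis Et L₁
  let β₂ := Module.finBasis Et L₂
  let R : Subring L := V₁.toSubring ⊓ V₂.toSubring
  have hRmk : ∀ g : L, g ∈ V₁ → g ∈ V₂ → g ∈ R := fun g h1 h2 => Subring.mem_inf.2 ⟨h1, h2⟩
  have hR1 : ∀ g : L, g ∈ R → g ∈ V₁ := fun g hg => (Subring.mem_inf.1 hg).1
  have hR2 : ∀ g : L, g ∈ R → g ∈ V₂ := fun g hg => (Subring.mem_inf.1 hg).2
  have hVR : ∀ a : E, a ∈ VE → algebraMap E L a ∈ R := fun a ha =>
    hRmk _ (hV₁ a ha) (hV₂ a ha)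
  let ρ₁ : ↥R →+* L₁ := red₁.comp (Subring.inclusion (inf_le_left : R ≤ V₁.toSubring))
  let ρ₂ : ↥R →+* L₂ := red₂.comp (Subring.inclusion (inf_le_right : R ≤ V₂.toSubring))
  let ρ : ↥R →+* L₁ × L₂ := ρ₁.prod ρ₂
  have hρ₁ : ∀ (g : L) (hg : g ∈ R), ρ₁ ⟨g, hg⟩ = red₁ ⟨g, hR1 g hg⟩ := fun g hg => rfl
  have hρ₂ : ∀ (g : L) (hg : g ∈ R), ρ₂ ⟨g, hg⟩ = red₂ ⟨g, hR2 g hg⟩ := fun g hg => rfl
  have hcompat : ∀ a : ↥VE, ρ (incR hVR a) = algebraMap Et (L₁ × L₂) (redE a) := by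
    intro a
    refine Prod.ext ?_ ?_
    · exact hcompat₁ a _
    · exact hcompat₂ a _
  have hcL : algebraMap E L c ≠ 0 := by rwa [Ne, map_eq_zero]
  have hc₁ : V₁.valuation (algebraMap E L c) ≤ 1 :=
    (ValuationSubring.valuation_le_one_iff V₁ _).2 (hV₁ c hc)
  -- the lifts of the two bases
  have hB₁ : ∀ α, ∃ b : ↥R, ρ₁ b = β₁ α ∧ ρ₂ b = 0 := by
    intro α
    obtain ⟨y, hy⟩ := hsurj₁ (β₁ α)
    obtain ⟨b, hb₂, hb₁⟩ := exists_lift_plain V₂ V₁ h₂₁ h₁₂ (y : L) y.2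
    have hbV₁ : b ∈ V₁ := mem_of_val_sub_lt V₁ y.2 hb₁
    have hbV₂ : b ∈ V₂ := (ValuationSubring.valuation_le_one_iff V₂ _).1 hb₂.le
    refine ⟨⟨b, hRmk b hbV₁ hbV₂⟩, ?_, ?_⟩
    · rw [hρ₁, ← hy]
      exact red_eq_of_val_sub_lt hker₁ ⟨b, hbV₁⟩ y hb₁
    · rw [hρ₂]
      exact red_eq_zero_of_val_lt hker₂ ⟨b, hbV₂⟩ hb₂
  have hB₂ : ∀ β, ∃ b : ↥R, ρ₂ b = β₂ β ∧
      V₁.valuation ((b : ↥R) : L) < V₁.valuation (algebraMap E L c) := by
    intro β
    obtain ⟨y, hy⟩ := hsurj₂ (β₂ β)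
    obtain ⟨b, hb₁, hb₂⟩ := exists_lift_small V₁ V₂ h₁₂ h₂₁ hA (y : L) y.2 _ hcL
    have hbV₂ : b ∈ V₂ := mem_of_val_sub_lt V₂ y.2 hb₂
    have hbV₁ : b ∈ V₁ := (ValuationSubring.valuation_le_one_iff V₁ _).1 (hb₁.le.trans hc₁)
    refine ⟨⟨b, hRmk b hbV₁ hbV₂⟩, ?_, hb₁⟩
    rw [hρ₂, ← hy]
    exact red_eq_of_val_sub_lt hker₂ ⟨b, hbV₂⟩ y hb₂
  choose B₁ hB₁a hB₁b using hB₁
  choose B₂ hB₂a hB₂b using hB₂
  have hB₂c : ∀ β, ρ₁ (B₂ β) = 0 := fun β =>
    red_eq_zero_of_val_lt hker₁ _ ((hB₂b β).trans_le hc₁)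
  let B : Fin (Module.finrank Et L₁) ⊕ Fin (Module.finrank Et L₂) → ↥R := Sum.elim B₁ B₂
  have hρB : ∀ i, ρ (B i) = (β₁.prod β₂) i := by
    rintro (α | β)
    · refine Prod.ext ?_ ?_
      · simpa [B, ρ] using hB₁a α
      · simpa [B, ρ] using hB₁b α
    · refine Prod.ext ?_ ?_
      · simpa [B, ρ] using hB₂c β
      · simpa [B, ρ] using hB₂a β
  have hli : LinearIndependent Et (fun i => ρ (B i)) := by
    have : (fun i => ρ (B i)) = (β₁.prod β₂) := funext hρB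
    rw [this]
    exact (β₁.prod β₂).linearIndependent
  have hliE := lat_li hVR hcompat B hli
  have hcard : Fintype.card (Fin (Module.finrank Et L₁) ⊕ Fin (Module.finrank Et L₂)) =
      Module.finrank E L := by
    rw [Fintype.card_sum, Fintype.card_fin, Fintype.card_fin, hdeg]
  have hne : Nonempty (Fin (Module.finrank Et L₁) ⊕ Fin (Module.finrank Et L₂)) := by
    rw [← Fintype.card_pos_iff, hcard]
    exact Module.finrank_pos
  let bE : Module.Basis (Fin (Module.finrank Et L₁) ⊕ Fin (Module.finrank Et L₂)) E L :=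
    basisOfLinearIndependentOfCardEqFinrank hliE hcard
  have hbE : ∀ i, bE i = ((B i : ↥R) : L) := fun i => by simp [bE]
  have hcoord : ∀ g : L, g ∈ R → ∀ i, bE.repr g i ∈ VE := by
    intro g hg i
    refine lat_coord hVR hkerE hcompat B hli (fun i => bE.repr g i) g hg ?_ i
    have := bE.sum_repr g
    simpa only [hbE] using this
  -- the columns
  have hu₁V₂ : (u₁ : L) ∈ V₂ := by
    rw [hu]; exact mul_mem (hV₂ c hc) u₂.2
  have hG₁ : ∀ α, (u₁ : L) * ((B₁ α : ↥R) : L) ∈ R := fun α =>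
    hRmk _ (mul_mem u₁.2 (hR1 _ (B₁ α).2)) (mul_mem hu₁V₂ (hR2 _ (B₁ α).2))
  have hu₂ : (u₂ : L) = (u₁ : L) * (algebraMap E L c)⁻¹ := by
    rw [hu]; field_simp
  have hG₂v : ∀ β, V₁.valuation ((u₂ : L) * ((B₂ β : ↥R) : L)) < 1 := by
    intro β
    have h1 : (u₂ : L) * ((B₂ β : ↥R) : L) =
        (u₁ : L) * (((B₂ β : ↥R) : L) * (algebraMap E L c)⁻¹) := by
      rw [hu₂]; ring
    rw [h1, map_mul]
    refine Right.mul_lt_one_of_le_of_lt ((ValuationSubring.valuation_le_one_iff V₁ _).2 u₁.2) ?_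
    rw [map_mul, map_inv₀, ← div_eq_mul_inv]
    exact (div_lt_one₀ (zero_lt_iff.2 ((Valuation.ne_zero_iff _).2 hcL))).2 (hB₂b β)
  have hG₂ : ∀ β, (u₂ : L) * ((B₂ β : ↥R) : L) ∈ R := fun β =>
    hRmk _ ((ValuationSubring.valuation_le_one_iff V₁ _).1 (hG₂v β).le)
      (mul_mem u₂.2 (hR2 _ (B₂ β).2))
  let G : Fin (Module.finrank Et L₁) ⊕ Fin (Module.finrank Et L₂) → ↥R :=
    Sum.elim (fun α => ⟨_, hG₁ α⟩) (fun β => ⟨_, hG₂ β⟩)
  let γ : Fin (Module.finrank Et L₁) ⊕ Fin (Module.finrank Et L₂) → E :=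
    Sum.elim (fun _ => 1) (fun _ => c)
  have hG : ∀ j, (u₁ : L) * bE j = γ j • ((G j : ↥R) : L) := by
    rintro (α | β)
    · simp [hbE, B, G, γ]
    · simp only [hbE, B, G, γ, Sum.elim_inr, Algebra.smul_def]
      rw [hu]; ring
  have hρG : ∀ j, ρ (G j) = (red₁ u₁, red₂ u₂) * (β₁.prod β₂) j := by
    rintro (α | β)
    · refine Prod.ext ?_ ?_
      · have h1 : ρ₁ (G (Sum.inl α)) = red₁ u₁ * ρ₁ (B₁ α) := by
          have h0 : ρ₁ (G (Sum.inl α)) =
              red₁ (u₁ * ⟨((B₁ α : ↥R) : L), hR1 _ (B₁ α).2⟩) := rfl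
          rw [h0, map_mul]; rfl
        simpa [ρ, hB₁a α] using h1
      · have h1 : ρ₂ (G (Sum.inl α)) = red₂ ⟨u₁, hu₁V₂⟩ * ρ₂ (B₁ α) := by
          have h0 : ρ₂ (G (Sum.inl α)) =
              red₂ (⟨u₁, hu₁V₂⟩ * ⟨((B₁ α : ↥R) : L), hR2 _ (B₁ α).2⟩) := rfl
          rw [h0, map_mul]; rfl
        rw [hB₁b α, mul_zero] at h1
        simpa [ρ] using h1
    · refine Prod.ext ?_ ?_
      · have h1 : ρ₁ (G (Sum.inr β)) = 0 := red_eq_zero_of_val_lt hker₁ _ (hG₂v β)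
        simpa [ρ] using h1
      · have h1 : ρ₂ (G (Sum.inr β)) = red₂ u₂ * ρ₂ (B₂ β) := by
          have h0 : ρ₂ (G (Sum.inr β)) =
              red₂ (u₂ * ⟨((B₂ β : ↥R) : L), hR2 _ (B₂ β).2⟩) := rfl
          rw [h0, map_mul]; rfl
        simpa [ρ, hB₂a β] using h1
  let M₀ : Matrix (Fin (Module.finrank Et L₁) ⊕ Fin (Module.finrank Et L₂))
      (Fin (Module.finrank Et L₁) ⊕ Fin (Module.finrank Et L₂)) ↥VE :=
    Matrix.of fun i j => ⟨bE.repr ((G j : ↥R) : L) i, hcoord _ (G j).2 i⟩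
  have hM : Algebra.leftMulMatrix bE (u₁ : L) = VE.subtype.mapMatrix M₀ * Matrix.diagonal γ := by
    refine Matrix.ext fun i j => ?_
    rw [Algebra.leftMulMatrix_eq_repr_mul, hG, map_smul, Matrix.mul_diagonal]
    simp [M₀, mul_comm]
  have hGexp : ∀ j, G j = ∑ i, incR hVR (M₀ i j) * B i := by
    intro j
    apply Subtype.ext
    simp only [AddSubmonoidClass.coe_finsetSum, MulMemClass.coe_mul, coe_incR]
    have := (bE.sum_repr ((G j : ↥R) : L)).symm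
    simp only [hbE, Algebra.smul_def] at this
    exact this
  have hred : redE.mapMatrix M₀ = Algebra.leftMulMatrix (β₁.prod β₂) (red₁ u₁, red₂ u₂) := by
    refine Matrix.ext fun i j => ?_
    rw [Algebra.leftMulMatrix_eq_repr_mul, ← hρG, hGexp, rho_sum hVR hcompat]
    simp only [hρB]
    rw [Module.Basis.repr_sum_self]
    rfl
  refine ⟨M₀.det, ?_, ?_⟩
  · rw [Algebra.norm_eq_matrix_det bE, hM, Matrix.det_mul, Matrix.det_diagonal,
      Fintype.prod_sum_type]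
    have h1 : (VE.subtype.mapMatrix M₀).det = ((M₀.det : ↥VE) : E) := by
      rw [← RingHom.map_det]; rfl
    rw [h1]
    simp [γ, mul_comm]
  · rw [RingHom.map_det, hred, det_leftMulMatrix_prod_basis]

/-- **NORM-RED for two valuations** (package CONS-ss, step S1).  `V₁ ≠ V₂` two valuation rings
of rank one of `L` over the valuation ring `V_E` of `E`, with residue fields `L₁`, `L₂` over `Et`
and `[L : E] = [L₁ : Et] + [L₂ : Et]`.  If `f = c₁ u₁ = c₂ u₂` with `c_i ∈ E` non-zero and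
`u_i ∈ V_i`, then `N_{L/E} f = c₁ ^ [L₁ : Et] · c₂ ^ [L₂ : Et] · δ` with `δ ∈ V_E` and
`red_E δ = N_{L₁/Et} (red₁ u₁) · N_{L₂/Et} (red₂ u₂)`. -/
theorem normRed_two [Module.Finite E L] [Module.Finite Et L₁] [Module.Finite Et L₂]
    (VE : ValuationSubring E) (V₁ V₂ : ValuationSubring L)
    (redE : ↥VE →+* Et) (red₁ : ↥V₁ →+* L₁) (red₂ : ↥V₂ →+* L₂)
    (hV₁ : ∀ a : E, a ∈ VE → algebraMap E L a ∈ V₁)
    (hV₂ : ∀ a : E, a ∈ VE → algebraMap E L a ∈ V₂)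
    (hkerE : ∀ a : ↥VE, ¬ IsUnit a → redE a = 0)
    (hsurj₁ : Function.Surjective red₁) (hsurj₂ : Function.Surjective red₂)
    (hker₁ : ∀ a : ↥V₁, ¬ IsUnit a → red₁ a = 0) (hker₂ : ∀ a : ↥V₂, ¬ IsUnit a → red₂ a = 0)
    (hcompat₁ : ∀ (a : ↥VE) (ha : algebraMap E L (a : E) ∈ V₁),
      red₁ ⟨algebraMap E L (a : E), ha⟩ = algebraMap Et L₁ (redE a))
    (hcompat₂ : ∀ (a : ↥VE) (ha : algebraMap E L (a : E) ∈ V₂),
      red₂ ⟨algebraMap E L (a : E), ha⟩ = algebraMap Et L₂ (redE a))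
    (h₁₂ : ¬ V₁ ≤ V₂) (h₂₁ : ¬ V₂ ≤ V₁) (hA₁ : IsArch V₁) (hA₂ : IsArch V₂)
    (hdeg : Module.finrank E L = Module.finrank Et L₁ + Module.finrank Et L₂)
    (f : L) (c₁ c₂ : E) (hc₁ : c₁ ≠ 0) (hc₂ : c₂ ≠ 0) (u₁ : ↥V₁) (u₂ : ↥V₂)
    (hf₁ : f = algebraMap E L c₁ * (u₁ : L)) (hf₂ : f = algebraMap E L c₂ * (u₂ : L)) :
    ∃ δ : ↥VE, Algebra.norm E f =
        c₁ ^ Module.finrank Et L₁ * c₂ ^ Module.finrank Et L₂ * (δ : E) ∧
      redE δ = Algebra.norm Et (red₁ u₁) * Algebra.norm Et (red₂ u₂) := by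
  have hcL₁ : algebraMap E L c₁ ≠ 0 := by rwa [Ne, map_eq_zero]
  have hcL₂ : algebraMap E L c₂ ≠ 0 := by rwa [Ne, map_eq_zero]
  rcases VE.mem_or_inv_mem (c₂ / c₁) with hc | hc
  · have hu : (u₁ : L) = algebraMap E L (c₂ / c₁) * (u₂ : L) := by
      have h1 : algebraMap E L c₁ * (u₁ : L) = algebraMap E L c₂ * (u₂ : L) := by
        rw [← hf₁, ← hf₂]
      rw [map_div₀]
      field_simp
      rw [← h1]; ring
    obtain ⟨δ, hδ, hδ'⟩ := normRed_two_aux VE V₁ V₂ redE red₁ red₂ hV₁ hV₂ hkerE hsurj₁ hsurj₂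
      hker₁ hker₂ hcompat₁ hcompat₂ h₁₂ h₂₁ hA₁ hdeg u₁ u₂ (c₂ / c₁) hc
      (div_ne_zero hc₂ hc₁) hu
    refine ⟨δ, ?_, hδ'⟩
    rw [hf₁, map_mul, hδ, Algebra.norm_algebraMap, hdeg, pow_add, div_pow]
    field_simp
  · have hc' : c₁ / c₂ ∈ VE := by
      rwa [inv_div] at hc
    have hu : (u₂ : L) = algebraMap E L (c₁ / c₂) * (u₁ : L) := by
      have h1 : algebraMap E L c₁ * (u₁ : L) = algebraMap E L c₂ * (u₂ : L) := by
        rw [← hf₁, ← hf₂]
      rw [map_div₀]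
      field_simp
      rw [h1]; ring
    obtain ⟨δ, hδ, hδ'⟩ := normRed_two_aux VE V₂ V₁ redE red₂ red₁ hV₂ hV₁ hkerE hsurj₂ hsurj₁
      hker₂ hker₁ hcompat₂ hcompat₁ h₂₁ h₁₂ hA₂ (by rw [hdeg, add_comm]) u₂ u₁ (c₁ / c₂) hc'
      (div_ne_zero hc₁ hc₂) hu
    refine ⟨δ, ?_, by rw [hδ', mul_comm]⟩
    rw [hf₂, map_mul, hδ, Algebra.norm_algebraMap, hdeg, pow_add, div_pow]
    field_simp

end Main

end Fermat.Agent.BAD.H42
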