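import Fermat.Agent.RED.H17_Lift
import Fermat.Agent.BAD.H42_NormRed2
import Fermat.Prelude.Def_AlgebraicCurve_DivisorPushPull

/-!
# Item 65, BAD_q, leaf TOT-ABS (helper28): the law of total conservation, abstract form

Setting: `E ⊆ L` function fields over `K` (modular: `E = F_M · ℚ̄ ⊆ L = F_{Mq} · ℚ̄`),
`SE : RedSetup K E k E'` the reduction datum of the lower level (Gauss valuation `SE.V`, residue
field `E'`, reduction of places `SE.r` with the conservation law `SE.DI`), `V₁`, `V₂` the two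
extensions of `SE.V` to `L` with residue maps `red_i : V_i → L_i`, `L_i ⊇ E'`,
`[L : E] = [L₁ : E'] + [L₂ : E']`.

`tot_of_normRed` : the field `tot` of `BAD.H79.TotData`:
`∑_{ρ P = z} ord_P u₁ = ord_z (red₁ u₁) + ord_{β z} (red₂ u₂)` for `u₂ = c u₁`.

Inputs:
* helper42's `H42.normRed_two` (norm reduction for two valuations);
* the norm formula for places `Divisor.PushforwardNormFormula K E L` (FF-B, helper51);
* the conservation law of the lower level (`SE.DI`);
* `ρ P = κ⁻¹ (SE.r (P | E))` for an injective transport of places `κ : Place k L₁ → Place k E'`;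
* `ord_{κ z} (N_{L₁/E'} g) = ord_z g` and `ord_{κ z} (N_{L₂/E'} g) = ord_{β z} g`
  (modular: `L₁ = E'`, and `L₂ / E'` is purely inseparable of degree `q` with `N g = g ^ q`).
-/

set_option autoImplicit false
set_option linter.style.haveILetI false

noncomputable section

open AlgebraicCurve

attribute [local instance] Classical.propDecidable

namespace Fermat.Agent.BAD.H28

open Fermat.Agent.RED.H17 Fermat.Agent.RED

section Push

variable {K E L : Type*} [Field K] [Field E] [Field L] [Algebra K E] [Algebra K L]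
  [Algebra E L] [IsScalarTower K E L] [Algebra.IsIntegral E L]

/-- If all inertia degrees are `1`, the push-forward of divisors is `mapDomain` of the
restriction of places. -/
theorem pushforward_eq_mapDomain (hin : ∀ w : Place K L, w.inertiaDeg E = 1)
    (D : Divisor K L) :
    Divisor.pushforward E D = Finsupp.mapDomain (fun P : Place K L => P.restrict E) D := by
  induction D using Finsupp.induction_linear with
  | zero => simp
  | add D₁ D₂ h₁ h₂ => rw [map_add, Finsupp.mapDomain_add, h₁, h₂]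
  | single w n =>
    rw [Divisor.pushforward_single, Finsupp.mapDomain_single, hin w, Nat.cast_one, mul_one]

end Push

variable {K E L k E' L₁ L₂ : Type} [Field K] [Field E] [Field L] [Field k] [Field E']
  [Field L₁] [Field L₂] [Algebra K E] [Algebra K L] [Algebra E L] [IsScalarTower K E L]
  [Module.Finite E L] [Algebra k E'] [Algebra k L₁] [Algebra k L₂] [Algebra E' L₁]
  [Algebra E' L₂] [Module.Finite E' L₁] [Module.Finite E' L₂]

/-- **TOT-ABS**: the law of total conservation (the field `tot` of `BAD.H79.TotData`) from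
norm reduction for two valuations, the norm formula for places and the conservation law of the
lower level. -/
theorem tot_of_normRed (SE : RedSetup K E k E') (hPE : HasPrincipalDivisors K E)
    (hin : ∀ w : Place K L, w.inertiaDeg E = 1)
    (hnorm : Divisor.PushforwardNormFormula K E L)
    (V₁ V₂ : ValuationSubring L) (red₁ : ↥V₁ →+* L₁) (red₂ : ↥V₂ →+* L₂)
    (hV₁ : ∀ a : E, a ∈ SE.V → algebraMap E L a ∈ V₁)
    (hV₂ : ∀ a : E, a ∈ SE.V → algebraMap E L a ∈ V₂)
    (hsurj₁ : Function.Surjective red₁) (hsurj₂ : Function.Surjective red₂)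
    (hker₁ : ∀ a : ↥V₁, ¬ IsUnit a → red₁ a = 0) (hker₂ : ∀ a : ↥V₂, ¬ IsUnit a → red₂ a = 0)
    (hcompat₁ : ∀ (a : ↥SE.V) (ha : algebraMap E L (a : E) ∈ V₁),
      red₁ ⟨algebraMap E L (a : E), ha⟩ = algebraMap E' L₁ (SE.red a))
    (hcompat₂ : ∀ (a : ↥SE.V) (ha : algebraMap E L (a : E) ∈ V₂),
      red₂ ⟨algebraMap E L (a : E), ha⟩ = algebraMap E' L₂ (SE.red a))
    (h₁₂ : ¬ V₁ ≤ V₂) (h₂₁ : ¬ V₂ ≤ V₁) (hA₁ : H42.IsArch V₁) (hA₂ : H42.IsArch V₂)
    (hdeg : Module.finrank E L = Module.finrank E' L₁ + Module.finrank E' L₂)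
    (ρ : Place K L → Place k L₁) (κ : Place k L₁ → Place k E') (hκ : Function.Injective κ)
    (hρ : ∀ P : Place K L, κ (ρ P) = SE.r (P.restrict E))
    (β : Place k L₁ → Place k L₂)
    (hN₁ : ∀ (z : Place k L₁) (g : L₁), g ≠ 0 → (κ z).ord (Algebra.norm E' g) = z.ord g)
    (hN₂ : ∀ (z : Place k L₁) (g : L₂), g ≠ 0 →
      (κ z).ord (Algebra.norm E' g) = (β z).ord g) :
    ∀ (u₁ : ↥V₁) (u₂ : ↥V₂), red₁ u₁ ≠ 0 → red₂ u₂ ≠ 0 →
      (∃ c : K, (u₂ : L) = algebraMap K L c * (u₁ : L)) →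
      ∀ D : Divisor K L, (∀ P, D P = P.ord (u₁ : L)) → ∀ z : Place k L₁,
        Finsupp.mapDomain ρ D z = z.ord (red₁ u₁) + (β z).ord (red₂ u₂) := by
  intro u₁ u₂ h1 h2 hc D hD z
  obtain ⟨c, hc⟩ := hc
  have hu₂0 : (u₂ : L) ≠ 0 := fun h => h2 (by
    have : u₂ = 0 := Subtype.ext h
    rw [this, map_zero])
  have hu₁0 : (u₁ : L) ≠ 0 := fun h => h1 (by
    have : u₁ = 0 := Subtype.ext h
    rw [this, map_zero])
  have hc0 : c ≠ 0 := by
    rintro rfl
    apply hu₂0
    rw [hc, map_zero, zero_mul]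
  have hcE : algebraMap K E c ≠ 0 := (map_ne_zero_iff _ (algebraMap K E).injective).mpr hc0
  have hkerE : ∀ a : ↥SE.V, ¬ IsUnit a → SE.red a = 0 := fun a ha =>
    (SE.red_eq_zero_iff a).2 ((IsLocalRing.mem_maximalIdeal a).2 ha)
  -- norm reduction
  obtain ⟨δ, hδ, hδr⟩ := H42.normRed_two SE.V V₁ V₂ SE.red red₁ red₂ hV₁ hV₂ hkerE hsurj₁
    hsurj₂ hker₁ hker₂ hcompat₁ hcompat₂ h₁₂ h₂₁ hA₁ hA₂ hdeg (u₁ : L) 1 (algebraMap K E c)⁻¹
    one_ne_zero (inv_ne_zero hcE) u₁ u₂ (by rw [map_one, one_mul]) (by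
      rw [hc, map_inv₀, ← IsScalarTower.algebraMap_apply, ← mul_assoc, inv_mul_cancel₀
        ((map_ne_zero_iff _ (algebraMap K L).injective).mpr hc0), one_mul])
  have hδ0 : SE.red δ ≠ 0 := by
    rw [hδr]
    exact mul_ne_zero (Algebra.norm_ne_zero_iff.2 h1) (Algebra.norm_ne_zero_iff.2 h2)
  have hGU : SE.IsGU (δ : E) := ⟨δ.2, by rw [SE.rd_of_mem δ.2]; exact hδ0⟩
  -- the orders of the norm
  have hord : ∀ v : Place K E, v.ord (Algebra.norm E (u₁ : L)) = v.ord (δ : E) := by
    intro v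
    rw [hδ, one_pow, one_mul, ← map_inv₀, ← map_pow]
    exact ord_algebraMap_mul v (pow_ne_zero _ (inv_ne_zero hc0)) _
  have hpush : Divisor.pushforward E D = dv hPE (δ : E) :=
    Finsupp.ext fun v => by rw [hnorm _ hu₁0 D hD v, hord, dv_apply]
  -- transport
  have h3 : Finsupp.mapDomain κ (Finsupp.mapDomain ρ D) =
      Finsupp.mapDomain SE.r (dv hPE (δ : E)) := by
    rw [← hpush, pushforward_eq_mapDomain hin, ← Finsupp.mapDomain_comp,
      ← Finsupp.mapDomain_comp]
    congr 1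
    exact funext hρ
  have h4 : Finsupp.mapDomain ρ D z = (κ z).ord (SE.rd (δ : E)) := by
    rw [← Finsupp.mapDomain_apply hκ (Finsupp.mapDomain ρ D) z, h3]
    exact SE.mapDomain_dv hPE hGU (κ z)
  rw [h4, SE.rd_of_mem δ.2, hδr,
    Place.ord_mul _ (Algebra.norm_ne_zero_iff.2 h1) (Algebra.norm_ne_zero_iff.2 h2),
    hN₁ z _ h1, hN₂ z _ h2]

end Fermat.Agent.BAD.H28
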