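import Fermat.Agent.BAD.H82_Arch
import Fermat.Agent.BAD.Defs

/-!
# Item 65, package V2 (helper82): rank one for the Gauss valuation of `F_N · Q̄`

`arch_gaussV` is the field `arch` of helper79's `TotData` for the Gauss valuation ring
`gaussV A N` (`A` a valuation ring of `Q̄` over the prime `q`).
-/

set_option autoImplicit false

noncomputable section

open ModularCurve Fermat.Agent.S28 Fermat.Agent.S28.H73 Fermat.Agent.RED.H73

namespace Fermat.Agent.BAD.H82

theorem isAlgebraic_int_Qbar (x : AlgebraicClosure ℚ) : IsAlgebraic ℤ x :=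
  (IsFractionRing.isAlgebraic_iff ℤ ℚ (AlgebraicClosure ℚ)).2
    ((AlgebraicClosure.isAlgebraic ℚ).isAlgebraic x)

/-- **Rank one** for a valuation ring of `Q̄` over `q`. -/
theorem arch_Qbar (A : ValuationSubring (AlgebraicClosure ℚ)) {q : ℕ} (hq : q.Prime)
    (hA : A.LiesOverPrime q) {c d : AlgebraicClosure ℚ} (hc : c ∈ A.nonunits) (hd : d ≠ 0) :
    ∃ m : ℕ, c ^ m / d ∈ A :=
  arch A hq hA isAlgebraic_int_Qbar hc hd

/-- A constant with reduction `0` is a non-unit of `A`. -/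
theorem mem_nonunits_of_gaussRes_eq_zero (A : ValuationSubring (AlgebraicClosure ℚ)) (N : ℕ)
    (c : AlgebraicClosure ℚ) (h : algebraMap (AlgebraicClosure ℚ) ↥(FNbar N) c ∈ gaussV A N)
    (h0 : gaussRes A N ⟨_, h⟩ = 0) : c ∈ A.nonunits := by
  have hcA : c ∈ A := (algebraMap_mem_gaussValSub_iff A _ c).1 h
  have h1 : gaussResF A (hasScale_laurentBaseChange A N)
      ⟨algebraMap (AlgebraicClosure ℚ) ↥(FNbar N) ((⟨c, hcA⟩ : ↥A) : AlgebraicClosure ℚ), h⟩ = 0 :=
    congrArg Subtype.val h0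
  rw [gaussResF_algebraMap A (hasScale_laurentBaseChange A N) ⟨c, hcA⟩ h] at h1
  have h2 : resV A ⟨c, hcA⟩ = 0 := by
    have := congrArg (fun s : LaurentSeries (kV A) => s.coeff 0) h1
    simpa using this
  rw [ValuationSubring.mem_nonunits_iff_exists_mem_maximalIdeal]
  exact ⟨hcA, (IsLocalRing.residue_eq_zero_iff _).1 h2⟩

/-- **Rank one** for the Gauss valuation ring of `F_N · Q̄` (the field `arch` of `TotData`). -/
theorem arch_gaussV (A : ValuationSubring (AlgebraicClosure ℚ)) {q : ℕ} (hq : q.Prime)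
    (hA : A.LiesOverPrime q) (N : ℕ) (c d : AlgebraicClosure ℚ)
    (h : algebraMap (AlgebraicClosure ℚ) ↥(FNbar N) c ∈ gaussV A N)
    (h0 : gaussRes A N ⟨_, h⟩ = 0) (hd : d ≠ 0) :
    ∃ m : ℕ, algebraMap (AlgebraicClosure ℚ) ↥(FNbar N) (c ^ m / d) ∈ gaussV A N := by
  obtain ⟨m, hm⟩ := arch_Qbar A hq hA (mem_nonunits_of_gaussRes_eq_zero A N c h h0) hd
  exact ⟨m, (algebraMap_mem_gaussValSub_iff A _ _).2 hm⟩

end Fermat.Agent.BAD.H82
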