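import Fermat.Agent.BAD.H42_NormRed2
import Fermat.Agent.BAD.H82_ArchF
import Fermat.Agent.BAD.H82_KronF
import Fermat.Agent.BAD.H88_V2

/-!
# Item 65 (BAD_q), glue for TOT-MOD (helper73): rank one and incomparability of `V₁`, `V₂`

* `isArch_V1`, `isArch_V2` : helper42's `IsArch` for the two Gauss valuation rings of `F_{Mq} ℚ̄`;
* `not_V1_le_V2`, `not_V2_le_V1` : the two valuation rings are incomparable;
* generic: `isArch_iff_nonunits`, `isArch_comap` (transport along an automorphism),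
  `isArch_of_scale` (rank one from scaling by constants + rank one on the constants).
-/

set_option autoImplicit false
set_option synthInstance.maxHeartbeats 400000
set_option maxHeartbeats 1000000

noncomputable section

open ModularCurve AlgebraicCurve Fermat.Agent.S28.H73 Fermat.Agent.RED.H73 Fermat.Agent.BAD.H88
  Fermat.Agent.BAD.H82 Fermat.Agent.S24 Fermat.Agent.RED.H17

namespace Fermat.Agent.BAD.H73

section Generic

variable {L : Type} [Field L]

theorem val_lt_iff_div_mem (V : ValuationSubring L) (a y : L) (hy : y ≠ 0) :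
    V.valuation a < V.valuation y ↔ a / y ∈ V.nonunits := by
  have hvy : V.valuation y ≠ 0 := (Valuation.ne_zero_iff _).2 hy
  have hpos : 0 < V.valuation y := zero_lt_iff.2 hvy
  rw [ValuationSubring.mem_nonunits_iff, map_div₀, div_lt_one₀ hpos]

/-- `IsArch` in terms of the maximal ideal. -/
theorem isArch_iff_nonunits (V : ValuationSubring L) :
    H42.IsArch V ↔ ∀ x y : L, x ∈ V.nonunits → y ≠ 0 → ∃ n : ℕ, x ^ n / y ∈ V.nonunits := by
  constructor
  · intro h x y hx hy
    obtain ⟨n, hn⟩ := h x y ((ValuationSubring.mem_nonunits_iff V).1 hx) hy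
    exact ⟨n, (val_lt_iff_div_mem V _ _ hy).1 hn⟩
  · intro h x y hx hy
    obtain ⟨n, hn⟩ := h x y ((ValuationSubring.mem_nonunits_iff V).2 hx) hy
    exact ⟨n, (val_lt_iff_div_mem V _ _ hy).2 hn⟩

theorem mem_nonunits_comap (V : ValuationSubring L) (w : L ≃+* L) (x : L) :
    x ∈ (V.comap (w : L →+* L)).nonunits ↔ w x ∈ V.nonunits := by
  rw [ValuationSubring.mem_nonunits_iff_or, ValuationSubring.mem_nonunits_iff_or,
    ValuationSubring.mem_comap]
  constructor
  · rintro (h | h)
    · left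
      rw [h]
      exact map_zero w
    · right
      intro h'
      apply h
      show w x⁻¹ ∈ V
      rw [map_inv₀]
      exact h'
  · rintro (h | h)
    · left
      exact (map_eq_zero_iff w w.injective).1 h
    · right
      intro h'
      apply h
      have : w x⁻¹ ∈ V := h'
      rwa [map_inv₀] at this

/-- Rank one is transported along an automorphism. -/
theorem isArch_comap (V : ValuationSubring L) (w : L ≃+* L) (h : H42.IsArch V) :
    H42.IsArch (V.comap (w : L →+* L)) := by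
  rw [isArch_iff_nonunits] at h ⊢
  intro x y hx hy
  have hwy : w y ≠ 0 := fun h0 => hy ((map_eq_zero_iff w w.injective).1 h0)
  obtain ⟨n, hn⟩ := h (w x) (w y) ((mem_nonunits_comap V w x).1 hx) hwy
  refine ⟨n, (mem_nonunits_comap V w _).2 ?_⟩
  rw [map_div₀, map_pow]
  exact hn

/-- Rank one from scaling by constants: if every non-zero element is a constant times a unit
and the constants satisfy the rank one property. -/
theorem isArch_of_scale {K : Type} [Field K] [Algebra K L] (V : ValuationSubring L)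
    (hsc : ∀ f : L, f ≠ 0 → ∃ c : K, c ≠ 0 ∧ V.valuation (algebraMap K L c * f) = 1)
    (harch : ∀ c d : K, algebraMap K L c ∈ V.nonunits → d ≠ 0 →
      ∃ m : ℕ, algebraMap K L (c ^ m / d) ∈ V) :
    H42.IsArch V := by
  intro x y hx hy
  rcases eq_or_ne x 0 with rfl | hx0
  · refine ⟨1, ?_⟩
    rw [pow_one, map_zero]
    exact zero_lt_iff.2 ((Valuation.ne_zero_iff _).2 hy)
  obtain ⟨c₁, hc₁, h₁⟩ := hsc x hx0
  obtain ⟨c₂, hc₂, h₂⟩ := hsc y hy
  have hc₁' : algebraMap K L c₁ ≠ 0 := fun h0 => hc₁ ((map_eq_zero _).1 h0)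
  have hc₂' : algebraMap K L c₂ ≠ 0 := fun h0 => hc₂ ((map_eq_zero _).1 h0)
  -- `v x = v (c₁⁻¹)`, `v y = v (c₂⁻¹)`
  have hvx : V.valuation x = V.valuation (algebraMap K L c₁⁻¹) := by
    rw [map_mul] at h₁
    rw [map_inv₀, map_inv₀]
    exact eq_inv_of_mul_eq_one_right h₁
  have hvy : V.valuation y = V.valuation (algebraMap K L c₂⁻¹) := by
    rw [map_mul] at h₂
    rw [map_inv₀, map_inv₀]
    exact eq_inv_of_mul_eq_one_right h₂
  have hc : algebraMap K L c₁⁻¹ ∈ V.nonunits := by
    rw [ValuationSubring.mem_nonunits_iff, ← hvx]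
    exact hx
  obtain ⟨m, hm⟩ := harch c₁⁻¹ c₂⁻¹ hc (inv_ne_zero hc₂)
  refine ⟨m + 1, ?_⟩
  rw [map_pow, hvx, hvy]
  have h1 : V.valuation (algebraMap K L c₁⁻¹) ^ m ≤ V.valuation (algebraMap K L c₂⁻¹) := by
    rw [← ValuationSubring.valuation_le_one_iff, map_div₀, map_div₀, map_pow, map_pow] at hm
    have hpos : 0 < V.valuation (algebraMap K L c₂⁻¹) :=
      zero_lt_iff.2 ((Valuation.ne_zero_iff _).2 (by
        rw [map_inv₀]; exact inv_ne_zero hc₂'))
    exact (div_le_one₀ hpos).1 hm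
  have h2 : V.valuation (algebraMap K L c₁⁻¹) < 1 := (ValuationSubring.mem_nonunits_iff V).1 hc
  have hpos : 0 < V.valuation (algebraMap K L c₂⁻¹) :=
    zero_lt_iff.2 ((Valuation.ne_zero_iff _).2 (by
      rw [map_inv₀]; exact inv_ne_zero hc₂'))
  calc V.valuation (algebraMap K L c₁⁻¹) ^ (m + 1)
      = V.valuation (algebraMap K L c₁⁻¹) ^ m * V.valuation (algebraMap K L c₁⁻¹) := pow_succ _ _
    _ ≤ V.valuation (algebraMap K L c₂⁻¹) * V.valuation (algebraMap K L c₁⁻¹) :=
        mul_le_mul_left h1 _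
    _ < V.valuation (algebraMap K L c₂⁻¹) * 1 := by
        exact mul_lt_mul_of_pos_left h2 hpos
    _ = V.valuation (algebraMap K L c₂⁻¹) := mul_one _

end Generic

section Concrete

variable (A : ValuationSubring Kbar)
variable (q M : ℕ) (a b : ℤ) (hab : a * q + b * M = 1) (hq : q.Prime) [NeZero (M * q)]
variable (hA : A.LiesOverPrime q)

/-- A unit of `V₁` has valuation `1`. -/
theorem valuation_eq_one_of_red1_ne_zero (u : ↥(V1 A q M)) (hu : red1 A q M u ≠ 0) :
    (V1 A q M).valuation (u : FN (M * q)) = 1 := by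
  rw [← ValuationSubring.valuation_eq_one_iff]
  exact (gaussResF'_ne_zero_iff_isUnit A (hSc A q M) u).1 hu

include hq hA in
/-- **`V₁` has rank one.** -/
theorem isArch_V1 : H42.IsArch (V1 A q M) := by
  apply isArch_of_scale (K := Kbar) (V1 A q M)
  · intro f hf
    obtain ⟨c, hc, h, hr⟩ := exists_scale1 A q M f hf
    exact ⟨c, hc, valuation_eq_one_of_red1_ne_zero A q M ⟨_, h⟩ hr⟩
  · intro c d hc hd
    obtain ⟨hmem, hmax⟩ := (ValuationSubring.mem_nonunits_iff_exists_mem_maximalIdeal).1 hc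
    have h0 : red1 A q M ⟨_, hmem⟩ = 0 := (red1_eq_zero_iff A q M _).2 hmax
    exact arch_gaussV A hq hA (M * q) c d hmem h0 hd

include hq hA in
/-- **`V₂` has rank one.** -/
theorem isArch_V2 : H42.IsArch (V2 A q M a b hab hq) :=
  isArch_comap (V1 A q M) ((wq q M a b hab hq : FN (M * q) ≃ₐ[Kbar] FN (M * q)) :
    FN (M * q) ≃+* FN (M * q)) (isArch_V1 A q M hq hA)

include hq hA in
theorem V1_ne_top : V1 A q M ≠ ⊤ := by
  intro h
  have h1 : algebraMap Kbar (FN (M * q)) ((q : Kbar))⁻¹ ∈ V1 A q M := by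
    rw [h]; exact ValuationSubring.mem_top _
  rw [const_mem1] at h1
  have h2 : (q : Kbar) ∈ A.nonunits := hA
  rw [ValuationSubring.mem_nonunits_iff_or] at h2
  rcases h2 with h2 | h2
  · exact hq.ne_zero (by exact_mod_cast h2)
  · exact h2 h1

include hq hA in
theorem V2_ne_top : V2 A q M a b hab hq ≠ ⊤ := by
  intro h
  have h1 : algebraMap Kbar (FN (M * q)) ((q : Kbar))⁻¹ ∈ V2 A q M a b hab hq := by
    rw [h]; exact ValuationSubring.mem_top _
  rw [const_mem2, const_mem1] at h1
  have h2 : (q : Kbar) ∈ A.nonunits := hA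
  rw [ValuationSubring.mem_nonunits_iff_or] at h2
  rcases h2 with h2 | h2
  · exact hq.ne_zero (by exact_mod_cast h2)
  · exact h2 h1

include hA in
/-- `V₁ ≠ V₂` (helper82's (K)). -/
theorem V1_ne_V2 : V1 A q M ≠ V2 A q M a b hab hq :=
  gaussV_ne_comap q M a b hab hq A hA

include hA in
/-- **`V₁ ⊄ V₂`.** -/
theorem not_V1_le_V2 : ¬ V1 A q M ≤ V2 A q M a b hab hq :=
  H42.not_le_of_isArch (isArch_V1 A q M hq hA) (V1_ne_V2 A q M a b hab hq hA)
    (V2_ne_top A q M a b hab hq hA)

include hA in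
/-- **`V₂ ⊄ V₁`.** -/
theorem not_V2_le_V1 : ¬ V2 A q M a b hab hq ≤ V1 A q M :=
  H42.not_le_of_isArch (isArch_V2 A q M a b hab hq hA) (V1_ne_V2 A q M a b hab hq hA).symm
    (V1_ne_top A q M hq hA)

end Concrete

end Fermat.Agent.BAD.H73
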