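import Fermat.Agent.BAD.H73_BetaF1
import Fermat.Agent.BAD.H82_KronF

/-!
# Item 65 (BAD_q), glue for TOT-MOD (helper73), part (M3): the second valuation on level `M`

`N = M q`.  For a function `x ∈ F_N ℚ̄` of level `M` (its `q`-expansion lies in `F_M ℚ̄`):

* `coe_wq_of_level` : the `q`-expansion of `w_q x` is `x(t ^ q)`;
* `mem_V2_iff_of_level` : `x ∈ V₂ ↔ x ∈ V₁`;
* `red2_of_level` : `red₂ x = Fr (red₁ x)` (as series: `coe_red2_of_level`).

Generic: `qExpand_mem_gaussRingV`, `gaussRedV_qExpand` (the Gauss ring and its reduction commute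
with `t ↦ t ^ n`).
-/

set_option autoImplicit false
set_option synthInstance.maxHeartbeats 400000
set_option maxHeartbeats 1000000

noncomputable section

open ModularCurve AlgebraicCurve Fermat.Agent.S28.H73 Fermat.Agent.RED.H73 Fermat.Agent.BAD.H88
  Fermat.Agent.BAD.H82 Fermat.Agent.S24

namespace Fermat.Agent.BAD.H73

section Gauss

variable {C : Type} [Field C] (O : ValuationSubring C) (n : ℕ) [NeZero n]

theorem qExpand_congr {R : Type*} [CommRing R] {m n : ℕ} [NeZero m] [NeZero n] (h : m = n)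
    (f : LaurentSeries R) : qExpand R m f = qExpand R n f := by
  subst h
  rfl

theorem iotaV_qExpand (g : LaurentSeries ↥O) :
    iotaV O (qExpand ↥O n g) = qExpand C n (iotaV O g) :=
  coeffMap_qExpand _ n g

theorem redV_qExpand (g : LaurentSeries ↥O) :
    redV O (qExpand ↥O n g) = qExpand (kV O) n (redV O g) :=
  coeffMap_qExpand _ n g

/-- The Gauss ring is stable under `t ↦ t ^ n`. -/
theorem qExpand_mem_gaussRingV {x : LaurentSeries C} (hx : x ∈ gaussRingV O) :
    qExpand C n x ∈ gaussRingV O := by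
  obtain ⟨g, h, hg, hgx⟩ := hx
  refine ⟨qExpand ↥O n g, qExpand ↥O n h, ?_, ?_⟩
  · rw [redV_qExpand]
    intro h0
    exact hg (qExpand_injective n (by rw [h0, map_zero]))
  · rw [iotaV_qExpand, iotaV_qExpand, ← map_mul, hgx]

/-- The reduction of the Gauss ring commutes with `t ↦ t ^ n`. -/
theorem gaussRedV_qExpand {x : LaurentSeries C} (hx : x ∈ gaussRingV O)
    (hx' : qExpand C n x ∈ gaussRingV O) :
    gaussRedV O ⟨qExpand C n x, hx'⟩ = qExpand (kV O) n (gaussRedV O ⟨x, hx⟩) := by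
  have hx0 := hx
  obtain ⟨g, h, hg, hgx⟩ := hx0
  have hg' : redV O (qExpand ↥O n g) ≠ 0 := by
    rw [redV_qExpand]
    intro h0
    exact hg (qExpand_injective n (by rw [h0, map_zero]))
  have hgx' : iotaV O (qExpand ↥O n g) * qExpand C n x = iotaV O (qExpand ↥O n h) := by
    rw [iotaV_qExpand, iotaV_qExpand, ← map_mul, hgx]
  rw [gaussRedV_eq O ⟨qExpand C n x, hx'⟩ hg' hgx', gaussRedV_eq O ⟨x, hx⟩ hg hgx,
    redV_qExpand, redV_qExpand, map_div₀]

end Gauss

section Level

theorem neZero_of_mul_left' (q M : ℕ) [NeZero (M * q)] : NeZero M :=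
  ⟨fun h => NeZero.ne (M * q) (by rw [h, zero_mul])⟩

theorem barM_le_bar (q M : ℕ) [NeZero (M * q)] :
    modularFunctionFieldBar M ≤ modularFunctionFieldBar (M * q) :=
  have : NeZero M := neZero_of_mul_left' q M
  IntermediateField.adjoin.mono _ _ _ (Set.image_mono (full_degeneracy_le (Dvd.intro q rfl)))

variable (A : ValuationSubring Kbar)
variable (q M : ℕ) (a b : ℤ) (hab : a * q + b * M = 1) (hq : q.Prime) [NeZero (M * q)]

include hab hq in
/-- **The `q`-expansion of `w_q x` is `x(t ^ q)`** for `x` of level `M`. -/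
theorem coe_wq_of_level (x : FN (M * q))
    (hx : (x : LaurentSeries Kbar) ∈ modularFunctionFieldBar M) :
    letI : NeZero q := neZero_of_mul_right q M
    ((wq q M a b hab hq x : FN (M * q)) : LaurentSeries Kbar)
      = qExpand Kbar q (x : LaurentSeries Kbar) := by
  have : NeZero q := neZero_of_mul_right q M
  have : NeZero M := neZero_of_mul_left' q M
  let i : FN M →ₐ[Kbar] FN (M * q) := IntermediateField.inclusion (barM_le_bar q M)
  let f₁ : FN M →ₐ[Kbar] LaurentSeries Kbar :=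
    (modularFunctionFieldBar (M * q)).val.comp ((wq q M a b hab hq).toAlgHom.comp i)
  let f₂ : FN M →ₐ[Kbar] LaurentSeries Kbar :=
    (qExpandAlgHomC Kbar q).comp (modularFunctionFieldBar M).val
  have key : f₁ = f₂ := by
    apply algHom_ext_of_adjoin _ (adjoin_jdF M)
    rintro y ⟨d, hd0, hd, rfl⟩
    have : NeZero (d * q) := ⟨Nat.mul_ne_zero (NeZero.ne d) (NeZero.ne q)⟩
    have : NeZero (q * d) := ⟨Nat.mul_ne_zero (NeZero.ne q) (NeZero.ne d)⟩
    have e1 : i (jdF M d hd) = jdF (M * q) d (Dvd.dvd.mul_right hd q) := Subtype.ext rfl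
    show ((wq q M a b hab hq (i (jdF M d hd)) : FN (M * q)) : LaurentSeries Kbar)
      = qExpand Kbar q ((jdF M d hd : FN M) : LaurentSeries Kbar)
    rw [e1, wq_apply, wqHom_jdF q M a b hab hq d hd, coe_jdF, coe_jdF, qExpand_qExpand]
    exact qExpand_congr (Nat.mul_comm d q) _
  have := congrArg (fun f : FN M →ₐ[Kbar] LaurentSeries Kbar => f ⟨(x : LaurentSeries Kbar), hx⟩)
    key
  exact this

include hab hq in
/-- A function of level `M` in `V₁` is in `V₂`. -/
theorem mem_V2_of_level (x : FN (M * q))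
    (hx : (x : LaurentSeries Kbar) ∈ modularFunctionFieldBar M) (h1 : x ∈ V1 A q M) :
    x ∈ V2 A q M a b hab hq := by
  have : NeZero q := neZero_of_mul_right q M
  rw [mem_V2_iff]
  show ((wq q M a b hab hq x : FN (M * q)) : LaurentSeries Kbar) ∈ gaussRingV A
  rw [coe_wq_of_level q M a b hab hq x hx]
  exact qExpand_mem_gaussRingV A q h1

include hab hq in
/-- **`red₂ x = (red₁ x)(t ^ q)`** for `x` of level `M`. -/
theorem coe_red2_of_level (x : FN (M * q))
    (hx : (x : LaurentSeries Kbar) ∈ modularFunctionFieldBar M) (h1 : x ∈ V1 A q M)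
    (h2 : x ∈ V2 A q M a b hab hq) :
    letI : NeZero q := neZero_of_mul_right q M
    ((red2 A q M a b hab hq ⟨x, h2⟩ : F1 A q M) : LaurentSeries (kV A))
      = qExpand (kV A) q ((red1 A q M ⟨x, h1⟩ : F1 A q M) : LaurentSeries (kV A)) := by
  have : NeZero q := neZero_of_mul_right q M
  rw [red2_mk]
  show gaussRedV A ⟨((wq q M a b hab hq x : FN (M * q)) : LaurentSeries Kbar), h2⟩
    = qExpand (kV A) q (gaussRedV A ⟨(x : LaurentSeries Kbar), h1⟩)
  have e : (⟨((wq q M a b hab hq x : FN (M * q)) : LaurentSeries Kbar), h2⟩ : gaussRingV A)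
      = ⟨qExpand Kbar q (x : LaurentSeries Kbar), qExpand_mem_gaussRingV A q h1⟩ :=
    Subtype.ext (coe_wq_of_level q M a b hab hq x hx)
  rw [e]
  exact gaussRedV_qExpand A q h1 _

include hab hq in
/-- For a function of level `M`: `x ∈ V₂ ↔ x ∈ V₁`. -/
theorem mem_V2_iff_of_level (x : FN (M * q))
    (hx : (x : LaurentSeries Kbar) ∈ modularFunctionFieldBar M) :
    x ∈ V2 A q M a b hab hq ↔ x ∈ V1 A q M := by
  have : NeZero q := neZero_of_mul_right q M
  refine ⟨fun h2 => ?_, mem_V2_of_level A q M a b hab hq x hx⟩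
  by_contra h1
  have hx0 : x ≠ 0 := by
    rintro rfl
    exact h1 (V1 A q M).zero_mem
  have hinv1 : x⁻¹ ∈ V1 A q M := ((V1 A q M).mem_or_inv_mem x).resolve_left h1
  have hxi : ((x⁻¹ : FN (M * q)) : LaurentSeries Kbar) ∈ modularFunctionFieldBar M := by
    show ((x : LaurentSeries Kbar))⁻¹ ∈ modularFunctionFieldBar M
    exact (modularFunctionFieldBar M).inv_mem hx
  have hinv2 : x⁻¹ ∈ V2 A q M a b hab hq := mem_V2_of_level A q M a b hab hq _ hxi hinv1
  -- `x⁻¹` is not a unit of `V₁`, so `red₁ x⁻¹ = 0`, so `red₂ x⁻¹ = 0`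
  have hr1 : red1 A q M ⟨x⁻¹, hinv1⟩ = 0 := by
    rw [red1_eq_zero_iff, mem_maximalIdeal_iff']
    right
    show (x⁻¹)⁻¹ ∉ V1 A q M
    rwa [inv_inv]
  have hr2 : red2 A q M a b hab hq ⟨x⁻¹, hinv2⟩ = 0 := by
    apply Subtype.ext
    rw [coe_red2_of_level A q M a b hab hq _ hxi hinv1 hinv2, hr1]
    show qExpand (kV A) q 0 = 0
    exact map_zero _
  rw [red2_eq_zero_iff, mem_maximalIdeal_iff'] at hr2
  rcases hr2 with h0 | h0
  · exact hx0 (inv_eq_zero.mp h0)
  · apply h0
    show (x⁻¹)⁻¹ ∈ V2 A q M a b hab hq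
    rwa [inv_inv]

variable (hA : A.LiesOverPrime q) (M' : ℕ)
variable (hD : redField A (modularFunctionFieldBar (M * q)) (hSc A q M)
  = modularFunctionFieldFullC (kV A) M')

include hab in
/-- **`red₂ x = Fr (red₁ x)`** for `x` of level `M` (hcompat₂). -/
theorem red2_of_level (x : FN (M * q))
    (hx : (x : LaurentSeries Kbar) ∈ modularFunctionFieldBar M) (h1 : x ∈ V1 A q M)
    (h2 : x ∈ V2 A q M a b hab hq) :
    red2 A q M a b hab hq ⟨x, h2⟩ = FrF1 A q M hq hA M' hD (red1 A q M ⟨x, h1⟩) :=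
  Subtype.ext (coe_red2_of_level A q M a b hab hq x hx h1 h2)

end Level

end Fermat.Agent.BAD.H73
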