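import Fermat.Agent.BAD.H73_Beta
import Fermat.Agent.BAD.H88_V2
import Fermat.Agent.BAD.H82_Kron
import Fermat.Agent.RED.H73_GAMainC

/-!
# Item 65 (BAD_q), `TotData` leaf `β` for `F₁ = redField A (F_{Mq} ℚ̄)` (helper73)

Concrete instance of `BAD/H73_Beta.lean`: `k = kV A`, `A` over `q`, `E = redField`, with the input
(D) `redField A (F_{Mq} ℚ̄) = modularFunctionFieldFullC k M'` (helper82) as a hypothesis.

* `betaF1 : Place k F₁ ≃ Place k F₁`, `FrF1 : F₁ →ₐ[k] F₁` (`t ↦ t ^ q`), `phiF1 : F₁ ≃+* F₁`;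
* `betaF1_ord : (β z).ord y = z.ord (φ y)`, **`betaF1_ord_Fr : (β z).ord (Fr g) = q * z.ord g`**.
-/

set_option autoImplicit false
set_option synthInstance.maxHeartbeats 400000
set_option maxHeartbeats 1000000

noncomputable section

open ModularCurve AlgebraicCurve Fermat.Agent.S28.H73 Fermat.Agent.RED.H73 Fermat.Agent.BAD.H88
  Fermat.Agent.BAD.H82 Fermat.Agent.S24

namespace Fermat.Agent.BAD.H73

/-- The residue field of a valuation ring of `ℚ̄` over `q` is perfect. -/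
theorem perfectRing_kV {F : Type} [Field F] [IsAlgClosed F] (A : ValuationSubring F) (q : ℕ)
    [Fact q.Prime] [CharP (kV A) q] : PerfectRing (kV A) q := by
  have : IsAlgClosed (kV A) := isAlgClosed_kV A
  infer_instance

section Concrete

variable (A : ValuationSubring Kbar) (q M : ℕ) [NeZero (M * q)]
variable (hq : q.Prime) (hA : A.LiesOverPrime q) (M' : ℕ)
variable (hD : redField A (modularFunctionFieldBar (M * q)) (hSc A q M)
  = modularFunctionFieldFullC (kV A) M')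

include hq hA hD in
/-- (D) implies that `F₁` is stable under the coefficientwise Frobenius. -/
theorem frobStable_F1 :
    @FrobStable (kV A) _ q ⟨hq⟩ (charP_kV A hq hA)
      (@perfectRing_kV _ _ _ A q ⟨hq⟩ (charP_kV A hq hA))
      (redField A (modularFunctionFieldBar (M * q)) (hSc A q M)) := by
  rw [hD]
  exact @frobStable_fullC (kV A) _ q ⟨hq⟩ (charP_kV A hq hA)
    (@perfectRing_kV _ _ _ A q ⟨hq⟩ (charP_kV A hq hA)) M'

/-- **`β`** on the places of `F₁`. -/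
def betaF1 : Place (kV A) (F1 A q M) ≃ Place (kV A) (F1 A q M) :=
  @beta (kV A) _ q ⟨hq⟩ (charP_kV A hq hA) (@perfectRing_kV _ _ _ A q ⟨hq⟩ (charP_kV A hq hA))
    _ (frobStable_F1 A q M hq hA M' hD)

/-- `Fr : t ↦ t ^ q` on `F₁`. -/
def FrF1 : F1 A q M →ₐ[kV A] F1 A q M :=
  @FrE (kV A) _ q ⟨hq⟩ (charP_kV A hq hA) (@perfectRing_kV _ _ _ A q ⟨hq⟩ (charP_kV A hq hA))
    _ (frobStable_F1 A q M hq hA M' hD)

/-- The coefficientwise Frobenius `φ` on `F₁`. -/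
def phiF1 : F1 A q M ≃+* F1 A q M :=
  @frobE (kV A) _ q ⟨hq⟩ (charP_kV A hq hA) (@perfectRing_kV _ _ _ A q ⟨hq⟩ (charP_kV A hq hA))
    _ (frobStable_F1 A q M hq hA M' hD)

theorem coe_FrF1 (g : F1 A q M) :
    letI : NeZero q := ⟨hq.ne_zero⟩
    ((FrF1 A q M hq hA M' hD g : F1 A q M) : LaurentSeries (kV A))
      = qExpand (kV A) q (g : LaurentSeries (kV A)) := rfl

theorem coe_phiF1_coeff (g : F1 A q M) (n : ℤ) :
    ((phiF1 A q M hq hA M' hD g : F1 A q M) : LaurentSeries (kV A)).coeff n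
      = (g : LaurentSeries (kV A)).coeff n ^ q :=
  @frobL_coeff (kV A) _ q ⟨hq⟩ (charP_kV A hq hA)
    (@perfectRing_kV _ _ _ A q ⟨hq⟩ (charP_kV A hq hA)) (g : LaurentSeries (kV A)) n

/-- Elements of `F₁` whose series has coefficients in the image of `ℤ` are fixed by `φ`. -/
theorem phiF1_of_int (g : F1 A q M) (x : LaurentSeries ℤ)
    (hx : (g : LaurentSeries (kV A)) = coeffMap (Int.castRingHom (kV A)) x) :
    phiF1 A q M hq hA M' hD g = g := by
  apply Subtype.ext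
  show @frobL (kV A) _ q ⟨hq⟩ (charP_kV A hq hA)
    (@perfectRing_kV _ _ _ A q ⟨hq⟩ (charP_kV A hq hA)) (g : LaurentSeries (kV A)) = _
  rw [hx]
  exact @frobL_coeffMap_intCast (kV A) _ q ⟨hq⟩ (charP_kV A hq hA)
    (@perfectRing_kV _ _ _ A q ⟨hq⟩ (charP_kV A hq hA)) x

theorem phiF1_FrF1 (g : F1 A q M) :
    phiF1 A q M hq hA M' hD (FrF1 A q M hq hA M' hD g) = g ^ q :=
  @frobE_FrE (kV A) _ q ⟨hq⟩ (charP_kV A hq hA)
    (@perfectRing_kV _ _ _ A q ⟨hq⟩ (charP_kV A hq hA)) _ (frobStable_F1 A q M hq hA M' hD) g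

theorem FrF1_phiF1 (g : F1 A q M) :
    FrF1 A q M hq hA M' hD (phiF1 A q M hq hA M' hD g) = g ^ q :=
  @FrE_frobE (kV A) _ q ⟨hq⟩ (charP_kV A hq hA)
    (@perfectRing_kV _ _ _ A q ⟨hq⟩ (charP_kV A hq hA)) _ (frobStable_F1 A q M hq hA M' hD) g

theorem phiF1_algebraMap (c : kV A) :
    phiF1 A q M hq hA M' hD (algebraMap (kV A) (F1 A q M) c)
      = algebraMap (kV A) (F1 A q M) (c ^ q) := by
  have e := @frobE_algebraMap (kV A) _ q ⟨hq⟩ (charP_kV A hq hA)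
    (@perfectRing_kV _ _ _ A q ⟨hq⟩ (charP_kV A hq hA)) _ (frobStable_F1 A q M hq hA M' hD) c
  rw [frobeniusEquiv_apply] at e
  exact e

/-- `ord_{β z} y = ord_z (φ y)`. -/
theorem betaF1_ord (z : Place (kV A) (F1 A q M)) (y : F1 A q M) :
    (betaF1 A q M hq hA M' hD z).ord y = z.ord (phiF1 A q M hq hA M' hD y) :=
  @beta_ord (kV A) _ q ⟨hq⟩ (charP_kV A hq hA)
    (@perfectRing_kV _ _ _ A q ⟨hq⟩ (charP_kV A hq hA)) _ (frobStable_F1 A q M hq hA M' hD) z y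

/-- `ord_{β⁻¹ z} y = ord_z (φ⁻¹ y)`. -/
theorem betaF1_symm_ord (z : Place (kV A) (F1 A q M)) (y : F1 A q M) :
    ((betaF1 A q M hq hA M' hD).symm z).ord y = z.ord ((phiF1 A q M hq hA M' hD).symm y) :=
  @beta_symm_ord (kV A) _ q ⟨hq⟩ (charP_kV A hq hA)
    (@perfectRing_kV _ _ _ A q ⟨hq⟩ (charP_kV A hq hA)) _ (frobStable_F1 A q M hq hA M' hD) z y

/-- **`ord_{β z} (Fr g) = q · ord_z g`**. -/
theorem betaF1_ord_Fr (z : Place (kV A) (F1 A q M)) (g : F1 A q M) :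
    (betaF1 A q M hq hA M' hD z).ord (FrF1 A q M hq hA M' hD g) = (q : ℤ) * z.ord g :=
  @beta_ord_Fr (kV A) _ q ⟨hq⟩ (charP_kV A hq hA)
    (@perfectRing_kV _ _ _ A q ⟨hq⟩ (charP_kV A hq hA)) _ (frobStable_F1 A q M hq hA M' hD) z g

/-- `ord_{β z} (g ^ q) = q · ord_{β z} g`, and `ord_{β z} g ^ q = ord_z (Fr ... )`: the order at
`β z` of any `g` is `ord_z (φ g)`; in particular for `g` with coefficients in `𝔽_q` (fixed by
`φ`) the orders at `z` and `β z` agree. -/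
theorem betaF1_ord_of_fixed (z : Place (kV A) (F1 A q M)) (g : F1 A q M)
    (hg : phiF1 A q M hq hA M' hD g = g) :
    (betaF1 A q M hq hA M' hD z).ord g = z.ord g := by
  rw [betaF1_ord, hg]

end Concrete

end Fermat.Agent.BAD.H73
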