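import Fermat.Agent.BAD.H73_NormFr
import Fermat.Agent.BAD.H73_BetaF1
import Fermat.Agent.RED.H73_GACard

/-!
# Item 65 (BAD_q), glue for TOT-MOD (helper73): norms to the level `M` residue field

`F₁ = redField A (F_{Mq} ℚ̄)`, with (D) `F₁ = fullC k M'`, `q ∤ M'`.  For a field `E'` with an
isomorphism `e : E' ≃+* F₁`:

* structure map `e` (first component): `finrank_of_bij`, `norm_of_bij`;
* structure map `Fr ∘ e` (second component): `finrank_F1_Fr : [F₁ : E'] = q`,
  `norm_F1_Fr : N g = e⁻¹ (φ g)`, **`ord_norm_F1_Fr : ord_z (e (N g)) = ord_{β z} g`**.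
-/

set_option autoImplicit false
set_option synthInstance.maxHeartbeats 400000
set_option maxHeartbeats 1000000

noncomputable section

open ModularCurve AlgebraicCurve Fermat.Agent.S28.H73 Fermat.Agent.RED.H73 Fermat.Agent.BAD.H88
  Fermat.Agent.BAD.H82 Fermat.Agent.S24

namespace Fermat.Agent.BAD.H73

section Bij

variable {K L : Type*} [Field K] [Field L] [Algebra K L]

/-- `[L : K] = 1` if the structure map is surjective. -/
theorem finrank_of_bij (hs : Function.Surjective (algebraMap K L)) : Module.finrank K L = 1 := by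
  have e : K ≃ₗ[K] L :=
    LinearEquiv.ofBijective (Algebra.linearMap K L) ⟨(algebraMap K L).injective, hs⟩
  rw [← e.finrank_eq, Module.finrank_self]

/-- `N (algebraMap a) = a` if the structure map is surjective. -/
theorem norm_of_bij (hs : Function.Surjective (algebraMap K L)) (a : K) :
    Algebra.norm K (algebraMap K L a) = a := by
  rw [Algebra.norm_algebraMap, finrank_of_bij hs, pow_one]

end Bij

section Concrete

variable (A : ValuationSubring Kbar) (q M : ℕ) [NeZero (M * q)]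
variable (hq : q.Prime) (hA : A.LiesOverPrime q) (M' : ℕ) [NeZero M']
variable (hD : redField A (modularFunctionFieldBar (M * q)) (hSc A q M)
  = modularFunctionFieldFullC (kV A) M')

omit [NeZero M'] in
include hD in
/-- `j~ ∈ F₁`. -/
theorem jqModC_mem_F1 :
    jqModC (kV A) ∈ redField A (modularFunctionFieldBar (M * q)) (hSc A q M) := by
  rw [hD]
  exact jqModC_mem_full (kV A) M'

include hq hA hD in
/-- `F₁ / k(j~)` is separable (from (D) and GA at level `M'`, `q ∤ M'`). -/
theorem isSeparable_F1 (hM' : ¬ q ∣ M') :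
    ∀ y ∈ redField A (modularFunctionFieldBar (M * q)) (hSc A q M),
      IsSeparable ↥(IntermediateField.adjoin (kV A)
        ({jqModC (kV A)} : Set (LaurentSeries (kV A)))) y := by
  have : IsAlgClosed (kV A) := isAlgClosed_kV A
  have : Infinite (kV A) := IsAlgClosed.instInfinite
  intro y hy
  rw [hD] at hy
  exact isSeparable_fullC_red A (inv_natCast_mem_of_liesOver A M' hq hM' hA) (caDataBar M') hy

variable {E' : Type*} [Field E'] [Algebra E' (F1 A q M)] (e : E' ≃+* F1 A q M)
variable (he : ∀ a : E', algebraMap E' (F1 A q M) a = FrF1 A q M hq hA M' hD (e a))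

include e he in
/-- **`[F₁ : E'] = q`** for the structure map `Fr ∘ e`. -/
theorem finrank_F1_Fr (hM' : ¬ q ∣ M') : Module.finrank E' (F1 A q M) = q := by
  have hq1 : ¬ (q : ℤ) ∣ (-1 : ℤ) := by
    intro hd
    have h1 : ((q : ℕ) : ℤ) ∣ 1 := (dvd_neg (a := (q : ℤ)) (b := 1)).mp hd
    have h2 : q ∣ 1 := by exact_mod_cast h1
    exact hq.one_lt.ne' (Nat.dvd_one.mp h2)
  have hc : ((⟨jqModC (kV A), jqModC_mem_F1 A q M M' hD⟩ : F1 A q M) :
      LaurentSeries (kV A)).coeff (-1) ≠ 0 := by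
    show (jqModC (kV A)).coeff (-1) ≠ 0
    rw [coeff_jqModC_neg_one]
    exact one_ne_zero
  exact @finrank_of_Fr (kV A) _ q ⟨hq⟩ (charP_kV A hq hA)
    (@perfectRing_kV _ _ _ A q ⟨hq⟩ (charP_kV A hq hA)) _ (frobStable_F1 A q M hq hA M' hD)
    E' _ _ e he ⟨jqModC (kV A), jqModC_mem_F1 A q M M' hD⟩ (-1) hq1 hc
    (isSeparable_F1 A q M hq hA M' hD hM')

include e he in
/-- **`N_{F₁/E'} g = e⁻¹ (φ g)`** for the structure map `Fr ∘ e`. -/
theorem norm_F1_Fr (hM' : ¬ q ∣ M') (g : F1 A q M) :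
    Algebra.norm E' g = e.symm (phiF1 A q M hq hA M' hD g) :=
  @norm_of_Fr (kV A) _ q ⟨hq⟩ (charP_kV A hq hA)
    (@perfectRing_kV _ _ _ A q ⟨hq⟩ (charP_kV A hq hA)) _ (frobStable_F1 A q M hq hA M' hD)
    E' _ _ e he (finrank_F1_Fr A q M hq hA M' hD e he hM') g

include e he in
/-- **`ord_z (e (N_{F₁/E'} g)) = ord_{β z} g`** for the structure map `Fr ∘ e`. -/
theorem ord_norm_F1_Fr (hM' : ¬ q ∣ M') (z : Place (kV A) (F1 A q M)) (g : F1 A q M) :
    z.ord (e (Algebra.norm E' g)) = (betaF1 A q M hq hA M' hD z).ord g := by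
  rw [norm_F1_Fr A q M hq hA M' hD e he hM', e.apply_symm_apply, betaF1_ord]

omit [NeZero M'] in
include e he in
theorem isPurelyInseparable_F1_Fr : IsPurelyInseparable E' (F1 A q M) :=
  @isPurelyInseparable_of_Fr (kV A) _ q ⟨hq⟩ (charP_kV A hq hA)
    (@perfectRing_kV _ _ _ A q ⟨hq⟩ (charP_kV A hq hA)) _ (frobStable_F1 A q M hq hA M' hD)
    E' _ _ e he

end Concrete

end Fermat.Agent.BAD.H73
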