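import Fermat.Agent.BAD.H88_VM

/-!
# Item 65 (BAD_q), package V2 (helper88), part 6: `w_q ∘ α = β` and `V₂ ∩ F_M = V_M`
-/

set_option autoImplicit false
set_option synthInstance.maxHeartbeats 400000
set_option maxHeartbeats 1000000
set_option linter.unusedSectionVars false
set_option linter.style.haveILetI false

noncomputable section

namespace Fermat.Agent.BAD.H88

open Fermat.Agent.S24 ModularCurve Fermat.Agent.S28 Fermat.Agent.S28.H73 Fermat.Agent.RED.H73

section WqLevel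

variable (A : ValuationSubring Kbar) (q M : ℕ) [NeZero M] [NeZero q]
variable (a b : ℤ) (hab : a * q + b * M = 1) (hq : q.Prime)

include hab hq

/-- `w_q ∘ α = β`. -/
theorem wq_comp_alpha :
    (wq q M a b hab hq).toAlgHom.comp (heckeAlphaBar Kbar M q) = heckeBetaBar Kbar M q := by
  apply algHom_ext_of_adjoin _ (adjoin_jdF M)
  rintro x ⟨d, hd0, hd, rfl⟩
  haveI : NeZero (d * q) := ⟨(Nat.mul_pos (Nat.pos_of_ne_zero (NeZero.ne d)) hq.pos).ne'⟩
  rw [AlgHom.comp_apply, alpha_jdF, beta_jdF]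
  exact wqHom_jdF q M a b hab hq d hd

/-- `w_q ∘ β = α`. -/
theorem wq_comp_beta :
    (wq q M a b hab hq).toAlgHom.comp (heckeBetaBar Kbar M q) = heckeAlphaBar Kbar M q := by
  apply algHom_ext_of_adjoin _ (adjoin_jdF M)
  rintro x ⟨d, hd0, hd, rfl⟩
  haveI : NeZero (d * q) := ⟨(Nat.mul_pos (Nat.pos_of_ne_zero (NeZero.ne d)) hq.pos).ne'⟩
  rw [AlgHom.comp_apply, alpha_jdF, beta_jdF]
  exact wqHom_jdF_mul q M a b hab hq d hd

theorem wq_alpha (x : FN M) :
    wq q M a b hab hq (heckeAlphaBar Kbar M q x) = heckeBetaBar Kbar M q x :=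
  congrArg (fun f : FN M →ₐ[Kbar] FN (M * q) => f x) (wq_comp_alpha q M a b hab hq)

theorem wq_beta (x : FN M) :
    wq q M a b hab hq (heckeBetaBar Kbar M q x) = heckeAlphaBar Kbar M q x :=
  congrArg (fun f : FN M →ₐ[Kbar] FN (M * q) => f x) (wq_comp_beta q M a b hab hq)

/-- `α x ∈ V₂ ↔ x ∈ V_M`. -/
theorem alpha_mem_V2_iff (x : FN M) :
    heckeAlphaBar Kbar M q x ∈ V2 A q M a b hab hq ↔ x ∈ VM A M := by
  rw [mem_V2_iff, wq_alpha, beta_mem_V1_iff]

/-- `β x ∈ V₂ ↔ x ∈ V_M`. -/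
theorem beta_mem_V2_iff (x : FN M) :
    heckeBetaBar Kbar M q x ∈ V2 A q M a b hab hq ↔ x ∈ VM A M := by
  rw [mem_V2_iff, wq_beta, alpha_mem_V1_iff]

/-- **`V₁ ∩ F_M = V_M`.** -/
theorem V1_comap_alpha :
    (V1 A q M).comap (heckeAlphaBar Kbar M q).toRingHom = VM A M := by
  apply SetLike.ext
  intro x
  rw [ValuationSubring.mem_comap]
  exact alpha_mem_V1_iff A q M x

/-- **`V₂ ∩ F_M = V_M`.** -/
theorem V2_comap_alpha :
    (V2 A q M a b hab hq).comap (heckeAlphaBar Kbar M q).toRingHom = VM A M := by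
  apply SetLike.ext
  intro x
  rw [ValuationSubring.mem_comap]
  exact alpha_mem_V2_iff A q M a b hab hq x

/-- `red₂ (α x) = (red_M x)(q^q)` in `k((q))`. -/
theorem red2_alpha (x : FN M) (h : x ∈ VM A M)
    (h' : heckeAlphaBar Kbar M q x ∈ V2 A q M a b hab hq) :
    ((red2 A q M a b hab hq ⟨_, h'⟩ : F1 A q M) : LaurentSeries (kV A))
      = qExpand (kV A) q ((redM A M ⟨x, h⟩ : FM A M) : LaurentSeries (kV A)) := by
  have hb : heckeBetaBar Kbar M q x ∈ V1 A q M := (beta_mem_V1_iff A q M x).mpr h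
  have e : red2 A q M a b hab hq ⟨_, h'⟩ = red1 A q M ⟨heckeBetaBar Kbar M q x, hb⟩ := by
    rw [red2_mk]
    congr 1
    exact Subtype.ext (wq_alpha q M a b hab hq x)
  rw [e]
  exact red1_beta A q M x h hb

/-- `red₂ (β x) = red_M x` in `k((q))`. -/
theorem red2_beta (x : FN M) (h : x ∈ VM A M)
    (h' : heckeBetaBar Kbar M q x ∈ V2 A q M a b hab hq) :
    ((red2 A q M a b hab hq ⟨_, h'⟩ : F1 A q M) : LaurentSeries (kV A))
      = ((redM A M ⟨x, h⟩ : FM A M) : LaurentSeries (kV A)) := by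
  have ha : heckeAlphaBar Kbar M q x ∈ V1 A q M := (alpha_mem_V1_iff A q M x).mpr h
  have e : red2 A q M a b hab hq ⟨_, h'⟩ = red1 A q M ⟨heckeAlphaBar Kbar M q x, ha⟩ := by
    rw [red2_mk]
    congr 1
    exact Subtype.ext (wq_beta q M a b hab hq x)
  rw [e]
  exact red1_alpha A q M x h ha

end WqLevel

end Fermat.Agent.BAD.H88
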