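import Fermat.Agent.BAD.H91_Kappa
import Fermat.Agent.BAD.H28_Tot
import Fermat.Agent.BAD.H73_NormFrF1
import Fermat.Agent.BAD.H73_Compat2
import Fermat.Agent.BAD.H73_ArchSep
import Fermat.Agent.BAD.H88_VM2
import Fermat.Agent.Lib.HeckeComm.H2_Deg
import Fermat.Agent.RED.H51_Final

/-!
# Item 65 (BAD_q), leaf TOT-MOD (helper23): the law of total conservation for `F_{Mq} · ℚ̄`

Instantiation of helper28's `H28.tot_of_normRed` (TOT-ABS) at
`E = F_M ⊂ L = F_{Mq}`, `V₁ = gaussV A (M q)`, `V₂ = V₁ ∘ w_q`, `L₁ = L₂ = F₁ = redField (M q)`,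
`E' = redField M`, `SE = H91.seM`, `κ = H91.kappa`, `ρ = H91.rhoF1`, `β = H73.betaF1`.

Main result: `tot_mod` = the hypothesis `htot` of `H91.totDataOf`.
-/

set_option autoImplicit false
set_option synthInstance.maxHeartbeats 400000
set_option maxHeartbeats 400000
set_option linter.style.haveILetI false
set_option linter.unusedSectionVars false

noncomputable section

open AlgebraicCurve ModularCurve
open Fermat.Agent.S28.H73 Fermat.Agent.RED.H73 Fermat.Agent.RED Fermat.Agent.S24
open Fermat.Agent.BAD.H88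

namespace Fermat.Agent.BAD.H23

open Fermat.Agent.BAD

/-! ## The tower `E = F_M ⊂ L = F_{Mq}` -/

section Tower

variable (q M : ℕ) [NeZero M] [NeZero (M * q)]

/-- `F_{Mq}` as an algebra over `F_M`. -/
@[reducible] def algEL : Algebra (FN M) (FN (M * q)) := algebraAlong (H91.incl M q)

theorem isScalarTower_EL :
    letI := algEL q M
    IsScalarTower Kbar (FN M) (FN (M * q)) := isScalarTower_along (H91.incl M q)

theorem finite_EL :
    letI := algEL q M
    Module.Finite (FN M) (FN (M * q)) :=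
  (H51.stmt_FFB_finite _ _ _ (H95.stmt_HKA_isFF M) (H95.stmt_HKA_isFF (M * q)) (H91.incl M q)).2

theorem finrank_EL (hq : q.Prime) (hqM : ¬ q ∣ M) :
    letI := algEL q M
    Module.finrank (FN M) (FN (M * q)) = q + 1 :=
  (Fermat.Agent.Lib.HeckeComm.relfinrank_FN M (M * q) (dvd_mul_right M q)).symm.trans
    (H82.relfinrank_FM_FN q M hq hqM)

/-- The norm formula for `F_{Mq} / F_M`. -/
theorem normFormula_EL :
    letI := algEL q M
    haveI := isScalarTower_EL q M
    haveI := finite_EL q M
    Divisor.PushforwardNormFormula Kbar (FN M) (FN (M * q)) :=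
  H51.stmt_FFB_norm Kbar (FN M) (FN (M * q)) (H95.stmt_HKA_isFF M)
    (H95.stmt_HKA_isFF (M * q)) (H91.incl M q) (finite_EL q M)

/-- All inertia degrees are `1`. -/
theorem inertiaDeg_EL (w : Place Kbar (FN (M * q))) :
    letI := algEL q M
    haveI := isScalarTower_EL q M
    haveI := finite_EL q M
    w.inertiaDeg (FN M) = 1 := by
  letI := algEL q M
  haveI := isScalarTower_EL q M
  haveI := finite_EL q M
  have h := w.deg_restrict_mul_inertiaDeg (F := FN M)
  rw [H51.stmt_FFB_deg Kbar (FN M) (H95.stmt_HKA_isFF M),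
    H51.stmt_FFB_deg Kbar (FN (M * q)) (H95.stmt_HKA_isFF (M * q)), one_mul] at h
  exact h

end Tower

/-! ## Equal intermediate fields (abstract, to keep the two levels apart) -/

section Abs

variable {k X : Type*} [Field k] [Field X] [Algebra k X]

theorem coe_equivOfEq {E₁ E₂ : IntermediateField k X} (h : E₁ = E₂) (y : ↥E₁) :
    ((IntermediateField.equivOfEq h y : ↥E₂) : X) = (y : X) := by
  subst h
  rfl

theorem equivOfEq_surjective {E₁ E₂ : IntermediateField k X} (h : E₁ = E₂) :
    Function.Surjective (IntermediateField.equivOfEq h) :=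
  (IntermediateField.equivOfEq h).surjective

end Abs

/-! ## The two structures of `F₁` over the residue field of level `M` -/

section Structures

variable (A : ValuationSubring Kbar) (q M : ℕ) (a b : ℤ) (hab : a * q + b * M = 1)
  (hq : q.Prime) [NeZero M] [NeZero (M * q)] (hA : A.LiesOverPrime q)

/-- The identification of the residue field of level `M` with `F₁`. -/
def eRed : ↥(H91.redM A M) ≃ₐ[kV A] F1 A q M :=
  IntermediateField.equivOfEq (H82.redField_eq_redField q M a b hab hq A hA).symm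

theorem coe_eRed (y : ↥(H91.redM A M)) :
    ((eRed A q M a b hab hq hA y : F1 A q M) : LaurentSeries (kV A))
      = (y : LaurentSeries (kV A)) :=
  coe_equivOfEq _ y

/-- The first structure: the identification. -/
@[reducible] def alg1 : Algebra ↥(H91.redM A M) (F1 A q M) :=
  (eRed A q M a b hab hq hA).toAlgHom.toRingHom.toAlgebra

theorem algebraMap_alg1 (y : ↥(H91.redM A M)) :
    letI := alg1 A q M a b hab hq hA
    algebraMap ↥(H91.redM A M) (F1 A q M) y = eRed A q M a b hab hq hA y := rfl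

theorem surj_alg1 :
    letI := alg1 A q M a b hab hq hA
    Function.Surjective (algebraMap ↥(H91.redM A M) (F1 A q M)) :=
  (eRed A q M a b hab hq hA).surjective

theorem finrank_alg1 :
    letI := alg1 A q M a b hab hq hA
    Module.finrank ↥(H91.redM A M) (F1 A q M) = 1 := by
  letI := alg1 A q M a b hab hq hA
  exact H73.finrank_of_bij (surj_alg1 A q M a b hab hq hA)

theorem finite_alg1 :
    letI := alg1 A q M a b hab hq hA
    Module.Finite ↥(H91.redM A M) (F1 A q M) := by
  letI := alg1 A q M a b hab hq hA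
  exact Module.finite_of_finrank_pos (by rw [finrank_alg1]; exact one_pos)

variable (hD : redField A (modularFunctionFieldBar (M * q)) (hSc A q M)
  = modularFunctionFieldFullC (kV A) M)

/-- The second structure: the identification followed by `Fr`. -/
@[reducible] def alg2 : Algebra ↥(H91.redM A M) (F1 A q M) :=
  ((H73.FrF1 A q M hq hA M hD).toRingHom.comp
    (eRed A q M a b hab hq hA).toAlgHom.toRingHom).toAlgebra

theorem algebraMap_alg2 (y : ↥(H91.redM A M)) :
    letI := alg2 A q M a b hab hq hA hD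
    algebraMap ↥(H91.redM A M) (F1 A q M) y
      = H73.FrF1 A q M hq hA M hD ((eRed A q M a b hab hq hA).toRingEquiv y) := rfl

theorem finrank_alg2 (hqM : ¬ q ∣ M) :
    letI := alg2 A q M a b hab hq hA hD
    Module.finrank ↥(H91.redM A M) (F1 A q M) = q := by
  letI := alg2 A q M a b hab hq hA hD
  exact H73.finrank_F1_Fr A q M hq hA M hD (eRed A q M a b hab hq hA).toRingEquiv
    (algebraMap_alg2 A q M a b hab hq hA hD) hqM

theorem finite_alg2 (hqM : ¬ q ∣ M) :
    letI := alg2 A q M a b hab hq hA hD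
    Module.Finite ↥(H91.redM A M) (F1 A q M) := by
  letI := alg2 A q M a b hab hq hA hD
  exact Module.finite_of_finrank_pos (by rw [finrank_alg2 A q M a b hab hq hA hD hqM]; exact hq.pos)

/-- `ord_{κ z} (N₁ g) = ord_z g`. -/
theorem ord_norm_alg1 (z : Place (kV A) (F1 A q M)) (g : F1 A q M) :
    letI := alg1 A q M a b hab hq hA
    (H91.kappa A q M a b hab hq hA z).ord (Algebra.norm ↥(H91.redM A M) g) = z.ord g := by
  letI := alg1 A q M a b hab hq hA
  obtain ⟨x, rfl⟩ := surj_alg1 A q M a b hab hq hA g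
  rw [H73.norm_of_bij (surj_alg1 A q M a b hab hq hA) x]
  exact H91.kappa_ord A q M a b hab hq hA z _ x (coe_eRed A q M a b hab hq hA x)

/-- `ord_{κ z} (N₂ g) = ord_{β z} g`. -/
theorem ord_norm_alg2 (hqM : ¬ q ∣ M) (z : Place (kV A) (F1 A q M)) (g : F1 A q M) :
    letI := alg2 A q M a b hab hq hA hD
    (H91.kappa A q M a b hab hq hA z).ord (Algebra.norm ↥(H91.redM A M) g)
      = (H73.betaF1 A q M hq hA M hD z).ord g := by
  letI := alg2 A q M a b hab hq hA hD
  rw [← H73.ord_norm_F1_Fr A q M hq hA M hD (eRed A q M a b hab hq hA).toRingEquiv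
    (algebraMap_alg2 A q M a b hab hq hA hD) hqM z g]
  exact H91.kappa_ord A q M a b hab hq hA z _ _ (coe_eRed A q M a b hab hq hA _)

end Structures

/-! ## Compatibilities and the law of total conservation -/

section Final

variable (A : ValuationSubring Kbar) (q M : ℕ) (a b : ℤ) (hab : a * q + b * M = 1)
  (hq : q.Prime) [NeZero M] [NeZero (M * q)] (hA : A.LiesOverPrime q)
  (hqM : ¬ q ∣ M) (ht : H91.TameAt M q)

theorem hV1_mod (x : FN M) (hx : x ∈ (H91.seM hq hqM ht hA).V) :
    letI := algEL q M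
    algebraMap (FN M) (FN (M * q)) x ∈ V1 A q M := by
  haveI : NeZero q := ⟨hq.ne_zero⟩
  exact (alpha_mem_V1_iff A q M x).mpr hx

theorem hV2_mod (x : FN M) (hx : x ∈ (H91.seM hq hqM ht hA).V) :
    letI := algEL q M
    algebraMap (FN M) (FN (M * q)) x ∈ V2 A q M a b hab hq := by
  haveI : NeZero q := ⟨hq.ne_zero⟩
  exact (alpha_mem_V2_iff A q M a b hab hq x).mpr hx

theorem hker1_mod (u : ↥(V1 A q M)) (hu : ¬ IsUnit u) : red1 A q M u = 0 :=
  (red1_eq_zero_iff A q M u).2 ((IsLocalRing.mem_maximalIdeal u).2 hu)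

theorem hker2_mod (u : ↥(V2 A q M a b hab hq)) (hu : ¬ IsUnit u) :
    red2 A q M a b hab hq u = 0 :=
  (red2_eq_zero_iff A q M a b hab hq u).2 ((IsLocalRing.mem_maximalIdeal u).2 hu)

theorem hcompat1_mod (x : ↥(H91.seM hq hqM ht hA).V)
    (hx : (letI := algEL q M; algebraMap (FN M) (FN (M * q)) (x : FN M)) ∈ V1 A q M) :
    red1 A q M ⟨_, hx⟩ = eRed A q M a b hab hq hA ((H91.seM hq hqM ht hA).red x) := by
  haveI : NeZero q := ⟨hq.ne_zero⟩
  apply Subtype.ext
  rw [coe_eRed]
  exact red1_alpha A q M (x : FN M) x.2 hx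

variable (hD : redField A (modularFunctionFieldBar (M * q)) (hSc A q M)
  = modularFunctionFieldFullC (kV A) M)

theorem hcompat2_mod (x : ↥(H91.seM hq hqM ht hA).V)
    (hx : (letI := algEL q M; algebraMap (FN M) (FN (M * q)) (x : FN M)) ∈ V2 A q M a b hab hq) :
    red2 A q M a b hab hq ⟨_, hx⟩
      = H73.FrF1 A q M hq hA M hD
        (eRed A q M a b hab hq hA ((H91.seM hq hqM ht hA).red x)) := by
  haveI : NeZero q := ⟨hq.ne_zero⟩
  apply Subtype.ext
  rw [H73.coe_FrF1, coe_eRed]
  exact red2_alpha A q M a b hab hq (x : FN M) x.2 hx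

/-- **TOT-MOD**: the law of total conservation for `F_{Mq} · ℚ̄`, i.e. the hypothesis `htot` of
`H91.totDataOf` for `ρ = H91.rhoF1` and `β = H73.betaF1`. -/
theorem tot_mod :
    ∀ (u₁ : ↥(V1 A q M)) (u₂ : ↥(V2 A q M a b hab hq)), red1 A q M u₁ ≠ 0 →
      red2 A q M a b hab hq u₂ ≠ 0 →
      (∃ c : Kbar, (u₂ : FN (M * q)) = algebraMap Kbar (FN (M * q)) c * (u₁ : FN (M * q))) →
      ∀ D : Divisor Kbar (FN (M * q)), (∀ P, D P = P.ord (u₁ : FN (M * q))) →
        ∀ z : Place (kV A) (F1 A q M),
          Finsupp.mapDomain (H91.rhoF1 a b hab hq hA hqM ht) D z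
            = z.ord (red1 A q M u₁)
              + (H73.betaF1 A q M hq hA M hD z).ord (red2 A q M a b hab hq u₂) := by
  have h0 : @Module.finrank (FN M) (FN (M * q)) _ _ (algEL q M).toModule = q + 1 :=
    finrank_EL q M hq hqM
  have h1 : @Module.finrank ↥(H91.redM A M) (F1 A q M) _ _
      (alg1 A q M a b hab hq hA).toModule = 1 := finrank_alg1 A q M a b hab hq hA
  have h2 : @Module.finrank ↥(H91.redM A M) (F1 A q M) _ _
      (alg2 A q M a b hab hq hA hD).toModule = q := finrank_alg2 A q M a b hab hq hA hD hqM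
  exact @H28.tot_of_normRed Kbar (FN M) (FN (M * q)) (kV A) ↥(H91.redM A M) (F1 A q M)
    (F1 A q M) _ _ _ _ _ _ _ _ _ (algEL q M) (isScalarTower_EL q M) (finite_EL q M) _ _ _
    (alg1 A q M a b hab hq hA) (alg2 A q M a b hab hq hA hD)
    (finite_alg1 A q M a b hab hq hA) (finite_alg2 A q M a b hab hq hA hD hqM)
    (H91.seM hq hqM ht hA)
    (H51.stmt_FFB_principal Kbar (FN M) (H95.stmt_HKA_isFF M))
    (inertiaDeg_EL q M) (normFormula_EL q M)
    (V1 A q M) (V2 A q M a b hab hq) (red1 A q M) (red2 A q M a b hab hq)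
    (hV1_mod A q M hq hA hqM ht) (hV2_mod A q M a b hab hq hA hqM ht)
    (red1_surjective A q M) (red2_surjective A q M a b hab hq)
    (hker1_mod A q M) (hker2_mod A q M a b hab hq)
    (hcompat1_mod A q M a b hab hq hA hqM ht) (hcompat2_mod A q M a b hab hq hA hqM ht hD)
    (H73.not_V1_le_V2 A q M a b hab hq hA) (H73.not_V2_le_V1 A q M a b hab hq hA)
    (H73.isArch_V1 A q M hq hA) (H73.isArch_V2 A q M a b hab hq hA)
    (by rw [h0, h1, h2, add_comm])
    (H91.rhoF1 a b hab hq hA hqM ht) (H91.kappa A q M a b hab hq hA)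
    (H91.kappa A q M a b hab hq hA).injective
    (fun P => H91.kappa_rhoF1 a b hab hq hA hqM ht P)
    (H73.betaF1 A q M hq hA M hD)
    (fun z g _ => ord_norm_alg1 A q M a b hab hq hA z g)
    (fun z g _ => ord_norm_alg2 A q M a b hab hq hA hD hqM z g)

end Final

end Fermat.Agent.BAD.H23
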