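import Fermat.Agent.BAD.H28_Skel

/-!
# Item 65, package ABS (helper28): statement of the nodal key lemma (part of P5)

`Stmt_KeyNodal` is the two-valuation version of helper17's `RedSetup.key`
(`RED/H17_Key.lean`).  `Stmt_TIss` follows from `Stmt_NodalNS`, `Stmt_Coords`, `Stmt_Contain0`
and `Stmt_KeyNodal` as `RedSetup.ticore` follows from `RedSetup.key` (`RED/H17_Main.lean`).
-/

set_option autoImplicit false

noncomputable section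

open AlgebraicCurve

namespace Fermat.Agent.BAD

open Fermat.Agent.RED.H17 Fermat.Agent.RED

local notation "L" => riemannRochSpace

namespace SSD

variable {K F k F₁ F₂ : Type*} [Field K] [Field F] [Algebra K F] [Field k] [Field F₁]
  [Algebra k F₁] [Field F₂] [Algebra k F₂] (S : SSD K F k F₁ F₂)

/-- `s` is a coordinate on the residue disc of `Q ∈ A₁` adapted to `A₁`, `A₂`
(the shape of the output of `Stmt_Coords`). -/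
def IsCoordA₁ (A₁ : Finset (Place k F₁)) (A₂ : Finset (Place k F₂)) (s : F)
    (Q : Place k F₁) : Prop :=
  S.c₁.IsCoord s Q ∧ S.c₂.IsGU s ∧
    (∀ Q' ∈ A₁, Q' ≠ Q → Q'.ord (S.c₁.rd s) = 0) ∧
    (∀ Q' ∈ A₂, Q'.ord (S.c₂.rd s) = 0) ∧
    (∀ P, ∀ Q' ∈ A₁, S.c₁.r P = some Q' → 0 ≤ P.ord s) ∧
    (∀ P, ∀ Q' ∈ A₂, S.c₂.r P = some Q' → 0 ≤ P.ord s) ∧
    ∀ P, S.IsNodeP P → P.ord s = 0

/-- `s` is a coordinate on the residue disc of `Q ∈ A₂` adapted to `A₁`, `A₂`. -/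
def IsCoordA₂ (A₁ : Finset (Place k F₁)) (A₂ : Finset (Place k F₂)) (s : F)
    (Q : Place k F₂) : Prop :=
  S.c₂.IsCoord s Q ∧ S.c₁.IsGU s ∧
    (∀ Q' ∈ A₂, Q' ≠ Q → Q'.ord (S.c₂.rd s) = 0) ∧
    (∀ Q' ∈ A₁, Q'.ord (S.c₁.rd s) = 0) ∧
    (∀ P, ∀ Q' ∈ A₁, S.c₁.r P = some Q' → 0 ≤ P.ord s) ∧
    (∀ P, ∀ Q' ∈ A₂, S.c₂.r P = some Q' → 0 ≤ P.ord s) ∧
    ∀ P, S.IsNodeP P → P.ord s = 0

/-- The pair `(A₁, A₂)` is non-special on the nodal curve: a glued pair of functions with at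
most simple poles on `A₁`, `A₂` is a constant. -/
def IsNS (A₁ : Finset (Place k F₁)) (A₂ : Finset (Place k F₂)) : Prop :=
  ∀ ψ₁ ∈ L (ptsDiv A₁), ∀ ψ₂ ∈ L (ptsDiv A₂),
    (∀ s ∈ S.nodes, ∃ a : k, VanAt s.1 (ψ₁ - algebraMap k F₁ a) ∧
      VanAt s.2 (ψ₂ - algebraMap k F₂ a)) →
    ∃ a : k, ψ₁ = algebraMap k F₁ a ∧ ψ₂ = algebraMap k F₂ a

end SSD

/-- **The nodal key lemma.**  `(A₁, A₂)` non-special, `s₁ Q`, `s₂ Q` coordinates on the residue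
discs.  A function `f`, integral with reduction `1` for both valuations, with `f(P∞) = 1` at a
place over a regular point of `C₁` outside `A₁`, regular outside the discs, whose divisor on the
disc of `Q` is `n (X_Q - Y_Q)` (`Y_Q` the zero of `s Q`, `X_Q` the zero of `s Q - a Q`), `n`
invertible in `k`, is `1`. -/
def Stmt_KeyNodal : Prop :=
  ∀ (K F k F₁ F₂ : Type) [Field K] [Field F] [Algebra K F] [Field k] [Field F₁]
    [Algebra k F₁] [Field F₂] [Algebra k F₂] [Infinite k]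
    (S : SSD K F k F₁ F₂), FFHyp K F → FFHyp k F₁ → FFHyp k F₂ →
    ∀ (A₁ : Finset (Place k F₁)) (A₂ : Finset (Place k F₂)),
      Disjoint A₁ S.br₁ → Disjoint A₂ S.br₂ → S.IsNS A₁ A₂ →
    ∀ (s₁ : Place k F₁ → F) (s₂ : Place k F₂ → F),
      (∀ Q ∈ A₁, S.IsCoordA₁ A₁ A₂ (s₁ Q) Q) → (∀ Q ∈ A₂, S.IsCoordA₂ A₁ A₂ (s₂ Q) Q) →
    ∀ (n : ℕ), (n : k) ≠ 0 →
    ∀ (f : F), f ∈ S.c₁.V → f ∈ S.c₂.V → S.c₁.rd f = 1 → S.c₂.rd f = 1 →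
    ∀ (Pinf : Place K F) (Qinf : Place k F₁), Qinf ∈ S.c₁.good → Qinf ∉ A₁ →
      S.c₁.r Pinf = some Qinf → VanAt Pinf (f - 1) →
    ∀ (a₁ : Place k F₁ → K) (a₂ : Place k F₂ → K),
      (∀ Q ∈ A₁, algebraMap K F (a₁ Q) ∈ S.c₁.V ∧ S.c₁.rd (algebraMap K F (a₁ Q)) = 0) →
      (∀ Q ∈ A₂, algebraMap K F (a₂ Q) ∈ S.c₂.V ∧ S.c₂.rd (algebraMap K F (a₂ Q)) = 0) →
      (∀ P, (∀ Q ∈ A₁, S.c₁.r P ≠ some Q) → (∀ Q ∈ A₂, S.c₂.r P ≠ some Q) → 0 ≤ P.ord f) →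
      (∀ Q ∈ A₁, ∀ P, S.c₁.r P = some Q →
        P.ord f = n * (P.ord (s₁ Q - algebraMap K F (a₁ Q)) - P.ord (s₁ Q))) →
      (∀ Q ∈ A₂, ∀ P, S.c₂.r P = some Q →
        P.ord f = n * (P.ord (s₂ Q - algebraMap K F (a₂ Q)) - P.ord (s₂ Q))) →
      f = 1

end Fermat.Agent.BAD
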