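import Fermat.Agent.BAD.H28_KeyGen
import Fermat.Agent.BAD.H28_KeyStmt
import Fermat.Agent.BAD.H28_Two

/-!
# Item 65, package ABS (helper28), part P5: the nodal key lemma `Stmt_KeyNodal`

Two-valuation version of helper17's `RedSetup.key`.
-/

set_option autoImplicit false
set_option linter.style.haveILetI false
set_option maxHeartbeats 1000000

noncomputable section

open AlgebraicCurve

attribute [local instance] Classical.propDecidable

namespace Fermat.Agent.BAD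

open Fermat.Agent.RED.H17 Fermat.Agent.RED

local notation "L" => riemannRochSpace

namespace H28

section Pole

variable {k F' : Type*} [Field k] [Field F'] [Algebra k F']

/-- `x` has at most a simple pole at `v`. -/
def PoleLe (v : Place k F') (x : F') : Prop := x = 0 ∨ -1 ≤ v.ord x

theorem PoleLe.add {v : Place k F'} {x y : F'} (hx : PoleLe v x) (hy : PoleLe v y) :
    PoleLe v (x + y) := le_ord_add v hx hy

theorem PoleLe.neg {v : Place k F'} {x : F'} (hx : PoleLe v x) : PoleLe v (-x) := by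
  rcases hx with rfl | h
  · left; simp
  · right
    have : -x = (-1 : F') * x := by ring
    by_cases hx0 : x = 0
    · subst hx0; simp
    rw [this, v.ord_mul (by norm_num) hx0]
    have h1 : v.ord (-1 : F') = 0 := by
      have h2 : v.ord ((-1 : F') * (-1)) = v.ord (-1 : F') + v.ord (-1 : F') :=
        v.ord_mul (by norm_num) (by norm_num)
      rw [show ((-1 : F') * (-1)) = 1 by ring, Place.ord_one] at h2
      omega
    omega

theorem PoleLe.sub {v : Place k F'} {x y : F'} (hx : PoleLe v x) (hy : PoleLe v y) :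
    PoleLe v (x - y) := by
  rw [sub_eq_add_neg]
  exact hx.add hy.neg

theorem PoleLe.of_regAt {v : Place k F'} {x : F'} (hx : RegAt v x) : PoleLe v x := by
  rcases (regAt_iff_ord v x).mp hx with h | h
  · exact Or.inl h
  · exact Or.inr (by omega)

theorem PoleLe.sum {ι : Type*} {v : Place k F'} (s : Finset ι) (f : ι → F')
    (hf : ∀ i ∈ s, PoleLe v (f i)) : PoleLe v (∑ i ∈ s, f i) := by
  induction s using Finset.induction_on with
  | empty => left; simp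
  | insert i s hi ih =>
    rw [Finset.sum_insert hi]
    exact (hf i (Finset.mem_insert_self i s)).add
      (ih fun j hj => hf j (Finset.mem_insert_of_mem hj))

theorem PoleLe.regAt_mul {v : Place k F'} {x y : F'} (hx : RegAt v x) (hy : PoleLe v y) :
    PoleLe v (x * y) := by
  rcases hy with rfl | hy
  · left; simp
  by_cases hx0 : x = 0
  · left; rw [hx0, zero_mul]
  by_cases hy0 : y = 0
  · left; rw [hy0, mul_zero]
  right
  rw [v.ord_mul hx0 hy0]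
  have := hx.ord_nonneg
  omega

/-- `b / t` has at most a simple pole if `ord t ≤ 1`. -/
theorem poleLe_const_div {v : Place k F'} (b : k) {t : F'} (ht : t ≠ 0) (hord : v.ord t ≤ 1) :
    PoleLe v (algebraMap k F' b / t) := by
  by_cases hb : b = 0
  · left; rw [hb, map_zero, zero_div]
  right
  have hbF : algebraMap k F' b ≠ 0 := (map_ne_zero_iff _ (algebraMap k F').injective).mpr hb
  rw [ord_div v hbF ht, ord_algebraMap]
  omega

/-- `b / t` is regular if `ord t = 0`. -/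
theorem regAt_const_div {v : Place k F'} (b : k) {t : F'} (hord : v.ord t = 0) :
    RegAt v (algebraMap k F' b / t) := by
  rw [div_eq_mul_inv]
  exact (regAt_algebraMap v b).mul (regAt_inv_of_ord_eq_zero hord)

/-- The pole estimate for `α - m ∑ b_i / t_i`. -/
theorem poleLe_formula {ι : Type*} (v : Place k F') (A : Finset ι) (t : ι → F')
    (ht : ∀ i ∈ A, t i ≠ 0) (hord : ∀ i ∈ A, v.ord (t i) ≤ 1) (b : ι → k) (m : ℕ) {αb : F'}
    (hα : RegAt v αb) :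
    PoleLe v (αb - (m : F') * ∑ i ∈ A, algebraMap k F' (b i) / t i) := by
  refine (PoleLe.of_regAt hα).sub (PoleLe.regAt_mul ?_ (PoleLe.sum A _ fun i hi =>
    poleLe_const_div (b i) (ht i hi) (hord i hi)))
  have : (m : F') = algebraMap k F' (m : k) := by simp
  rw [this]
  exact regAt_algebraMap v _

/-- The residue argument: if `α - m ∑ b_i / t_i = 0` with `α` regular at `v`, `t_{i₀}` a
uniformiser at `v` and the other `t_i` units at `v`, `m ≠ 0` in `k`, then `b_{i₀} = 0`. -/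
theorem residue_zero {ι : Type*} (v : Place k F') (A : Finset ι) (t : ι → F')
    {i₀ : ι} (hi₀ : i₀ ∈ A) (h1 : v.ord (t i₀) = 1)
    (h0 : ∀ i ∈ A, i ≠ i₀ → v.ord (t i) = 0) (ht₀ : t i₀ ≠ 0) (b : ι → k) (m : ℕ)
    (hm : (m : k) ≠ 0) {αb : F'} (hα : RegAt v αb)
    (h : αb - (m : F') * ∑ i ∈ A, algebraMap k F' (b i) / t i = 0) : b i₀ = 0 := by
  by_contra hb
  have hmF : (m : F') = algebraMap k F' (m : k) := by simp
  have hsplit : ∑ i ∈ A, algebraMap k F' (b i) / t i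
      = algebraMap k F' (b i₀) / t i₀ + ∑ i ∈ A.erase i₀, algebraMap k F' (b i) / t i := by
    exact (Finset.add_sum_erase A (fun i => algebraMap k F' (b i) / t i) hi₀).symm
  have hreg : RegAt v ((m : F') * ∑ i ∈ A.erase i₀, algebraMap k F' (b i) / t i) := by
    rw [hmF]
    refine (regAt_algebraMap v _).mul (RegAt.sum _ _ fun i hi => ?_)
    exact regAt_const_div (b i) (h0 i (Finset.mem_of_mem_erase hi) (Finset.ne_of_mem_erase hi))
  have heq : (m : F') * (algebraMap k F' (b i₀) / t i₀)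
      = αb - (m : F') * ∑ i ∈ A.erase i₀, algebraMap k F' (b i) / t i := by
    rw [hsplit] at h
    linear_combination -h
  have hreg2 : RegAt v ((m : F') * (algebraMap k F' (b i₀) / t i₀)) := by
    rw [heq]; exact hα.sub hreg
  have hne : (m : F') * (algebraMap k F' (b i₀) / t i₀) ≠ 0 := by
    rw [hmF]
    refine mul_ne_zero ((map_ne_zero_iff _ (algebraMap k F').injective).mpr hm)
      (div_ne_zero ((map_ne_zero_iff _ (algebraMap k F').injective).mpr hb) ht₀)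
  have hord : v.ord ((m : F') * (algebraMap k F' (b i₀) / t i₀)) = -1 := by
    have hmb : algebraMap k F' ((m : k) * b i₀) ≠ 0 :=
      (map_ne_zero_iff _ (algebraMap k F').injective).mpr (mul_ne_zero hm hb)
    have e : (m : F') * (algebraMap k F' (b i₀) / t i₀)
        = algebraMap k F' ((m : k) * b i₀) / t i₀ := by
      rw [hmF, map_mul, mul_div_assoc]
    rw [e, ord_div v hmb ht₀, ord_algebraMap, h1]
    rfl
  have := hreg2.ord_nonneg
  omega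

end Pole

section Main

variable {K F k F₁ F₂ : Type} [Field K] [Field F] [Algebra K F] [Field k] [Field F₁]
  [Algebra k F₁] [Field F₂] [Algebra k F₂]

/-- **The nodal key lemma.** -/
theorem keyNodal [Infinite k] (S : SSD K F k F₁ F₂) (H : FFHyp K F)
    (A₁ : Finset (Place k F₁)) (A₂ : Finset (Place k F₂))
    (hA₁ : Disjoint A₁ S.br₁) (hA₂ : Disjoint A₂ S.br₂) (hNS : S.IsNS A₁ A₂)
    (s₁ : Place k F₁ → F) (s₂ : Place k F₂ → F)
    (hs₁ : ∀ Q ∈ A₁, S.IsCoordA₁ A₁ A₂ (s₁ Q) Q) (hs₂ : ∀ Q ∈ A₂, S.IsCoordA₂ A₁ A₂ (s₂ Q) Q)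
    (n : ℕ) (hn : (n : k) ≠ 0)
    (f : F) (hf₁ : f ∈ S.c₁.V) (hf₂ : f ∈ S.c₂.V) (hrd₁ : S.c₁.rd f = 1) (hrd₂ : S.c₂.rd f = 1)
    (Pinf : Place K F) (Qinf : Place k F₁) (hQinfg : Qinf ∈ S.c₁.good) (hQinfA : Qinf ∉ A₁)
    (hPinf : S.c₁.r Pinf = some Qinf) (hfinf : VanAt Pinf (f - 1))
    (a₁ : Place k F₁ → K) (a₂ : Place k F₂ → K)
    (ha₁ : ∀ Q ∈ A₁, algebraMap K F (a₁ Q) ∈ S.c₁.V ∧ S.c₁.rd (algebraMap K F (a₁ Q)) = 0)
    (ha₂ : ∀ Q ∈ A₂, algebraMap K F (a₂ Q) ∈ S.c₂.V ∧ S.c₂.rd (algebraMap K F (a₂ Q)) = 0)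
    (hord0 : ∀ P, (∀ Q ∈ A₁, S.c₁.r P ≠ some Q) → (∀ Q ∈ A₂, S.c₂.r P ≠ some Q) →
      0 ≤ P.ord f)
    (hord₁ : ∀ Q ∈ A₁, ∀ P, S.c₁.r P = some Q →
      P.ord f = n * (P.ord (s₁ Q - algebraMap K F (a₁ Q)) - P.ord (s₁ Q)))
    (hord₂ : ∀ Q ∈ A₂, ∀ P, S.c₂.r P = some Q →
      P.ord f = n * (P.ord (s₂ Q - algebraMap K F (a₂ Q)) - P.ord (s₂ Q))) :
    f = 1 := by
  have hP := H.principal
  have hfGU₁ : S.c₁.IsGU f := ⟨hf₁, by rw [hrd₁]; exact one_ne_zero⟩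
  have hfGU₂ : S.c₂.IsGU f := ⟨hf₂, by rw [hrd₂]; exact one_ne_zero⟩
  have hgood₁ : ∀ Q ∈ A₁, Q ∈ S.c₁.good := fun Q hQ =>
    S.good₁_of_notMem (Finset.disjoint_left.mp hA₁ hQ)
  have hgood₂ : ∀ Q ∈ A₂, Q ∈ S.c₂.good := fun Q hQ =>
    S.good₂_of_notMem (Finset.disjoint_left.mp hA₂ hQ)
  -- the index set
  set A : Finset (Place k F₁ ⊕ Place k F₂) := A₁.disjSum A₂ with hAdef
  set s : Place k F₁ ⊕ Place k F₂ → F := Sum.elim s₁ s₂ with hsdef
  set a : Place k F₁ ⊕ Place k F₂ → K := Sum.elim a₁ a₂ with hadef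
  have hmemA : ∀ i, i ∈ A ↔ (∃ Q ∈ A₁, i = Sum.inl Q) ∨ ∃ Q ∈ A₂, i = Sum.inr Q := by
    intro i
    rw [hAdef, Finset.mem_disjSum]
    constructor
    · rintro (⟨Q, hQ, rfl⟩ | ⟨Q, hQ, rfl⟩)
      · exact Or.inl ⟨Q, hQ, rfl⟩
      · exact Or.inr ⟨Q, hQ, rfl⟩
    · rintro (⟨Q, hQ, rfl⟩ | ⟨Q, hQ, rfl⟩)
      · exact Or.inl ⟨Q, hQ, rfl⟩
      · exact Or.inr ⟨Q, hQ, rfl⟩
  have hinl : ∀ Q ∈ A₁, Sum.inl Q ∈ A := fun Q hQ => (hmemA _).mpr (Or.inl ⟨Q, hQ, rfl⟩)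
  have hinr : ∀ Q ∈ A₂, Sum.inr Q ∈ A := fun Q hQ => (hmemA _).mpr (Or.inr ⟨Q, hQ, rfl⟩)
  have hsGU₁ : ∀ i ∈ A, S.c₁.IsGU (s i) := by
    intro i hi
    rcases (hmemA i).mp hi with ⟨Q, hQ, rfl⟩ | ⟨Q, hQ, rfl⟩
    · exact (hs₁ Q hQ).1.isGU
    · exact (hs₂ Q hQ).2.1
  have hsGU₂ : ∀ i ∈ A, S.c₂.IsGU (s i) := by
    intro i hi
    rcases (hmemA i).mp hi with ⟨Q, hQ, rfl⟩ | ⟨Q, hQ, rfl⟩
    · exact (hs₁ Q hQ).2.1
    · exact (hs₂ Q hQ).1.isGU
  have haM₁ : ∀ i ∈ A, algebraMap K F (a i) ∈ S.c₁.V ∧ S.c₁.rd (algebraMap K F (a i)) = 0 := by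
    intro i hi
    rcases (hmemA i).mp hi with ⟨Q, hQ, rfl⟩ | ⟨Q, hQ, rfl⟩
    · exact ha₁ Q hQ
    · exact S.rd₁_const_zero (ha₂ Q hQ).1 (ha₂ Q hQ).2
  have haM₂ : ∀ i ∈ A, algebraMap K F (a i) ∈ S.c₂.V ∧ S.c₂.rd (algebraMap K F (a i)) = 0 := by
    intro i hi
    rcases (hmemA i).mp hi with ⟨Q, hQ, rfl⟩ | ⟨Q, hQ, rfl⟩
    · exact S.rd₂_const_zero (ha₁ Q hQ).1 (ha₁ Q hQ).2
    · exact ha₂ Q hQ
  -- regularity and units of the coordinates on the discs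
  have hsreg₁ : ∀ i ∈ A, ∀ Q ∈ A₁, ∀ P, S.c₁.r P = some Q → 0 ≤ P.ord (s i) := by
    intro i hi Q hQ P hPQ
    rcases (hmemA i).mp hi with ⟨Q', hQ', rfl⟩ | ⟨Q', hQ', rfl⟩
    · exact (hs₁ Q' hQ').2.2.2.2.1 P Q hQ hPQ
    · exact (hs₂ Q' hQ').2.2.2.2.1 P Q hQ hPQ
  have hsreg₂ : ∀ i ∈ A, ∀ Q ∈ A₂, ∀ P, S.c₂.r P = some Q → 0 ≤ P.ord (s i) := by
    intro i hi Q hQ P hPQ
    rcases (hmemA i).mp hi with ⟨Q', hQ', rfl⟩ | ⟨Q', hQ', rfl⟩
    · exact (hs₁ Q' hQ').2.2.2.2.2.1 P Q hQ hPQ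
    · exact (hs₂ Q' hQ').2.2.2.2.2.1 P Q hQ hPQ
  have hs0₁ : ∀ i ∈ A, ∀ Q ∈ A₁, i ≠ Sum.inl Q → Q.ord (S.c₁.rd (s i)) = 0 := by
    intro i hi Q hQ hne
    rcases (hmemA i).mp hi with ⟨Q', hQ', rfl⟩ | ⟨Q', hQ', rfl⟩
    · exact (hs₁ Q' hQ').2.2.1 Q hQ (fun h => hne (by rw [h]))
    · exact (hs₂ Q' hQ').2.2.2.1 Q hQ
  have hs0₂ : ∀ i ∈ A, ∀ Q ∈ A₂, i ≠ Sum.inr Q → Q.ord (S.c₂.rd (s i)) = 0 := by
    intro i hi Q hQ hne
    rcases (hmemA i).mp hi with ⟨Q', hQ', rfl⟩ | ⟨Q', hQ', rfl⟩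
    · exact (hs₁ Q' hQ').2.2.2.1 Q hQ
    · exact (hs₂ Q' hQ').2.2.1 Q hQ (fun h => hne (by rw [h]))
  -- the product
  set Hp : F := ∏ i ∈ A, (s i - algebraMap K F (a i)) / s i with hHp
  obtain ⟨hHGU₁, hHrd₁⟩ := S.c₁.isGU_prod_h A s a hsGU₁ haM₁
  obtain ⟨hHGU₂, hHrd₂⟩ := S.c₂.isGU_prod_h A s a hsGU₂ haM₂
  set f₂ : F := f / Hp ^ n with hf₂def
  have hf₂GU₁ : S.c₁.IsGU f₂ := hfGU₁.div (hHGU₁.pow n)
  have hf₂GU₂ : S.c₂.IsGU f₂ := hfGU₂.div (hHGU₂.pow n)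
  have hf₂rd₁ : S.c₁.rd f₂ = 1 := by
    rw [hfGU₁.rd_div (hHGU₁.pow n), hrd₁, S.c₁.rd_pow hHGU₁.1, hHrd₁, one_pow, div_one]
  have hf₂rd₂ : S.c₂.rd f₂ = 1 := by
    rw [hfGU₂.rd_div (hHGU₂.pow n), hrd₂, S.c₂.rd_pow hHGU₂.1, hHrd₂, one_pow, div_one]
  have hff₂ : f = f₂ * Hp ^ n := by
    rw [hf₂def, div_mul_cancel₀ _ (pow_ne_zero _ hHGU₁.ne_zero)]
  -- orders of `f₂` on the discs
  have hf₂ord₁ : ∀ Q ∈ A₁, ∀ P, S.c₁.r P = some Q → P.ord f₂ = 0 := by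
    intro Q hQ P hPQ
    exact S.c₁.key_ord_gen hP A s a hsGU₁ haM₁ (hgood₁ Q hQ) (hinl Q hQ)
      (fun i hi _ P' hP' => hsreg₁ i hi Q hQ P' hP')
      (fun i hi hne => hs0₁ i hi Q hQ hne) n f hfGU₁.ne_zero (hord₁ Q hQ) hPQ
  have hf₂ord₂ : ∀ Q ∈ A₂, ∀ P, S.c₂.r P = some Q → P.ord f₂ = 0 := by
    intro Q hQ P hPQ
    exact S.c₂.key_ord_gen hP A s a hsGU₂ haM₂ (hgood₂ Q hQ) (hinr Q hQ)
      (fun i hi _ P' hP' => hsreg₂ i hi Q hQ P' hP')
      (fun i hi hne => hs0₂ i hi Q hQ hne) n f hfGU₁.ne_zero (hord₂ Q hQ) hPQ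
  -- the scale
  set I : Finset F := insert (f₂ - 1) (A.image fun i => algebraMap K F (a i)) with hI
  have hImem : ∀ z ∈ I, (z ∈ S.c₁.V ∧ S.c₁.rd z = 0) ∧ (z ∈ S.c₂.V ∧ S.c₂.rd z = 0) := by
    intro z hz
    rcases Finset.mem_insert.mp hz with rfl | hz
    · exact ⟨⟨S.c₁.V.sub_mem hf₂GU₁.1 S.c₁.V.one_mem, by
        rw [S.c₁.rd_sub hf₂GU₁.1 S.c₁.V.one_mem, hf₂rd₁, S.c₁.rd_one, sub_self]⟩,
        ⟨S.c₂.V.sub_mem hf₂GU₂.1 S.c₂.V.one_mem, by
        rw [S.c₂.rd_sub hf₂GU₂.1 S.c₂.V.one_mem, hf₂rd₂, S.c₂.rd_one, sub_self]⟩⟩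
    · obtain ⟨i, hi, rfl⟩ := Finset.mem_image.mp hz
      exact ⟨haM₁ i hi, haM₂ i hi⟩
  by_cases hall : ∀ z ∈ I, z = 0
  · have e1 : f₂ = 1 := sub_eq_zero.mp (hall _ (Finset.mem_insert_self _ _))
    have e2 : ∀ i ∈ A, (s i - algebraMap K F (a i)) / s i = 1 := by
      intro i hi
      have : algebraMap K F (a i) = 0 :=
        hall _ (Finset.mem_insert_of_mem (Finset.mem_image_of_mem _ hi))
      rw [this, sub_zero]
      exact div_self (hsGU₁ i hi).ne_zero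
    rw [hff₂, e1, hHp, Finset.prod_eq_one e2, one_pow, mul_one]
  exfalso
  push Not at hall
  obtain ⟨c, hc, ⟨hdV₁, hdrd₁⟩, ⟨hdV₂, hdrd₂⟩, hcI, z₀, hz₀, hz₀GU⟩ :=
    S.exists_scale_max₂ I hImem hall
  set α : F := algebraMap K F c * (f₂ - 1) with hα
  have hαV₁ : α ∈ S.c₁.V := (hcI _ (Finset.mem_insert_self _ _)).1
  have hαV₂ : α ∈ S.c₂.V := (hcI _ (Finset.mem_insert_self _ _)).2
  have hβV₁ : ∀ i ∈ A, algebraMap K F (c * a i) ∈ S.c₁.V := fun i hi => by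
    rw [map_mul]
    exact (hcI _ (Finset.mem_insert_of_mem (Finset.mem_image_of_mem _ hi))).1
  have hβV₂ : ∀ i ∈ A, algebraMap K F (c * a i) ∈ S.c₂.V := fun i hi => by
    rw [map_mul]
    exact (hcI _ (Finset.mem_insert_of_mem (Finset.mem_image_of_mem _ hi))).2
  -- the constants `b`
  have hbex : ∀ i, ∃ b : k, i ∈ A →
      S.c₁.rd (algebraMap K F (c * a i)) = algebraMap k F₁ b := by
    intro i
    by_cases hi : i ∈ A
    · obtain ⟨b, hb⟩ := S.c₁.rd_const_eq (c * a i) (hβV₁ i hi)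
      exact ⟨b, fun _ => hb⟩
    · exact ⟨0, fun h => absurd h hi⟩
  choose b hb₁ using hbex
  have hb₂ : ∀ i ∈ A, S.c₂.rd (algebraMap K F (c * a i)) = algebraMap k F₂ (b i) :=
    fun i hi => (S.rd₂_const (hβV₁ i hi) (hb₁ i hi)).2
  -- the congruences
  obtain ⟨hφV₁, hφrd₁⟩ := S.c₁.cong_formula A s a hsGU₁ haM₁ n f c hc hdV₁ hdrd₁ hαV₁ hβV₁ b hb₁
  obtain ⟨hφV₂, hφrd₂⟩ := S.c₂.cong_formula A s a hsGU₂ haM₂ n f c hc hdV₂ hdrd₂ hαV₂ hβV₂ b hb₂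
  set φ : F := algebraMap K F c * (f - 1) with hφ
  -- regularity of `φ` away from the discs
  have hφreg : ∀ P, (∀ Q ∈ A₁, S.c₁.r P ≠ some Q) → (∀ Q ∈ A₂, S.c₂.r P ≠ some Q) →
      0 ≤ P.ord φ := by
    intro P h1 h2
    have hf : RegAt P f := regAt_of_ord_nonneg (hord0 P h1 h2)
    exact ((regAt_algebraMap P c).mul (hf.sub (regAt_one P))).ord_nonneg
  have hαreg₁ : ∀ Q ∈ A₁, RegAt Q (S.c₁.rd α) := by
    intro Q hQ
    apply S.c₁.regAt_rd hP hαV₁ (hgood₁ Q hQ)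
    intro P hPQ
    have h1 : RegAt P f₂ := regAt_of_ord_nonneg (le_of_eq (hf₂ord₁ Q hQ P hPQ).symm)
    exact ((regAt_algebraMap P c).mul (h1.sub (regAt_one P))).ord_nonneg
  have hαreg₂ : ∀ Q ∈ A₂, RegAt Q (S.c₂.rd α) := by
    intro Q hQ
    apply S.c₂.regAt_rd hP hαV₂ (hgood₂ Q hQ)
    intro P hPQ
    have h1 : RegAt P f₂ := regAt_of_ord_nonneg (le_of_eq (hf₂ord₂ Q hQ P hPQ).symm)
    exact ((regAt_algebraMap P c).mul (h1.sub (regAt_one P))).ord_nonneg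
  -- gluing of `φ` at the nodes
  have hglue : ∀ t ∈ S.nodes, ∃ e : k, VanAt t.1 (S.c₁.rd φ - algebraMap k F₁ e) ∧
      VanAt t.2 (S.c₂.rd φ - algebraMap k F₂ e) := by
    intro t ht
    have hreg : ∀ P, S.c₁.r P = some t.1 → 0 ≤ P.ord φ := by
      intro P hPt
      refine hφreg P (fun Q hQ h => ?_) (fun Q hQ h => ?_)
      · rw [hPt] at h
        exact S.not_good₁ ht (Option.some.inj h ▸ hgood₁ Q hQ)
      · rw [S.r₂_of_node ht hPt] at h
        exact S.not_good₂ ht (Option.some.inj h ▸ hgood₂ Q hQ)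
    obtain ⟨e, he1, he2⟩ := S.glue t ht φ hφV₁ hφV₂ hreg
    rw [← S.c₁.rd_of_mem hφV₁] at he1
    rw [← S.c₂.rd_of_mem hφV₂] at he2
    exact ⟨e, he1, he2⟩
  -- the reductions of `φ` lie in `L(A₁)`, `L(A₂)`
  have hφL₁ : S.c₁.rd φ ∈ L (ptsDiv A₁) := by
    rw [mem_L_iff_ord]
    intro v
    by_cases hv : v ∈ A₁
    · rw [ptsDiv_apply, if_pos hv]
      have := poleLe_formula v A (fun i => S.c₁.rd (s i)) (fun i hi => (hsGU₁ i hi).2)
        (fun i hi => by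
          by_cases hiv : i = Sum.inl v
          · rw [hiv]; exact le_of_eq (hs₁ v hv).1.ord_one
          · rw [hs0₁ i hi v hv hiv]; exact zero_le_one) b n (hαreg₁ v hv)
      rw [← hφrd₁] at this
      exact this
    · rw [ptsDiv_apply, if_neg hv, neg_zero]
      have hreg : RegAt v (S.c₁.rd φ) := by
        by_cases hvg : v ∈ S.c₁.good
        · apply S.c₁.regAt_rd hP hφV₁ hvg
          intro P hPv
          refine hφreg P (fun Q hQ h => ?_) (fun Q hQ h => ?_)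
          · rw [hPv] at h
            exact hv (Option.some.inj h ▸ hQ)
          · rw [S.r₂_none_of_good₁ hvg hPv] at h
            exact absurd h (by simp)
        · have : v ∈ S.br₁ := by
            by_contra hvb
            exact hvg (S.good₁_of_notMem hvb)
          obtain ⟨t, ht, rfl⟩ := Finset.mem_image.mp this
          obtain ⟨e, he, -⟩ := hglue t ht
          exact RegAt.of_vanAt_sub he
      exact (regAt_iff_ord v _).mp hreg
  have hφL₂ : S.c₂.rd φ ∈ L (ptsDiv A₂) := by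
    rw [mem_L_iff_ord]
    intro v
    by_cases hv : v ∈ A₂
    · rw [ptsDiv_apply, if_pos hv]
      have := poleLe_formula v A (fun i => S.c₂.rd (s i)) (fun i hi => (hsGU₂ i hi).2)
        (fun i hi => by
          by_cases hiv : i = Sum.inr v
          · rw [hiv]; exact le_of_eq (hs₂ v hv).1.ord_one
          · rw [hs0₂ i hi v hv hiv]; exact zero_le_one) b n (hαreg₂ v hv)
      rw [← hφrd₂] at this
      exact this
    · rw [ptsDiv_apply, if_neg hv, neg_zero]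
      have hreg : RegAt v (S.c₂.rd φ) := by
        by_cases hvg : v ∈ S.c₂.good
        · apply S.c₂.regAt_rd hP hφV₂ hvg
          intro P hPv
          refine hφreg P (fun Q hQ h => ?_) (fun Q hQ h => ?_)
          · rw [S.r₁_none_of_good₂ hvg hPv] at h
            exact absurd h (by simp)
          · rw [hPv] at h
            exact hv (Option.some.inj h ▸ hQ)
        · have : v ∈ S.br₂ := by
            by_contra hvb
            exact hvg (S.good₂_of_notMem hvb)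
          obtain ⟨t, ht, rfl⟩ := Finset.mem_image.mp this
          obtain ⟨e, -, he⟩ := hglue t ht
          exact RegAt.of_vanAt_sub he
      exact (regAt_iff_ord v _).mp hreg
  -- the reductions of `φ` are a constant, which vanishes at `Qinf`
  obtain ⟨e, he₁, he₂⟩ := hNS _ hφL₁ _ hφL₂ hglue
  have hφinf : VanAt Qinf (S.c₁.rd φ) := by
    refine S.c₁.vanAt_rd hP hφV₁ hQinfg ?_ hPinf ((regAt_algebraMap Pinf c).mul_vanAt hfinf)
    intro P hPQ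
    refine hφreg P (fun Q hQ h => ?_) (fun Q hQ h => ?_)
    · rw [hPQ] at h
      exact hQinfA (Option.some.inj h ▸ hQ)
    · rw [S.r₂_none_of_good₁ hQinfg hPQ] at h
      exact absurd h (by simp)
  have he0 : e = 0 := by
    rw [he₁] at hφinf
    exact const_eq_zero_of_vanAt hφinf
  have hφ0₁ : S.c₁.rd φ = 0 := by rw [he₁, he0, map_zero]
  have hφ0₂ : S.c₂.rd φ = 0 := by rw [he₂, he0, map_zero]
  -- the residues vanish
  have hb0 : ∀ i ∈ A, b i = 0 := by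
    intro i hi
    rcases (hmemA i).mp hi with ⟨Q, hQ, rfl⟩ | ⟨Q, hQ, rfl⟩
    · refine residue_zero Q A (fun i => S.c₁.rd (s i)) hi (hs₁ Q hQ).1.ord_one
        (fun j hj hne => hs0₁ j hj Q hQ hne) (hsGU₁ _ hi).2 b n hn (hαreg₁ Q hQ) ?_
      rw [← hφrd₁, hφ0₁]
    · refine residue_zero Q A (fun i => S.c₂.rd (s i)) hi (hs₂ Q hQ).1.ord_one
        (fun j hj hne => hs0₂ j hj Q hQ hne) (hsGU₂ _ hi).2 b n hn (hαreg₂ Q hQ) ?_
      rw [← hφrd₂, hφ0₂]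
  have hsum₁ : ∑ i ∈ A, algebraMap k F₁ (b i) / S.c₁.rd (s i) = 0 :=
    Finset.sum_eq_zero fun i hi => by rw [hb0 i hi, map_zero, zero_div]
  have hsum₂ : ∑ i ∈ A, algebraMap k F₂ (b i) / S.c₂.rd (s i) = 0 :=
    Finset.sum_eq_zero fun i hi => by rw [hb0 i hi, map_zero, zero_div]
  have hα0₁ : S.c₁.rd α = 0 := by
    have := hφrd₁
    rw [hφ0₁, hsum₁, mul_zero, sub_zero] at this
    exact this.symm
  have hα0₂ : S.c₂.rd α = 0 := by
    have := hφrd₂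
    rw [hφ0₂, hsum₂, mul_zero, sub_zero] at this
    exact this.symm
  -- contradiction
  rcases Finset.mem_insert.mp hz₀ with rfl | hz
  · rcases hz₀GU with h | h
    · exact h.2 hα0₁
    · exact h.2 hα0₂
  · obtain ⟨i, hi, rfl⟩ := Finset.mem_image.mp hz
    rcases hz₀GU with h | h
    · apply h.2
      rw [← map_mul, hb₁ i hi, hb0 i hi, map_zero]
    · apply h.2
      rw [← map_mul, hb₂ i hi, hb0 i hi, map_zero]

end Main

/-- `Stmt_KeyNodal`. -/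
theorem stmt_KeyNodal : Stmt_KeyNodal := by
  intro K F k F₁ F₂ _ _ _ _ _ _ _ _ _ S H _ _ A₁ A₂ hA₁ hA₂ hNS s₁ s₂ hs₁ hs₂ n hn f hf₁ hf₂
    hrd₁ hrd₂ Pinf Qinf hQinfg hQinfA hPinf hfinf a₁ a₂ ha₁ ha₂ hord0 hord₁ hord₂
  exact keyNodal S H A₁ A₂ hA₁ hA₂ hNS s₁ s₂ hs₁ hs₂ n hn f hf₁ hf₂ hrd₁ hrd₂ Pinf Qinf hQinfg
    hQinfA hPinf hfinf a₁ a₂ ha₁ ha₂ hord0 hord₁ hord₂

end H28

end Fermat.Agent.BAD
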