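import Fermat.Agent.BAD.H28_Stmts

/-!
# Item 65, package ABS: leaf EVAL (helper55)

`stmt_Eval : Stmt_Eval`: at a place of degree one, the residue map composed with the inverse of
`k ≃ residue field` is a `k`-algebra homomorphism `O_v → k` whose fibre over `a` consists of the
functions `x` with `x - a` vanishing at the place.
-/

set_option autoImplicit false

noncomputable section

open AlgebraicCurve

namespace Fermat.Agent.BAD.H55

open Fermat.Agent.RED.H17

variable {k F : Type} [Field k] [Field F] [Algebra k F]

/-- `k ≃ residue field` at a place of degree one. -/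
def residueEquiv (v : Place k F) (hdeg : v.deg = 1) : k ≃ₐ[k] v.ResidueField :=
  AlgEquiv.ofBijective (Algebra.ofId k v.ResidueField)
    ⟨(algebraMap k v.ResidueField).injective, by
      have h1 : (⊥ : Subalgebra k v.ResidueField) = ⊤ :=
        Subalgebra.bot_eq_top_of_finrank_eq_one hdeg
      intro y
      have : y ∈ (⊥ : Subalgebra k v.ResidueField) := by rw [h1]; exact Algebra.mem_top
      obtain ⟨a, ha⟩ := Algebra.mem_bot.mp this
      exact ⟨a, ha⟩⟩

/-- The evaluation map at a place of degree one. -/
def evalAt (v : Place k F) (hdeg : v.deg = 1) : v.toValuationSubring →ₐ[k] k :=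
  (residueEquiv v hdeg).symm.toAlgHom.comp
    (IsScalarTower.toAlgHom k v.toValuationSubring v.ResidueField)

theorem evalAt_eq_iff (v : Place k F) (hdeg : v.deg = 1) (x : v.toValuationSubring) (a : k) :
    evalAt v hdeg x = a ↔ VanAt v ((x : F) - algebraMap k F a) := by
  have e1 : evalAt v hdeg x = a ↔
      IsLocalRing.residue v.toValuationSubring x = algebraMap k v.ResidueField a := by
    have h0 : evalAt v hdeg x
        = (residueEquiv v hdeg).symm (IsLocalRing.residue v.toValuationSubring x) := rfl
    rw [h0]
    constructor
    · intro h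
      have := congrArg (residueEquiv v hdeg) h
      rw [AlgEquiv.apply_symm_apply] at this
      exact this
    · intro h
      rw [h]
      exact (residueEquiv v hdeg).symm_apply_apply a
  rw [e1]
  have hmem' : (x : F) - algebraMap k F a ∈ v.toValuationSubring :=
    v.toValuationSubring.sub_mem x.2 (v.algebraMap_mem' a)
  have h3 : (⟨(x : F) - algebraMap k F a, hmem'⟩ : v.toValuationSubring)
      = x - algebraMap k v.toValuationSubring a := by
    ext
    rfl
  have h4 := v.adicValuation_coe ⟨(x : F) - algebraMap k F a, hmem'⟩
  rw [show ((⟨(x : F) - algebraMap k F a, hmem'⟩ : v.toValuationSubring) : F)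
    = (x : F) - algebraMap k F a from rfl] at h4
  unfold VanAt
  rw [h4, IsDedekindDomain.HeightOneSpectrum.intValuation_lt_one_iff_mem,
    Place.heightOneSpectrum_asIdeal, ← IsLocalRing.residue_eq_zero_iff, h3, map_sub, sub_eq_zero]
  rfl

theorem stmt_Eval : Fermat.Agent.BAD.Stmt_Eval := by
  intro k F _ _ _ v hdeg
  exact ⟨evalAt v hdeg, fun x a => evalAt_eq_iff v hdeg x a⟩

end Fermat.Agent.BAD.H55
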