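import Fermat.Agent.BAD.H28_Skel
import Fermat.Agent.BAD.H55_Alg
import Fermat.Agent.BAD.H55_Eval

/-!
# Item 65, package ABS, leaf 3: `Stmt_Linearise` (helper41)

A `k`-subspace `I` of pairs `(ψ₁, ψ₂)` satisfying the `n`-th power gluing condition
`ψ₁(s₁)^n = (γ ψ₂^n)(s₂)` at the nodes satisfies a linear gluing condition
`ψ₁(s₁) = λ_s ψ₂(s₂)`.

Proof: `A(ψ) = ψ₁(s₁)` and `B(ψ) = ψ₂(s₂)` are linear on `I` with `A^n = γ(s₂) B^n`; pick `ψ0`
with `A(ψ0) ≠ 0` and apply `H55.stmt_Ratio` to `ψ + t ψ0`.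
-/

set_option autoImplicit false
set_option linter.style.haveILetI false

noncomputable section

open AlgebraicCurve

namespace Fermat.Agent.BAD.H41

open Fermat.Agent.RED.H17 Fermat.Agent.BAD Fermat.Agent.BAD.H55

variable {k F : Type} [Field k] [Field F] [Algebra k F]

/-- The value of a function at a place of degree one (`0` if the function is not regular). -/
def valAt (v : Place k F) (hdeg : v.deg = 1) (f : F) : k :=
  open Classical in
  if h : RegAt v f then evalAt v hdeg ⟨f, (regAt_iff_mem v f).mp h⟩ else 0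

theorem valAt_of_regAt (v : Place k F) (hdeg : v.deg = 1) {f : F} (h : RegAt v f) :
    valAt v hdeg f = evalAt v hdeg ⟨f, (regAt_iff_mem v f).mp h⟩ := by
  unfold valAt
  rw [dif_pos h]

theorem valAt_eq_iff (v : Place k F) (hdeg : v.deg = 1) {f : F} (h : RegAt v f) (a : k) :
    valAt v hdeg f = a ↔ VanAt v (f - algebraMap k F a) := by
  rw [valAt_of_regAt v hdeg h]
  exact evalAt_eq_iff v hdeg ⟨f, (regAt_iff_mem v f).mp h⟩ a

theorem vanAt_sub_valAt (v : Place k F) (hdeg : v.deg = 1) {f : F} (h : RegAt v f) :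
    VanAt v (f - algebraMap k F (valAt v hdeg f)) :=
  (valAt_eq_iff v hdeg h _).mp rfl

theorem valAt_add (v : Place k F) (hdeg : v.deg = 1) {f g : F} (hf : RegAt v f)
    (hg : RegAt v g) : valAt v hdeg (f + g) = valAt v hdeg f + valAt v hdeg g := by
  rw [valAt_of_regAt v hdeg hf, valAt_of_regAt v hdeg hg, valAt_of_regAt v hdeg (hf.add hg),
    ← map_add]
  rfl

theorem valAt_mul (v : Place k F) (hdeg : v.deg = 1) {f g : F} (hf : RegAt v f)
    (hg : RegAt v g) : valAt v hdeg (f * g) = valAt v hdeg f * valAt v hdeg g := by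
  rw [valAt_of_regAt v hdeg hf, valAt_of_regAt v hdeg hg, valAt_of_regAt v hdeg (hf.mul hg),
    ← map_mul]
  rfl

theorem valAt_algebraMap (v : Place k F) (hdeg : v.deg = 1) (a : k) :
    valAt v hdeg (algebraMap k F a) = a := by
  rw [valAt_eq_iff v hdeg (regAt_algebraMap v a), sub_self]
  exact vanAt_zero v

theorem valAt_pow (v : Place k F) (hdeg : v.deg = 1) {f : F} (hf : RegAt v f) (n : ℕ) :
    valAt v hdeg (f ^ n) = valAt v hdeg f ^ n := by
  induction n with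
  | zero =>
    rw [pow_zero, pow_zero, ← map_one (algebraMap k F)]
    exact valAt_algebraMap v hdeg 1
  | succ m ih =>
    rw [pow_succ, pow_succ, valAt_mul v hdeg (hf.pow m) hf, ih]

theorem valAt_smul (v : Place k F) (hdeg : v.deg = 1) (t : k) {f : F} (hf : RegAt v f) :
    valAt v hdeg (t • f) = t * valAt v hdeg f := by
  rw [Algebra.smul_def, valAt_mul v hdeg (regAt_algebraMap v t) hf, valAt_algebraMap]

/-- A function with a regular `n`-th power is regular. -/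
theorem regAt_of_pow {v : Place k F} {f : F} {n : ℕ} (hn : n ≠ 0) (h : RegAt v (f ^ n)) :
    RegAt v f := by
  by_contra hcon
  rw [not_regAt_iff_ord] at hcon
  have hf : f ≠ 0 := by
    rintro rfl
    simp at hcon
  have h1 := h.ord_nonneg
  rw [Fermat.Agent.RED.H17.ord_pow] at h1
  have hn' : (0 : ℤ) < n := by exact_mod_cast Nat.pos_of_ne_zero hn
  nlinarith

/-- The linearisation at one node. -/
theorem linearise_node {F₁ F₂ : Type} [Field F₁] [Algebra k F₁] [Field F₂] [Algebra k F₂]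
    [Infinite k] (H₁ : FFHyp k F₁) (H₂ : FFHyp k F₂) (n : ℕ) (hn : (n : k) ≠ 0)
    (γ : F₂) (hγ0 : γ ≠ 0) (s₁ : Place k F₁) (s₂ : Place k F₂) (hγ : s₂.ord γ = 0)
    (I : Submodule k (F₁ × F₂))
    (hI : ∀ ψ ∈ I, ∃ a : k, VanAt s₁ (ψ.1 ^ n - algebraMap k F₁ a) ∧
      VanAt s₂ (γ * ψ.2 ^ n - algebraMap k F₂ a)) :
    ∃ lam : k, lam ≠ 0 ∧ ∀ ψ ∈ I, ∃ a : k, VanAt s₁ (ψ.1 - algebraMap k F₁ a) ∧
      VanAt s₂ (algebraMap k F₂ lam * ψ.2 - algebraMap k F₂ a) := by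
  have hn0 : n ≠ 0 := by
    rintro rfl
    exact hn (by simp)
  have hd₁ := H₁.deg_one s₁
  have hd₂ := H₂.deg_one s₂
  -- `γ` is a unit at `s₂`
  have hγreg : RegAt s₂ γ := regAt_of_ord_nonneg (by rw [hγ])
  have hγinv : RegAt s₂ γ⁻¹ := by
    apply regAt_of_ord_nonneg
    rw [Place.ord_inv, hγ, neg_zero]
  have hc : valAt s₂ hd₂ γ ≠ 0 := by
    intro h0
    have h1 := (valAt_eq_iff s₂ hd₂ hγreg 0).mp h0
    rw [map_zero, sub_zero] at h1
    have := h1.ord_pos hγ0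
    omega
  -- regularity
  have hR1 : ∀ ψ ∈ I, RegAt s₁ ψ.1 := by
    intro ψ hψ
    obtain ⟨a, ha, -⟩ := hI ψ hψ
    have h1 : RegAt s₁ (ψ.1 ^ n) := by
      have := ha.regAt.add (regAt_algebraMap s₁ a)
      rwa [sub_add_cancel] at this
    exact regAt_of_pow hn0 h1
  have hR2 : ∀ ψ ∈ I, RegAt s₂ ψ.2 := by
    intro ψ hψ
    obtain ⟨a, -, ha⟩ := hI ψ hψ
    have h1 : RegAt s₂ (γ * ψ.2 ^ n) := by
      have := ha.regAt.add (regAt_algebraMap s₂ a)
      rwa [sub_add_cancel] at this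
    have h2 : RegAt s₂ (ψ.2 ^ n) := by
      have := hγinv.mul h1
      rwa [← mul_assoc, inv_mul_cancel₀ hγ0, one_mul] at this
    exact regAt_of_pow hn0 h2
  -- the power relation
  have hpow : ∀ ψ ∈ I, valAt s₁ hd₁ ψ.1 ^ n = valAt s₂ hd₂ γ * valAt s₂ hd₂ ψ.2 ^ n := by
    intro ψ hψ
    obtain ⟨a, ha1, ha2⟩ := hI ψ hψ
    have e1 := (valAt_eq_iff s₁ hd₁ ((hR1 ψ hψ).pow n) a).mpr ha1
    have e2 := (valAt_eq_iff s₂ hd₂ (hγreg.mul ((hR2 ψ hψ).pow n)) a).mpr ha2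
    rw [valAt_pow s₁ hd₁ (hR1 ψ hψ)] at e1
    rw [valAt_mul s₂ hd₂ hγreg ((hR2 ψ hψ).pow n), valAt_pow s₂ hd₂ (hR2 ψ hψ)] at e2
    rw [e1, e2]
  -- the conclusion from a linear relation
  have hfin : ∀ lam : k, (∀ ψ ∈ I, valAt s₁ hd₁ ψ.1 = lam * valAt s₂ hd₂ ψ.2) →
      ∀ ψ ∈ I, ∃ a : k, VanAt s₁ (ψ.1 - algebraMap k F₁ a) ∧
        VanAt s₂ (algebraMap k F₂ lam * ψ.2 - algebraMap k F₂ a) := by
    intro lam hlam ψ hψ
    refine ⟨valAt s₁ hd₁ ψ.1, vanAt_sub_valAt s₁ hd₁ (hR1 ψ hψ), ?_⟩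
    rw [← valAt_eq_iff s₂ hd₂ ((regAt_algebraMap s₂ lam).mul (hR2 ψ hψ)),
      valAt_mul s₂ hd₂ (regAt_algebraMap s₂ lam) (hR2 ψ hψ), valAt_algebraMap, hlam ψ hψ]
  by_cases hex : ∃ ψ0 ∈ I, valAt s₁ hd₁ ψ0.1 ≠ 0
  · obtain ⟨ψ0, hψ0, hA₀⟩ := hex
    have hB₀ : valAt s₂ hd₂ ψ0.2 ≠ 0 := by
      intro h0
      have := hpow ψ0 hψ0
      rw [h0, zero_pow hn0, mul_zero] at this
      exact hA₀ (pow_eq_zero_iff hn0 |>.mp this)
    refine ⟨valAt s₁ hd₁ ψ0.1 / valAt s₂ hd₂ ψ0.2, div_ne_zero hA₀ hB₀, ?_⟩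
    apply hfin
    intro ψ hψ
    have hrat := stmt_Ratio k n hn (valAt s₁ hd₁ ψ.1) (valAt s₁ hd₁ ψ0.1)
      (valAt s₂ hd₂ ψ.2) (valAt s₂ hd₂ ψ0.2) (valAt s₂ hd₂ γ) hA₀ (by
        intro t
        have hmem : ψ + t • ψ0 ∈ I := I.add_mem hψ (I.smul_mem t hψ0)
        have := hpow _ hmem
        rw [Prod.fst_add, Prod.snd_add, Prod.smul_fst, Prod.smul_snd,
          valAt_add s₁ hd₁ (hR1 ψ hψ) (by
            rw [Algebra.smul_def]; exact (regAt_algebraMap s₁ t).mul (hR1 ψ0 hψ0)),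
          valAt_add s₂ hd₂ (hR2 ψ hψ) (by
            rw [Algebra.smul_def]; exact (regAt_algebraMap s₂ t).mul (hR2 ψ0 hψ0)),
          valAt_smul s₁ hd₁ t (hR1 ψ0 hψ0), valAt_smul s₂ hd₂ t (hR2 ψ0 hψ0)] at this
        exact this)
    field_simp
    linear_combination hrat
  · push Not at hex
    refine ⟨1, one_ne_zero, ?_⟩
    apply hfin
    intro ψ hψ
    have hA := hex ψ hψ
    have := hpow ψ hψ
    rw [hA, zero_pow hn0] at this
    have hB : valAt s₂ hd₂ ψ.2 = 0 := by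
      rcases mul_eq_zero.mp this.symm with h | h
      · exact absurd h hc
      · exact pow_eq_zero_iff hn0 |>.mp h
    rw [hA, hB, mul_zero]

/-- **P3, linearisation.** -/
theorem stmt_Linearise : Stmt_Linearise := by
  classical
  intro k F₁ F₂ _ _ _ _ _ _ H₁ H₂ nodes n hn γ hγ0 hγ I hI
  have key : ∀ s : Place k F₁ × Place k F₂, s ∈ nodes →
      ∃ lam : k, lam ≠ 0 ∧ ∀ ψ ∈ I, ∃ a : k, VanAt s.1 (ψ.1 - algebraMap k F₁ a) ∧
        VanAt s.2 (algebraMap k F₂ lam * ψ.2 - algebraMap k F₂ a) := by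
    intro s hs
    exact linearise_node H₁ H₂ n hn γ hγ0 s.1 s.2 (hγ s hs) I (fun ψ hψ => hI ψ hψ s hs)
  refine ⟨fun s => if h : s ∈ nodes then Classical.choose (key s h) else 1, ?_, ?_⟩
  · intro s hs
    simp only [dif_pos hs]
    exact (Classical.choose_spec (key s hs)).1
  · intro ψ hψ s hs
    simp only [dif_pos hs]
    exact (Classical.choose_spec (key s hs)).2 ψ hψ

end Fermat.Agent.BAD.H41
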