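import Fermat.Agent.BAD.H28_Two
import Fermat.Agent.BAD.H41_Linearise

/-!
# Item 65, package ABS, leaf 5: `Stmt_TwSurj` (helper41)

Assembly: `Stmt_Contain → Stmt_Pivot → Stmt_LamCount → Stmt_TwSurj` (with `H41.stmt_Linearise`).

With `D = D_x + G`, `G₁ = r₁_* G`, `G₂ = r₂_* G + Δ`, `R = Rsub ϑ D`:
`deg G + 1 - g ≤ l(D) ≤ dim R ≤ dim Λ^λ(G₁, G₂) ≤ l₁(G₁ - ∑ s₁) + l₂(G₂ - ∑ s₂) + δ
  = deg G + 2 - g₁ - g₂ - δ ≤ deg G + 1 - g`,
hence `R = Λ^λ`.
-/

set_option autoImplicit false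
set_option linter.style.haveILetI false

noncomputable section

open AlgebraicCurve

attribute [local instance] Classical.propDecidable

namespace Fermat.Agent.BAD.H41

open Fermat.Agent.RED.H17 Fermat.Agent.RED Fermat.Agent.BAD

local notation "L" => riemannRochSpace

section Push

variable {K F k F' : Type} [Field K] [Field F] [Algebra K F] [Field k] [Field F']
  [Algebra k F']

/-- The degree of the push-forward along a partial map. -/
theorem degree_some_mapDomain (hdeg : ∀ v : Place k F', v.deg = 1)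
    (r : Place K F → Option (Place k F')) (G : Divisor K F) :
    Divisor.degree ((Finsupp.mapDomain r G).some) =
      G.sum (fun P m => if (r P).isSome then m else 0) := by
  induction G using Finsupp.induction_linear with
  | zero => simp
  | add D E hD hE =>
    rw [Finsupp.mapDomain_add, Finsupp.some_add, map_add, hD, hE,
      Finsupp.sum_add_index' (fun a => by simp) (fun a b c => by split_ifs <;> simp)]
  | single P m =>
    rw [Finsupp.mapDomain_single, Finsupp.sum_single_index (by simp)]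
    cases h : r P with
    | none => simp [Finsupp.some_single_none]
    | some Q => simp [Finsupp.some_single_some, hdeg]

/-- The push-forward vanishes at `Q` if no place of the support reduces to `Q`. -/
theorem some_mapDomain_eq_zero (r : Place K F → Option (Place k F')) (G : Divisor K F)
    (Q : Place k F') (h : ∀ P, G P ≠ 0 → r P ≠ some Q) :
    (Finsupp.mapDomain r G).some Q = 0 := by
  rw [Finsupp.some_apply, mapDomain_apply_eq_sum]
  refine Finset.sum_eq_zero fun P hP => ?_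
  rw [if_neg (h P (Finsupp.mem_support_iff.mp hP))]

end Push

section Main

variable {K F k F₁ F₂ : Type} [Field K] [Field F] [Algebra K F] [Field k] [Field F₁]
  [Algebra k F₁] [Field F₂] [Algebra k F₂] (S : SSD K F k F₁ F₂)

/-- In good position, the degrees of the two push-forwards add up to the degree. -/
theorem degree_push_add (H : FFHyp K F) (H₁ : FFHyp k F₁) (H₂ : FFHyp k F₂)
    (G : Divisor K F) (hG : S.GoodPos G) :
    Divisor.degree (S.push₁ G) + Divisor.degree (S.push₂ G) = Divisor.degree G := by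
  unfold SSD.push₁ SSD.push₂
  rw [degree_some_mapDomain H₁.deg_one, degree_some_mapDomain H₂.deg_one,
    degree_eq_sum H.deg_one]
  unfold Finsupp.sum
  rw [← Finset.sum_add_distrib]
  refine Finset.sum_congr rfl fun P hP => ?_
  have hP0 : G P ≠ 0 := Finsupp.mem_support_iff.mp hP
  have hnode := hG P hP0
  rcases S.r_cases P with ⟨Q, _, h1, h2⟩ | ⟨Q, _, h2, h1⟩ | ⟨s, hs, h1, _⟩
  · simp only [h1, h2]; simp
  · simp only [h1, h2]; simp
  · exact absurd ⟨s, hs, h1⟩ hnode

theorem push₁_node (G : Divisor K F) (hG : S.GoodPos G) {s : Place k F₁ × Place k F₂}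
    (hs : s ∈ S.nodes) : S.push₁ G s.1 = 0 := by
  unfold SSD.push₁
  refine some_mapDomain_eq_zero _ _ _ fun P hP h => ?_
  exact hG P hP ⟨s, hs, h⟩

theorem push₂_node (G : Divisor K F) (hG : S.GoodPos G) {s : Place k F₁ × Place k F₂}
    (hs : s ∈ S.nodes) : S.push₂ G s.2 = 0 := by
  unfold SSD.push₂
  refine some_mapDomain_eq_zero _ _ _ fun P hP h => ?_
  exact hG P hP (S.isNodeP_iff₂.mpr ⟨s, hs, h⟩)

theorem card_br₁ : S.br₁.card = S.nodes.card := by
  unfold SSD.br₁
  exact Finset.card_image_of_injOn fun s hs s' hs' h => S.inj₁ s hs s' hs' h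

theorem card_br₂ : S.br₂.card = S.nodes.card := by
  unfold SSD.br₂
  exact Finset.card_image_of_injOn fun s hs s' hs' h => S.inj₂ s hs s' hs' h

variable {S}

/-- `n • D_x = div f`. -/
theorem nsmul_Dx {n : ℕ} (x : S.Twist n) (hP : HasPrincipalDivisors K F) :
    (n : ℤ) • x.Dx hP = dv hP x.f := by
  ext P
  rw [Finsupp.smul_apply, SSD.Twist.Dx, Finsupp.mapRange_apply, dv_apply, smul_eq_mul]
  exact Int.mul_ediv_cancel' (x.hdiv P)

theorem degree_Dx {n : ℕ} (hn : n ≠ 0) (x : S.Twist n) (hP : HasPrincipalDivisors K F) :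
    Divisor.degree (x.Dx hP) = 0 := by
  have h := congrArg Divisor.degree (nsmul_Dx x hP)
  rw [map_zsmul, degree_dv, smul_eq_mul] at h
  rcases mul_eq_zero.mp h with h0 | h0
  · exact absurd (by exact_mod_cast h0) hn
  · exact h0

theorem γ_ne_zero {n : ℕ} (x : S.Twist n) : x.γ ≠ 0 := x.hf₂.rd_ne_zero

/-- All orders of `γ` are divisible by `n`. -/
theorem dvd_ord_γ {n : ℕ} (x : S.Twist n) (hP : HasPrincipalDivisors K F)
    (Q : Place k F₂) : (n : ℤ) ∣ Q.ord x.γ := by
  by_cases hQ : Q ∈ S.c₂.good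
  · have h := S.c₂.ord_rd_eq_sum hP x.hf₂ Q hQ
    unfold SSD.Twist.γ
    rw [h]
    refine Finset.dvd_sum fun P _ => ?_
    split_ifs
    · have hf0 : x.f ≠ 0 := by
        intro h0
        have := x.hf₂.ne_zero
        rw [h0, zero_div] at this
        exact this rfl
      rw [ord_div P hf0 (pow_ne_zero n x.hϑ), ord_pow]
      exact dvd_sub (x.hdiv P) (dvd_mul_right _ _)
    · exact dvd_zero _
  · rw [S.good₂] at hQ
    push Not at hQ
    obtain ⟨s, hs, rfl⟩ := hQ
    have := x.hγ s hs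
    unfold SSD.Twist.γ
    rw [this]
    exact dvd_zero _

theorem nsmul_Δ {n : ℕ} (x : S.Twist n) (hP : HasPrincipalDivisors K F)
    (hP₂ : HasPrincipalDivisors k F₂) : (n : ℤ) • x.Δ hP₂ = dv hP₂ x.γ := by
  ext Q
  rw [Finsupp.smul_apply, SSD.Twist.Δ, Finsupp.mapRange_apply, dv_apply, smul_eq_mul]
  exact Int.mul_ediv_cancel' (dvd_ord_γ x hP Q)

theorem degree_Δ {n : ℕ} (hn : n ≠ 0) (x : S.Twist n) (hP : HasPrincipalDivisors K F)
    (hP₂ : HasPrincipalDivisors k F₂) : Divisor.degree (x.Δ hP₂) = 0 := by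
  have h := congrArg Divisor.degree (nsmul_Δ x hP hP₂)
  rw [map_zsmul, degree_dv, smul_eq_mul] at h
  rcases mul_eq_zero.mp h with h0 | h0
  · exact absurd (by exact_mod_cast h0) hn
  · exact h0

theorem Δ_node {n : ℕ} (x : S.Twist n) (hP₂ : HasPrincipalDivisors k F₂)
    {s : Place k F₁ × Place k F₂} (hs : s ∈ S.nodes) : x.Δ hP₂ s.2 = 0 := by
  rw [SSD.Twist.Δ, Finsupp.mapRange_apply, dv_apply]
  have := x.hγ s hs
  unfold SSD.Twist.γ
  rw [this]
  simp

variable (S)

/-- `Λ^λ(G₁, G₂) ≤ L(G₁) × L(G₂)`. -/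
theorem Lam_le_prod (lam : Place k F₁ × Place k F₂ → k) (G₁ : Divisor k F₁)
    (G₂ : Divisor k F₂) : S.Lam lam G₁ G₂ ≤ (L G₁).prod (L G₂) := by
  intro ψ hψ
  exact ⟨hψ.1, hψ.2.1⟩

theorem finite_Lam (H₁ : FFHyp k F₁) (H₂ : FFHyp k F₂)
    (lam : Place k F₁ × Place k F₂ → k) (G₁ : Divisor k F₁) (G₂ : Divisor k F₂) :
    Module.Finite k (S.Lam lam G₁ G₂) := by
  haveI := H₁.finite G₁
  haveI := H₂.finite G₂
  have hfg : ((L G₁).prod (L G₂)).FG :=
    Submodule.FG.prod (Module.Finite.iff_fg.mp (H₁.finite G₁))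
      (Module.Finite.iff_fg.mp (H₂.finite G₂))
  haveI : Module.Finite k ((L G₁).prod (L G₂)) := Module.Finite.iff_fg.mpr hfg
  exact Submodule.finiteDimensional_of_le (Lam_le_prod S lam G₁ G₂)

end Main

/-- **P3, surjectivity of the twisted reduction** from the leaves `Contain`, `Pivot`,
`LamCount` (and `Linearise`). -/
theorem stmt_TwSurj_of (hC : Stmt_Contain) (hPiv : Stmt_Pivot) (hLC : Stmt_LamCount) :
    Stmt_TwSurj := by
  intro K F k F₁ F₂ _ _ _ _ _ _ _ _ _ S H H₁ H₂ g g₁ g₂ c c₁ c₂ hg hg₁ hg₂ hnum n hn x G hG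
    hd₁ hd₂
  have hn0 : n ≠ 0 := by
    rintro rfl
    exact hn (by simp)
  -- linearisation of the gluing condition
  have hcont := hC K F k F₁ F₂ S H H₁ H₂ n hn x G hG
  obtain ⟨lam, hlam, hlin⟩ := stmt_Linearise k F₁ F₂ H₁ H₂ S.nodes n hn x.γ (γ_ne_zero x)
    (fun s hs => x.hγ s hs) (S.Rsub x.ϑ (x.Dx H.principal + G))
    (fun ψ hψ s hs => (hcont ψ hψ).2.2 s hs)
  refine ⟨lam, hlam, ?_⟩
  set D : Divisor K F := x.Dx H.principal + G with hD
  set G₁ : Divisor k F₁ := S.push₁ G with hG₁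
  set G₂ : Divisor k F₂ := S.push₂ G + x.Δ H₂.principal with hG₂
  have hle : S.Rsub x.ϑ D ≤ S.Lam lam G₁ G₂ := by
    intro ψ hψ
    exact ⟨(hcont ψ hψ).1, (hcont ψ hψ).2.1, fun s hs => hlin ψ hψ s hs⟩
  haveI hfinLam : Module.Finite k (S.Lam lam G₁ G₂) := finite_Lam S H₁ H₂ lam G₁ G₂
  haveI hfinR : Module.Finite k (S.Rsub x.ϑ D) := Submodule.finiteDimensional_of_le hle
  -- the four inequalities
  have h1 : Divisor.degree D + 1 - g ≤ (Module.finrank K (L D) : ℤ) := (hg D).1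
  have hdegD : Divisor.degree D = Divisor.degree G := by
    rw [hD, map_add, degree_Dx hn0 x H.principal, zero_add]
  have h2 : Module.finrank K (L D) ≤ Module.finrank k (S.Rsub x.ϑ D) :=
    hPiv K F k F₁ F₂ S H H₁ H₂ x.ϑ x.hϑ D hfinR
  have h3 : Module.finrank k (S.Rsub x.ϑ D) ≤ Module.finrank k (S.Lam lam G₁ G₂) :=
    Submodule.finrank_mono hle
  have hG₁node : ∀ s ∈ S.nodes, G₁ s.1 = 0 := fun s hs => push₁_node S G hG hs
  have hG₂node : ∀ s ∈ S.nodes, G₂ s.2 = 0 := by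
    intro s hs
    rw [hG₂, Finsupp.add_apply, push₂_node S G hG hs, Δ_node x H₂.principal hs, add_zero]
  have h4 := hLC K F k F₁ F₂ S H₁ H₂ lam hlam G₁ G₂ hG₁node hG₂node
  -- Riemann equality on the two components
  have hdG₂ : Divisor.degree G₂ = Divisor.degree (S.push₂ G) := by
    rw [hG₂, map_add, degree_Δ hn0 x H.principal H₂.principal, add_zero]
  have e1 : (Module.finrank k (L (G₁ - ptsDiv S.br₁)) : ℤ) =
      Divisor.degree G₁ - S.nodes.card + 1 - g₁ := by
    have hdeg : Divisor.degree (G₁ - ptsDiv S.br₁) = Divisor.degree G₁ - S.nodes.card := by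
      rw [map_sub, degree_ptsDiv H₁.deg_one, card_br₁]
    have := (hg₁ (G₁ - ptsDiv S.br₁)).2 (by rw [hdeg]; linarith)
    rw [this, hdeg]
  have e2 : (Module.finrank k (L (G₂ - ptsDiv S.br₂)) : ℤ) =
      Divisor.degree G₂ - S.nodes.card + 1 - g₂ := by
    have hdeg : Divisor.degree (G₂ - ptsDiv S.br₂) = Divisor.degree G₂ - S.nodes.card := by
      rw [map_sub, degree_ptsDiv H₂.deg_one, card_br₂]
    have := (hg₂ (G₂ - ptsDiv S.br₂)).2 (by rw [hdeg, hdG₂]; linarith)
    rw [this, hdeg]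
  have hsum := degree_push_add S H H₁ H₂ G hG
  have h2' : (Module.finrank K (L D) : ℤ) ≤ (Module.finrank k (S.Rsub x.ϑ D) : ℤ) := by
    exact_mod_cast h2
  have h3' : (Module.finrank k (S.Rsub x.ϑ D) : ℤ) ≤
      (Module.finrank k (S.Lam lam G₁ G₂) : ℤ) := by exact_mod_cast h3
  have h4' : (Module.finrank k (S.Lam lam G₁ G₂) : ℤ) ≤
      (Module.finrank k (L (G₁ - ptsDiv S.br₁)) : ℤ) +
        (Module.finrank k (L (G₂ - ptsDiv S.br₂)) : ℤ) + S.nodes.card := by
    exact_mod_cast h4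
  have hnum' : (g : ℤ) + 1 ≤ g₁ + g₂ + S.nodes.card := by exact_mod_cast hnum
  have hfr : (Module.finrank k (S.Lam lam G₁ G₂) : ℤ) =
      Divisor.degree G + 2 - g₁ - g₂ - S.nodes.card := by
    rw [e1, e2, hdG₂] at h4'
    have hG₁' : Divisor.degree G₁ = Divisor.degree (S.push₁ G) := rfl
    rw [hG₁'] at h4'
    linarith
  have heq : Module.finrank k (S.Rsub x.ϑ D) = Module.finrank k (S.Lam lam G₁ G₂) := by
    have : (Module.finrank k (S.Rsub x.ϑ D) : ℤ) = (Module.finrank k (S.Lam lam G₁ G₂) : ℤ) := by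
      linarith
    exact_mod_cast this
  exact ⟨Submodule.eq_of_le_of_finrank_eq hle heq, hfr⟩

end Fermat.Agent.BAD.H41
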