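import Fermat.Agent.BAD.H28_Skel

/-!
# Item 65, package ABS: leaf `Stmt_TwistExists` (helper90)

For `f ∈ V₁` with `red₁ f = 1` and divisor divisible by `n` there is a twist datum: `ϑ ≠ 0` such
that `f / ϑ ^ n` is a Gauss unit for `V₂` whose reduction has neither zero nor pole at the
branches of the nodes on the second component.

Proof: scale `f` to a Gauss unit `a f` for `V₂`; by conservation at the nodes (`DIn`) the order
of `γ₀ = red₂ (a f)` at every branch `s₂` is the sum of the orders of `f` on the fibre of the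
node, hence divisible by `n`; choose `y` on the second component with `ord_{s₂} y =
ord_{s₂} γ₀ / n` (weak approximation), lift it to a Gauss unit `ϑ₁`, and put `ϑ = c ϑ₁` with
`c ^ n = a⁻¹`.
-/

set_option autoImplicit false

noncomputable section

open AlgebraicCurve

namespace Fermat.Agent.BAD.H90

open Fermat.Agent.RED.H17 Fermat.Agent.RED

theorem stmt_TwistExists : Fermat.Agent.BAD.Stmt_TwistExists := by
  classical
  intro K F k F₁ F₂ _ _ _ _ _ _ _ _ _ S H _ _ n hn f hf hrd hdiv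
  have hrd' : S.c₁.rd f = 1 := by rw [S.c₁.rd_of_mem hf]; exact hrd
  have hf0 : f ≠ 0 := by
    rintro rfl
    rw [S.c₁.rd_zero] at hrd'
    exact zero_ne_one hrd'
  -- scale for `V₂`
  obtain ⟨a, ha0, hGU⟩ := S.c₂.exists_isGU_scale hf0
  -- `n ∣ ord_{s₂} γ₀` at the nodes
  have hdvd : ∀ s ∈ S.nodes, (n : ℤ) ∣ s.2.ord (S.c₂.rd (algebraMap K F a * f)) := by
    intro s hs
    have h := S.DIn s hs ⟨f, hf⟩ ⟨algebraMap K F a * f, hGU.1⟩
      (by rw [hrd]; exact one_ne_zero)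
      (by rw [← S.c₂.rd_of_mem hGU.1]; exact hGU.2) ⟨a, rfl⟩ (dv H.principal f)
      (fun P => dv_apply H.principal f P)
    rw [hrd, Place.ord_one, zero_add, ← S.c₂.rd_of_mem hGU.1] at h
    rw [← h, mapDomain_apply_eq_sum]
    refine Finset.dvd_sum fun P _ => ?_
    split_ifs
    · rw [dv_apply]; exact hdiv P
    · exact dvd_zero _
  -- the function on the second component
  obtain ⟨y, hy0, hy⟩ := H51.exists_ord_eq_family S.br₂
    (fun v => v.ord (S.c₂.rd (algebraMap K F a * f)) / (n : ℤ))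
  obtain ⟨ϑ₁, hϑ₁V, hϑ₁⟩ := S.c₂.exists_rd_eq y
  have hϑ₁GU : S.c₂.IsGU ϑ₁ := ⟨hϑ₁V, by rw [hϑ₁]; exact hy0⟩
  -- the constant
  obtain ⟨c, hc⟩ := IsAlgClosed.exists_pow_nat_eq a⁻¹ (Nat.pos_of_ne_zero hn)
  have hc0 : c ≠ 0 := by
    rintro rfl
    rw [zero_pow hn] at hc
    exact inv_ne_zero ha0 hc.symm
  have hϑ0 : algebraMap K F c * ϑ₁ ≠ 0 :=
    mul_ne_zero ((map_ne_zero (algebraMap K F)).mpr hc0) hϑ₁GU.ne_zero
  have hquot : f / (algebraMap K F c * ϑ₁) ^ n = algebraMap K F a * f / ϑ₁ ^ n := by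
    have hca : algebraMap K F c ^ n = (algebraMap K F a)⁻¹ := by
      rw [← map_pow, hc, map_inv₀]
    have ha' : algebraMap K F a ≠ 0 := (map_ne_zero (algebraMap K F)).mpr ha0
    have hϑn : ϑ₁ ^ n ≠ 0 := pow_ne_zero n hϑ₁GU.ne_zero
    rw [mul_pow, hca]
    field_simp
  have hGUq : S.c₂.IsGU (algebraMap K F a * f / ϑ₁ ^ n) := hGU.div (hϑ₁GU.pow n)
  refine ⟨⟨f, algebraMap K F c * ϑ₁, hϑ0, hf, hrd', ?_, hdiv, ?_⟩, rfl⟩
  · rw [hquot]; exact hGUq
  · intro s hs
    rw [hquot, hGU.rd_div (hϑ₁GU.pow n), S.c₂.rd_pow hϑ₁V, hϑ₁,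
      ord_div s.2 hGU.2 (pow_ne_zero n hy0), ord_pow,
      hy s.2 (Finset.mem_image_of_mem Prod.snd hs)]
    have := Int.mul_ediv_cancel' (hdvd s hs)
    omega

end Fermat.Agent.BAD.H90
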