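import Fermat.Agent.BAD.H28_Final
import Fermat.Agent.BAD.H28_Key
import Fermat.Agent.BAD.H01_P5
import Fermat.Agent.BAD.H17_Pivot
import Fermat.Agent.BAD.H17_Contain
import Fermat.Agent.BAD.H41_TwSurj
import Fermat.Agent.BAD.H60_LamCount
import Fermat.Agent.BAD.H60_NodalNS
import Fermat.Agent.BAD.H60_GoodLift
import Fermat.Agent.BAD.H60_Coords
import Fermat.Agent.BAD.H90_TwistExists

/-!
# Item 65, package ABS: assembly of the leaves

`Stmt_TwSurj`, `Stmt_GoodLift`, `Stmt_Coords`, `Stmt_TIss` are proved unconditionally here from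
the leaves of helper17 (Pivot, Contain, Contain0), helper41 (Linearise, TwSurj), helper60
(NS, NodalNS, LamCount, GoodLift, Coords), helper90 (TwistExists), helper1 (TIss from the key
lemma), helper55 (ALG, EVAL), helper28 (PRed port, key lemma, final assembly).
`stmt_ABS_of_moving : Stmt_Moving → Stmt_ABS`.
-/

set_option autoImplicit false

namespace Fermat.Agent.BAD

namespace H28

/-- Surjectivity of the twisted reduction. -/
theorem stmt_TwSurj : Stmt_TwSurj :=
  H41.stmt_TwSurj_of H17.stmt_Contain H17.stmt_Pivot H60.stmt_LamCount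

/-- Good lifts. -/
theorem stmt_GoodLift : Stmt_GoodLift := H60.goodLift_of stmt_TwSurj

/-- Coordinates on the residue discs. -/
theorem stmt_Coords : Stmt_Coords := H60.coords_of stmt_GoodLift

/-- Torsion injectivity in good position. -/
theorem stmt_TIss : Stmt_TIss :=
  H01.stmt_TIss_of H60.stmt_NodalNS stmt_Coords H17.stmt_Contain0 stmt_KeyNodal

/-- Package ABS from the moving lemma. -/
theorem stmt_ABS_of_moving (h : Stmt_Moving) : Stmt_ABS :=
  stmt_ABS_of H90.stmt_TwistExists h stmt_TIss

end H28

end Fermat.Agent.BAD
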