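import Fermat.Agent.BAD.H28_NodeRad

/-!
# Item 65 / row 38 (helper28): D-CORE, abstract form (first-order analysis at the nodes)

`S : SSD K F k F₁ F₂`, `σ` a semilinear automorphism, `θ ∈ K`, `θ ≠ 0`, `|θ| < 1`.

* `PRed.IsFO σ θ u l` : `u ≠ 0`, `(σ u / u - 1) / θ` is integral with reduction `l`
  ("`σ u / u ≡ 1 + l θ`").  Rules: `isFO_of_fixed`, `IsFO.mul`, `IsFO.inv`, `IsFO.div`.
* `SSD.dcore` (**D-CORE**) : let `Ψ = (h - 1) / θ` be integral for both valuations.  Suppose that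
  for every node `s` there is `G_s` with `σ G_s / G_s ≡ 1 + l_i(s) θ` for `V_i` (`l_i(s) ∈ k`),
  such that `h G_s / σ G_s` has no pole on the fibre of `s`, and the same at the good places of
  both components.  Then `rd₁ Ψ = a₁` and `rd₂ Ψ = a₂` are constants and
  `l₁(s) - l₂(s) = a₁ - a₂` at every node `s`.

Plan: `NOTES/plan/L_S44.md` §11 (helper93), step (d) 2.
-/

set_option autoImplicit false
set_option linter.style.haveILetI false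

noncomputable section

open AlgebraicCurve

attribute [local instance] Classical.propDecidable

namespace Fermat.Agent.BAD

open Fermat.Agent.RED.H17 Fermat.Agent.RED

namespace PRed

variable {K F k F' : Type*} [Field K] [Field F] [Algebra K F] [Field k] [Field F']
  [Algebra k F'] (S : PRed K F k F')

/-- First-order variation: `σ u / u = 1 + θ L` with `L` integral of reduction `l`. -/
def IsFO (σ : SemilinearAut K F) (θ : K) (u : F) (l : F') : Prop :=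
  u ≠ 0 ∧ ∃ Λ : F, Λ ∈ S.V ∧ S.rd Λ = l ∧ σ • u = u * (1 + algebraMap K F θ * Λ)

variable {S} {σ : SemilinearAut K F} {θ : K}

theorem IsFO.ne_zero {u : F} {l : F'} (h : S.IsFO σ θ u l) : u ≠ 0 := h.1

theorem isFO_of_fixed {u : F} (hu : u ≠ 0) (h : σ • u = u) : S.IsFO σ θ u 0 :=
  ⟨hu, 0, S.V.zero_mem, S.rd_zero, by rw [mul_zero, add_zero, mul_one, h]⟩

/-- `1 + θ Λ` is a Gauss unit with reduction `1`, for `|θ| < 1`. -/
theorem isGU_one_add (hθ : algebraMap K F θ ∈ S.V) (hθ0 : S.rd (algebraMap K F θ) = 0) {Λ : F}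
    (hΛ : Λ ∈ S.V) :
    S.IsGU (1 + algebraMap K F θ * Λ) ∧ S.rd (1 + algebraMap K F θ * Λ) = 1 := by
  have hm : algebraMap K F θ * Λ ∈ S.V := S.V.mul_mem _ _ hθ hΛ
  have hr : S.rd (1 + algebraMap K F θ * Λ) = 1 := by
    rw [S.rd_add S.V.one_mem hm, S.rd_one, S.rd_mul hθ hΛ, hθ0, zero_mul, add_zero]
  exact ⟨⟨S.V.add_mem _ _ S.V.one_mem hm, by rw [hr]; exact one_ne_zero⟩, hr⟩

theorem IsFO.mul (hθ : algebraMap K F θ ∈ S.V) (hθ0 : S.rd (algebraMap K F θ) = 0) {u v : F}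
    {l l' : F'} (hu : S.IsFO σ θ u l) (hv : S.IsFO σ θ v l') : S.IsFO σ θ (u * v) (l + l') := by
  obtain ⟨hu0, Λ, hΛ, hΛr, hΛe⟩ := hu
  obtain ⟨hv0, Λ', hΛ', hΛ'r, hΛ'e⟩ := hv
  have hm : algebraMap K F θ * (Λ * Λ') ∈ S.V := S.V.mul_mem _ _ hθ (S.V.mul_mem _ _ hΛ hΛ')
  refine ⟨mul_ne_zero hu0 hv0, Λ + Λ' + algebraMap K F θ * (Λ * Λ'),
    S.V.add_mem _ _ (S.V.add_mem _ _ hΛ hΛ') hm, ?_, ?_⟩
  · rw [S.rd_add (S.V.add_mem _ _ hΛ hΛ') hm, S.rd_add hΛ hΛ', hΛr, hΛ'r,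
      S.rd_mul hθ (S.V.mul_mem _ _ hΛ hΛ'), hθ0, zero_mul, add_zero]
  · rw [smul_mul', hΛe, hΛ'e]
    ring

theorem IsFO.inv (hθ : algebraMap K F θ ∈ S.V) (hθ0 : S.rd (algebraMap K F θ) = 0) {u : F}
    {l : F'} (hu : S.IsFO σ θ u l) : S.IsFO σ θ u⁻¹ (-l) := by
  obtain ⟨hu0, Λ, hΛ, hΛr, hΛe⟩ := hu
  obtain ⟨hG, hGr⟩ := isGU_one_add hθ hθ0 hΛ
  have hne : 1 + algebraMap K F θ * Λ ≠ 0 := hG.ne_zero
  have hm : Λ * (1 + algebraMap K F θ * Λ)⁻¹ ∈ S.V := S.V.mul_mem _ _ hΛ hG.inv_mem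
  refine ⟨inv_ne_zero hu0, -(Λ * (1 + algebraMap K F θ * Λ)⁻¹), S.V.neg_mem _ hm, ?_, ?_⟩
  · rw [S.rd_neg hm, S.rd_mul hΛ hG.inv_mem, hG.rd_inv, hGr, inv_one, mul_one, hΛr]
  · rw [smul_inv'', hΛe, mul_inv]
    field_simp
    ring

theorem IsFO.div (hθ : algebraMap K F θ ∈ S.V) (hθ0 : S.rd (algebraMap K F θ) = 0) {u v : F}
    {l l' : F'} (hu : S.IsFO σ θ u l) (hv : S.IsFO σ θ v l') : S.IsFO σ θ (u / v) (l - l') := by
  rw [div_eq_mul_inv, sub_eq_add_neg]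
  exact hu.mul hθ hθ0 (hv.inv hθ hθ0)

/-- The function `h G / σ G`, to first order. -/
theorem IsFO.twist (hθ : algebraMap K F θ ∈ S.V) (hθ0 : S.rd (algebraMap K F θ) = 0)
    (hθne : θ ≠ 0) {G : F} {l : F'} (hG : S.IsFO σ θ G l) {h : F}
    (hΨ : (h - 1) / algebraMap K F θ ∈ S.V) :
    (h * G / (σ • G) - 1) / algebraMap K F θ ∈ S.V ∧
      S.rd ((h * G / (σ • G) - 1) / algebraMap K F θ) =
        S.rd ((h - 1) / algebraMap K F θ) - l := by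
  obtain ⟨hG0, Λ, hΛ, hΛr, hΛe⟩ := hG
  obtain ⟨hU, hUr⟩ := isGU_one_add hθ hθ0 hΛ
  have hne : 1 + algebraMap K F θ * Λ ≠ 0 := hU.ne_zero
  have hθF : algebraMap K F θ ≠ 0 := (map_ne_zero_iff _ (algebraMap K F).injective).mpr hθne
  have heq : (h * G / (σ • G) - 1) / algebraMap K F θ =
      ((h - 1) / algebraMap K F θ - Λ) * (1 + algebraMap K F θ * Λ)⁻¹ := by
    rw [hΛe]
    field_simp
    ring
  have hm : (h - 1) / algebraMap K F θ - Λ ∈ S.V := S.V.sub_mem hΨ hΛ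
  rw [heq]
  refine ⟨S.V.mul_mem _ _ hm hU.inv_mem, ?_⟩
  rw [S.rd_mul hm hU.inv_mem, hU.rd_inv, hUr, inv_one, mul_one, S.rd_sub hΨ hΛ, hΛr]

end PRed

namespace SSD

variable {K F k F₁ F₂ : Type*} [Field K] [Field F] [Algebra K F] [Field k] [Field F₁]
  [Algebra k F₁] [Field F₂] [Algebra k F₂] (S : SSD K F k F₁ F₂)

/-- Regularity of `(h' - 1) / θ` from regularity of `h'`. -/
theorem ord_twist_nonneg {θ : K} {h' : F} {P : Place K F} (hreg : 0 ≤ P.ord h') :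
    0 ≤ P.ord ((h' - 1) / algebraMap K F θ) := by
  have h1 : RegAt P (h' - 1) := (regAt_of_ord_nonneg hreg).sub (regAt_one P)
  have h2 : RegAt P ((h' - 1) / algebraMap K F θ) := by
    rw [div_eq_mul_inv, ← map_inv₀]
    exact h1.mul (regAt_algebraMap P θ⁻¹)
  exact h2.ord_nonneg

/-- **D-CORE.** -/
theorem dcore (hP : HasPrincipalDivisors K F) (H₁ : FFHyp k F₁) (H₂ : FFHyp k F₂)
    (σ : SemilinearAut K F) {θ : K} (hθne : θ ≠ 0) (hθ : S.IsCM θ) {h : F}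
    (hΨ₁ : (h - 1) / algebraMap K F θ ∈ S.c₁.V) (hΨ₂ : (h - 1) / algebraMap K F θ ∈ S.c₂.V)
    (l₁ l₂ : Place k F₁ × Place k F₂ → k)
    (hN : ∀ s ∈ S.nodes, ∃ G : F, S.c₁.IsFO σ θ G (algebraMap k F₁ (l₁ s)) ∧
      S.c₂.IsFO σ θ G (algebraMap k F₂ (l₂ s)) ∧
      ∀ P, S.c₁.r P = some s.1 → 0 ≤ P.ord (h * G / (σ • G)))
    (hR₁ : ∀ Q ∈ S.c₁.good, ∃ (G : F) (l : k), S.c₁.IsFO σ θ G (algebraMap k F₁ l) ∧
      ∀ P, S.c₁.r P = some Q → 0 ≤ P.ord (h * G / (σ • G)))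
    (hR₂ : ∀ Q ∈ S.c₂.good, ∃ (G : F) (l : k), S.c₂.IsFO σ θ G (algebraMap k F₂ l) ∧
      ∀ P, S.c₂.r P = some Q → 0 ≤ P.ord (h * G / (σ • G))) :
    ∃ a₁ a₂ : k, S.c₁.rd ((h - 1) / algebraMap K F θ) = algebraMap k F₁ a₁ ∧
      S.c₂.rd ((h - 1) / algebraMap K F θ) = algebraMap k F₂ a₂ ∧
      ∀ s ∈ S.nodes, l₁ s - l₂ s = a₁ - a₂ := by
  -- the local statement at the nodes
  have hnode : ∀ s ∈ S.nodes, ∃ a : k,
      VanAt s.1 (S.c₁.rd ((h - 1) / algebraMap K F θ) - algebraMap k F₁ (l₁ s + a)) ∧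
      VanAt s.2 (S.c₂.rd ((h - 1) / algebraMap K F θ) - algebraMap k F₂ (l₂ s + a)) := by
    intro s hs
    obtain ⟨G, hG₁, hG₂, hreg⟩ := hN s hs
    obtain ⟨hm₁, hr₁⟩ := hG₁.twist hθ.mem₁ hθ.rd₁ hθne hΨ₁
    obtain ⟨hm₂, hr₂⟩ := hG₂.twist hθ.mem₂ hθ.rd₂ hθne hΨ₂
    obtain ⟨a, ha₁, ha₂⟩ := S.glue s hs _ hm₁ hm₂
      (fun P hPs => ord_twist_nonneg (hreg P hPs))
    rw [← S.c₁.rd_of_mem hm₁, hr₁] at ha₁
    rw [← S.c₂.rd_of_mem hm₂, hr₂] at ha₂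
    refine ⟨a, ?_, ?_⟩
    · rw [map_add, ← sub_sub]
      exact ha₁
    · rw [map_add, ← sub_sub]
      exact ha₂
  -- regularity of the reductions
  have hreg₁ : ∀ Q : Place k F₁, 0 ≤ Q.ord (S.c₁.rd ((h - 1) / algebraMap K F θ)) := by
    intro Q
    by_cases hQ : Q ∈ S.c₁.good
    · obtain ⟨G, l, hG, hreg⟩ := hR₁ Q hQ
      obtain ⟨hm, hr⟩ := hG.twist hθ.mem₁ hθ.rd₁ hθne hΨ₁
      have h1 := S.c₁.regAt_rd hP hm hQ (fun P hPQ => ord_twist_nonneg (hreg P hPQ))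
      rw [hr] at h1
      have h2 := h1.add (regAt_algebraMap Q l)
      rw [sub_add_cancel] at h2
      exact h2.ord_nonneg
    · rw [S.good₁] at hQ
      push Not at hQ
      obtain ⟨s, hs, rfl⟩ := hQ
      obtain ⟨a, ha, -⟩ := hnode s hs
      exact (RegAt.of_vanAt_sub ha).ord_nonneg
  have hreg₂ : ∀ Q : Place k F₂, 0 ≤ Q.ord (S.c₂.rd ((h - 1) / algebraMap K F θ)) := by
    intro Q
    by_cases hQ : Q ∈ S.c₂.good
    · obtain ⟨G, l, hG, hreg⟩ := hR₂ Q hQ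
      obtain ⟨hm, hr⟩ := hG.twist hθ.mem₂ hθ.rd₂ hθne hΨ₂
      have h1 := S.c₂.regAt_rd hP hm hQ (fun P hPQ => ord_twist_nonneg (hreg P hPQ))
      rw [hr] at h1
      have h2 := h1.add (regAt_algebraMap Q l)
      rw [sub_add_cancel] at h2
      exact h2.ord_nonneg
    · rw [S.good₂] at hQ
      push Not at hQ
      obtain ⟨s, hs, rfl⟩ := hQ
      obtain ⟨a, -, ha⟩ := hnode s hs
      exact (RegAt.of_vanAt_sub ha).ord_nonneg
  obtain ⟨a₁, ha₁⟩ := H₁.const_of_regular hreg₁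
  obtain ⟨a₂, ha₂⟩ := H₂.const_of_regular hreg₂
  refine ⟨a₁, a₂, ha₁, ha₂, fun s hs => ?_⟩
  obtain ⟨a, h1, h2⟩ := hnode s hs
  rw [ha₁, ← map_sub] at h1
  rw [ha₂, ← map_sub] at h2
  have e1 := const_eq_zero_of_vanAt h1
  have e2 := const_eq_zero_of_vanAt h2
  linear_combination e2 - e1

end SSD

end Fermat.Agent.BAD
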