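import Fermat.Agent.BAD.H28_Two

/-!
# Item 65, package ABS (helper28), part P7: the final assembly

`stmt_ABS_of : Stmt_TwistExists → Stmt_Moving → Stmt_TIss → Stmt_ABS`.

Given `f` with `red₁ f = 1` and divisor divisible by `n`: a twist datum `x` with `x.f = f`, the
moving lemma gives `h` such that `F_h = f h ^ n` is a unit for both valuations without zero or
pole on the fibres of the nodes; then `g = σ(F_h) / F_h` satisfies the hypotheses of TI-ss-gp, so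
`g = t ^ n` and `σ f / f = (t h / σ h) ^ n`.
-/

set_option autoImplicit false
set_option linter.style.haveILetI false
set_option maxHeartbeats 1000000

noncomputable section

open AlgebraicCurve

attribute [local instance] Classical.propDecidable

namespace Fermat.Agent.BAD

open Fermat.Agent.RED.H17 Fermat.Agent.RED

local notation "L" => riemannRochSpace

namespace H28

/-- **Final assembly of package ABS.** -/
theorem stmt_ABS_of (hTE : Stmt_TwistExists) (hMv : Stmt_Moving) (hTI : Stmt_TIss) :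
    Stmt_ABS := by
  intro K F k F₁ F₂ _ _ _ _ _ _ _ _ _ _ S H H₁ H₂ g g₁ g₂ c c₁ c₂ hR hR₁ hR₂ hnum n hn σ hσ f
    hf hf1 hdiv
  have hn0 : n ≠ 0 := by
    rintro rfl
    exact hn Nat.cast_zero
  obtain ⟨x, rfl⟩ := hTE K F k F₁ F₂ S H H₁ H₂ n hn0 f hf hf1 hdiv
  obtain ⟨h, hh₁, hh₂, hnode⟩ :=
    hMv K F k F₁ F₂ S H H₁ H₂ g g₁ g₂ c c₁ c₂ hR hR₁ hR₂ hnum n hn x
  have hfGU₁ : S.c₁.IsGU x.f := ⟨x.hf₁, by rw [x.hrd₁]; exact one_ne_zero⟩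
  have hf0 : x.f ≠ 0 := hfGU₁.ne_zero
  have hh0 : h ≠ 0 := hh₁.ne_zero
  set Fh : F := x.f * h ^ n with hFh
  have hFh0 : Fh ≠ 0 := mul_ne_zero hf0 (pow_ne_zero _ hh0)
  have hFh₁ : S.c₁.IsGU Fh := hfGU₁.mul (hh₁.pow n)
  have hFh₂ : S.c₂.IsGU Fh := by
    have e : Fh = (x.f / x.ϑ ^ n) * (x.ϑ * h) ^ n := by
      have hϑn : x.ϑ ^ n ≠ 0 := pow_ne_zero _ x.hϑ
      rw [hFh, mul_pow]
      field_simp
    rw [e]
    exact x.hf₂.mul (hh₂.pow n)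
  -- `σ F_h`
  have hσ₁ : S.c₁.IsGU (σ • Fh) ∧ S.c₁.rd (σ • Fh) = S.c₁.rd Fh := by
    have hm := hσ.mem₁ Fh hFh₁.1
    have hr : S.c₁.rd (σ • Fh) = S.c₁.rd Fh := by
      rw [S.c₁.rd_of_mem hm, S.c₁.rd_of_mem hFh₁.1]
      exact hσ.red₁ Fh hFh₁.1 hm
    exact ⟨⟨hm, by rw [hr]; exact hFh₁.2⟩, hr⟩
  have hσ₂ : S.c₂.IsGU (σ • Fh) ∧ S.c₂.rd (σ • Fh) = S.c₂.rd Fh := by
    have hm := hσ.mem₂ Fh hFh₂.1
    have hr : S.c₂.rd (σ • Fh) = S.c₂.rd Fh := by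
      rw [S.c₂.rd_of_mem hm, S.c₂.rd_of_mem hFh₂.1]
      exact hσ.red₂ Fh hFh₂.1 hm
    exact ⟨⟨hm, by rw [hr]; exact hFh₂.2⟩, hr⟩
  set gg : F := (σ • Fh) / Fh with hgg
  have hgg₁ : S.c₁.IsGU gg := hσ₁.1.div hFh₁
  have hgg₂ : S.c₂.IsGU gg := hσ₂.1.div hFh₂
  have hggrd₁ : S.c₁.rd gg = 1 := by
    rw [hσ₁.1.rd_div hFh₁, hσ₁.2, div_self hFh₁.2]
  have hggrd₂ : S.c₂.rd gg = 1 := by
    rw [hσ₂.1.rd_div hFh₂, hσ₂.2, div_self hFh₂.2]
  -- orders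
  have hordσ : ∀ (P : Place K F) (y : F), P.ord (σ • y) = (σ⁻¹ • P).ord y := by
    intro P y
    have := SemilinearAut.ord_smul σ (σ⁻¹ • P) y
    rwa [smul_inv_smul] at this
  have hordF : ∀ P : Place K F, (n : ℤ) ∣ P.ord Fh := by
    intro P
    rw [hFh, P.ord_mul hf0 (pow_ne_zero _ hh0), ord_pow]
    exact dvd_add (x.hdiv P) (dvd_mul_right _ _)
  have hordg : ∀ P : Place K F, P.ord gg = (σ⁻¹ • P).ord Fh - P.ord Fh := by
    intro P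
    rw [hgg, ord_div P hσ₁.1.ne_zero hFh0, hordσ]
  have hdivg : ∀ P : Place K F, (n : ℤ) ∣ P.ord gg := by
    intro P
    rw [hordg]
    exact dvd_sub (hordF _) (hordF _)
  have hnodeσ : ∀ P : Place K F, S.IsNodeP P → S.IsNodeP (σ⁻¹ • P) := by
    rintro P ⟨s, hs, hP⟩
    refine ⟨s, hs, ?_⟩
    have := hσ.r₁ (σ⁻¹ • P)
    rw [smul_inv_smul] at this
    rw [← this, hP]
  have hnodeg : ∀ P : Place K F, S.IsNodeP P → P.ord gg = 0 := by
    intro P hP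
    rw [hordg, hnode P hP, hnode _ (hnodeσ P hP), sub_zero]
  obtain ⟨t, ht⟩ := hTI K F k F₁ F₂ S H H₁ H₂ g g₁ g₂ c c₁ c₂ hR hR₁ hR₂ hnum n hn gg
    hgg₁.1 hgg₂.1 hggrd₁ hggrd₂ hdivg hnodeg
  -- conclusion
  have hσh0 : σ • h ≠ 0 := by
    intro h0
    apply hh0
    have := congrArg (fun y => σ⁻¹ • y) h0
    simpa using this
  have hσFh : σ • Fh = (σ • x.f) * (σ • h) ^ n := by
    rw [hFh, smul_mul', smul_pow']
  refine ⟨t * h / (σ • h), ?_⟩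
  rw [div_pow, mul_pow, ht, hgg, hσFh, hFh]
  field_simp

end H28

end Fermat.Agent.BAD
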