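import Fermat.Agent.BAD.H28_Skel

/-!
# Item 65, package ABS (helper28): GLUE for Frobenius-like automorphisms ((B2') for S35)

`SSD.IsFrobLike τ τ₁ τ₂ Q`: the semilinear automorphism `τ` of `F` preserves the two valuation
rings, induces `τ₁`, `τ₂` on the residue fields, preserves the set of places reducing to nodes,
and `τ_i` raises the values at the branches of the nodes to the `Q`-th power (`τ_i` fixes the
branches and acts on `k` by `a ↦ a ^ Q`; e.g. `τ = φ²`, `φ` a Frobenius at `q`, `Q = q²`: the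
supersingular points are rational over the field with `q²` elements).

`Stmt_GlueFrob`: on the toric part `T = ker red₁ ∩ ker red₂` such a `τ` acts as multiplication
by `Q`: if `red₁ f = 1`, `red₂ (f / c₀ ^ n) = 1` and `n ∣ div f`, then `τ f / f ^ Q` is an `n`-th
power.

Proof (from `Stmt_Moving`, `Stmt_GoodLift`, `Stmt_TIss`): twist datum `ϑ = c₀`; moving lemma:
`F_h = f h ^ n` unit for both valuations, no zero or pole on the node fibres, reductions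
`ψ₁ ^ n`, `ψ₂ ^ n` with `ψ_i` units at the branches (`glue` + `DIn`); `G = τ F_h / F_h ^ Q` has
reductions `u_i ^ n`, `u_i = τ_i ψ_i / ψ_i ^ Q`, and `u₁(s₁) = 1 = u₂(s₂)`; lift `(u₁, u₂)` to
`u` (good lift, no zero on the node fibres); `G / u ^ n` satisfies TI-ss-gp.
-/

set_option autoImplicit false

noncomputable section

open AlgebraicCurve

namespace Fermat.Agent.BAD

open Fermat.Agent.RED.H17 Fermat.Agent.RED

namespace SSD

variable {K F k F₁ F₂ : Type*} [Field K] [Field F] [Algebra K F] [Field k] [Field F₁]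
  [Algebra k F₁] [Field F₂] [Algebra k F₂]

/-- `τ` is Frobenius-like of exponent `Q` for the datum `S`. -/
structure IsFrobLike (S : SSD K F k F₁ F₂) (τ : SemilinearAut K F) (τ₁ : F₁ →+* F₁)
    (τ₂ : F₂ →+* F₂) (Q : ℕ) : Prop where
  mem₁ : ∀ f : F, f ∈ S.c₁.V → τ • f ∈ S.c₁.V
  mem₂ : ∀ f : F, f ∈ S.c₂.V → τ • f ∈ S.c₂.V
  red₁ : ∀ (f : F) (h : f ∈ S.c₁.V) (h' : τ • f ∈ S.c₁.V),
    S.c₁.red ⟨_, h'⟩ = τ₁ (S.c₁.red ⟨f, h⟩)
  red₂ : ∀ (f : F) (h : f ∈ S.c₂.V) (h' : τ • f ∈ S.c₂.V),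
    S.c₂.red ⟨_, h'⟩ = τ₂ (S.c₂.red ⟨f, h⟩)
  node : ∀ P : Place K F, S.IsNodeP P → S.IsNodeP (τ⁻¹ • P)
  val₁ : ∀ s ∈ S.nodes, ∀ (ψ : F₁) (a : k), VanAt s.1 (ψ - algebraMap k F₁ a) →
    VanAt s.1 (τ₁ ψ - algebraMap k F₁ (a ^ Q))
  val₂ : ∀ s ∈ S.nodes, ∀ (ψ : F₂) (a : k), VanAt s.2 (ψ - algebraMap k F₂ a) →
    VanAt s.2 (τ₂ ψ - algebraMap k F₂ (a ^ Q))

end SSD

/-- **GLUE, Frobenius form ((B2') of `NOTES/plan/BAD.md`).** -/
def Stmt_GlueFrob : Prop :=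
  ∀ (K F k F₁ F₂ : Type) [Field K] [Field F] [Algebra K F] [Field k] [Field F₁]
    [Algebra k F₁] [Field F₂] [Algebra k F₂] [IsAlgClosed K] [IsAlgClosed k]
    (S : SSD K F k F₁ F₂) (_ : FFHyp K F) (_ : FFHyp k F₁) (_ : FFHyp k F₂)
    (g g₁ g₂ : ℕ) (c c₁ c₂ : ℤ), IsGenus K F g c → IsGenus k F₁ g₁ c₁ → IsGenus k F₂ g₂ c₂ →
    g + 1 ≤ g₁ + g₂ + S.nodes.card →
    ∀ (n : ℕ), (n : k) ≠ 0 →
    ∀ (τ : SemilinearAut K F) (τ₁ : F₁ →+* F₁) (τ₂ : F₂ →+* F₂) (Q : ℕ),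
      S.IsFrobLike τ τ₁ τ₂ Q →
    ∀ (f : F) (c₀ : K), c₀ ≠ 0 → f ∈ S.c₁.V → S.c₁.rd f = 1 →
      f / algebraMap K F c₀ ^ n ∈ S.c₂.V → S.c₂.rd (f / algebraMap K F c₀ ^ n) = 1 →
      (∀ P : Place K F, (n : ℤ) ∣ P.ord f) →
      ∃ t : F, t ^ n = (τ • f) / f ^ Q

end Fermat.Agent.BAD
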