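import Fermat.Agent.BAD.Glue

/-!
# Item 65 / row 37 (S43, leaf FROB-T), abstract form (helper28): GLUE with a swap

Setting: a semistable Deuring datum `S` (two components, nodes), a Frobenius-like semilinear
automorphism `τ` of exponent `Q` which PERMUTES the nodes, and an automorphism `W` which SWAPS
the two components (`V₁ ↔ V₂`, reductions `ι : F₁ → F₂`, `ι' : F₂ → F₁`, values at the branches
preserved) and permutes the nodes in the same way as `τ` (the Atkin--Lehner involution `w_q` on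
`X₀(Mq)`: the node `(s, φ s)`, `s` supersingular, goes to `(φ s, s) = φ (s, φ s)`).

* `SSD.IsFrobSwap S τ W τ₁ τ₂ ι ι' Q` : the hypotheses on `(τ, W)`.
* `Stmt_GlueFrobW` : on the toric part (the two scaled reductions of the Kummer function `f` are
  `n`-th powers, `n ∣ div f`) one has `τ f · (W f) ^ Q ∈ (F^×)^n`, i.e. `φ = - Q · w` on `T`
  (`ε = -1` in `NOTES/plan/L_S43_BADQ.md`).
* `H28.glueCoreW` : the core (for a unit `F_h` in good position).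
* `H28.glueFrobW_of : Stmt_Moving → Stmt_GoodLift → Stmt_TIss → Stmt_GlueFrobW`.
* `stmt_GlueFrobW : Stmt_GlueFrobW` (unconditional).
* `H28.glueFrobW_two` : the form with two Kummer functions (`f` for `x`, `f'` for `w x`).

Proof.  Moving lemma: `F_h = a₁ f y ^ n` unit for both valuations, no zero or pole on the fibres
of the nodes, reductions `ψ₁ ^ n`, `ψ₂ ^ n`, `ψ_i` units at the branches.  The glue invariant of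
`F_h` at the node `s` is `ζ_s = ψ₁(s₁) / ψ₂(s₂) ∈ μ_n`; `τ F_h` has invariant `ζ_s ^ Q` at `τ s`,
`W F_h` has invariant `ζ_s⁻¹` at `W s = τ s`.  So `U₁ = τ₁ ψ₁ (ι' ψ₂) ^ Q` and
`U₂ = τ₂ ψ₂ (ι ψ₁) ^ Q` have the same values at the two branches of every node; lift `(U₁, U₂)`
to `u` (good lift); `τ F_h (W F_h) ^ Q / u ^ n` satisfies TI-ss-gp.
-/

set_option autoImplicit false
set_option linter.style.haveILetI false
set_option maxHeartbeats 1000000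

noncomputable section

open AlgebraicCurve

attribute [local instance] Classical.propDecidable

namespace Fermat.Agent.BAD

open Fermat.Agent.RED.H17 Fermat.Agent.RED

namespace SSD

variable {K F k F₁ F₂ : Type*} [Field K] [Field F] [Algebra K F] [Field k] [Field F₁]
  [Algebra k F₁] [Field F₂] [Algebra k F₂]

/-- `τ` is Frobenius-like of exponent `Q`, `W` swaps the two components, and both induce the
same permutation of the nodes (for every node `s'` there is a node `s` with `τ s = s' = W s`;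
this is expressed through the values at the branches). -/
structure IsFrobSwap (S : SSD K F k F₁ F₂) (τ W : SemilinearAut K F) (τ₁ : F₁ →+* F₁)
    (τ₂ : F₂ →+* F₂) (ι : F₁ →+* F₂) (ι' : F₂ →+* F₁) (Q : ℕ) : Prop where
  mem₁ : ∀ f : F, f ∈ S.c₁.V → τ • f ∈ S.c₁.V
  mem₂ : ∀ f : F, f ∈ S.c₂.V → τ • f ∈ S.c₂.V
  red₁ : ∀ (f : F) (h : f ∈ S.c₁.V) (h' : τ • f ∈ S.c₁.V),
    S.c₁.red ⟨_, h'⟩ = τ₁ (S.c₁.red ⟨f, h⟩)
  red₂ : ∀ (f : F) (h : f ∈ S.c₂.V) (h' : τ • f ∈ S.c₂.V),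
    S.c₂.red ⟨_, h'⟩ = τ₂ (S.c₂.red ⟨f, h⟩)
  node : ∀ P : Place K F, S.IsNodeP P → S.IsNodeP (τ⁻¹ • P)
  wmem₁ : ∀ f : F, f ∈ S.c₁.V → W • f ∈ S.c₂.V
  wmem₂ : ∀ f : F, f ∈ S.c₂.V → W • f ∈ S.c₁.V
  wred₁ : ∀ (f : F) (h : f ∈ S.c₁.V) (h' : W • f ∈ S.c₂.V),
    S.c₂.red ⟨_, h'⟩ = ι (S.c₁.red ⟨f, h⟩)
  wred₂ : ∀ (f : F) (h : f ∈ S.c₂.V) (h' : W • f ∈ S.c₁.V),
    S.c₁.red ⟨_, h'⟩ = ι' (S.c₂.red ⟨f, h⟩)
  wnode : ∀ P : Place K F, S.IsNodeP P → S.IsNodeP (W⁻¹ • P)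
  val : ∀ s' ∈ S.nodes, ∃ s ∈ S.nodes,
    (∀ (ψ : F₁) (a : k), VanAt s.1 (ψ - algebraMap k F₁ a) →
      VanAt s'.1 (τ₁ ψ - algebraMap k F₁ (a ^ Q))) ∧
    (∀ (ψ : F₂) (a : k), VanAt s.2 (ψ - algebraMap k F₂ a) →
      VanAt s'.2 (τ₂ ψ - algebraMap k F₂ (a ^ Q))) ∧
    (∀ (ψ : F₁) (a : k), VanAt s.1 (ψ - algebraMap k F₁ a) →
      VanAt s'.2 (ι ψ - algebraMap k F₂ a)) ∧
    (∀ (ψ : F₂) (a : k), VanAt s.2 (ψ - algebraMap k F₂ a) →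
      VanAt s'.1 (ι' ψ - algebraMap k F₁ a))

end SSD

/-- **GLUE with a swap (FROB-T, abstract form).**  On the toric part, `τ f · (W f) ^ Q` is an
`n`-th power. -/
def Stmt_GlueFrobW : Prop :=
  ∀ (K F k F₁ F₂ : Type) [Field K] [Field F] [Algebra K F] [Field k] [Field F₁]
    [Algebra k F₁] [Field F₂] [Algebra k F₂] [IsAlgClosed K] [IsAlgClosed k]
    (S : SSD K F k F₁ F₂) (_ : FFHyp K F) (_ : FFHyp k F₁) (_ : FFHyp k F₂)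
    (g g₁ g₂ : ℕ) (c c₁ c₂ : ℤ), IsGenus K F g c → IsGenus k F₁ g₁ c₁ → IsGenus k F₂ g₂ c₂ →
    g + 1 ≤ g₁ + g₂ + S.nodes.card →
    ∀ (n : ℕ), (n : k) ≠ 0 →
    ∀ (τ W : SemilinearAut K F) (τ₁ : F₁ →+* F₁) (τ₂ : F₂ →+* F₂) (ι : F₁ →+* F₂)
      (ι' : F₂ →+* F₁) (Q : ℕ), S.IsFrobSwap τ W τ₁ τ₂ ι ι' Q →
    ∀ (f : F) (a₁ a₂ : K) (h₁ : F₁) (h₂ : F₂), h₁ ≠ 0 → h₂ ≠ 0 →
      algebraMap K F a₁ * f ∈ S.c₁.V → S.c₁.rd (algebraMap K F a₁ * f) = h₁ ^ n →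
      algebraMap K F a₂ * f ∈ S.c₂.V → S.c₂.rd (algebraMap K F a₂ * f) = h₂ ^ n →
      (∀ P : Place K F, (n : ℤ) ∣ P.ord f) →
      ∃ t : F, t ^ n = (τ • f) * (W • f) ^ Q

namespace H28

open Fermat.Agent.BAD.H60

section OneField

variable {k F : Type*} [Field k] [Field F] [Algebra k F]

/-- The value of a product. -/
theorem vanAt_mul_sub {v : Place k F} {x y : F} {a b : k}
    (hx : VanAt v (x - algebraMap k F a)) (hy : VanAt v (y - algebraMap k F b)) :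
    VanAt v (x * y - algebraMap k F (a * b)) := by
  have h1 := (RegAt.of_vanAt_sub hy).mul_vanAt hx
  have h2 := (regAt_algebraMap v a).mul_vanAt hy
  have h3 := h1.add h2
  have e : x * y - algebraMap k F (a * b) =
      y * (x - algebraMap k F a) + algebraMap k F a * (y - algebraMap k F b) := by
    rw [map_mul]
    ring
  rw [e]
  exact h3

/-- An identity in a field. -/
theorem pow_mul_div_aux {E : Type*} [Field E] (A B : E) (n Q : ℕ) (hA : A ≠ 0) (hB : B ≠ 0) :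
    A ^ n * (B ^ n) ^ Q / (A * B ^ Q) ^ n = 1 := by
  have h1 : (A * B ^ Q) ^ n = A ^ n * (B ^ n) ^ Q := by
    rw [mul_pow, ← pow_mul, ← pow_mul, mul_comm Q n]
  rw [h1, div_self (mul_ne_zero (pow_ne_zero _ hA) (pow_ne_zero _ (pow_ne_zero _ hB)))]

end OneField

/-- A semilinear automorphism maps non-zero elements to non-zero elements. -/
theorem smul_ne_zero_of_ne_zero {K F : Type*} [Field K] [Field F] [Algebra K F]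
    (τ : SemilinearAut K F) {y : F} (hy : y ≠ 0) : τ • y ≠ 0 := by
  intro h0
  apply hy
  have := congrArg (fun z => τ⁻¹ • z) h0
  simpa using this

/-- The core of GLUE with a swap: for a unit `F_h` for both valuations, without zero or pole on
the fibres of the nodes, with reductions `ψ₁ ^ n`, `ψ₂ ^ n` and divisor divisible by `n`, the
function `τ F_h · (W F_h) ^ Q` is an `n`-th power. -/
theorem glueCoreW (hGL : Stmt_GoodLift) (hTI : Stmt_TIss)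
    {K F k F₁ F₂ : Type} [Field K] [Field F] [Algebra K F] [Field k] [Field F₁]
    [Algebra k F₁] [Field F₂] [Algebra k F₂] [IsAlgClosed K] [IsAlgClosed k]
    (S : SSD K F k F₁ F₂) (H : FFHyp K F) (H₁ : FFHyp k F₁) (H₂ : FFHyp k F₂)
    (g g₁ g₂ : ℕ) (c c₁ c₂ : ℤ) (hR : IsGenus K F g c) (hR₁ : IsGenus k F₁ g₁ c₁)
    (hR₂ : IsGenus k F₂ g₂ c₂) (hnum : g + 1 ≤ g₁ + g₂ + S.nodes.card)
    (n : ℕ) (hn : (n : k) ≠ 0)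
    (τ W : SemilinearAut K F) (τ₁ : F₁ →+* F₁) (τ₂ : F₂ →+* F₂) (ι : F₁ →+* F₂)
    (ι' : F₂ →+* F₁) (Q : ℕ) (hτ : S.IsFrobSwap τ W τ₁ τ₂ ι ι' Q)
    (Fh : F) (ψ₁ : F₁) (ψ₂ : F₂) (hFh₁ : S.c₁.IsGU Fh) (hFh₂ : S.c₂.IsGU Fh)
    (hrdF₁ : S.c₁.rd Fh = ψ₁ ^ n) (hrdF₂ : S.c₂.rd Fh = ψ₂ ^ n)
    (hordF : ∀ P : Place K F, (n : ℤ) ∣ P.ord Fh)
    (hnode : ∀ P : Place K F, S.IsNodeP P → P.ord Fh = 0) :
    ∃ t : F, t ^ n = (τ • Fh) * (W • Fh) ^ Q := by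
  have hn0 : n ≠ 0 := by
    rintro rfl
    exact hn Nat.cast_zero
  have hFh0 : Fh ≠ 0 := hFh₁.ne_zero
  have hψ₁0 : ψ₁ ≠ 0 := by
    rintro rfl
    apply hFh₁.2
    rw [hrdF₁, zero_pow hn0]
  have hψ₂0 : ψ₂ ≠ 0 := by
    rintro rfl
    apply hFh₂.2
    rw [hrdF₂, zero_pow hn0]
  have hordψ : ∀ s ∈ S.nodes, s.1.ord ψ₁ = 0 ∧ s.2.ord ψ₂ = 0 := by
    intro s hs
    obtain ⟨h1, h2⟩ := ord_rd_eq_zero_of_node S H.principal hFh₁ hFh₂ hnode hs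
    rw [hrdF₁, ord_pow] at h1
    rw [hrdF₂, ord_pow] at h2
    have hnZ : (n : ℤ) ≠ 0 := by exact_mod_cast hn0
    exact ⟨(mul_eq_zero.mp h1).resolve_left hnZ, (mul_eq_zero.mp h2).resolve_left hnZ⟩
  -- the functions `U₁`, `U₂`
  set U₁ : F₁ := τ₁ ψ₁ * ι' ψ₂ ^ Q with hU₁
  set U₂ : F₂ := τ₂ ψ₂ * ι ψ₁ ^ Q with hU₂
  have hτψ₁0 : τ₁ ψ₁ ≠ 0 := (map_ne_zero τ₁).mpr hψ₁0
  have hτψ₂0 : τ₂ ψ₂ ≠ 0 := (map_ne_zero τ₂).mpr hψ₂0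
  have hιψ₁0 : ι ψ₁ ≠ 0 := (map_ne_zero ι).mpr hψ₁0
  have hιψ₂0 : ι' ψ₂ ≠ 0 := (map_ne_zero ι').mpr hψ₂0
  have hU₁0 : U₁ ≠ 0 := mul_ne_zero hτψ₁0 (pow_ne_zero _ hιψ₂0)
  have hU₂0 : U₂ ≠ 0 := mul_ne_zero hτψ₂0 (pow_ne_zero _ hιψ₁0)
  have hval : ∀ s' ∈ S.nodes, ∃ a : k, a ≠ 0 ∧ VanAt s'.1 (U₁ - algebraMap k F₁ a) ∧
      VanAt s'.2 (U₂ - algebraMap k F₂ a) := by
    intro s' hs'
    obtain ⟨s, hs, hv₁, hv₂, hw₁, hw₂⟩ := hτ.val s' hs'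
    obtain ⟨b₁, hb₁0, hb₁⟩ := exists_value_ne_zero (H₁.deg_one s.1) hψ₁0 (hordψ s hs).1
    obtain ⟨b₂, hb₂0, hb₂⟩ := exists_value_ne_zero (H₂.deg_one s.2) hψ₂0 (hordψ s hs).2
    refine ⟨b₁ ^ Q * b₂ ^ Q, mul_ne_zero (pow_ne_zero _ hb₁0) (pow_ne_zero _ hb₂0), ?_, ?_⟩
    · exact vanAt_mul_sub (hv₁ ψ₁ b₁ hb₁) (vanAt_pow_sub (hw₂ ψ₂ b₂ hb₂) Q)
    · have := vanAt_mul_sub (hv₂ ψ₂ b₂ hb₂) (vanAt_pow_sub (hw₁ ψ₁ b₁ hb₁) Q)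
      rwa [mul_comm (b₂ ^ Q) (b₁ ^ Q)] at this
  -- the lift `u`
  obtain ⟨u, hu1, hu2, hrdu₁, hrdu₂, -, -, hureg⟩ := hGL K F k F₁ F₂ S H H₁ H₂ g g₁ g₂ c c₁ c₂
    hR hR₁ hR₂ hnum U₁ U₂ ∅ ∅ (fun Q hQ => absurd hQ (Finset.notMem_empty Q))
    (fun Q hQ => absurd hQ (Finset.notMem_empty Q))
    (fun s hs => by
      obtain ⟨a, -, ha₁, ha₂⟩ := hval s hs
      exact ⟨a, ha₁, ha₂⟩)
  have huGU₁ : S.c₁.IsGU u := ⟨hu1, by rw [hrdu₁]; exact hU₁0⟩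
  have huGU₂ : S.c₂.IsGU u := ⟨hu2, by rw [hrdu₂]; exact hU₂0⟩
  have hu0 : u ≠ 0 := huGU₁.ne_zero
  have hunode : ∀ P, S.IsNodeP P → P.ord u = 0 :=
    ord_eq_zero_of_isNodeP S H.principal huGU₁ huGU₂ hureg
      (fun s hs => by
        obtain ⟨a, ha0, ha₁, -⟩ := hval s hs
        rw [hrdu₁]
        exact (ord_eq_zero_of_vanAt_sub ha0 ha₁).2)
      (fun s hs => by
        obtain ⟨a, ha0, -, ha₂⟩ := hval s hs
        rw [hrdu₂]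
        exact (ord_eq_zero_of_vanAt_sub ha0 ha₂).2)
  -- `τ F_h`
  have hτ₁ : S.c₁.IsGU (τ • Fh) ∧ S.c₁.rd (τ • Fh) = τ₁ ψ₁ ^ n := by
    have hm := hτ.mem₁ Fh hFh₁.1
    have hr : S.c₁.rd (τ • Fh) = τ₁ ψ₁ ^ n := by
      rw [S.c₁.rd_of_mem hm, hτ.red₁ Fh hFh₁.1 hm, ← S.c₁.rd_of_mem hFh₁.1, hrdF₁, map_pow]
    exact ⟨⟨hm, by rw [hr]; exact pow_ne_zero _ hτψ₁0⟩, hr⟩
  have hτ₂ : S.c₂.IsGU (τ • Fh) ∧ S.c₂.rd (τ • Fh) = τ₂ ψ₂ ^ n := by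
    have hm := hτ.mem₂ Fh hFh₂.1
    have hr : S.c₂.rd (τ • Fh) = τ₂ ψ₂ ^ n := by
      rw [S.c₂.rd_of_mem hm, hτ.red₂ Fh hFh₂.1 hm, ← S.c₂.rd_of_mem hFh₂.1, hrdF₂, map_pow]
    exact ⟨⟨hm, by rw [hr]; exact pow_ne_zero _ hτψ₂0⟩, hr⟩
  -- `W F_h`
  have hW₁ : S.c₁.IsGU (W • Fh) ∧ S.c₁.rd (W • Fh) = ι' ψ₂ ^ n := by
    have hm := hτ.wmem₂ Fh hFh₂.1
    have hr : S.c₁.rd (W • Fh) = ι' ψ₂ ^ n := by
      rw [S.c₁.rd_of_mem hm, hτ.wred₂ Fh hFh₂.1 hm, ← S.c₂.rd_of_mem hFh₂.1, hrdF₂, map_pow]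
    exact ⟨⟨hm, by rw [hr]; exact pow_ne_zero _ hιψ₂0⟩, hr⟩
  have hW₂ : S.c₂.IsGU (W • Fh) ∧ S.c₂.rd (W • Fh) = ι ψ₁ ^ n := by
    have hm := hτ.wmem₁ Fh hFh₁.1
    have hr : S.c₂.rd (W • Fh) = ι ψ₁ ^ n := by
      rw [S.c₂.rd_of_mem hm, hτ.wred₁ Fh hFh₁.1 hm, ← S.c₁.rd_of_mem hFh₁.1, hrdF₁, map_pow]
    exact ⟨⟨hm, by rw [hr]; exact pow_ne_zero _ hιψ₁0⟩, hr⟩
  -- the function `gg = τ F_h (W F_h) ^ Q / u ^ n`
  set gg : F := (τ • Fh) * (W • Fh) ^ Q / u ^ n with hgg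
  have hnum₁ : S.c₁.IsGU ((τ • Fh) * (W • Fh) ^ Q) := hτ₁.1.mul (hW₁.1.pow Q)
  have hnum₂ : S.c₂.IsGU ((τ • Fh) * (W • Fh) ^ Q) := hτ₂.1.mul (hW₂.1.pow Q)
  have hgg₁ : S.c₁.IsGU gg := hnum₁.div (huGU₁.pow n)
  have hgg₂ : S.c₂.IsGU gg := hnum₂.div (huGU₂.pow n)
  have hggrd₁ : S.c₁.rd gg = 1 := by
    rw [hnum₁.rd_div (huGU₁.pow n), S.c₁.rd_mul hτ₁.1.1 (hW₁.1.pow Q).1, hτ₁.2,
      S.c₁.rd_pow hW₁.1.1, hW₁.2, S.c₁.rd_pow hu1, hrdu₁, hU₁]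
    exact pow_mul_div_aux _ _ n Q hτψ₁0 hιψ₂0
  have hggrd₂ : S.c₂.rd gg = 1 := by
    rw [hnum₂.rd_div (huGU₂.pow n), S.c₂.rd_mul hτ₂.1.1 (hW₂.1.pow Q).1, hτ₂.2,
      S.c₂.rd_pow hW₂.1.1, hW₂.2, S.c₂.rd_pow hu2, hrdu₂, hU₂]
    exact pow_mul_div_aux _ _ n Q hτψ₂0 hιψ₁0
  -- orders
  have hordτ : ∀ (σ : SemilinearAut K F) (P : Place K F) (y : F),
      P.ord (σ • y) = (σ⁻¹ • P).ord y := by
    intro σ P y
    have := SemilinearAut.ord_smul σ (σ⁻¹ • P) y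
    rwa [smul_inv_smul] at this
  have hτF0 : τ • Fh ≠ 0 := hτ₁.1.ne_zero
  have hWF0 : W • Fh ≠ 0 := hW₁.1.ne_zero
  have hordg : ∀ P : Place K F,
      P.ord gg = (τ⁻¹ • P).ord Fh + Q * (W⁻¹ • P).ord Fh - n * P.ord u := by
    intro P
    rw [hgg, ord_div P (mul_ne_zero hτF0 (pow_ne_zero _ hWF0)) (pow_ne_zero _ hu0),
      P.ord_mul hτF0 (pow_ne_zero _ hWF0), ord_pow, ord_pow, hordτ, hordτ]
  have hdivg : ∀ P : Place K F, (n : ℤ) ∣ P.ord gg := by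
    intro P
    rw [hordg]
    exact dvd_sub (dvd_add (hordF _) (dvd_mul_of_dvd_right (hordF _) _)) (dvd_mul_right _ _)
  have hnodeg : ∀ P : Place K F, S.IsNodeP P → P.ord gg = 0 := by
    intro P hP
    rw [hordg, hnode _ (hτ.node P hP), hnode _ (hτ.wnode P hP), hunode P hP]
    ring
  obtain ⟨t, ht⟩ := hTI K F k F₁ F₂ S H H₁ H₂ g g₁ g₂ c c₁ c₂ hR hR₁ hR₂ hnum n hn gg
    hgg₁.1 hgg₂.1 hggrd₁ hggrd₂ hdivg hnodeg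
  refine ⟨t * u, ?_⟩
  rw [mul_pow, ht, hgg]
  have h2 : u ^ n ≠ 0 := pow_ne_zero _ hu0
  field_simp

/-- **GLUE with a swap**, from the moving lemma, good lifts and TI-ss-gp. -/
theorem glueFrobW_of (hMv : Stmt_Moving) (hGL : Stmt_GoodLift) (hTI : Stmt_TIss) :
    Stmt_GlueFrobW := by
  intro K F k F₁ F₂ _ _ _ _ _ _ _ _ _ _ S H H₁ H₂ g g₁ g₂ c c₁ c₂ hR hR₁ hR₂ hnum n hn τ W τ₁ τ₂
    ι ι' Q hτ f a₁ a₂ h₁ h₂ hh₁ hh₂ hm₁ hr₁ hm₂ hr₂ hdiv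
  have hn0 : n ≠ 0 := by
    rintro rfl
    exact hn Nat.cast_zero
  have hnpos : 0 < n := Nat.pos_of_ne_zero hn0
  have hGU₁ : S.c₁.IsGU (algebraMap K F a₁ * f) := ⟨hm₁, by rw [hr₁]; exact pow_ne_zero _ hh₁⟩
  have hGU₂ : S.c₂.IsGU (algebraMap K F a₂ * f) := ⟨hm₂, by rw [hr₂]; exact pow_ne_zero _ hh₂⟩
  have hf0 : f ≠ 0 := right_ne_zero_of_mul hGU₁.ne_zero
  have hA₁ : algebraMap K F a₁ ≠ 0 := left_ne_zero_of_mul hGU₁.ne_zero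
  have hA₂ : algebraMap K F a₂ ≠ 0 := left_ne_zero_of_mul hGU₂.ne_zero
  have ha₁ : a₁ ≠ 0 := fun h0 => hA₁ (by rw [h0, map_zero])
  have ha₂ : a₂ ≠ 0 := fun h0 => hA₂ (by rw [h0, map_zero])
  -- lifts of `h₁`, `h₂`
  obtain ⟨X₁, hX₁m, hX₁r⟩ := S.c₁.exists_rd_eq h₁
  obtain ⟨X₂, hX₂m, hX₂r⟩ := S.c₂.exists_rd_eq h₂
  have hX₁ : S.c₁.IsGU X₁ := ⟨hX₁m, by rw [hX₁r]; exact hh₁⟩
  have hX₂ : S.c₂.IsGU X₂ := ⟨hX₂m, by rw [hX₂r]; exact hh₂⟩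
  have hX₁0 : X₁ ≠ 0 := hX₁.ne_zero
  have hX₂0 : X₂ ≠ 0 := hX₂.ne_zero
  obtain ⟨e, he⟩ := IsAlgClosed.exists_pow_nat_eq (a₁ / a₂) hnpos
  have he0 : e ≠ 0 := by
    rintro rfl
    rw [zero_pow hn0] at he
    exact div_ne_zero ha₁ ha₂ he.symm
  have hE0 : algebraMap K F e ≠ 0 := fun h0 => he0 ((map_eq_zero (algebraMap K F)).mp h0)
  have hEn : algebraMap K F e ^ n = algebraMap K F a₁ / algebraMap K F a₂ := by
    rw [← map_pow, he, map_div₀]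
  -- the normalised function and the twist
  set f' : F := algebraMap K F a₁ * f / X₁ ^ n with hf'
  set ϑ : F := algebraMap K F e * X₂ / X₁ with hϑ
  have hϑ0 : ϑ ≠ 0 := div_ne_zero (mul_ne_zero hE0 hX₂0) hX₁0
  have hf'GU : S.c₁.IsGU f' := hGU₁.div (hX₁.pow n)
  have hf'rd : S.c₁.rd f' = 1 := by
    rw [hf', hGU₁.rd_div (hX₁.pow n), hr₁, S.c₁.rd_pow hX₁m, hX₁r,
      div_self (pow_ne_zero _ hh₁)]
  have key : f' / ϑ ^ n = algebraMap K F a₂ * f / X₂ ^ n := by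
    rw [hf', hϑ, div_pow, mul_pow, hEn]
    have h1 : X₁ ^ n ≠ 0 := pow_ne_zero _ hX₁0
    have h2 : X₂ ^ n ≠ 0 := pow_ne_zero _ hX₂0
    field_simp
  have hf'₂ : S.c₂.IsGU (f' / ϑ ^ n) := by
    rw [key]
    exact hGU₂.div (hX₂.pow n)
  have hf'₂rd : S.c₂.rd (f' / ϑ ^ n) = 1 := by
    rw [key, hGU₂.rd_div (hX₂.pow n), hr₂, S.c₂.rd_pow hX₂m, hX₂r,
      div_self (pow_ne_zero _ hh₂)]
  have hf'0 : f' ≠ 0 := hf'GU.ne_zero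
  have hdiv' : ∀ P : Place K F, (n : ℤ) ∣ P.ord f' := by
    intro P
    rw [hf', ord_div P (mul_ne_zero hA₁ hf0) (pow_ne_zero _ hX₁0), P.ord_mul hA₁ hf0,
      ord_algebraMap, zero_add, ord_pow]
    exact dvd_sub (hdiv P) (dvd_mul_right _ _)
  let x : S.Twist n :=
    { f := f'
      ϑ := ϑ
      hϑ := hϑ0
      hf₁ := hf'GU.1
      hrd₁ := hf'rd
      hf₂ := hf'₂
      hdiv := hdiv'
      hγ := fun s _ => by rw [hf'₂rd, Place.ord_one] }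
  obtain ⟨h, hhG₁, hhG₂, hnode⟩ :=
    hMv K F k F₁ F₂ S H H₁ H₂ g g₁ g₂ c c₁ c₂ hR hR₁ hR₂ hnum n hn x
  change S.c₂.IsGU (ϑ * h) at hhG₂
  change ∀ P : Place K F, S.IsNodeP P → P.ord (f' * h ^ n) = 0 at hnode
  have hh0 : h ≠ 0 := hhG₁.ne_zero
  set Fh : F := f' * h ^ n with hFh
  have hFh₁ : S.c₁.IsGU Fh := hf'GU.mul (hhG₁.pow n)
  have eFh : Fh = (f' / ϑ ^ n) * (ϑ * h) ^ n := by
    have hϑn : ϑ ^ n ≠ 0 := pow_ne_zero _ hϑ0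
    rw [hFh, mul_pow]
    field_simp
  have hFh₂ : S.c₂.IsGU Fh := by
    rw [eFh]
    exact hf'₂.mul (hhG₂.pow n)
  have hrdF₁ : S.c₁.rd Fh = S.c₁.rd h ^ n := by
    rw [hFh, S.c₁.rd_mul hf'GU.1 (hhG₁.pow n).1, hf'rd, one_mul, S.c₁.rd_pow hhG₁.1]
  have hrdF₂ : S.c₂.rd Fh = S.c₂.rd (ϑ * h) ^ n := by
    rw [eFh, S.c₂.rd_mul hf'₂.1 (hhG₂.pow n).1, hf'₂rd, one_mul, S.c₂.rd_pow hhG₂.1]
  have hordF : ∀ P : Place K F, (n : ℤ) ∣ P.ord Fh := by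
    intro P
    rw [hFh, P.ord_mul hf'0 (pow_ne_zero _ hh0), ord_pow]
    exact dvd_add (hdiv' P) (dvd_mul_right _ _)
  obtain ⟨t, ht⟩ := glueCoreW hGL hTI S H H₁ H₂ g g₁ g₂ c c₁ c₂ hR hR₁ hR₂ hnum n hn τ W τ₁ τ₂
    ι ι' Q hτ Fh (S.c₁.rd h) (S.c₂.rd (ϑ * h)) hFh₁ hFh₂ hrdF₁ hrdF₂ hordF hnode
  -- conclusion
  set y : F := h / X₁ with hy
  have hy0 : y ≠ 0 := div_ne_zero hh0 hX₁0
  have hFy : Fh = algebraMap K F a₁ * f * y ^ n := by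
    rw [hFh, hf', hy, div_pow]
    have h1 : X₁ ^ n ≠ 0 := pow_ne_zero _ hX₁0
    field_simp
  have hτy0 : τ • y ≠ 0 := smul_ne_zero_of_ne_zero τ hy0
  have hWy0 : W • y ≠ 0 := smul_ne_zero_of_ne_zero W hy0
  set b : K := SemilinearAut.baseAut τ a₁ with hb
  set b' : K := SemilinearAut.baseAut W a₁ with hb'
  have hb0 : b ≠ 0 := by
    rw [hb]
    exact (map_ne_zero _).mpr ha₁
  have hb'0 : b' ≠ 0 := by
    rw [hb']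
    exact (map_ne_zero _).mpr ha₁
  have hB0 : algebraMap K F b ≠ 0 := fun h0 => hb0 ((map_eq_zero (algebraMap K F)).mp h0)
  have hB'0 : algebraMap K F b' ≠ 0 := fun h0 => hb'0 ((map_eq_zero (algebraMap K F)).mp h0)
  have hτF : τ • Fh = algebraMap K F b * (τ • f) * (τ • y) ^ n := by
    rw [hFy, smul_mul', smul_mul', smul_pow', SemilinearAut.smul_algebraMap]
  have hWF : W • Fh = algebraMap K F b' * (W • f) * (W • y) ^ n := by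
    rw [hFy, smul_mul', smul_mul', smul_pow', SemilinearAut.smul_algebraMap]
  obtain ⟨κ, hκ⟩ := IsAlgClosed.exists_pow_nat_eq (b * b' ^ Q) hnpos
  have hκ0 : κ ≠ 0 := by
    rintro rfl
    rw [zero_pow hn0] at hκ
    exact mul_ne_zero hb0 (pow_ne_zero _ hb'0) hκ.symm
  have hK0 : algebraMap K F κ ≠ 0 := fun h0 => hκ0 ((map_eq_zero (algebraMap K F)).mp h0)
  have hKn : algebraMap K F κ ^ n = algebraMap K F b * algebraMap K F b' ^ Q := by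
    rw [← map_pow, hκ, map_mul, map_pow]
  refine ⟨t / (algebraMap K F κ * (τ • y) * (W • y) ^ Q), ?_⟩
  rw [div_pow, mul_pow, mul_pow, ht, hKn, hτF, hWF]
  have h3 : (τ • y) ^ n ≠ 0 := pow_ne_zero _ hτy0
  have h4 : (W • y) ^ Q ≠ 0 := pow_ne_zero _ hWy0
  field_simp
  ring

end H28

/-- **GLUE with a swap (FROB-T, abstract form), unconditional.** -/
theorem stmt_GlueFrobW : Stmt_GlueFrobW :=
  H28.glueFrobW_of stmt_Moving H28.stmt_GoodLift H28.stmt_TIss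

namespace H28

/-- **GLUE with a swap, form with two Kummer functions.**  `f` is a Kummer function of
`x ∈ K1` (`red₁ f = 1`), `f'` is a Kummer function of a class `x' ∈ K1` with `x = w x'`
(`red₁ f' = 1`), so that `f = c θ ^ n W f'`.  Then `τ f · (W f) ^ Q` is an `n`-th power. -/
theorem glueFrobW_two
    {K F k F₁ F₂ : Type} [Field K] [Field F] [Algebra K F] [Field k] [Field F₁]
    [Algebra k F₁] [Field F₂] [Algebra k F₂] [IsAlgClosed K] [IsAlgClosed k]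
    (S : SSD K F k F₁ F₂) (H : FFHyp K F) (H₁ : FFHyp k F₁) (H₂ : FFHyp k F₂)
    (g g₁ g₂ : ℕ) (c c₁ c₂ : ℤ) (hR : IsGenus K F g c) (hR₁ : IsGenus k F₁ g₁ c₁)
    (hR₂ : IsGenus k F₂ g₂ c₂) (hnum : g + 1 ≤ g₁ + g₂ + S.nodes.card)
    (n : ℕ) (hn : (n : k) ≠ 0)
    (τ W : SemilinearAut K F) (τ₁ : F₁ →+* F₁) (τ₂ : F₂ →+* F₂) (ι : F₁ →+* F₂)
    (ι' : F₂ →+* F₁) (Q : ℕ) (hτ : S.IsFrobSwap τ W τ₁ τ₂ ι ι' Q)
    (f f' θ : F) (c₀ : K) (hc₀ : c₀ ≠ 0) (hθ : θ ≠ 0)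
    (hf : f ∈ S.c₁.V) (hf1 : S.c₁.rd f = 1) (hf' : f' ∈ S.c₁.V) (hf'1 : S.c₁.rd f' = 1)
    (hrel : f = algebraMap K F c₀ * θ ^ n * (W • f'))
    (hdiv : ∀ P : Place K F, (n : ℤ) ∣ P.ord f) :
    ∃ t : F, t ^ n = (τ • f) * (W • f) ^ Q := by
  have hC0 : algebraMap K F c₀ ≠ 0 := fun h0 => hc₀ ((map_eq_zero (algebraMap K F)).mp h0)
  obtain ⟨e, he0, hem, her⟩ := S.c₂.exists_scale θ hθ
  have hE0 : algebraMap K F e ≠ 0 := fun h0 => he0 ((map_eq_zero (algebraMap K F)).mp h0)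
  have hGθ : S.c₂.IsGU (algebraMap K F e * θ) := ⟨hem, by rw [S.c₂.rd_of_mem hem]; exact her⟩
  have hWm : W • f' ∈ S.c₂.V := hτ.wmem₁ f' hf'
  have hWr : S.c₂.rd (W • f') = 1 := by
    rw [S.c₂.rd_of_mem hWm, hτ.wred₁ f' hf' hWm, ← S.c₁.rd_of_mem hf', hf'1, map_one]
  have hGW : S.c₂.IsGU (W • f') := ⟨hWm, by rw [hWr]; exact one_ne_zero⟩
  have e2 : algebraMap K F (e ^ n / c₀) * f = (algebraMap K F e * θ) ^ n * (W • f') := by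
    rw [hrel, map_div₀, map_pow, mul_pow]
    field_simp
  have hG2 : S.c₂.IsGU ((algebraMap K F e * θ) ^ n * (W • f')) := (hGθ.pow n).mul hGW
  refine stmt_GlueFrobW K F k F₁ F₂ S H H₁ H₂ g g₁ g₂ c c₁ c₂ hR hR₁ hR₂ hnum n hn τ W τ₁ τ₂ ι ι'
    Q hτ f 1 (e ^ n / c₀) 1 (S.c₂.rd (algebraMap K F e * θ)) one_ne_zero hGθ.2 ?_ ?_ ?_ ?_ hdiv
  · rw [map_one, one_mul]
    exact hf
  · rw [map_one, one_mul, hf1, one_pow]
  · rw [e2]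
    exact hG2.1
  · rw [e2, S.c₂.rd_mul (hGθ.pow n).1 hWm, hWr, mul_one, S.c₂.rd_pow hGθ.1]

end H28

end Fermat.Agent.BAD
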