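import Fermat.Agent.BAD.H28_PRed

/-!
# Item 65, package ABS (helper28), part P5: generic one-valuation steps of the key lemma

Port of the middle of helper17's `RedSetup.key` (`RED/H17_Key.lean`) to `PRed`, with an arbitrary
finite index set for the coordinates:

* `PRed.key_ord_gen`: the orders of `f / ∏ h_i ^ m` on the disc of `Q`;
* `PRed.cong_formula`: the first order congruence
  `red (c (f - 1)) = red (c (f₂ - 1)) - m ∑ b_i / red (s_i)`.
-/

set_option autoImplicit false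
set_option linter.style.haveILetI false
set_option maxHeartbeats 1000000

noncomputable section

open AlgebraicCurve

attribute [local instance] Classical.propDecidable

namespace Fermat.Agent.BAD

open Fermat.Agent.RED.H17 Fermat.Agent.RED

local notation "L" => riemannRochSpace

namespace PRed

variable {K F k F' : Type*} [Field K] [Field F] [Algebra K F] [Field k] [Field F']
  [Algebra k F'] (S : PRed K F k F')

variable {S} in
/-- A unit minus a constant of the maximal ideal is a unit with the same reduction. -/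
theorem IsGU.sub_const {s : F} (h : S.IsGU s) {a : K} (ha : algebraMap K F a ∈ S.V)
    (ha0 : S.rd (algebraMap K F a) = 0) :
    S.IsGU (s - algebraMap K F a) ∧ S.rd (s - algebraMap K F a) = S.rd s := by
  have hrd : S.rd (s - algebraMap K F a) = S.rd s := by
    rw [S.rd_sub h.1 ha, ha0, sub_zero]
  exact ⟨⟨S.V.sub_mem h.1 ha, by rw [hrd]; exact h.2⟩, hrd⟩

/-- The orders of `f / ∏ h_i ^ m` on the disc of `Q`, where `h_i = (s_i - a_i) / s_i`. -/
theorem key_ord_gen (hP : HasPrincipalDivisors K F) {ι : Type*} (A : Finset ι) (s : ι → F)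
    (a : ι → K) (hs : ∀ i ∈ A, S.IsGU (s i))
    (ha : ∀ i ∈ A, algebraMap K F (a i) ∈ S.V ∧ S.rd (algebraMap K F (a i)) = 0)
    {Q : Place k F'} (hQg : Q ∈ S.good) {i₀ : ι} (hi₀ : i₀ ∈ A)
    (hreg : ∀ i ∈ A, i ≠ i₀ → ∀ P, S.r P = some Q → 0 ≤ P.ord (s i))
    (h0 : ∀ i ∈ A, i ≠ i₀ → Q.ord (S.rd (s i)) = 0)
    (m : ℕ) (f : F) (hf : f ≠ 0)
    (hord : ∀ P, S.r P = some Q →
      P.ord f = m * (P.ord (s i₀ - algebraMap K F (a i₀)) - P.ord (s i₀)))
    {P : Place K F} (hPQ : S.r P = some Q) :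
    P.ord (f / (∏ i ∈ A, (s i - algebraMap K F (a i)) / s i) ^ m) = 0 := by
  have hsub : ∀ i ∈ A, S.IsGU (s i - algebraMap K F (a i)) := fun i hi =>
    ((hs i hi).sub_const (ha i hi).1 (ha i hi).2).1
  have hrdsub : ∀ i ∈ A, S.rd (s i - algebraMap K F (a i)) = S.rd (s i) := fun i hi =>
    ((hs i hi).sub_const (ha i hi).1 (ha i hi).2).2
  have hhne : ∀ i ∈ A, (s i - algebraMap K F (a i)) / s i ≠ 0 := fun i hi =>
    div_ne_zero (hsub i hi).ne_zero (hs i hi).ne_zero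
  have h1 : ∀ i ∈ A, i ≠ i₀ → P.ord ((s i - algebraMap K F (a i)) / s i) = 0 := by
    intro i hi hne
    have hreg1 := hreg i hi hne
    have e0 := h0 i hi hne
    have e1 : P.ord (s i) = 0 :=
      S.ord_eq_zero_of_ord_rd_eq_zero hP (hs i hi) Q hQg hreg1 e0 hPQ
    have hreg2 : ∀ P', S.r P' = some Q → 0 ≤ P'.ord (s i - algebraMap K F (a i)) :=
      fun P' hP' =>
        ((regAt_of_ord_nonneg (hreg1 P' hP')).sub (regAt_algebraMap P' _)).ord_nonneg
    have e2 : P.ord (s i - algebraMap K F (a i)) = 0 :=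
      S.ord_eq_zero_of_ord_rd_eq_zero hP (hsub i hi) Q hQg hreg2
        (by rw [hrdsub i hi]; exact e0) hPQ
    rw [ord_div P (hsub i hi).ne_zero (hs i hi).ne_zero, e1, e2]
    rfl
  have h2 : P.ord (∏ i ∈ A, (s i - algebraMap K F (a i)) / s i)
      = P.ord (s i₀ - algebraMap K F (a i₀)) - P.ord (s i₀) := by
    rw [ord_prod P A _ hhne, Finset.sum_eq_single_of_mem i₀ hi₀ fun i hi hne => h1 i hi hne,
      ord_div P (hsub i₀ hi₀).ne_zero (hs i₀ hi₀).ne_zero]
  rw [ord_div P hf (pow_ne_zero _ (Finset.prod_ne_zero_iff.mpr hhne)), ord_pow, h2,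
    hord P hPQ]
  ring

/-- The product `∏ (s_i - a_i) / s_i` is a unit with reduction `1`. -/
theorem isGU_prod_h {ι : Type*} (A : Finset ι) (s : ι → F) (a : ι → K)
    (hs : ∀ i ∈ A, S.IsGU (s i))
    (ha : ∀ i ∈ A, algebraMap K F (a i) ∈ S.V ∧ S.rd (algebraMap K F (a i)) = 0) :
    S.IsGU (∏ i ∈ A, (s i - algebraMap K F (a i)) / s i) ∧
      S.rd (∏ i ∈ A, (s i - algebraMap K F (a i)) / s i) = 1 := by
  have hsub : ∀ i ∈ A, S.IsGU (s i - algebraMap K F (a i)) := fun i hi =>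
    ((hs i hi).sub_const (ha i hi).1 (ha i hi).2).1
  have hrdsub : ∀ i ∈ A, S.rd (s i - algebraMap K F (a i)) = S.rd (s i) := fun i hi =>
    ((hs i hi).sub_const (ha i hi).1 (ha i hi).2).2
  have hhGU : ∀ i ∈ A, S.IsGU ((s i - algebraMap K F (a i)) / s i) := fun i hi =>
    (hsub i hi).div (hs i hi)
  have hhrd : ∀ i ∈ A, S.rd ((s i - algebraMap K F (a i)) / s i) = 1 := fun i hi => by
    rw [(hsub i hi).rd_div (hs i hi), hrdsub i hi, div_self (hs i hi).2]
  refine ⟨IsGU.prod A _ hhGU, ?_⟩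
  rw [(S.rd_prod A _ fun i hi => (hhGU i hi).1).2]
  exact Finset.prod_eq_one hhrd

/-- **First order congruence.**  With `h_i = (s_i - a_i) / s_i`, `f₂ = f / (∏ h_i) ^ m`,
`c⁻¹` in the maximal ideal, `c (f₂ - 1)` and the `c a_i` integral:
`red (c (f - 1)) = red (c (f₂ - 1)) - m ∑ b_i / red (s_i)`, `b_i = red (c a_i)`. -/
theorem cong_formula {ι : Type*} (A : Finset ι) (s : ι → F) (a : ι → K)
    (hs : ∀ i ∈ A, S.IsGU (s i))
    (ha : ∀ i ∈ A, algebraMap K F (a i) ∈ S.V ∧ S.rd (algebraMap K F (a i)) = 0)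
    (m : ℕ) (f : F)
    (c : K) (hc : c ≠ 0) (hdV : algebraMap K F c⁻¹ ∈ S.V)
    (hdrd : S.rd (algebraMap K F c⁻¹) = 0)
    (hαV : algebraMap K F c *
      (f / (∏ i ∈ A, (s i - algebraMap K F (a i)) / s i) ^ m - 1) ∈ S.V)
    (hβV : ∀ i ∈ A, algebraMap K F (c * a i) ∈ S.V)
    (b : ι → k) (hb : ∀ i ∈ A, S.rd (algebraMap K F (c * a i)) = algebraMap k F' (b i)) :
    algebraMap K F c * (f - 1) ∈ S.V ∧
      S.rd (algebraMap K F c * (f - 1)) =
        S.rd (algebraMap K F c *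
          (f / (∏ i ∈ A, (s i - algebraMap K F (a i)) / s i) ^ m - 1)) -
          (m : F') * ∑ i ∈ A, algebraMap k F' (b i) / S.rd (s i) := by
  set h : ι → F := fun i => (s i - algebraMap K F (a i)) / s i with hh
  set Hp : F := ∏ i ∈ A, h i with hHp
  obtain ⟨hHGU, hHrd⟩ := S.isGU_prod_h A s a hs ha
  set f₂ : F := f / Hp ^ m with hf₂
  have hff₂ : f = f₂ * Hp ^ m := by
    rw [hf₂, div_mul_cancel₀ _ (pow_ne_zero _ hHGU.ne_zero)]
  have hcF : algebraMap K F c ≠ 0 := (map_ne_zero_iff _ (algebraMap K F).injective).mpr hc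
  have hcd : algebraMap K F c * algebraMap K F c⁻¹ = 1 := by
    rw [← map_mul, mul_inv_cancel₀ hc, map_one]
  set α : F := algebraMap K F c * (f₂ - 1) with hα
  set γ : ι → F := fun i => algebraMap K F (c * a i) / s i with hγ
  have hγV : ∀ i ∈ A, γ i ∈ S.V := fun i hi => by
    simp only [hγ]
    rw [div_eq_mul_inv]
    exact S.V.mul_mem _ _ (hβV i hi) (hs i hi).inv_mem
  have hγrd : ∀ i ∈ A, S.rd (γ i) = algebraMap k F' (b i) / S.rd (s i) := fun i hi => by
    simp only [hγ]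
    rw [div_eq_mul_inv, S.rd_mul (hβV i hi) (hs i hi).inv_mem, (hs i hi).rd_inv,
      hb i hi, div_eq_mul_inv]
  have hhγ : ∀ i ∈ A, h i = 1 + algebraMap K F c⁻¹ * (-(γ i)) := by
    intro i hi
    have hne := (hs i hi).ne_zero
    simp only [hh, hγ, map_mul, map_inv₀]
    field_simp
    ring
  have hCongH : Cong S.V (algebraMap K F c⁻¹) (∑ i ∈ A, -(γ i)) Hp :=
    Cong.prod hdV A (fun i => -(γ i)) h (fun i hi => S.V.neg_mem _ (hγV i hi))
      (fun i hi => by rw [hhγ i hi]; exact cong_self _ _)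
  have hsumV : ∑ i ∈ A, -(γ i) ∈ S.V :=
    Subring.sum_mem S.V.toSubring fun i hi => S.V.neg_mem _ (hγV i hi)
  have hCongHm := hCongH.pow hdV hsumV m
  have hf₂α : f₂ = 1 + algebraMap K F c⁻¹ * α := by
    rw [hα]
    linear_combination (1 - f₂) * hcd
  have hCongf₂ : Cong S.V (algebraMap K F c⁻¹) α f₂ := ⟨0, S.V.zero_mem, by
    rw [mul_zero, add_zero]; exact hf₂α⟩
  have hmsumV : (m : F) * ∑ i ∈ A, -(γ i) ∈ S.V := S.V.mul_mem _ _ (S.natCast_mem_V m) hsumV
  have hCongf := hCongf₂.mul hdV hαV hmsumV hCongHm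
  rw [← hff₂] at hCongf
  obtain ⟨ρ, hρ, hfρ⟩ := hCongf
  set φ : F := algebraMap K F c * (f - 1) with hφ
  have hφeq : φ = α + (m : F) * ∑ i ∈ A, -(γ i) + algebraMap K F c⁻¹ * ρ := by
    rw [hφ]
    linear_combination (algebraMap K F c) * hfρ +
      (α + (m : F) * ∑ i ∈ A, -(γ i) + algebraMap K F c⁻¹ * ρ) * hcd
  have hφV : φ ∈ S.V := by
    rw [hφeq]
    exact S.V.add_mem _ _ (S.V.add_mem _ _ hαV hmsumV) (S.V.mul_mem _ _ hdV hρ)
  refine ⟨hφV, ?_⟩
  have e1 : ∑ i ∈ A, S.rd (-(γ i)) = -∑ i ∈ A, algebraMap k F' (b i) / S.rd (s i) := by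
    rw [← Finset.sum_neg_distrib]
    apply Finset.sum_congr rfl
    intro i hi
    rw [S.rd_neg (hγV i hi), hγrd i hi]
  rw [hφeq, S.rd_add (S.V.add_mem _ _ hαV hmsumV) (S.V.mul_mem _ _ hdV hρ),
    S.rd_mul hdV hρ, hdrd, zero_mul, add_zero, S.rd_add hαV hmsumV,
    S.rd_mul (S.natCast_mem_V m) hsumV, S.rd_natCast,
    (S.rd_sum A _ fun i hi => S.V.neg_mem _ (hγV i hi)).2, e1]
  ring

end PRed

end Fermat.Agent.BAD
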