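import Fermat.Agent.BAD.H28_Two

/-!
# Item 65 (helper28): NODE-RAD, abstract form — the radius of a node of an `SSD`

Everything is a consequence of the two axioms `SSD.glue` and `SSD.DIn`.

* `SSD.IsCU c` : the constant `c : K` is a unit (for the common valuation of the constants).
* `SSD.isCU_of_node` (**KL₀**) : if `φ` is a Gauss unit for `V₁`, `c φ` a Gauss unit for `V₂`,
  `φ` has neither zero nor pole on the fibre of the node `s` and `rd₁ φ` has order `0` at the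
  branch `s.1`, then `c` is a unit constant.  ("The two Gauss norms of a function without zero
  on the annulus of `s`, of degree `0` on it, agree.")
* `SSD.IsAnnCoord s t ϖ` : `t` is a coordinate on the annulus of the node `s`, of thickness
  `ϖ`: `rd₁ t` has a simple zero at `s.1`, `rd₂ (ϖ / t)` has a simple zero at `s.2`, and `t` has
  no zero or pole on the fibre of `s`.
* `SSD.IsAnnCoord.exists_value`, `ord_sub_value` : every place `P` of the fibre of `s` has a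
  coordinate `τ_P` with `|ϖ| < |τ_P| < 1`, and `t - τ_P` has exactly one zero on the fibre of
  `s`, the place `P`, and it is simple.
* `SSD.nodeRad` (**NODE-RAD**) : for `f ≠ 0` with `c₁ f` a Gauss unit of `V₁` and `c₂ f` a Gauss
  unit of `V₂`: `c₁ / (c₂ ϖ ^ m ∏_P (τ_P / ϖ) ^ (ord_P f))` is a unit constant, where
  `m = ord_{s.1} (rd₁ (c₁ f))` and `P` runs over the zeros and poles of `f` on the fibre of `s`.
-/

set_option autoImplicit false
set_option linter.style.haveILetI false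

noncomputable section

open AlgebraicCurve

attribute [local instance] Classical.propDecidable

namespace Fermat.Agent.BAD

open Fermat.Agent.RED.H17 Fermat.Agent.RED

/-! ### Integral powers of Gauss units -/

namespace PRed

variable {K F k F' : Type*} [Field K] [Field F] [Algebra K F] [Field k] [Field F']
  [Algebra k F'] {S : PRed K F k F'}

theorem IsGU.rd_pow' {f : F} (h : S.IsGU f) (n : ℕ) : S.rd (f ^ n) = S.rd f ^ n :=
  S.rd_pow h.1 n

theorem IsGU.zpow_and {f : F} (h : S.IsGU f) (n : ℤ) :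
    S.IsGU (f ^ n) ∧ S.rd (f ^ n) = S.rd f ^ n := by
  rcases Int.eq_nat_or_neg n with ⟨m, rfl | rfl⟩
  · rw [zpow_natCast, zpow_natCast]
    exact ⟨h.pow m, S.rd_pow h.1 m⟩
  · rw [zpow_neg, zpow_neg, zpow_natCast, zpow_natCast]
    exact ⟨(h.pow m).inv, by rw [(h.pow m).rd_inv, S.rd_pow h.1 m]⟩

theorem IsGU.zpow {f : F} (h : S.IsGU f) (n : ℤ) : S.IsGU (f ^ n) := (h.zpow_and n).1

theorem IsGU.rd_zpow {f : F} (h : S.IsGU f) (n : ℤ) : S.rd (f ^ n) = S.rd f ^ n :=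
  (h.zpow_and n).2

theorem IsGU.rd_mul' {f g : F} (hf : S.IsGU f) (hg : S.IsGU g) :
    S.rd (f * g) = S.rd f * S.rd g := S.rd_mul hf.1 hg.1

/-- A product of integral powers of Gauss units. -/
theorem IsGU.prod_zpow {ι : Type*} (s : Finset ι) (f : ι → F) (n : ι → ℤ)
    (hf : ∀ i ∈ s, S.IsGU (f i)) :
    S.IsGU (∏ i ∈ s, f i ^ n i) ∧ S.rd (∏ i ∈ s, f i ^ n i) = ∏ i ∈ s, S.rd (f i) ^ n i := by
  have h1 : ∀ i ∈ s, S.IsGU (f i ^ n i) := fun i hi => (hf i hi).zpow (n i)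
  refine ⟨IsGU.prod s _ h1, ?_⟩
  rw [(S.rd_prod s _ fun i hi => (h1 i hi).1).2]
  exact Finset.prod_congr rfl fun i hi => (hf i hi).rd_zpow (n i)

end PRed

namespace SSD

variable {K F k F₁ F₂ : Type*} [Field K] [Field F] [Algebra K F] [Field k] [Field F₁]
  [Algebra k F₁] [Field F₂] [Algebra k F₂] (S : SSD K F k F₁ F₂)

/-! ### Unit constants -/

/-- `c` is a unit constant. -/
def IsCU (c : K) : Prop := S.c₁.IsGU (algebraMap K F c)

variable {S}

theorem IsCU.isGU₁ {c : K} (h : S.IsCU c) : S.c₁.IsGU (algebraMap K F c) := h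

theorem IsCU.isGU₂ {c : K} (h : S.IsCU c) : S.c₂.IsGU (algebraMap K F c) := S.isGU₂_const h

theorem isCU_of_isGU₂ {c : K} (h : S.c₂.IsGU (algebraMap K F c)) : S.IsCU c := S.isGU₁_const h

theorem IsCU.ne_zero {c : K} (h : S.IsCU c) : c ≠ 0 := by
  rintro rfl
  exact h.isGU₁.ne_zero (map_zero _)

variable (S) in
theorem isCU_one : S.IsCU (1 : K) := by
  unfold IsCU
  rw [map_one]
  exact S.c₁.isGU_one

theorem IsCU.mul {c d : K} (hc : S.IsCU c) (hd : S.IsCU d) : S.IsCU (c * d) := by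
  unfold IsCU
  rw [map_mul]
  exact hc.isGU₁.mul hd.isGU₁

theorem IsCU.inv {c : K} (hc : S.IsCU c) : S.IsCU c⁻¹ := by
  unfold IsCU
  rw [map_inv₀]
  exact hc.isGU₁.inv

theorem IsCU.div {c d : K} (hc : S.IsCU c) (hd : S.IsCU d) : S.IsCU (c / d) := by
  rw [div_eq_mul_inv]
  exact hc.mul hd.inv

theorem IsCU.pow {c : K} (hc : S.IsCU c) (n : ℕ) : S.IsCU (c ^ n) := by
  unfold IsCU
  rw [map_pow]
  exact hc.isGU₁.pow n

theorem IsCU.zpow {c : K} (hc : S.IsCU c) (n : ℤ) : S.IsCU (c ^ n) := by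
  unfold IsCU
  rw [map_zpow₀]
  exact hc.isGU₁.zpow n

theorem IsCU.neg {c : K} (hc : S.IsCU c) : S.IsCU (-c) := by
  unfold IsCU
  rw [map_neg]
  refine ⟨S.c₁.V.neg_mem _ hc.isGU₁.1, ?_⟩
  rw [S.c₁.rd_neg hc.isGU₁.1]
  exact neg_ne_zero.mpr hc.isGU₁.2

/-- The maximal ideal of the constants. -/
def IsCM (S : SSD K F k F₁ F₂) (c : K) : Prop :=
  algebraMap K F c ∈ S.c₁.V ∧ S.c₁.rd (algebraMap K F c) = 0

theorem IsCM.mem₁ {c : K} (h : S.IsCM c) : algebraMap K F c ∈ S.c₁.V := h.1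

theorem IsCM.rd₁ {c : K} (h : S.IsCM c) : S.c₁.rd (algebraMap K F c) = 0 := h.2

theorem IsCM.mem₂ {c : K} (h : S.IsCM c) : algebraMap K F c ∈ S.c₂.V :=
  (S.rd₂_const_zero h.1 h.2).1

theorem IsCM.rd₂ {c : K} (h : S.IsCM c) : S.c₂.rd (algebraMap K F c) = 0 :=
  (S.rd₂_const_zero h.1 h.2).2

theorem isCM_of₂ {c : K} (h : algebraMap K F c ∈ S.c₂.V)
    (h0 : S.c₂.rd (algebraMap K F c) = 0) : S.IsCM c := S.rd₁_const_zero h h0

variable (S) in
/-- Trichotomy for a constant: unit, or in the maximal ideal, or inverse in the maximal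
ideal. -/
theorem isCU_or_isCM (c : K) : S.IsCU c ∨ S.IsCM c ∨ S.IsCM c⁻¹ := by
  by_cases h : algebraMap K F c ∈ S.c₁.V
  · by_cases h0 : S.c₁.rd (algebraMap K F c) = 0
    · exact Or.inr (Or.inl ⟨h, h0⟩)
    · exact Or.inl ⟨h, h0⟩
  · exact Or.inr (Or.inr (S.c₁.inv_const_of_not_mem h))

theorem IsCM.not_isCU {c : K} (h : S.IsCM c) : ¬ S.IsCU c := fun hu => hu.isGU₁.2 h.2

/-- `m · V₁ ⊆ m₁`. -/
theorem IsCM.mul_mem₁ {c : K} (h : S.IsCM c) {f : F} (hf : f ∈ S.c₁.V) :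
    algebraMap K F c * f ∈ S.c₁.V ∧ S.c₁.rd (algebraMap K F c * f) = 0 :=
  ⟨S.c₁.V.mul_mem _ _ h.1 hf, by rw [S.c₁.rd_mul h.1 hf, h.2, zero_mul]⟩

theorem IsCM.mul_mem₂ {c : K} (h : S.IsCM c) {f : F} (hf : f ∈ S.c₂.V) :
    algebraMap K F c * f ∈ S.c₂.V ∧ S.c₂.rd (algebraMap K F c * f) = 0 :=
  ⟨S.c₂.V.mul_mem _ _ h.mem₂ hf, by rw [S.c₂.rd_mul h.mem₂ hf, h.rd₂, zero_mul]⟩

/-! ### Gluing with a vanishing reduction -/

variable (S)

/-- If `f` is integral for both valuations, regular on the fibre of `s`, and `rd₁ f` vanishes at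
`s.1`, then `rd₂ f` vanishes at `s.2`. -/
theorem vanAt₂_of_vanAt₁ {s : Place k F₁ × Place k F₂} (hs : s ∈ S.nodes) {f : F}
    (h₁ : f ∈ S.c₁.V) (h₂ : f ∈ S.c₂.V) (hreg : ∀ P, S.c₁.r P = some s.1 → 0 ≤ P.ord f)
    (h0 : VanAt s.1 (S.c₁.rd f)) : VanAt s.2 (S.c₂.rd f) := by
  obtain ⟨a, ha₁, ha₂⟩ := S.glue s hs f h₁ h₂ hreg
  rw [← S.c₁.rd_of_mem h₁] at ha₁
  rw [← S.c₂.rd_of_mem h₂] at ha₂
  have h3 : VanAt s.1 (algebraMap k F₁ a) := by
    have := h0.sub ha₁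
    rwa [sub_sub_cancel] at this
  have ha0 : a = 0 := const_eq_zero_of_vanAt h3
  rw [ha0, map_zero, sub_zero] at ha₂
  exact ha₂

theorem vanAt₁_of_vanAt₂ {s : Place k F₁ × Place k F₂} (hs : s ∈ S.nodes) {f : F}
    (h₁ : f ∈ S.c₁.V) (h₂ : f ∈ S.c₂.V) (hreg : ∀ P, S.c₁.r P = some s.1 → 0 ≤ P.ord f)
    (h0 : VanAt s.2 (S.c₂.rd f)) : VanAt s.1 (S.c₁.rd f) := by
  obtain ⟨a, ha₁, ha₂⟩ := S.glue s hs f h₁ h₂ hreg
  rw [← S.c₁.rd_of_mem h₁] at ha₁
  rw [← S.c₂.rd_of_mem h₂] at ha₂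
  have h3 : VanAt s.2 (algebraMap k F₂ a) := by
    have := h0.sub ha₂
    rwa [sub_sub_cancel] at this
  have ha0 : a = 0 := const_eq_zero_of_vanAt h3
  rw [ha0, map_zero, sub_zero] at ha₁
  exact ha₁

/-- Regularity of the reductions at the branches. -/
theorem regAt_of_glue {s : Place k F₁ × Place k F₂} (hs : s ∈ S.nodes) {f : F}
    (h₁ : f ∈ S.c₁.V) (h₂ : f ∈ S.c₂.V) (hreg : ∀ P, S.c₁.r P = some s.1 → 0 ≤ P.ord f) :
    RegAt s.1 (S.c₁.rd f) ∧ RegAt s.2 (S.c₂.rd f) := by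
  obtain ⟨a, ha₁, ha₂⟩ := S.glue s hs f h₁ h₂ hreg
  rw [← S.c₁.rd_of_mem h₁] at ha₁
  rw [← S.c₂.rd_of_mem h₂] at ha₂
  exact ⟨RegAt.of_vanAt_sub ha₁, RegAt.of_vanAt_sub ha₂⟩

/-! ### KL₀ -/

/-- The sum of the orders of `φ` on the fibre of `s` vanishes if all these orders vanish. -/
theorem sum_fibre_eq_zero (hP : HasPrincipalDivisors K F) {s : Place k F₁ × Place k F₂}
    {φ : F} (h0 : ∀ P, S.c₁.r P = some s.1 → P.ord φ = 0) :
    (∑ P ∈ (dv hP φ).support, if S.c₁.r P = some s.1 then P.ord φ else 0) = 0 := by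
  refine Finset.sum_eq_zero fun P _ => ?_
  split_ifs with h
  · exact h0 P h
  · rfl

/-- **KL₀.**  If `φ` is a Gauss unit for `V₁`, `c φ` a Gauss unit for `V₂`, `φ` has neither zero
nor pole on the fibre of the node `s` and `rd₁ φ` has order `0` at `s.1`, then `c` is a unit
constant. -/
theorem isCU_of_node (hP : HasPrincipalDivisors K F) {s : Place k F₁ × Place k F₂}
    (hs : s ∈ S.nodes) {φ : F} {c : K} (h₁ : S.c₁.IsGU φ)
    (h₂ : S.c₂.IsGU (algebraMap K F c * φ))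
    (h0 : ∀ P, S.c₁.r P = some s.1 → P.ord φ = 0) (ho : s.1.ord (S.c₁.rd φ) = 0) :
    S.IsCU c := by
  have hc0 : c ≠ 0 := by
    rintro rfl
    rw [map_zero, zero_mul] at h₂
    exact h₂.ne_zero rfl
  have hsum := S.sum_node hP hs h₁ h₂ ⟨c, rfl⟩
  rw [S.sum_fibre_eq_zero hP h0, ho, zero_add] at hsum
  have hreg : ∀ P, S.c₁.r P = some s.1 → 0 ≤ P.ord φ := fun P hPs => (h0 P hPs).ge
  rcases S.isCU_or_isCM c with h | h | h
  · exact h
  · -- `c ∈ m`: `c φ` has reduction `0` on the first component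
    exfalso
    have hm := h.mul_mem₁ h₁.1
    have hreg' : ∀ P, S.c₁.r P = some s.1 → 0 ≤ P.ord (algebraMap K F c * φ) := by
      intro P hPs
      rw [ord_algebraMap_mul P hc0]
      exact hreg P hPs
    have hv := S.vanAt₂_of_vanAt₁ hs hm.1 h₂.1 hreg' (by rw [hm.2]; exact vanAt_zero _)
    have := hv.ord_pos h₂.2
    omega
  · -- `c⁻¹ ∈ m`: `φ` has reduction `0` on the second component
    exfalso
    have hm := h.mul_mem₂ h₂.1
    have hφ : algebraMap K F c⁻¹ * (algebraMap K F c * φ) = φ := by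
      rw [← mul_assoc, ← map_mul, inv_mul_cancel₀ hc0, map_one, one_mul]
    rw [hφ] at hm
    have hv := S.vanAt₁_of_vanAt₂ hs h₁.1 hm.1 hreg (by rw [hm.2]; exact vanAt_zero _)
    have := hv.ord_pos h₁.2
    omega

end SSD

end Fermat.Agent.BAD
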