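import Fermat.Agent.BAD.H28_NodeRad
import Fermat.Agent.BAD.H60_Coords

/-!
# Item 65 (helper28): NODE-RAD, part 2 — coordinates on the annulus of a node

* `SSD.ord_eq_zero_of_value₁/₂` : a function integral for both valuations, regular on the fibre
  of the node `s`, whose reduction has a non-zero value at one branch, has no zero on the fibre.
* `SSD.IsAnnCoord s t ϖ` and its consequences `isCM` (`|ϖ| < 1`), `value_ne_zero`,
  `value_isCM` (`|τ_P| < 1`), `div_value_isCM` (`|ϖ| < |τ_P|`), `isGU₁_sub`, `isGU₂_sub`,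
  `ord_sub_value`, `value_injective`.
-/

set_option autoImplicit false
set_option linter.style.haveILetI false

noncomputable section

open AlgebraicCurve

attribute [local instance] Classical.propDecidable

namespace Fermat.Agent.BAD

open Fermat.Agent.RED.H17 Fermat.Agent.RED

namespace SSD

variable {K F k F₁ F₂ : Type*} [Field K] [Field F] [Algebra K F] [Field k] [Field F₁]
  [Algebra k F₁] [Field F₂] [Algebra k F₂] (S : SSD K F k F₁ F₂)

/-! ### Functions with a non-zero value at a node -/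

/-- If `z` is integral for both valuations, regular on the fibre of `s`, and `rd₁ z` has a
non-zero value at `s.1`, then `z` is a unit for both valuations, without zero on the fibre. -/
theorem ord_eq_zero_of_value₁ (hP : HasPrincipalDivisors K F) {s : Place k F₁ × Place k F₂}
    (hs : s ∈ S.nodes) {z : F} (h₁ : z ∈ S.c₁.V) (h₂ : z ∈ S.c₂.V)
    (hreg : ∀ P, S.c₁.r P = some s.1 → 0 ≤ P.ord z) {a : k} (ha : a ≠ 0)
    (hv : VanAt s.1 (S.c₁.rd z - algebraMap k F₁ a)) :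
    S.c₁.IsGU z ∧ S.c₂.IsGU z ∧ ∀ P, S.c₁.r P = some s.1 → P.ord z = 0 := by
  obtain ⟨a', ha₁, ha₂⟩ := S.glue s hs z h₁ h₂ hreg
  rw [← S.c₁.rd_of_mem h₁] at ha₁
  rw [← S.c₂.rd_of_mem h₂] at ha₂
  have haa : a = a' := value_unique s.1 hv ha₁
  subst haa
  obtain ⟨hn₁, ho₁⟩ := H60.ord_eq_zero_of_vanAt_sub ha hv
  obtain ⟨hn₂, ho₂⟩ := H60.ord_eq_zero_of_vanAt_sub ha ha₂
  have hG₁ : S.c₁.IsGU z := ⟨h₁, hn₁⟩
  have hG₂ : S.c₂.IsGU z := ⟨h₂, hn₂⟩
  refine ⟨hG₁, hG₂, fun P hPs => ?_⟩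
  exact S.ord_eq_zero_of_node hP hs hG₁ hG₂ ⟨1, by rw [map_one, one_mul]⟩ hreg ho₁ ho₂ hPs

theorem ord_eq_zero_of_value₂ (hP : HasPrincipalDivisors K F) {s : Place k F₁ × Place k F₂}
    (hs : s ∈ S.nodes) {z : F} (h₁ : z ∈ S.c₁.V) (h₂ : z ∈ S.c₂.V)
    (hreg : ∀ P, S.c₁.r P = some s.1 → 0 ≤ P.ord z) {a : k} (ha : a ≠ 0)
    (hv : VanAt s.2 (S.c₂.rd z - algebraMap k F₂ a)) :
    S.c₁.IsGU z ∧ S.c₂.IsGU z ∧ ∀ P, S.c₁.r P = some s.1 → P.ord z = 0 := by
  obtain ⟨a', ha₁, ha₂⟩ := S.glue s hs z h₁ h₂ hreg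
  rw [← S.c₁.rd_of_mem h₁] at ha₁
  rw [← S.c₂.rd_of_mem h₂] at ha₂
  have haa : a = a' := value_unique s.2 hv ha₂
  subst haa
  exact S.ord_eq_zero_of_value₁ hP hs h₁ h₂ hreg ha ha₁

/-- A function vanishing at a place of the fibre of `s` cannot have a non-zero value at a
branch. -/
theorem not_vanAt_of_value₁ (hP : HasPrincipalDivisors K F) {s : Place k F₁ × Place k F₂}
    (hs : s ∈ S.nodes) {z : F} (h₁ : z ∈ S.c₁.V) (h₂ : z ∈ S.c₂.V)
    (hreg : ∀ P, S.c₁.r P = some s.1 → 0 ≤ P.ord z) {a : k} (ha : a ≠ 0)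
    (hv : VanAt s.1 (S.c₁.rd z - algebraMap k F₁ a)) {P : Place K F}
    (hPs : S.c₁.r P = some s.1) : ¬ VanAt P z := by
  intro hz
  obtain ⟨hG, -, h0⟩ := S.ord_eq_zero_of_value₁ hP hs h₁ h₂ hreg ha hv
  have := hz.ord_pos hG.ne_zero
  have := h0 P hPs
  omega

theorem not_vanAt_of_value₂ (hP : HasPrincipalDivisors K F) {s : Place k F₁ × Place k F₂}
    (hs : s ∈ S.nodes) {z : F} (h₁ : z ∈ S.c₁.V) (h₂ : z ∈ S.c₂.V)
    (hreg : ∀ P, S.c₁.r P = some s.1 → 0 ≤ P.ord z) {a : k} (ha : a ≠ 0)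
    (hv : VanAt s.2 (S.c₂.rd z - algebraMap k F₂ a)) {P : Place K F}
    (hPs : S.c₁.r P = some s.1) : ¬ VanAt P z := by
  intro hz
  obtain ⟨hG, -, h0⟩ := S.ord_eq_zero_of_value₂ hP hs h₁ h₂ hreg ha hv
  have := hz.ord_pos hG.ne_zero
  have := h0 P hPs
  omega

/-! ### Coordinates on the annulus of a node -/

/-- `t` is a coordinate on the annulus of the node `s`, of thickness `ϖ`: `rd₁ t` has a simple
zero at `s.1`, `rd₂ (ϖ / t)` has a simple zero at `s.2`, and `t` has neither zero nor pole on the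
fibre of `s`. -/
structure IsAnnCoord (S : SSD K F k F₁ F₂) (s : Place k F₁ × Place k F₂) (t : F) (ϖ : K) :
    Prop where
  isGU₁ : S.c₁.IsGU t
  ord₁ : s.1.ord (S.c₁.rd t) = 1
  isGU₂ : S.c₂.IsGU (algebraMap K F ϖ / t)
  ord₂ : s.2.ord (S.c₂.rd (algebraMap K F ϖ / t)) = 1
  ord_fibre : ∀ P, S.c₁.r P = some s.1 → P.ord t = 0

namespace IsAnnCoord

variable {S} {s : Place k F₁ × Place k F₂} {t : F} {ϖ : K}

theorem t_ne_zero (h : S.IsAnnCoord s t ϖ) : t ≠ 0 := h.isGU₁.ne_zero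

theorem ϖ_ne_zero (h : S.IsAnnCoord s t ϖ) : ϖ ≠ 0 := by
  rintro rfl
  have := h.isGU₂.ne_zero
  rw [map_zero, zero_div] at this
  exact this rfl

theorem ϖF_ne_zero (h : S.IsAnnCoord s t ϖ) : algebraMap K F ϖ ≠ 0 :=
  (map_ne_zero_iff _ (algebraMap K F).injective).mpr h.ϖ_ne_zero

/-- `t / ϖ` is a Gauss unit for `V₂`. -/
theorem isGU₂_div (h : S.IsAnnCoord s t ϖ) : S.c₂.IsGU (t / algebraMap K F ϖ) := by
  have := h.isGU₂.inv
  rwa [inv_div] at this

theorem rd₂_div (h : S.IsAnnCoord s t ϖ) :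
    S.c₂.rd (t / algebraMap K F ϖ) = (S.c₂.rd (algebraMap K F ϖ / t))⁻¹ := by
  have := h.isGU₂.rd_inv
  rwa [inv_div] at this

theorem ord₂_div (h : S.IsAnnCoord s t ϖ) : s.2.ord (S.c₂.rd (t / algebraMap K F ϖ)) = -1 := by
  rw [h.rd₂_div, Place.ord_inv, h.ord₂]

theorem regAt_fibre (h : S.IsAnnCoord s t ϖ) {P : Place K F} (hPs : S.c₁.r P = some s.1) :
    RegAt P t := regAt_of_ord_nonneg (h.ord_fibre P hPs).ge

theorem regAt_inv_fibre (h : S.IsAnnCoord s t ϖ) {P : Place K F} (hPs : S.c₁.r P = some s.1) :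
    RegAt P t⁻¹ := regAt_of_ord_nonneg (by rw [Place.ord_inv, h.ord_fibre P hPs, neg_zero])

theorem vanAt₁ (h : S.IsAnnCoord s t ϖ) : VanAt s.1 (S.c₁.rd t) :=
  vanAt_of_ord_pos (by rw [h.ord₁]; exact one_pos)

theorem vanAt₂ (h : S.IsAnnCoord s t ϖ) : VanAt s.2 (S.c₂.rd (algebraMap K F ϖ / t)) :=
  vanAt_of_ord_pos (by rw [h.ord₂]; exact one_pos)

/-- The thickness lies in the maximal ideal. -/
theorem isCM (h : S.IsAnnCoord s t ϖ) (hs : s ∈ S.nodes) : S.IsCM ϖ := by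
  rcases S.isCU_or_isCM ϖ with hu | hm | hm
  · -- `ϖ` unit: `t` is integral for `V₂`, with a pole of the reduction at `s.2`
    exfalso
    have ht : t = algebraMap K F ϖ * (t / algebraMap K F ϖ) := by
      rw [mul_div_cancel₀ _ h.ϖF_ne_zero]
    have hG : S.c₂.IsGU t := by
      rw [ht]
      exact hu.isGU₂.mul h.isGU₂_div
    have hrd : S.c₂.rd t = S.c₂.rd (algebraMap K F ϖ) * S.c₂.rd (t / algebraMap K F ϖ) := by
      conv_lhs => rw [ht]
      exact S.c₂.rd_mul hu.isGU₂.1 h.isGU₂_div.1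
    obtain ⟨a, ha⟩ := S.c₂.rd_const_eq ϖ hu.isGU₂.1
    have ho : s.2.ord (S.c₂.rd t) = -1 := by
      rw [hrd, s.2.ord_mul hu.isGU₂.2 h.isGU₂_div.2, ha, ord_algebraMap, zero_add, h.ord₂_div]
    have hreg := (S.regAt_of_glue hs h.isGU₁.1 hG.1 fun P hPs => (h.ord_fibre P hPs).ge).2
    have := hreg.ord_nonneg
    omega
  · exact hm
  · -- `ϖ⁻¹ ∈ m`: `t⁻¹` has reduction `0` on the second component
    exfalso
    have ht : t⁻¹ = algebraMap K F ϖ⁻¹ * (algebraMap K F ϖ / t) := by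
      rw [map_inv₀]
      field_simp [h.ϖF_ne_zero, h.t_ne_zero]
    have hm2 := hm.mul_mem₂ h.isGU₂.1
    rw [← ht] at hm2
    have hv := S.vanAt₁_of_vanAt₂ hs h.isGU₁.inv_mem hm2.1
      (fun P hPs => by rw [Place.ord_inv, h.ord_fibre P hPs, neg_zero])
      (by rw [hm2.2]; exact vanAt_zero _)
    have h1 := hv.ord_pos h.isGU₁.inv.2
    rw [h.isGU₁.rd_inv, Place.ord_inv, h.ord₁] at h1
    omega

/-- `t` lies in the maximal ideal of `V₂`. -/
theorem mem₂ (h : S.IsAnnCoord s t ϖ) (hs : s ∈ S.nodes) :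
    t ∈ S.c₂.V ∧ S.c₂.rd t = 0 := by
  have ht : t = algebraMap K F ϖ * (t / algebraMap K F ϖ) := by
    rw [mul_div_cancel₀ _ h.ϖF_ne_zero]
  have := (h.isCM hs).mul_mem₂ h.isGU₂_div.1
  rwa [← ht] at this

/-- The value of `t` at a place of the fibre of `s`. -/
theorem exists_value (h : S.IsAnnCoord s t ϖ) (hdeg : ∀ v : Place K F, v.deg = 1)
    {P : Place K F} (hPs : S.c₁.r P = some s.1) :
    ∃ τ : K, VanAt P (t - algebraMap K F τ) :=
  RED.H17.exists_value P (hdeg P) (h.regAt_fibre hPs)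

/-- A family of values. -/
theorem exists_values (h : S.IsAnnCoord s t ϖ) (hdeg : ∀ v : Place K F, v.deg = 1) :
    ∃ τ : Place K F → K, ∀ P, S.c₁.r P = some s.1 → VanAt P (t - algebraMap K F (τ P)) := by
  have : ∀ P : Place K F, ∃ τ : K, S.c₁.r P = some s.1 → VanAt P (t - algebraMap K F τ) := by
    intro P
    by_cases hPs : S.c₁.r P = some s.1
    · obtain ⟨τ, hτ⟩ := h.exists_value hdeg hPs
      exact ⟨τ, fun _ => hτ⟩
    · exact ⟨0, fun h' => absurd h' hPs⟩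
  choose τ hτ using this
  exact ⟨τ, hτ⟩

section Value

variable {P : Place K F} {τ : K}

theorem value_ne_zero (h : S.IsAnnCoord s t ϖ) (hPs : S.c₁.r P = some s.1)
    (hτ : VanAt P (t - algebraMap K F τ)) : τ ≠ 0 := by
  rintro rfl
  rw [map_zero, sub_zero] at hτ
  have := hτ.ord_pos h.t_ne_zero
  have := h.ord_fibre P hPs
  omega

/-- `|τ_P| < 1`. -/
theorem value_isCM (h : S.IsAnnCoord s t ϖ) (hP : HasPrincipalDivisors K F) (hs : s ∈ S.nodes)
    (hPs : S.c₁.r P = some s.1) (hτ : VanAt P (t - algebraMap K F τ)) : S.IsCM τ := by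
  have hτ0 := h.value_ne_zero hPs hτ
  have hτF : algebraMap K F τ ≠ 0 := (map_ne_zero_iff _ (algebraMap K F).injective).mpr hτ0
  obtain ⟨ht₂, hrt₂⟩ := h.mem₂ hs
  rcases S.isCU_or_isCM τ with hu | hm | hm
  · -- `τ` unit: `t - τ` has the non-zero value `-τ~` at `s.1`
    exfalso
    obtain ⟨a, ha⟩ := S.c₁.rd_const_eq τ hu.isGU₁.1
    have ha0 : a ≠ 0 := by
      rintro rfl
      rw [map_zero] at ha
      exact hu.isGU₁.2 ha
    have hz₁ : t - algebraMap K F τ ∈ S.c₁.V := S.c₁.V.sub_mem h.isGU₁.1 hu.isGU₁.1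
    have hz₂ : t - algebraMap K F τ ∈ S.c₂.V := S.c₂.V.sub_mem ht₂ hu.isGU₂.1
    have hv : VanAt s.1 (S.c₁.rd (t - algebraMap K F τ) - algebraMap k F₁ (-a)) := by
      rw [S.c₁.rd_sub h.isGU₁.1 hu.isGU₁.1, ha, map_neg, sub_neg_eq_add, sub_add_cancel]
      exact h.vanAt₁
    refine S.not_vanAt_of_value₁ hP hs hz₁ hz₂ (fun P' hP's => ?_) (neg_ne_zero.mpr ha0) hv hPs hτ
    exact ((h.regAt_fibre hP's).sub (regAt_algebraMap P' τ)).ord_nonneg
  · exact hm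
  · -- `τ⁻¹ ∈ m`: `τ⁻¹ t - 1` has the value `-1` at `s.1`
    exfalso
    have hm₁ := hm.mul_mem₁ h.isGU₁.1
    have hm₂ := hm.mul_mem₂ ht₂
    have hz₁ : algebraMap K F τ⁻¹ * t - 1 ∈ S.c₁.V := S.c₁.V.sub_mem hm₁.1 S.c₁.V.one_mem
    have hz₂ : algebraMap K F τ⁻¹ * t - 1 ∈ S.c₂.V := S.c₂.V.sub_mem hm₂.1 S.c₂.V.one_mem
    have hv : VanAt s.1 (S.c₁.rd (algebraMap K F τ⁻¹ * t - 1) - algebraMap k F₁ (-1)) := by
      rw [S.c₁.rd_sub hm₁.1 S.c₁.V.one_mem, hm₁.2, S.c₁.rd_one, map_neg, map_one, zero_sub,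
        sub_self]
      exact vanAt_zero _
    have hz : algebraMap K F τ⁻¹ * t - 1 = algebraMap K F τ⁻¹ * (t - algebraMap K F τ) := by
      rw [mul_sub, ← map_mul, inv_mul_cancel₀ hτ0, map_one]
    refine S.not_vanAt_of_value₁ hP hs hz₁ hz₂ (fun P' hP's => ?_)
      (neg_ne_zero.mpr one_ne_zero) hv hPs ?_
    · exact (((regAt_algebraMap P' τ⁻¹).mul (h.regAt_fibre hP's)).sub (regAt_one P')).ord_nonneg
    · rw [hz]
      exact (regAt_algebraMap P τ⁻¹).mul_vanAt hτ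

/-- `|ϖ| < |τ_P|`. -/
theorem div_value_isCM (h : S.IsAnnCoord s t ϖ) (hP : HasPrincipalDivisors K F)
    (hs : s ∈ S.nodes) (hPs : S.c₁.r P = some s.1) (hτ : VanAt P (t - algebraMap K F τ)) :
    S.IsCM (ϖ / τ) := by
  have hτ0 := h.value_ne_zero hPs hτ
  have hτF : algebraMap K F τ ≠ 0 := (map_ne_zero_iff _ (algebraMap K F).injective).mpr hτ0
  have hτm := h.value_isCM hP hs hPs hτ
  -- it suffices to exclude that `γ = τ / ϖ` is integral
  have key : algebraMap K F (τ / ϖ) ∉ S.c₁.V := by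
    intro hγ₁
    have hγ₂ : algebraMap K F (τ / ϖ) ∈ S.c₂.V := (S.const_mem _).mp hγ₁
    -- `z = 1 - τ / t`
    have hzeq : 1 - algebraMap K F τ * t⁻¹ =
        1 - algebraMap K F (τ / ϖ) * (algebraMap K F ϖ / t) := by
      rw [map_div₀]
      field_simp [h.ϖF_ne_zero, h.t_ne_zero]
    have hm₁ := hτm.mul_mem₁ h.isGU₁.inv_mem
    have hz₁ : 1 - algebraMap K F τ * t⁻¹ ∈ S.c₁.V := S.c₁.V.sub_mem S.c₁.V.one_mem hm₁.1
    have hp₂ : algebraMap K F (τ / ϖ) * (algebraMap K F ϖ / t) ∈ S.c₂.V :=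
      S.c₂.V.mul_mem _ _ hγ₂ h.isGU₂.1
    have hz₂ : 1 - algebraMap K F τ * t⁻¹ ∈ S.c₂.V := by
      rw [hzeq]
      exact S.c₂.V.sub_mem S.c₂.V.one_mem hp₂
    obtain ⟨b, hb⟩ := S.c₂.rd_const_eq _ hγ₂
    have hv : VanAt s.2 (S.c₂.rd (1 - algebraMap K F τ * t⁻¹) - algebraMap k F₂ 1) := by
      rw [hzeq, S.c₂.rd_sub S.c₂.V.one_mem hp₂, S.c₂.rd_one, map_one, sub_sub_cancel_left,
        S.c₂.rd_mul hγ₂ h.isGU₂.1, hb]
      exact ((regAt_algebraMap s.2 b).mul_vanAt h.vanAt₂).neg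
    refine S.not_vanAt_of_value₂ hP hs hz₁ hz₂ (fun P' hP's => ?_) one_ne_zero hv hPs ?_
    · exact ((regAt_one P').sub ((regAt_algebraMap P' τ).mul (h.regAt_inv_fibre hP's))).ord_nonneg
    · have : 1 - algebraMap K F τ * t⁻¹ = t⁻¹ * (t - algebraMap K F τ) := by
        field_simp [h.t_ne_zero]
      rw [this]
      exact (h.regAt_inv_fibre hPs).mul_vanAt hτ
  have := S.c₁.inv_const_of_not_mem key
  rwa [inv_div] at this

/-- `t - τ_P` is a Gauss unit for `V₁`, with the reduction of `t`. -/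
theorem isGU₁_sub (h : S.IsAnnCoord s t ϖ) (hP : HasPrincipalDivisors K F) (hs : s ∈ S.nodes)
    (hPs : S.c₁.r P = some s.1) (hτ : VanAt P (t - algebraMap K F τ)) :
    S.c₁.IsGU (t - algebraMap K F τ) ∧ S.c₁.rd (t - algebraMap K F τ) = S.c₁.rd t := by
  have hτm := h.value_isCM hP hs hPs hτ
  have hrd : S.c₁.rd (t - algebraMap K F τ) = S.c₁.rd t := by
    rw [S.c₁.rd_sub h.isGU₁.1 hτm.1, hτm.2, sub_zero]
  exact ⟨⟨S.c₁.V.sub_mem h.isGU₁.1 hτm.1, by rw [hrd]; exact h.isGU₁.2⟩, hrd⟩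

/-- `(t - τ_P) / τ_P` is a Gauss unit for `V₂`, with reduction `-1`. -/
theorem isGU₂_sub (h : S.IsAnnCoord s t ϖ) (hP : HasPrincipalDivisors K F) (hs : s ∈ S.nodes)
    (hPs : S.c₁.r P = some s.1) (hτ : VanAt P (t - algebraMap K F τ)) :
    S.c₂.IsGU (algebraMap K F τ⁻¹ * (t - algebraMap K F τ)) ∧
      S.c₂.rd (algebraMap K F τ⁻¹ * (t - algebraMap K F τ)) = -1 := by
  have hτ0 := h.value_ne_zero hPs hτ
  have hτF : algebraMap K F τ ≠ 0 := (map_ne_zero_iff _ (algebraMap K F).injective).mpr hτ0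
  have hm := (h.div_value_isCM hP hs hPs hτ).mul_mem₂ h.isGU₂_div.1
  have heq : algebraMap K F τ⁻¹ * (t - algebraMap K F τ) =
      algebraMap K F (ϖ / τ) * (t / algebraMap K F ϖ) - 1 := by
    rw [map_div₀, map_inv₀]
    field_simp [h.ϖF_ne_zero]
  have hrd : S.c₂.rd (algebraMap K F τ⁻¹ * (t - algebraMap K F τ)) = -1 := by
    rw [heq, S.c₂.rd_sub hm.1 S.c₂.V.one_mem, hm.2, S.c₂.rd_one, zero_sub]
  refine ⟨⟨?_, by rw [hrd]; exact neg_ne_zero.mpr one_ne_zero⟩, hrd⟩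
  rw [heq]
  exact S.c₂.V.sub_mem hm.1 S.c₂.V.one_mem

/-- `t - τ_P` has exactly one zero on the fibre of `s`: the place `P`, and it is simple. -/
theorem ord_sub_value (h : S.IsAnnCoord s t ϖ) (hP : HasPrincipalDivisors K F)
    (hs : s ∈ S.nodes) (hPs : S.c₁.r P = some s.1) (hτ : VanAt P (t - algebraMap K F τ))
    {P' : Place K F} (hP's : S.c₁.r P' = some s.1) :
    P'.ord (t - algebraMap K F τ) = if P' = P then 1 else 0 := by
  obtain ⟨hG₁, hrd₁⟩ := h.isGU₁_sub hP hs hPs hτ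
  obtain ⟨hG₂, hrd₂⟩ := h.isGU₂_sub hP hs hPs hτ
  set z : F := t - algebraMap K F τ with hz
  have hsum := S.sum_node hP hs hG₁ hG₂ ⟨τ⁻¹, rfl⟩
  have ho₂ : s.2.ord (S.c₂.rd (algebraMap K F τ⁻¹ * z)) = 0 := by
    rw [hrd₂]
    have : (-1 : F₂) = algebraMap k F₂ (-1) := by rw [map_neg, map_one]
    rw [this]
    exact ord_algebraMap s.2 _
  rw [hrd₁, h.ord₁, ho₂, add_zero] at hsum
  have hreg : ∀ P'', S.c₁.r P'' = some s.1 → 0 ≤ P''.ord z := fun P'' hP''s =>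
    ((h.regAt_fibre hP''s).sub (regAt_algebraMap P'' τ)).ord_nonneg
  have hnn : ∀ P'' ∈ (dv hP z).support,
      0 ≤ (if S.c₁.r P'' = some s.1 then P''.ord z else 0) := by
    intro P'' _
    split_ifs with h'
    · exact hreg P'' h'
    · exact le_rfl
  have hpos : 0 < P.ord z := hτ.ord_pos hG₁.ne_zero
  have hmemP : P ∈ (dv hP z).support := by
    rw [Finsupp.mem_support_iff, dv_apply]; omega
  have hle : P.ord z ≤ 1 := by
    have := le_sum_of_nonneg _ _ hnn hmemP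
    rw [if_pos hPs, ← hsum] at this
    exact this
  have h1 : P.ord z = 1 := by omega
  split_ifs with hPP
  · rw [hPP]; exact h1
  · by_contra h0
    have hpos' : 0 < P'.ord z := lt_of_le_of_ne (hreg P' hP's) (Ne.symm h0)
    have hmemP' : P' ∈ (dv hP z).support := by
      rw [Finsupp.mem_support_iff, dv_apply]; omega
    have h2 : (∑ P'' ∈ ({P, P'} : Finset (Place K F)),
        if S.c₁.r P'' = some s.1 then P''.ord z else 0)
        ≤ ∑ P'' ∈ (dv hP z).support, if S.c₁.r P'' = some s.1 then P''.ord z else 0 := by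
      refine Finset.sum_le_sum_of_subset_of_nonneg ?_ fun x hx _ => hnn x hx
      intro x hx
      rw [Finset.mem_insert, Finset.mem_singleton] at hx
      rcases hx with rfl | rfl
      · exact hmemP
      · exact hmemP'
    rw [Finset.sum_pair (Ne.symm hPP), if_pos hPs, if_pos hP's, ← hsum] at h2
    omega

end Value

/-- The value determines the place of the fibre. -/
theorem value_injective (h : S.IsAnnCoord s t ϖ) (hP : HasPrincipalDivisors K F)
    (hs : s ∈ S.nodes) {P P' : Place K F} {τ : K} (hPs : S.c₁.r P = some s.1)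
    (hP's : S.c₁.r P' = some s.1) (hτ : VanAt P (t - algebraMap K F τ))
    (hτ' : VanAt P' (t - algebraMap K F τ)) : P' = P := by
  by_contra hne
  have h1 := h.ord_sub_value hP hs hPs hτ hP's
  rw [if_neg hne] at h1
  have := hτ'.ord_pos (h.isGU₁_sub hP hs hPs hτ).1.ne_zero
  omega

end IsAnnCoord

end SSD

end Fermat.Agent.BAD
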