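import Fermat.Agent.BAD.H28_NodeRad2

/-!
# Item 65 (helper28): NODE-RAD, part 3 — the radius formula

* `SSD.nodeRad` (**NODE-RAD**) : `t` a coordinate of thickness `ϖ` on the annulus of the node
  `s`, `τ_P` the value of `t` at the place `P` of the fibre of `s`.  For `f ≠ 0` with `c₁ f` a
  Gauss unit of `V₁` and `c₂ f` a Gauss unit of `V₂`,
  `c₁ / (c₂ ϖ ^ m ∏_{P ∈ Z} (τ_P / ϖ) ^ (ord_P f))` is a unit constant, where
  `m = ord_{s.1} (rd₁ (c₁ f))` and `Z` is the set of zeros and poles of `f` on the fibre of `s`.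
* `SSD.nodeRad_inertial` : if moreover `div f = n D` on the fibre of `s` and `𝓘` is a set of
  semilinear automorphisms preserving the fibres of `r₁` and the orders of `f`, fixing `t` and
  `ϖ`, then `c₁ / (c₂ ϖ ^ m Y ^ n)` is a unit constant for some `Y ≠ 0` fixed by `𝓘`.
* `SSD.isAnnCoord_of_thickness` (**COORD**) : construction of a coordinate from a function `U`
  without zero on the fibre.
-/

set_option autoImplicit false
set_option linter.style.haveILetI false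

noncomputable section

open AlgebraicCurve

attribute [local instance] Classical.propDecidable

namespace Fermat.Agent.BAD

open Fermat.Agent.RED.H17 Fermat.Agent.RED

namespace H28

theorem prod_zpow_sum {G ι : Type*} [Field G] (s : Finset ι) (x : G) (hx : x ≠ 0) (n : ι → ℤ) :
    ∏ i ∈ s, x ^ n i = x ^ ∑ i ∈ s, n i := by
  induction s using Finset.induction_on with
  | empty => simp
  | insert i s hi ih => rw [Finset.prod_insert hi, Finset.sum_insert hi, ih, zpow_add₀ hx]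

theorem ord_neg_one {k F : Type*} [Field k] [Field F] [Algebra k F] (v : Place k F) :
    v.ord (-1 : F) = 0 := by
  have : (-1 : F) = algebraMap k F (-1) := by rw [map_neg, map_one]
  rw [this]
  exact ord_algebraMap v _

theorem vanAt_smul_of {K F : Type*} [Field K] [Field F] [Algebra K F] (σ : SemilinearAut K F)
    {P : Place K F} {g : F} (h : VanAt P g) : VanAt (σ • P) (σ • g) := by
  rcases (vanAt_iff_ord P g).mp h with rfl | h0
  · rw [smul_zero]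
    exact vanAt_zero _
  · exact vanAt_of_ord_pos (by rw [SemilinearAut.ord_smul]; exact h0)

end H28

namespace SSD

variable {K F k F₁ F₂ : Type*} [Field K] [Field F] [Algebra K F] [Field k] [Field F₁]
  [Algebra k F₁] [Field F₂] [Algebra k F₂] (S : SSD K F k F₁ F₂)

/-- The zeros and poles of `f` on the fibre of `s`. -/
def fibreSupp (hP : HasPrincipalDivisors K F) (s : Place k F₁ × Place k F₂) (f : F) :
    Finset (Place K F) :=
  (dv hP f).support.filter fun P => S.c₁.r P = some s.1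

theorem mem_fibreSupp (hP : HasPrincipalDivisors K F) (s : Place k F₁ × Place k F₂) (f : F)
    (P : Place K F) : P ∈ S.fibreSupp hP s f ↔ S.c₁.r P = some s.1 ∧ P.ord f ≠ 0 := by
  unfold fibreSupp
  rw [Finset.mem_filter, Finsupp.mem_support_iff, dv_apply]
  exact and_comm

/-- **NODE-RAD.** -/
theorem nodeRad (hP : HasPrincipalDivisors K F) {s : Place k F₁ × Place k F₂}
    (hs : s ∈ S.nodes) {t : F} {ϖ : K} (ht : S.IsAnnCoord s t ϖ) (τ : Place K F → K)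
    (hτ : ∀ P, S.c₁.r P = some s.1 → VanAt P (t - algebraMap K F (τ P)))
    {f : F} {c₁ c₂ : K} (h₁ : S.c₁.IsGU (algebraMap K F c₁ * f))
    (h₂ : S.c₂.IsGU (algebraMap K F c₂ * f))
    (Z : Finset (Place K F)) (hZ : ∀ P, P ∈ Z ↔ S.c₁.r P = some s.1 ∧ P.ord f ≠ 0) :
    S.IsCU (c₁ / (c₂ * ϖ ^ s.1.ord (S.c₁.rd (algebraMap K F c₁ * f)) *
      ∏ P ∈ Z, (τ P / ϖ) ^ P.ord f)) := by
  have hf : f ≠ 0 := by
    rintro rfl
    exact h₁.ne_zero (mul_zero _)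
  have hc₁ : c₁ ≠ 0 := by
    rintro rfl
    exact h₁.ne_zero (by rw [map_zero, zero_mul])
  have hc₂ : c₂ ≠ 0 := by
    rintro rfl
    exact h₂.ne_zero (by rw [map_zero, zero_mul])
  have hc₁F : algebraMap K F c₁ ≠ 0 := (map_ne_zero_iff _ (algebraMap K F).injective).mpr hc₁
  have hc₂F : algebraMap K F c₂ ≠ 0 := (map_ne_zero_iff _ (algebraMap K F).injective).mpr hc₂
  have hϖ := ht.ϖ_ne_zero
  have hϖF := ht.ϖF_ne_zero
  have ht0 := ht.t_ne_zero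
  have hZs : ∀ P ∈ Z, S.c₁.r P = some s.1 := fun P hPZ => ((hZ P).mp hPZ).1
  -- the factors
  have hfac₁ : ∀ P ∈ Z, S.c₁.IsGU (t - algebraMap K F (τ P)) := fun P hPZ =>
    (ht.isGU₁_sub hP hs (hZs P hPZ) (hτ P (hZs P hPZ))).1
  have hfac₁rd : ∀ P ∈ Z, S.c₁.rd (t - algebraMap K F (τ P)) = S.c₁.rd t := fun P hPZ =>
    (ht.isGU₁_sub hP hs (hZs P hPZ) (hτ P (hZs P hPZ))).2
  have hfac₂ : ∀ P ∈ Z, S.c₂.IsGU (algebraMap K F (τ P)⁻¹ * (t - algebraMap K F (τ P))) :=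
    fun P hPZ => (ht.isGU₂_sub hP hs (hZs P hPZ) (hτ P (hZs P hPZ))).1
  have hfac₂rd : ∀ P ∈ Z,
      S.c₂.rd (algebraMap K F (τ P)⁻¹ * (t - algebraMap K F (τ P))) = -1 :=
    fun P hPZ => (ht.isGU₂_sub hP hs (hZs P hPZ) (hτ P (hZs P hPZ))).2
  have hτ0 : ∀ P ∈ Z, τ P ≠ 0 := fun P hPZ => ht.value_ne_zero (hZs P hPZ) (hτ P (hZs P hPZ))
  obtain ⟨hAG, hArd⟩ := PRed.IsGU.prod_zpow Z (fun P => t - algebraMap K F (τ P))
    (fun P => P.ord f) hfac₁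
  obtain ⟨hA₂G, hA₂rd⟩ := PRed.IsGU.prod_zpow Z
    (fun P => algebraMap K F (τ P)⁻¹ * (t - algebraMap K F (τ P))) (fun P => P.ord f) hfac₂
  obtain ⟨A, hA⟩ : ∃ A : F, A = ∏ P ∈ Z, (t - algebraMap K F (τ P)) ^ P.ord f := ⟨_, rfl⟩
  obtain ⟨A₂, hA₂⟩ : ∃ A₂ : F,
      A₂ = ∏ P ∈ Z, (algebraMap K F (τ P)⁻¹ * (t - algebraMap K F (τ P))) ^ P.ord f := ⟨_, rfl⟩
  obtain ⟨B, hB⟩ : ∃ B : K, B = ∏ P ∈ Z, τ P ^ P.ord f := ⟨_, rfl⟩
  obtain ⟨N, hN⟩ : ∃ N : ℤ, N = ∑ P ∈ Z, P.ord f := ⟨_, rfl⟩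
  rw [← hA] at hAG hArd
  rw [← hA₂] at hA₂G hA₂rd
  have hB0 : B ≠ 0 := by
    rw [hB]
    exact Finset.prod_ne_zero_iff.mpr fun P hPZ => zpow_ne_zero _ (hτ0 P hPZ)
  have hBF : algebraMap K F B ≠ 0 := (map_ne_zero_iff _ (algebraMap K F).injective).mpr hB0
  have hA₂eq : A₂ = (algebraMap K F B)⁻¹ * A := by
    rw [hA₂, hA, hB, map_prod, ← Finset.prod_inv_distrib, ← Finset.prod_mul_distrib]
    refine Finset.prod_congr rfl fun P _ => ?_
    rw [mul_zpow, map_zpow₀, map_inv₀, inv_zpow]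
  -- the orders of `A` on the fibre
  have hordA : ∀ P', S.c₁.r P' = some s.1 → P'.ord A = P'.ord f := by
    intro P' hP's
    rw [hA, ord_prod P' Z _ (fun P hPZ => zpow_ne_zero _ (hfac₁ P hPZ).ne_zero)]
    have h1 : ∀ P ∈ Z, P'.ord ((t - algebraMap K F (τ P)) ^ P.ord f) =
        if P' = P then P.ord f else 0 := by
      intro P hPZ
      rw [Place.ord_zpow, ht.ord_sub_value hP hs (hZs P hPZ) (hτ P (hZs P hPZ)) hP's]
      split_ifs
      · rw [mul_one]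
      · rw [mul_zero]
    rw [Finset.sum_congr rfl h1, Finset.sum_ite_eq]
    split_ifs with hmem
    · rfl
    · by_contra hne
      exact hmem ((hZ P').mpr ⟨hP's, fun h0 => hne h0.symm⟩)
  -- the orders at the branches
  have hordA₁ : s.1.ord (S.c₁.rd A) = N := by
    rw [hArd, hN, ord_prod s.1 Z _ (fun P hPZ => zpow_ne_zero _ (hfac₁ P hPZ).2)]
    refine Finset.sum_congr rfl fun P hPZ => ?_
    rw [Place.ord_zpow, hfac₁rd P hPZ, ht.ord₁, mul_one]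
  have hordA₂ : s.2.ord (S.c₂.rd A₂) = 0 := by
    rw [hA₂rd, ord_prod s.2 Z _ (fun P hPZ => zpow_ne_zero _ (hfac₂ P hPZ).2)]
    refine Finset.sum_eq_zero fun P hPZ => ?_
    rw [Place.ord_zpow, hfac₂rd P hPZ, H28.ord_neg_one, mul_zero]
  -- conservation at the node
  have hsum := S.sum_node hP hs h₁ h₂ ⟨c₂ / c₁, by rw [map_div₀]; field_simp⟩
  have hsumZ : (∑ P ∈ (dv hP (algebraMap K F c₁ * f)).support,
      if S.c₁.r P = some s.1 then P.ord (algebraMap K F c₁ * f) else 0) = N := by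
    rw [hN, ← Finset.sum_filter]
    refine Finset.sum_congr ?_ fun P _ => ord_algebraMap_mul P hc₁ f
    ext P
    rw [Finset.mem_filter, Finsupp.mem_support_iff, dv_apply, ord_algebraMap_mul P hc₁, hZ]
    exact and_comm
  rw [hsumZ] at hsum
  obtain ⟨m, hm⟩ : ∃ m : ℤ, m = s.1.ord (S.c₁.rd (algebraMap K F c₁ * f)) := ⟨_, rfl⟩
  obtain ⟨m', hm'⟩ : ∃ m' : ℤ, m' = s.2.ord (S.c₂.rd (algebraMap K F c₂ * f)) := ⟨_, rfl⟩
  rw [← hm, ← hm'] at hsum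
  rw [← hm]
  -- the two units
  have hG₁ : S.c₁.IsGU (algebraMap K F c₁ * f / A) := h₁.div hAG
  have hG₁rd := h₁.rd_div hAG
  have hG₂ : S.c₂.IsGU (algebraMap K F c₂ * f / A₂) := h₂.div hA₂G
  have hφ : S.c₁.IsGU (algebraMap K F c₁ * f / A * t ^ m') := hG₁.mul (ht.isGU₁.zpow m')
  have hψ : S.c₂.IsGU (algebraMap K F c₂ * f / A₂ * (t / algebraMap K F ϖ) ^ m') :=
    hG₂.mul (ht.isGU₂_div.zpow m')
  have hψeq : algebraMap K F c₂ * f / A₂ * (t / algebraMap K F ϖ) ^ m' =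
      algebraMap K F (c₂ * B * (ϖ ^ m')⁻¹ / c₁) * (algebraMap K F c₁ * f / A * t ^ m') := by
    rw [hA₂eq, div_zpow, map_div₀, map_mul, map_mul, map_inv₀, map_zpow₀]
    have h1 : algebraMap K F ϖ ^ m' ≠ 0 := zpow_ne_zero _ hϖF
    field_simp
  rw [hψeq] at hψ
  have hφord : s.1.ord (S.c₁.rd (algebraMap K F c₁ * f / A * t ^ m')) = 0 := by
    rw [S.c₁.rd_mul hG₁.1 (ht.isGU₁.zpow m').1, s.1.ord_mul hG₁.2 (ht.isGU₁.zpow m').2, hG₁rd,
      ord_div s.1 h₁.2 hAG.2, hordA₁, ht.isGU₁.rd_zpow, Place.ord_zpow, ht.ord₁, ← hm]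
    omega
  have hφfib : ∀ P, S.c₁.r P = some s.1 → P.ord (algebraMap K F c₁ * f / A * t ^ m') = 0 := by
    intro P' hP's
    rw [P'.ord_mul hG₁.ne_zero (zpow_ne_zero _ ht0), ord_div P' h₁.ne_zero hAG.ne_zero,
      ord_algebraMap_mul P' hc₁, hordA P' hP's, Place.ord_zpow, ht.ord_fibre P' hP's]
    ring
  have hCU := S.isCU_of_node hP hs hφ hψ hφfib hφord
  have hprod : ∏ P ∈ Z, (τ P / ϖ) ^ P.ord f = B / ϖ ^ N := by
    rw [hB, hN, ← H28.prod_zpow_sum Z ϖ hϖ, ← Finset.prod_div_distrib]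
    exact Finset.prod_congr rfl fun P _ => div_zpow _ _ _
  have hfinal : c₁ / (c₂ * ϖ ^ m * ∏ P ∈ Z, (τ P / ϖ) ^ P.ord f) =
      (c₂ * B * (ϖ ^ m')⁻¹ / c₁)⁻¹ := by
    rw [hprod, ← hsum, zpow_add₀ hϖ]
    have h1 : ϖ ^ m ≠ 0 := zpow_ne_zero _ hϖ
    have h2 : ϖ ^ m' ≠ 0 := zpow_ne_zero _ hϖ
    field_simp
  rw [hfinal]
  exact hCU.inv

/-- **NODE-RAD, inertial form.** -/
theorem nodeRad_inertial (hP : HasPrincipalDivisors K F) (hdeg : ∀ v : Place K F, v.deg = 1)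
    {s : Place k F₁ × Place k F₂} (hs : s ∈ S.nodes) {t : F} {ϖ : K}
    (ht : S.IsAnnCoord s t ϖ) {f : F} {c₁ c₂ : K} (h₁ : S.c₁.IsGU (algebraMap K F c₁ * f))
    (h₂ : S.c₂.IsGU (algebraMap K F c₂ * f)) (n : ℕ) (D : Place K F → ℤ)
    (hD : ∀ P, S.c₁.r P = some s.1 → P.ord f = n * D P)
    (I : Set (SemilinearAut K F))
    (hI : ∀ σ ∈ I, (∀ P : Place K F, S.c₁.r (σ • P) = S.c₁.r P) ∧ σ • t = t ∧
      SemilinearAut.baseAut σ ϖ = ϖ ∧ ∀ P : Place K F, (σ • P).ord f = P.ord f) :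
    ∃ Y : K, Y ≠ 0 ∧ (∀ σ ∈ I, SemilinearAut.baseAut σ Y = Y) ∧
      S.IsCU (c₁ / (c₂ * ϖ ^ s.1.ord (S.c₁.rd (algebraMap K F c₁ * f)) * Y ^ n)) := by
  obtain ⟨τ, hτ⟩ := ht.exists_values hdeg
  have hϖ := ht.ϖ_ne_zero
  have hZ := S.mem_fibreSupp hP s f
  obtain ⟨Z, hZdef⟩ : ∃ Z, Z = S.fibreSupp hP s f := ⟨_, rfl⟩
  rw [← hZdef] at hZ
  have hZs : ∀ P ∈ Z, S.c₁.r P = some s.1 := fun P hPZ => ((hZ P).mp hPZ).1
  have hτ0 : ∀ P ∈ Z, τ P ≠ 0 := fun P hPZ => ht.value_ne_zero (hZs P hPZ) (hτ P (hZs P hPZ))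
  refine ⟨∏ P ∈ Z, (τ P / ϖ) ^ D P, ?_, ?_, ?_⟩
  · exact Finset.prod_ne_zero_iff.mpr fun P hPZ => zpow_ne_zero _ (div_ne_zero (hτ0 P hPZ) hϖ)
  · intro σ hσ
    obtain ⟨hr, hσt, hσϖ, hord⟩ := hI σ hσ
    -- the values are equivariant
    have hval : ∀ P, S.c₁.r P = some s.1 → τ (σ • P) = SemilinearAut.baseAut σ (τ P) := by
      intro P hPs
      have h1 := H28.vanAt_smul_of σ (hτ P hPs)
      rw [smul_sub, hσt, SemilinearAut.smul_algebraMap] at h1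
      exact value_unique (σ • P) (hτ (σ • P) ((hr P).trans hPs)) h1
    have hDσ : ∀ P ∈ Z, D (σ • P) = D P := by
      intro P hPZ
      have hPs := hZs P hPZ
      have h1 := hD (σ • P) ((hr P).trans hPs)
      rw [hord P, hD P hPs] at h1
      have hn : (n : ℤ) ≠ 0 := by
        intro h0
        have := ((hZ P).mp hPZ).2
        rw [hD P hPs, h0, zero_mul] at this
        exact this rfl
      exact (mul_left_cancel₀ hn h1).symm
    rw [map_prod]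
    refine Finset.prod_bij (fun P _ => σ • P) ?_ ?_ ?_ ?_
    · intro P hPZ
      rw [hZ]
      exact ⟨(hr P).trans (hZs P hPZ), by rw [hord P]; exact ((hZ P).mp hPZ).2⟩
    · intro P _ P' _ hPP
      exact smul_left_cancel σ hPP
    · intro P' hP'Z
      refine ⟨σ⁻¹ • P', ?_, smul_inv_smul σ P'⟩
      rw [hZ]
      have h1 := hr (σ⁻¹ • P')
      have h2 := hord (σ⁻¹ • P')
      rw [smul_inv_smul] at h1 h2
      exact ⟨h1.symm.trans (hZs P' hP'Z), by rw [← h2]; exact ((hZ P').mp hP'Z).2⟩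
    · intro P hPZ
      rw [map_zpow₀, map_div₀, hσϖ, hval P (hZs P hPZ), hDσ P hPZ]
  · have h := S.nodeRad hP hs ht τ hτ h₁ h₂ Z hZ
    have hpow : (∏ P ∈ Z, (τ P / ϖ) ^ D P) ^ n = ∏ P ∈ Z, (τ P / ϖ) ^ P.ord f := by
      rw [← Finset.prod_pow]
      refine Finset.prod_congr rfl fun P hPZ => ?_
      rw [hD P (hZs P hPZ), mul_comm, zpow_mul, zpow_natCast]
    rw [hpow]
    exact h

/-- **NODE-RAD, inertial form**, for inertial automorphisms fixing `f`. -/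
theorem nodeRad_isInertial (hP : HasPrincipalDivisors K F) (hdeg : ∀ v : Place K F, v.deg = 1)
    {s : Place k F₁ × Place k F₂} (hs : s ∈ S.nodes) {t : F} {ϖ : K}
    (ht : S.IsAnnCoord s t ϖ) {f : F} {c₁ c₂ : K} (h₁ : S.c₁.IsGU (algebraMap K F c₁ * f))
    (h₂ : S.c₂.IsGU (algebraMap K F c₂ * f)) (n : ℕ) (D : Place K F → ℤ)
    (hD : ∀ P, S.c₁.r P = some s.1 → P.ord f = n * D P)
    (I : Set (SemilinearAut K F))
    (hI : ∀ σ ∈ I, S.IsInertial σ ∧ σ • t = t ∧ SemilinearAut.baseAut σ ϖ = ϖ ∧ σ • f = f) :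
    ∃ Y : K, Y ≠ 0 ∧ (∀ σ ∈ I, SemilinearAut.baseAut σ Y = Y) ∧
      S.IsCU (c₁ / (c₂ * ϖ ^ s.1.ord (S.c₁.rd (algebraMap K F c₁ * f)) * Y ^ n)) := by
  refine S.nodeRad_inertial hP hdeg hs ht h₁ h₂ n D hD I fun σ hσ => ?_
  obtain ⟨hin, hσt, hσϖ, hσf⟩ := hI σ hσ
  refine ⟨hin.r₁, hσt, hσϖ, fun P => ?_⟩
  conv_lhs => rw [← hσf]
  exact SemilinearAut.ord_smul σ P f

/-- **COORD**: a coordinate on the annulus from a function `U` without zero on the fibre of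
`s` (`|U|₁ = 1`, `|U|₂ = |ϖ_U|`, `ord_{s.1} (rd₁ U) = a ≥ 1`) and a function `t` with
`|t|₁ = 1`, `|t|₂ ≤ |ϖ|`, `rd₁ t` with a simple zero at `s.1`, regular on the fibre, provided
`|ϖ| ^ a ≤ |ϖ_U|`. -/
theorem isAnnCoord_of_thickness (hP : HasPrincipalDivisors K F)
    {s : Place k F₁ × Place k F₂} (hs : s ∈ S.nodes) {t U : F} {ϖ ϖU : K} {a : ℕ}
    (ha : a ≠ 0) (hU₁ : S.c₁.IsGU U) (hU₂ : S.c₂.IsGU (U / algebraMap K F ϖU))
    (hUfib : ∀ P, S.c₁.r P = some s.1 → P.ord U = 0) (hUord : s.1.ord (S.c₁.rd U) = a)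
    (ht₁ : S.c₁.IsGU t) (hto : s.1.ord (S.c₁.rd t) = 1)
    (htreg : ∀ P, S.c₁.r P = some s.1 → 0 ≤ P.ord t) (hϖ : ϖ ≠ 0)
    (ht₂ : t / algebraMap K F ϖ ∈ S.c₂.V) (hϖU : algebraMap K F (ϖ ^ a / ϖU) ∈ S.c₁.V) :
    S.IsAnnCoord s t ϖ ∧ S.IsCU (ϖ ^ a / ϖU) := by
  have hϖF : algebraMap K F ϖ ≠ 0 := (map_ne_zero_iff _ (algebraMap K F).injective).mpr hϖ
  have hϖU0 : algebraMap K F ϖU ≠ 0 := by
    intro h0
    have := hU₂.ne_zero
    rw [h0, div_zero] at this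
    exact this rfl
  have ht0 := ht₁.ne_zero
  have hU0 := hU₁.ne_zero
  -- conservation for `U`
  have hsumU := S.sum_node hP hs hU₁ hU₂ ⟨ϖU⁻¹, by rw [map_inv₀]; field_simp⟩
  rw [S.sum_fibre_eq_zero hP hUfib, hUord] at hsumU
  -- the function `t ^ a / U`
  have hf₁ : S.c₁.IsGU (t ^ a / U) := (ht₁.pow a).div hU₁
  have hf₁o : s.1.ord (S.c₁.rd (t ^ a / U)) = 0 := by
    rw [(ht₁.pow a).rd_div hU₁, ord_div s.1 (ht₁.pow a).2 hU₁.2, S.c₁.rd_pow ht₁.1,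
      ord_pow, hto, hUord]
    ring
  have hϖU₂ : algebraMap K F (ϖ ^ a / ϖU) ∈ S.c₂.V := (S.const_mem _).mp hϖU
  have hp₁ : (t / algebraMap K F ϖ) ^ a ∈ S.c₂.V := S.c₂.V.pow_mem ht₂ a
  have hp₂ : (t / algebraMap K F ϖ) ^ a * algebraMap K F (ϖ ^ a / ϖU) ∈ S.c₂.V :=
    S.c₂.V.mul_mem _ _ hp₁ hϖU₂
  have hfeq : t ^ a / U =
      (t / algebraMap K F ϖ) ^ a * algebraMap K F (ϖ ^ a / ϖU) * (U / algebraMap K F ϖU)⁻¹ := by
    rw [map_div₀, map_pow, div_pow]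
    field_simp
  have hf₂ : t ^ a / U ∈ S.c₂.V := by
    rw [hfeq]
    exact S.c₂.V.mul_mem _ _ hp₂ hU₂.inv_mem
  have hfreg : ∀ P, S.c₁.r P = some s.1 → 0 ≤ P.ord (t ^ a / U) := by
    intro P hPs
    rw [ord_div P (pow_ne_zero _ ht0) hU0, ord_pow, hUfib P hPs, sub_zero]
    exact mul_nonneg (Int.natCast_nonneg a) (htreg P hPs)
  obtain ⟨α, hα₁, hα₂⟩ := S.glue s hs _ hf₁.1 hf₂ hfreg
  rw [← S.c₁.rd_of_mem hf₁.1] at hα₁
  rw [← S.c₂.rd_of_mem hf₂] at hα₂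
  have hα0 : α ≠ 0 := by
    rintro rfl
    rw [map_zero, sub_zero] at hα₁
    have := hα₁.ord_pos hf₁.2
    omega
  obtain ⟨hn₂, ho₂⟩ := H60.ord_eq_zero_of_vanAt_sub hα0 hα₂
  -- the reduction of `t ^ a / U` for `V₂`
  have hrd : S.c₂.rd (t ^ a / U) = S.c₂.rd (t / algebraMap K F ϖ) ^ a *
      S.c₂.rd (algebraMap K F (ϖ ^ a / ϖU)) * (S.c₂.rd (U / algebraMap K F ϖU))⁻¹ := by
    conv_lhs => rw [hfeq]
    rw [S.c₂.rd_mul hp₂ hU₂.inv_mem, S.c₂.rd_mul hp₁ hϖU₂, S.c₂.rd_pow ht₂, hU₂.rd_inv]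
  rw [hrd] at hn₂ ho₂
  have hx₁ : S.c₂.rd (t / algebraMap K F ϖ) ≠ 0 := by
    intro h0
    rw [h0, zero_pow ha, zero_mul, zero_mul] at hn₂
    exact hn₂ rfl
  have hx₂ : S.c₂.rd (algebraMap K F (ϖ ^ a / ϖU)) ≠ 0 := by
    intro h0
    rw [h0, mul_zero, zero_mul] at hn₂
    exact hn₂ rfl
  have hGt : S.c₂.IsGU (t / algebraMap K F ϖ) := ⟨ht₂, hx₁⟩
  have hCU : S.IsCU (ϖ ^ a / ϖU) := isCU_of_isGU₂ ⟨hϖU₂, hx₂⟩
  obtain ⟨b, hb⟩ := S.c₂.rd_const_eq _ hϖU₂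
  have hot : s.2.ord (S.c₂.rd (t / algebraMap K F ϖ)) = -1 := by
    rw [s.2.ord_mul (mul_ne_zero (pow_ne_zero _ hx₁) hx₂) (inv_ne_zero hU₂.2),
      s.2.ord_mul (pow_ne_zero _ hx₁) hx₂, ord_pow, hb, ord_algebraMap, Place.ord_inv] at ho₂
    have h1 : (a : ℤ) * (s.2.ord (S.c₂.rd (t / algebraMap K F ϖ)) + 1) = 0 := by
      have : s.2.ord (S.c₂.rd (U / algebraMap K F ϖU)) = -a := by omega
      rw [this] at ho₂
      linear_combination ho₂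
    have ha' : (a : ℤ) ≠ 0 := Int.natCast_ne_zero.mpr ha
    have := (mul_eq_zero.mp h1).resolve_left ha'
    omega
  have hGinv : S.c₂.IsGU (algebraMap K F ϖ / t) := by
    have := hGt.inv
    rwa [inv_div] at this
  have hoinv : s.2.ord (S.c₂.rd (algebraMap K F ϖ / t)) = 1 := by
    have h1 := hGt.rd_inv
    rw [inv_div] at h1
    rw [h1, Place.ord_inv, hot]
    rfl
  refine ⟨⟨ht₁, hto, hGinv, hoinv, fun P hPs => ?_⟩, hCU⟩
  -- conservation for `t`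
  have hsumt := S.sum_node hP hs ht₁ hGt ⟨ϖ⁻¹, by rw [map_inv₀]; field_simp⟩
  rw [hto, hot] at hsumt
  by_cases hmem : P ∈ (dv hP t).support
  · have hnn : ∀ P' ∈ (dv hP t).support,
        0 ≤ (if S.c₁.r P' = some s.1 then P'.ord t else 0) := by
      intro P' _
      split_ifs with h
      · exact htreg P' h
      · exact le_rfl
    have := eq_zero_of_sum_eq_zero _ _ hnn (by rw [← hsumt]; rfl) hmem
    rwa [if_pos hPs] at this
  · rw [Finsupp.notMem_support_iff, dv_apply] at hmem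
    exact hmem

end SSD

end Fermat.Agent.BAD
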