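import Fermat.Agent.BAD.H28_NodeRad3

/-!
# Item 65 (helper28): NODE-RAD, part 4 — corollaries for functions without zero on the annulus

* `SSD.nodeRad_zeroFree` (**F1**) : `t` a coordinate of thickness `ϖ` at the node `s`, `g` without
  zero or pole on the fibre of `s`, `c₁ g` a Gauss unit of `V₁`, `c₂ g` a Gauss unit of `V₂`:
  `c₁ / (c₂ ϖ ^ m)` is a unit constant, `m = ord_{s.1} (rd₁ (c₁ g))`.
* `SSD.nodeRad_div_pow` : the form used for Kummer functions: `f / G ^ n` without zero or pole on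
  the fibre of `s`; then `(c₁ / c₂) / ((d₁ / d₂) ^ n ϖ ^ m')` is a unit, where `c_i f`, `d_i G` are
  Gauss units and `m' = ord_{s.1} (rd₁ (c₁ f)) - n · ord_{s.1} (rd₁ (d₁ G))`.
* `SSD.isCU_of_zeroFree_unit` : the same without coordinate, with a function `U` without zero on
  the fibre, of slope `a`: `(c₁ / c₂) ^ a / ϖ_U ^ m` is a unit.
-/

set_option autoImplicit false
set_option linter.style.haveILetI false

noncomputable section

open AlgebraicCurve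

attribute [local instance] Classical.propDecidable

namespace Fermat.Agent.BAD

open Fermat.Agent.RED.H17 Fermat.Agent.RED

namespace SSD

variable {K F k F₁ F₂ : Type*} [Field K] [Field F] [Algebra K F] [Field k] [Field F₁]
  [Algebra k F₁] [Field F₂] [Algebra k F₂] (S : SSD K F k F₁ F₂)

/-- **F1**: NODE-RAD for a function without zero or pole on the fibre of `s`. -/
theorem nodeRad_zeroFree (hP : HasPrincipalDivisors K F) (hdeg : ∀ v : Place K F, v.deg = 1)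
    {s : Place k F₁ × Place k F₂} (hs : s ∈ S.nodes) {t : F} {ϖ : K}
    (ht : S.IsAnnCoord s t ϖ) {g : F} {c₁ c₂ : K}
    (h₁ : S.c₁.IsGU (algebraMap K F c₁ * g)) (h₂ : S.c₂.IsGU (algebraMap K F c₂ * g))
    (h0 : ∀ P, S.c₁.r P = some s.1 → P.ord g = 0) :
    S.IsCU (c₁ / (c₂ * ϖ ^ s.1.ord (S.c₁.rd (algebraMap K F c₁ * g)))) := by
  obtain ⟨τ, hτ⟩ := ht.exists_values hdeg
  have h := S.nodeRad hP hs ht τ hτ h₁ h₂ ∅ (fun P => by
    constructor
    · intro hP'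
      exact absurd hP' (Finset.notMem_empty P)
    · rintro ⟨hPs, hne⟩
      exact absurd (h0 P hPs) hne)
  rwa [Finset.prod_empty, mul_one] at h

/-- NODE-RAD for `f / G ^ n` without zero or pole on the fibre of `s`. -/
theorem nodeRad_div_pow (hP : HasPrincipalDivisors K F) (hdeg : ∀ v : Place K F, v.deg = 1)
    {s : Place k F₁ × Place k F₂} (hs : s ∈ S.nodes) {t : F} {ϖ : K}
    (ht : S.IsAnnCoord s t ϖ) {f G : F} {c₁ c₂ d₁ d₂ : K} (n : ℕ)
    (h₁ : S.c₁.IsGU (algebraMap K F c₁ * f)) (h₂ : S.c₂.IsGU (algebraMap K F c₂ * f))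
    (g₁ : S.c₁.IsGU (algebraMap K F d₁ * G)) (g₂ : S.c₂.IsGU (algebraMap K F d₂ * G))
    (h0 : ∀ P, S.c₁.r P = some s.1 → P.ord f = n * P.ord G) :
    S.IsCU (c₁ / c₂ / ((d₁ / d₂) ^ n *
      ϖ ^ (s.1.ord (S.c₁.rd (algebraMap K F c₁ * f)) -
        n * s.1.ord (S.c₁.rd (algebraMap K F d₁ * G))))) := by
  have hf : f ≠ 0 := by
    rintro rfl
    exact h₁.ne_zero (mul_zero _)
  have hG : G ≠ 0 := by
    rintro rfl
    exact g₁.ne_zero (mul_zero _)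
  have hc₂ : c₂ ≠ 0 := by
    rintro rfl
    exact h₂.ne_zero (by rw [map_zero, zero_mul])
  have hd₁ : d₁ ≠ 0 := by
    rintro rfl
    exact g₁.ne_zero (by rw [map_zero, zero_mul])
  have hd₂ : d₂ ≠ 0 := by
    rintro rfl
    exact g₂.ne_zero (by rw [map_zero, zero_mul])
  have hd₁F : algebraMap K F d₁ ≠ 0 := (map_ne_zero_iff _ (algebraMap K F).injective).mpr hd₁
  have hd₂F : algebraMap K F d₂ ≠ 0 := (map_ne_zero_iff _ (algebraMap K F).injective).mpr hd₂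
  have e₁ : algebraMap K F (c₁ / d₁ ^ n) * (f / G ^ n) =
      algebraMap K F c₁ * f / (algebraMap K F d₁ * G) ^ n := by
    rw [map_div₀, map_pow, mul_pow]
    field_simp
  have e₂ : algebraMap K F (c₂ / d₂ ^ n) * (f / G ^ n) =
      algebraMap K F c₂ * f / (algebraMap K F d₂ * G) ^ n := by
    rw [map_div₀, map_pow, mul_pow]
    field_simp
  have k₁ : S.c₁.IsGU (algebraMap K F (c₁ / d₁ ^ n) * (f / G ^ n)) := by
    rw [e₁]
    exact h₁.div (g₁.pow n)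
  have k₂ : S.c₂.IsGU (algebraMap K F (c₂ / d₂ ^ n) * (f / G ^ n)) := by
    rw [e₂]
    exact h₂.div (g₂.pow n)
  have hz : ∀ P, S.c₁.r P = some s.1 → P.ord (f / G ^ n) = 0 := by
    intro P hPs
    rw [ord_div P hf (pow_ne_zero _ hG), ord_pow, h0 P hPs, sub_self]
  have h := S.nodeRad_zeroFree hP hdeg hs ht k₁ k₂ hz
  have hord : s.1.ord (S.c₁.rd (algebraMap K F (c₁ / d₁ ^ n) * (f / G ^ n))) =
      s.1.ord (S.c₁.rd (algebraMap K F c₁ * f)) -
        n * s.1.ord (S.c₁.rd (algebraMap K F d₁ * G)) := by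
    rw [e₁, h₁.rd_div (g₁.pow n), ord_div s.1 h₁.2 (g₁.pow n).2, S.c₁.rd_pow g₁.1, ord_pow]
  rw [hord] at h
  have heq : c₁ / d₁ ^ n / (c₂ / d₂ ^ n * ϖ ^ (s.1.ord (S.c₁.rd (algebraMap K F c₁ * f)) -
      n * s.1.ord (S.c₁.rd (algebraMap K F d₁ * G)))) =
      c₁ / c₂ / ((d₁ / d₂) ^ n * ϖ ^ (s.1.ord (S.c₁.rd (algebraMap K F c₁ * f)) -
        n * s.1.ord (S.c₁.rd (algebraMap K F d₁ * G)))) := by
    have hw : ϖ ^ (s.1.ord (S.c₁.rd (algebraMap K F c₁ * f)) -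
        n * s.1.ord (S.c₁.rd (algebraMap K F d₁ * G))) ≠ 0 := zpow_ne_zero _ ht.ϖ_ne_zero
    rw [div_pow]
    field_simp
  rw [← heq]
  exact h

/-- The coordinate-free form: `U` without zero or pole on the fibre of `s`, `|U|₁ = 1`,
`|U|₂ = |ϖ_U|`, of slope `a = ord_{s.1} (rd₁ U)`; `g` without zero or pole on the fibre, of
slope `m`.  Then `(c₁ / c₂) ^ a / ϖ_U ^ m` is a unit (for `a`, `m ≥ 0`; in general
`(c₁ / c₂) ^ a * ϖ_U ^ m'` with `m = -m'`). -/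
theorem isCU_of_zeroFree_unit (hP : HasPrincipalDivisors K F) {s : Place k F₁ × Place k F₂}
    (hs : s ∈ S.nodes) {U : F} {ϖU : K} (hU₁ : S.c₁.IsGU U)
    (hU₂ : S.c₂.IsGU (U / algebraMap K F ϖU))
    (hUfib : ∀ P, S.c₁.r P = some s.1 → P.ord U = 0) {g : F} {c₁ c₂ : K}
    (h₁ : S.c₁.IsGU (algebraMap K F c₁ * g)) (h₂ : S.c₂.IsGU (algebraMap K F c₂ * g))
    (h0 : ∀ P, S.c₁.r P = some s.1 → P.ord g = 0) :
    S.IsCU ((c₁ / c₂) ^ s.1.ord (S.c₁.rd U) /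
      ϖU ^ s.1.ord (S.c₁.rd (algebraMap K F c₁ * g))) := by
  have hg : g ≠ 0 := by
    rintro rfl
    exact h₁.ne_zero (mul_zero _)
  have hc₁ : c₁ ≠ 0 := by
    rintro rfl
    exact h₁.ne_zero (by rw [map_zero, zero_mul])
  have hc₂ : c₂ ≠ 0 := by
    rintro rfl
    exact h₂.ne_zero (by rw [map_zero, zero_mul])
  have hc₁F : algebraMap K F c₁ ≠ 0 := (map_ne_zero_iff _ (algebraMap K F).injective).mpr hc₁
  have hc₂F : algebraMap K F c₂ ≠ 0 := (map_ne_zero_iff _ (algebraMap K F).injective).mpr hc₂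
  have hϖU0 : algebraMap K F ϖU ≠ 0 := by
    intro h0'
    have := hU₂.ne_zero
    rw [h0', div_zero] at this
    exact this rfl
  have hϖU : ϖU ≠ 0 := fun h => hϖU0 (by rw [h, map_zero])
  have hU0 := hU₁.ne_zero
  obtain ⟨a, ha⟩ : ∃ a : ℤ, a = s.1.ord (S.c₁.rd U) := ⟨_, rfl⟩
  obtain ⟨m, hm⟩ : ∃ m : ℤ, m = s.1.ord (S.c₁.rd (algebraMap K F c₁ * g)) := ⟨_, rfl⟩
  rw [← ha, ← hm]
  -- `φ = (c₁ g) ^ a / U ^ m`
  have hφ : S.c₁.IsGU ((algebraMap K F c₁ * g) ^ a / U ^ m) := (h₁.zpow a).div (hU₁.zpow m)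
  have hψ : S.c₂.IsGU ((algebraMap K F c₂ * g) ^ a / (U / algebraMap K F ϖU) ^ m) :=
    (h₂.zpow a).div (hU₂.zpow m)
  have hψeq : (algebraMap K F c₂ * g) ^ a / (U / algebraMap K F ϖU) ^ m =
      algebraMap K F ((c₂ / c₁) ^ a * ϖU ^ m) * ((algebraMap K F c₁ * g) ^ a / U ^ m) := by
    rw [map_mul, map_zpow₀, map_zpow₀, map_div₀, div_zpow, div_zpow, mul_zpow, mul_zpow]
    have h1 : algebraMap K F c₁ ^ a ≠ 0 := zpow_ne_zero _ hc₁F
    have h2 : algebraMap K F ϖU ^ m ≠ 0 := zpow_ne_zero _ hϖU0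
    have h3 : U ^ m ≠ 0 := zpow_ne_zero _ hU0
    have h4 : g ^ a ≠ 0 := zpow_ne_zero _ hg
    field_simp
  rw [hψeq] at hψ
  have hφord : s.1.ord (S.c₁.rd ((algebraMap K F c₁ * g) ^ a / U ^ m)) = 0 := by
    rw [(h₁.zpow a).rd_div (hU₁.zpow m), ord_div s.1 (h₁.zpow a).2 (hU₁.zpow m).2,
      h₁.rd_zpow, hU₁.rd_zpow, Place.ord_zpow, Place.ord_zpow, ← ha, ← hm]
    ring
  have hφfib : ∀ P, S.c₁.r P = some s.1 →
      P.ord ((algebraMap K F c₁ * g) ^ a / U ^ m) = 0 := by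
    intro P hPs
    rw [ord_div P (zpow_ne_zero _ h₁.ne_zero) (zpow_ne_zero _ hU0), Place.ord_zpow,
      Place.ord_zpow, ord_algebraMap_mul P hc₁, h0 P hPs, hUfib P hPs]
    ring
  have hCU := S.isCU_of_node hP hs hφ hψ hφfib hφord
  have heq : (c₁ / c₂) ^ a / ϖU ^ m = ((c₂ / c₁) ^ a * ϖU ^ m)⁻¹ := by
    rw [mul_inv, ← inv_zpow, inv_div, div_eq_mul_inv]
  rw [heq]
  exact hCU.inv

end SSD

end Fermat.Agent.BAD
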