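import Fermat.Agent.BAD.SSD
import Fermat.Agent.RED.H17_Pole

/-!
# Item 65, package ABS (helper28), part P0: local lemmas for `PRed`

Port of helper17's local lemmas (G-RED route C: `RED/H17_Red.lean`, `H17_Lift.lean`,
`H17_Local.lean`, `H17_Key.lean`, `H17_Pole.lean`) from `PRed` to `PRed` (partial reduction
map, divisor identity at the good places only).  The proofs are helper17's.
-/

set_option autoImplicit false
set_option linter.style.haveILetI false

noncomputable section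

open AlgebraicCurve

attribute [local instance] Classical.propDecidable

namespace Fermat.Agent.BAD

open Fermat.Agent.RED.H17 Fermat.Agent.RED

local notation "L" => riemannRochSpace

namespace PRed

variable {K F k F' : Type*} [Field K] [Field F] [Algebra K F] [Field k] [Field F']
  [Algebra k F'] (S : PRed K F k F')

open Classical in
/-- Reduction as a total function on `F` (junk value `0` outside `V`). -/
def rd (f : F) : F' := if h : f ∈ S.V then S.red ⟨f, h⟩ else 0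

theorem rd_of_mem {f : F} (h : f ∈ S.V) : S.rd f = S.red ⟨f, h⟩ := by
  unfold rd
  rw [dif_pos h]

theorem rd_of_not_mem {f : F} (h : f ∉ S.V) : S.rd f = 0 := by
  unfold rd
  rw [dif_neg h]

@[simp] theorem rd_zero : S.rd (0 : F) = 0 := by
  rw [S.rd_of_mem S.V.zero_mem]
  exact map_zero S.red

@[simp] theorem rd_one : S.rd (1 : F) = 1 := by
  rw [S.rd_of_mem S.V.one_mem]
  exact map_one S.red

theorem rd_add {f g : F} (hf : f ∈ S.V) (hg : g ∈ S.V) : S.rd (f + g) = S.rd f + S.rd g := by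
  rw [S.rd_of_mem hf, S.rd_of_mem hg, S.rd_of_mem (S.V.add_mem _ _ hf hg), ← map_add]
  rfl

theorem rd_mul {f g : F} (hf : f ∈ S.V) (hg : g ∈ S.V) : S.rd (f * g) = S.rd f * S.rd g := by
  rw [S.rd_of_mem hf, S.rd_of_mem hg, S.rd_of_mem (S.V.mul_mem _ _ hf hg), ← map_mul]
  rfl

theorem rd_neg {f : F} (hf : f ∈ S.V) : S.rd (-f) = -S.rd f := by
  rw [S.rd_of_mem hf, S.rd_of_mem (S.V.neg_mem _ hf), ← map_neg]
  rfl

theorem rd_sub {f g : F} (hf : f ∈ S.V) (hg : g ∈ S.V) : S.rd (f - g) = S.rd f - S.rd g := by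
  rw [S.rd_of_mem hf, S.rd_of_mem hg, S.rd_of_mem (S.V.sub_mem hf hg), ← map_sub]
  rfl

theorem rd_pow {f : F} (hf : f ∈ S.V) (n : ℕ) : S.rd (f ^ n) = S.rd f ^ n := by
  rw [S.rd_of_mem hf, S.rd_of_mem (S.V.pow_mem hf n), ← map_pow]
  rfl

/-- `f` is a Gauss unit. -/
def IsGU (f : F) : Prop := f ∈ S.V ∧ S.rd f ≠ 0

variable {S}

theorem IsGU.mem {f : F} (h : S.IsGU f) : f ∈ S.V := h.1

theorem IsGU.rd_ne_zero {f : F} (h : S.IsGU f) : S.rd f ≠ 0 := h.2

theorem IsGU.ne_zero {f : F} (h : S.IsGU f) : f ≠ 0 := by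
  rintro rfl
  exact h.2 S.rd_zero

variable (S) in
theorem isGU_one : S.IsGU (1 : F) := ⟨S.V.one_mem, by rw [S.rd_one]; exact one_ne_zero⟩

variable (S) in
theorem isGU_iff_isUnit {f : F} (hf : f ∈ S.V) : S.IsGU f ↔ IsUnit (⟨f, hf⟩ : S.V) := by
  unfold IsGU
  rw [S.rd_of_mem hf]
  constructor
  · rintro ⟨-, h⟩
    by_contra hu
    exact h ((S.red_eq_zero_iff _).mpr ((IsLocalRing.mem_maximalIdeal _).mpr hu))
  · intro hu
    refine ⟨hf, fun h0 => ?_⟩
    have := (S.red_eq_zero_iff _).mp h0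
    exact (IsLocalRing.mem_maximalIdeal _).mp this hu

theorem IsGU.inv_mem {f : F} (h : S.IsGU f) : f⁻¹ ∈ S.V := by
  have hu := (S.isGU_iff_isUnit h.1).mp h
  obtain ⟨u, hu⟩ := hu
  have h1 : ((u⁻¹ : S.Vˣ) : S.V) * ⟨f, h.1⟩ = 1 := by rw [← hu]; exact u.inv_mul
  have h2 : (((u⁻¹ : S.Vˣ) : S.V) : F) * f = 1 := congrArg Subtype.val h1
  have h3 : f⁻¹ = (((u⁻¹ : S.Vˣ) : S.V) : F) := by
    rw [eq_comm, ← mul_eq_one_iff_eq_inv₀ h.ne_zero]
    exact h2
  rw [h3]
  exact Subtype.mem _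

theorem IsGU.mul {f g : F} (hf : S.IsGU f) (hg : S.IsGU g) : S.IsGU (f * g) :=
  ⟨S.V.mul_mem _ _ hf.1 hg.1, by rw [S.rd_mul hf.1 hg.1]; exact mul_ne_zero hf.2 hg.2⟩

theorem IsGU.rd_inv {f : F} (h : S.IsGU f) : S.rd f⁻¹ = (S.rd f)⁻¹ := by
  have h1 : S.rd (f * f⁻¹) = S.rd f * S.rd f⁻¹ := S.rd_mul h.1 h.inv_mem
  rw [mul_inv_cancel₀ h.ne_zero, S.rd_one] at h1
  exact eq_inv_of_mul_eq_one_right h1.symm

theorem IsGU.inv {f : F} (h : S.IsGU f) : S.IsGU f⁻¹ :=
  ⟨h.inv_mem, by rw [h.rd_inv]; exact inv_ne_zero h.2⟩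

theorem IsGU.div {f g : F} (hf : S.IsGU f) (hg : S.IsGU g) : S.IsGU (f / g) := by
  rw [div_eq_mul_inv]
  exact hf.mul hg.inv

theorem IsGU.rd_div {f g : F} (hf : S.IsGU f) (hg : S.IsGU g) :
    S.rd (f / g) = S.rd f / S.rd g := by
  rw [div_eq_mul_inv, S.rd_mul hf.1 hg.inv_mem, hg.rd_inv, div_eq_mul_inv]

theorem IsGU.pow {f : F} (h : S.IsGU f) (n : ℕ) : S.IsGU (f ^ n) :=
  ⟨S.V.pow_mem h.1 n, by rw [S.rd_pow h.1]; exact pow_ne_zero _ h.2⟩

variable (S)

/-- Adding an element of the maximal ideal does not change the reduction. -/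
theorem rd_add_of_rd_eq_zero {f g : F} (hf : f ∈ S.V) (hg : g ∈ S.V) (h0 : S.rd g = 0) :
    S.rd (f + g) = S.rd f := by
  rw [S.rd_add hf hg, h0, add_zero]

variable {S} in
theorem IsGU.add_of_rd_eq_zero {f g : F} (hf : S.IsGU f) (hg : g ∈ S.V) (h0 : S.rd g = 0) :
    S.IsGU (f + g) :=
  ⟨S.V.add_mem _ _ hf.1 hg, by rw [S.rd_add_of_rd_eq_zero hf.1 hg h0]; exact hf.2⟩

/-- Scaling to a Gauss unit. -/
theorem exists_isGU_scale {f : F} (hf : f ≠ 0) :
    ∃ c : K, c ≠ 0 ∧ S.IsGU (algebraMap K F c * f) := by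
  obtain ⟨c, hc, h, hr⟩ := S.exists_scale f hf
  exact ⟨c, hc, h, by rw [S.rd_of_mem h]; exact hr⟩

/-! ### Constants -/

theorem rd_algebraMap_mem_range {c : K} (h : algebraMap K F c ∈ S.V) :
    ∃ c' : k, S.rd (algebraMap K F c) = algebraMap k F' c' := by
  obtain ⟨c', hc'⟩ := S.red_const c h
  exact ⟨c', by rw [S.rd_of_mem h]; exact hc'⟩

theorem exists_const_lift (c' : k) :
    ∃ c : K, algebraMap K F c ∈ S.V ∧ S.rd (algebraMap K F c) = algebraMap k F' c' := by
  obtain ⟨c, h, hc⟩ := S.const_surj c'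
  exact ⟨c, h, by rw [S.rd_of_mem h]; exact hc⟩

/-- For a constant `c ≠ 0`, either `c` or `c⁻¹` is integral. -/
theorem const_mem_or_inv_mem (c : K) :
    algebraMap K F c ∈ S.V ∨ algebraMap K F c⁻¹ ∈ S.V := by
  rw [map_inv₀]
  exact S.V.mem_or_inv_mem _

/-! ### The divisor identity in the fibres of `r` -/

/-- The divisor identity as a sum over the support of `div f`. -/
theorem ord_rd_eq_sum (hP : HasPrincipalDivisors K F) {f : F} (hf : S.IsGU f) (Q : Place k F') (hQg : Q ∈ S.good) :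
    Q.ord (S.rd f) = ∑ P ∈ (dv hP f).support, if S.r P = some Q then P.ord f else 0 := by
  have h := S.DI ⟨f, hf.1⟩ (by rw [← S.rd_of_mem hf.1]; exact hf.2) (dv hP f)
    (fun P => dv_apply hP f P) Q hQg
  rw [← S.rd_of_mem hf.1] at h
  rw [← h, mapDomain_apply_eq_sum]
  refine Finset.sum_congr rfl fun P _ => ?_
  by_cases hPQ : S.r P = some Q
  · rw [if_pos hPQ, if_pos hPQ, dv_apply]
  · rw [if_neg hPQ, if_neg hPQ]

/-- If `f` is regular on the fibre of `Q`, then `ord_P f ≤ ord_Q (rd f)` on the fibre. -/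
theorem ord_le_ord_rd (hP : HasPrincipalDivisors K F) {f : F} (hf : S.IsGU f) (Q : Place k F') (hQg : Q ∈ S.good)
    (hreg : ∀ P, S.r P = some Q → 0 ≤ P.ord f) {P : Place K F} (hPQ : S.r P = some Q) :
    P.ord f ≤ Q.ord (S.rd f) := by
  rw [S.ord_rd_eq_sum hP hf Q hQg]
  have hnn : ∀ P' ∈ (dv hP f).support, 0 ≤ (if S.r P' = some Q then P'.ord f else 0) := by
    intro P' _
    split_ifs with h
    · exact hreg P' h
    · exact le_rfl
  by_cases hmem : P ∈ (dv hP f).support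
  · have := le_sum_of_nonneg _ _ hnn hmem
    rwa [if_pos hPQ] at this
  · rw [Finsupp.notMem_support_iff, dv_apply] at hmem
    rw [hmem]
    exact Finset.sum_nonneg hnn

theorem ord_rd_nonneg (hP : HasPrincipalDivisors K F) {f : F} (hf : S.IsGU f) (Q : Place k F') (hQg : Q ∈ S.good)
    (hreg : ∀ P, S.r P = some Q → 0 ≤ P.ord f) : 0 ≤ Q.ord (S.rd f) := by
  rw [S.ord_rd_eq_sum hP hf Q hQg]
  refine Finset.sum_nonneg fun P' _ => ?_
  split_ifs with h
  · exact hreg P' h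
  · exact le_rfl

/-- If `f` is regular on the fibre of `Q` and `rd f` does not vanish at `Q`, then `f` has no zero
on the fibre. -/
theorem ord_eq_zero_of_ord_rd_eq_zero (hP : HasPrincipalDivisors K F) {f : F} (hf : S.IsGU f) (Q : Place k F') (hQg : Q ∈ S.good)
    (hreg : ∀ P, S.r P = some Q → 0 ≤ P.ord f) (hQ : Q.ord (S.rd f) = 0) {P : Place K F}
    (hPQ : S.r P = some Q) : P.ord f = 0 :=
  le_antisymm (hQ ▸ S.ord_le_ord_rd hP hf Q hQg hreg hPQ) (hreg P hPQ)

/-- If all orders of `f` on the fibre of `Q` vanish, `rd f` is a unit at `Q`. -/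
theorem ord_rd_eq_zero (hP : HasPrincipalDivisors K F) {f : F} (hf : S.IsGU f) (Q : Place k F') (hQg : Q ∈ S.good)
    (h0 : ∀ P, S.r P = some Q → P.ord f = 0) : Q.ord (S.rd f) = 0 := by
  rw [S.ord_rd_eq_sum hP hf Q hQg]
  refine Finset.sum_eq_zero fun P' _ => ?_
  split_ifs with h
  · exact h0 P' h
  · rfl

/-- A zero of the reduction lifts to a zero in the fibre (if there is no pole in the fibre). -/
theorem exists_zero_of_ord_rd_pos (hP : HasPrincipalDivisors K F) {f : F} (hf : S.IsGU f) (Q : Place k F') (hQg : Q ∈ S.good)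
    (hQ : 0 < Q.ord (S.rd f)) : ∃ P, S.r P = some Q ∧ 0 < P.ord f := by
  by_contra hcon
  push Not at hcon
  have : Q.ord (S.rd f) ≤ 0 := by
    rw [S.ord_rd_eq_sum hP hf Q hQg]
    refine Finset.sum_nonpos fun P' _ => ?_
    split_ifs with h
    · exact hcon P' h
    · exact le_rfl
  omega

/-- A simple zero of the reduction: exactly one zero in the fibre, and it is simple. -/
theorem exists_unique_zero_of_ord_rd_eq_one (hP : HasPrincipalDivisors K F) {f : F} (hf : S.IsGU f) (Q : Place k F') (hQg : Q ∈ S.good)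
    (hreg : ∀ P, S.r P = some Q → 0 ≤ P.ord f) (hQ : Q.ord (S.rd f) = 1) :
    ∃ P, S.r P = some Q ∧ P.ord f = 1 ∧ ∀ P', S.r P' = some Q → P' ≠ P → P'.ord f = 0 := by
  classical
  obtain ⟨P, hPQ, hpos⟩ := S.exists_zero_of_ord_rd_pos hP hf Q hQg (by omega)
  have hle := S.ord_le_ord_rd hP hf Q hQg hreg hPQ
  have h1 : P.ord f = 1 := by omega
  refine ⟨P, hPQ, h1, fun P' hP'Q hne => ?_⟩
  by_contra h0
  have hpos' : 0 < P'.ord f := lt_of_le_of_ne (hreg P' hP'Q) (Ne.symm h0)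
  -- the sum over the support contains both `P` and `P'`
  have hsum := S.ord_rd_eq_sum hP hf Q hQg
  have hmemP : P ∈ (dv hP f).support := by
    rw [Finsupp.mem_support_iff, dv_apply]; omega
  have hmemP' : P' ∈ (dv hP f).support := by
    rw [Finsupp.mem_support_iff, dv_apply]; omega
  have hnn : ∀ P'' ∈ (dv hP f).support, 0 ≤ (if S.r P'' = some Q then P''.ord f else 0) := by
    intro P'' _
    split_ifs with h
    · exact hreg P'' h
    · exact le_rfl
  have h2 : (∑ P'' ∈ ({P, P'} : Finset (Place K F)), if S.r P'' = some Q then P''.ord f else 0)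
      ≤ ∑ P'' ∈ (dv hP f).support, if S.r P'' = some Q then P''.ord f else 0 := by
    refine Finset.sum_le_sum_of_subset_of_nonneg ?_ fun x hx _ => hnn x hx
    intro x hx
    rw [Finset.mem_insert, Finset.mem_singleton] at hx
    rcases hx with rfl | rfl
    · exact hmemP
    · exact hmemP'
  rw [Finset.sum_pair (Ne.symm hne), if_pos hPQ, if_pos hP'Q, ← hsum, hQ] at h2
  omega

end PRed

namespace PRed

variable {K F k F' : Type*} [Field K] [Field F] [Algebra K F] [Field k] [Field F']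
  [Algebra k F'] (S : PRed K F k F')


theorem exists_rd_eq (y : F') : ∃ u : F, u ∈ S.V ∧ S.rd u = y := by
  obtain ⟨u, hu⟩ := S.red_surj y
  exact ⟨u, u.2, by rw [S.rd_of_mem u.2]; exact hu⟩

/-- Every place of the reduced field lifts. -/
theorem r_surjective (hP : HasPrincipalDivisors K F) (Q : Place k F') (hQg : Q ∈ S.good) : ∃ P, S.r P = some Q := by
  obtain ⟨t, ht0, ht⟩ := H51.exists_uniformizer Q
  obtain ⟨u, hu, hut⟩ := S.exists_rd_eq t
  have hGU : S.IsGU u := ⟨hu, by rw [hut]; exact ht0⟩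
  obtain ⟨P, hPQ, -⟩ := S.exists_zero_of_ord_rd_pos hP hGU Q hQg (by rw [hut, ht]; exact one_pos)
  exact ⟨P, hPQ⟩

/-- The reduction of `L(D) ∩ V`. -/

theorem rd_prod {ι : Type*} (s : Finset ι) (f : ι → F) (hf : ∀ i ∈ s, f i ∈ S.V) :
    (∏ i ∈ s, f i) ∈ S.V ∧ S.rd (∏ i ∈ s, f i) = ∏ i ∈ s, S.rd (f i) := by
  induction s using Finset.induction_on with
  | empty => simp only [Finset.prod_empty]; exact ⟨S.V.one_mem, S.rd_one⟩
  | insert i s hi ih =>
    obtain ⟨h1, h2⟩ := ih fun j hj => hf j (Finset.mem_insert_of_mem hj)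
    have hi' := hf i (Finset.mem_insert_self i s)
    rw [Finset.prod_insert hi, Finset.prod_insert hi]
    exact ⟨S.V.mul_mem _ _ hi' h1, by rw [S.rd_mul hi' h1, h2]⟩

theorem rd_sum {ι : Type*} (s : Finset ι) (f : ι → F) (hf : ∀ i ∈ s, f i ∈ S.V) :
    (∑ i ∈ s, f i) ∈ S.V ∧ S.rd (∑ i ∈ s, f i) = ∑ i ∈ s, S.rd (f i) := by
  induction s using Finset.induction_on with
  | empty => simp only [Finset.sum_empty]; exact ⟨S.V.zero_mem, S.rd_zero⟩
  | insert i s hi ih =>
    obtain ⟨h1, h2⟩ := ih fun j hj => hf j (Finset.mem_insert_of_mem hj)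
    have hi' := hf i (Finset.mem_insert_self i s)
    rw [Finset.sum_insert hi, Finset.sum_insert hi]
    exact ⟨S.V.add_mem _ _ hi' h1, by rw [S.rd_add hi' h1, h2]⟩

variable {S} in
theorem IsGU.prod {ι : Type*} (s : Finset ι) (f : ι → F) (hf : ∀ i ∈ s, S.IsGU (f i)) :
    S.IsGU (∏ i ∈ s, f i) := by
  obtain ⟨h1, h2⟩ := S.rd_prod s f fun i hi => (hf i hi).1
  exact ⟨h1, by rw [h2]; exact Finset.prod_ne_zero_iff.mpr fun i hi => (hf i hi).2⟩

/-- The reduction of an integral constant, as an element of `k`. -/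
theorem rd_const_eq (c : K) (hc : algebraMap K F c ∈ S.V) :
    ∃ c' : k, S.rd (algebraMap K F c) = algebraMap k F' c' :=
  S.rd_algebraMap_mem_range hc

/-- If `c ∉ V` for a constant `c`, then `c⁻¹` is in the maximal ideal. -/
theorem inv_const_of_not_mem {c : K} (hc : algebraMap K F c ∉ S.V) :
    algebraMap K F c⁻¹ ∈ S.V ∧ S.rd (algebraMap K F c⁻¹) = 0 := by
  have h1 : algebraMap K F c⁻¹ ∈ S.V := (S.const_mem_or_inv_mem c).resolve_left hc
  refine ⟨h1, ?_⟩
  by_contra h0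
  have hGU : S.IsGU (algebraMap K F c⁻¹) := ⟨h1, h0⟩
  have := hGU.inv_mem
  rw [map_inv₀, inv_inv] at this
  exact hc this

/-- **Evaluation is compatible with reduction.** -/
theorem const_of_vanAt (hP : HasPrincipalDivisors K F) {w : F} (hw : w ∈ S.V)
    {Q : Place k F'} (hQg : Q ∈ S.good) (hreg : ∀ P, S.r P = some Q → 0 ≤ P.ord w) {X : Place K F} (hX : S.r X = some Q)
    {e : K} (he : VanAt X (w - algebraMap K F e)) :
    algebraMap K F e ∈ S.V ∧ VanAt Q (S.rd w - S.rd (algebraMap K F e)) := by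
  have hregw : ∀ P, S.r P = some Q → RegAt P w := fun P hPQ => regAt_of_ord_nonneg (hreg P hPQ)
  have hmem : algebraMap K F e ∈ S.V := by
    by_contra hne
    obtain ⟨h1, h2⟩ := S.inv_const_of_not_mem hne
    have he0 : e ≠ 0 := by
      rintro rfl
      rw [map_zero] at hne
      exact hne S.V.zero_mem
    set z : F := algebraMap K F e⁻¹ * w - 1 with hz
    have hz1 : algebraMap K F e⁻¹ * w ∈ S.V := S.V.mul_mem _ _ h1 hw
    have hzV : z ∈ S.V := S.V.sub_mem hz1 S.V.one_mem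
    have hzr : S.rd z = -1 := by
      rw [hz, S.rd_sub hz1 S.V.one_mem, S.rd_mul h1 hw, h2, zero_mul, S.rd_one, zero_sub]
    have hGU : S.IsGU z := ⟨hzV, by rw [hzr]; exact neg_ne_zero.mpr one_ne_zero⟩
    have hzreg : ∀ P, S.r P = some Q → 0 ≤ P.ord z := fun P hPQ =>
      (((regAt_algebraMap P e⁻¹).mul (hregw P hPQ)).sub (regAt_one P)).ord_nonneg
    have hQz : Q.ord (S.rd z) = 0 := by
      rw [hzr]
      have : (-1 : F') = algebraMap k F' (-1) := by rw [map_neg, map_one]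
      rw [this]
      exact ord_algebraMap Q _
    have h3 := S.ord_eq_zero_of_ord_rd_eq_zero hP hGU Q hQg hzreg hQz hX
    have h4 : z = algebraMap K F e⁻¹ * (w - algebraMap K F e) := by
      rw [hz, mul_sub, ← map_mul, inv_mul_cancel₀ he0, map_one]
    have h5 : VanAt X z := by
      rw [h4]
      exact (regAt_algebraMap X e⁻¹).mul_vanAt he
    have := h5.ord_pos hGU.ne_zero
    omega
  refine ⟨hmem, ?_⟩
  rw [← S.rd_sub hw hmem]
  by_cases h0 : S.rd (w - algebraMap K F e) = 0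
  · rw [h0]
    exact vanAt_zero Q
  have hGU : S.IsGU (w - algebraMap K F e) := ⟨S.V.sub_mem hw hmem, h0⟩
  have hzreg : ∀ P, S.r P = some Q → 0 ≤ P.ord (w - algebraMap K F e) := fun P hPQ =>
    ((hregw P hPQ).sub (regAt_algebraMap P e)).ord_nonneg
  have h1 := S.ord_le_ord_rd hP hGU Q hQg hzreg hX
  have h2 := he.ord_pos hGU.ne_zero
  exact vanAt_of_ord_pos (by omega)

/-- The value at a place of the fibre of a Gauss unit with constant reduction. -/
theorem const_of_vanAt_of_rd_const (hP : HasPrincipalDivisors K F) {w : F} (hw : w ∈ S.V)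
    {Q : Place k F'} (hQg : Q ∈ S.good) (hreg : ∀ P, S.r P = some Q → 0 ≤ P.ord w) {X : Place K F} (hX : S.r X = some Q)
    {e : K} (he : VanAt X (w - algebraMap K F e)) {c' : k} (hc : S.rd w = algebraMap k F' c') :
    algebraMap K F e ∈ S.V ∧ S.rd (algebraMap K F e) = S.rd w := by
  obtain ⟨h1, h2⟩ := S.const_of_vanAt hP hw hQg hreg hX he
  refine ⟨h1, ?_⟩
  obtain ⟨e', he'⟩ := S.rd_const_eq e h1
  rw [hc, he', ← map_sub] at h2
  have := const_eq_zero_of_vanAt h2
  rw [hc, he']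
  rw [sub_eq_zero] at this
  rw [this]

/-! ### The coordinate on a residue disc -/

/-- Data: `s` is a Gauss unit, regular on the fibre of `Q`, whose reduction has a simple zero at
`Q`. -/
structure IsCoord (s : F) (Q : Place k F') : Prop where
  good : Q ∈ S.good
  isGU : S.IsGU s
  reg : ∀ P, S.r P = some Q → 0 ≤ P.ord s
  ord_one : Q.ord (S.rd s) = 1

variable {S}

theorem IsCoord.sub_const {s : F} {Q : Place k F'} (h : S.IsCoord s Q) {a : K}
    (ha : algebraMap K F a ∈ S.V) (ha0 : S.rd (algebraMap K F a) = 0) :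
    S.IsCoord (s - algebraMap K F a) Q := by
  have hrd : S.rd (s - algebraMap K F a) = S.rd s := by
    rw [S.rd_sub h.isGU.1 ha, ha0, sub_zero]
  refine ⟨h.good, ⟨S.V.sub_mem h.isGU.1 ha, by rw [hrd]; exact h.isGU.2⟩, fun P hPQ => ?_, by
    rw [hrd]; exact h.ord_one⟩
  exact ((regAt_of_ord_nonneg (h.reg P hPQ)).sub (regAt_algebraMap P a)).ord_nonneg

/-- The unique zero of a coordinate in the fibre. -/
theorem IsCoord.exists_zero (hP : HasPrincipalDivisors K F) {s : F} {Q : Place k F'}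
    (h : S.IsCoord s Q) :
    ∃ X, S.r X = some Q ∧ X.ord s = 1 ∧ ∀ P, S.r P = some Q → P ≠ X → P.ord s = 0 :=
  S.exists_unique_zero_of_ord_rd_eq_one hP h.isGU Q h.good h.reg h.ord_one

/-- The value of a coordinate at a place of the fibre lies in the maximal ideal. -/
theorem IsCoord.exists_value (hP : HasPrincipalDivisors K F)
    (hdeg : ∀ v : Place K F, v.deg = 1) {s : F} {Q : Place k F'} (h : S.IsCoord s Q)
    {X : Place K F} (hX : S.r X = some Q) :
    ∃ a : K, algebraMap K F a ∈ S.V ∧ S.rd (algebraMap K F a) = 0 ∧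
      VanAt X (s - algebraMap K F a) := by
  obtain ⟨a, ha⟩ := _root_.Fermat.Agent.RED.H17.exists_value X (hdeg X)
    (regAt_of_ord_nonneg (h.reg X hX))
  obtain ⟨h1, h2⟩ := S.const_of_vanAt hP h.isGU.1 h.good h.reg hX ha
  refine ⟨a, h1, ?_, ha⟩
  obtain ⟨a', ha'⟩ := S.rd_const_eq a h1
  have h3 : VanAt Q (S.rd s) := vanAt_of_ord_pos (by rw [h.ord_one]; exact one_pos)
  have h4 : VanAt Q (S.rd (algebraMap K F a)) := by
    have := h3.sub h2
    rwa [sub_sub_cancel] at this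
  rw [ha'] at h4 ⊢
  rw [const_eq_zero_of_vanAt h4, map_zero]

/-- On the fibre of `Q`, the order of `s - a` is the indicator of the place with coordinate
`a`. -/
theorem IsCoord.ord_sub_eq (hP : HasPrincipalDivisors K F) {s : F} {Q : Place k F'}
    (h : S.IsCoord s Q) {a : K} (ha : algebraMap K F a ∈ S.V)
    (ha0 : S.rd (algebraMap K F a) = 0) {X : Place K F} (hX : S.r X = some Q)
    (hXa : VanAt X (s - algebraMap K F a)) {P : Place K F} (hPQ : S.r P = some Q) :
    P.ord (s - algebraMap K F a) = if P = X then 1 else 0 := by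
  have hc := h.sub_const ha ha0
  obtain ⟨X', hX', h1, h2⟩ := hc.exists_zero hP
  have hXX' : X = X' := by
    by_contra hne
    have h3 := h2 X hX hne
    have h4 := hXa.ord_pos hc.isGU.ne_zero
    omega
  subst hXX'
  split_ifs with hPX
  · rw [hPX]; exact h1
  · exact h2 P hPQ hPX


variable (S)

/-- Regularity of the reduction from regularity on the fibre. -/
theorem regAt_rd (hP : HasPrincipalDivisors K F) {w : F} (hw : w ∈ S.V) {Q : Place k F'} (hQg : Q ∈ S.good)
    (hreg : ∀ P, S.r P = some Q → 0 ≤ P.ord w) : RegAt Q (S.rd w) := by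
  by_cases h0 : S.rd w = 0
  · rw [h0]; exact regAt_zero Q
  · exact regAt_of_ord_nonneg (S.ord_rd_nonneg hP ⟨hw, h0⟩ Q hQg hreg)

/-- Vanishing of the reduction from vanishing at a place of the fibre. -/
theorem vanAt_rd (hP : HasPrincipalDivisors K F) {w : F} (hw : w ∈ S.V) {Q : Place k F'} (hQg : Q ∈ S.good)
    (hreg : ∀ P, S.r P = some Q → 0 ≤ P.ord w) {X : Place K F} (hX : S.r X = some Q)
    (hXw : VanAt X w) : VanAt Q (S.rd w) := by
  by_cases h0 : S.rd w = 0
  · rw [h0]; exact vanAt_zero Q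
  · have hGU : S.IsGU w := ⟨hw, h0⟩
    have h1 := S.ord_le_ord_rd hP hGU Q hQg hreg hX
    have h2 := hXw.ord_pos hGU.ne_zero
    exact vanAt_of_ord_pos (by omega)


theorem natCast_mem_V (n : ℕ) : (n : F) ∈ S.V := natCast_mem S.V n

theorem rd_natCast (n : ℕ) : S.rd (n : F) = (n : F') := by
  rw [S.rd_of_mem (S.natCast_mem_V n)]
  have : (⟨(n : F), S.natCast_mem_V n⟩ : S.V) = (n : S.V) := rfl
  rw [this, map_natCast]

/-- A common scale for finitely many elements of the maximal ideal, not all zero. -/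
theorem exists_scale_max (I : Finset F) (hI : ∀ z ∈ I, z ∈ S.V ∧ S.rd z = 0)
    (hne : ∃ z ∈ I, z ≠ 0) :
    ∃ c : K, c ≠ 0 ∧ algebraMap K F c⁻¹ ∈ S.V ∧ S.rd (algebraMap K F c⁻¹) = 0 ∧
      (∀ z ∈ I, algebraMap K F c * z ∈ S.V) ∧ ∃ z ∈ I, S.IsGU (algebraMap K F c * z) := by
  obtain ⟨z₁, hz₁, hz₁0⟩ := hne
  obtain ⟨z₀, hz₀, hmax⟩ := I.exists_max_image S.V.valuation ⟨z₁, hz₁⟩
  have hz₀0 : z₀ ≠ 0 := by
    rintro rfl
    have := hmax z₁ hz₁
    rw [map_zero, le_zero_iff, Valuation.zero_iff] at this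
    exact hz₁0 this
  obtain ⟨c, hc, hGU⟩ := S.exists_isGU_scale hz₀0
  have hcF : algebraMap K F c ≠ 0 := (map_ne_zero_iff _ (algebraMap K F).injective).mpr hc
  have hd : algebraMap K F c⁻¹ = z₀ * (algebraMap K F c * z₀)⁻¹ := by
    rw [map_inv₀]
    field_simp
  refine ⟨c, hc, ?_, ?_, ?_, z₀, hz₀, hGU⟩
  · rw [hd]
    exact S.V.mul_mem _ _ (hI z₀ hz₀).1 hGU.inv_mem
  · rw [hd, S.rd_mul (hI z₀ hz₀).1 hGU.inv_mem, (hI z₀ hz₀).2, zero_mul]
  · intro z hz
    rw [← ValuationSubring.valuation_le_one_iff, map_mul]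
    calc S.V.valuation (algebraMap K F c) * S.V.valuation z
        ≤ S.V.valuation (algebraMap K F c) * S.V.valuation z₀ :=
          mul_le_mul_right (hmax z hz) _
      _ = S.V.valuation (algebraMap K F c * z₀) := (map_mul _ _ _).symm
      _ ≤ 1 := (ValuationSubring.valuation_le_one_iff _ _).mpr hGU.1


end PRed

end Fermat.Agent.BAD
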