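import Fermat.Agent.RED.H17_FF

/-!
# Item 65, package ABS (helper28): statements of the open leaf packages P1, EVAL, ALG

Plan: `NOTES/plan/BAD_ABS.md`.  Definitions of statements only; proofs go to separate files
(`Fermat/Agent/BAD/Hnn_*.lean`).
-/

set_option autoImplicit false

noncomputable section

open AlgebraicCurve

namespace Fermat.Agent.BAD

open Fermat.Agent.RED.H17

local notation "L" => riemannRochSpace

/-- **P1 (NS, general).**  On a function field with Riemann's theorem (genus `g`): if
`l(G) = l₀` and `deg G + m ≤ g - 1 + l₀`, then there are `m` distinct places `A`, outside a given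
finite set `T`, with `l(G + ∑ A) = l₀`. -/
def Stmt_NS : Prop :=
  ∀ (k F : Type) [Field k] [Field F] [Algebra k F] [Infinite k], FFHyp k F →
    ∀ (g : ℕ) (c : ℤ), IsGenus k F g c →
    ∀ (G : Divisor k F) (T : Finset (Place k F)) (m l₀ : ℕ),
      Module.finrank k (L G) = l₀ → Divisor.degree G + m ≤ (g : ℤ) - 1 + l₀ →
      ∃ A : Finset (Place k F), A.card = m ∧ Disjoint A T ∧
        Module.finrank k (L (G + ptsDiv A)) = l₀

/-- **P1 (negative degree).**  `L(G) = 0` if `deg G < 0`. -/
def Stmt_LNeg : Prop :=
  ∀ (k F : Type) [Field k] [Field F] [Algebra k F], FFHyp k F →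
    ∀ G : Divisor k F, Divisor.degree G < 0 → L G = ⊥

/-- **EVAL.**  The value at a place of degree one: a `k`-algebra homomorphism from the valuation
ring of the place to `k`, whose kernel consists of the functions vanishing at the place. -/
def Stmt_Eval : Prop :=
  ∀ (k F : Type) [Field k] [Field F] [Algebra k F] (v : Place k F), v.deg = 1 →
    ∃ ev : v.toValuationSubring →ₐ[k] k,
      ∀ (x : v.toValuationSubring) (a : k),
        ev x = a ↔ VanAt v ((x : F) - algebraMap k F a)

/-- **ALG (linearisation).**  Over an infinite field in which `n ≠ 0`: if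
`(A + t A₀)^n = lam (B + t B₀)^n` for all `t`, with `A₀ ≠ 0`, then `A B₀ = B A₀`. -/
def Stmt_Ratio : Prop :=
  ∀ (k : Type) [Field k] [Infinite k] (n : ℕ), (n : k) ≠ 0 →
    ∀ A A₀ B B₀ lam : k, A₀ ≠ 0 →
      (∀ t : k, (A + t * A₀) ^ n = lam * (B + t * B₀) ^ n) → A * B₀ = B * A₀

/-- **ALG (avoidance).**  A vector space over an infinite field is not the union of finitely
many proper subspaces: there is a vector outside all of them. -/
def Stmt_Avoid : Prop :=
  ∀ (k V : Type) [Field k] [Infinite k] [AddCommGroup V] [Module k V] (ι : Type)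
    (s : Finset ι) (W : ι → Submodule k V), (∀ i ∈ s, W i ≠ ⊤) →
    ∃ v : V, ∀ i ∈ s, v ∉ W i

end Fermat.Agent.BAD
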