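import Fermat.Agent.BAD.H28_PRed
import Fermat.Agent.BAD.H28_Stmts

/-!
# Item 65, package ABS (helper28): skeleton of the proof of `Stmt_ABS`

Definitions (`SSD.IsNodeP`, `SSD.GoodPos`, `SSD.push₁/₂`, `SSD.Rsub`, `SSD.Lam`, `SSD.Twist`) and
the exact statements of the packages P2 .. P7 of `NOTES/plan/BAD_ABS.md`, as `Prop`s.
Each package is proved in its own file `Fermat/Agent/BAD/Hnn_*.lean` (statements of other
packages may be used as hypotheses).  This file contains no `sorry`.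
-/

set_option autoImplicit false
set_option linter.style.haveILetI false

noncomputable section

open AlgebraicCurve

attribute [local instance] Classical.propDecidable

namespace Fermat.Agent.BAD

open Fermat.Agent.RED.H17 Fermat.Agent.RED

local notation "L" => riemannRochSpace

namespace SSD

variable {K F k F₁ F₂ : Type*} [Field K] [Field F] [Algebra K F] [Field k] [Field F₁]
  [Algebra k F₁] [Field F₂] [Algebra k F₂] (S : SSD K F k F₁ F₂)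

/-- The place `P` reduces to a node. -/
def IsNodeP (P : Place K F) : Prop := ∃ s ∈ S.nodes, S.c₁.r P = some s.1

/-- The divisor `D` is in good position: no place of its support reduces to a node. -/
def GoodPos (D : Divisor K F) : Prop := ∀ P, D P ≠ 0 → ¬ S.IsNodeP P

/-- Push-forward of a divisor to the first component. -/
def push₁ (D : Divisor K F) : Divisor k F₁ := (Finsupp.mapDomain S.c₁.r D).some

/-- Push-forward of a divisor to the second component. -/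
def push₂ (D : Divisor K F) : Divisor k F₂ := (Finsupp.mapDomain S.c₂.r D).some

theorem push₁_apply (D : Divisor K F) (Q : Place k F₁) :
    S.push₁ D Q = Finsupp.mapDomain S.c₁.r D (some Q) := Finsupp.some_apply _ _

theorem push₂_apply (D : Divisor K F) (Q : Place k F₂) :
    S.push₂ D Q = Finsupp.mapDomain S.c₂.r D (some Q) := Finsupp.some_apply _ _

/-- The branches of the nodes on the first component. -/
def br₁ : Finset (Place k F₁) := S.nodes.image Prod.fst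

/-- The branches of the nodes on the second component. -/
def br₂ : Finset (Place k F₂) := S.nodes.image Prod.snd

/-- Lifting constants of the residue field, integral for both valuations. -/
theorem exists_const (a : k) : ∃ c : K, algebraMap K F c ∈ S.c₁.V ∧ algebraMap K F c ∈ S.c₂.V ∧
    S.c₁.rd (algebraMap K F c) = algebraMap k F₁ a ∧
    S.c₂.rd (algebraMap K F c) = algebraMap k F₂ a := by
  obtain ⟨c, h₁, hc⟩ := S.c₁.const_surj a
  have h₂ := (S.const_mem c).mp h₁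
  refine ⟨c, h₁, h₂, ?_, ?_⟩
  · rw [S.c₁.rd_of_mem h₁]; exact hc
  · rw [S.c₂.rd_of_mem h₂]; exact S.const_red c h₁ h₂ a hc

/-- The reduction of the unit ball of `L(D)` for the pair of norms `|h|₁`, `|ϑ h|₂`: the set of
pairs `(red₁ h, red₂ (ϑ h))`, `h ∈ L(D)`, `h ∈ V₁`, `ϑ h ∈ V₂`. -/
def Rsub (ϑ : F) (D : Divisor K F) : Submodule k (F₁ × F₂) where
  carrier := {ψ | ∃ h : F, h ∈ L D ∧ h ∈ S.c₁.V ∧ ϑ * h ∈ S.c₂.V ∧
    S.c₁.rd h = ψ.1 ∧ S.c₂.rd (ϑ * h) = ψ.2}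
  zero_mem' := ⟨0, (L D).zero_mem, S.c₁.V.zero_mem, by rw [mul_zero]; exact S.c₂.V.zero_mem,
    S.c₁.rd_zero, by rw [mul_zero]; exact S.c₂.rd_zero⟩
  add_mem' := by
    rintro ψ ψ' ⟨h, hL, h1, h2, e1, e2⟩ ⟨h', hL', h1', h2', e1', e2'⟩
    refine ⟨h + h', (L D).add_mem hL hL', S.c₁.V.add_mem _ _ h1 h1', ?_, ?_, ?_⟩
    · rw [mul_add]; exact S.c₂.V.add_mem _ _ h2 h2'
    · rw [S.c₁.rd_add h1 h1', e1, e1']; rfl
    · rw [mul_add, S.c₂.rd_add h2 h2', e2, e2']; rfl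
  smul_mem' := by
    rintro a ψ ⟨h, hL, h1, h2, e1, e2⟩
    obtain ⟨c, hc1, hc2, hr1, hr2⟩ := S.exists_const a
    refine ⟨algebraMap K F c * h, ?_, S.c₁.V.mul_mem _ _ hc1 h1, ?_, ?_, ?_⟩
    · rw [← Algebra.smul_def]; exact (L D).smul_mem c hL
    · rw [mul_left_comm]; exact S.c₂.V.mul_mem _ _ hc2 h2
    · rw [S.c₁.rd_mul hc1 h1, hr1, e1, Prod.smul_fst, Algebra.smul_def]
    · rw [mul_left_comm, S.c₂.rd_mul hc2 h2, hr2, e2, Prod.smul_snd, Algebra.smul_def]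

theorem mem_Rsub {ϑ : F} {D : Divisor K F} {ψ : F₁ × F₂} :
    ψ ∈ S.Rsub ϑ D ↔ ∃ h : F, h ∈ L D ∧ h ∈ S.c₁.V ∧ ϑ * h ∈ S.c₂.V ∧
      S.c₁.rd h = ψ.1 ∧ S.c₂.rd (ϑ * h) = ψ.2 := Iff.rfl

/-- The space of pairs `(ψ₁, ψ₂) ∈ L(G₁) × L(G₂)` which are glued at the nodes with the
multipliers `lam`: `ψ₁(s₁) = lam_s ψ₂(s₂)` for every node `s = (s₁, s₂)`. -/
def Lam (lam : Place k F₁ × Place k F₂ → k) (G₁ : Divisor k F₁) (G₂ : Divisor k F₂) :
    Submodule k (F₁ × F₂) where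
  carrier := {ψ | ψ.1 ∈ L G₁ ∧ ψ.2 ∈ L G₂ ∧ ∀ s ∈ S.nodes, ∃ a : k,
    VanAt s.1 (ψ.1 - algebraMap k F₁ a) ∧
    VanAt s.2 (algebraMap k F₂ (lam s) * ψ.2 - algebraMap k F₂ a)}
  zero_mem' := ⟨(L G₁).zero_mem, (L G₂).zero_mem, fun s _ => ⟨0, by
    simp only [Prod.fst_zero, map_zero, sub_zero]; exact vanAt_zero _, by
    simp only [Prod.snd_zero, mul_zero, map_zero, sub_zero]; exact vanAt_zero _⟩⟩
  add_mem' := by
    rintro ψ ψ' ⟨h1, h2, h3⟩ ⟨h1', h2', h3'⟩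
    refine ⟨(L G₁).add_mem h1 h1', (L G₂).add_mem h2 h2', fun s hs => ?_⟩
    obtain ⟨a, ha1, ha2⟩ := h3 s hs
    obtain ⟨a', ha1', ha2'⟩ := h3' s hs
    refine ⟨a + a', ?_, ?_⟩
    · have := ha1.add ha1'
      rw [Prod.fst_add, map_add]
      convert this using 1
      ring
    · have := ha2.add ha2'
      rw [Prod.snd_add, map_add]
      convert this using 1
      ring
  smul_mem' := by
    rintro c ψ ⟨h1, h2, h3⟩
    refine ⟨(L G₁).smul_mem c h1, (L G₂).smul_mem c h2, fun s hs => ?_⟩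
    obtain ⟨a, ha1, ha2⟩ := h3 s hs
    refine ⟨c * a, ?_, ?_⟩
    · have := (regAt_algebraMap s.1 c).mul_vanAt ha1
      rw [Prod.smul_fst, Algebra.smul_def, map_mul]
      convert this using 1
      ring
    · have := (regAt_algebraMap s.2 c).mul_vanAt ha2
      rw [Prod.smul_snd, Algebra.smul_def, map_mul]
      convert this using 1
      ring

theorem mem_Lam {lam : Place k F₁ × Place k F₂ → k} {G₁ : Divisor k F₁} {G₂ : Divisor k F₂}
    {ψ : F₁ × F₂} :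
    ψ ∈ S.Lam lam G₁ G₂ ↔ ψ.1 ∈ L G₁ ∧ ψ.2 ∈ L G₂ ∧ ∀ s ∈ S.nodes, ∃ a : k,
      VanAt s.1 (ψ.1 - algebraMap k F₁ a) ∧
      VanAt s.2 (algebraMap k F₂ (lam s) * ψ.2 - algebraMap k F₂ a) := Iff.rfl

/-- **Twist datum** of a function `f` with `red₁ f = 1` and divisor divisible by `n`:
`f = ϑ ^ n f₂` with `f₂` a unit for `V₂` whose reduction `γ` has no zero or pole at the branches
of the nodes. -/
structure Twist (n : ℕ) where
  /-- the function -/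
  f : F
  /-- the twist -/
  ϑ : F
  hϑ : ϑ ≠ 0
  hf₁ : f ∈ S.c₁.V
  hrd₁ : S.c₁.rd f = 1
  hf₂ : S.c₂.IsGU (f / ϑ ^ n)
  hdiv : ∀ P : Place K F, (n : ℤ) ∣ P.ord f
  hγ : ∀ s ∈ S.nodes, s.2.ord (S.c₂.rd (f / ϑ ^ n)) = 0

namespace Twist

variable {S} {n : ℕ} (x : S.Twist n)

/-- The reduction of `f / ϑ ^ n` on the second component. -/
def γ : F₂ := S.c₂.rd (x.f / x.ϑ ^ n)

/-- The divisor `(1/n) div f`. -/
def Dx (hP : HasPrincipalDivisors K F) : Divisor K F :=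
  (dv hP x.f).mapRange (fun m : ℤ => m / (n : ℤ)) (by simp)

/-- The divisor `(1/n) div γ`. -/
def Δ (hP₂ : HasPrincipalDivisors k F₂) : Divisor k F₂ :=
  (dv hP₂ x.γ).mapRange (fun m : ℤ => m / (n : ℤ)) (by simp)

end Twist

end SSD

/-! ### The packages -/

section Stmts

/-- **P2 (ii), twisted pivot**: the reduction of the unit ball of `L(D)` has dimension at least
`l(D)` (if it is finite-dimensional). -/
def Stmt_Pivot : Prop :=
  ∀ (K F k F₁ F₂ : Type) [Field K] [Field F] [Algebra K F] [Field k] [Field F₁]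
    [Algebra k F₁] [Field F₂] [Algebra k F₂] [Infinite k]
    (S : SSD K F k F₁ F₂), FFHyp K F → FFHyp k F₁ → FFHyp k F₂ →
    ∀ (ϑ : F), ϑ ≠ 0 → ∀ D : Divisor K F, Module.Finite k (S.Rsub ϑ D) →
      Module.finrank K (L D) ≤ Module.finrank k (S.Rsub ϑ D)

/-- **P2 (i), containment**: for a twist datum `x` and `G` in good position, the reduction of
the unit ball of `L(D_x + G)` lies in `L₁(r₁_* G) × L₂(r₂_* G + Δ)`, and its elements satisfy the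
`n`-th power gluing condition at the nodes. -/
def Stmt_Contain : Prop :=
  ∀ (K F k F₁ F₂ : Type) [Field K] [Field F] [Algebra K F] [Field k] [Field F₁]
    [Algebra k F₁] [Field F₂] [Algebra k F₂]
    (S : SSD K F k F₁ F₂) (H : FFHyp K F) (_ : FFHyp k F₁) (H₂ : FFHyp k F₂)
    (n : ℕ), (n : k) ≠ 0 → ∀ (x : S.Twist n) (G : Divisor K F), S.GoodPos G →
    ∀ ψ ∈ S.Rsub x.ϑ (x.Dx H.principal + G),
      ψ.1 ∈ L (S.push₁ G) ∧ ψ.2 ∈ L (S.push₂ G + x.Δ H₂.principal) ∧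
      ∀ s ∈ S.nodes, ∃ a : k, VanAt s.1 (ψ.1 ^ n - algebraMap k F₁ a) ∧
        VanAt s.2 (x.γ * ψ.2 ^ n - algebraMap k F₂ a)

/-- **P3, linearisation**: a `k`-subspace of pairs satisfying the `n`-th power gluing condition
satisfies a linear gluing condition. -/
def Stmt_Linearise : Prop :=
  ∀ (k F₁ F₂ : Type) [Field k] [Field F₁] [Algebra k F₁] [Field F₂] [Algebra k F₂]
    [Infinite k], FFHyp k F₁ → FFHyp k F₂ →
    ∀ (nodes : Finset (Place k F₁ × Place k F₂)) (n : ℕ), (n : k) ≠ 0 →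
    ∀ (γ : F₂), γ ≠ 0 → (∀ s ∈ nodes, s.2.ord γ = 0) →
    ∀ I : Submodule k (F₁ × F₂),
      (∀ ψ ∈ I, ∀ s ∈ nodes, ∃ a : k, VanAt s.1 (ψ.1 ^ n - algebraMap k F₁ a) ∧
        VanAt s.2 (γ * ψ.2 ^ n - algebraMap k F₂ a)) →
      ∃ lam : Place k F₁ × Place k F₂ → k, (∀ s ∈ nodes, lam s ≠ 0) ∧
        ∀ ψ ∈ I, ∀ s ∈ nodes, ∃ a : k, VanAt s.1 (ψ.1 - algebraMap k F₁ a) ∧
          VanAt s.2 (algebraMap k F₂ (lam s) * ψ.2 - algebraMap k F₂ a)

/-- **P3, count**: `dim Λ^λ(G₁, G₂) ≤ l₁(G₁ - ∑ s₁) + l₂(G₂ - ∑ s₂) + δ`. -/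
def Stmt_LamCount : Prop :=
  ∀ (K F k F₁ F₂ : Type) [Field K] [Field F] [Algebra K F] [Field k] [Field F₁]
    [Algebra k F₁] [Field F₂] [Algebra k F₂]
    (S : SSD K F k F₁ F₂), FFHyp k F₁ → FFHyp k F₂ →
    ∀ (lam : Place k F₁ × Place k F₂ → k), (∀ s ∈ S.nodes, lam s ≠ 0) →
    ∀ (G₁ : Divisor k F₁) (G₂ : Divisor k F₂),
      (∀ s ∈ S.nodes, G₁ s.1 = 0) → (∀ s ∈ S.nodes, G₂ s.2 = 0) →
      Module.finrank k (S.Lam lam G₁ G₂) ≤
        Module.finrank k (L (G₁ - ptsDiv S.br₁)) + Module.finrank k (L (G₂ - ptsDiv S.br₂)) +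
          S.nodes.card

/-- **P3, surjectivity of the twisted reduction**: for `G` in good position of large degree on
both components, the reduction of the unit ball of `L(D_x + G)` is the whole of `Λ^λ`, for
suitable multipliers `λ`. -/
def Stmt_TwSurj : Prop :=
  ∀ (K F k F₁ F₂ : Type) [Field K] [Field F] [Algebra K F] [Field k] [Field F₁]
    [Algebra k F₁] [Field F₂] [Algebra k F₂] [Infinite k]
    (S : SSD K F k F₁ F₂) (H : FFHyp K F) (_ : FFHyp k F₁) (H₂ : FFHyp k F₂)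
    (g g₁ g₂ : ℕ) (c c₁ c₂ : ℤ), IsGenus K F g c → IsGenus k F₁ g₁ c₁ → IsGenus k F₂ g₂ c₂ →
    g + 1 ≤ g₁ + g₂ + S.nodes.card →
    ∀ (n : ℕ), (n : k) ≠ 0 → ∀ (x : S.Twist n) (G : Divisor K F), S.GoodPos G →
      c₁ + S.nodes.card ≤ Divisor.degree (S.push₁ G) →
      c₂ + S.nodes.card ≤ Divisor.degree (S.push₂ G) →
      ∃ lam : Place k F₁ × Place k F₂ → k, (∀ s ∈ S.nodes, lam s ≠ 0) ∧
        S.Rsub x.ϑ (x.Dx H.principal + G) =
          S.Lam lam (S.push₁ G) (S.push₂ G + x.Δ H₂.principal) ∧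
        (Module.finrank k (S.Lam lam (S.push₁ G) (S.push₂ G + x.Δ H₂.principal)) : ℤ) =
          Divisor.degree G + 2 - g₁ - g₂ - S.nodes.card

/-- **Existence of twist data.** -/
def Stmt_TwistExists : Prop :=
  ∀ (K F k F₁ F₂ : Type) [Field K] [Field F] [Algebra K F] [Field k] [Field F₁]
    [Algebra k F₁] [Field F₂] [Algebra k F₂] [IsAlgClosed K]
    (S : SSD K F k F₁ F₂), FFHyp K F → FFHyp k F₁ → FFHyp k F₂ →
    ∀ (n : ℕ), n ≠ 0 → ∀ (f : F) (hf : f ∈ S.c₁.V), S.c₁.red ⟨f, hf⟩ = 1 →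
      (∀ P : Place K F, (n : ℤ) ∣ P.ord f) → ∃ x : S.Twist n, x.f = f

/-- **P4, good lifts**: a pair of functions on the two components, regular at the branches of
the nodes with equal values there, lifts to a function integral for both valuations, regular on
the fibres of the nodes and of finitely many prescribed regular points where the pair is
regular. -/
def Stmt_GoodLift : Prop :=
  ∀ (K F k F₁ F₂ : Type) [Field K] [Field F] [Algebra K F] [Field k] [Field F₁]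
    [Algebra k F₁] [Field F₂] [Algebra k F₂] [Infinite k]
    (S : SSD K F k F₁ F₂), FFHyp K F → FFHyp k F₁ → FFHyp k F₂ →
    ∀ (g g₁ g₂ : ℕ) (c c₁ c₂ : ℤ), IsGenus K F g c → IsGenus k F₁ g₁ c₁ → IsGenus k F₂ g₂ c₂ →
    g + 1 ≤ g₁ + g₂ + S.nodes.card →
    ∀ (y₁ : F₁) (y₂ : F₂) (T₁ : Finset (Place k F₁)) (T₂ : Finset (Place k F₂)),
      (∀ Q ∈ T₁, 0 ≤ Q.ord y₁) → (∀ Q ∈ T₂, 0 ≤ Q.ord y₂) →
      (∀ s ∈ S.nodes, ∃ a : k, VanAt s.1 (y₁ - algebraMap k F₁ a) ∧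
        VanAt s.2 (y₂ - algebraMap k F₂ a)) →
      ∃ u : F, u ∈ S.c₁.V ∧ u ∈ S.c₂.V ∧ S.c₁.rd u = y₁ ∧ S.c₂.rd u = y₂ ∧
        (∀ P, ∀ Q ∈ T₁, S.c₁.r P = some Q → 0 ≤ P.ord u) ∧
        (∀ P, ∀ Q ∈ T₂, S.c₂.r P = some Q → 0 ≤ P.ord u) ∧
        ∀ P, S.IsNodeP P → 0 ≤ P.ord u

/-- **P1', non-special pair on the nodal curve.** -/
def Stmt_NodalNS : Prop :=
  ∀ (K F k F₁ F₂ : Type) [Field K] [Field F] [Algebra K F] [Field k] [Field F₁]
    [Algebra k F₁] [Field F₂] [Algebra k F₂] [Infinite k]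
    (S : SSD K F k F₁ F₂), FFHyp k F₁ → FFHyp k F₂ →
    ∀ (g₁ g₂ : ℕ) (c₁ c₂ : ℤ), IsGenus k F₁ g₁ c₁ → IsGenus k F₂ g₂ c₂ →
    ∀ (T₁ : Finset (Place k F₁)) (T₂ : Finset (Place k F₂)),
    ∃ (A₁ : Finset (Place k F₁)) (A₂ : Finset (Place k F₂)),
      A₁.card + A₂.card + 1 = g₁ + g₂ + S.nodes.card ∧
      Disjoint A₁ (S.br₁ ∪ T₁) ∧ Disjoint A₂ (S.br₂ ∪ T₂) ∧
      ∀ ψ₁ ∈ L (ptsDiv A₁), ∀ ψ₂ ∈ L (ptsDiv A₂),
        (∀ s ∈ S.nodes, ∃ a : k, VanAt s.1 (ψ₁ - algebraMap k F₁ a) ∧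
          VanAt s.2 (ψ₂ - algebraMap k F₂ a)) →
        ∃ a : k, ψ₁ = algebraMap k F₁ a ∧ ψ₂ = algebraMap k F₂ a

/-- **P5, torsion injectivity in good position** (TI-ss-gp). -/
def Stmt_TIss : Prop :=
  ∀ (K F k F₁ F₂ : Type) [Field K] [Field F] [Algebra K F] [Field k] [Field F₁]
    [Algebra k F₁] [Field F₂] [Algebra k F₂] [IsAlgClosed K] [Infinite k]
    (S : SSD K F k F₁ F₂), FFHyp K F → FFHyp k F₁ → FFHyp k F₂ →
    ∀ (g g₁ g₂ : ℕ) (c c₁ c₂ : ℤ), IsGenus K F g c → IsGenus k F₁ g₁ c₁ → IsGenus k F₂ g₂ c₂ →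
    g + 1 ≤ g₁ + g₂ + S.nodes.card →
    ∀ (n : ℕ), (n : k) ≠ 0 →
    ∀ (f : F), f ∈ S.c₁.V → f ∈ S.c₂.V → S.c₁.rd f = 1 → S.c₂.rd f = 1 →
      (∀ P : Place K F, (n : ℤ) ∣ P.ord f) → (∀ P : Place K F, S.IsNodeP P → P.ord f = 0) →
      ∃ t : F, t ^ n = f

/-- **P6, moving lemma.** -/
def Stmt_Moving : Prop :=
  ∀ (K F k F₁ F₂ : Type) [Field K] [Field F] [Algebra K F] [Field k] [Field F₁]
    [Algebra k F₁] [Field F₂] [Algebra k F₂] [Infinite k]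
    (S : SSD K F k F₁ F₂), FFHyp K F → FFHyp k F₁ → FFHyp k F₂ →
    ∀ (g g₁ g₂ : ℕ) (c c₁ c₂ : ℤ), IsGenus K F g c → IsGenus k F₁ g₁ c₁ → IsGenus k F₂ g₂ c₂ →
    g + 1 ≤ g₁ + g₂ + S.nodes.card →
    ∀ (n : ℕ), (n : k) ≠ 0 → ∀ (x : S.Twist n),
      ∃ h : F, S.c₁.IsGU h ∧ S.c₂.IsGU (x.ϑ * h) ∧
        ∀ P : Place K F, S.IsNodeP P → P.ord (x.f * h ^ n) = 0

/-- **P2 (i), untwisted containment**: for `D` in good position, the reduction of
`L(D) ∩ V₁ ∩ V₂` lies in `Λ¹(r₁_* D, r₂_* D)` (linear gluing with multipliers `1`). -/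
def Stmt_Contain0 : Prop :=
  ∀ (K F k F₁ F₂ : Type) [Field K] [Field F] [Algebra K F] [Field k] [Field F₁]
    [Algebra k F₁] [Field F₂] [Algebra k F₂]
    (S : SSD K F k F₁ F₂), FFHyp K F → FFHyp k F₁ → FFHyp k F₂ →
    ∀ (D : Divisor K F), S.GoodPos D →
      S.Rsub 1 D ≤ S.Lam (fun _ => 1) (S.push₁ D) (S.push₂ D)

/-- **P4', coordinates on the residue discs**: for finite sets `A₁`, `A₂` of regular points of
the two components and `Q ∈ A₁` there is a function `s`, a unit for both valuations, regular on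
the fibres of the points of `A₁`, `A₂` and of the nodes, whose reduction on the first component
has a simple zero at `Q` and no zero at the other points of `A₁`, and whose reduction on the
second component has no zero on `A₂`; and symmetrically for `Q ∈ A₂`. -/
def Stmt_Coords : Prop :=
  ∀ (K F k F₁ F₂ : Type) [Field K] [Field F] [Algebra K F] [Field k] [Field F₁]
    [Algebra k F₁] [Field F₂] [Algebra k F₂] [Infinite k]
    (S : SSD K F k F₁ F₂), FFHyp K F → FFHyp k F₁ → FFHyp k F₂ →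
    ∀ (g g₁ g₂ : ℕ) (c c₁ c₂ : ℤ), IsGenus K F g c → IsGenus k F₁ g₁ c₁ → IsGenus k F₂ g₂ c₂ →
    g + 1 ≤ g₁ + g₂ + S.nodes.card →
    ∀ (A₁ : Finset (Place k F₁)) (A₂ : Finset (Place k F₂)),
      Disjoint A₁ S.br₁ → Disjoint A₂ S.br₂ →
      (∀ Q ∈ A₁, ∃ s : F, S.c₁.IsCoord s Q ∧ S.c₂.IsGU s ∧
        (∀ Q' ∈ A₁, Q' ≠ Q → Q'.ord (S.c₁.rd s) = 0) ∧
        (∀ Q' ∈ A₂, Q'.ord (S.c₂.rd s) = 0) ∧
        (∀ P, ∀ Q' ∈ A₁, S.c₁.r P = some Q' → 0 ≤ P.ord s) ∧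
        (∀ P, ∀ Q' ∈ A₂, S.c₂.r P = some Q' → 0 ≤ P.ord s) ∧
        ∀ P, S.IsNodeP P → P.ord s = 0) ∧
      (∀ Q ∈ A₂, ∃ s : F, S.c₂.IsCoord s Q ∧ S.c₁.IsGU s ∧
        (∀ Q' ∈ A₂, Q' ≠ Q → Q'.ord (S.c₂.rd s) = 0) ∧
        (∀ Q' ∈ A₁, Q'.ord (S.c₁.rd s) = 0) ∧
        (∀ P, ∀ Q' ∈ A₁, S.c₁.r P = some Q' → 0 ≤ P.ord s) ∧
        (∀ P, ∀ Q' ∈ A₂, S.c₂.r P = some Q' → 0 ≤ P.ord s) ∧
        ∀ P, S.IsNodeP P → P.ord s = 0)

end Stmts

end Fermat.Agent.BAD
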