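import Fermat.Agent.BAD.H28_Two
import Fermat.Agent.BAD.H60_TwSurj

/-!
# Item 65 (helper28): vanishing slopes and genus `0` give a representative with reduction `1`

`SSD.exists_rd₁_eq_one_of_slopes` : `S : SSD K F k F₁ F₂`, `F₁` of genus `0`.  If `n ∣ div f`,
`c₁ f` is a Gauss unit of `V₁` and the slopes `ord_{s.1} (rd₁ (c₁ f))` are divisible by `n` at all
nodes, then `rd₁ (c f hⁿ) = 1` for some `h ≠ 0`, `c ≠ 0`.  (Request of helper63, S15 FIX.)

Only `DI` (first component) and `good₁` are used.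
-/

set_option autoImplicit false
set_option linter.style.haveILetI false

noncomputable section

open AlgebraicCurve

attribute [local instance] Classical.propDecidable

namespace Fermat.Agent.BAD

open Fermat.Agent.RED.H17 Fermat.Agent.RED

local notation "L" => riemannRochSpace

namespace SSD

variable {K F k F₁ F₂ : Type*} [Field K] [Field F] [Algebra K F] [Field k] [Field F₁]
  [Algebra k F₁] [Field F₂] [Algebra k F₂] (S : SSD K F k F₁ F₂)

/-- All orders of `rd₁ u` are divisible by `n` if `n ∣ div u` and the slopes are divisible by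
`n`. -/
theorem dvd_ord_rd₁ (hP : HasPrincipalDivisors K F) {n : ℕ} {u : F} (hu : S.c₁.IsGU u)
    (hdiv : ∀ P : Place K F, (n : ℤ) ∣ P.ord u)
    (hslope : ∀ s ∈ S.nodes, (n : ℤ) ∣ s.1.ord (S.c₁.rd u)) (Q : Place k F₁) :
    (n : ℤ) ∣ Q.ord (S.c₁.rd u) := by
  by_cases hQ : Q ∈ S.c₁.good
  · rw [S.c₁.ord_rd_eq_sum hP hu Q hQ]
    refine Finset.dvd_sum fun P _ => ?_
    split_ifs
    · exact hdiv P
    · exact dvd_zero _
  · rw [S.good₁] at hQ
    push Not at hQ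
    obtain ⟨s, hs, rfl⟩ := hQ
    exact hslope s hs

/-- On a function field of genus `0`, a function all of whose orders are divisible by `n` is a
constant times an `n`-th power. -/
theorem exists_pow_mul_eq_const {k' F' : Type*} [Field k'] [Field F'] [Algebra k' F']
    (H : FFHyp k' F') {c' : ℤ} (hg : IsGenus k' F' 0 c') {n : ℕ} (hn : n ≠ 0) {φ : F'}
    (hφ : φ ≠ 0) (hdiv : ∀ Q : Place k' F', (n : ℤ) ∣ Q.ord φ) :
    ∃ (g : F') (a : k'), g ≠ 0 ∧ a ≠ 0 ∧ φ * g ^ n = algebraMap k' F' a := by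
  obtain ⟨E, hE⟩ : ∃ E : Divisor k' F', E =
      (dv H.principal φ).mapRange (fun m : ℤ => m / (n : ℤ)) (by simp) := ⟨_, rfl⟩
  have hEv : ∀ v, (n : ℤ) * E v = v.ord φ := by
    intro v
    rw [hE, H60.mapRange_div_apply, dv_apply]
    exact Int.mul_ediv_cancel' (hdiv v)
  have hdeg : Divisor.degree E = 0 := by
    rw [hE]
    exact H60.degree_mapRange_div _ n hn (fun v => by rw [dv_apply]; exact hdiv v)
      (degree_dv H.principal φ)
  have hfr : 1 ≤ Module.finrank k' (L E) := by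
    have := (hg E).1
    rw [hdeg] at this
    have h1 : (1 : ℤ) ≤ (Module.finrank k' (L E) : ℤ) := by
      simpa using this
    exact_mod_cast h1
  haveI : Nontrivial (L E) := Module.nontrivial_of_finrank_pos (R := k') (by omega)
  obtain ⟨⟨g, hgL⟩, hg0⟩ := exists_ne (0 : L E)
  have hg0' : g ≠ 0 := fun h => hg0 (Subtype.ext h)
  have hord : ∀ v : Place k' F', 0 ≤ v.ord (φ * g ^ n) := by
    intro v
    have h1 := ord_ge_of_mem_L hgL hg0' v
    rw [v.ord_mul hφ (pow_ne_zero _ hg0'), ord_pow, ← hEv v]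
    have : (n : ℤ) * (E v + v.ord g) = (n : ℤ) * E v + n * v.ord g := by ring
    rw [← this]
    exact mul_nonneg (Int.natCast_nonneg n) (by omega)
  obtain ⟨a, ha⟩ := H.const_of_regular hord
  refine ⟨g, a, hg0', ?_, ha⟩
  rintro rfl
  rw [map_zero] at ha
  exact mul_ne_zero hφ (pow_ne_zero _ hg0') ha

/-- **Vanishing slopes, genus `0`.**  If `n ∣ div f`, the slopes of `f` at all nodes are
divisible by `n` and `F₁` has genus `0`, then `c f hⁿ ≡ 1` for the first valuation, for some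
`h`, `c`. -/
theorem exists_rd₁_eq_one_of_slopes (hP : HasPrincipalDivisors K F) (H₁ : FFHyp k F₁) {c₁' : ℤ}
    (hg₁ : IsGenus k F₁ 0 c₁') {n : ℕ} (hn : n ≠ 0) {f : F} {c₁ : K}
    (h₁ : S.c₁.IsGU (algebraMap K F c₁ * f)) (hdiv : ∀ P : Place K F, (n : ℤ) ∣ P.ord f)
    (hslope : ∀ s ∈ S.nodes, (n : ℤ) ∣ s.1.ord (S.c₁.rd (algebraMap K F c₁ * f))) :
    ∃ (h : F) (c : K), h ≠ 0 ∧ c ≠ 0 ∧ algebraMap K F c * f * h ^ n ∈ S.c₁.V ∧
      S.c₁.rd (algebraMap K F c * f * h ^ n) = 1 := by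
  have hc₁ : c₁ ≠ 0 := by
    rintro rfl
    exact h₁.ne_zero (by rw [map_zero, zero_mul])
  have hdiv' : ∀ P : Place K F, (n : ℤ) ∣ P.ord (algebraMap K F c₁ * f) := by
    intro P
    rw [ord_algebraMap_mul P hc₁]
    exact hdiv P
  obtain ⟨g, a, hg0, ha0, hga⟩ := exists_pow_mul_eq_const H₁ hg₁ hn h₁.2
    (S.dvd_ord_rd₁ hP h₁ hdiv' hslope)
  obtain ⟨h, hhV, hh⟩ := S.c₁.exists_rd_eq g
  obtain ⟨b, hbV, hb⟩ := S.c₁.exists_const_lift a⁻¹
  have hh0 : h ≠ 0 := by
    rintro rfl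
    rw [S.c₁.rd_zero] at hh
    exact hg0 hh.symm
  have hb0 : b ≠ 0 := by
    rintro rfl
    rw [map_zero, S.c₁.rd_zero] at hb
    have : (algebraMap k F₁) a⁻¹ ≠ 0 :=
      (map_ne_zero_iff _ (algebraMap k F₁).injective).mpr (inv_ne_zero ha0)
    exact this hb.symm
  have heq : algebraMap K F (b * c₁) * f * h ^ n =
      algebraMap K F b * ((algebraMap K F c₁ * f) * h ^ n) := by
    rw [map_mul]
    ring
  have hm : (algebraMap K F c₁ * f) * h ^ n ∈ S.c₁.V :=
    S.c₁.V.mul_mem _ _ h₁.1 (S.c₁.V.pow_mem hhV n)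
  refine ⟨h, b * c₁, hh0, mul_ne_zero hb0 hc₁, ?_, ?_⟩
  · rw [heq]
    exact S.c₁.V.mul_mem _ _ hbV hm
  · rw [heq, S.c₁.rd_mul hbV hm, S.c₁.rd_mul h₁.1 (S.c₁.V.pow_mem hhV n), S.c₁.rd_pow hhV, hh,
      hb, hga, ← map_mul, inv_mul_cancel₀ ha0, map_one]

end SSD

end Fermat.Agent.BAD
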