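import Fermat.Agent.RED.H17_Lift
import Fermat.Prelude.Def_AlgebraicCurve_Correspondence

/-!
# Item 65, BAD_q, leaf UNIF (helper28): uniformizers of the first component, regular on the fibre

Abstract form of `BAD.H79.TotData.unif`.  Setting: `SE : RedSetup K E k E'` is the reduction datum
of the LOWER level (modular: `E = F_M · ℚ̄` with its Gauss valuation and `r_M`), with "genus does
not drop" (`SE.GenusLE'`); `φ : E → L` is the inclusion into the function field of the upper level
(modular: `L = F_{Mq} · ℚ̄`), `V₁`, `V₂` are two valuation rings of `L` containing `φ (SE.V)`,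
`red₁ : V₁ → L₁` is the reduction of the first one, `ρ : Place K L → Place k L₁` is the reduction
map (modular: `ρ P = r_M (P | E)`, transported to `L₁ ≅ E'`), and `κ : Place k L₁ → Place k E'` is
the transport of places.

* `RedSetup.exists_unif` : in the lower level, every place `z'` of the reduced field has a
  uniformizer which lifts to a function of `SE.V` without pole on the fibre of `z'`.
* `unif_of_level` : the statement of `TotData.unif` from the compatibilities
  `κ (ρ P) = SE.r (P | E)` and `ord_z (red₁ (φ u)) = ord_{κ z} (SE.red u)`.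
-/

set_option autoImplicit false
set_option linter.style.haveILetI false

noncomputable section

open AlgebraicCurve

attribute [local instance] Classical.propDecidable

namespace Fermat.Agent.BAD.H28

open Fermat.Agent.RED.H17 Fermat.Agent.RED

variable {K E k E' : Type*} [Field K] [Field E] [Algebra K E] [Field k] [Field E']
  [Algebra k E']

/-- **UNIF, lower level**: every place `z'` of the reduced field has a uniformizer `y` with a
lift `u ∈ V` which has no pole on the fibre of `z'`. -/
theorem exists_unif_level (SE : RedSetup K E k E') (H : FFHyp K E) (H' : FFHyp k E')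
    [Infinite k] (hG : SE.GenusLE') (z' : Place k E') :
    ∃ u : SE.V, z'.ord (SE.red u) = 1 ∧ ∀ P, SE.r P = z' → 0 ≤ P.ord (u : E) := by
  obtain ⟨y, -, hy⟩ := H51.exists_uniformizer z'
  obtain ⟨u, hu, huy, hreg⟩ := SE.exists_good_lift H H' hG y {z'} (fun Q hQ => by
    rw [Finset.mem_singleton] at hQ
    rw [hQ, hy]
    exact zero_le_one)
  refine ⟨⟨u, hu⟩, ?_, fun P hP => hreg P (by rw [hP]; exact Finset.mem_singleton_self _)⟩
  rw [← SE.rd_of_mem hu, huy]
  exact hy

variable {L L₁ : Type*} [Field L] [Algebra K L] [Field L₁] [Algebra k L₁]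

/-- **UNIF** (the field `unif` of `BAD.H79.TotData`), from the reduction datum of the lower
level. -/
theorem unif_of_level (SE : RedSetup K E k E') (H : FFHyp K E) (H' : FFHyp k E')
    [Infinite k] (hG : SE.GenusLE')
    (φ : E →ₐ[K] L) (hφ : φ.toRingHom.IsIntegral)
    (V₁ V₂ : ValuationSubring L) (red₁ : V₁ →+* L₁)
    (hV₁ : ∀ u ∈ SE.V, φ u ∈ V₁) (hV₂ : ∀ u ∈ SE.V, φ u ∈ V₂)
    (ρ : Place K L → Place k L₁) (κ : Place k L₁ → Place k E')
    (hρ : ∀ P, κ (ρ P) = SE.r (P.restrictAlong φ hφ))
    (hord : ∀ (z : Place k L₁) (u : SE.V) (h : φ (u : E) ∈ V₁),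
      z.ord (red₁ ⟨φ (u : E), h⟩) = (κ z).ord (SE.red u))
    (z : Place k L₁) :
    ∃ (t : L) (h₁ : t ∈ V₁), t ∈ V₂ ∧ (∀ P, ρ P = z → 0 ≤ P.ord t) ∧
      z.ord (red₁ ⟨t, h₁⟩) = 1 := by
  obtain ⟨u, hu1, hureg⟩ := exists_unif_level SE H H' hG (κ z)
  refine ⟨φ (u : E), hV₁ _ u.2, hV₂ _ u.2, fun P hP => ?_, ?_⟩
  · rw [Place.ord_restrictAlong φ hφ P (u : E)]
    have h1 : 0 ≤ (P.restrictAlong φ hφ).ord (u : E) :=
      hureg _ (by rw [← hρ P, hP])
    exact mul_nonneg (Int.natCast_nonneg _) h1
  · rw [hord z u (hV₁ _ u.2)]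
    exact hu1

end Fermat.Agent.BAD.H28
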