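import Fermat.Agent.BAD.H21_Arith

/-!
# (ARITH) for BAD_q / NUM-23 (helper94): the small primes `q = 3` and `q = 2`

* `arith3` : for `2 ∣ M`, `3 ∤ M`:
  `genusFormula (M * 3) + 1 - 2 genusFormula M = ψ(M) / 6 + ν₂(M) / 2`.
* `arith2` : for `3 ∣ M`, `2 ∤ M`:
  `genusFormula (M * 2) + 1 - 2 genusFormula M = ψ(M) / 12 + 2 ν₃(M) / 3`.
* `arith3_le`, `arith2_le` : the counting forms consumed by the node count:
  `oS ≤ z + t`, `3 t ≤ ψ` (`q = 3`), resp. `oST ≤ z + t`, `4 t ≤ ψ` (`q = 2`) imply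
  `genusFormula (M q) + 1 ≤ 2 genusFormula M + z`.
-/

set_option autoImplicit false

noncomputable section

namespace Fermat.Agent.BAD.H94

open ModularCurve Fermat.Agent.BAD.H21

/-! ### Values at `2` and `3` -/

lemma nuTwo_two : nuTwo 2 = 1 := by
  unfold nuTwo
  rw [Nat.card_eq_fintype_card]
  decide

lemma nuThree_two : nuThree 2 = 0 := by
  unfold nuThree
  rw [Nat.card_eq_fintype_card]
  decide

lemma nuTwo_three : nuTwo 3 = 0 := by
  unfold nuTwo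
  rw [Nat.card_eq_fintype_card]
  decide

lemma nuThree_three : nuThree 3 = 1 := by
  unfold nuThree
  rw [Nat.card_eq_fintype_card]
  decide

/-- `ν₃(M) = 0` if `2 ∣ M`. -/
lemma nuThree_eq_zero_of_two_dvd {M : ℕ} (h : 2 ∣ M) : nuThree M = 0 := by
  unfold nuThree
  have : IsEmpty {x : ZMod M // x ^ 2 + x + 1 = 0} := by
    refine ⟨fun x => ?_⟩
    have h1 := congrArg (ZMod.castHom h (ZMod 2)) x.2
    rw [map_add, map_add, map_pow, map_one, map_zero] at h1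
    revert h1
    generalize (ZMod.castHom h (ZMod 2)) x.1 = y
    revert y
    decide
  exact Nat.card_of_isEmpty

/-- `ν₂(M) = 0` if `3 ∣ M`. -/
lemma nuTwo_eq_zero_of_three_dvd {M : ℕ} (h : 3 ∣ M) : nuTwo M = 0 := by
  unfold nuTwo
  have : IsEmpty {x : ZMod M // x ^ 2 + 1 = 0} := by
    refine ⟨fun x => ?_⟩
    have h1 := congrArg (ZMod.castHom h (ZMod 3)) x.2
    rw [map_add, map_pow, map_one, map_zero] at h1
    revert h1
    generalize (ZMod.castHom h (ZMod 3)) x.1 = y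
    revert y
    decide
  exact Nat.card_of_isEmpty

lemma dedekindPsi_mul_prime {M ℓ : ℕ} (hℓ : ℓ.Prime) (hM : ¬ ℓ ∣ M) :
    dedekindPsi (M * ℓ) = dedekindPsi M * (ℓ + 1) := by
  have hcop : M.Coprime ℓ := ((Nat.Prime.coprime_iff_not_dvd hℓ).mpr hM).symm
  rw [Fermat.Agent.S20.H19.dedekindPsi_mul hcop]
  have := Fermat.Agent.S20.H19.dedekindPsi_prime_pow hℓ (n := 1) one_pos
  simp only [pow_one, Nat.sub_self, pow_zero] at this
  rw [this]

/-! ### (ARITH) at `q = 3` -/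

/-- **(ARITH-3)**: `2 ∣ M`, `3 ∤ M`. -/
theorem arith3 {M : ℕ} (h2 : 2 ∣ M) (h3 : ¬ 3 ∣ M) :
    genusFormula (M * 3) + 1 - 2 * genusFormula M
      = (dedekindPsi M : ℚ) / 6 + (nuTwo M : ℚ) / 2 := by
  have hcop : M.Coprime 3 := ((Nat.Prime.coprime_iff_not_dvd Nat.prime_three).mpr h3).symm
  rw [genusFormula, genusFormula, dedekindPsi_mul_prime Nat.prime_three h3,
    H21_cuspCount_mul_prime Nat.prime_three h3, H21_nuTwo_mul hcop, H21_nuThree_mul hcop,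
    nuTwo_three, nuThree_three, nuThree_eq_zero_of_two_dvd h2]
  push_cast
  ring

/-- Counting form of (ARITH-3): `oS = #{j = 1728}`, `t = #{h = 512}`, `z = #{h = -64}`. -/
theorem arith3_le {M : ℕ} (h2 : 2 ∣ M) (h3 : ¬ 3 ∣ M) (oS z t : ℕ)
    (hS : 2 * oS = dedekindPsi M + nuTwo M) (hzt : oS ≤ z + t) (ht : 3 * t ≤ dedekindPsi M) :
    genusFormula (M * 3) + 1 ≤ 2 * genusFormula M + z := by
  have h := arith3 h2 h3
  have hSQ : (2 : ℚ) * oS = dedekindPsi M + nuTwo M := by exact_mod_cast hS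
  have hztQ : (oS : ℚ) ≤ z + t := by exact_mod_cast hzt
  have htQ : (3 : ℚ) * t ≤ dedekindPsi M := by exact_mod_cast ht
  linarith

/-- Natural number form of (ARITH-3): `6 (g(3M) + 1 - 2 g(M)) = ψ + 3 ν₂`. -/
theorem arith3_six {M : ℕ} (h2 : 2 ∣ M) (h3 : ¬ 3 ∣ M) :
    6 * (genusFormula (M * 3) + 1 - 2 * genusFormula M)
      = ((dedekindPsi M + 3 * nuTwo M : ℕ) : ℚ) := by
  rw [arith3 h2 h3]
  push_cast
  ring

/-! ### (ARITH) at `q = 2` -/

/-- **(ARITH-2)**: `3 ∣ M`, `2 ∤ M`. -/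
theorem arith2 {M : ℕ} (h3 : 3 ∣ M) (h2 : ¬ 2 ∣ M) :
    genusFormula (M * 2) + 1 - 2 * genusFormula M
      = (dedekindPsi M : ℚ) / 12 + 2 * (nuThree M : ℚ) / 3 := by
  have hcop : M.Coprime 2 := ((Nat.Prime.coprime_iff_not_dvd Nat.prime_two).mpr h2).symm
  rw [genusFormula, genusFormula, dedekindPsi_mul_prime Nat.prime_two h2,
    H21_cuspCount_mul_prime Nat.prime_two h2, H21_nuTwo_mul hcop, H21_nuThree_mul hcop,
    nuTwo_two, nuThree_two, nuTwo_eq_zero_of_three_dvd h3]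
  push_cast
  ring

/-- Counting form of (ARITH-2): `oST = #{j = 0}`, `t = #{h = -243}`, `z = #{h = -27}`. -/
theorem arith2_le {M : ℕ} (h3 : 3 ∣ M) (h2 : ¬ 2 ∣ M) (oST z t : ℕ)
    (hST : 3 * oST = dedekindPsi M + 2 * nuThree M) (hzt : oST ≤ z + t)
    (ht : 4 * t ≤ dedekindPsi M) :
    genusFormula (M * 2) + 1 ≤ 2 * genusFormula M + z := by
  have h := arith2 h3 h2
  have hSQ : (3 : ℚ) * oST = dedekindPsi M + 2 * nuThree M := by exact_mod_cast hST
  have hztQ : (oST : ℚ) ≤ z + t := by exact_mod_cast hzt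
  have htQ : (4 : ℚ) * t ≤ dedekindPsi M := by exact_mod_cast ht
  linarith

/-- Natural number form of (ARITH-2): `12 (g(2M) + 1 - 2 g(M)) = ψ + 8 ν₃`. -/
theorem arith2_twelve {M : ℕ} (h3 : 3 ∣ M) (h2 : ¬ 2 ∣ M) :
    12 * (genusFormula (M * 2) + 1 - 2 * genusFormula M)
      = ((dedekindPsi M + 8 * nuThree M : ℕ) : ℚ) := by
  rw [arith2 h3 h2]
  push_cast
  ring

end Fermat.Agent.BAD.H94
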