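import Fermat.Agent.BAD.H30_Num23Data
import Fermat.Agent.BAD.H21_Num
import Fermat.Agent.BAD.H94_Arith23
import Fermat.Agent.RED.H76_DR2

/-!
# BAD_q, leaf NUM-23 (helper30): the node count for `q = 3` and `q = 2`

* `num23_three` : `2 ∣ M`, `3 ∤ M`, `A` over `3`: a nonempty finite set `Z` of zeros of `j~` on the
  reduced curve of level `M` with `g(3 M) + 1 ≤ 2 g(M) + #Z`  (chart `h₂`, fibre over `-64`);
* `num23_two` : `3 ∣ M`, `2 ∤ M`, `A` over `2`: the same with `g(2 M)` (chart `h₃`, fibre over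
  `-27`);
* `num23_final` : the interface NUM → MODSSD of helper91 for `q = 2, 3` (same shape as
  `H21.H21_num_final`);
* `num_final_tame` : the interface for all tame `(M, q)`.
-/

set_option autoImplicit false
set_option linter.style.haveILetI false
set_option linter.unusedSectionVars false
set_option synthInstance.maxHeartbeats 400000
set_option maxHeartbeats 1000000

noncomputable section

open AlgebraicCurve IntermediateField Polynomial

namespace Fermat.Agent.BAD.H30

open ModularCurve Fermat.Agent.S28.H73 Fermat.Agent.RED.H73 Fermat.Agent.RED.H34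
  Fermat.Agent.RED.H76 Fermat.Agent.RED.H51 Fermat.Agent.RED.H79 Fermat.Agent.BAD.H21
open Fermat.Agent.S24 (Kbar FN)

section Count

variable (M : ℕ) [NeZero M] (A : ValuationSubring Kbar)

/-- The set of zeros of `x~ - γ` as a finset, when the fibre has a positive number of points. -/
theorem num23_exists_finset {k Ft : Type} [Field k] [Field Ft] [Algebra k Ft] (y : Ft)
    (hpos : 0 < Nat.card {z : Place k Ft // 0 < z.ord y}) :
    ∃ Z : Finset (Place k Ft), (∀ z ∈ Z, 0 < z.ord y) ∧
      Z.card = Nat.card {z : Place k Ft // 0 < z.ord y} := by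
  classical
  have hfin : {z : Place k Ft | 0 < z.ord y}.Finite := Nat.finite_of_card_ne_zero hpos.ne'
  refine ⟨hfin.toFinset, fun z hz => (Set.Finite.mem_toFinset hfin).mp hz, ?_⟩
  rw [← Set.ncard_eq_toFinset_card _ hfin]
  exact (Nat.card_coe_set_eq _).symm

/-- **NUM-23, `q = 3`** (`2 ∣ M`, `3 ∤ M`): zeros of `j~`. -/
theorem num23_three (h2M : 2 ∣ M) (h3M : ¬ 3 ∣ M) (hA : A.LiesOverPrime 3) :
    ∃ Z : Finset (Place (kV A) ↥(redField A
          (laurentBaseChange Kbar (modularFunctionFieldFull M))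
          (hasScale_laurentBaseChange A M))),
      Z.Nonempty ∧ (∀ z ∈ Z, 0 < z.ord (H21_jt M A)) ∧
      genusFormula (M * 3) + 1 ≤ 2 * genusFormula M + (Z.card : ℚ) := by
  haveI : IsAlgClosed (kV A) := isAlgClosed_kV A
  haveI : CharP (kV A) 3 := Fermat.Agent.BAD.H82.charP_kV A Nat.prime_three hA
  obtain ⟨hZ, P', Q', hord, hlead, hQ', hPQ, hPQ'⟩ := stmt_Haupt2
  have hPmap : ((X + C 256) ^ 3 : ℤ[X]).map (Int.castRingHom Kbar) = (X + C 256) ^ 3 := by
    simp only [Polynomial.map_pow, Polynomial.map_add, Polynomial.map_X, Polynomial.map_C]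
    simp only [eq_intCast, Int.cast_ofNat]
  have hQmap : ((X ^ 2 : ℤ[X])).map (Int.castRingHom Kbar) = X ^ 2 := by
    simp [Polynomial.map_pow]
  have hPmapk : ((X + C 256) ^ 3 : ℤ[X]).map (Int.castRingHom (kV A)) = (X + C 256) ^ 3 := by
    simp only [Polynomial.map_pow, Polynomial.map_add, Polynomial.map_X, Polynomial.map_C]
    simp only [eq_intCast, Int.cast_ofNat]
  have hQmapk : ((X ^ 2 : ℤ[X])).map (Int.castRingHom (kV A)) = X ^ 2 := by
    simp [Polynomial.map_pow]
  have hcA : (-64 : Kbar) ∈ A := by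
    have : ((64 : ℕ) : Kbar) ∈ A := natCast_mem A 64
    have h2 := A.neg_mem _ this
    exact_mod_cast h2
  have hcinv : ((-64 : Kbar))⁻¹ ∈ A := by
    have := neg_natCast_inv_mem Nat.prime_three A hA 64 (by decide)
    exact_mod_cast this
  obtain ⟨x, hx, G, hdeg, hbrx, hid, hidk⟩ :=
    num23_haupt_data (p := 2) Nat.prime_two h2M Nat.prime_three h3M A hA hZ hord hlead
      ((X + C 256) ^ 3) (X ^ 2) P' Q' ((monic_X_add_C 256).pow 3)
      (by rw [(monic_X_add_C (256 : ℤ)).natDegree_pow, natDegree_X_add_C])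
      (monic_X_pow 2) (by rw [natDegree_X_pow]; norm_num) hQ' hPQ hPQ' (-64)
      (by
        intro ρ hρ
        rw [hQmap] at hρ
        simpa using hρ)
      (by
        intro ρ _ h
        rw [hPmap, hQmap] at h
        simp only [eval_pow, eval_add, eval_X, eval_C] at h
        rcases h with ⟨h0, hd⟩ | ⟨h1, hd⟩
        · exact (haupt2_case0 ρ h0 hd).elim
        · exact haupt2_case1728 ρ h1 hd)
  have hxt : Transcendental Kbar x := RedSetting.transcendental_x hx G.transc
  haveI := G.fin
  -- the identities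
  have hid' : (x + algebraMap Kbar _ 256) ^ 3 = Fermat.Agent.RED.H73.jF (L := Kbar) M * x ^ 2 := by
    rw [hPmap, hQmap] at hid
    simpa only [map_pow, map_add, aeval_X, aeval_C] using hid
  have hidk' : ((redSetting A (hasScale_laurentBaseChange A M)).red ⟨x, hx⟩
      + algebraMap (kV A) _ 256) ^ 3
      = H21_jt M A * ((redSetting A (hasScale_laurentBaseChange A M)).red ⟨x, hx⟩) ^ 2 := by
    rw [hPmapk, hQmapk] at hidk
    simpa only [map_pow, map_add, aeval_X, aeval_C] using hidk
  -- characteristic `0`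
  have h1 := H21_char0_1728_ge M
  have h2 := num23_card_le x hxt
    (fun v => 0 < v.ord (Fermat.Agent.RED.H73.jF (L := Kbar) M - algebraMap Kbar (FN M) 1728))
    (-64) 512 (fun v hv => num23_cover2 v hxt hid' hv)
  -- (FIB ≥)
  have hmem : (-64 : Kbar) ∈ (redSetting A (hasScale_laurentBaseChange A M)).O :=
    (algebraMap_mem_gaussValSub_iff A (hasScale_laurentBaseChange A M) _).2 hcA
  have h3 := num23_fibre_ge M A x hx G ⟨(-64 : Kbar), hmem⟩ (fun ρ' hb hres =>
    eq_of_resO_eq_of_mem_pair A _ (-64 : Kbar) (by norm_num) hcinv ρ' ⟨(-64 : Kbar), hmem⟩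
      (hbrx _ hb) (Or.inr rfl) hres)
  have hγ0 : (redSetting A (hasScale_laurentBaseChange A M)).resO ⟨(-64 : Kbar), hmem⟩ ≠ 0 :=
    resO_ne_zero_of_inv_mem A (hasScale_laurentBaseChange A M) ⟨(-64 : Kbar), hmem⟩ hcinv
      (by norm_num)
  have hγ : (redSetting A (hasScale_laurentBaseChange A M)).resO ⟨(-64 : Kbar), hmem⟩
      = (-64 : kV A) := by
    have hmem' : (((-64 : ℤ)) : Kbar) ∈ (redSetting A (hasScale_laurentBaseChange A M)).O := by
      have e : (((-64 : ℤ)) : Kbar) = -64 := by norm_num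
      rw [e]
      exact hmem
    have := num23_resO_intCast (redSetting A (hasScale_laurentBaseChange A M)) (-64) hmem'
    have e2 : (⟨(((-64 : ℤ)) : Kbar), hmem'⟩ : ↥(redSetting A
        (hasScale_laurentBaseChange A M)).O) = ⟨(-64 : Kbar), hmem⟩ :=
      Subtype.ext (by norm_num)
    rw [e2] at this
    rw [this]
    norm_num
  set γ := (redSetting A (hasScale_laurentBaseChange A M)).resO ⟨(-64 : Kbar), hmem⟩ with hγdef
  -- `256 = -γ` in characteristic `3`
  have h192 : (192 : kV A) = 0 := by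
    have := (CharP.cast_eq_zero_iff (kV A) 3 192).2 (by norm_num)
    exact_mod_cast this
  have h256 : (256 : kV A) = -γ := by
    rw [hγ]
    linear_combination h192
  have hidk'' : ((redSetting A (hasScale_laurentBaseChange A M)).red ⟨x, hx⟩
      - algebraMap (kV A) _ γ) ^ 3
      = H21_jt M A * ((redSetting A (hasScale_laurentBaseChange A M)).red ⟨x, hx⟩) ^ 2 := by
    rw [← hidk', h256, map_neg, sub_eq_add_neg]
  -- numerics
  have hS := Fermat.Agent.S24.asm_orb_S M
  have hpsi := H21_psi_pos M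
  have hchain : Fermat.Agent.S24.orbN M ModularGroup.S
      ≤ Nat.card {z : Place (kV A) ↥(redField A
          (laurentBaseChange Kbar (modularFunctionFieldFull M))
          (hasScale_laurentBaseChange A M)) //
          0 < z.ord ((redSetting A (hasScale_laurentBaseChange A M)).red ⟨x, hx⟩
            - algebraMap (kV A) _ γ)}
        + Module.finrank Kbar⟮x⟯ ↥(laurentBaseChange Kbar (modularFunctionFieldFull M)) :=
    le_trans h1 (le_trans h2 (Nat.add_le_add_right h3 _))
  have hpos : 0 < Nat.card {z : Place (kV A) ↥(redField A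
      (laurentBaseChange Kbar (modularFunctionFieldFull M)) (hasScale_laurentBaseChange A M)) //
      0 < z.ord ((redSetting A (hasScale_laurentBaseChange A M)).red ⟨x, hx⟩
        - algebraMap (kV A) _ γ)} := by
    omega
  obtain ⟨Z, hZ1, hZ2⟩ := num23_exists_finset _ hpos
  rw [← hZ2] at hchain hpos
  refine ⟨Z, ?_, fun z hz => ?_, ?_⟩
  · rw [← Finset.card_pos]
    exact hpos
  · exact num23_red_pos z hγ0 (by norm_num) hidk'' (hZ1 z hz)
  · refine Fermat.Agent.BAD.H94.arith3_le h2M h3M
      (Fermat.Agent.S24.orbN M ModularGroup.S) Z.card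
      (Module.finrank Kbar⟮x⟯ ↥(laurentBaseChange Kbar (modularFunctionFieldFull M)))
      hS hchain ?_
    omega

/-- **NUM-23, `q = 2`** (`3 ∣ M`, `2 ∤ M`): zeros of `j~`. -/
theorem num23_two (h3M : 3 ∣ M) (h2M : ¬ 2 ∣ M) (hA : A.LiesOverPrime 2) :
    ∃ Z : Finset (Place (kV A) ↥(redField A
          (laurentBaseChange Kbar (modularFunctionFieldFull M))
          (hasScale_laurentBaseChange A M))),
      Z.Nonempty ∧ (∀ z ∈ Z, 0 < z.ord (H21_jt M A)) ∧
      genusFormula (M * 2) + 1 ≤ 2 * genusFormula M + (Z.card : ℚ) := by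
  haveI : IsAlgClosed (kV A) := isAlgClosed_kV A
  haveI : CharP (kV A) 2 := Fermat.Agent.BAD.H82.charP_kV A Nat.prime_two hA
  obtain ⟨hZ, P', Q', hord, hlead, hQ', hPQ, hPQ'⟩ := stmt_Haupt3
  have hPmap : ((X + C 27) * (X + C 243) ^ 3 : ℤ[X]).map (Int.castRingHom Kbar)
      = (X + C 27) * (X + C 243) ^ 3 := by
    simp only [Polynomial.map_pow, Polynomial.map_add, Polynomial.map_mul, Polynomial.map_X,
      Polynomial.map_C]
    simp only [eq_intCast, Int.cast_ofNat]
  have hQmap : ((X ^ 3 : ℤ[X])).map (Int.castRingHom Kbar) = X ^ 3 := by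
    simp [Polynomial.map_pow]
  have hPmapk : ((X + C 27) * (X + C 243) ^ 3 : ℤ[X]).map (Int.castRingHom (kV A))
      = (X + C 27) * (X + C 243) ^ 3 := by
    simp only [Polynomial.map_pow, Polynomial.map_add, Polynomial.map_mul, Polynomial.map_X,
      Polynomial.map_C]
    simp only [eq_intCast, Int.cast_ofNat]
  have hQmapk : ((X ^ 3 : ℤ[X])).map (Int.castRingHom (kV A)) = X ^ 3 := by
    simp [Polynomial.map_pow]
  have hcA : (-27 : Kbar) ∈ A := by
    have : ((27 : ℕ) : Kbar) ∈ A := natCast_mem A 27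
    have h2 := A.neg_mem _ this
    exact_mod_cast h2
  have hcinv : ((-27 : Kbar))⁻¹ ∈ A := by
    have := neg_natCast_inv_mem Nat.prime_two A hA 27 (by decide)
    exact_mod_cast this
  obtain ⟨x, hx, G, hdeg, hbrx, hid, hidk⟩ :=
    num23_haupt_data (p := 3) Nat.prime_three h3M Nat.prime_two h2M A hA hZ hord hlead
      ((X + C 27) * (X + C 243) ^ 3) (X ^ 3) P' Q'
      ((monic_X_add_C 27).mul ((monic_X_add_C 243).pow 3))
      (by rw [(monic_X_add_C (27 : ℤ)).natDegree_mul ((monic_X_add_C (243 : ℤ)).pow 3),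
        (monic_X_add_C (243 : ℤ)).natDegree_pow, natDegree_X_add_C, natDegree_X_add_C])
      (monic_X_pow 3) (by rw [natDegree_X_pow]; norm_num) hQ' hPQ hPQ' (-27)
      (by
        intro ρ hρ
        rw [hQmap] at hρ
        simpa using hρ)
      (by
        intro ρ _ h
        rw [hPmap, hQmap] at h
        simp only [eval_pow, eval_add, eval_mul, eval_X, eval_C] at h
        rcases h with ⟨h0, hd⟩ | ⟨h1, hd⟩
        · exact haupt3_case0 ρ h0 hd
        · exact (haupt3_case1728 ρ h1 hd).elim)
  have hxt : Transcendental Kbar x := RedSetting.transcendental_x hx G.transc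
  haveI := G.fin
  -- the identities
  have hid' : (x + algebraMap Kbar _ 27) * (x + algebraMap Kbar _ 243) ^ 3
      = Fermat.Agent.RED.H73.jF (L := Kbar) M * x ^ 3 := by
    rw [hPmap, hQmap] at hid
    simpa only [map_pow, map_add, map_mul, aeval_X, aeval_C] using hid
  have hidk' : ((redSetting A (hasScale_laurentBaseChange A M)).red ⟨x, hx⟩
      + algebraMap (kV A) _ 27)
      * ((redSetting A (hasScale_laurentBaseChange A M)).red ⟨x, hx⟩
        + algebraMap (kV A) _ 243) ^ 3
      = H21_jt M A * ((redSetting A (hasScale_laurentBaseChange A M)).red ⟨x, hx⟩) ^ 3 := by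
    rw [hPmapk, hQmapk] at hidk
    simpa only [map_pow, map_add, map_mul, aeval_X, aeval_C] using hidk
  -- characteristic `0`
  have h1 := H21_char0_zero_ge M
  have h2 := num23_card_le x hxt
    (fun v => 0 < v.ord (Fermat.Agent.RED.H73.jF (L := Kbar) M - algebraMap Kbar (FN M) 0))
    (-27) (-243) (fun v hv => num23_cover3 v hxt hid' hv)
  -- (FIB ≥)
  have hmem : (-27 : Kbar) ∈ (redSetting A (hasScale_laurentBaseChange A M)).O :=
    (algebraMap_mem_gaussValSub_iff A (hasScale_laurentBaseChange A M) _).2 hcA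
  have h3 := num23_fibre_ge M A x hx G ⟨(-27 : Kbar), hmem⟩ (fun ρ' hb hres =>
    eq_of_resO_eq_of_mem_pair A _ (-27 : Kbar) (by norm_num) hcinv ρ' ⟨(-27 : Kbar), hmem⟩
      (hbrx _ hb) (Or.inr rfl) hres)
  have hγ0 : (redSetting A (hasScale_laurentBaseChange A M)).resO ⟨(-27 : Kbar), hmem⟩ ≠ 0 :=
    resO_ne_zero_of_inv_mem A (hasScale_laurentBaseChange A M) ⟨(-27 : Kbar), hmem⟩ hcinv
      (by norm_num)
  have hγ : (redSetting A (hasScale_laurentBaseChange A M)).resO ⟨(-27 : Kbar), hmem⟩
      = (-27 : kV A) := by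
    have hmem' : (((-27 : ℤ)) : Kbar) ∈ (redSetting A (hasScale_laurentBaseChange A M)).O := by
      have e : (((-27 : ℤ)) : Kbar) = -27 := by norm_num
      rw [e]
      exact hmem
    have := num23_resO_intCast (redSetting A (hasScale_laurentBaseChange A M)) (-27) hmem'
    have e2 : (⟨(((-27 : ℤ)) : Kbar), hmem'⟩ : ↥(redSetting A
        (hasScale_laurentBaseChange A M)).O) = ⟨(-27 : Kbar), hmem⟩ :=
      Subtype.ext (by norm_num)
    rw [e2] at this
    rw [this]
    norm_num
  set γ := (redSetting A (hasScale_laurentBaseChange A M)).resO ⟨(-27 : Kbar), hmem⟩ with hγdef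
  -- `27 = 243 = -γ` in characteristic `2`
  have h2k : (2 : kV A) = 0 := by
    have := (CharP.cast_eq_zero_iff (kV A) 2 2).2 (dvd_refl 2)
    exact_mod_cast this
  have h27 : (27 : kV A) = -γ := by
    rw [hγ]
    linear_combination (0 : kV A) * h2k
  have h243 : (243 : kV A) = -γ := by
    rw [hγ]
    linear_combination (108 : kV A) * h2k
  have hidk'' : ((redSetting A (hasScale_laurentBaseChange A M)).red ⟨x, hx⟩
      - algebraMap (kV A) _ γ) ^ 4
      = H21_jt M A * ((redSetting A (hasScale_laurentBaseChange A M)).red ⟨x, hx⟩) ^ 3 := by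
    rw [← hidk', h27, h243, map_neg, ← sub_eq_add_neg]
    ring
  -- numerics
  have hS := Fermat.Agent.S24.asm_orb_ST M
  have hpsi := H21_psi_pos M
  have hchain : Fermat.Agent.S24.orbN M (ModularGroup.S * ModularGroup.T)
      ≤ Nat.card {z : Place (kV A) ↥(redField A
          (laurentBaseChange Kbar (modularFunctionFieldFull M))
          (hasScale_laurentBaseChange A M)) //
          0 < z.ord ((redSetting A (hasScale_laurentBaseChange A M)).red ⟨x, hx⟩
            - algebraMap (kV A) _ γ)}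
        + Module.finrank Kbar⟮x⟯ ↥(laurentBaseChange Kbar (modularFunctionFieldFull M)) :=
    le_trans h1 (le_trans h2 (Nat.add_le_add_right h3 _))
  have hpos : 0 < Nat.card {z : Place (kV A) ↥(redField A
      (laurentBaseChange Kbar (modularFunctionFieldFull M)) (hasScale_laurentBaseChange A M)) //
      0 < z.ord ((redSetting A (hasScale_laurentBaseChange A M)).red ⟨x, hx⟩
        - algebraMap (kV A) _ γ)} := by
    omega
  obtain ⟨Z, hZ1, hZ2⟩ := num23_exists_finset _ hpos
  rw [← hZ2] at hchain hpos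
  refine ⟨Z, ?_, fun z hz => ?_, ?_⟩
  · rw [← Finset.card_pos]
    exact hpos
  · exact num23_red_pos z hγ0 (by norm_num) hidk'' (hZ1 z hz)
  · refine Fermat.Agent.BAD.H94.arith2_le h3M h2M
      (Fermat.Agent.S24.orbN M (ModularGroup.S * ModularGroup.T)) Z.card
      (Module.finrank Kbar⟮x⟯ ↥(laurentBaseChange Kbar (modularFunctionFieldFull M)))
      hS hchain ?_
    omega

end Count

end Fermat.Agent.BAD.H30
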