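import Fermat.Agent.RED.H51_ZerosLe
import Fermat.Agent.RED.H76_IGBranch

/-!
# BAD_q, leaf NUM-23 (helper30): abstract part

`K ⊂ F` a function field, `x, j ∈ F`.

* `num23_cover2` : if `(x + 256)³ = j x²` then every zero of `j - 1728` is a zero of `x + 64` or
  of `x - 512`;
* `num23_cover3` : if `(x + 27)(x + 243)³ = j x³` then every zero of `j` is a zero of `x + 27` or
  of `x + 243`;
* `num23_card_zeros_le` : the fibre of `x` over a constant has at most `[F : K(x)]` points;
* `num23_card_le` : the counting consequence of a cover;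
* `num23_red_pos` : if `(x - c)^m = j x^n`, `c ≠ 0`, `m > 0`, every zero of `x - c` is a zero
  of `j`.
-/

set_option autoImplicit false
set_option linter.style.haveILetI false
set_option linter.unusedSectionVars false

noncomputable section

open AlgebraicCurve IntermediateField Polynomial

namespace Fermat.Agent.BAD.H30

open Fermat.Agent.RED.H51 Fermat.Agent.RED.H76

section Abs

variable {K F : Type} [Field K] [Field F] [Algebra K F]

theorem num23_transc_ne_zero {x : F} (hx : Transcendental K x) : x ≠ 0 := by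
  rintro rfl
  exact hx isAlgebraic_zero

/-- `x + c` has the order of `x` at a pole of `x`. -/
theorem num23_ord_add_const (v : Place K F) {x : F} (hx0 : x ≠ 0) (hneg : v.ord x < 0) (c : K) :
    x + algebraMap K F c ≠ 0 ∧ v.ord (x + algebraMap K F c) = v.ord x := by
  apply ord_add_eq v hx0
  rcases eq_or_ne (algebraMap K F c) 0 with h | h
  · exact Or.inl h
  · refine Or.inr ?_
    rw [ord_algebraMap]
    omega

/-- `x + c` is regular where `x` is. -/
theorem num23_ord_add_const_nonneg (v : Place K F) {x : F} (hx : Transcendental K x)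
    (hnn : 0 ≤ v.ord x) (c : K) :
    x + algebraMap K F c ≠ 0 ∧ 0 ≤ v.ord (x + algebraMap K F c) := by
  have hne : x + algebraMap K F c ≠ 0 := by
    have := sub_algebraMap_ne_zero hx (-c)
    rwa [map_neg, sub_neg_eq_add] at this
  refine ⟨hne, ?_⟩
  have h1 : OrdGe v 0 x := Or.inr hnn
  exact (h1.add (ordGe_algebraMap v c)).le hne

/-- **Cover, `p = 2`**: the zeros of `j - 1728` are zeros of `x + 64` or of `x - 512`. -/
theorem num23_cover2 [CharZero K] (v : Place K F) {x j : F} (hx : Transcendental K x)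
    (hid : (x + algebraMap K F 256) ^ 3 = j * x ^ 2)
    (hv : 0 < v.ord (j - algebraMap K F 1728)) :
    0 < v.ord (x - algebraMap K F (-64)) ∨ 0 < v.ord (x - algebraMap K F 512) := by
  have hx0 : x ≠ 0 := num23_transc_ne_zero hx
  have hj : v.ord j = 0 := ord_eq_zero_of_pos_sub v (c := (1728 : K)) (by norm_num) hv
  have hj0 : j ≠ 0 := by
    rintro rfl
    rw [zero_sub, ord_neg, ord_algebraMap] at hv
    exact lt_irrefl _ hv
  have hjne : j - algebraMap K F 1728 ≠ 0 := ne_zero_of_ord_ne_zero v hv.ne'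
  -- `x` is regular at `v`
  have hnn : 0 ≤ v.ord x := by
    by_contra hneg
    rw [not_le] at hneg
    obtain ⟨h1, h2⟩ := num23_ord_add_const v hx0 hneg 256
    have h3 := congrArg v.ord hid
    rw [ord_pow, h2, v.ord_mul hj0 (pow_ne_zero 2 hx0), hj, ord_pow] at h3
    simp only [Nat.cast_ofNat] at h3
    omega
  obtain ⟨ha0, ha⟩ := num23_ord_add_const_nonneg v hx hnn 64
  obtain ⟨hb0, hb⟩ := num23_ord_add_const_nonneg v hx hnn (-512)
  have hrel : (x + algebraMap K F 64) * (x + algebraMap K F (-512)) ^ 2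
      = (j - algebraMap K F 1728) * x ^ 2 := by
    simp only [map_neg, map_ofNat] at hid ⊢
    linear_combination hid
  have h3 := congrArg v.ord hrel
  rw [v.ord_mul ha0 (pow_ne_zero 2 hb0), ord_pow, v.ord_mul hjne (pow_ne_zero 2 hx0),
    ord_pow] at h3
  simp only [Nat.cast_ofNat] at h3
  have e1 : x - algebraMap K F (-64) = x + algebraMap K F 64 := by
    rw [map_neg, sub_neg_eq_add]
  have e2 : x - algebraMap K F 512 = x + algebraMap K F (-512) := by
    rw [map_neg, sub_eq_add_neg]
  rw [e1, e2]
  by_contra hcon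
  rw [not_or, not_lt, not_lt] at hcon
  omega

/-- **Cover, `p = 3`**: the zeros of `j` are zeros of `x + 27` or of `x + 243`. -/
theorem num23_cover3 [CharZero K] (v : Place K F) {x j : F} (hx : Transcendental K x)
    (hid : (x + algebraMap K F 27) * (x + algebraMap K F 243) ^ 3 = j * x ^ 3)
    (hv : 0 < v.ord (j - algebraMap K F 0)) :
    0 < v.ord (x - algebraMap K F (-27)) ∨ 0 < v.ord (x - algebraMap K F (-243)) := by
  rw [map_zero, sub_zero] at hv
  have hx0 : x ≠ 0 := num23_transc_ne_zero hx
  have hj0 : j ≠ 0 := ne_zero_of_ord_ne_zero v hv.ne'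
  have hnn : 0 ≤ v.ord x := by
    by_contra hneg
    rw [not_le] at hneg
    obtain ⟨h1, h2⟩ := num23_ord_add_const v hx0 hneg 27
    obtain ⟨h1', h2'⟩ := num23_ord_add_const v hx0 hneg 243
    have h3 := congrArg v.ord hid
    rw [v.ord_mul h1 (pow_ne_zero 3 h1'), ord_pow, h2, h2',
      v.ord_mul hj0 (pow_ne_zero 3 hx0), ord_pow] at h3
    simp only [Nat.cast_ofNat] at h3
    omega
  obtain ⟨ha0, ha⟩ := num23_ord_add_const_nonneg v hx hnn 27
  obtain ⟨hb0, hb⟩ := num23_ord_add_const_nonneg v hx hnn 243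
  have h3 := congrArg v.ord hid
  rw [v.ord_mul ha0 (pow_ne_zero 3 hb0), ord_pow, v.ord_mul hj0 (pow_ne_zero 3 hx0),
    ord_pow] at h3
  simp only [Nat.cast_ofNat] at h3
  have e1 : x - algebraMap K F (-27) = x + algebraMap K F 27 := by
    rw [map_neg, sub_neg_eq_add]
  have e2 : x - algebraMap K F (-243) = x + algebraMap K F 243 := by
    rw [map_neg, sub_neg_eq_add]
  rw [e1, e2]
  by_contra hcon
  rw [not_or, not_lt, not_lt] at hcon
  omega

/-- The zeros of `x - c` form a finite set with at most `[F : K(x)]` elements. -/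
theorem num23_zeros_finite (x : F) (hx : Transcendental K x) [FiniteDimensional K⟮x⟯ F]
    (c : K) :
    {v : Place K F | 0 < v.ord (x - algebraMap K F c)}.Finite ∧
      {v : Place K F | 0 < v.ord (x - algebraMap K F c)}.ncard ≤ Module.finrank K⟮x⟯ F := by
  classical
  have hKy : K⟮x - algebraMap K F c⟯ = K⟮x⟯ := adjoin_simple_sub_algebraMap x c
  haveI : FiniteDimensional K⟮x - algebraMap K F c⟯ F := by
    rw [hKy]
    infer_instance
  have hrank : Module.finrank K⟮x - algebraMap K F c⟯ F = Module.finrank K⟮x⟯ F :=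
    congrArg (fun E : IntermediateField K F => Module.finrank E F) hKy
  obtain ⟨hfin, -⟩ := zerosLe K F (x - algebraMap K F c) (transcendental_sub_algebraMap hx c)
  refine ⟨hfin, ?_⟩
  have h1 := sum_ord_le_finrank (x - algebraMap K F c) hfin.toFinset
    (fun v hv => (Set.Finite.mem_toFinset hfin).mp hv)
  have h2 : (hfin.toFinset.card : ℤ) ≤ ∑ v ∈ hfin.toFinset, v.ord (x - algebraMap K F c) := by
    rw [Finset.card_eq_sum_ones, Nat.cast_sum]
    refine Finset.sum_le_sum fun v hv => ?_
    have : 0 < v.ord (x - algebraMap K F c) := (Set.Finite.mem_toFinset hfin).mp hv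
    push_cast
    omega
  rw [Set.ncard_eq_toFinset_card _ hfin, ← hrank]
  exact_mod_cast h2.trans h1

theorem num23_card_zeros_le (x : F) (hx : Transcendental K x) [FiniteDimensional K⟮x⟯ F]
    (c : K) :
    Nat.card {v : Place K F // 0 < v.ord (x - algebraMap K F c)} ≤ Module.finrank K⟮x⟯ F := by
  have h := (num23_zeros_finite x hx c).2
  rwa [← Nat.card_coe_set_eq] at h

/-- **Counting**: if every place with `p` is a zero of `x - a` or of `x - b`, then
`#{p} ≤ #{x = a} + [F : K(x)]`. -/
theorem num23_card_le (x : F) (hx : Transcendental K x) [FiniteDimensional K⟮x⟯ F]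
    (p : Place K F → Prop) (a b : K)
    (hcov : ∀ v, p v → 0 < v.ord (x - algebraMap K F a) ∨ 0 < v.ord (x - algebraMap K F b)) :
    Nat.card {v : Place K F // p v}
      ≤ Nat.card {v : Place K F // 0 < v.ord (x - algebraMap K F a)}
        + Module.finrank K⟮x⟯ F := by
  obtain ⟨hfa, -⟩ := num23_zeros_finite x hx a
  obtain ⟨hfb, hb⟩ := num23_zeros_finite x hx b
  have hsub : {v : Place K F | p v} ⊆
      {v : Place K F | 0 < v.ord (x - algebraMap K F a)}
        ∪ {v : Place K F | 0 < v.ord (x - algebraMap K F b)} := by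
    intro v hv
    exact hcov v hv
  have h1 := Set.ncard_le_ncard hsub (hfa.union hfb)
  have h2 := Set.ncard_union_le {v : Place K F | 0 < v.ord (x - algebraMap K F a)}
    {v : Place K F | 0 < v.ord (x - algebraMap K F b)}
  have e1 : Nat.card {v : Place K F // p v} = {v : Place K F | p v}.ncard :=
    Nat.card_coe_set_eq _
  have e2 : Nat.card {v : Place K F // 0 < v.ord (x - algebraMap K F a)}
      = {v : Place K F | 0 < v.ord (x - algebraMap K F a)}.ncard := Nat.card_coe_set_eq _
  rw [e1, e2]
  omega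

/-- **Reduced side**: if `(x - c)^m = j x^n` with `c ≠ 0`, `m > 0`, every zero of `x - c` is a
zero of `j`, and `x` is a unit there. -/
theorem num23_red_pos (z : Place K F) {x j : F} {c : K} (hc : c ≠ 0) {m n : ℕ} (hm : 0 < m)
    (hid : (x - algebraMap K F c) ^ m = j * x ^ n)
    (hz : 0 < z.ord (x - algebraMap K F c)) : 0 < z.ord j := by
  have hx : z.ord x = 0 := ord_eq_zero_of_pos_sub z hc hz
  have hxc : x - algebraMap K F c ≠ 0 := ne_zero_of_ord_ne_zero z hz.ne'
  have hx0 : x ≠ 0 := by
    rintro rfl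
    rw [zero_sub, ord_neg, ord_algebraMap] at hz
    exact lt_irrefl _ hz
  have hj0 : j ≠ 0 := by
    rintro rfl
    rw [zero_mul] at hid
    exact pow_ne_zero m hxc hid
  have h3 := congrArg z.ord hid
  rw [ord_pow, z.ord_mul hj0 (pow_ne_zero n hx0), ord_pow, hx, mul_zero, add_zero] at h3
  rw [← h3]
  have : (0 : ℤ) < (m : ℤ) := by exact_mod_cast hm
  positivity

end Abs

end Fermat.Agent.BAD.H30
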