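import Fermat.Agent.BAD.H30_Num23Abs
import Fermat.Agent.RED.H76_DR2Haupt
import Fermat.Agent.RED.H34_Fib

/-!
# BAD_q, leaf NUM-23 (helper30): the Hauptmodul chart, data

`p ∣ M`, `ℓ ∤ M`, `A` over `ℓ`, `hZ ∈ ℤ((q))` a Hauptmodul of level `p` given by identities
`P(hZ) = j Q(hZ)`, `P'(hZ) = j(q^p) Q'(hZ)` over `ℤ`.

* `num23_haupt_data` : the image `x` of `hZ` in `F_M · ℚ̄` with: the five chart fields,
  `(p + 1) [F_M ℚ̄ : ℚ̄(x)] = ψ(M)`, the branch values of `x` are `0` and `c`, and the identity
  `P(x) = j Q(x)` in `F_M · ℚ̄` and in the reduced field.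
* `num23_fibre_ge` : (FIB ≥, helper34) for the chart `x`, in terms of places.
* `num23_resO_intCast` : the residue of an integer constant.
-/

set_option autoImplicit false
set_option linter.style.haveILetI false
set_option linter.unusedSectionVars false
set_option synthInstance.maxHeartbeats 400000
set_option maxHeartbeats 1000000

noncomputable section

open AlgebraicCurve IntermediateField Polynomial

namespace Fermat.Agent.BAD.H30

open ModularCurve Fermat.Agent.S28.H73 Fermat.Agent.RED.H73 Fermat.Agent.RED.H34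
  Fermat.Agent.RED.H76 Fermat.Agent.RED.H51 Fermat.Agent.RED.H79
open Fermat.Agent.S24 (Kbar FN)

section Generic

/-- **The Hauptmodul chart at level `M`**. -/
theorem num23_haupt_data {p ℓ : ℕ} [NeZero p] (hp : p.Prime) {M : ℕ} [NeZero M] (hpM : p ∣ M)
    (hℓ : ℓ.Prime) (hℓM : ¬ ℓ ∣ M)
    (A : ValuationSubring Kbar) (hA : A.LiesOverPrime ℓ)
    (hZ : LaurentSeries ℤ) (hord : hZ.order < 0) (hlead : hZ.leadingCoeff = 1)
    (P Q P' Q' : ℤ[X]) (hP : P.Monic) (hPd : P.natDegree = p + 1)
    (hQ : Q.Monic) (hQd : Q.natDegree < p + 1) (hQ' : Q'.Monic)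
    (hPQ : aeval hZ P = jqModC ℤ * aeval hZ Q)
    (hPQ' : aeval hZ P' = qExpand ℤ p (jqModC ℤ) * aeval hZ Q')
    (c : Kbar)
    (hQroot : ∀ ρ : Kbar, (Q.map (Int.castRingHom Kbar)).eval ρ = 0 → ρ = 0)
    (hbr : ∀ ρ : Kbar, ρ ≠ 0 →
      (((P.map (Int.castRingHom Kbar)).eval ρ = 0 ∧
          ¬ (X - C ρ) ^ 2 ∣ P.map (Int.castRingHom Kbar)) ∨
        ((P.map (Int.castRingHom Kbar)).eval ρ = 1728 * (Q.map (Int.castRingHom Kbar)).eval ρ ∧
          ¬ (X - C ρ) ^ 2 ∣
            P.map (Int.castRingHom Kbar) - C 1728 * Q.map (Int.castRingHom Kbar))) →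
      ρ = c) :
    ∃ (x : ↥(laurentBaseChange Kbar (modularFunctionFieldFull M)))
      (hx : x ∈ (redSetting A (hasScale_laurentBaseChange A M)).V),
      ChartPre (redSetting A (hasScale_laurentBaseChange A M)) x hx ∧
      (p + 1) * Module.finrank Kbar⟮x⟯ ↥(laurentBaseChange Kbar (modularFunctionFieldFull M))
        = dedekindPsi M ∧
      (∀ ρ : Kbar, IsBranchValue x ρ → ρ = 0 ∨ ρ = c) ∧
      aeval x (P.map (Int.castRingHom Kbar))
        = Fermat.Agent.RED.H73.jF (L := Kbar) M * aeval x (Q.map (Int.castRingHom Kbar)) ∧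
      aeval ((redSetting A (hasScale_laurentBaseChange A M)).red ⟨x, hx⟩)
          (P.map (Int.castRingHom (kV A)))
        = (redSetting A (hasScale_laurentBaseChange A M)).red
            ⟨Fermat.Agent.RED.H73.jF (L := Kbar) M, jF_mem A M⟩
          * aeval ((redSetting A (hasScale_laurentBaseChange A M)).red ⟨x, hx⟩)
            (Q.map (Int.castRingHom (kV A))) := by
  haveI : IsAlgClosed (kV A) := isAlgClosed_kV A
  have hM : ((M : Kbar))⁻¹ ∈ A := inv_natCast_mem_of_liesOver A M hℓ hℓM hA
  obtain ⟨x, hx, hx', hxcoe, hxred, G, -⟩ :=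
    chartPre_haupt_int hp hpM A hM hZ hord hlead P Q P' Q' hP hPd hQ hQd hQ' hPQ hPQ'
  obtain ⟨i1, i2⟩ := haupt_identities_map (p := p) Kbar hZ P Q P' Q' hPQ hPQ'
  obtain ⟨k1, -⟩ := haupt_identities_map (p := p) (kV A) hZ P Q P' Q' hPQ hPQ'
  -- the identity in `F_M`
  have hid : aeval x (P.map (Int.castRingHom Kbar))
      = Fermat.Agent.RED.H73.jF (L := Kbar) M * aeval x (Q.map (Int.castRingHom Kbar)) := by
    apply Subtype.ext
    have e : ∀ q : Kbar[X], ((aeval x q : ↥(laurentBaseChange Kbar (modularFunctionFieldFull M)))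
        : LaurentSeries Kbar) = aeval (x : LaurentSeries Kbar) q := fun q =>
      (Polynomial.aeval_algHom_apply
        (laurentBaseChange Kbar (modularFunctionFieldFull M)).val x q).symm
    rw [MulMemClass.coe_mul, e, e, hxcoe]
    exact i1
  -- the identity in the reduced field
  have hidk : aeval ((redSetting A (hasScale_laurentBaseChange A M)).red ⟨x, hx⟩)
          (P.map (Int.castRingHom (kV A)))
        = (redSetting A (hasScale_laurentBaseChange A M)).red
            ⟨Fermat.Agent.RED.H73.jF (L := Kbar) M, jF_mem A M⟩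
          * aeval ((redSetting A (hasScale_laurentBaseChange A M)).red ⟨x, hx⟩)
            (Q.map (Int.castRingHom (kV A))) := by
    apply Subtype.ext
    have e : ∀ (y : ↥(redField A (laurentBaseChange Kbar (modularFunctionFieldFull M))
        (hasScale_laurentBaseChange A M))) (q : (kV A)[X]),
        ((aeval y q : ↥(redField A (laurentBaseChange Kbar (modularFunctionFieldFull M))
          (hasScale_laurentBaseChange A M))) : LaurentSeries (kV A))
          = aeval (y : LaurentSeries (kV A)) q := fun y q =>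
      (Polynomial.aeval_algHom_apply
        (redField A (laurentBaseChange Kbar (modularFunctionFieldFull M))
          (hasScale_laurentBaseChange A M)).val y q).symm
    rw [MulMemClass.coe_mul, e, e, hxred, red_jF]
    exact k1
  have hxt : Transcendental Kbar x :=
    Fermat.Agent.RED.H34.RedSetting.transcendental_x hx G.transc
  haveI := G.fin
  -- `P - a Q ≠ 0`
  have hne : ∀ a : Kbar, P.map (Int.castRingHom Kbar) - C a * Q.map (Int.castRingHom Kbar)
      ≠ 0 := by
    intro a
    have hPm : (P.map (Int.castRingHom Kbar)).Monic := hP.map _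
    have hdeg : (C a * Q.map (Int.castRingHom Kbar)).degree
        < (P.map (Int.castRingHom Kbar)).degree := by
      refine degree_lt_degree (lt_of_le_of_lt (natDegree_C_mul_le a _) ?_)
      rw [hQ.natDegree_map, hP.natDegree_map, hPd]
      exact hQd
    exact (hPm.sub_of_left hdeg).ne_zero
  -- branch values of `x`
  have hbrx : ∀ ρ : Kbar, IsBranchValue x ρ → ρ = 0 ∨ ρ = c := by
    intro ρ hρ
    by_cases h0 : ρ = 0
    · exact Or.inl h0
    · right
      have hQρ : (Q.map (Int.castRingHom Kbar)).eval ρ ≠ 0 := fun h => h0 (hQroot ρ h)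
      exact hbr ρ h0 (branch_haupt M x hxt _ _ hid hne hQρ hρ)
  -- the degree
  have o1 := coeffMap_order_neg (Int.castRingHom Kbar) hord hlead
  have H2 := haupt_H2_bar hp _ _ _ _ (hP.map (Int.castRingHom Kbar))
    (by rw [hP.natDegree_map, hPd]) (by rw [hQ.natDegree_map]; exact hQd) i1
    (aeval_ne_zero_of_order_neg o1 (hQ.map _).ne_zero) i2
    (aeval_ne_zero_of_order_neg o1 (hQ'.map _).ne_zero)
  have hdeg : (p + 1) * Module.finrank Kbar⟮x⟯
      ↥(laurentBaseChange Kbar (modularFunctionFieldFull M)) = dedekindPsi M := by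
    have h1 := haupt_relfinrank_mul hpM (caDataBar p) (caDataBar M) H2
    rw [card_Q_eq_psi, card_Q_eq_psi, dedekindPsi_prime hp] at h1
    rw [finrank_adjoin_simple_subtype, hxcoe]
    rw [← h1]
    exact congrArg (fun B => (p + 1) * (IntermediateField.adjoin Kbar
      ({coeffMap (Int.castRingHom Kbar) hZ} : Set (LaurentSeries Kbar))).relfinrank B)
      (laurentBaseChange_full_eq M)
  exact ⟨x, hx, G, hdeg, hbrx, hid, hidk⟩

/-- **(FIB ≥)** for a chart `x` with the five chart fields, in terms of places. -/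
theorem num23_fibre_ge (M : ℕ) [NeZero M] (A : ValuationSubring Kbar)
    (x : ↥(laurentBaseChange Kbar (modularFunctionFieldFull M)))
    (hx : x ∈ (redSetting A (hasScale_laurentBaseChange A M)).V)
    (G : ChartPre (redSetting A (hasScale_laurentBaseChange A M)) x hx)
    (ρ : ↥(redSetting A (hasScale_laurentBaseChange A M)).O)
    (hρ : ∀ ρ' : ↥(redSetting A (hasScale_laurentBaseChange A M)).O,
      IsBranchValue x (ρ' : Kbar) →
      (redSetting A (hasScale_laurentBaseChange A M)).resO ρ'
        = (redSetting A (hasScale_laurentBaseChange A M)).resO ρ → ρ' = ρ) :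
    Nat.card {v : Place Kbar (FN M) // 0 < v.ord (x - algebraMap Kbar (FN M) (ρ : Kbar))}
      ≤ Nat.card {z : Place (kV A) ↥(redField A
          (laurentBaseChange Kbar (modularFunctionFieldFull M))
          (hasScale_laurentBaseChange A M)) //
        0 < z.ord ((redSetting A (hasScale_laurentBaseChange A M)).red ⟨x, hx⟩
          - algebraMap (kV A) _
            ((redSetting A (hasScale_laurentBaseChange A M)).resO ρ))} := by
  haveI : IsAlgClosed (kV A) := isAlgClosed_kV A
  haveI := G.fin
  haveI := G.sep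
  haveI := G.sept
  haveI hfdt := RedSetting.finiteDimensional_red hx G.deg
  have hxt : Transcendental Kbar x := RedSetting.transcendental_x hx G.transc
  rw [← card_ptsOver _ hxt (ρ : Kbar),
    ← card_ptsOver _ G.transc ((redSetting A (hasScale_laurentBaseChange A M)).resO ρ),
    Nat.card_coe_set_eq, Nat.card_coe_set_eq]
  exact RedSetting.ncard_ptsOver_red_ge hx G.transc G.deg ρ hρ

/-- The residue of an integer constant. -/
theorem num23_resO_intCast {C F k Ft : Type} [Field C] [Field F] [Algebra C F] [Field k]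
    [Field Ft] [Algebra k Ft] (S : RedSetting C F k Ft) (n : ℤ) (h : (n : C) ∈ S.O) :
    S.resO ⟨(n : C), h⟩ = (n : k) := by
  have e : (⟨(n : C), h⟩ : ↥S.O) = ((n : ℤ) : ↥S.O) := Subtype.ext (by push_cast; rfl)
  rw [e, map_intCast]

end Generic

end Fermat.Agent.BAD.H30
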