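import Fermat.Agent.BAD.H30_Num23

/-!
# BAD_q, package NUM: the interface NUM → MODSSD for all tame `(M, q)` (helper30)

* `num23_final` : `q = 3, 2 ∣ M` or `q = 2, 3 ∣ M` (same shape as `H21.H21_num_final`);
* `num_final_tame` : all tame cases `5 ≤ q ∨ (q = 3 ∧ 2 ∣ M) ∨ (q = 2 ∧ 3 ∣ M)`
  (this disjunction is `H91.TameAt M q` unfolded).

For a prime `q ∤ M`, `A` over `q`: there is a nonempty finite set `Z` of places of the reduced
function field of level `M`, none a pole of `j~`, such that every element `y` of the reduced field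
of level `M` with the `q`-expansion of the Gauss reduction of the modular unit
`unitF (M q) q = Δ(t)/Δ(t^q)` has a zero at every `z ∈ Z`, and `g(M q) + 1 ≤ 2 g(M) + #Z`.
-/

set_option autoImplicit false
set_option linter.style.haveILetI false
set_option linter.unusedSectionVars false
set_option synthInstance.maxHeartbeats 400000
set_option maxHeartbeats 1000000

noncomputable section

open AlgebraicCurve IntermediateField Polynomial

namespace Fermat.Agent.BAD.H30

open ModularCurve Fermat.Agent.S28.H73 Fermat.Agent.RED.H73 Fermat.Agent.RED.H34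
  Fermat.Agent.RED.H76 Fermat.Agent.RED.H51 Fermat.Agent.BAD.H21
open Fermat.Agent.S24 (Kbar FN)

/-- A zero of `j~` is a zero of every element with the `q`-expansion `j~ ^ (n + 1)`. -/
theorem num23_ord_pos_of_coe_eq_pow (M : ℕ) [NeZero M] (A : ValuationSubring Kbar)
    (z : Place (kV A) ↥(redField A (FNbar M) (hasScale_laurentBaseChange A M)))
    (hz : 0 < z.ord (H21_jt M A)) (n : ℕ) (hn : 0 < n)
    (y : ↥(redField A (FNbar M) (hasScale_laurentBaseChange A M)))
    (hy : (y : LaurentSeries (kV A)) = jqModC (kV A) ^ n) : 0 < z.ord y := by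
  have e : y = H21_jt M A ^ n := by
    apply Subtype.ext
    rw [hy, SubmonoidClass.coe_pow]
    congr 1
    exact (red_jF A M).symm
  rw [e, ord_pow]
  have : (0 : ℤ) < (n : ℤ) := by exact_mod_cast hn
  positivity

/-- **NUM at level `M`, `q = 2, 3`** (interface NUM → MODSSD). -/
theorem num23_final (M q : ℕ) [NeZero M] [NeZero (M * q)] (hq : q.Prime)
    (h23 : (q = 3 ∧ 2 ∣ M) ∨ (q = 2 ∧ 3 ∣ M))
    (hqM : ¬ q ∣ M) (A : ValuationSubring (AlgebraicClosure ℚ)) (hA : A.LiesOverPrime q)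
    (hd : q ∣ M * q) :
    haveI : NeZero q := ⟨hq.ne_zero⟩
    ∃ Z : Finset (Place (kV A) ↥(redField A (FNbar M) (hasScale_laurentBaseChange A M))),
      Z.Nonempty ∧
      (∀ z ∈ Z, 0 ≤ z.ord (gaussRes A M ⟨jF (L := Kbar) M, jF_mem A M⟩)) ∧
      (∀ z ∈ Z, ∀ y : ↥(redField A (FNbar M) (hasScale_laurentBaseChange A M)),
        (y : LaurentSeries (kV A))
          = ((gaussRes A (M * q) ⟨unitF (M * q) q hd, unitF_mem_gaussV A (M * q) q hd⟩ :
              ↥(redField A (FNbar (M * q)) (hasScale_laurentBaseChange A (M * q)))) :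
              LaurentSeries (kV A)) → 0 < z.ord y) ∧
      genusFormula (M * q) + 1 ≤ 2 * genusFormula M + (Z.card : ℚ) := by
  haveI : NeZero q := ⟨hq.ne_zero⟩
  haveI : Fact q.Prime := ⟨hq⟩
  have hsmall : q = 2 ∨ q = 3 := by
    rcases h23 with ⟨h, -⟩ | ⟨h, -⟩
    · exact Or.inr h
    · exact Or.inl h
  have hunit := gaussRes_unitF_small A (M * q) q hA hd hsmall
  have hq1 : 0 < q - 1 := by
    have := hq.two_le
    omega
  obtain ⟨Z, hne, hZ, hg⟩ : ∃ Z : Finset (Place (kV A) ↥(redField A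
          (laurentBaseChange Kbar (modularFunctionFieldFull M))
          (hasScale_laurentBaseChange A M))),
      Z.Nonempty ∧ (∀ z ∈ Z, 0 < z.ord (H21_jt M A)) ∧
      genusFormula (M * q) + 1 ≤ 2 * genusFormula M + (Z.card : ℚ) := by
    rcases h23 with ⟨rfl, h2M⟩ | ⟨rfl, h3M⟩
    · exact num23_three M A h2M hqM hA
    · exact num23_two M A h3M hqM hA
  refine ⟨Z, hne, fun z hz => (hZ z hz).le, ?_, hg⟩
  intro z hz y hy
  exact num23_ord_pos_of_coe_eq_pow M A z (hZ z hz) (q - 1) hq1 y (hy.trans hunit)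

/-- **NUM at level `M`, all tame `(M, q)`** (interface NUM → MODSSD). -/
theorem num_final_tame (M q : ℕ) [NeZero M] [NeZero (M * q)] (hq : q.Prime)
    (ht : 5 ≤ q ∨ (q = 3 ∧ 2 ∣ M) ∨ (q = 2 ∧ 3 ∣ M))
    (hqM : ¬ q ∣ M) (A : ValuationSubring (AlgebraicClosure ℚ)) (hA : A.LiesOverPrime q)
    (hd : q ∣ M * q) :
    haveI : NeZero q := ⟨hq.ne_zero⟩
    ∃ Z : Finset (Place (kV A) ↥(redField A (FNbar M) (hasScale_laurentBaseChange A M))),
      Z.Nonempty ∧
      (∀ z ∈ Z, 0 ≤ z.ord (gaussRes A M ⟨jF (L := Kbar) M, jF_mem A M⟩)) ∧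
      (∀ z ∈ Z, ∀ y : ↥(redField A (FNbar M) (hasScale_laurentBaseChange A M)),
        (y : LaurentSeries (kV A))
          = ((gaussRes A (M * q) ⟨unitF (M * q) q hd, unitF_mem_gaussV A (M * q) q hd⟩ :
              ↥(redField A (FNbar (M * q)) (hasScale_laurentBaseChange A (M * q)))) :
              LaurentSeries (kV A)) → 0 < z.ord y) ∧
      genusFormula (M * q) + 1 ≤ 2 * genusFormula M + (Z.card : ℚ) := by
  rcases ht with h5 | h23
  · exact H21_num_final M q hq h5 hqM A hA hd
  · exact num23_final M q hq h23 hqM A hA hd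

end Fermat.Agent.BAD.H30
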