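import Fermat.Agent.S15.H26_CuspEisGood
import Fermat.Agent.RED.H51_HKA

/-!
# BAD_q, package SIGMA, leaf Σ1 (helper30): the fibre of `β` over the cusp `∞`

`q` prime, `q ∤ M`, `α, β : F_M → F_{M q}` the degeneracy maps over `ℚ̄`.

* `sigma1` : a place `P` of `F_{M q}` with `P | β = cuspInf M` has `P | α = cuspInf M`.
* `sigma1'` : the same with the integrality proofs supplied by `RED.H51.stmt_HKA`.

Proof: `T_q (P∞) = α_* β^* (P∞) = (q + 1) P∞` (helper26, `heckeDivBar_single_cuspInf`), and
`α_* β^* (P∞)` is an effective divisor whose support is `{P | α : P | β = P∞}`.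
-/

set_option autoImplicit false
set_option synthInstance.maxHeartbeats 400000
set_option linter.style.haveILetI false
set_option linter.unusedSectionVars false

noncomputable section

open AlgebraicCurve ModularCurve

namespace Fermat.Agent.BAD.H30

open Fermat.Agent.S24 (Kbar FN)
open Fermat.Agent.RED.KD.H22 (cuspInf)

section Corr

variable {K F F' : Type*} [Field K] [Field F] [Field F'] [Algebra K F] [Algebra K F']

theorem sigma1_inertiaDegAlong_eq_one (ψ : F →ₐ[K] F') (hψ : ψ.toRingHom.IsIntegral)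
    (hdeg : ∀ v : Place K F, v.deg = 1) (hdeg' : ∀ w : Place K F', w.deg = 1)
    (W : Place K F') : W.inertiaDegAlong ψ hψ = 1 := by
  letI := algebraAlong ψ
  haveI := isScalarTower_along ψ
  haveI := isIntegral_along ψ hψ
  have h := W.deg_restrict_mul_inertiaDeg (F := F)
  rw [hdeg, hdeg', one_mul] at h
  exact h

variable [HasPrincipalDivisors K F']
  (φ ψ : F →ₐ[K] F') (hφ : φ.toRingHom.IsIntegral) (hψ : ψ.toRingHom.IsIntegral)

/-- The correspondence `ψ_* φ^*` applied to the place `W | φ` has a positive coefficient at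
`W | ψ`. -/
theorem sigma1_correspondence_single_pos
    (hdeg : ∀ v : Place K F, v.deg = 1) (hdeg' : ∀ w : Place K F', w.deg = 1)
    (W : Place K F') :
    0 < Divisor.correspondence φ ψ hφ hψ (Finsupp.single (W.restrictAlong φ hφ) 1)
      (W.restrictAlong ψ hψ) := by
  classical
  rw [Divisor.correspondence_apply, Divisor.pullbackAlong_single, map_sum,
    Finsupp.finsetSum_apply]
  have hmem : W ∈ Place.fiberAlong φ hφ (W.restrictAlong φ hφ) := Place.mem_fiberAlong.mpr rfl
  have hnn : ∀ W' ∈ Place.fiberAlong φ hφ (W.restrictAlong φ hφ),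
      0 ≤ (Divisor.pushforwardAlong ψ hψ
        (Finsupp.single W' (1 * (W'.ramificationIndexAlong φ : ℤ)))) (W.restrictAlong ψ hψ) := by
    intro W' _
    rw [Divisor.pushforwardAlong_single, Finsupp.single_apply]
    split_ifs
    · positivity
    · exact le_rfl
  refine lt_of_lt_of_le ?_ (Finset.single_le_sum hnn hmem)
  rw [Divisor.pushforwardAlong_single, Finsupp.single_eq_same, one_mul,
    sigma1_inertiaDegAlong_eq_one ψ hψ hdeg hdeg' W, Nat.cast_one, mul_one]
  have := Fermat.Agent.S15.H26.ramificationIndexAlong_pos φ hφ W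
  exact_mod_cast this

end Corr

section Main

variable (M q : ℕ) [NeZero M] [NeZero q]

/-- **Σ1**: a place over the cusp `∞` along `β` lies over the cusp `∞` along `α`. -/
theorem sigma1 (hq : q.Prime) (hqM : ¬ q ∣ M)
    (hα : HeckeAlphaBarIntegral Kbar M q) (hβ : HeckeBetaBarIntegral Kbar M q)
    (P : Place Kbar (laurentBaseChange Kbar (modularFunctionFieldFull (M * q))))
    (hP : P.restrictAlong (heckeBetaBar Kbar M q) hβ = cuspInf M) :
    P.restrictAlong (heckeAlphaBar Kbar M q) hα = cuspInf M := by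
  haveI : NeZero (M * q) := ⟨Nat.mul_ne_zero (NeZero.ne M) (NeZero.ne q)⟩
  obtain ⟨hα', hβ', hPD, hfin, hFI, hNF⟩ := Fermat.Agent.RED.H51.stmt_HKA M q
  haveI := hPD
  have hT := Fermat.Agent.S15.H26.heckeDivBar_single_cuspInf M q hα hβ hq hqM hfin hFI hNF
  by_contra hne
  have h0 : heckeDivBar (L := Kbar) hα hβ (Finsupp.single (cuspInf M) 1)
      (P.restrictAlong (heckeAlphaBar Kbar M q) hα) = 0 := by
    rw [hT]
    exact Finsupp.single_eq_of_ne hne
  have hpos := sigma1_correspondence_single_pos (heckeBetaBar Kbar M q) (heckeAlphaBar Kbar M q)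
    hβ hα (Fermat.Agent.S15.H22.place_deg_eq_one M)
    (Fermat.Agent.S15.H22.place_deg_eq_one (M * q)) P
  rw [hP] at hpos
  exact absurd h0 hpos.ne'

/-- **Σ1**, with the integrality of `α`, `β` from `RED.H51.stmt_HKA`. -/
theorem sigma1_exists (hq : q.Prime) (hqM : ¬ q ∣ M) :
    ∃ (hα : HeckeAlphaBarIntegral Kbar M q) (hβ : HeckeBetaBarIntegral Kbar M q),
      ∀ P : Place Kbar (laurentBaseChange Kbar (modularFunctionFieldFull (M * q))),
        P.restrictAlong (heckeBetaBar Kbar M q) hβ = cuspInf M →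
        P.restrictAlong (heckeAlphaBar Kbar M q) hα = cuspInf M := by
  obtain ⟨hα, hβ, -⟩ := Fermat.Agent.RED.H51.stmt_HKA M q
  exact ⟨hα, hβ, fun P hP => sigma1 M q hq hqM hα hβ P hP⟩

end Main

end Fermat.Agent.BAD.H30
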