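import Fermat.Agent.S15.H30_CuspUnitC
import Fermat.Agent.S28.H76_X
import Fermat.Agent.S28.H76_Bridge
import Fermat.Prelude.Def_ModularCurve_ModularUnit

/-!
# BAD_q, package UNIT (helper30), part 1: the modular unit `Δ(z)/Δ(dz)` at level `N`, over `ℂ`

For `d ∣ N`: the conjugates `unitU N d q` of the eta quotient `Δ(z)/Δ(dz)` over the cosets of
`Γ₀(N)` in `SL₂(ℤ)`, as `t`-expansions (`t = q^(1/N)`).

* `unitU_coeff_mem` : coefficients in `ℤ[ζ_N, 1/N]`;
* `sym_unitU` : the symmetric functions of `u_q + s X_q` are polynomials in `j`;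
* `prod_unitU_eq_C` : the norm is a nonzero constant;
* `unitU_q1` : at the identity coset, `u = d⁻¹¹ · Δ(q)/Δ(q^d)` (prelude `modularUnitSeries d`).
-/

set_option autoImplicit false
set_option linter.unusedSectionVars false
set_option linter.unusedVariables false

open UpperHalfPlane ModularForm ModularCurve Function SlashInvariantForm
open scoped MatrixGroups ModularForm Manifold Real

noncomputable section

namespace Fermat.Agent.BAD.H30

open Fermat.Agent.S23.H22 (G0 Q toSL piPerm q1 E12)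
open Fermat.Agent.S28 Fermat.Agent.S28.H30
open Fermat.Agent.S15.H30 (dM dP dMm eq_C_of_mul_eq_one iotaN_jq_order)

local notation "ofPS" => HahnSeries.ofPowerSeries ℤ ℂ

variable (N : ℕ) [NeZero N] (d : ℕ)

lemma dM_dvd_of_dvd {N d : ℕ} (hd : d ∣ N) : ∀ i ∈ (Finset.univ : Finset Bool), dM d i ∣ N := by
  intro i _
  cases i
  · exact one_dvd N
  · exact hd

/-- The conjugates of `Δ(z)/Δ(dz)`. -/
def unitU (q : Q N) : LaurentSeries ℂ := Ueta N Finset.univ (dM d) dP dMm q

/-- The conjugates of `Δ(dz)/Δ(z)`. -/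
def unitV (q : Q N) : LaurentSeries ℂ := Ueta N Finset.univ (dM d) dMm dP q

variable {N d}

lemma unitU_coeff_mem (hd : d ∣ N) (q : Q N) (n : ℤ) : (unitU N d q).coeff n ∈ coeffRing N := by
  obtain ⟨γ, rfl⟩ := exists_rep N q
  exact (uls_Ueta (mp := dP) (mm := dMm) (dM_dvd_of_dvd hd) γ).coeffs n

lemma unitU_ne_zero (hd : d ∣ N) (q : Q N) : unitU N d q ≠ 0 := by
  obtain ⟨γ, rfl⟩ := exists_rep N q
  exact (uls_Ueta (mp := dP) (mm := dMm) (dM_dvd_of_dvd hd) γ).ne

lemma unitU_mul_unitV (hd : d ∣ N) (q : Q N) : unitU N d q * unitV N d q = 1 := by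
  unfold unitU unitV Ueta
  have h1 : pexp N (prodF N Finset.univ (dM d) dP q) ≠ 0 :=
    pexp_ne_zero (prodF_BPH (dM_dvd_of_dvd hd) dP q) (z := UpperHalfPlane.I)
      (prodF_ne_zero (dM_dvd_of_dvd hd) dP q _)
  have h2 : pexp N (prodF N Finset.univ (dM d) dMm q) ≠ 0 :=
    pexp_ne_zero (prodF_BPH (dM_dvd_of_dvd hd) dMm q) (z := UpperHalfPlane.I)
      (prodF_ne_zero (dM_dvd_of_dvd hd) dMm q _)
  field_simp

/-- The symmetric functions of the conjugates are polynomials in `j`. -/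
theorem sym_unitU (hd : d ∣ N) {d' : ℕ} (hd' : d' ∣ N) (c s : ℂ) :
    (∏ q : Q N, (HahnSeries.C c - unitU N d q - HahnSeries.C s * Fermat.Agent.S28.H76.Xfam N d' q))
      ∈ Algebra.adjoin ℂ ({iotaN N jq} : Set (LaurentSeries ℂ)) :=
  sym_of_stmt (N := N) (mp := dP) (mm := dMm) Fermat.Agent.S28.H76.stmt_sym
    (dM_dvd_of_dvd hd) (by simp [dP, dMm]) hd' c s

lemma prod_neg_unitU_mem (hd : d ∣ N) :
    (∏ q : Q N, (-unitU N d q)) ∈ Algebra.adjoin ℂ ({iotaN N jq} : Set (LaurentSeries ℂ)) := by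
  have h := sym_unitU hd (one_dvd N) 0 0
  convert h using 1
  refine Finset.prod_congr rfl fun q _ => ?_
  rw [map_zero, zero_mul, sub_zero, zero_sub]

lemma prod_neg_unitV_mem (hd : d ∣ N) :
    (∏ q : Q N, (-unitV N d q)) ∈ Algebra.adjoin ℂ ({iotaN N jq} : Set (LaurentSeries ℂ)) := by
  have h := sym_of_stmt (N := N) (mp := dMm) (mm := dP) Fermat.Agent.S28.H76.stmt_sym
    (dM_dvd_of_dvd hd) (by simp [dP, dMm]) (one_dvd N) 0 0
  convert h using 1
  refine Finset.prod_congr rfl fun q _ => ?_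
  rw [map_zero, zero_mul, sub_zero, zero_sub]
  rfl

/-- **The norm of the modular unit is a nonzero constant.** -/
theorem prod_unitU_eq_C (hd : d ∣ N) :
    ∃ c : ℂ, c ≠ 0 ∧ ∏ q : Q N, unitU N d q = HahnSeries.C c := by
  have hAB : (∏ q : Q N, (-unitU N d q)) * (∏ q : Q N, (-unitV N d q)) = 1 := by
    rw [← Finset.prod_mul_distrib]
    refine Finset.prod_eq_one fun q _ => ?_
    have e : -unitU N d q * -unitV N d q = unitU N d q * unitV N d q := by ring
    rw [e, unitU_mul_unitV hd]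
  obtain ⟨c, hc, hA⟩ := eq_C_of_mul_eq_one (iotaN_jq_order N) (prod_neg_unitU_mem hd)
    (prod_neg_unitV_mem hd) hAB
  refine ⟨(-1) ^ Fintype.card (Q N) * c, mul_ne_zero (pow_ne_zero _ (by norm_num)) hc, ?_⟩
  have h0 : ∏ q : Q N, (-unitU N d q) = (-1) ^ Fintype.card (Q N) * ∏ q : Q N, unitU N d q := by
    have e : ∀ q : Q N, -unitU N d q = (-1) * unitU N d q := fun q => by ring
    simp only [e]
    rw [Finset.prod_mul_distrib, Finset.prod_const, Finset.card_univ]
  have h1 : ∏ q : Q N, unitU N d q = (-1) ^ Fintype.card (Q N) * ∏ q : Q N, (-unitU N d q) := by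
    have e2 : ((-1 : LaurentSeries ℂ) ^ Fintype.card (Q N)) * (-1) ^ Fintype.card (Q N) = 1 := by
      have e3 : (-1 : LaurentSeries ℂ) * (-1) = 1 := by ring
      rw [← mul_pow, e3, one_pow]
    rw [h0, ← mul_assoc, e2, one_mul]
  rw [h1, hA, map_mul, map_pow, map_neg, map_one]

/-! ### The expansion at the identity coset -/

/-- The formal `Δ` over `ℂ` is the `q`-expansion of the discriminant. -/
theorem coeffMap_deltaSeries :
    coeffMap (algebraMap ℚ ℂ) deltaSeries = ofPS (qExpansion 1 ModularForm.discriminant) := by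
  rw [deltaSeries, map_mul, coeffMap_single, map_one,
    Fermat.Agent.S28.H76.coeffMap_ofPowerSeries, Fermat.Agent.S28.H76.qExpansion_disc_eq_etaProd,
    map_mul, HahnSeries.ofPowerSeries_X]
  congr 2
  have e : PowerSeries.map (algebraMap ℚ ℂ) (PowerSeries.map (Int.castRingHom ℚ) (etaProd ^ 24))
      = PowerSeries.map (Int.castRingHom ℂ) (etaProd ^ 24) := by
    ext n
    simp only [PowerSeries.coeff_map]
    simp
  rw [dedekindEtaUnitQ, dedekindEtaUnit, e, map_pow]

theorem ofPS_disc_ne_zero : ofPS (qExpansion 1 ModularForm.discriminant) ≠ 0 := by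
  rw [← coeffMap_deltaSeries]
  intro h
  have h2 : coeffMap (algebraMap ℚ ℂ) deltaSeries = coeffMap (algebraMap ℚ ℂ) 0 := by
    rw [h, map_zero]
  exact deltaSeries_ne_zero (Fermat.Agent.RED.H30.coeffMap_injective _ h2)

/-- **The expansion of the unit at the identity coset**: `d⁻¹¹ · Δ(q)/Δ(q^d)`, `q = t^N`. -/
theorem unitU_q1 [NeZero d] (hd : d ∣ N) :
    unitU N d (q1 : Q N)
      = HahnSeries.C (((d : ℂ) ^ ((12 : ℤ) - 1))⁻¹) * iotaN N (modularUnitSeries d) := by
  have hc0 : (d : ℂ) ^ ((12 : ℤ) - 1) ≠ 0 := zpow_ne_zero _ (Nat.cast_ne_zero.mpr (NeZero.ne d))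
  have hc : (HahnSeries.C ((d : ℂ) ^ ((12 : ℤ) - 1)) : LaurentSeries ℂ) ≠ 0 := by
    rw [Ne, map_eq_zero]
    exact hc0
  have hD := ofPS_disc_ne_zero
  have hDd : qExpand ℂ d (ofPS (qExpansion 1 ModularForm.discriminant)) ≠ 0 := by
    intro h
    exact hD (qExpand_injective d (by rw [h, map_zero]))
  -- numerator and denominator
  have hnum : pexp N (prodF N Finset.univ (dM d) dP (q1 : Q N))
      = qExpand ℂ N (ofPS (qExpansion 1 ModularForm.discriminant)) := by
    rw [pexp_prodF (dM_dvd_of_dvd hd), Fintype.prod_bool]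
    simp only [dP, dM, if_true, Bool.false_eq_true, if_false, pow_zero, pow_one, one_mul]
    rw [Fermat.Agent.S28.H76.pexp_fam_q1 N (one_dvd N) DeltaMF]
    simp only [Nat.cast_one, one_zpow, map_one, one_mul, qExpand_one_apply]
    rfl
  have hden : pexp N (prodF N Finset.univ (dM d) dMm (q1 : Q N))
      = qExpand ℂ N (HahnSeries.C ((d : ℂ) ^ ((12 : ℤ) - 1)) *
          qExpand ℂ d (ofPS (qExpansion 1 ModularForm.discriminant))) := by
    rw [pexp_prodF (dM_dvd_of_dvd hd), Fintype.prod_bool]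
    simp only [dMm, dM, if_true, Bool.false_eq_true, if_false, pow_zero, pow_one, mul_one]
    rw [Fermat.Agent.S28.H76.pexp_fam_q1 N hd DeltaMF]
    rfl
  have hmus : coeffMap (algebraMap ℚ ℂ) (modularUnitSeries d)
      = ofPS (qExpansion 1 ModularForm.discriminant)
        * (qExpand ℂ d (ofPS (qExpansion 1 ModularForm.discriminant)))⁻¹ := by
    rw [modularUnitSeries, deltaSeriesN, map_mul, map_inv₀, ModularCurve.coeffMap_qExpand,
      coeffMap_deltaSeries]
  have hqC : qExpand ℂ N (HahnSeries.C ((d : ℂ) ^ ((12 : ℤ) - 1)))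
      = HahnSeries.C ((d : ℂ) ^ ((12 : ℤ) - 1)) := by
    rw [HahnSeries.C_apply, qExpand_single, mul_zero]
  have hB : qExpand ℂ N (qExpand ℂ d (ofPS (qExpansion 1 ModularForm.discriminant))) ≠ 0 := by
    intro h
    exact hDd (qExpand_injective N (by rw [h, map_zero]))
  unfold unitU Ueta
  rw [hnum, hden, iotaN, RingHom.comp_apply, hmus, map_mul (qExpand ℂ N), hqC,
    map_mul (qExpand ℂ N), map_inv₀ (qExpand ℂ N), map_inv₀ (HahnSeries.C)]
  field_simp

end Fermat.Agent.BAD.H30
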