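import Fermat.Agent.BAD.H30_UnitL
import Fermat.Agent.BAD.Defs
import Fermat.Agent.BAD.H82_Kron
import Fermat.Agent.RED.H10_Kronecker

/-!
# BAD_q, package UNIT-GAUSS (helper30): the modular unit and the Gauss valuation

`deltaR R = t · ∏ (1 - tⁿ)²⁴ ∈ R((t))` is the formal `Δ` over any commutative ring `R`
(`deltaR ℚ` is the prelude `deltaSeries`, by `rfl`).  For a valuation subring `A` of a field
`L ⊇ ℚ` with residue field `k`, and `d ≥ 1`:

* `unit_mem_gaussRingV` : `Δ(t)/Δ(t^d) ∈` Gauss ring of `A`;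
* `gaussRedV_unit` : its reduction is `Δ~(t) · (Δ~(t^d))⁻¹ ∈ k((t))`, and it is `≠ 0`;
* `qExpand_deltaR_char` : in characteristic `q`: `Δ~(t^q) = Δ~(t)^q`;
* `gaussRedV_unit_char` : for `d = q = char k`: the reduction is `(Δ~ ^ (q - 1))⁻¹`.

For the function field `F_N · ℚ̄` (`d ∣ N`), with `unitF N d hd` of `H30_UnitL`:

* `unitF_mem_gaussV`, `gaussRes_unitF`, `gaussRes_unitF_ne_zero`, `gaussRes_unitF_char`.
-/

set_option autoImplicit false
set_option linter.unusedSectionVars false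
set_option linter.unusedVariables false

open ModularCurve Fermat.Agent.S28 Fermat.Agent.S28.H73 Fermat.Agent.RED.H73

noncomputable section

namespace Fermat.Agent.BAD.H30

section DeltaR

variable (R : Type*) [CommRing R]

/-- The formal `Δ = t ∏ (1 - tⁿ)²⁴` over a commutative ring. -/
def deltaR : LaurentSeries R :=
  HahnSeries.single (1 : ℤ) 1 *
    HahnSeries.ofPowerSeries ℤ R (dedekindEtaUnit.map (Int.castRingHom R))

variable {R}

theorem coeffMap_deltaR {S : Type*} [CommRing S] (f : R →+* S) :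
    coeffMap f (deltaR R) = deltaR S := by
  rw [deltaR, deltaR, map_mul, coeffMap_single, map_one,
    ModularCurve.coeffMap_ofPowerSeries]
  congr 2
  ext n
  simp only [PowerSeries.coeff_map, eq_intCast, map_intCast]

theorem deltaR_rat : deltaR ℚ = deltaSeries := rfl

variable (R)

theorem deltaR_coeff_one : (deltaR R).coeff 1 = 1 := by
  have h : (deltaR ℤ).coeff 1 = 1 := by
    have h1 := isMonicOfOrder_deltaSeries.coeff_self
    rw [← deltaR_rat, ← coeffMap_deltaR (Int.castRingHom ℚ), coeffMap_coeff] at h1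
    have h2 : ((deltaR ℤ).coeff 1 : ℚ) = ((1 : ℤ) : ℚ) := by
      rw [Int.cast_one]; exact h1
    exact Int.cast_injective h2
  rw [← coeffMap_deltaR (Int.castRingHom R), coeffMap_coeff, h, map_one]

theorem deltaR_ne_zero [Nontrivial R] : deltaR R ≠ 0 := by
  intro h
  have := deltaR_coeff_one R
  rw [h] at this
  exact zero_ne_one this

theorem qExpand_deltaR_ne_zero [Nontrivial R] (d : ℕ) [NeZero d] :
    qExpand R d (deltaR R) ≠ 0 := fun h =>
  deltaR_ne_zero R (qExpand_injective d (h.trans (map_zero _).symm))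

/-- **Frobenius**: `Δ(t^q) = Δ(t)^q` in characteristic `q`. -/
theorem qExpand_deltaR_char (q : ℕ) [Fact q.Prime] [CharP R q] :
    qExpand R q (deltaR R) = deltaR R ^ q := by
  have : NeZero q := ⟨(Fact.out : q.Prime).ne_zero⟩
  rw [Fermat.Agent.RED.H10.pow_char_eq q (deltaR R), coeffMap_deltaR]

end DeltaR

section Unit

variable {L : Type} [Field L] [Algebra ℚ L] (A : ValuationSubring L) (d : ℕ) [NeZero d]

theorem coeffEmb_modularUnitSeries :
    coeffEmb L (modularUnitSeries d) = deltaR L * (qExpand L d (deltaR L))⁻¹ := by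
  rw [modularUnitSeries, deltaSeriesN, map_mul, map_inv₀, coeffEmb, coeffMap_qExpand,
    ← deltaR_rat, coeffMap_deltaR]

theorem iotaV_deltaR : iotaV A (deltaR ↥A) = deltaR L := coeffMap_deltaR _

theorem redV_deltaR : redV A (deltaR ↥A) = deltaR (kV A) := coeffMap_deltaR _

theorem unit_gauss_eq :
    iotaV A (qExpand ↥A d (deltaR ↥A)) * coeffEmb L (modularUnitSeries d)
      = iotaV A (deltaR ↥A) := by
  rw [coeffEmb_modularUnitSeries, iotaV, coeffMap_qExpand, coeffMap_deltaR,
    mul_comm (deltaR L), ← mul_assoc, mul_inv_cancel₀ (qExpand_deltaR_ne_zero L d), one_mul]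

theorem redV_qExpand_deltaR_ne_zero : redV A (qExpand ↥A d (deltaR ↥A)) ≠ 0 := by
  rw [redV, coeffMap_qExpand, coeffMap_deltaR]
  exact qExpand_deltaR_ne_zero _ d

/-- **(G1)** the modular unit `Δ(t)/Δ(t^d)` lies in the Gauss ring of every valuation subring. -/
theorem unit_mem_gaussRingV : coeffEmb L (modularUnitSeries d) ∈ gaussRingV A :=
  ⟨qExpand ↥A d (deltaR ↥A), deltaR ↥A, redV_qExpand_deltaR_ne_zero A d, unit_gauss_eq A d⟩

/-- **(G2)** the reduction of the modular unit is `Δ~(t)/Δ~(t^d)`. -/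
theorem gaussRedV_unit (h : coeffEmb L (modularUnitSeries d) ∈ gaussRingV A) :
    gaussRedV A ⟨coeffEmb L (modularUnitSeries d), h⟩
      = deltaR (kV A) * (qExpand (kV A) d (deltaR (kV A)))⁻¹ := by
  rw [gaussRedV_eq A ⟨_, h⟩ (redV_qExpand_deltaR_ne_zero A d) (unit_gauss_eq A d), redV,
    coeffMap_qExpand, coeffMap_deltaR, div_eq_mul_inv]

theorem gaussRedV_unit_ne_zero (h : coeffEmb L (modularUnitSeries d) ∈ gaussRingV A) :
    gaussRedV A ⟨coeffEmb L (modularUnitSeries d), h⟩ ≠ 0 := by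
  rw [gaussRedV_unit]
  exact mul_ne_zero (deltaR_ne_zero _) (inv_ne_zero (qExpand_deltaR_ne_zero _ d))

end Unit

section UnitChar

variable {L : Type} [Field L] [Algebra ℚ L] (A : ValuationSubring L) (q : ℕ) [Fact q.Prime]

/-- **(G3)** for `d = q` the residue characteristic: the reduction of `Δ(t)/Δ(t^q)` is
`(Δ~ ^ (q - 1))⁻¹`. -/
theorem gaussRedV_unit_char (hA : A.LiesOverPrime q)
    (h : haveI : NeZero q := ⟨(Fact.out : q.Prime).ne_zero⟩
      coeffEmb L (modularUnitSeries q) ∈ gaussRingV A) :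
    haveI : NeZero q := ⟨(Fact.out : q.Prime).ne_zero⟩
    gaussRedV A ⟨coeffEmb L (modularUnitSeries q), h⟩ = (deltaR (kV A) ^ (q - 1))⁻¹ := by
  have : NeZero q := ⟨(Fact.out : q.Prime).ne_zero⟩
  have : CharP (kV A) q := Fermat.Agent.BAD.H82.charP_kV A (Fact.out : q.Prime) hA
  rw [gaussRedV_unit, qExpand_deltaR_char]
  have h0 := deltaR_ne_zero (kV A)
  have hq : 1 ≤ q := (Fact.out : q.Prime).one_le
  have e : deltaR (kV A) ^ q = deltaR (kV A) ^ (q - 1) * deltaR (kV A) := by
    rw [← pow_succ, Nat.sub_add_cancel hq]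
  rw [e, mul_inv, mul_comm (deltaR (kV A)), mul_assoc, inv_mul_cancel₀ h0, mul_one]

end UnitChar

section FunctionField

open Fermat.Agent.S24 (Kbar FN jF)

variable (A : ValuationSubring (AlgebraicClosure ℚ)) (N : ℕ) [NeZero N] (d : ℕ) [NeZero d]

/-- **(G1)** `unitF N d ∈` the Gauss valuation ring of `F_N · ℚ̄`. -/
theorem unitF_mem_gaussV (hd : d ∣ N) : unitF N d hd ∈ gaussV A N :=
  unit_mem_gaussRingV A d

/-- **(G2)** the Gauss reduction of `unitF N d` is `Δ~(t)/Δ~(t^d)`. -/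
theorem gaussRes_unitF (hd : d ∣ N) :
    ((gaussRes A N ⟨unitF N d hd, unitF_mem_gaussV A N d hd⟩ :
        ↥(redField A (FNbar N) (hasScale_laurentBaseChange A N))) : LaurentSeries (kV A))
      = deltaR (kV A) * (qExpand (kV A) d (deltaR (kV A)))⁻¹ :=
  gaussRedV_unit A d _

theorem gaussRes_unitF_ne_zero (hd : d ∣ N) :
    gaussRes A N ⟨unitF N d hd, unitF_mem_gaussV A N d hd⟩ ≠ 0 := by
  intro h
  have h1 := congrArg (Subtype.val) h
  exact gaussRedV_unit_ne_zero A d (unit_mem_gaussRingV A d) h1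

end FunctionField

section FunctionFieldChar

open Fermat.Agent.S24 (Kbar FN jF)

variable (A : ValuationSubring (AlgebraicClosure ℚ)) (N : ℕ) [NeZero N] (q : ℕ) [Fact q.Prime]

/-- **(G3)** for `q ∣ N` the residue characteristic of `A`: the Gauss reduction of
`unitF N q = Δ(t)/Δ(t^q)` is `(Δ~ ^ (q - 1))⁻¹`. -/
theorem gaussRes_unitF_char (hA : A.LiesOverPrime q) (hd : q ∣ N) :
    haveI : NeZero q := ⟨(Fact.out : q.Prime).ne_zero⟩
    ((gaussRes A N ⟨unitF N q hd, unitF_mem_gaussV A N q hd⟩ :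
        ↥(redField A (FNbar N) (hasScale_laurentBaseChange A N))) : LaurentSeries (kV A))
      = (deltaR (kV A) ^ (q - 1))⁻¹ :=
  gaussRedV_unit_char A q hA _

end FunctionFieldChar

end Fermat.Agent.BAD.H30
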