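import Fermat.Agent.BAD.H42_NormRed2

/-!
# Approximation for finitely many valuation rings of rank one (helper42)

`V : ι → ValuationSubring L`, pairwise incomparable, all of rank one (`IsArch`), all non-trivial.

* `exists_pow_lt` : a common exponent for finitely many valuations;
* `exists_gt_lt` : `z` with `v_i z > 1` and `v_j z < 1` for `j ∈ s`, `i ∉ s`;
* `exists_one_small` : `E` with `v_i (E - 1) < 1` and `v_j E < v_j (c j)` for `j ∈ s`;
* `exists_approx_small` : for `y ∈ V_i`: `b` with `v_i (b - y) < 1` and `v_j b < v_j (c j)`.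

This file contains no `sorry`.
-/

set_option autoImplicit false

noncomputable section

namespace Fermat.Agent.BAD.H42

section ApproxR

variable {L : Type} [Field L] {ι : Type} [DecidableEq ι]

/-- A common exponent: if `v_j z < 1` for `j ∈ s` there is `N ≥ 1` with `v_j (z ^ N) < v_j (c j)`
for all `j ∈ s`. -/
theorem exists_pow_lt (V : ι → ValuationSubring L) (hA : ∀ i, IsArch (V i)) (s : Finset ι)
    (z : L) (hz : ∀ j ∈ s, (V j).valuation z < 1) (c : ι → L) (hc : ∀ j ∈ s, c j ≠ 0) :
    ∃ N : ℕ, 0 < N ∧ ∀ j ∈ s, (V j).valuation (z ^ N) < (V j).valuation (c j) := by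
  induction s using Finset.induction_on with
  | empty => exact ⟨1, Nat.one_pos, fun j hj => absurd hj (Finset.notMem_empty j)⟩
  | insert k s hk ih =>
    obtain ⟨N, hN0, hN⟩ := ih (fun j hj => hz j (Finset.mem_insert_of_mem hj))
      (fun j hj => hc j (Finset.mem_insert_of_mem hj))
    obtain ⟨n, hn⟩ := hA k z (c k) (hz k (Finset.mem_insert_self k s))
      (hc k (Finset.mem_insert_self k s))
    refine ⟨N + n, by omega, fun j hj => ?_⟩
    rcases Finset.mem_insert.1 hj with rfl | hjs
    · rw [pow_add, map_mul]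
      refine lt_of_le_of_lt ?_ hn
      refine mul_le_of_le_one_left zero_le ?_
      rw [map_pow]
      exact pow_le_one₀ zero_le (hz j hj).le
    · rw [pow_add, map_mul]
      refine lt_of_le_of_lt ?_ (hN j hjs)
      refine mul_le_of_le_one_right zero_le ?_
      rw [map_pow]
      exact pow_le_one₀ zero_le (hz j hj).le

theorem val_one_add_pow_of_lt (W : ValuationSubring L) {z : L} (hz : W.valuation z < 1)
    {N : ℕ} (hN : 0 < N) : W.valuation (1 + z ^ N) = 1 := by
  apply Valuation.map_one_add_of_lt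
  rw [map_pow]
  exact pow_lt_one₀ zero_le hz hN.ne'

theorem val_one_add_pow_of_gt (W : ValuationSubring L) {z : L} (hz : 1 < W.valuation z)
    {N : ℕ} (hN : 0 < N) : W.valuation (1 + z ^ N) = W.valuation (z ^ N) := by
  apply Valuation.map_add_eq_of_lt_right
  rw [map_one, map_pow]
  exact one_lt_pow₀ hz hN.ne'

/-- `z ^ N / (1 + z ^ N)` has valuation `1` where `v z > 1`. -/
theorem val_quot_of_gt (W : ValuationSubring L) {z : L} (hz : 1 < W.valuation z)
    {N : ℕ} (hN : 0 < N) : W.valuation (z ^ N / (1 + z ^ N)) = 1 := by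
  rw [map_div₀, val_one_add_pow_of_gt W hz hN]
  refine div_self ?_
  rw [map_pow]
  exact pow_ne_zero _ (ne_of_gt (lt_trans zero_lt_one hz))

/-- `z ^ N / (1 + z ^ N)` has the valuation of `z ^ N` where `v z < 1`. -/
theorem val_quot_of_lt (W : ValuationSubring L) {z : L} (hz : W.valuation z < 1)
    {N : ℕ} (hN : 0 < N) : W.valuation (z ^ N / (1 + z ^ N)) = W.valuation (z ^ N) := by
  rw [map_div₀, val_one_add_pow_of_lt W hz hN, div_one]

/-- `z ^ N / (1 + z ^ N) ≡ 1` where `v z > 1`. -/
theorem val_quot_sub_one_of_gt (W : ValuationSubring L) {z : L} (hz : 1 < W.valuation z)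
    {N : ℕ} (hN : 0 < N) : W.valuation (z ^ N / (1 + z ^ N) - 1) < 1 := by
  have h0 : W.valuation (1 + z ^ N) = W.valuation (z ^ N) := val_one_add_pow_of_gt W hz hN
  have hne : (1 + z ^ N) ≠ 0 := by
    intro h
    rw [h, map_zero, map_pow] at h0
    exact (pow_ne_zero _ (ne_of_gt (lt_trans zero_lt_one hz))) h0.symm
  have h1 : z ^ N / (1 + z ^ N) - 1 = - (1 + z ^ N)⁻¹ := by
    field_simp
    ring
  rw [h1, Valuation.map_neg, map_inv₀, h0, map_pow]
  exact inv_lt_one_of_one_lt₀ (one_lt_pow₀ hz hN.ne')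

/-- **Separation**: `z` with `v_i z > 1` and `v_j z < 1` for all `j ∈ s` (`i ∉ s`). -/
theorem exists_gt_lt (V : ι → ValuationSubring L) (hA : ∀ i, IsArch (V i))
    (hinc : ∀ i j, i ≠ j → ¬ V i ≤ V j) (hnt : ∀ i, V i ≠ ⊤) (i : ι) (s : Finset ι)
    (his : i ∉ s) :
    ∃ z : L, 1 < (V i).valuation z ∧ ∀ j ∈ s, (V j).valuation z < 1 := by
  induction s using Finset.induction_on with
  | empty =>
    obtain ⟨z, hz⟩ : ∃ z : L, z ∉ V i := by
      by_contra hall
      push Not at hall
      exact hnt i (eq_top_iff.2 fun z _ => hall z)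
    refine ⟨z, ?_, fun j hj => absurd hj (Finset.notMem_empty j)⟩
    rw [← ValuationSubring.valuation_le_one_iff] at hz
    exact not_le.1 hz
  | insert k s hk ih =>
    have hik : i ≠ k := fun h => his (h ▸ Finset.mem_insert_self _ s)
    obtain ⟨z, hzi, hzs⟩ := ih (fun h => his (Finset.mem_insert_of_mem h))
    -- `y` with `v_i y > 1`, `v_k y < 1`
    obtain ⟨t, htk, hti⟩ := exists_unit_lt (V k) (V i) (hinc k i (Ne.symm hik))
    obtain ⟨u, hui, huk⟩ := exists_unit_lt (V i) (V k) (hinc i k hik)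
    have ht0 : t ≠ 0 := by
      rintro rfl
      rw [map_zero] at htk
      exact zero_ne_one htk
    have hti0 : (V i).valuation t ≠ 0 := (Valuation.ne_zero_iff _).2 ht0
    set y := u / t with hy
    have hyi : 1 < (V i).valuation y := by
      rw [hy, map_div₀, hui, one_div]
      exact (one_lt_inv₀ (zero_lt_iff.2 hti0)).2 hti
    have hyk : (V k).valuation y < 1 := by
      rw [hy, map_div₀, htk, div_one]
      exact huk
    have hy0 : y ≠ 0 := by
      rintro h0
      rw [h0, map_zero] at hyi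
      exact not_lt_zero hyi
    obtain ⟨N, hN0, hN⟩ := exists_pow_lt V hA s z hzs (fun _ => y⁻¹) (fun _ _ => inv_ne_zero hy0)
    have hsmall : ∀ j ∈ s, (V j).valuation (z ^ N) * (V j).valuation y < 1 := by
      intro j hj
      have h1 := hN j hj
      rw [map_inv₀] at h1
      have hyj : (V j).valuation y ≠ 0 := (Valuation.ne_zero_iff _).2 hy0
      calc (V j).valuation (z ^ N) * (V j).valuation y
          < ((V j).valuation y)⁻¹ * (V j).valuation y :=
            mul_lt_mul_of_pos_right h1 (zero_lt_iff.2 hyj)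
        _ = 1 := inv_mul_cancel₀ hyj
    by_cases hzk : (V k).valuation z ≤ 1
    · refine ⟨z ^ N * y, ?_, ?_⟩
      · rw [map_mul, map_pow]
        exact one_lt_mul_of_le_of_lt (one_le_pow₀ hzi.le) hyi
      · intro j hj
        rcases Finset.mem_insert.1 hj with rfl | hjs
        · rw [map_mul, map_pow]
          exact mul_lt_one_of_nonneg_of_lt_one_right (pow_le_one₀ zero_le hzk) zero_le hyk
        · rw [map_mul]
          exact hsmall j hjs
    · push Not at hzk
      refine ⟨z ^ N / (1 + z ^ N) * y, ?_, ?_⟩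
      · rw [map_mul, val_quot_of_gt (V i) hzi hN0, one_mul]
        exact hyi
      · intro j hj
        rcases Finset.mem_insert.1 hj with rfl | hjs
        · rw [map_mul, val_quot_of_gt (V j) hzk hN0, one_mul]
          exact hyk
        · rw [map_mul, val_quot_of_lt (V j) (hzs j hjs) hN0]
          exact hsmall j hjs

/-- **Approximation of `1`**: `E ≡ 1 mod m_i`, arbitrarily small at the `j ∈ s`. -/
theorem exists_one_small (V : ι → ValuationSubring L) (hA : ∀ i, IsArch (V i))
    (hinc : ∀ i j, i ≠ j → ¬ V i ≤ V j) (hnt : ∀ i, V i ≠ ⊤) (i : ι) (s : Finset ι)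
    (his : i ∉ s) (c : ι → L) (hc : ∀ j ∈ s, c j ≠ 0) :
    ∃ E : L, (V i).valuation (E - 1) < 1 ∧ ∀ j ∈ s, (V j).valuation E < (V j).valuation (c j) := by
  obtain ⟨z, hzi, hzs⟩ := exists_gt_lt V hA hinc hnt i s his
  obtain ⟨N, hN0, hN⟩ := exists_pow_lt V hA s z hzs c hc
  refine ⟨z ^ N / (1 + z ^ N), val_quot_sub_one_of_gt (V i) hzi hN0, fun j hj => ?_⟩
  rw [val_quot_of_lt (V j) (hzs j hj) hN0]
  exact hN j hj

/-- **Approximation**: for `y ∈ V_i` there is `b ≡ y mod m_i`, arbitrarily small at the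
`j ∈ s`. -/
theorem exists_approx_small (V : ι → ValuationSubring L) (hA : ∀ i, IsArch (V i))
    (hinc : ∀ i j, i ≠ j → ¬ V i ≤ V j) (hnt : ∀ i, V i ≠ ⊤) (i : ι) (s : Finset ι)
    (his : i ∉ s) (c : ι → L) (hc : ∀ j ∈ s, c j ≠ 0) (y : L) (hy : y ∈ V i) :
    ∃ b : L, (V i).valuation (b - y) < 1 ∧ (V i).valuation b = (V i).valuation y ∧
      ∀ j ∈ s, (V j).valuation b < (V j).valuation (c j) := by
  rcases eq_or_ne y 0 with rfl | hy0
  · refine ⟨0, by simp, rfl, fun j hj => ?_⟩
    rw [map_zero]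
    exact zero_lt_iff.2 ((Valuation.ne_zero_iff _).2 (hc j hj))
  obtain ⟨E, hEi, hEs⟩ := exists_one_small V hA hinc hnt i s his (fun j => c j / y)
    (fun j hj => div_ne_zero (hc j hj) hy0)
  have hyv : (V i).valuation y ≤ 1 := (ValuationSubring.valuation_le_one_iff _ _).2 hy
  have hE1 : (V i).valuation E = 1 := by
    have : E = 1 + (E - 1) := by ring
    rw [this]
    exact Valuation.map_one_add_of_lt _ hEi
  refine ⟨y * E, ?_, by rw [map_mul, hE1, mul_one], fun j hj => ?_⟩
  · have : y * E - y = y * (E - 1) := by ring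
    rw [this, map_mul]
    exact Right.mul_lt_one_of_le_of_lt hyv hEi
  · have h1 := hEs j hj
    rw [map_div₀] at h1
    have hyj : (V j).valuation y ≠ 0 := (Valuation.ne_zero_iff _).2 hy0
    rw [map_mul]
    calc (V j).valuation y * (V j).valuation E
        < (V j).valuation y * ((V j).valuation (c j) / (V j).valuation y) :=
          mul_lt_mul_of_pos_left h1 (zero_lt_iff.2 hyj)
      _ = (V j).valuation (c j) := by
        field_simp

end ApproxR

end Fermat.Agent.BAD.H42
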