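import Fermat.Agent.BAD.H28_PRed

/-!
# Item 65, package CONS-ss (helper79): the abstract semistable Deuring datum from TOTAL
conservation.  Definitions.

Setting: `L / K` a function field (modular: `L = F_N · ℚ̄`, `N = M q`), two valuation rings
`V₁`, `V₂` of `L` with residue maps onto function fields `L₁`, `L₂` over `k` (the two extensions of
the Gauss valuation of level `M`), a map `ρ : Place K L → Place k L₁` (modular: the reduction of
the restriction of the place to level `M`) and a bijection `β : Place k L₁ ≃ Place k L₂` (the
place of the second component over the same point of level `M`).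

* `VRed K F k F'` : a valuation ring with residue map (helper28's `PRed` without the reduction of
  places); `VRed.toPRed` gives access to helper28's API (`rd`, `IsGU`, ...).
* `TotData K L k L₁ L₂` : the data above with the law of TOTAL conservation `tot`
  (`∑_{ρ P = z} ord_P f = ord_z (red₁ u₁) + ord_{β z} (red₂ u₂)`), a uniformizer of the FIRST
  component regular on the fibre (`unif`), a separating element (`sep`) and rank one (`arch`).
* `TotData.InR z f` : `f` is integral for both valuations, without pole on the fibre of `z`.
* `TotData.IsNode z` : the two reductions of every `f ∈ R_z` have the same value at `z`, `β z`.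
* `TotData.OnSide₁ P`, `TotData.OnSide₂ P` : the value at `P` of every `f ∈ R_{ρ P}` reduces to the
  value of the first (second) reduction.

The theorem of the package (`H79_SSD.lean`): a `TotData` with one node gives an `SSD`
(`TotData.toSSD`) with nodes `{(z, β z) | IsNode z}`; no further input.
-/

set_option autoImplicit false
set_option linter.style.haveILetI false

noncomputable section

open AlgebraicCurve

attribute [local instance] Classical.propDecidable

namespace Fermat.Agent.BAD.H79

open Fermat.Agent.RED.H17 Fermat.Agent.RED Fermat.Agent.BAD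

/-- A valuation ring of the function field `F / K` with residue map onto `F'` (a `PRed` without
the reduction of places). -/
structure VRed (K F k F' : Type*) [Field K] [Field F] [Algebra K F] [Field k] [Field F']
    [Algebra k F'] where
  /-- the valuation ring -/
  V : ValuationSubring F
  /-- reduction of integral functions -/
  red : V →+* F'
  red_eq_zero_iff : ∀ u : V, red u = 0 ↔ u ∈ IsLocalRing.maximalIdeal V
  red_surj : Function.Surjective red
  /-- every non-zero function is a constant times a unit -/
  exists_scale : ∀ f : F, f ≠ 0 → ∃ c : K, c ≠ 0 ∧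
    ∃ h : algebraMap K F c * f ∈ V, red ⟨_, h⟩ ≠ 0
  /-- integral constants reduce to constants -/
  red_const : ∀ (c : K) (h : algebraMap K F c ∈ V), ∃ c' : k, red ⟨_, h⟩ = algebraMap k F' c'
  /-- every constant of the residue field lifts -/
  const_surj : ∀ c' : k, ∃ (c : K) (h : algebraMap K F c ∈ V),
    red ⟨_, h⟩ = algebraMap k F' c'

/-- The `PRed` of a `VRed` with empty reduction map (to use helper28's API). -/
def VRed.toPRed {K F k F' : Type*} [Field K] [Field F] [Algebra K F] [Field k] [Field F']
    [Algebra k F'] (B : VRed K F k F') : PRed K F k F' where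
  V := B.V
  red := B.red
  red_eq_zero_iff := B.red_eq_zero_iff
  red_surj := B.red_surj
  exists_scale := B.exists_scale
  red_const := B.red_const
  const_surj := B.const_surj
  r := fun _ => none
  good := ∅
  DI := fun _ _ _ _ Q hQ => absurd hQ (Set.notMem_empty Q)

/-- **Total conservation datum**: two valuation rings of `L` with residue fields `L₁`, `L₂`, a
reduction map `ρ` to the places of `L₁`, a bijection `β` between the places of `L₁` and `L₂`, and
the law of total conservation. -/
structure TotData (K L k L₁ L₂ : Type*) [Field K] [Field L] [Algebra K L] [Field k] [Field L₁]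
    [Algebra k L₁] [Field L₂] [Algebra k L₂] where
  /-- the first valuation -/
  b₁ : VRed K L k L₁
  /-- the second valuation -/
  b₂ : VRed K L k L₂
  /-- the two valuations agree on the constants -/
  const_mem : ∀ c : K, algebraMap K L c ∈ b₁.V ↔ algebraMap K L c ∈ b₂.V
  const_red : ∀ (c : K) (h₁ : algebraMap K L c ∈ b₁.V) (h₂ : algebraMap K L c ∈ b₂.V) (a : k),
    b₁.red ⟨_, h₁⟩ = algebraMap k L₁ a → b₂.red ⟨_, h₂⟩ = algebraMap k L₂ a
  /-- the reduction map (to the points of the curve of lower level) -/
  ρ : Place K L → Place k L₁
  /-- the point of the second component over a point of the first -/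
  β : Place k L₁ ≃ Place k L₂
  /-- TOTAL conservation: the number of zeros minus poles of `u` in the fibre of `z` is the sum
  of the orders of the two (scaled) reductions at `z` and `β z` -/
  tot : ∀ (u₁ : b₁.V) (u₂ : b₂.V), b₁.red u₁ ≠ 0 → b₂.red u₂ ≠ 0 →
    (∃ c : K, (u₂ : L) = algebraMap K L c * (u₁ : L)) →
    ∀ D : Divisor K L, (∀ P, D P = P.ord (u₁ : L)) → ∀ z : Place k L₁,
      Finsupp.mapDomain ρ D z = z.ord (b₁.red u₁) + (β z).ord (b₂.red u₂)
  /-- a uniformizer of the first component at `z`, integral for both valuations and regular on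
  the fibre of `z` (modular: a function of the lower level) -/
  unif : ∀ z : Place k L₁, ∃ (t : L) (h₁ : t ∈ b₁.V), t ∈ b₂.V ∧
    (∀ P, ρ P = z → 0 ≤ P.ord t) ∧ z.ord (b₁.red ⟨t, h₁⟩) = 1
  /-- a separating element: the two valuations are different -/
  sep : ∃ (e : L) (h₁ : e ∈ b₁.V) (h₂ : e ∈ b₂.V), b₁.red ⟨e, h₁⟩ ≠ 0 ∧ b₂.red ⟨e, h₂⟩ = 0
  /-- rank one: a power of a constant of the maximal ideal is divisible by any non-zero
  constant -/
  arch : ∀ (c d : K) (h : algebraMap K L c ∈ b₁.V), b₁.red ⟨_, h⟩ = 0 → d ≠ 0 →
    ∃ m : ℕ, algebraMap K L (c ^ m / d) ∈ b₁.V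

namespace TotData

variable {K L k L₁ L₂ : Type*} [Field K] [Field L] [Algebra K L] [Field k] [Field L₁]
  [Algebra k L₁] [Field L₂] [Algebra k L₂] (T : TotData K L k L₁ L₂)

/-- The first valuation as a `PRed` (for helper28's API). -/
abbrev p₁ : PRed K L k L₁ := T.b₁.toPRed

/-- The second valuation as a `PRed` (for helper28's API). -/
abbrev p₂ : PRed K L k L₂ := T.b₂.toPRed

/-- `f ∈ R_z`: integral for both valuations, without pole on the fibre of `z`. -/
def InR (z : Place k L₁) (f : L) : Prop :=
  f ∈ T.b₁.V ∧ f ∈ T.b₂.V ∧ ∀ P, T.ρ P = z → RegAt P f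

/-- `z` is a **node**: for every `f ∈ R_z` the two reductions take the same value at `z` and at
`β z`. -/
def IsNode (z : Place k L₁) : Prop :=
  ∀ f : L, T.InR z f → ∀ a : k,
    (VanAt z (T.p₁.rd f - algebraMap k L₁ a) ↔ VanAt (T.β z) (T.p₂.rd f - algebraMap k L₂ a))

/-- `P` lies on the first side: the value at `P` of `f ∈ R_{ρ P}` reduces to the value of the
first reduction of `f` at `ρ P`. -/
def OnSide₁ (P : Place K L) : Prop :=
  ∀ f : L, T.InR (T.ρ P) f → ∀ a : K, VanAt P (f - algebraMap K L a) →
    VanAt (T.ρ P) (T.p₁.rd f - T.p₁.rd (algebraMap K L a))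

/-- `P` lies on the second side. -/
def OnSide₂ (P : Place K L) : Prop :=
  ∀ f : L, T.InR (T.ρ P) f → ∀ a : K, VanAt P (f - algebraMap K L a) →
    VanAt (T.β (T.ρ P)) (T.p₂.rd f - T.p₂.rd (algebraMap K L a))

/-- The partial reduction map of the first component. -/
def r₁ (P : Place K L) : Option (Place k L₁) := if T.OnSide₁ P then some (T.ρ P) else none

/-- The partial reduction map of the second component. -/
def r₂ (P : Place K L) : Option (Place k L₂) :=
  if T.OnSide₂ P then some (T.β (T.ρ P)) else none

end TotData

end Fermat.Agent.BAD.H79
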