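import Fermat.Agent.BAD.H42_NormRed2
import Fermat.Agent.BAD.H79_Defs

/-!
# Item 65, BAD_q (helper42): rank one of a Gauss-type valuation ring from scaling + rank one of
the constants

* `isArch_of_scale` : if every non-zero function is a constant times a unit of `V` and the
  valuation is of rank one on the constants, then `V` is of rank one (`IsArch V`, the hypothesis
  of `normRed_two`);
* `vred_isArch` : the same for helper79's `VRed`, with the rank one hypothesis in the shape of
  `TotData.arch`;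
* `TotData.isArch₁`, `TotData.isArch₂` : both valuation rings of a `TotData` are of rank one;
* `TotData.not_le₁₂`, `TotData.not_le₂₁` : they are incomparable (from `sep`).

This file contains no `sorry`.
-/

set_option autoImplicit false

noncomputable section

open AlgebraicCurve

namespace Fermat.Agent.BAD.H42

open Fermat.Agent.BAD.H79

section Abs

variable {K F : Type} [Field K] [Field F] [Algebra K F]

/-- Rank one from scaling and rank one on the constants. -/
theorem isArch_of_scale (V : ValuationSubring F)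
    (hscale : ∀ f : F, f ≠ 0 → ∃ c : K, c ≠ 0 ∧ V.valuation (algebraMap K F c * f) = 1)
    (harch : ∀ c d : K, V.valuation (algebraMap K F c) < 1 → d ≠ 0 →
      ∃ m : ℕ, V.valuation (algebraMap K F (c ^ m / d)) ≤ 1) : IsArch V := by
  intro x y hx hy
  rcases eq_or_ne x 0 with rfl | hx0
  · refine ⟨1, ?_⟩
    rw [pow_one, map_zero]
    exact zero_lt_iff.2 ((Valuation.ne_zero_iff _).2 hy)
  obtain ⟨c, hc0, hc⟩ := hscale x hx0
  obtain ⟨d, hd0, hd⟩ := hscale y hy
  have hcF : algebraMap K F c ≠ 0 := by rwa [Ne, map_eq_zero]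
  have hdF : algebraMap K F d ≠ 0 := by rwa [Ne, map_eq_zero]
  have hvc : V.valuation (algebraMap K F c) ≠ 0 := (Valuation.ne_zero_iff _).2 hcF
  have hvd : V.valuation (algebraMap K F d) ≠ 0 := (Valuation.ne_zero_iff _).2 hdF
  -- `v x = v c⁻¹`, `v y = v d⁻¹`
  have hx' : V.valuation x = V.valuation (algebraMap K F c⁻¹) := by
    rw [map_mul] at hc
    rw [map_inv₀, map_inv₀]
    exact eq_inv_of_mul_eq_one_right hc
  have hy' : V.valuation y = V.valuation (algebraMap K F d⁻¹) := by
    rw [map_mul] at hd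
    rw [map_inv₀, map_inv₀]
    exact eq_inv_of_mul_eq_one_right hd
  have hci : V.valuation (algebraMap K F c⁻¹) < 1 := by rwa [← hx']
  obtain ⟨m, hm⟩ := harch c⁻¹ d⁻¹ hci (inv_ne_zero hd0)
  refine ⟨m + 1, ?_⟩
  rw [map_pow, hx', hy']
  have hdi : V.valuation (algebraMap K F d⁻¹) ≠ 0 :=
    (Valuation.ne_zero_iff _).2 (by rw [Ne, map_eq_zero]; exact inv_ne_zero hd0)
  have h1 : V.valuation (algebraMap K F c⁻¹) ^ m ≤ V.valuation (algebraMap K F d⁻¹) := by
    rw [map_div₀, map_pow, map_div₀, map_pow] at hm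
    exact (div_le_one₀ (zero_lt_iff.2 hdi)).1 hm
  have hci0 : V.valuation (algebraMap K F c⁻¹) ≠ 0 :=
    (Valuation.ne_zero_iff _).2 (by rw [Ne, map_eq_zero]; exact inv_ne_zero hc0)
  rw [pow_succ]
  calc V.valuation (algebraMap K F c⁻¹) ^ m * V.valuation (algebraMap K F c⁻¹)
      < V.valuation (algebraMap K F c⁻¹) ^ m * 1 :=
        mul_lt_mul_of_pos_left hci (zero_lt_iff.2 (pow_ne_zero m hci0))
    _ = V.valuation (algebraMap K F c⁻¹) ^ m := mul_one _
    _ ≤ _ := h1

end Abs

section VRedForm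

variable {K F k F' : Type} [Field K] [Field F] [Algebra K F] [Field k] [Field F'] [Algebra k F']

theorem vred_val_eq_one_of_red_ne_zero (B : VRed K F k F') (u : ↥B.V) (hu : B.red u ≠ 0) :
    B.V.valuation (u : F) = 1 := by
  rw [← ValuationSubring.valuation_eq_one_iff]
  by_contra hnu
  apply hu
  rw [B.red_eq_zero_iff]
  exact (IsLocalRing.mem_maximalIdeal _).2 hnu

theorem vred_red_eq_zero_of_val_lt (B : VRed K F k F') (u : ↥B.V)
    (hu : B.V.valuation (u : F) < 1) : B.red u = 0 := by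
  rw [B.red_eq_zero_iff]
  exact (ValuationSubring.valuation_lt_one_iff B.V u).2 hu

/-- A `VRed` with rank one on the constants (shape of `TotData.arch`) is of rank one. -/
theorem vred_isArch (B : VRed K F k F')
    (harch : ∀ (c d : K) (h : algebraMap K F c ∈ B.V), B.red ⟨_, h⟩ = 0 → d ≠ 0 →
      ∃ m : ℕ, algebraMap K F (c ^ m / d) ∈ B.V) : IsArch B.V := by
  refine isArch_of_scale (K := K) B.V ?_ ?_
  · intro f hf
    obtain ⟨c, hc0, h, hred⟩ := B.exists_scale f hf
    exact ⟨c, hc0, vred_val_eq_one_of_red_ne_zero B ⟨_, h⟩ hred⟩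
  · intro c d hc hd
    have hmem : algebraMap K F c ∈ B.V := (ValuationSubring.valuation_le_one_iff _ _).1 hc.le
    obtain ⟨m, hm⟩ := harch c d hmem (vred_red_eq_zero_of_val_lt B ⟨_, hmem⟩ hc) hd
    exact ⟨m, (ValuationSubring.valuation_le_one_iff _ _).2 hm⟩

end VRedForm

section Tot

variable {K L k L₁ L₂ : Type} [Field K] [Field L] [Algebra K L] [Field k] [Field L₁]
  [Algebra k L₁] [Field L₂] [Algebra k L₂] (T : TotData K L k L₁ L₂)

/-- The first valuation ring of a `TotData` is of rank one. -/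
theorem tot_isArch₁ : IsArch T.b₁.V := vred_isArch T.b₁ T.arch

/-- The second valuation ring of a `TotData` is of rank one. -/
theorem tot_isArch₂ : IsArch T.b₂.V := by
  refine vred_isArch T.b₂ ?_
  intro c d h hred hd
  have h₁ : algebraMap K L c ∈ T.b₁.V := (T.const_mem c).2 h
  have hred₁ : T.b₁.red ⟨_, h₁⟩ = 0 := by
    by_contra hne
    -- `c` is a unit for `V₁`; its inverse is integral for both
    have hv : T.b₁.V.valuation (algebraMap K L c) = 1 :=
      vred_val_eq_one_of_red_ne_zero T.b₁ ⟨_, h₁⟩ hne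
    have hc0 : c ≠ 0 := by
      rintro rfl
      rw [map_zero, map_zero] at hv
      exact zero_ne_one hv
    have hi₁ : algebraMap K L c⁻¹ ∈ T.b₁.V := by
      rw [← ValuationSubring.valuation_le_one_iff, map_inv₀, map_inv₀, hv, inv_one]
    have hi₂ : algebraMap K L c⁻¹ ∈ T.b₂.V := (T.const_mem _).1 hi₁
    have h1 : (⟨_, h⟩ : ↥T.b₂.V) * ⟨_, hi₂⟩ = 1 := by
      apply Subtype.ext
      simp only [MulMemClass.coe_mul, OneMemClass.coe_one]
      rw [← map_mul, mul_inv_cancel₀ hc0, map_one]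
    have h2 := congrArg T.b₂.red h1
    rw [map_mul, hred, zero_mul, map_one] at h2
    exact zero_ne_one h2
  obtain ⟨m, hm⟩ := T.arch c d h₁ hred₁ hd
  exact ⟨m, (T.const_mem _).1 hm⟩

/-- The two valuation rings of a `TotData` are incomparable, first direction. -/
theorem tot_not_le₁₂ : ¬ T.b₁.V ≤ T.b₂.V := by
  obtain ⟨e, h₁, h₂, hr₁, hr₂⟩ := T.sep
  intro hle
  have hv₁ : T.b₁.V.valuation e = 1 := vred_val_eq_one_of_red_ne_zero T.b₁ ⟨e, h₁⟩ hr₁
  have hinv : e⁻¹ ∈ T.b₁.V := by
    rw [← ValuationSubring.valuation_le_one_iff, map_inv₀, hv₁, inv_one]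
  have hinv₂ : e⁻¹ ∈ T.b₂.V := hle hinv
  have he0 : e ≠ 0 := by
    rintro rfl
    rw [map_zero] at hv₁
    exact zero_ne_one hv₁
  have h1 : (⟨e, h₂⟩ : ↥T.b₂.V) * ⟨e⁻¹, hinv₂⟩ = 1 := by
    apply Subtype.ext
    simp only [MulMemClass.coe_mul, OneMemClass.coe_one]
    exact mul_inv_cancel₀ he0
  have h2 := congrArg T.b₂.red h1
  rw [map_mul, hr₂, zero_mul, map_one] at h2
  exact zero_ne_one h2

/-- The two valuation rings of a `TotData` are incomparable, second direction. -/
theorem tot_not_le₂₁ : ¬ T.b₂.V ≤ T.b₁.V := by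
  intro hle
  rcases isArch_eq_of_le (tot_isArch₂ T) hle with h | h
  · exact tot_not_le₁₂ T h.symm.le
  · -- `V₁ = ⊤` is impossible: `V₁ ⊄ V₂`
    exact tot_not_le₁₂ T (by
      intro x _
      obtain ⟨e, h₁, h₂, hr₁, hr₂⟩ := T.sep
      -- if `V₁ = ⊤` then `V₂ ≤ V₁` and rank one of `V₂` ... use maximality again
      by_contra hx
      have hx0 : x ≠ 0 := fun h0 => hx (h0 ▸ zero_mem _)
      have hxi : T.b₂.V.valuation x⁻¹ < 1 := by
        rw [map_inv₀]
        apply inv_lt_one_of_one_lt₀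
        rw [← ValuationSubring.valuation_le_one_iff] at hx
        exact not_le.1 hx
      -- `e` is a non-unit of `V₂` and non-zero; compare with a power of `x⁻¹`: no contradiction
      -- from `V₂` alone, so use `e`: `e ∈ m₂`, `e⁻¹ ∉ V₂`, but `e` is a unit of `V₁`
      have hv₁ : T.b₁.V.valuation e = 1 := vred_val_eq_one_of_red_ne_zero T.b₁ ⟨e, h₁⟩ hr₁
      -- in `V₁ = ⊤` every non-zero element has valuation `1`; rank one of `V₁`:
      have htop : ∀ z : L, z ∈ T.b₁.V := fun z => h ▸ ValuationSubring.mem_top z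
      -- `x⁻¹` has `v₁ = 1`... the hypothesis `IsArch V₁` is vacuous; use the constants instead
      obtain ⟨c, hc0, hc, hcr⟩ := T.b₂.exists_scale x⁻¹ (inv_ne_zero hx0)
      have hvc : T.b₂.V.valuation (algebraMap K L c * x⁻¹) = 1 :=
        vred_val_eq_one_of_red_ne_zero T.b₂ ⟨_, hc⟩ hcr
      -- `v₂ c > 1`, so `c ∉ V₂`, hence `c ∉ V₁` by `const_mem`, contradiction with `V₁ = ⊤`
      have hcV₂ : algebraMap K L c ∉ T.b₂.V := by
        rw [← ValuationSubring.valuation_le_one_iff]
        rw [map_mul] at hvc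
        intro hle1
        have : T.b₂.V.valuation (algebraMap K L c) * T.b₂.V.valuation x⁻¹ < 1 :=
          Right.mul_lt_one_of_le_of_lt hle1 hxi
        rw [hvc] at this
        exact lt_irrefl _ this
      exact hcV₂ ((T.const_mem c).1 (htop _)))

end Tot

end Fermat.Agent.BAD.H42
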