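import Fermat.Agent.BAD.H42_NormRedR
import Mathlib.LinearAlgebra.Charpoly.ToMatrix

/-!
# KRON-ABS: the characteristic polynomial form of NORM-RED-r (helper42; for S36 NU-B, leaf KRON)

Setting of `NRData` (`BAD/H42_NormRedR.lean`).  For `h ∈ ⋂ V i`:

* `NRData.exists_matrix` : there are an `E`-basis of `L` and a matrix `M₀` with entries in `V_E`
  which is the matrix of the multiplication by `h`, whose reduction is block triangular with
  diagonal blocks the matrices of the multiplications by `red_i h` (each `e i` times);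
* `NRData.charpoly_red` : the characteristic polynomial of `h` over `E` has coefficients in
  `V_E` and reduces to `∏ charpoly_{κ i / Et} (red_i h) ^ e i`  (Kronecker's congruence);
* `charpoly_sigma_blockTriangular` : characteristic polynomial of a block triangular matrix.

This file has no open goals.
-/

set_option autoImplicit false

noncomputable section

namespace Fermat.Agent.BAD.H42

/-- Characteristic polynomial of a block triangular matrix indexed by triples `(i, j, α)`,
`j < e i`, `α < f i`, with diagonal blocks `A i`. -/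
theorem charpoly_sigma_blockTriangular {R : Type} [CommRing R] {ι : Type} [Fintype ι]
    [DecidableEq ι] (e f : ι → ℕ)
    (M : Matrix (Σ k : (Σ i : ι, Fin (e i)), Fin (f k.1))
      (Σ k : (Σ i : ι, Fin (e i)), Fin (f k.1)) R)
    (A : ∀ i, Matrix (Fin (f i)) (Fin (f i)) R)
    (hzero : ∀ x y : (Σ k : (Σ i : ι, Fin (e i)), Fin (f k.1)),
      (x.1.1 ≠ y.1.1 ∨ (x.1.1 = y.1.1 ∧ (x.1.2 : ℕ) < (y.1.2 : ℕ))) → M x y = 0)
    (hdiag : ∀ (k : Σ i : ι, Fin (e i)) (α α₁ : Fin (f k.1)), M ⟨k, α⟩ ⟨k, α₁⟩ = A k.1 α α₁) :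
    M.charpoly = ∏ i, (A i).charpoly ^ e i := by
  unfold Matrix.charpoly
  refine det_sigma_blockTriangular e f (Matrix.charmatrix M)
    (fun i => Matrix.charmatrix (A i)) ?_ ?_
  · intro x y hxy
    have hne : x ≠ y := by
      rintro rfl
      rcases hxy with h | ⟨-, h⟩
      · exact h rfl
      · exact lt_irrefl _ h
    rw [Matrix.charmatrix_apply_ne _ _ _ hne, hzero x y hxy, map_zero, neg_zero]
  · intro k α α₁
    by_cases h : α = α₁
    · subst h
      rw [Matrix.charmatrix_apply_eq, Matrix.charmatrix_apply_eq, hdiag]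
    · have h' : (⟨k, α⟩ : Σ k : (Σ i : ι, Fin (e i)), Fin (f k.1)) ≠ ⟨k, α₁⟩ := by
        intro heq
        exact h (eq_of_heq (Sigma.mk.inj heq).2)
      rw [Matrix.charmatrix_apply_ne _ _ _ h, Matrix.charmatrix_apply_ne _ _ _ h', hdiag]

namespace NRData

variable {E L Et : Type} [Field E] [Field L] [Field Et] [Algebra E L]
  {ι : Type} {κ : ι → Type} [∀ i, Field (κ i)] [∀ i, Algebra Et (κ i)]
  [∀ i, Module.Finite Et (κ i)] (D : NRData E L Et ι κ)

/-- **The matrix of the multiplication by `h ∈ ⋂ V i`** in an adapted basis has entries in `V_E`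
and its reduction is block triangular, with diagonal blocks the matrices of the multiplications
by the `red_i h`. -/
theorem exists_matrix [Fintype ι] [DecidableEq ι] [Module.Finite E L]
    (hdeg : ∑ i, D.e i * Module.finrank Et (κ i) = Module.finrank E L)
    (h : L) (hh : ∀ i, h ∈ D.V i) :
    ∃ (bE : Module.Basis D.I E L) (M₀ : Matrix D.I D.I ↥D.VE),
      Algebra.leftMulMatrix bE h = D.VE.subtype.mapMatrix M₀ ∧
      (∀ x y : D.I, (x.1.1 ≠ y.1.1 ∨ (x.1.1 = y.1.1 ∧ (x.1.2 : ℕ) < (y.1.2 : ℕ))) →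
        D.redE (M₀ x y) = 0) ∧
      (∀ (k : D.J) (α α₁ : Fin (Module.finrank Et (κ k.1))),
        D.redE (M₀ ⟨k, α⟩ ⟨k, α₁⟩) =
          Algebra.leftMulMatrix (Module.finBasis Et (κ k.1)) (D.red k.1 ⟨h, hh k.1⟩) α α₁) := by
  classical
  obtain ⟨T⟩ := D.exists_lift (fun _ => 1) (fun _ => one_mem _) (fun _ => one_ne_zero)
  have hli := T.linearIndependent_B
  have hcard : Fintype.card D.I = Module.finrank E L := by rw [D.card_I, hdeg]
  have hne : Nonempty D.I := by
    rw [← Fintype.card_pos_iff, hcard]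
    exact Module.finrank_pos
  let bE : Module.Basis D.I E L := basisOfLinearIndependentOfCardEqFinrank hli hcard
  have hbE : ∀ x, bE x = T.B x := fun x => by simp [bE]
  have hcoord : ∀ g : L, (∀ i, g ∈ D.V i) → ∀ x, bE.repr g x ∈ D.VE := by
    intro g hg x
    refine T.coord_mem (fun x => bE.repr g x) g hg ?_ x
    have := bE.sum_repr g
    simpa only [hbE] using this
  have hvh : ∀ j, (D.V j).valuation h ≤ 1 := fun j =>
    (ValuationSubring.valuation_le_one_iff _ _).2 (hh j)
  have hsmall : ∀ (y : D.I) (i₀ : ι), i₀ ≠ y.1.1 →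
      (D.V i₀).valuation (h * T.B y) < (D.V i₀).valuation (algebraMap E L D.ϖ) := by
    intro y i₀ hne
    rw [map_mul]
    exact mul_lt_of_le_one_of_lt (hvh i₀) (T.val_B_lt_of_ne y i₀ (Ne.symm hne))
  have hG : ∀ (y : D.I) (i : ι), h * T.B y ∈ D.V i := fun y i =>
    mul_mem (hh i) (T.B_mem y i)
  let M₀ : Matrix D.I D.I ↥D.VE :=
    Matrix.of fun x y => ⟨bE.repr (h * T.B y) x, hcoord _ (hG y) x⟩
  have hM : Algebra.leftMulMatrix bE h = D.VE.subtype.mapMatrix M₀ := by
    refine Matrix.ext fun x y => ?_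
    rw [Algebra.leftMulMatrix_eq_repr_mul, hbE]
    rfl
  have hcol : ∀ y, ∑ x, algebraMap E L ((M₀ x y : ↥D.VE) : E) * T.B x = h * T.B y := by
    intro y
    have := bE.sum_repr (h * T.B y)
    simp only [hbE, Algebra.smul_def] at this
    exact this
  refine ⟨bE, M₀, hM, ?_, ?_⟩
  · intro x y hxy
    exact T.col_redE_eq_zero (fun x => M₀ x y) h y (hh _) (hsmall y) (hcol y) x hxy
  · rintro ⟨i, j⟩ α α₁
    have h1 := T.col_redE_diag (fun x => M₀ x ⟨⟨i, j⟩, α₁⟩) h i (hh i) j α₁
      (hsmall ⟨⟨i, j⟩, α₁⟩) (hcol _)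
    rw [Algebra.leftMulMatrix_eq_repr_mul, h1, Module.Basis.repr_sum_self]

/-- **Kronecker's congruence, abstract form.**  For `h ∈ ⋂ V i` the characteristic polynomial
of (the multiplication by) `h` over `E` has coefficients in `V_E`, and its reduction is
`∏ charpoly_{κ i / Et} (red_i h) ^ e i`. -/
theorem charpoly_red [Fintype ι] [DecidableEq ι] [Module.Finite E L]
    (hdeg : ∑ i, D.e i * Module.finrank Et (κ i) = Module.finrank E L)
    (h : L) (hh : ∀ i, h ∈ D.V i) :
    ∃ P : Polynomial ↥D.VE, P.Monic ∧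
      P.map D.VE.subtype = (Algebra.lmul E L h).charpoly ∧
      P.map D.redE = ∏ i, ((Algebra.lmul Et (κ i) (D.red i ⟨h, hh i⟩)).charpoly) ^ D.e i := by
  classical
  obtain ⟨bE, M₀, hM, hzero, hdiag⟩ := D.exists_matrix hdeg h hh
  refine ⟨M₀.charpoly, Matrix.charpoly_monic _, ?_, ?_⟩
  · rw [← LinearMap.charpoly_toMatrix (Algebra.lmul E L h) bE, ← Algebra.leftMulMatrix_apply,
      hM, ← Matrix.charpoly_map]
    rfl
  · rw [← Matrix.charpoly_map]
    have h1 := charpoly_sigma_blockTriangular D.e (fun i => Module.finrank Et (κ i))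
      (M₀.map D.redE)
      (fun i => Algebra.leftMulMatrix (Module.finBasis Et (κ i)) (D.red i ⟨h, hh i⟩))
      (fun x y hxy => by rw [Matrix.map_apply]; exact hzero x y hxy)
      (fun k α α₁ => by rw [Matrix.map_apply]; exact hdiag k α α₁)
    rw [h1]
    refine Finset.prod_congr rfl fun i _ => ?_
    rw [Algebra.leftMulMatrix_apply, LinearMap.charpoly_toMatrix]

/-- Cayley–Hamilton for the polynomial of `charpoly_red`: it kills `h`. -/
theorem charpoly_aeval [Module.Finite E L] (h : L) :
    Polynomial.aeval h (Algebra.lmul E L h).charpoly = 0 := by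
  have h1 := LinearMap.aeval_self_charpoly (Algebra.lmul E L h)
  have h2 : Polynomial.aeval (Algebra.lmul E L h) (Algebra.lmul E L h).charpoly =
      Algebra.lmul E L (Polynomial.aeval h (Algebra.lmul E L h).charpoly) :=
    (Polynomial.aeval_algHom_apply (Algebra.lmul E L) h _)
  rw [h2] at h1
  have h3 := congrArg (fun φ : Module.End E L => φ 1) h1
  simpa using h3

end NRData

end Fermat.Agent.BAD.H42
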