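import Fermat.Agent.RED.H17_Local
import Fermat.Agent.RED.H42_RiemannFinal

/-!
# Item 65, BAD_q, leaf CUSP (helper42): poles reduce to poles

Abstract form of "the cusps reduce to the cusps".  Let `S : RedSetup K F k F'` be a reduction
datum with the divisor identity (conservation law) and `x` a Gauss unit whose degree does not
drop under reduction (`[F : K(x)] ≤ [F' : k(x~)]`).  Then every pole of `x` reduces to a pole of
`x~ = rd x`.  (Without the degree hypothesis this is false: `1 + π / x` has constant reduction.)

* `neg_of_mapDomain` : the combinatorial core (a push-forward of divisors which does not decrease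
  the degree of the polar part maps poles to poles);
* `negDeg`, `negDeg_dv_eq_finrank` : the degree of the polar part of `div x` is `[F : K(x)]`;
* `pole_of_pole`, `pole_of_pole_of_finrank` : poles of `x` reduce to poles of `rd x`;
* `ord_nonneg_of_ord_rd_nonneg` : if `rd x` is regular at `r P` then `x` is regular at `P`;
* `ord_nonneg_of_restrict_red` : the same for a place `P` of an extension `L ⊇ E` and the
  reduction of `P|_E` (the form used for `TotData.isNode_of_ord_ne_zero`).

This file contains no `sorry`.
-/

set_option autoImplicit false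

noncomputable section

open AlgebraicCurve IntermediateField

namespace Fermat.Agent.BAD.H42

open Fermat.Agent.RED.H17 Fermat.Agent.RED Fermat.Agent.S24

section Comb

variable {α β : Type*}

/-- The degree of the polar part of a divisor. -/
def negDeg (D : α →₀ ℤ) : ℤ := ∑ a ∈ D.support, max (-D a) 0

theorem negDeg_nonneg (D : α →₀ ℤ) : 0 ≤ negDeg D :=
  Finset.sum_nonneg fun _ _ => le_max_right _ _

/-- **Combinatorial core**: if `r_* D = D'` and the degree of the polar part of `D` is at most
the degree of the polar part of `D'`, then `r` maps the poles of `D` to poles of `D'`. -/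
theorem neg_of_mapDomain (r : α → β) (D : α →₀ ℤ) (D' : β →₀ ℤ)
    (h : Finsupp.mapDomain r D = D') (hdeg : negDeg D ≤ negDeg D') (a : α) (ha : D a < 0) :
    D' (r a) < 0 := by
  classical
  by_contra hge
  -- `g b ≤ ∑_{r a = b} f a` for poles `b`
  have h1 : ∀ b, max (-D' b) 0 ≤
      if D' b < 0 then ∑ a ∈ D.support, (if r a = b then max (-D a) 0 else 0) else 0 := by
    intro b
    split_ifs with hb
    · have hb' : D' b = ∑ a ∈ D.support, if r a = b then D a else 0 := by
        rw [← h, mapDomain_apply_eq_sum]
      refine max_le ?_ (Finset.sum_nonneg fun a _ => ?_)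
      · rw [hb', ← Finset.sum_neg_distrib]
        refine Finset.sum_le_sum fun a _ => ?_
        split_ifs
        · exact le_max_left _ _
        · simp
      · split_ifs
        · exact le_max_right _ _
        · exact le_rfl
    · exact max_le (by omega) le_rfl
  have h2 : negDeg D' ≤ ∑ a ∈ D.support, if D' (r a) < 0 then max (-D a) 0 else 0 := by
    calc negDeg D' ≤ ∑ b ∈ D'.support,
          if D' b < 0 then ∑ a ∈ D.support, (if r a = b then max (-D a) 0 else 0) else 0 :=
        Finset.sum_le_sum fun b _ => h1 b
      _ = ∑ b ∈ D'.support, ∑ a ∈ D.support,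
          (if D' b < 0 then (if r a = b then max (-D a) 0 else 0) else 0) := by
        refine Finset.sum_congr rfl fun b _ => ?_
        split_ifs
        · rfl
        · simp
      _ = ∑ a ∈ D.support, ∑ b ∈ D'.support,
          (if D' b < 0 then (if r a = b then max (-D a) 0 else 0) else 0) := Finset.sum_comm
      _ = ∑ a ∈ D.support, if D' (r a) < 0 then max (-D a) 0 else 0 := by
        refine Finset.sum_congr rfl fun a _ => ?_
        by_cases hra : D' (r a) < 0
        · rw [if_pos hra]
          have hmem : r a ∈ D'.support := by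
            rw [Finsupp.mem_support_iff]; omega
          rw [Finset.sum_eq_single (r a)]
          · rw [if_pos hra, if_pos rfl]
          · intro b _ hb
            split_ifs with h1 h2
            · exact absurd h2.symm hb
            · rfl
            · rfl
          · intro h'; exact absurd hmem h'
        · rw [if_neg hra]
          refine Finset.sum_eq_zero fun b _ => ?_
          by_cases hb : D' b < 0
          · rw [if_pos hb, if_neg]
            rintro rfl
            exact hra hb
          · rw [if_neg hb]
  have h3 : ∑ a ∈ D.support, (max (-D a) 0 - if D' (r a) < 0 then max (-D a) 0 else 0) ≤ 0 := by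
    rw [Finset.sum_sub_distrib]
    have : negDeg D = ∑ a ∈ D.support, max (-D a) 0 := rfl
    omega
  have h4 : ∀ a ∈ D.support,
      0 ≤ max (-D a) 0 - if D' (r a) < 0 then max (-D a) 0 else 0 := by
    intro a _
    split_ifs
    · simp
    · simp
  have hmem : a ∈ D.support := by
    rw [Finsupp.mem_support_iff]; omega
  have h5 := (Finset.sum_eq_zero_iff_of_nonneg h4).1
    (le_antisymm h3 (Finset.sum_nonneg h4)) a hmem
  rw [if_neg hge, sub_zero] at h5
  have : -D a ≤ max (-D a) 0 := le_max_left _ _
  omega

end Comb

section PoleDeg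

variable {K F : Type*} [Field K] [Field F] [Algebra K F]

/-- The degree of the polar part of `div x` is `[F : K(x)]`. -/
theorem negDeg_dv_eq_finrank (hP : HasPrincipalDivisors K F) (hz : H59.ZerosStmt K F) {x : F}
    (hx : Transcendental K x) [FiniteDimensional K⟮x⟯ F] :
    negDeg (dv hP x) = (Module.finrank K⟮x⟯ F : ℤ) := by
  classical
  have htr' : Transcendental K x⁻¹ := fun h => hx (IsAlgebraic.inv_iff.mp h)
  have : FiniteDimensional K⟮x⁻¹⟯ F := ff_finite_of_transcendental x hx x⁻¹ htr'
  obtain ⟨hfin, hsum⟩ := hz x⁻¹ htr'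
  rw [H59.finrank_adjoin_inv] at hsum
  rw [← hsum, finsum_mem_eq_finite_toFinset_sum _ hfin]
  unfold negDeg
  symm
  have hsub : hfin.toFinset ⊆ (dv hP x).support := by
    intro v hv
    simp only [Set.Finite.mem_toFinset, Set.mem_ofPred_eq, Place.ord_inv] at hv
    rw [Finsupp.mem_support_iff, dv_apply]
    omega
  rw [← Finset.sum_subset hsub]
  · refine Finset.sum_congr rfl fun v hv => ?_
    simp only [Set.Finite.mem_toFinset, Set.mem_ofPred_eq, Place.ord_inv] at hv
    rw [dv_apply, Place.ord_inv]
    omega
  · intro v _ hv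
    simp only [Set.Finite.mem_toFinset, Set.mem_ofPred_eq, Place.ord_inv] at hv
    rw [dv_apply]
    omega

end PoleDeg

section Red

variable {K F k F' : Type*} [Field K] [Field F] [Algebra K F] [Field k] [Field F']
  [Algebra k F'] (S : RedSetup K F k F')

/-- **CUSP, abstract form**: if the degree of the polar part does not drop under reduction,
poles of the Gauss unit `x` reduce to poles of `rd x`. -/
theorem pole_of_pole (hP : HasPrincipalDivisors K F) (hP' : HasPrincipalDivisors k F')
    {x : F} (hx : S.IsGU x) (hdeg : negDeg (dv hP x) ≤ negDeg (dv hP' (S.rd x)))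
    (P : Place K F) (hPx : P.ord x < 0) : (S.r P).ord (S.rd x) < 0 := by
  have h := S.DI ⟨x, hx.mem⟩ (by rw [← S.rd_of_mem hx.mem]; exact hx.rd_ne_zero) (dv hP x)
    (fun P => dv_apply hP x P)
  have h' : Finsupp.mapDomain S.r (dv hP x) = dv hP' (S.rd x) := by
    ext Q
    rw [h Q, dv_apply, S.rd_of_mem hx.mem]
  have h2 := neg_of_mapDomain S.r _ _ h' hdeg P (by rwa [dv_apply])
  rwa [dv_apply] at h2

/-- **CUSP**: if `[F : K(x)] ≤ [F' : k(rd x)]`, poles of the Gauss unit `x` reduce to poles of
`rd x`. -/
theorem pole_of_pole_of_finrank (hP : HasPrincipalDivisors K F)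
    (hP' : HasPrincipalDivisors k F') (hz : H59.ZerosStmt K F) (hz' : H59.ZerosStmt k F')
    {x : F} (hx : S.IsGU x) (hxt : Transcendental K x) (hxt' : Transcendental k (S.rd x))
    [FiniteDimensional K⟮x⟯ F] [FiniteDimensional k⟮S.rd x⟯ F']
    (hdeg : Module.finrank K⟮x⟯ F ≤ Module.finrank k⟮S.rd x⟯ F')
    (P : Place K F) (hPx : P.ord x < 0) : (S.r P).ord (S.rd x) < 0 := by
  refine pole_of_pole S hP hP' hx ?_ P hPx
  rw [negDeg_dv_eq_finrank hP hz hxt, negDeg_dv_eq_finrank hP' hz' hxt']
  exact_mod_cast hdeg

/-- If `rd x` is regular at `r P` then `x` is regular at `P` (for `x` as above). -/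
theorem ord_nonneg_of_ord_rd_nonneg (hP : HasPrincipalDivisors K F)
    (hP' : HasPrincipalDivisors k F') (hz : H59.ZerosStmt K F) (hz' : H59.ZerosStmt k F')
    {x : F} (hx : S.IsGU x) (hxt : Transcendental K x) (hxt' : Transcendental k (S.rd x))
    [FiniteDimensional K⟮x⟯ F] [FiniteDimensional k⟮S.rd x⟯ F']
    (hdeg : Module.finrank K⟮x⟯ F ≤ Module.finrank k⟮S.rd x⟯ F')
    (P : Place K F) (hQ : 0 ≤ (S.r P).ord (S.rd x)) : 0 ≤ P.ord x := by
  by_contra hPx
  have := pole_of_pole_of_finrank S hP hP' hz hz' hx hxt hxt' hdeg P (not_le.1 hPx)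
  omega

end Red

section Tower

variable {K E L : Type*} [Field K] [Field E] [Field L] [Algebra K E] [Algebra K L]
  [Algebra E L] [IsScalarTower K E L] [Algebra.IsIntegral E L]

/-- Regularity at the restricted place gives regularity upstairs. -/
theorem ord_algebraMap_nonneg_of_restrict (P : Place K L) (x : E)
    (h : 0 ≤ (P.restrict E).ord x) : 0 ≤ P.ord (algebraMap E L x) := by
  rw [P.ord_restrict x]
  exact mul_nonneg (Int.natCast_nonneg _) h

/-- A pole upstairs is a pole at the restricted place. -/
theorem ord_restrict_neg_of_ord_algebraMap_neg (P : Place K L) (x : E)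
    (h : P.ord (algebraMap E L x) < 0) : (P.restrict E).ord x < 0 := by
  by_contra hge
  have := ord_algebraMap_nonneg_of_restrict P x (not_lt.1 hge)
  omega

end Tower

section TotForm

variable {K E L k E' : Type*} [Field K] [Field E] [Field L] [Algebra K E] [Algebra K L]
  [Algebra E L] [IsScalarTower K E L] [Algebra.IsIntegral E L] [Field k] [Field E']
  [Algebra k E']

/-- **CUSP, in the form used for the nodes**: `SE` the reduction datum of the lower level `E`,
`x ∈ E` a Gauss unit whose degree does not drop (modular: `x = j`).  If `P` is a place of `L`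
such that `rd x` is regular at the reduction of `P|_E`, then `x` is regular at `P`. -/
theorem ord_nonneg_of_restrict_red (SE : RedSetup K E k E') (hP : HasPrincipalDivisors K E)
    (hP' : HasPrincipalDivisors k E') (hz : H59.ZerosStmt K E) (hz' : H59.ZerosStmt k E')
    {x : E} (hx : SE.IsGU x) (hxt : Transcendental K x) (hxt' : Transcendental k (SE.rd x))
    [FiniteDimensional K⟮x⟯ E] [FiniteDimensional k⟮SE.rd x⟯ E']
    (hdeg : Module.finrank K⟮x⟯ E ≤ Module.finrank k⟮SE.rd x⟯ E')
    (P : Place K L) (hQ : 0 ≤ (SE.r (P.restrict E)).ord (SE.rd x)) :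
    0 ≤ P.ord (algebraMap E L x) :=
  ord_algebraMap_nonneg_of_restrict P x
    (ord_nonneg_of_ord_rd_nonneg SE hP hP' hz hz' hx hxt hxt' hdeg _ hQ)

end TotForm

end Fermat.Agent.BAD.H42
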