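import Fermat.Agent.BAD.H42_NormRedR

/-!
# The fundamental inequality with ramification (helper42; for S36 NU-B, T3-e)

Setting of `NRData` (`BAD/H42_NormRedR.lean`), WITHOUT any finiteness hypothesis on the residue
fields `κ i`.

* `NRLiftG.linearIndependent_B` : lifts `b_{i,α}` of `Et`-independent families `β i` of the
  `κ i`, times the powers `P_i ^ j`, `j < e i`, are `E`-linearly independent;
* `NRData.fund_ineq` : `∑ e i * f i ≤ [L : E]` for all `Et`-independent families
  `β i : Fin (f i) → κ i`;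
* `NRData.finite_res` : the residue fields `κ i` are finite over `Et`;
* `NRData.sum_le_finrank` : `∑ e i [κ i : Et] ≤ [L : E]`.

This file has no open goals.
-/

set_option autoImplicit false

noncomputable section

namespace Fermat.Agent.BAD.H42

/-- Index type of the family: triples `(i, j, α)`, `j < e i`, `α < f i`. -/
abbrev NRData.IG {E L Et : Type} [Field E] [Field L] [Field Et] [Algebra E L]
    {ι : Type} {κ : ι → Type} [∀ i, Field (κ i)] [∀ i, Algebra Et (κ i)]
    (D : NRData E L Et ι κ) (f : ι → ℕ) : Type := Σ k : D.J, Fin (f k.1)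

/-- Lifts of independent families of the residue fields and good uniformisers. -/
structure NRLiftG {E L Et : Type} [Field E] [Field L] [Field Et] [Algebra E L]
    {ι : Type} {κ : ι → Type} [∀ i, Field (κ i)] [∀ i, Algebra Et (κ i)]
    (D : NRData E L Et ι κ) (f : ι → ℕ) (β : ∀ i, Fin (f i) → κ i) where
  /-- uniformisers of `V i` which are integral at the other `V j` -/
  P : ι → L
  /-- lifts of the families `β i`, divisible by `ϖ` at the other `V j` -/
  b : ∀ i, Fin (f i) → L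
  hβ : ∀ i, LinearIndependent Et (β i)
  hP : ∀ i, (D.V i).valuation (P i) = (D.V i).valuation (D.π i)
  hP' : ∀ i j, i ≠ j → (D.V j).valuation (P i) ≤ 1
  hb : ∀ i α, b i α ∈ D.V i
  hbred : ∀ i α, D.red i ⟨b i α, hb i α⟩ = β i α
  hb' : ∀ i j α, i ≠ j →
    (D.V j).valuation (b i α) < (D.V j).valuation (algebraMap E L D.ϖ)

namespace NRLiftG

variable {E L Et : Type} [Field E] [Field L] [Field Et] [Algebra E L]
  {ι : Type} {κ : ι → Type} [∀ i, Field (κ i)] [∀ i, Algebra Et (κ i)]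
  {D : NRData E L Et ι κ} {f : ι → ℕ} {β : ∀ i, Fin (f i) → κ i} (T : NRLiftG D f β)

/-- The family `b_{i,α} P_i ^ j`. -/
def B (x : D.IG f) : L := T.P x.1.1 ^ (x.1.2 : ℕ) * T.b x.1.1 x.2

theorem P_ne_zero (i : ι) : T.P i ≠ 0 := by
  rw [← Valuation.ne_zero_iff (D.V i).valuation, T.hP i]
  exact D.val_π_ne_zero i

theorem val_P_lt_one (i : ι) : (D.V i).valuation (T.P i) < 1 := by
  rw [T.hP i]; exact D.hπ i

theorem val_P_le_one (i j : ι) : (D.V j).valuation (T.P i) ≤ 1 := by
  rcases eq_or_ne i j with rfl | h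
  · exact (T.val_P_lt_one i).le
  · exact T.hP' i j h

theorem val_b_le_one (i j : ι) (α : Fin (f i)) :
    (D.V j).valuation (T.b i α) ≤ 1 := by
  rcases eq_or_ne i j with rfl | h
  · exact (ValuationSubring.valuation_le_one_iff _ _).2 (T.hb i α)
  · exact ((T.hb' i j α h).trans (D.val_ϖ_lt_one j)).le

theorem val_ϖ_eq (i : ι) :
    (D.V i).valuation (algebraMap E L D.ϖ) = (D.V i).valuation (T.P i) ^ D.e i := by
  rw [D.hram i, T.hP i]

/-- The reduction of `∑_α c_α b_{i,α}`. -/
theorem red_U (i : ι) (c : Fin (f i) → ↥D.VE) :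
    ∃ h : (∑ α, algebraMap E L (c α : E) * T.b i α) ∈ D.V i,
      D.red i ⟨_, h⟩ = ∑ α, D.redE (c α) • β i α := by
  let a : Fin (f i) → ↥(D.V i) := fun α =>
    ⟨algebraMap E L (c α : E), D.hVE i _ (c α).2⟩ * ⟨T.b i α, T.hb i α⟩
  have hcoe : ((∑ α, a α : ↥(D.V i)) : L) = ∑ α, algebraMap E L (c α : E) * T.b i α := by
    simp only [AddSubmonoidClass.coe_finsetSum]
    rfl
  have hmem : (∑ α, algebraMap E L (c α : E) * T.b i α) ∈ D.V i := by
    rw [← hcoe]; exact SetLike.coe_mem _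
  refine ⟨hmem, ?_⟩
  have heq : (⟨_, hmem⟩ : ↥(D.V i)) = ∑ α, a α := Subtype.ext hcoe.symm
  rw [heq, map_sum]
  refine Finset.sum_congr rfl fun α _ => ?_
  simp only [a]
  rw [map_mul, D.hcompat, T.hbred, Algebra.smul_def]

/-- `∑_α c_α b_{i,α}` is a unit of `V i` or divisible by `ϖ`. -/
theorem val_U (i : ι) (c : Fin (f i) → ↥D.VE) :
    ((D.V i).valuation (∑ α, algebraMap E L (c α : E) * T.b i α) = 1 ∧
        ∃ α, D.redE (c α) ≠ 0) ∨
      ((D.V i).valuation (∑ α, algebraMap E L (c α : E) * T.b i α) ≤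
        (D.V i).valuation (algebraMap E L D.ϖ) ∧ ∀ α, D.redE (c α) = 0) := by
  by_cases h : ∀ α, D.redE (c α) = 0
  · right
    refine ⟨Valuation.map_sum_le _ fun α _ => ?_, h⟩
    rw [map_mul]
    calc (D.V i).valuation (algebraMap E L (c α : E)) * (D.V i).valuation (T.b i α)
        ≤ (D.V i).valuation (algebraMap E L D.ϖ) * 1 :=
          mul_le_mul' (D.val_le_of_redE_eq_zero i _ (h α)) (T.val_b_le_one i i α)
      _ = _ := mul_one _
  · left
    push Not at h
    refine ⟨?_, h⟩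
    obtain ⟨hmem, hred⟩ := T.red_U i c
    refine D.val_eq_one_of_red_ne_zero i ⟨_, hmem⟩ ?_
    rw [hred]
    intro h0
    obtain ⟨α, hα⟩ := h
    exact hα (Fintype.linearIndependent_iff.1 (T.hβ i) _ h0 α)

/-- The decomposition of a combination of the `B x`. -/
theorem sum_B [Fintype ι] (c : D.IG f → L) :
    ∑ x, c x * T.B x =
      ∑ i, ∑ j : Fin (D.e i), T.P i ^ (j : ℕ) * ∑ α, c ⟨⟨i, j⟩, α⟩ * T.b i α := by
  rw [Fintype.sum_sigma, Fintype.sum_sigma]
  refine Finset.sum_congr rfl fun i _ => Finset.sum_congr rfl fun j _ => ?_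
  rw [Finset.mul_sum]
  refine Finset.sum_congr rfl fun α _ => ?_
  simp only [B]; ring

/-- **Key valuation computation**: if `∑ c_x B_x` (with `c_x ∈ V_E`) is divisible by `P_i ^ k` in
`V i`, `k ≤ e i`, then the `c_{(i,j,α)}` with `j < k` are non-units. -/
theorem redE_eq_zero [Fintype ι] (c : D.IG f → ↥D.VE) (i₀ : ι) (k : ℕ) (hk : k ≤ D.e i₀)
    (hx : (D.V i₀).valuation (∑ x, algebraMap E L (c x : E) * T.B x) ≤
      (D.V i₀).valuation (T.P i₀) ^ k)
    (j : Fin (D.e i₀)) (hj : (j : ℕ) < k) (α : Fin (f i₀)) :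
    D.redE (c ⟨⟨i₀, j⟩, α⟩) = 0 := by
  classical
  let U : ∀ i, Fin (D.e i) → L := fun i j =>
    ∑ α, algebraMap E L (c ⟨⟨i, j⟩, α⟩ : E) * T.b i α
  let S : ι → L := fun i => ∑ j : Fin (D.e i), T.P i ^ (j : ℕ) * U i j
  have htot : ∑ x, algebraMap E L (c x : E) * T.B x = ∑ i, S i :=
    T.sum_B (fun x => algebraMap E L (c x : E))
  have hvϖ0 : (D.V i₀).valuation (algebraMap E L D.ϖ) ≠ 0 :=
    (Valuation.ne_zero_iff _).2 D.ϖL_ne_zero
  have hsmall : ∀ i ∈ Finset.univ.erase i₀,
      (D.V i₀).valuation (S i) < (D.V i₀).valuation (algebraMap E L D.ϖ) := by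
    intro i hi
    have hne : i ≠ i₀ := (Finset.mem_erase.1 hi).1
    refine Valuation.map_sum_lt _ hvϖ0 fun j _ => ?_
    rw [map_mul, map_pow]
    have h1 : (D.V i₀).valuation (U i j) < (D.V i₀).valuation (algebraMap E L D.ϖ) := by
      refine Valuation.map_sum_lt _ hvϖ0 fun α _ => ?_
      rw [map_mul]
      exact mul_lt_of_le_one_of_lt (D.val_le_one i₀ _) (T.hb' i i₀ α hne)
    exact mul_lt_of_le_one_of_lt (pow_le_one₀ zero_le (T.val_P_le_one i i₀)) h1
  have hrest : (D.V i₀).valuation (∑ i ∈ Finset.univ.erase i₀, S i) <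
      (D.V i₀).valuation (algebraMap E L D.ϖ) :=
    Valuation.map_sum_lt _ hvϖ0 hsmall
  have hsplit : ∑ i, S i = S i₀ + ∑ i ∈ Finset.univ.erase i₀, S i :=
    (Finset.add_sum_erase _ _ (Finset.mem_univ i₀)).symm
  have hϖk : (D.V i₀).valuation (algebraMap E L D.ϖ) ≤ (D.V i₀).valuation (T.P i₀) ^ k := by
    rw [T.val_ϖ_eq i₀]
    exact pow_le_pow_of_le_one zero_le (T.val_P_lt_one i₀).le hk
  have hS : (D.V i₀).valuation (S i₀) ≤ (D.V i₀).valuation (T.P i₀) ^ k := by
    have : S i₀ = (∑ i, S i) - ∑ i ∈ Finset.univ.erase i₀, S i := by rw [hsplit]; ring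
    rw [this]
    refine (Valuation.map_sub _ _ _).trans (max_le ?_ (hrest.le.trans hϖk))
    rw [← htot]; exact hx
  have hu : ∀ j, (D.V i₀).valuation (U i₀ j) = 1 ∨
      (D.V i₀).valuation (U i₀ j) ≤ (D.V i₀).valuation (T.P i₀) ^ D.e i₀ := by
    intro j
    rcases T.val_U i₀ (fun α => c ⟨⟨i₀, j⟩, α⟩) with h | h
    · exact Or.inl h.1
    · right; rw [← T.val_ϖ_eq i₀]; exact h.1
  have h := val_sum_pow_fin (D.V i₀) (T.P i₀) (T.val_P_lt_one i₀) (T.P_ne_zero i₀) (D.e i₀) k hk
    (U i₀) hu hS j hj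
  rcases T.val_U i₀ (fun α => c ⟨⟨i₀, j⟩, α⟩) with h1 | h1
  · exfalso
    have : (D.V i₀).valuation (U i₀ j) < 1 :=
      h.trans_lt (by rw [← T.val_ϖ_eq]; exact D.val_ϖ_lt_one i₀)
    exact this.ne h1.1
  · exact h1.2 α

/-- The scaling argument: a combination `∑ c_x B_x`, divided by its largest coefficient, is not
divisible by `ϖ` at the place of this coefficient. -/
theorem scale_aux [Fintype ι] (c : D.IG f → E) (x₀ : D.IG f) (hx₀ : c x₀ ≠ 0)
    (hmax : ∀ x, D.VE.valuation (c x) ≤ D.VE.valuation (c x₀))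
    (hg : (D.V x₀.1.1).valuation
        ((algebraMap E L (c x₀))⁻¹ * ∑ x, algebraMap E L (c x) * T.B x) ≤
      (D.V x₀.1.1).valuation (algebraMap E L D.ϖ)) : False := by
  have hv0 : D.VE.valuation (c x₀) ≠ 0 := (Valuation.ne_zero_iff _).2 hx₀
  have hmem : ∀ x, c x / c x₀ ∈ D.VE := by
    intro x
    rw [← ValuationSubring.valuation_le_one_iff, map_div₀]
    exact (div_le_one₀ (zero_lt_iff.2 hv0)).2 (hmax x)
  let c' : D.IG f → ↥D.VE := fun x => ⟨c x / c x₀, hmem x⟩
  have hsum : ∑ x, algebraMap E L (c' x : E) * T.B x =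
      (algebraMap E L (c x₀))⁻¹ * ∑ x, algebraMap E L (c x) * T.B x := by
    rw [Finset.mul_sum]
    refine Finset.sum_congr rfl fun x _ => ?_
    simp only [c', map_div₀]
    field_simp
  obtain ⟨⟨i₀, j₀⟩, α₀⟩ := x₀
  have h := T.redE_eq_zero c' i₀ (D.e i₀) le_rfl
    (by rw [hsum, ← T.val_ϖ_eq]; exact hg) j₀ j₀.2 α₀
  have h1 : c' ⟨⟨i₀, j₀⟩, α₀⟩ = 1 := Subtype.ext (div_self hx₀)
  rw [h1, map_one] at h
  exact one_ne_zero h

/-- The family `B` is linearly independent over `E`. -/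
theorem linearIndependent_B [Fintype ι] : LinearIndependent E T.B := by
  rw [Fintype.linearIndependent_iff]
  intro c hc
  by_contra hne
  push Not at hne
  obtain ⟨x₁, hx₁⟩ := hne
  have : Nonempty (D.IG f) := ⟨x₁⟩
  obtain ⟨x₀, hx₀⟩ := Fermat.Agent.RED.H10.exists_max_val D.VE c
  have hc0 : c x₀ ≠ 0 := by
    intro h0
    have := hx₀ x₁
    rw [h0, map_zero, le_zero_iff, Valuation.zero_iff] at this
    exact hx₁ this
  refine T.scale_aux c x₀ hc0 hx₀ ?_
  have h0 : ∑ x, algebraMap E L (c x) * T.B x = 0 := by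
    rw [← hc]
    exact Finset.sum_congr rfl fun x _ => (Algebra.smul_def _ _).symm
  rw [h0, mul_zero, map_zero]
  exact zero_le

end NRLiftG

namespace NRData

variable {E L Et : Type} [Field E] [Field L] [Field Et] [Algebra E L]
  {ι : Type} {κ : ι → Type} [∀ i, Field (κ i)] [∀ i, Algebra Et (κ i)]
  (D : NRData E L Et ι κ)

/-- Lifts exist (approximation). -/
theorem exists_liftG [Fintype ι] [DecidableEq ι] (f : ι → ℕ) (β : ∀ i, Fin (f i) → κ i)
    (hβ : ∀ i, LinearIndependent Et (β i)) : Nonempty (NRLiftG D f β) := by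
  have hP : ∀ i, ∃ P : L, (D.V i).valuation P = (D.V i).valuation (D.π i) ∧
      ∀ j, i ≠ j → (D.V j).valuation P ≤ 1 := by
    intro i
    obtain ⟨b, -, hb, hb'⟩ := exists_approx_small D.V D.hA D.hinc D.V_ne_top i
      (Finset.univ.erase i) (Finset.notMem_erase _ _) (fun _ => 1) (fun _ _ => one_ne_zero)
      (D.π i) ((ValuationSubring.valuation_le_one_iff _ _).1 (D.hπ i).le)
    refine ⟨b, hb, fun j hij => ?_⟩
    have := hb' j (Finset.mem_erase.2 ⟨hij.symm, Finset.mem_univ _⟩)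
    rw [map_one] at this
    exact this.le
  have hb : ∀ (i : ι) (α : Fin (f i)), ∃ b : L, ∃ hb : b ∈ D.V i,
      D.red i ⟨b, hb⟩ = β i α ∧
      ∀ j, i ≠ j → (D.V j).valuation b < (D.V j).valuation (algebraMap E L D.ϖ) := by
    intro i α
    obtain ⟨y, hy⟩ := D.hsurj i (β i α)
    obtain ⟨b, hb1, -, hb'⟩ := exists_approx_small D.V D.hA D.hinc D.V_ne_top i
      (Finset.univ.erase i) (Finset.notMem_erase _ _)
      (fun _ => algebraMap E L D.ϖ) (fun _ _ => D.ϖL_ne_zero) (y : L) y.2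
    have hbV : b ∈ D.V i := mem_of_val_sub_lt (D.V i) y.2 hb1
    refine ⟨b, hbV, ?_, fun j hij => hb' j (Finset.mem_erase.2 ⟨hij.symm, Finset.mem_univ _⟩)⟩
    rw [← hy]
    exact red_eq_of_val_sub_lt (D.hker i) ⟨b, hbV⟩ y hb1
  choose P hP1 hP2 using hP
  choose b hbV hbred hb' using hb
  exact ⟨{ P := P, b := b, hβ := hβ, hP := hP1, hP' := hP2, hb := hbV, hbred := hbred,
           hb' := fun i j α hij => hb' i α j hij }⟩

theorem card_IG [Fintype ι] (f : ι → ℕ) :
    Fintype.card (D.IG f) = ∑ i, D.e i * f i := by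
  rw [Fintype.card_sigma, Fintype.sum_sigma]
  refine Finset.sum_congr rfl fun i _ => ?_
  simp only [Fintype.card_fin]
  change ∑ _j : Fin (D.e i), f i = _
  rw [Finset.sum_const, Finset.card_univ, Fintype.card_fin, smul_eq_mul]

/-- **The fundamental inequality with ramification**: `∑ e i * f i ≤ [L : E]` for all families
of `Et`-linearly independent elements `β i : Fin (f i) → κ i` of the residue fields. -/
theorem fund_ineq [Fintype ι] [DecidableEq ι] [Module.Finite E L] (f : ι → ℕ)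
    (β : ∀ i, Fin (f i) → κ i) (hβ : ∀ i, LinearIndependent Et (β i)) :
    ∑ i, D.e i * f i ≤ Module.finrank E L := by
  obtain ⟨T⟩ := D.exists_liftG f β hβ
  rw [← D.card_IG f]
  exact T.linearIndependent_B.fintype_card_le_finrank

/-- The fundamental inequality, existential form. -/
theorem fund_ineq' [Fintype ι] [DecidableEq ι] [Module.Finite E L] (f : ι → ℕ)
    (hf : ∀ i, ∃ β : Fin (f i) → κ i, LinearIndependent Et β) :
    ∑ i, D.e i * f i ≤ Module.finrank E L := by
  choose β hβ using hf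
  exact D.fund_ineq f β hβ

/-- An `Et`-linearly independent family of `κ i` of size `n` gives `e i * n ≤ [L : E]`. -/
theorem mul_le_finrank [Fintype ι] [DecidableEq ι] [Module.Finite E L] (i : ι) (n : ℕ)
    (β : Fin n → κ i) (hβ : LinearIndependent Et β) : D.e i * n ≤ Module.finrank E L := by
  have h := D.fund_ineq' (fun j => if j = i then n else 0) (fun j => by
    by_cases hj : j = i
    · rw [if_pos hj]
      subst hj
      exact ⟨β, hβ⟩
    · rw [if_neg hj]
      exact ⟨Fin.elim0, linearIndependent_empty_type⟩)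
  have hsum : ∑ j, D.e j * (if j = i then n else 0) = D.e i * n := by
    rw [Finset.sum_eq_single i (fun j _ hj => by rw [if_neg hj, mul_zero])
      (fun hi => absurd (Finset.mem_univ i) hi), if_pos rfl]
  rw [hsum] at h
  exact h

include D in
/-- **The residue fields are finite over `Et`.** -/
theorem finite_res [Fintype ι] [DecidableEq ι] [Module.Finite E L] (i : ι) :
    Module.Finite Et (κ i) := by
  rw [← Module.rank_lt_aleph0_iff]
  by_contra hcon
  rw [not_lt] at hcon
  have h1 : ((Module.finrank E L + 1 : ℕ) : Cardinal) ≤ Module.rank Et (κ i) :=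
    (Cardinal.natCast_lt_aleph0.le).trans hcon
  obtain ⟨s, hs, hli⟩ := le_rank_iff_exists_linearIndependent_finset.1 h1
  have hcard : Fintype.card (↥(s : Set (κ i))) = Module.finrank E L + 1 := by
    rw [← hs]
    simp
  let ε : Fin (Module.finrank E L + 1) ≃ ↥(s : Set (κ i)) := (Fintype.equivFinOfCardEq hcard).symm
  have hβ : LinearIndependent Et
      (fun a : Fin (Module.finrank E L + 1) => ((ε a : ↥(s : Set (κ i))) : κ i)) :=
    hli.comp _ ε.injective
  have h2 := D.mul_le_finrank i _ _ hβ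
  have h3 : Module.finrank E L + 1 ≤ D.e i * (Module.finrank E L + 1) :=
    Nat.le_mul_of_pos_left _ (D.he i)
  omega

/-- **The fundamental inequality** `∑ e i [κ i : Et] ≤ [L : E]`. -/
theorem sum_le_finrank [Fintype ι] [DecidableEq ι] [Module.Finite E L] :
    ∑ i, D.e i * Module.finrank Et (κ i) ≤ Module.finrank E L := by
  have : ∀ i, Module.Finite Et (κ i) := fun i => D.finite_res i
  exact D.fund_ineq (fun i => Module.finrank Et (κ i)) (fun i => Module.finBasis Et (κ i))
    (fun i => (Module.finBasis Et (κ i)).linearIndependent)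

end NRData

end Fermat.Agent.BAD.H42
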