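import Fermat.Agent.BAD.H42_Three

/-!
# Leaf (INT) = THREE + ONE, abstract (helper42; for S36 NU-B, TI3-VAL)

* `nr1` : the `NRData` of a single unramified valuation ring `V` of `E` over `V₀` of `E₀`;
* `NRData.isIntegralElem_of_forall_mem` : in the setting of `NRData` with
  `∑ e i [κ i : Et] = [L : E]`, every `g ∈ ⋂ V i` is integral over `V_E`;
* `isIntegralElem_tower` (**ONE + THREE**) : `E₀ ⊂ E ⊂ L`, `D₀` the data of `E / E₀`, `D₁` the
  data of `L / E`, both with the degree equality, `D₁.VE ⊆ ⋂ D₀.V i₀`: then every element of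
  `⋂ D₁.V i` is integral over `D₀.VE`;
* `exists_monic_tower` : the same as a monic polynomial over `L` with coefficients in the image
  of `D₀.VE` (the shape of `hthree` in `S36/NU/H17_TIVal.lean`).

This file has no open goals.
-/

set_option autoImplicit false
set_option linter.unusedSectionVars false
set_option linter.style.haveILetI false

noncomputable section

namespace Fermat.Agent.BAD.H42

section One

variable {E₀ E C K : Type} [Field E₀] [Field E] [Field C] [Field K] [Algebra E₀ E]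
  [Algebra C K]
  (V₀ : ValuationSubring E₀) (red₀ : ↥V₀ →+* C)
  (V : ValuationSubring E) (r : ↥V →+* K) (ϖ : E₀)

/-- **The `NRData` of a single unramified valuation.** -/
def nr1 (hϖ0 : ϖ ≠ 0) (hϖ : ϖ ∈ V₀) (hϖr : red₀ ⟨ϖ, hϖ⟩ = 0)
    (hE : ∀ a : E₀, V₀.valuation a < 1 → V₀.valuation a ≤ V₀.valuation ϖ)
    (hV : ∀ a : E₀, a ∈ V₀ → algebraMap E₀ E a ∈ V)
    (hkerE : ∀ a : ↥V₀, ¬ IsUnit a → red₀ a = 0)
    (hs : Function.Surjective r)
    (hk : ∀ a : ↥V, ¬ IsUnit a → r a = 0)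
    (hc : ∀ (a : ↥V₀) (ha : algebraMap E₀ E (a : E₀) ∈ V), r ⟨_, ha⟩ = algebraMap C K (red₀ a))
    (hA : IsArch V) :
    NRData E₀ E C Unit (fun _ => K) where
  VE := V₀
  V := fun _ => V
  redE := red₀
  red := fun _ => r
  ϖ := ϖ
  π := fun _ => algebraMap E₀ E ϖ
  e := fun _ => 1
  hϖ0 := hϖ0
  hE := hE
  hVE := fun _ => hV
  hkerE := hkerE
  hsurj := fun _ => hs
  hker := fun _ => hk
  hcompat := fun _ => hc
  hinc := fun i j hij => absurd (Subsingleton.elim i j) hij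
  hA := fun _ => hA
  hπ := fun _ => by
    show V.valuation (algebraMap E₀ E ϖ) < 1
    rw [lt_iff_le_and_ne]
    refine ⟨(ValuationSubring.valuation_le_one_iff V _).2 (hV ϖ hϖ), fun h1 => ?_⟩
    have hu : IsUnit (⟨algebraMap E₀ E ϖ, hV ϖ hϖ⟩ : ↥V) :=
      (ValuationSubring.valuation_eq_one_iff V ⟨_, hV ϖ hϖ⟩).2 h1
    have h0 : r ⟨algebraMap E₀ E ϖ, hV ϖ hϖ⟩ = 0 := by
      rw [hc ⟨ϖ, hϖ⟩ (hV ϖ hϖ), hϖr, map_zero]
    exact (hu.map r).ne_zero h0
  he := fun _ => Nat.one_pos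
  hram := fun _ => (pow_one _).symm

end One

namespace NRData

variable {E L Et : Type} [Field E] [Field L] [Field Et] [Algebra E L]
  {ι : Type} {κ : ι → Type} [∀ i, Field (κ i)] [∀ i, Algebra Et (κ i)]
  [∀ i, Module.Finite Et (κ i)] (D : NRData E L Et ι κ)

/-- The structure map `V_E → L`. -/
def toL : ↥D.VE →+* L := (algebraMap E L).comp D.VE.subtype

theorem toL_apply (a : ↥D.VE) : D.toL a = algebraMap E L (a : E) := rfl

/-- **THREE**, integrality form: every element of `⋂ V i` is integral over `V_E`. -/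
theorem isIntegralElem_of_forall_mem [Fintype ι] [DecidableEq ι] [Module.Finite E L]
    (hdeg : ∑ i, D.e i * Module.finrank Et (κ i) = Module.finrank E L)
    (g : L) (hg : ∀ i, g ∈ D.V i) : D.toL.IsIntegralElem g :=
  D.exists_monic_root hdeg g hg

/-- The converse: an element of `L` integral over `V_E` lies in all `V i`. -/
theorem mem_of_isIntegralElem (g : L) (hg : D.toL.IsIntegralElem g) (i : ι) : g ∈ D.V i := by
  obtain ⟨P, hP, hroot⟩ := hg
  let φ : ↥D.VE →+* ↥(D.V i) := D.toL.codRestrict (D.V i) (fun a => D.hVE i a a.2)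
  have hφ : (algebraMap ↥(D.V i) L).comp φ = D.toL := rfl
  have hint : IsIntegral ↥(D.V i) g := by
    refine ⟨P.map φ, hP.map φ, ?_⟩
    rw [Polynomial.eval₂_map, hφ]
    exact hroot
  obtain ⟨y, hy⟩ := IsIntegrallyClosed.isIntegral_iff.1 hint
  rw [← hy]
  exact y.2

end NRData

section Tower

variable {E₀ E L Et₀ Et₁ : Type} [Field E₀] [Field E] [Field L] [Field Et₀] [Field Et₁]
  [Algebra E₀ E] [Algebra E L]
  {ι₀ : Type} {κ₀ : ι₀ → Type} [∀ i, Field (κ₀ i)] [∀ i, Algebra Et₀ (κ₀ i)]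
  [∀ i, Module.Finite Et₀ (κ₀ i)]
  {ι : Type} {κ : ι → Type} [∀ i, Field (κ i)] [∀ i, Algebra Et₁ (κ i)]
  [∀ i, Module.Finite Et₁ (κ i)]
  (D₀ : NRData E₀ E Et₀ ι₀ κ₀) (D₁ : NRData E L Et₁ ι κ)

variable (L) in
/-- The structure map `V_{E₀} → L` of a tower. -/
def towerHom : ↥D₀.VE →+* L := (algebraMap E L).comp D₀.toL

/-- **(INT) = ONE + THREE**: in a tower `E₀ ⊂ E ⊂ L` with the degree equalities on both floors
and `V_E = ⋂` of the valuation rings of the lower floor, every element of `⋂ V i` is integral over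
`V_{E₀}`. -/
theorem isIntegralElem_tower [Fintype ι₀] [DecidableEq ι₀] [Module.Finite E₀ E]
    [Fintype ι] [DecidableEq ι] [Module.Finite E L]
    (hdeg₀ : ∑ i, D₀.e i * Module.finrank Et₀ (κ₀ i) = Module.finrank E₀ E)
    (hdeg₁ : ∑ i, D₁.e i * Module.finrank Et₁ (κ i) = Module.finrank E L)
    (hle : ∀ a : E, a ∈ D₁.VE → ∀ i₀, a ∈ D₀.V i₀)
    (hge : ∀ a : E₀, a ∈ D₀.VE → algebraMap E₀ E a ∈ D₁.VE)
    (g : L) (hg : ∀ i, g ∈ D₁.V i) : (towerHom L D₀).IsIntegralElem g := by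
  -- the three rings `A₀ → A₁ → L`
  let φ : ↥D₀.VE →+* ↥D₁.VE := D₀.toL.codRestrict D₁.VE (fun a => hge a a.2)
  have hcomp : towerHom L D₀ = D₁.toL.comp φ := rfl
  have h₁ : D₁.toL.IsIntegralElem g := D₁.isIntegralElem_of_forall_mem hdeg₁ g hg
  have h₀ : φ.IsIntegral := by
    intro a
    obtain ⟨P, hP, hroot⟩ := D₀.isIntegralElem_of_forall_mem hdeg₀ (a : E) (hle a a.2)
    refine ⟨P, hP, ?_⟩
    apply Subtype.ext
    have e : D₁.VE.subtype (Polynomial.eval₂ φ a P) = Polynomial.eval₂ D₀.toL (a : E) P := by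
      rw [Polynomial.hom_eval₂]
      rfl
    exact e.trans hroot
  rw [hcomp]
  letI : Algebra ↥D₀.VE ↥D₁.VE := φ.toAlgebra
  letI : Algebra ↥D₁.VE L := D₁.toL.toAlgebra
  letI : Algebra ↥D₀.VE L := (D₁.toL.comp φ).toAlgebra
  haveI : IsScalarTower ↥D₀.VE ↥D₁.VE L := IsScalarTower.of_algebraMap_eq fun _ => rfl
  haveI : Algebra.IsIntegral ↥D₀.VE ↥D₁.VE := ⟨h₀⟩
  exact isIntegral_trans (R := ↥D₀.VE) (A := ↥D₁.VE) g h₁

/-- **(INT)**, polynomial form: a monic polynomial over `L` with coefficients in the image of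
`V_{E₀}` having `g` as a root. -/
theorem exists_monic_tower [Fintype ι₀] [DecidableEq ι₀] [Module.Finite E₀ E]
    [Fintype ι] [DecidableEq ι] [Module.Finite E L]
    (hdeg₀ : ∑ i, D₀.e i * Module.finrank Et₀ (κ₀ i) = Module.finrank E₀ E)
    (hdeg₁ : ∑ i, D₁.e i * Module.finrank Et₁ (κ i) = Module.finrank E L)
    (hle : ∀ a : E, a ∈ D₁.VE → ∀ i₀, a ∈ D₀.V i₀)
    (hge : ∀ a : E₀, a ∈ D₀.VE → algebraMap E₀ E a ∈ D₁.VE)
    (g : L) (hg : ∀ i, g ∈ D₁.V i) :
    ∃ P : Polynomial L, P.Monic ∧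
      (∀ k, ∃ a : E₀, a ∈ D₀.VE ∧ P.coeff k = algebraMap E L (algebraMap E₀ E a)) ∧
      (∀ k i, P.coeff k ∈ D₁.V i) ∧ P.eval g = 0 := by
  obtain ⟨P, hP, hroot⟩ := isIntegralElem_tower D₀ D₁ hdeg₀ hdeg₁ hle hge g hg
  refine ⟨P.map (towerHom L D₀), hP.map _, fun k => ?_, fun k i => ?_, ?_⟩
  · rw [Polynomial.coeff_map]
    exact ⟨(P.coeff k : E₀), (P.coeff k).2, rfl⟩
  · rw [Polynomial.coeff_map]
    exact D₁.hVE i _ (hge _ (P.coeff k).2)
  · rw [Polynomial.eval_map]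
    exact hroot

end Tower

end Fermat.Agent.BAD.H42
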