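import Mathlib.FieldTheory.PurelyInseparable.Basic
import Mathlib.RingTheory.Norm.Transitivity

/-!
# The norm of a purely inseparable extension (helper42; for S36 NU-B2)

* `norm_eq_pow_of_pInsep` : `K ⊆ F` finite purely inseparable: `N_{F/K} x = x ^ [F : K]`;
* `norm_eq_pow_of_pow_mem` : the same when `x ^ q ∈ K` for all `x` (`q` the characteristic
  exponent).

This file has no open goals.
-/

set_option autoImplicit false

noncomputable section

namespace Fermat.Agent.BAD.H42

open Polynomial IntermediateField

/-- The norm of a finite purely inseparable extension is the `[F : K]`-th power. -/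
theorem norm_eq_pow_of_pInsep (K F : Type) [Field K] [Field F] [Algebra K F]
    [FiniteDimensional K F] [IsPurelyInseparable K F] (x : F) :
    algebraMap K F (Algebra.norm K x) = x ^ Module.finrank K F := by
  obtain ⟨n, hn⟩ := IsPurelyInseparable.minpoly_eq_X_sub_C_pow K (ringExpChar K) x
  have hsplit : ((minpoly K x).map (algebraMap K F)).Splits := by
    rw [hn]
    exact (Polynomial.Splits.X_sub_C x).pow _
  have h1 := Algebra.norm_eq_prod_roots (K := K) (L := F) F hsplit
  have hroots : (minpoly K x).aroots F = Multiset.replicate (ringExpChar K ^ n) x := by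
    rw [Polynomial.aroots_def, hn, Polynomial.roots_pow, Polynomial.roots_X_sub_C,
      Multiset.nsmul_singleton]
  have hx : IsIntegral K x := Algebra.IsIntegral.isIntegral x
  have hdeg : (minpoly K x).natDegree = ringExpChar K ^ n := by
    have := congrArg Polynomial.natDegree hn
    rw [Polynomial.natDegree_map, Polynomial.natDegree_pow, Polynomial.natDegree_X_sub_C,
      mul_one] at this
    exact this
  have hfr : Module.finrank K K⟮x⟯ = ringExpChar K ^ n := by
    rw [IntermediateField.adjoin.finrank hx, hdeg]
  rw [h1, hroots, Multiset.prod_replicate, ← pow_mul, ← hfr, Module.finrank_mul_finrank]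

/-- The norm of a finite extension `F / K` of characteristic exponent `q` with `F ^ q ⊆ K`
is the `[F : K]`-th power. -/
theorem norm_eq_pow_of_pow_mem (K F : Type) [Field K] [Field F] [Algebra K F]
    [FiniteDimensional K F] (q : ℕ) [ExpChar K q]
    (hq : ∀ x : F, x ^ q ∈ (algebraMap K F).range) (x : F) :
    algebraMap K F (Algebra.norm K x) = x ^ Module.finrank K F := by
  have : IsPurelyInseparable K F :=
    (isPurelyInseparable_iff_pow_mem K q).2 fun x => ⟨1, by rw [pow_one]; exact hq x⟩
  exact norm_eq_pow_of_pInsep K F x

end Fermat.Agent.BAD.H42
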