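import Fermat.Agent.BAD.H42_CharpolyR
import Mathlib.RingTheory.Valuation.LocalSubring

/-!
# Leaf THREE (abstract): the valuation rings over `V_E` (helper42; for S36 NU-B)

Setting of `NRData` (`BAD/H42_NormRedR.lean`) with `∑ e i [κ i : Et] = [L : E]`.

* `NRData.exists_integral_basis` : there is an `E`-basis `bE` of `L` contained in `⋂ V i` with
  `g ∈ ⋂ V i ↔ all coordinates of g are in V_E`   (`⋂ V i` is free over `V_E`);
* `NRData.exists_monic_root` : every `g ∈ ⋂ V i` is a root of a monic polynomial over `V_E`;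
* `NRData.mem_of_forall_mem` : `⋂ V i ⊆ W` for every valuation ring `W` of `L` containing `V_E`;
* `NRData.eq_of_valuationSubring` : every valuation ring `W ≠ ⊤` of `L` containing `V_E` is one
  of the `V i`  (there is no further valuation over `V_E`).

This file has no open goals.
-/

set_option autoImplicit false

noncomputable section

namespace Fermat.Agent.BAD.H42

namespace NRData

variable {E L Et : Type} [Field E] [Field L] [Field Et] [Algebra E L]
  {ι : Type} {κ : ι → Type} [∀ i, Field (κ i)] [∀ i, Algebra Et (κ i)]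
  [∀ i, Module.Finite Et (κ i)] (D : NRData E L Et ι κ)

/-- **Integral basis**: `⋂ V i` is a free `V_E`-module. -/
theorem exists_integral_basis [Fintype ι] [DecidableEq ι] [Module.Finite E L]
    (hdeg : ∑ i, D.e i * Module.finrank Et (κ i) = Module.finrank E L) :
    ∃ bE : Module.Basis D.I E L, (∀ x i, bE x ∈ D.V i) ∧
      ∀ g : L, (∀ i, g ∈ D.V i) ↔ ∀ x, bE.repr g x ∈ D.VE := by
  classical
  obtain ⟨T⟩ := D.exists_lift (fun _ => 1) (fun _ => one_mem _) (fun _ => one_ne_zero)
  have hli := T.linearIndependent_B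
  have hcard : Fintype.card D.I = Module.finrank E L := by rw [D.card_I, hdeg]
  have hne : Nonempty D.I := by
    rw [← Fintype.card_pos_iff, hcard]
    exact Module.finrank_pos
  let bE : Module.Basis D.I E L := basisOfLinearIndependentOfCardEqFinrank hli hcard
  have hbE : ∀ x, bE x = T.B x := fun x => by simp [bE]
  refine ⟨bE, fun x i => by rw [hbE]; exact T.B_mem x i, fun g => ⟨fun hg x => ?_, fun hg i => ?_⟩⟩
  · refine T.coord_mem (fun x => bE.repr g x) g hg ?_ x
    have := bE.sum_repr g
    simpa only [hbE] using this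
  · rw [← bE.sum_repr g]
    refine sum_mem fun x _ => ?_
    rw [Algebra.smul_def, hbE]
    exact mul_mem (D.hVE i _ (hg x)) (T.B_mem x i)

/-- Every element of `⋂ V i` is a root of a monic polynomial with coefficients in `V_E`. -/
theorem exists_monic_root [Fintype ι] [DecidableEq ι] [Module.Finite E L]
    (hdeg : ∑ i, D.e i * Module.finrank Et (κ i) = Module.finrank E L)
    (g : L) (hg : ∀ i, g ∈ D.V i) :
    ∃ P : Polynomial ↥D.VE, P.Monic ∧
      Polynomial.eval₂ ((algebraMap E L).comp D.VE.subtype) g P = 0 := by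
  obtain ⟨P, hP, hmap, -⟩ := D.charpoly_red hdeg g hg
  refine ⟨P, hP, ?_⟩
  have h1 := charpoly_aeval (E := E) (L := L) g
  rw [← hmap, Polynomial.aeval_def, Polynomial.eval₂_map] at h1
  exact h1

/-- `⋂ V i` is contained in every valuation ring of `L` containing `V_E`. -/
theorem mem_of_forall_mem [Fintype ι] [DecidableEq ι] [Module.Finite E L]
    (hdeg : ∑ i, D.e i * Module.finrank Et (κ i) = Module.finrank E L)
    (W : ValuationSubring L) (hW : ∀ a : E, a ∈ D.VE → algebraMap E L a ∈ W)
    (g : L) (hg : ∀ i, g ∈ D.V i) : g ∈ W := by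
  obtain ⟨P, hP, hroot⟩ := D.exists_monic_root hdeg g hg
  let φ : ↥D.VE →+* ↥W :=
    ((algebraMap E L).comp D.VE.subtype).codRestrict W (fun a => hW a a.2)
  have hφ : (algebraMap ↥W L).comp φ = (algebraMap E L).comp D.VE.subtype := rfl
  have hint : IsIntegral ↥W g := by
    refine ⟨P.map φ, hP.map φ, ?_⟩
    rw [Polynomial.eval₂_map, hφ]
    exact hroot
  obtain ⟨y, hy⟩ := IsIntegrallyClosed.isIntegral_iff.1 hint
  rw [← hy]
  exact y.2

/-- **THREE**: there is no further valuation ring over `V_E`: every valuation ring `W ≠ ⊤` of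
`L` containing `V_E` is one of the `V i`. -/
theorem eq_of_valuationSubring [Fintype ι] [DecidableEq ι] [Module.Finite E L]
    (hdeg : ∑ i, D.e i * Module.finrank Et (κ i) = Module.finrank E L)
    (W : ValuationSubring L) (hW : ∀ a : E, a ∈ D.VE → algebraMap E L a ∈ W)
    (hWtop : W ≠ ⊤) : ∃ i, W = D.V i := by
  classical
  by_contra hne
  push Not at hne
  have hB : ∀ g : L, (∀ i, g ∈ D.V i) → g ∈ W := D.mem_of_forall_mem hdeg W hW
  have hB1 : ∀ g : L, (∀ i, g ∈ D.V i) → W.valuation g ≤ 1 := fun g hg =>
    (ValuationSubring.valuation_le_one_iff _ _).2 (hB g hg)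
  -- step 2: an element of `m_W ∩ B` which is a unit of `V i`
  have h2 : ∀ i, ∃ g : L, (∀ j, g ∈ D.V j) ∧ W.valuation g < 1 ∧ (D.V i).valuation g = 1 := by
    intro i
    by_contra hcon
    push Not at hcon
    have hle : D.V i ≤ W := by
      intro y hy
      obtain ⟨b, hb1, hb2, hb3⟩ := exists_approx_small D.V D.hA D.hinc D.V_ne_top i
        (Finset.univ.erase i) (Finset.notMem_erase _ _)
        (fun j => if y ∈ D.V j then 1 else y⁻¹)
        (fun j _ => by
          by_cases hyj : y ∈ D.V j
          · simp [hyj]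
          · simp only [hyj, if_false]
            exact inv_ne_zero (fun h0 => hyj (h0 ▸ zero_mem _)))
        1 (one_mem _)
      rw [map_one] at hb2
      have hbj : ∀ j, j ≠ i → (D.V j).valuation b ≤ 1 ∧ (D.V j).valuation (b * y) ≤ 1 := by
        intro j hj
        have h3 := hb3 j (Finset.mem_erase.2 ⟨hj, Finset.mem_univ _⟩)
        by_cases hyj : y ∈ D.V j
        · simp only [hyj, if_true, map_one] at h3
          refine ⟨h3.le, ?_⟩
          rw [map_mul]
          exact mul_le_one' h3.le ((ValuationSubring.valuation_le_one_iff _ _).2 hyj)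
        · simp only [hyj, if_false, map_inv₀] at h3
          have hy1 : 1 < (D.V j).valuation y := by
            rw [← not_le, ValuationSubring.valuation_le_one_iff]
            exact hyj
          have hy0 : (D.V j).valuation y ≠ 0 := (zero_lt_one.trans hy1).ne'
          refine ⟨(h3.trans (inv_lt_one_of_one_lt₀ hy1)).le, ?_⟩
          rw [map_mul]
          have := mul_lt_mul_of_pos_right h3 (zero_lt_iff.2 hy0)
          rw [inv_mul_cancel₀ hy0] at this
          exact this.le
      have hbB : ∀ j, b ∈ D.V j := by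
        intro j
        rcases eq_or_ne j i with rfl | hj
        · exact (ValuationSubring.valuation_le_one_iff _ _).1 hb2.le
        · exact (ValuationSubring.valuation_le_one_iff _ _).1 (hbj j hj).1
      have hbyB : ∀ j, b * y ∈ D.V j := by
        intro j
        rcases eq_or_ne j i with rfl | hj
        · exact mul_mem (hbB j) hy
        · exact (ValuationSubring.valuation_le_one_iff _ _).1 (hbj j hj).2
      have hbW : W.valuation b = 1 := by
        refine le_antisymm (hB1 b hbB) ?_
        by_contra hlt
        exact absurd hb2 (hcon b hbB (not_le.1 hlt))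
      have hb0 : b ≠ 0 := by
        intro h0
        rw [h0, map_zero] at hbW
        exact zero_ne_one hbW
      have hy' : y = (b * y) * b⁻¹ := by field_simp
      rw [hy', ← ValuationSubring.valuation_le_one_iff, map_mul, map_inv₀, hbW, inv_one, mul_one]
      exact hB1 _ hbyB
    rcases isArch_eq_of_le (D.hA i) hle with h | h
    · exact hne i h.symm
    · exact hWtop h
  choose g hgB hgW hgi using h2
  -- step 3: the partition of unity
  have h3 : ∀ i, ∃ ε : L, (D.V i).valuation (ε - 1) < 1 ∧
      ∀ j, j ≠ i → (D.V j).valuation ε < 1 := by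
    intro i
    obtain ⟨ε, hε1, hε2⟩ := exists_one_small D.V D.hA D.hinc D.V_ne_top i
      (Finset.univ.erase i) (Finset.notMem_erase _ _) (fun _ => 1) (fun _ _ => one_ne_zero)
    refine ⟨ε, hε1, fun j hj => ?_⟩
    have := hε2 j (Finset.mem_erase.2 ⟨hj, Finset.mem_univ _⟩)
    rwa [map_one] at this
  choose ε hε1 hε2 using h3
  have hεi : ∀ i, (D.V i).valuation (ε i) = 1 := by
    intro i
    have : ε i = 1 + (ε i - 1) := by ring
    rw [this]
    exact Valuation.map_one_add_of_lt _ (hε1 i)
  have hεB : ∀ i j, ε i ∈ D.V j := by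
    intro i j
    rcases eq_or_ne j i with rfl | hj
    · exact (ValuationSubring.valuation_le_one_iff _ _).1 (hεi j).le
    · exact (ValuationSubring.valuation_le_one_iff _ _).1 (hε2 i j hj).le
  set G : L := ∑ i, g i * ε i with hG
  have hGW : W.valuation G < 1 := by
    refine Valuation.map_sum_lt _ one_ne_zero fun i _ => ?_
    rw [map_mul, mul_comm]
    exact Right.mul_lt_one_of_le_of_lt (hB1 _ (hεB i)) (hgW i)
  have hGi : ∀ i, (D.V i).valuation G = 1 := by
    intro i
    have hsplit : G = g i * ε i + ∑ j ∈ Finset.univ.erase i, g j * ε j :=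
      (Finset.add_sum_erase _ _ (Finset.mem_univ i)).symm
    have hterm : (D.V i).valuation (g i * ε i) = 1 := by
      rw [map_mul, hgi, hεi, mul_one]
    have hrest : (D.V i).valuation (∑ j ∈ Finset.univ.erase i, g j * ε j) < 1 := by
      refine Valuation.map_sum_lt _ one_ne_zero fun j hj => ?_
      rw [map_mul]
      exact mul_lt_of_le_one_of_lt ((ValuationSubring.valuation_le_one_iff _ _).2 (hgB j i))
        (hε2 j i (Finset.mem_erase.1 hj).1.symm)
    rw [hsplit, Valuation.map_add_eq_of_lt_left _ (by rw [hterm]; exact hrest), hterm]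
  -- step 4
  have hGinvB : ∀ i, G⁻¹ ∈ D.V i := by
    intro i
    rw [← ValuationSubring.valuation_le_one_iff, map_inv₀, hGi, inv_one]
  have hGinvW := hB1 _ hGinvB
  rw [map_inv₀] at hGinvW
  rcases isEmpty_or_nonempty ι with hemp | ⟨⟨i₀⟩⟩
  · apply hWtop
    rw [eq_top_iff]
    intro y _
    exact hB y (fun i => (hemp.false i).elim)
  · have hG0 : W.valuation G ≠ 0 := by
      rw [Valuation.ne_zero_iff]
      intro h0
      have := hGi i₀
      rw [h0, map_zero] at this
      exact zero_ne_one this
    have := (inv_le_one₀ (zero_lt_iff.2 hG0)).1 hGinvW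
    exact absurd hGW (not_lt.2 this)

end NRData

end Fermat.Agent.BAD.H42
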