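import Fermat.Agent.RED.H10_Kronecker
import Fermat.Prelude.Def_AlgebraicCurve_BaseChangeGalois

/-!
# Item 65 (BAD_q), `TotData` leaf `β` (helper73)

`k` a perfect field of characteristic `q`, `E ⊂ k((t))` an intermediate field stable under the
coefficientwise Frobenius `φ` (in both directions).  Then

* `frobL k q : k((t)) ≃+* k((t))` is the coefficientwise Frobenius, `x ^ q = Fr (φ x) = φ (Fr x)`
  with `Fr = qExpand k q` (`t ↦ t ^ q`);
* `E` is stable under `Fr` (`qExpand_mem`), `FrE : E →ₐ[k] E`;
* `frobSemi : SemilinearAut k E` is `φ` on `E`;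
* `beta : Place k E ≃ Place k E`, `z ↦ z ∘ φ`, with
  `beta_ord : (β z).ord y = z.ord (φ y)` and **`beta_ord_Fr : (β z).ord (Fr g) = q * z.ord g`**.

Stability criterion: `frobStable_adjoin` — `adjoin k S` is `φ`-stable if the elements of `S` are
fixed by `φ` (e.g. reductions of series with coefficients in `ℤ`, `coeffMap_intCast_fixed`).
-/

set_option autoImplicit false

noncomputable section

open ModularCurve AlgebraicCurve

namespace Fermat.Agent.BAD.H73

section Series

variable (k : Type*) [Field k] (q : ℕ) [Fact q.Prime] [CharP k q] [PerfectRing k q]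

/-- The coefficientwise Frobenius of `k((t))`, an automorphism for perfect `k`. -/
def frobL : LaurentSeries k ≃+* LaurentSeries k :=
  RingEquiv.ofRingHom (coeffMap ((frobeniusEquiv k q : k ≃+* k) : k →+* k))
    (coeffMap ((frobeniusEquiv k q).symm : k →+* k))
    (by
      ext x n
      simp [coeffMap_coeff])
    (by
      ext x n
      simp [coeffMap_coeff])

variable {k}

@[simp] theorem frobL_coeff (x : LaurentSeries k) (n : ℤ) :
    (frobL k q x).coeff n = x.coeff n ^ q := by
  show (coeffMap ((frobeniusEquiv k q : k ≃+* k) : k →+* k) x).coeff n = _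
  rw [coeffMap_coeff]
  exact frobeniusEquiv_apply k q _

theorem frobL_eq_coeffMap (x : LaurentSeries k) :
    frobL k q x = coeffMap (frobenius k q) x := by
  ext n
  rw [frobL_coeff, coeffMap_coeff, frobenius_def]

omit [Fact q.Prime] [CharP k q] [PerfectRing k q] in
theorem algebraMap_eq_single (c : k) :
    algebraMap k (LaurentSeries k) c = HahnSeries.single 0 c := by
  have h1 : algebraMap k (PowerSeries k) c = PowerSeries.C c := by simp
  rw [HahnSeries.algebraMap_apply', h1, HahnSeries.ofPowerSeries_C]
  rfl

theorem frobL_algebraMap (c : k) :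
    frobL k q (algebraMap k (LaurentSeries k) c) = algebraMap k (LaurentSeries k) (c ^ q) := by
  rw [frobL_eq_coeffMap, algebraMap_eq_single, coeffMap_single, frobenius_def,
    algebraMap_eq_single]

theorem frobL_symm_algebraMap (c : k) :
    (frobL k q).symm (algebraMap k (LaurentSeries k) c)
      = algebraMap k (LaurentSeries k) ((frobeniusEquiv k q).symm c) := by
  rw [RingEquiv.symm_apply_eq, frobL_algebraMap, frobeniusEquiv_symm_pow_p]

/-- `x ^ q = Fr (φ x)`. -/
theorem pow_eq_qExpand_frobL (x : LaurentSeries k) :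
    x ^ q = qExpand k q (frobL k q x) := by
  rw [frobL_eq_coeffMap]
  exact Fermat.Agent.RED.H10.pow_char_eq q x

/-- `φ` and `Fr` commute. -/
theorem frobL_qExpand (x : LaurentSeries k) :
    frobL k q (qExpand k q x) = qExpand k q (frobL k q x) := by
  rw [frobL_eq_coeffMap, frobL_eq_coeffMap, coeffMap_qExpand]

/-- `φ (Fr x) = x ^ q`. -/
theorem frobL_qExpand_eq_pow (x : LaurentSeries k) :
    frobL k q (qExpand k q x) = x ^ q := by
  rw [frobL_qExpand, pow_eq_qExpand_frobL]

/-- `Fr x = (φ⁻¹ x) ^ q`. -/
theorem qExpand_eq_frobL_symm_pow (x : LaurentSeries k) :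
    qExpand k q x = ((frobL k q).symm x) ^ q := by
  rw [pow_eq_qExpand_frobL, RingEquiv.apply_symm_apply]

/-- Series with integral coefficients are fixed by `φ`. -/
theorem frobL_coeffMap_intCast (x : LaurentSeries ℤ) :
    frobL k q (coeffMap (Int.castRingHom k) x) = coeffMap (Int.castRingHom k) x := by
  rw [frobL_eq_coeffMap, coeffMap_coeffMap]
  exact coeffMap_congr (RingHom.ext_int _ _) x

end Series

section Field

variable {k : Type*} [Field k] (q : ℕ) [Fact q.Prime] [CharP k q] [PerfectRing k q]
variable (E : IntermediateField k (LaurentSeries k))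

/-- `E` is stable under the coefficientwise Frobenius and its inverse. -/
def FrobStable : Prop := ∀ x : LaurentSeries k, frobL k q x ∈ E ↔ x ∈ E

/-- The preimage of `E` under the coefficientwise Frobenius. -/
def comapFrob : IntermediateField k (LaurentSeries k) where
  toSubalgebra :=
    { carrier := {x | frobL k q x ∈ E}
      mul_mem' := fun {a b} ha hb => by
        show frobL k q (a * b) ∈ E
        rw [map_mul]; exact E.mul_mem ha hb
      add_mem' := fun {a b} ha hb => by
        show frobL k q (a + b) ∈ E
        rw [map_add]; exact E.add_mem ha hb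
      algebraMap_mem' := fun c => by
        show frobL k q (algebraMap k (LaurentSeries k) c) ∈ E
        rw [frobL_algebraMap]; exact E.algebraMap_mem _ }
  inv_mem' := fun x hx => by
    show frobL k q x⁻¹ ∈ E
    rw [map_inv₀]; exact E.inv_mem hx

theorem mem_comapFrob (x : LaurentSeries k) : x ∈ comapFrob q E ↔ frobL k q x ∈ E := Iff.rfl

/-- The image of `E` under the coefficientwise Frobenius. -/
def mapFrob : IntermediateField k (LaurentSeries k) where
  toSubalgebra :=
    { carrier := {x | (frobL k q).symm x ∈ E}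
      mul_mem' := fun {a b} ha hb => by
        show (frobL k q).symm (a * b) ∈ E
        rw [map_mul]; exact E.mul_mem ha hb
      add_mem' := fun {a b} ha hb => by
        show (frobL k q).symm (a + b) ∈ E
        rw [map_add]; exact E.add_mem ha hb
      algebraMap_mem' := fun c => by
        show (frobL k q).symm (algebraMap k (LaurentSeries k) c) ∈ E
        rw [frobL_symm_algebraMap]; exact E.algebraMap_mem _ }
  inv_mem' := fun x hx => by
    show (frobL k q).symm x⁻¹ ∈ E
    rw [map_inv₀]; exact E.inv_mem hx

theorem mem_mapFrob (x : LaurentSeries k) : x ∈ mapFrob q E ↔ (frobL k q).symm x ∈ E := Iff.rfl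

/-- **Stability criterion**: a field generated over `k` by `φ`-fixed series is `φ`-stable. -/
theorem frobStable_adjoin (S : Set (LaurentSeries k)) (hS : ∀ s ∈ S, frobL k q s = s) :
    FrobStable q (IntermediateField.adjoin k S) := by
  have h1 : IntermediateField.adjoin k S ≤ comapFrob q (IntermediateField.adjoin k S) := by
    rw [IntermediateField.adjoin_le_iff]
    intro s hs
    show frobL k q s ∈ IntermediateField.adjoin k S
    rw [hS s hs]
    exact IntermediateField.subset_adjoin k S hs
  have h2 : IntermediateField.adjoin k S ≤ mapFrob q (IntermediateField.adjoin k S) := by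
    rw [IntermediateField.adjoin_le_iff]
    intro s hs
    show (frobL k q).symm s ∈ IntermediateField.adjoin k S
    have e : (frobL k q).symm s = s := (RingEquiv.symm_apply_eq _).mpr (hS s hs).symm
    rw [e]
    exact IntermediateField.subset_adjoin k S hs
  intro x
  constructor
  · intro hx
    have := h2 hx
    rwa [mem_mapFrob, RingEquiv.symm_apply_apply] at this
  · intro hx
    exact h1 hx

/-- The function field of level `M` in characteristic `q` is `φ`-stable. -/
theorem frobStable_fullC (M : ℕ) : FrobStable q (modularFunctionFieldFullC k M) := by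
  apply frobStable_adjoin
  rintro s ⟨d, hd, -, rfl⟩
  rw [frobL_eq_coeffMap, coeffMap_qExpand, coeffMap_jqModC]

variable {q E}

theorem FrobStable.frobL_mem (h : FrobStable q E) {x : LaurentSeries k} (hx : x ∈ E) :
    frobL k q x ∈ E := (h x).mpr hx

theorem FrobStable.frobL_symm_mem (h : FrobStable q E) {x : LaurentSeries k} (hx : x ∈ E) :
    (frobL k q).symm x ∈ E := by
  rw [← h, RingEquiv.apply_symm_apply]; exact hx

/-- A `φ`-stable field is stable under `Fr : t ↦ t ^ q`. -/
theorem FrobStable.qExpand_mem (h : FrobStable q E) {x : LaurentSeries k} (hx : x ∈ E) :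
    qExpand k q x ∈ E := by
  rw [qExpand_eq_frobL_symm_pow]
  exact E.pow_mem (h.frobL_symm_mem hx) q

/-- The coefficientwise Frobenius of a `φ`-stable field. -/
def frobE (h : FrobStable q E) : ↥E ≃+* ↥E where
  toFun x := ⟨frobL k q (x : LaurentSeries k), h.frobL_mem x.2⟩
  invFun x := ⟨(frobL k q).symm (x : LaurentSeries k), h.frobL_symm_mem x.2⟩
  left_inv x := Subtype.ext ((frobL k q).symm_apply_apply (x : LaurentSeries k))
  right_inv x := Subtype.ext ((frobL k q).apply_symm_apply (x : LaurentSeries k))
  map_mul' x y := Subtype.ext (map_mul (frobL k q) (x : LaurentSeries k) (y : LaurentSeries k))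
  map_add' x y := Subtype.ext (map_add (frobL k q) (x : LaurentSeries k) (y : LaurentSeries k))

@[simp] theorem coe_frobE (h : FrobStable q E) (x : ↥E) :
    ((frobE h x : ↥E) : LaurentSeries k) = frobL k q (x : LaurentSeries k) := rfl

@[simp] theorem coe_frobE_symm (h : FrobStable q E) (x : ↥E) :
    (((frobE h).symm x : ↥E) : LaurentSeries k) = (frobL k q).symm (x : LaurentSeries k) := rfl

theorem frobE_algebraMap (h : FrobStable q E) (c : k) :
    frobE h (algebraMap k ↥E c) = algebraMap k ↥E (frobeniusEquiv k q c) := by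
  apply Subtype.ext
  rw [coe_frobE, frobeniusEquiv_apply]
  exact frobL_algebraMap q c

/-- `Fr : t ↦ t ^ q` on a `φ`-stable field, a `k`-algebra endomorphism. -/
def FrE (h : FrobStable q E) : ↥E →ₐ[k] ↥E where
  toFun x := ⟨qExpand k q (x : LaurentSeries k), h.qExpand_mem x.2⟩
  map_one' := Subtype.ext (map_one (qExpand k q))
  map_mul' x y := Subtype.ext (map_mul (qExpand k q) (x : LaurentSeries k) (y : LaurentSeries k))
  map_zero' := Subtype.ext (map_zero (qExpand k q))
  map_add' x y := Subtype.ext (map_add (qExpand k q) (x : LaurentSeries k) (y : LaurentSeries k))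
  commutes' c := by
    apply Subtype.ext
    show qExpand k q (algebraMap k (LaurentSeries k) c) = algebraMap k (LaurentSeries k) c
    rw [algebraMap_eq_single, qExpand_single, mul_zero]

@[simp] theorem coe_FrE (h : FrobStable q E) (x : ↥E) :
    ((FrE h x : ↥E) : LaurentSeries k) = qExpand k q (x : LaurentSeries k) := rfl

/-- `φ (Fr x) = x ^ q` on `E`. -/
theorem frobE_FrE (h : FrobStable q E) (x : ↥E) : frobE h (FrE h x) = x ^ q := by
  apply Subtype.ext
  rw [coe_frobE, coe_FrE, frobL_qExpand_eq_pow]
  rfl

/-- `Fr (φ x) = x ^ q` on `E`. -/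
theorem FrE_frobE (h : FrobStable q E) (x : ↥E) : FrE h (frobE h x) = x ^ q := by
  apply Subtype.ext
  rw [coe_FrE, coe_frobE, ← pow_eq_qExpand_frobL]
  rfl

/-- The coefficientwise Frobenius as a semilinear automorphism of `E / k`. -/
def frobSemi (h : FrobStable q E) : SemilinearAut k ↥E :=
  ⟨(frobE h, frobeniusEquiv k q), fun c => frobE_algebraMap h c⟩

@[simp] theorem toRingAut_frobSemi (h : FrobStable q E) :
    SemilinearAut.toRingAut (frobSemi h) = frobE h := rfl

@[simp] theorem baseAut_frobSemi (h : FrobStable q E) :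
    SemilinearAut.baseAut (frobSemi h) = frobeniusEquiv k q := rfl

/-- **The bijection `β`**: `z ↦ z ∘ φ` on the places of `E / k`. -/
def beta (h : FrobStable q E) : Place k ↥E ≃ Place k ↥E :=
  MulAction.toPerm (frobSemi h)⁻¹

theorem beta_apply (h : FrobStable q E) (z : Place k ↥E) :
    beta h z = (frobSemi h)⁻¹ • z := rfl

theorem beta_symm_apply (h : FrobStable q E) (z : Place k ↥E) :
    (beta h).symm z = frobSemi h • z := by
  rw [Equiv.symm_apply_eq, beta_apply, inv_smul_smul]

/-- `ord_{β z} y = ord_z (φ y)`. -/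
theorem beta_ord (h : FrobStable q E) (z : Place k ↥E) (y : ↥E) :
    (beta h z).ord y = z.ord (frobE h y) := by
  have e := SemilinearAut.ord_smul (frobSemi h)⁻¹ z (frobE h y)
  rw [SemilinearAut.inv_smul_def, toRingAut_frobSemi, RingEquiv.symm_apply_apply] at e
  exact e

/-- `ord_{β⁻¹ z} y = ord_z (φ⁻¹ y)`. -/
theorem beta_symm_ord (h : FrobStable q E) (z : Place k ↥E) (y : ↥E) :
    ((beta h).symm z).ord y = z.ord ((frobE h).symm y) := by
  have e := SemilinearAut.ord_smul (frobSemi h) z ((frobE h).symm y)
  rw [SemilinearAut.smul_def, toRingAut_frobSemi, RingEquiv.apply_symm_apply] at e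
  rw [beta_symm_apply]
  exact e

/-- **`ord_{β z} (Fr g) = q · ord_z g`**. -/
theorem beta_ord_Fr (h : FrobStable q E) (z : Place k ↥E) (g : ↥E) :
    (beta h z).ord (FrE h g) = (q : ℤ) * z.ord g := by
  rw [beta_ord, frobE_FrE, ← zpow_natCast, Place.ord_zpow]

/-- `x ∈ β z ↔ φ x ∈ z` (valuation rings). -/
theorem mem_beta_iff (h : FrobStable q E) (z : Place k ↥E) (y : ↥E) :
    y ∈ (beta h z).toValuationSubring ↔ frobE h y ∈ z.toValuationSubring := by
  rw [beta_apply, SemilinearAut.smul_toValuationSubring,
    ValuationSubring.mem_pointwise_smul_iff_inv_smul_mem, inv_inv]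
  rfl

end Field

end Fermat.Agent.BAD.H73
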