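import Fermat.Agent.BAD.H73_FundIneq
import Fermat.Agent.BAD.H73_ArchSep
import Fermat.Agent.BAD.H73_Compat2
import Fermat.Agent.RED.H73_GACard

/-!
# Item 65 (BAD_q), leaf (D) (helper73): `redField A (F_{Mq} ℚ̄) = fullC k M`

`N = M q`, `q ∤ M`, `A` over `q`.  The residue field `F₁` of the Gauss valuation of `F_N ℚ̄`
is the function field of level `M` in characteristic `q`.

Proof: `F₁ ⊇ E~ := fullC k M` (GA at level `M`).  If `y ∈ F₁ ∖ E~`, then `1, y` are
`E~`-independent in the residue field of `V₁`, and `1, j, …, j^(q-1)` are `E~`-independent in the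
residue field of `V₂` (where `E~` acts through `Fr`); by the fundamental inequality for the two
valuations `V₁ ≠ V₂` over the Gauss valuation of `F_M ℚ̄`: `2 + q ≤ [F_N : F_M] = q + 1`.
-/

set_option autoImplicit false
set_option synthInstance.maxHeartbeats 400000
set_option maxHeartbeats 1000000

noncomputable section

open ModularCurve AlgebraicCurve Fermat.Agent.S28.H73 Fermat.Agent.RED.H73 Fermat.Agent.BAD.H88
  Fermat.Agent.BAD.H82 Fermat.Agent.S24 Fermat.Agent.RED.H17

namespace Fermat.Agent.BAD.H73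

section Series

variable {k : Type} [Field k]

theorem order_qExpand (n : ℕ) [NeZero n] {x : LaurentSeries k} (hx : x ≠ 0) :
    (qExpand k n x).order = (n : ℤ) * x.order := by
  have hne : qExpand k n x ≠ 0 := fun h => hx (qExpand_injective n (by rw [h, map_zero]))
  have hn : (0 : ℤ) < n := by exact_mod_cast Nat.pos_of_ne_zero (NeZero.ne n)
  apply le_antisymm
  · apply HahnSeries.order_le_of_coeff_ne_zero
    rw [qExpand_coeff_mul]
    exact fun h0 => hx (HahnSeries.coeff_order_eq_zero.1 h0)
  · rw [HahnSeries.le_order_iff_forall hne]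
    intro m hm
    by_cases hd : (n : ℤ) ∣ m
    · obtain ⟨m', rfl⟩ := hd
      rw [qExpand_coeff_mul]
      apply HahnSeries.coeff_eq_zero_of_lt_order
      exact lt_of_mul_lt_mul_left hm hn.le
    · exact qExpand_coeff_of_not_dvd n x hd

/-- `1, J, …, J^(q-1)` are linearly independent over the series in `t ^ q`, if `J` has a simple
pole. -/
theorem pow_indep_qExpand (q : ℕ) [NeZero q] (J : LaurentSeries k) (hJ : J.order = -1)
    (c : Fin q → LaurentSeries k) (hsum : ∑ i, qExpand k q (c i) * J ^ (i : ℕ) = 0) :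
    ∀ i, c i = 0 := by
  have hJ0 : J ≠ 0 := by
    rintro rfl
    rw [HahnSeries.order_zero] at hJ
    omega
  have hg : (1 : WithZero (Multiplicative ℤ)) < WithZero.exp (1 : ℤ) := by
    rw [← WithZero.exp_zero, WithZero.exp_lt_exp]
    exact zero_lt_one
  have hj : tVal k J = WithZero.exp (1 : ℤ) := by
    rw [tVal_eq_exp_neg_order k hJ0, hJ]
    rfl
  have key := orthogonality (tVal k) hg hj (fun i => qExpand k q (c i)) ?_ hsum
  · intro i
    exact qExpand_injective q (by rw [key i, map_zero])
  · intro i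
    by_cases hc : c i = 0
    · left
      rw [hc, map_zero]
    · right
      have hne : qExpand k q (c i) ≠ 0 := fun h => hc (qExpand_injective q (by rw [h, map_zero]))
      refine ⟨-(c i).order, ?_⟩
      rw [tVal_eq_exp_neg_order k hne, order_qExpand q hc, ← WithZero.exp_zsmul]
      congr 1
      simp

end Series

section Indep

/-- `1, y` are independent over `Et` if `y` is not in the image of `Et`. -/
theorem linearIndependent_one_of_not_mem {Et F : Type} [Field Et] [Field F] [Algebra Et F]
    (y : F) (hy : y ∉ (algebraMap Et F).range) : LinearIndependent Et ![(1 : F), y] := by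
  rw [LinearIndependent.pair_iff]
  intro s t hst
  have ht : t = 0 := by
    by_contra ht
    apply hy
    refine ⟨-(s / t), ?_⟩
    have h1 : algebraMap Et F s + algebraMap Et F t * y = 0 := by
      rw [Algebra.smul_def, Algebra.smul_def, mul_one] at hst
      exact hst
    have ht' : algebraMap Et F t ≠ 0 := fun h0 => ht ((map_eq_zero _).1 h0)
    rw [map_neg, map_div₀]
    field_simp
    linear_combination -h1
  refine ⟨?_, ht⟩
  rw [ht, zero_smul, add_zero, Algebra.smul_def, mul_one] at hst
  exact (map_eq_zero _).1 hst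

/-- `1, J, …, J^(q-1)` are independent over `Et` if `Et` acts through series in `t ^ q` and `J`
has a simple pole. -/
theorem linearIndependent_pow_of_qExpand {k : Type} [Field k] (q : ℕ) [NeZero q]
    (E : IntermediateField k (LaurentSeries k)) {Et : Type} [Field Et] [Algebra Et ↥E]
    (hfr : ∀ a : Et, ∃ c : LaurentSeries k,
      ((algebraMap Et ↥E a : ↥E) : LaurentSeries k) = qExpand k q c)
    (J : ↥E) (hJ : (J : LaurentSeries k).order = -1) :
    LinearIndependent Et (fun i : Fin q => J ^ (i : ℕ)) := by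
  rw [Fintype.linearIndependent_iff]
  intro g hg
  choose c hc using hfr
  have hsum : ∑ i, qExpand k q (c (g i)) * (J : LaurentSeries k) ^ (i : ℕ) = 0 := by
    have h1 := congrArg (fun z : ↥E => (z : LaurentSeries k)) hg
    simp only [Algebra.smul_def] at h1
    rw [show ((0 : ↥E) : LaurentSeries k) = 0 from rfl] at h1
    rw [← h1]
    rw [show ((∑ i, algebraMap Et ↥E (g i) * J ^ (i : ℕ) : ↥E) : LaurentSeries k)
      = ∑ i, ((algebraMap Et ↥E (g i) * J ^ (i : ℕ) : ↥E) : LaurentSeries k) from
        map_sum E.val _ _]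
    refine Finset.sum_congr rfl fun i _ => ?_
    rw [← hc (g i)]
    rfl
  have key := pow_indep_qExpand q (J : LaurentSeries k) hJ (fun i => c (g i)) hsum
  intro i
  have h2 : algebraMap Et ↥E (g i) = 0 := by
    apply Subtype.ext
    rw [hc (g i), key i, map_zero]
    rfl
  exact (map_eq_zero _).1 h2

end Indep

section Mono

variable {C : Type} [Field C] (O : ValuationSubring C)

/-- The residue field of the Gauss valuation is monotone in the field. -/
theorem redField_mono {F F' : IntermediateField C (LaurentSeries C)} (hle : F ≤ F')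
    (h : HasScale O F) (h' : HasScale O F') : redField O F h ≤ redField O F' h' := by
  rintro y ⟨x, rfl⟩
  exact ⟨⟨⟨((x : ↥F) : LaurentSeries C), hle (x : ↥F).2⟩, x.2⟩, rfl⟩

end Mono

section AbstractD

variable {C : Type} [Field C] (O : ValuationSubring C)
variable (F F' : IntermediateField C (LaurentSeries C)) (hle : F ≤ F')
variable (h : HasScale O F) (h' : HasScale O F')
variable (q : ℕ) [NeZero q]
variable (V₂ : ValuationSubring ↥F') (red₂ : ↥V₂ →+* ↥(redField O F' h'))

include hle in
/-- **(D), abstract form.**  `F ⊆ F'` with `[F' : F] ≤ q + 1`; `V₂` a second valuation ring of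
`F'`, incomparable with the Gauss valuation ring, with residue map `red₂` onto the residue
field of the Gauss valuation, equal to `Fr ∘ red` on `F`.  If the residue field of `F` is stable
under `Fr` and contains an element with a simple pole, then `F'` and `F` have the same residue
field. -/
theorem redField_eq_of_two [Algebra ↥F ↥F'] [Module.Finite ↥F ↥F']
    (hcoe : ∀ x : ↥F, ((algebraMap ↥F ↥F' x : ↥F') : LaurentSeries C) = (x : LaurentSeries C))
    (hdeg : Module.finrank ↥F ↥F' ≤ q + 1)
    (hsurj₂ : Function.Surjective red₂)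
    (hker₂ : ∀ u : ↥V₂, ¬ IsUnit u → red₂ u = 0)
    (h₁₂ : ¬ gaussValSub O F' h' ≤ V₂) (h₂₁ : ¬ V₂ ≤ gaussValSub O F' h')
    (hV₂ : ∀ x : ↥F, x ∈ gaussValSub O F h → algebraMap ↥F ↥F' x ∈ V₂)
    (hc₂ : ∀ (x : ↥F) (hx : x ∈ gaussValSub O F h) (hx' : algebraMap ↥F ↥F' x ∈ V₂),
      ((red₂ ⟨_, hx'⟩ : ↥(redField O F' h')) : LaurentSeries (kV O))
        = qExpand (kV O) q (gaussRedV O ⟨(x : LaurentSeries C), hx⟩))
    (hFr : ∀ x ∈ redField O F h, qExpand (kV O) q x ∈ redField O F h)
    (J : LaurentSeries (kV O)) (hJ : J ∈ redField O F h) (hJo : J.order = -1) :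
    redField O F' h' = redField O F h := by
  have hle₁ : redField O F h ≤ redField O F' h' := redField_mono O hle h h'
  refine le_antisymm ?_ hle₁
  intro y hy
  by_contra hyn
  -- the two structure maps `Et → F₁`
  let ι₁ : ↥(redField O F h) →+* ↥(redField O F' h') :=
    (IntermediateField.inclusion hle₁).toRingHom
  let ι₂ : ↥(redField O F h) →+* ↥(redField O F' h') :=
    { toFun := fun x => ⟨qExpand (kV O) q (x : LaurentSeries (kV O)), hle₁ (hFr _ x.2)⟩
      map_one' := Subtype.ext (map_one (qExpand (kV O) q))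
      map_mul' := fun x y => Subtype.ext (map_mul (qExpand (kV O) q) _ _)
      map_zero' := Subtype.ext (map_zero (qExpand (kV O) q))
      map_add' := fun x y => Subtype.ext (map_add (qExpand (kV O) q) _ _) }
  have hV₁ : ∀ x : ↥F, x ∈ gaussValSub O F h → algebraMap ↥F ↥F' x ∈ gaussValSub O F' h' := by
    intro x hx
    rw [mem_gaussValSub_iff, hcoe]
    exact (mem_gaussValSub_iff O h x).1 hx
  have hker₁ : ∀ u : ↥(gaussValSub O F' h'), ¬ IsUnit u → gaussResF' O h' u = 0 :=
    fun u hu => (gaussResF'_eq_zero_iff O h' u).2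
      (by rwa [IsLocalRing.mem_maximalIdeal, mem_nonunits_iff])
  have hc₁ : ∀ (x : ↥(gaussValSub O F h))
      (hx : algebraMap ↥F ↥F' (x : ↥F) ∈ gaussValSub O F' h'),
      gaussResF' O h' ⟨_, hx⟩ = ι₁ (gaussResF' O h x) := by
    intro x hx
    apply Subtype.ext
    have e1 : ((gaussResF' O h' ⟨_, hx⟩ : ↥(redField O F' h')) : LaurentSeries (kV O))
        = gaussRedV O ⟨((algebraMap ↥F ↥F' (x : ↥F) : ↥F') : LaurentSeries C), hx⟩ := rfl
    have e2 : ((ι₁ (gaussResF' O h x) : ↥(redField O F' h')) : LaurentSeries (kV O))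
        = gaussRedV O ⟨((x : ↥F) : LaurentSeries C), x.2⟩ := rfl
    rw [e1, e2]
    congr 1
    exact Subtype.ext (hcoe _)
  have hc₂' : ∀ (x : ↥(gaussValSub O F h)) (hx : algebraMap ↥F ↥F' (x : ↥F) ∈ V₂),
      red₂ ⟨_, hx⟩ = ι₂ (gaussResF' O h x) := by
    intro x hx
    apply Subtype.ext
    rw [hc₂ (x : ↥F) x.2 hx]
    rfl
  -- the two independent families
  have hB₁ : @LinearIndependent (Fin 2) _ ↥(redField O F' h')
      ![(1 : ↥(redField O F' h')), ⟨y, hy⟩] _ _ (@Algebra.toModule _ _ _ _ ι₁.toAlgebra) := by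
    apply @linearIndependent_one_of_not_mem _ ↥(redField O F' h') _ _ ι₁.toAlgebra
    rintro ⟨x, hx⟩
    apply hyn
    have e : (x : LaurentSeries (kV O)) = y :=
      congrArg (fun z : ↥(redField O F' h') => (z : LaurentSeries (kV O))) hx
    rw [← e]
    exact x.2
  have hB₂ : @LinearIndependent (Fin q) _ ↥(redField O F' h')
      (fun i : Fin q => (⟨J, hle₁ hJ⟩ : ↥(redField O F' h')) ^ (i : ℕ)) _ _
      (@Algebra.toModule _ _ _ _ ι₂.toAlgebra) := by
    apply @linearIndependent_pow_of_qExpand (kV O) _ q _ _ _ _ ι₂.toAlgebra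
    · intro x
      exact ⟨(x : LaurentSeries (kV O)), rfl⟩
    · exact hJo
  have key := @card_add_card_le_finrank ↥F ↥F' ↥(redField O F h) ↥(redField O F' h')
    ↥(redField O F' h') _ _ _ _ _ _ ι₁.toAlgebra ι₂.toAlgebra _ (gaussValSub O F h)
    (gaussValSub O F' h') V₂ (gaussResF' O h) (gaussResF' O h') red₂ hV₁ hV₂
    (gaussResF'_surjective O h') hsurj₂ hker₁ hker₂ hc₁ hc₂' h₁₂ h₂₁
    (Fin 2) (Fin q) _ _ _ _ hB₁ hB₂
  rw [Fintype.card_fin, Fintype.card_fin] at key
  omega

end AbstractD

section Concrete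

variable (A : ValuationSubring Kbar)
variable (q M : ℕ) (a b : ℤ) (hab : a * q + b * M = 1) (hq : q.Prime) [NeZero (M * q)]
variable (hA : A.LiesOverPrime q) (hM : ¬ q ∣ M)

include hq hA hM in
/-- The residue field of level `M` is `fullC k M` (GA). -/
theorem redField_M_eq :
    redField A (modularFunctionFieldBar M) (hasScale_laurentBaseChange A M)
      = modularFunctionFieldFullC (kV A) M := by
  have : NeZero M := neZero_of_mul_left' q M
  exact redField_laurentBaseChange_eq A (inv_natCast_mem_of_liesOver A M hq hM hA) (caDataBar M)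

omit [NeZero (M * q)] in
/-- `j~` has a simple pole. -/
theorem jqModC_order_eq : (jqModC (kV A)).order = -1 := by
  have h := JL_order (kV A) 1
  have e : JL (kV A) 1 = jqModC (kV A) := qExpand_one_apply _
  rw [e] at h
  rw [h]
  norm_num

include hq hA hM in
/-- The residue field of level `M` is stable under `Fr`. -/
theorem qExpand_mem_redField_M (x : LaurentSeries (kV A))
    (hx : x ∈ redField A (modularFunctionFieldBar M) (hasScale_laurentBaseChange A M)) :
    letI : NeZero q := neZero_of_mul_right q M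
    qExpand (kV A) q x
      ∈ redField A (modularFunctionFieldBar M) (hasScale_laurentBaseChange A M) := by
  have hFq : Fact q.Prime := ⟨hq⟩
  have hCP : CharP (kV A) q := charP_kV A hq hA
  have hPR : PerfectRing (kV A) q := perfectRing_kV A q
  rw [redField_M_eq A q M hq hA hM] at hx ⊢
  exact (frobStable_fullC q M).qExpand_mem hx

include hab hq hA hM in
/-- **(D)**: `redField A (F_{Mq} ℚ̄) = redField A (F_M ℚ̄)`, from `[F_{Mq} : F_M] ≤ q + 1`. -/
theorem redField_Mq_eq_M [Algebra (FN M) (FN (M * q))] [Module.Finite (FN M) (FN (M * q))]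
    (hcoe : ∀ x : FN M, ((algebraMap (FN M) (FN (M * q)) x : FN (M * q)) : LaurentSeries Kbar)
      = (x : LaurentSeries Kbar))
    (hdeg : Module.finrank (FN M) (FN (M * q)) ≤ q + 1) :
    redField A (modularFunctionFieldBar (M * q)) (hSc A q M)
      = redField A (modularFunctionFieldBar M) (hasScale_laurentBaseChange A M) := by
  have hNZq : NeZero q := neZero_of_mul_right q M
  have hlev : ∀ x : FN M, ((algebraMap (FN M) (FN (M * q)) x : FN (M * q)) :
      LaurentSeries Kbar) ∈ modularFunctionFieldBar M := fun x => by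
    rw [hcoe]; exact x.2
  have hV₁ : ∀ x : FN M, x ∈ gaussValSub A (modularFunctionFieldBar M)
      (hasScale_laurentBaseChange A M) → algebraMap (FN M) (FN (M * q)) x ∈ V1 A q M := by
    intro x hx
    rw [mem_gaussValSub_iff, hcoe]
    exact (mem_gaussValSub_iff A _ x).1 hx
  refine redField_eq_of_two A (modularFunctionFieldBar M) (modularFunctionFieldBar (M * q))
    (barM_le_bar q M) (hasScale_laurentBaseChange A M) (hSc A q M) q (V2 A q M a b hab hq)
    (red2 A q M a b hab hq) hcoe hdeg (red2_surjective A q M a b hab hq) ?_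
    (not_V1_le_V2 A q M a b hab hq hA) (not_V2_le_V1 A q M a b hab hq hA) ?_ ?_ ?_
    (jqModC (kV A)) ?_ (jqModC_order_eq A)
  · intro u hu
    exact (red2_eq_zero_iff A q M a b hab hq u).2
      (by rwa [IsLocalRing.mem_maximalIdeal, mem_nonunits_iff])
  · intro x hx
    exact mem_V2_of_level A q M a b hab hq _ (hlev x) (hV₁ x hx)
  · intro x hx hx'
    rw [coe_red2_of_level A q M a b hab hq _ (hlev x) (hV₁ x hx) hx']
    have e1 : ((red1 A q M ⟨_, hV₁ x hx⟩ : F1 A q M) : LaurentSeries (kV A))
        = gaussRedV A ⟨((algebraMap (FN M) (FN (M * q)) x : FN (M * q)) :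
            LaurentSeries Kbar), hV₁ x hx⟩ := rfl
    rw [e1]
    congr 2
    exact Subtype.ext (hcoe _)
  · exact qExpand_mem_redField_M A q M hq hA hM
  · rw [redField_M_eq A q M hq hA hM]
    exact jqModC_mem_full (kV A) M

include hab hq hA hM in
/-- **(D)**: `redField A (F_{Mq} ℚ̄) = fullC k M`, from `[F_{Mq} : F_M] ≤ q + 1`. -/
theorem redField_Mq_eq [Algebra (FN M) (FN (M * q))] [Module.Finite (FN M) (FN (M * q))]
    (hcoe : ∀ x : FN M, ((algebraMap (FN M) (FN (M * q)) x : FN (M * q)) : LaurentSeries Kbar)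
      = (x : LaurentSeries Kbar))
    (hdeg : Module.finrank (FN M) (FN (M * q)) ≤ q + 1) :
    redField A (modularFunctionFieldBar (M * q)) (hSc A q M)
      = modularFunctionFieldFullC (kV A) M := by
  rw [redField_Mq_eq_M A q M a b hab hq hA hM hcoe hdeg]
  exact redField_M_eq A q M hq hA hM

end Concrete

end Fermat.Agent.BAD.H73
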