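import Fermat.Agent.BAD.H42_NormRed2

/-!
# Item 65 (BAD_q), leaf (D), abstract part (helper73): the fundamental inequality for two
valuations

`E ⊆ L` finite, `V_E` a valuation ring of `E` with residue map to `Et`, `V₁`, `V₂` two
incomparable valuation rings of `L` over `V_E` with residue maps onto `L₁`, `L₂` (algebras over
`Et`, compatibly).  Then lifts of `Et`-independent families of `L₁` and of `L₂` are jointly
`E`-independent; in particular `r + s ≤ [L : E]` for independent families of `r` and `s` elements.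
-/

set_option autoImplicit false

noncomputable section

namespace Fermat.Agent.BAD.H73

open Fermat.Agent.BAD.H42

section FundIneq

variable {E L Et L₁ L₂ : Type} [Field E] [Field L] [Field Et] [Field L₁] [Field L₂]
  [Algebra E L] [Algebra Et L₁] [Algebra Et L₂]

/-- **Fundamental inequality** (two valuations): `r + s ≤ [L : E]`. -/
theorem card_add_card_le_finrank [Module.Finite E L]
    (VE : ValuationSubring E) (V₁ V₂ : ValuationSubring L)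
    (redE : ↥VE →+* Et) (red₁ : ↥V₁ →+* L₁) (red₂ : ↥V₂ →+* L₂)
    (hV₁ : ∀ a : E, a ∈ VE → algebraMap E L a ∈ V₁)
    (hV₂ : ∀ a : E, a ∈ VE → algebraMap E L a ∈ V₂)
    (hsurj₁ : Function.Surjective red₁) (hsurj₂ : Function.Surjective red₂)
    (hker₁ : ∀ a : ↥V₁, ¬ IsUnit a → red₁ a = 0) (hker₂ : ∀ a : ↥V₂, ¬ IsUnit a → red₂ a = 0)
    (hcompat₁ : ∀ (a : ↥VE) (ha : algebraMap E L (a : E) ∈ V₁),
      red₁ ⟨algebraMap E L (a : E), ha⟩ = algebraMap Et L₁ (redE a))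
    (hcompat₂ : ∀ (a : ↥VE) (ha : algebraMap E L (a : E) ∈ V₂),
      red₂ ⟨algebraMap E L (a : E), ha⟩ = algebraMap Et L₂ (redE a))
    (h₁₂ : ¬ V₁ ≤ V₂) (h₂₁ : ¬ V₂ ≤ V₁)
    {ι₁ ι₂ : Type} [Fintype ι₁] [Fintype ι₂] (B₁ : ι₁ → L₁) (B₂ : ι₂ → L₂)
    (hB₁ : LinearIndependent Et B₁) (hB₂ : LinearIndependent Et B₂) :
    Fintype.card ι₁ + Fintype.card ι₂ ≤ Module.finrank E L := by
  classical
  let R : Subring L := V₁.toSubring ⊓ V₂.toSubring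
  have hRmk : ∀ g : L, g ∈ V₁ → g ∈ V₂ → g ∈ R := fun g h1 h2 => Subring.mem_inf.2 ⟨h1, h2⟩
  have hR1 : ∀ g : L, g ∈ R → g ∈ V₁ := fun g hg => (Subring.mem_inf.1 hg).1
  have hR2 : ∀ g : L, g ∈ R → g ∈ V₂ := fun g hg => (Subring.mem_inf.1 hg).2
  have hVR : ∀ a : E, a ∈ VE → algebraMap E L a ∈ R := fun a ha =>
    hRmk _ (hV₁ a ha) (hV₂ a ha)
  let ρ₁ : ↥R →+* L₁ := red₁.comp (Subring.inclusion (inf_le_left : R ≤ V₁.toSubring))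
  let ρ₂ : ↥R →+* L₂ := red₂.comp (Subring.inclusion (inf_le_right : R ≤ V₂.toSubring))
  let ρ : ↥R →+* L₁ × L₂ := ρ₁.prod ρ₂
  have hρ₁ : ∀ (g : L) (hg : g ∈ R), ρ₁ ⟨g, hg⟩ = red₁ ⟨g, hR1 g hg⟩ := fun g hg => rfl
  have hρ₂ : ∀ (g : L) (hg : g ∈ R), ρ₂ ⟨g, hg⟩ = red₂ ⟨g, hR2 g hg⟩ := fun g hg => rfl
  have hcompat : ∀ a : ↥VE, ρ (incR hVR a) = algebraMap Et (L₁ × L₂) (redE a) := by
    intro a
    refine Prod.ext ?_ ?_
    · exact hcompat₁ a _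
    · exact hcompat₂ a _
  -- the lifts
  have hL₁ : ∀ α, ∃ b : ↥R, ρ₁ b = B₁ α ∧ ρ₂ b = 0 := by
    intro α
    obtain ⟨y, hy⟩ := hsurj₁ (B₁ α)
    obtain ⟨b, hb₂, hb₁⟩ := exists_lift_plain V₂ V₁ h₂₁ h₁₂ (y : L) y.2
    have hbV₁ : b ∈ V₁ := mem_of_val_sub_lt V₁ y.2 hb₁
    have hbV₂ : b ∈ V₂ := (ValuationSubring.valuation_le_one_iff V₂ _).1 hb₂.le
    refine ⟨⟨b, hRmk b hbV₁ hbV₂⟩, ?_, ?_⟩
    · rw [hρ₁, ← hy]
      exact red_eq_of_val_sub_lt hker₁ ⟨b, hbV₁⟩ y hb₁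
    · rw [hρ₂]
      exact red_eq_zero_of_val_lt hker₂ ⟨b, hbV₂⟩ hb₂
  have hL₂ : ∀ β, ∃ b : ↥R, ρ₁ b = 0 ∧ ρ₂ b = B₂ β := by
    intro β
    obtain ⟨y, hy⟩ := hsurj₂ (B₂ β)
    obtain ⟨b, hb₁, hb₂⟩ := exists_lift_plain V₁ V₂ h₁₂ h₂₁ (y : L) y.2
    have hbV₂ : b ∈ V₂ := mem_of_val_sub_lt V₂ y.2 hb₂
    have hbV₁ : b ∈ V₁ := (ValuationSubring.valuation_le_one_iff V₁ _).1 hb₁.le
    refine ⟨⟨b, hRmk b hbV₁ hbV₂⟩, ?_, ?_⟩
    · rw [hρ₁]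
      exact red_eq_zero_of_val_lt hker₁ ⟨b, hbV₁⟩ hb₁
    · rw [hρ₂, ← hy]
      exact red_eq_of_val_sub_lt hker₂ ⟨b, hbV₂⟩ y hb₂
  choose b₁ hb₁₁ hb₁₂ using hL₁
  choose b₂ hb₂₁ hb₂₂ using hL₂
  let B : ι₁ ⊕ ι₂ → ↥R := Sum.elim b₁ b₂
  have hρB : (fun i => ρ (B i))
      = Sum.elim (LinearMap.inl Et L₁ L₂ ∘ B₁) (LinearMap.inr Et L₁ L₂ ∘ B₂) := by
    funext i
    rcases i with α | β
    · exact Prod.ext (hb₁₁ α) (hb₁₂ α)
    · exact Prod.ext (hb₂₁ β) (hb₂₂ β)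
  have hli : LinearIndependent Et (fun i => ρ (B i)) := by
    rw [hρB]
    exact linearIndependent_inl_union_inr' hB₁ hB₂
  have hliL : LinearIndependent E (fun i => ((B i : ↥R) : L)) := lat_li hVR hcompat B hli
  have := hliL.fintype_card_le_finrank
  rwa [Fintype.card_sum] at this

end FundIneq

end Fermat.Agent.BAD.H73
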