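import Fermat.Agent.BAD.H73_Beta
import Mathlib.FieldTheory.PurelyInseparable.Basic
import Mathlib.RingTheory.Norm.Transitivity

/-!
# Item 65 (BAD_q), glue for TOT-MOD (helper73): the `Fr`-twisted structure

`E ⊂ k((t))` a `φ`-stable field over the perfect field `k` of characteristic `q`.  Let `E'` be a
field with an isomorphism `e : E' ≃+* E`, and let `E` be an `E'`-algebra through `Fr ∘ e`
(`Fr : t ↦ t ^ q`).  Then

* `isPurelyInseparable_of_Fr` : `E / E'` is purely inseparable;
* `finrank_of_Fr` : `[E : E'] = q`, if `E` is separable over `k(x)` for one `x ∈ E` which is not a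
  series in `t ^ q`;
* `norm_of_Fr` : `N_{E/E'} g = e⁻¹ (φ g)`.

Abstract: `algebraMap_norm_of_isPurelyInseparable` : `N_{L/K}(x) = x ^ [L : K]` for a finite purely
inseparable extension.
-/

set_option autoImplicit false

noncomputable section

open ModularCurve AlgebraicCurve Polynomial IntermediateField

namespace Fermat.Agent.BAD.H73

section Abstract

/-- The norm of a finite purely inseparable extension: `N(x) = x ^ [L : K]`. -/
theorem algebraMap_norm_of_isPurelyInseparable {K L : Type*} [Field K] [Field L] [Algebra K L]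
    [IsPurelyInseparable K L] (q : ℕ) [ExpChar K q] (x : L) :
    algebraMap K L (Algebra.norm K x) = x ^ Module.finrank K L := by
  obtain ⟨n, hn⟩ := IsPurelyInseparable.minpoly_eq_X_sub_C_pow K q x
  have hsplit : ((minpoly K x).map (algebraMap K L)).Splits := by
    rw [hn]
    exact Splits.pow (Splits.X_sub_C _) _
  rw [Algebra.norm_eq_prod_roots L hsplit]
  have hroots : (minpoly K x).aroots L = (q ^ n) • ({x} : Multiset L) := by
    rw [aroots_def, hn, roots_pow, roots_X_sub_C]
  have hint : Algebra.IsIntegral K L := IsPurelyInseparable.isIntegral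
  have hx : IsIntegral K x := hint.isIntegral x
  have hdeg : (minpoly K x).natDegree = q ^ n := by
    have := congrArg natDegree hn
    rwa [natDegree_map, natDegree_pow, natDegree_X_sub_C, mul_one] at this
  rw [hroots, Multiset.prod_nsmul, Multiset.prod_singleton, ← pow_mul, ← hdeg,
    ← IntermediateField.adjoin.finrank hx, Module.finrank_mul_finrank]

/-- Separability transported along a compatible pair of ring homomorphisms. -/
theorem isSeparable_of_compat {A B L M : Type*} [Field A] [Field B] [Field L] [Field M]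
    [Algebra A L] [Algebra B M] (ι : A →+* B) (f : M →+* L)
    (hc : ∀ a : A, f (algebraMap B M (ι a)) = algebraMap A L a) (y : M)
    (hsep : IsSeparable A (f y)) : IsSeparable B y := by
  unfold IsSeparable at hsep ⊢
  have hsep' : ((minpoly A (f y)).map ι).Separable := hsep.map
  have hroot : aeval y ((minpoly A (f y)).map ι) = 0 := by
    apply f.injective
    rw [map_zero, aeval_def, Polynomial.hom_eval₂, Polynomial.eval₂_map]
    have e : (f.comp (algebraMap B M)).comp ι = algebraMap A L := RingHom.ext hc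
    rw [e, ← aeval_def]
    exact minpoly.aeval _ _
  exact hsep'.of_dvd (minpoly.dvd _ _ hroot)

end Abstract

section Twist

variable {k : Type*} [Field k] {q : ℕ} [Fact q.Prime] [CharP k q] [PerfectRing k q]
variable {E : IntermediateField k (LaurentSeries k)} (h : FrobStable q E)
variable {E' : Type*} [Field E'] [Algebra E' ↥E] (e : E' ≃+* ↥E)
variable (he : ∀ a : E', algebraMap E' ↥E a = FrE h (e a))

omit [Fact q.Prime] [PerfectRing k q] in
theorem charP_sub : CharP ↥E q :=
  charP_of_injective_algebraMap (algebraMap k ↥E).injective q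

omit [Fact q.Prime] [PerfectRing k q] [Algebra E' ↥E] in
include e in
theorem charP_of_equiv : CharP E' q :=
  have : CharP ↥E q := charP_sub
  charP_of_injective_ringHom (f := (e.symm : ↥E →+* E')) e.symm.injective q

include he in
/-- `x ^ q` is in the image of `E'`. -/
theorem pow_eq_algebraMap (x : ↥E) : x ^ q = algebraMap E' ↥E (e.symm (frobE h x)) := by
  rw [he, e.apply_symm_apply, FrE_frobE]

include e he in
/-- `E` is purely inseparable over `E'` (structure map `Fr ∘ e`). -/
theorem isPurelyInseparable_of_Fr : IsPurelyInseparable E' ↥E := by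
  have : CharP E' q := charP_of_equiv e
  rw [isPurelyInseparable_iff_pow_mem E' q]
  intro x
  exact ⟨1, e.symm (frobE h x), by rw [pow_one, ← pow_eq_algebraMap h e he]⟩

include e he in
/-- `N_{E/E'} g = e⁻¹ (φ g)` once `[E : E'] = q`. -/
theorem norm_of_Fr (hfin : Module.finrank E' ↥E = q) (g : ↥E) :
    Algebra.norm E' g = e.symm (frobE h g) := by
  have : CharP E' q := charP_of_equiv e
  have : IsPurelyInseparable E' ↥E := isPurelyInseparable_of_Fr h e he
  apply (algebraMap E' ↥E).injective
  rw [algebraMap_norm_of_isPurelyInseparable q g, hfin, pow_eq_algebraMap h e he]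

include e he in
/-- An element of `E` which is not a series in `t ^ q` is not in the image of `E'`. -/
theorem not_mem_range_of_coeff (x : ↥E) {n : ℤ} (hn : ¬ (q : ℤ) ∣ n)
    (hx : (x : LaurentSeries k).coeff n ≠ 0) (a : E') : algebraMap E' ↥E a ≠ x := by
  intro hax
  apply hx
  rw [← hax, he, coe_FrE]
  exact qExpand_coeff_of_not_dvd q _ hn

include e he in
/-- The constants are in the image of `E'`. -/
theorem algebraMap_const_eq (c : k) :
    algebraMap k ↥E c = algebraMap E' ↥E (e.symm (algebraMap k ↥E c)) := by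
  rw [he, e.apply_symm_apply, (FrE h).commutes]

include e he in
/-- `E = E'(x)` if `E / k(x)` is separable. -/
theorem adjoin_eq_top_of_Fr (x : ↥E)
    (hsep : ∀ y ∈ E, IsSeparable ↥(IntermediateField.adjoin k {(x : LaurentSeries k)}) y) :
    E'⟮x⟯ = ⊤ := by
  have hpi : IsPurelyInseparable E' ↥E := isPurelyInseparable_of_Fr h e he
  rw [eq_top_iff]
  intro y _
  -- the field `E'(x)` inside `k((t))`
  let TT : IntermediateField k (LaurentSeries k) :=
    Subfield.toIntermediateField ((E'⟮x⟯).toSubfield.map (E.val : ↥E →+* LaurentSeries k))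
      (fun c => ⟨algebraMap k ↥E c, by
        show algebraMap k ↥E c ∈ E'⟮x⟯
        rw [algebraMap_const_eq h e he c]
        exact (E'⟮x⟯).algebraMap_mem _, rfl⟩)
  have hle : IntermediateField.adjoin k {(x : LaurentSeries k)} ≤ TT := by
    rw [IntermediateField.adjoin_simple_le_iff]
    exact ⟨x, IntermediateField.mem_adjoin_simple_self E' x, rfl⟩
  have hleE : IntermediateField.adjoin k {(x : LaurentSeries k)} ≤ E := by
    rw [IntermediateField.adjoin_simple_le_iff]
    exact x.2
  have hT : ∀ a : ↥(IntermediateField.adjoin k {(x : LaurentSeries k)}),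
      (⟨(a : LaurentSeries k), hleE a.2⟩ : ↥E) ∈ E'⟮x⟯ := by
    intro a
    obtain ⟨b, hb, hba⟩ := hle a.2
    have : b = ⟨(a : LaurentSeries k), hleE a.2⟩ := Subtype.ext hba
    rw [← this]
    exact hb
  let ι : ↥(IntermediateField.adjoin k {(x : LaurentSeries k)}) →+* ↥(E'⟮x⟯) :=
    { toFun := fun a => ⟨⟨(a : LaurentSeries k), hleE a.2⟩, hT a⟩
      map_one' := rfl
      map_mul' := fun _ _ => rfl
      map_zero' := rfl
      map_add' := fun _ _ => rfl }
  have hsepT : IsSeparable ↥(E'⟮x⟯) y :=
    isSeparable_of_compat ι (E.val : ↥E →+* LaurentSeries k) (fun _ => rfl) y (hsep _ y.2)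
  obtain ⟨t, ht⟩ := IsPurelyInseparable.inseparable ↥(E'⟮x⟯) y hsepT
  rw [← ht]
  exact t.2

include e he in
/-- `[E'(x) : E'] = q` if `x` is not a series in `t ^ q`. -/
theorem finrank_adjoin_of_Fr (x : ↥E) {n : ℤ} (hn : ¬ (q : ℤ) ∣ n)
    (hx : (x : LaurentSeries k).coeff n ≠ 0) : Module.finrank E' ↥(E'⟮x⟯) = q := by
  have hq : q.Prime := Fact.out
  have : CharP E' q := charP_of_equiv e
  have hpi : IsPurelyInseparable E' ↥E := isPurelyInseparable_of_Fr h e he
  have hint : Algebra.IsIntegral E' ↥E := IsPurelyInseparable.isIntegral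
  have hxi : IsIntegral E' x := hint.isIntegral x
  rw [IntermediateField.adjoin.finrank hxi]
  obtain ⟨m, y₀, hm⟩ := IsPurelyInseparable.minpoly_eq_X_pow_sub_C E' q x
  have hdeg : (minpoly E' x).natDegree = q ^ m := by
    rw [hm, natDegree_X_pow_sub_C]
  -- `m ≤ 1`
  have hdvd : minpoly E' x ∣ X ^ q - C (e.symm (frobE h x)) := by
    apply minpoly.dvd
    rw [map_sub, map_pow, aeval_X, aeval_C, ← pow_eq_algebraMap h e he, sub_self]
  have hne : (X ^ q - C (e.symm (frobE h x)) : E'[X]) ≠ 0 :=
    X_pow_sub_C_ne_zero hq.pos _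
  have hle : q ^ m ≤ q := by
    have := natDegree_le_of_dvd hdvd hne
    rwa [hdeg, natDegree_X_pow_sub_C] at this
  have hm1 : m ≤ 1 := by
    by_contra hc
    have h2 : 2 ≤ m := by omega
    have h3 : q ^ 2 ≤ q ^ m := Nat.pow_le_pow_right hq.pos h2
    have h4 : q * 2 ≤ q * q := Nat.mul_le_mul_left q hq.two_le
    nlinarith [hq.two_le]
  -- `m ≠ 0`
  have hm0 : m ≠ 0 := by
    rintro rfl
    have h0 := minpoly.aeval E' x
    rw [hm, pow_zero, pow_one, map_sub, aeval_X, aeval_C, sub_eq_zero] at h0
    exact not_mem_range_of_coeff h e he x hn hx y₀ h0.symm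
  have : m = 1 := by omega
  rw [hdeg, this, pow_one]

include e he in
/-- **`[E : E'] = q`** for the structure map `Fr ∘ e`, if `E` is separable over `k(x)` for one
`x ∈ E` which is not a series in `t ^ q`. -/
theorem finrank_of_Fr (x : ↥E) {n : ℤ} (hn : ¬ (q : ℤ) ∣ n)
    (hx : (x : LaurentSeries k).coeff n ≠ 0)
    (hsep : ∀ y ∈ E, IsSeparable ↥(IntermediateField.adjoin k {(x : LaurentSeries k)}) y) :
    Module.finrank E' ↥E = q := by
  rw [← IntermediateField.finrank_top', ← adjoin_eq_top_of_Fr h e he x hsep]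
  exact finrank_adjoin_of_Fr h e he x hn hx

include e he in
/-- **`N_{E/E'} g = e⁻¹ (φ g)`** for the structure map `Fr ∘ e`. -/
theorem norm_of_Fr' (x : ↥E) {n : ℤ} (hn : ¬ (q : ℤ) ∣ n)
    (hx : (x : LaurentSeries k).coeff n ≠ 0)
    (hsep : ∀ y ∈ E, IsSeparable ↥(IntermediateField.adjoin k {(x : LaurentSeries k)}) y)
    (g : ↥E) : Algebra.norm E' g = e.symm (frobE h g) :=
  norm_of_Fr h e he (finrank_of_Fr h e he x hn hx hsep) g

end Twist

end Fermat.Agent.BAD.H73
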