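import Fermat.Agent.BAD.H79_Fsum

/-!
# Item 65, package CONS-ss (helper79): MAX, REG, VAL from total conservation

For `f ∈ R_z` (integral for both valuations, no pole on the fibre of `z`):
* `InR.const_mem` (MAX): the values of `f` on the fibre are integral;
* `InR.regAt₁`, `InR.regAt₂` (REG): the reductions of `f` are regular at `z`, `β z`;
* `InR.val_cases` (VAL): the reduction of the value of `f` at a place of the fibre is the value
  of one of the two reductions.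
-/

set_option autoImplicit false
set_option linter.style.haveILetI false

noncomputable section

open AlgebraicCurve

attribute [local instance] Classical.propDecidable

namespace Fermat.Agent.BAD.H79

open Fermat.Agent.RED.H17 Fermat.Agent.RED Fermat.Agent.BAD

namespace TotData

variable {K L k L₁ L₂ : Type*} [Field K] [Field L] [Algebra K L] [Field k] [Field L₁]
  [Algebra k L₁] [Field L₂] [Algebra k L₂] (T : TotData K L k L₁ L₂)

/-! ### Constants -/

theorem const_mem₂ {c : K} (h : algebraMap K L c ∈ T.b₁.V) : algebraMap K L c ∈ T.b₂.V :=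
  (T.const_mem c).mp h

theorem const_rd {c : K} (h : algebraMap K L c ∈ T.b₁.V) :
    ∃ a : k, T.p₁.rd (algebraMap K L c) = algebraMap k L₁ a ∧
      T.p₂.rd (algebraMap K L c) = algebraMap k L₂ a := by
  obtain ⟨a, ha⟩ := T.b₁.red_const c h
  have h₂ := (T.const_mem c).mp h
  refine ⟨a, ?_, ?_⟩
  · rw [T.p₁.rd_of_mem h]; exact ha
  · rw [T.p₂.rd_of_mem h₂]; exact T.const_red c h h₂ a ha

theorem exists_lift (a : k) :
    ∃ c : K, algebraMap K L c ∈ T.b₁.V ∧ algebraMap K L c ∈ T.b₂.V ∧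
      T.p₁.rd (algebraMap K L c) = algebraMap k L₁ a ∧
      T.p₂.rd (algebraMap K L c) = algebraMap k L₂ a := by
  obtain ⟨c, h, hc⟩ := T.b₁.const_surj a
  have h₂ := (T.const_mem c).mp h
  refine ⟨c, h, h₂, ?_, ?_⟩
  · rw [T.p₁.rd_of_mem h]; exact hc
  · rw [T.p₂.rd_of_mem h₂]; exact T.const_red c h h₂ a hc

/-- A constant of the maximal ideal (for the first valuation) is in the maximal ideal for the
second. -/
theorem const_rd₂_eq_zero {c : K} (h : algebraMap K L c ∈ T.b₁.V)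
    (h0 : T.p₁.rd (algebraMap K L c) = 0) : T.p₂.rd (algebraMap K L c) = 0 := by
  obtain ⟨a, ha₁, ha₂⟩ := T.const_rd h
  rw [ha₁] at h0
  have : a = 0 := by
    have h1 : algebraMap k L₁ a = algebraMap k L₁ 0 := by rw [h0, map_zero]
    exact (algebraMap k L₁).injective h1
  rw [ha₂, this, map_zero]

theorem const_rd₁_eq_zero {c : K} (h : algebraMap K L c ∈ T.b₁.V)
    (h0 : T.p₂.rd (algebraMap K L c) = 0) : T.p₁.rd (algebraMap K L c) = 0 := by
  obtain ⟨a, ha₁, ha₂⟩ := T.const_rd h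
  rw [ha₂] at h0
  have : a = 0 := by
    have h1 : algebraMap k L₂ a = algebraMap k L₂ 0 := by rw [h0, map_zero]
    exact (algebraMap k L₂).injective h1
  rw [ha₁, this, map_zero]

/-! ### Total conservation as a sum -/

theorem tot_fsum (hP : HasPrincipalDivisors K L) {u : L} (h₁ : T.p₁.IsGU u) {c : K}
    (h₂ : T.p₂.IsGU (algebraMap K L c * u)) (z : Place k L₁) :
    fsum {P | T.ρ P = z} (dv hP u) =
      z.ord (T.p₁.rd u) + (T.β z).ord (T.p₂.rd (algebraMap K L c * u)) := by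
  have hm₁ : u ∈ T.b₁.V := h₁.1
  have hm₂ : algebraMap K L c * u ∈ T.b₂.V := h₂.1
  have e₁ : T.p₁.rd u = T.b₁.red ⟨u, hm₁⟩ := T.p₁.rd_of_mem hm₁
  have e₂ : T.p₂.rd (algebraMap K L c * u) = T.b₂.red ⟨_, hm₂⟩ := T.p₂.rd_of_mem hm₂
  have h := T.tot ⟨u, hm₁⟩ ⟨algebraMap K L c * u, hm₂⟩
    (by rw [← e₁]; exact h₁.2) (by rw [← e₂]; exact h₂.2)
    ⟨c, rfl⟩ (dv hP u) (fun P => dv_apply hP u P) z
  rw [mapDomain_eq_fsum] at h
  rw [h, e₁, e₂]

theorem tot_bal (hP : HasPrincipalDivisors K L) {u : L} (h₁ : T.p₁.IsGU u)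
    (h₂ : T.p₂.IsGU u) (z : Place k L₁) :
    fsum {P | T.ρ P = z} (dv hP u) = z.ord (T.p₁.rd u) + (T.β z).ord (T.p₂.rd u) := by
  have h2' : T.p₂.IsGU (algebraMap K L 1 * u) := by rwa [map_one, one_mul]
  have := T.tot_fsum hP h₁ h2' z
  rwa [map_one, one_mul] at this

/-! ### The ring `R_z` -/

variable {T}

theorem InR.mem₁ {z : Place k L₁} {f : L} (h : T.InR z f) : f ∈ T.p₁.V := h.1

theorem InR.mem₂ {z : Place k L₁} {f : L} (h : T.InR z f) : f ∈ T.p₂.V := h.2.1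

theorem InR.reg {z : Place k L₁} {f : L} (h : T.InR z f) {P : Place K L} (hP : T.ρ P = z) :
    RegAt P f := h.2.2 P hP

theorem InR.add {z : Place k L₁} {f g : L} (hf : T.InR z f) (hg : T.InR z g) :
    T.InR z (f + g) :=
  ⟨T.b₁.V.add_mem _ _ hf.1 hg.1, T.b₂.V.add_mem _ _ hf.2.1 hg.2.1,
    fun P hP => (hf.2.2 P hP).add (hg.2.2 P hP)⟩

theorem InR.sub {z : Place k L₁} {f g : L} (hf : T.InR z f) (hg : T.InR z g) :
    T.InR z (f - g) :=
  ⟨T.b₁.V.sub_mem hf.1 hg.1, T.b₂.V.sub_mem hf.2.1 hg.2.1,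
    fun P hP => (hf.2.2 P hP).sub (hg.2.2 P hP)⟩

theorem InR.mul {z : Place k L₁} {f g : L} (hf : T.InR z f) (hg : T.InR z g) :
    T.InR z (f * g) :=
  ⟨T.b₁.V.mul_mem _ _ hf.1 hg.1, T.b₂.V.mul_mem _ _ hf.2.1 hg.2.1,
    fun P hP => (hf.2.2 P hP).mul (hg.2.2 P hP)⟩

theorem InR.pow {z : Place k L₁} {f : L} (hf : T.InR z f) (n : ℕ) : T.InR z (f ^ n) :=
  ⟨T.b₁.V.pow_mem hf.1 n, T.b₂.V.pow_mem hf.2.1 n, fun P hP => (hf.2.2 P hP).pow n⟩

variable (T) in
theorem inR_const (z : Place k L₁) {c : K} (h : algebraMap K L c ∈ T.b₁.V) :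
    T.InR z (algebraMap K L c) :=
  ⟨h, T.const_mem₂ h, fun P _ => regAt_algebraMap P c⟩

variable (T) in
theorem inR_one (z : Place k L₁) : T.InR z (1 : L) :=
  ⟨T.b₁.V.one_mem, T.b₂.V.one_mem, fun P _ => regAt_one P⟩

theorem InR.ord_nonneg {z : Place k L₁} {f : L} (h : T.InR z f) {P : Place K L}
    (hP : T.ρ P = z) : 0 ≤ P.ord f := (h.2.2 P hP).ord_nonneg

/-- **MAX**: the values of `f ∈ R_z` on the fibre of `z` are integral. -/
theorem InR.const_mem (hP : HasPrincipalDivisors K L) {z : Place k L₁} {f : L}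
    (hf : T.InR z f) {P : Place K L} (hPz : T.ρ P = z) {a : K}
    (ha : VanAt P (f - algebraMap K L a)) : algebraMap K L a ∈ T.b₁.V := by
  by_contra hne
  obtain ⟨h1, h2⟩ := T.p₁.inv_const_of_not_mem hne
  have h2' : T.p₂.rd (algebraMap K L a⁻¹) = 0 := T.const_rd₂_eq_zero h1 h2
  have h1' : algebraMap K L a⁻¹ ∈ T.p₂.V := T.const_mem₂ h1
  have ha0 : a ≠ 0 := by
    rintro rfl
    rw [map_zero] at hne
    exact hne T.b₁.V.zero_mem
  set g : L := algebraMap K L a⁻¹ * f - 1 with hg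
  have hg1 : algebraMap K L a⁻¹ * f ∈ T.p₁.V := T.p₁.V.mul_mem _ _ h1 hf.1
  have hg2 : algebraMap K L a⁻¹ * f ∈ T.p₂.V := T.p₂.V.mul_mem _ _ h1' hf.2.1
  have hr1 : T.p₁.rd g = -1 := by
    rw [hg, T.p₁.rd_sub hg1 T.p₁.V.one_mem, T.p₁.rd_mul h1 hf.1, h2, zero_mul, T.p₁.rd_one,
      zero_sub]
  have hr2 : T.p₂.rd g = -1 := by
    rw [hg, T.p₂.rd_sub hg2 T.p₂.V.one_mem, T.p₂.rd_mul h1' hf.2.1, h2', zero_mul, T.p₂.rd_one,
      zero_sub]
  have hGU1 : T.p₁.IsGU g :=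
    ⟨T.p₁.V.sub_mem hg1 T.p₁.V.one_mem, by rw [hr1]; exact neg_ne_zero.mpr one_ne_zero⟩
  have hGU2 : T.p₂.IsGU g :=
    ⟨T.p₂.V.sub_mem hg2 T.p₂.V.one_mem, by rw [hr2]; exact neg_ne_zero.mpr one_ne_zero⟩
  have htot := T.tot_bal hP hGU1 hGU2 z
  have ho1 : z.ord (T.p₁.rd g) = 0 := by
    rw [hr1, show (-1 : L₁) = algebraMap k L₁ (-1) by rw [map_neg, map_one]]
    exact ord_algebraMap z _
  have ho2 : (T.β z).ord (T.p₂.rd g) = 0 := by
    rw [hr2, show (-1 : L₂) = algebraMap k L₂ (-1) by rw [map_neg, map_one]]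
    exact ord_algebraMap _ _
  rw [ho1, ho2, add_zero] at htot
  have hreg : ∀ P' ∈ {P | T.ρ P = z}, 0 ≤ dv hP g P' := by
    intro P' hP'
    rw [dv_apply]
    exact (((regAt_algebraMap P' a⁻¹).mul (hf.2.2 P' hP')).sub (regAt_one P')).ord_nonneg
  have h3 := eq_zero_of_fsum_eq_zero hreg (le_of_eq htot) (P := P) hPz
  rw [dv_apply] at h3
  have h4 : g = algebraMap K L a⁻¹ * (f - algebraMap K L a) := by
    rw [hg, mul_sub, ← map_mul, inv_mul_cancel₀ ha0, map_one]
  have h5 : VanAt P g := by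
    rw [h4]
    exact (regAt_algebraMap P a⁻¹).mul_vanAt ha
  have := h5.ord_pos hGU1.ne_zero
  omega

/-- `f - a ∈ R_z` for a value `a` of `f` on the fibre. -/
theorem InR.sub_value (hP : HasPrincipalDivisors K L) {z : Place k L₁} {f : L}
    (hf : T.InR z f) {P : Place K L} (hPz : T.ρ P = z) {a : K}
    (ha : VanAt P (f - algebraMap K L a)) : T.InR z (f - algebraMap K L a) :=
  hf.sub (T.inR_const z (hf.const_mem hP hPz ha))

/-- A subsingleton set of "bad constants". -/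
private theorem finite_bad {F' : Type*} [Field F'] [Algebra k F'] (Q : Place k F') (h : F') :
    ({a : k | h = algebraMap k F' a} ∪ {a : k | VanAt Q (h - algebraMap k F' a)}).Finite := by
  refine Set.Finite.union (Set.Subsingleton.finite ?_) (Set.Subsingleton.finite ?_)
  · intro a ha b hb
    rw [Set.mem_ofPred_eq] at ha hb
    exact (algebraMap k F').injective (ha.symm.trans hb)
  · intro a ha b hb
    exact value_unique Q ha hb

/-- **REG**: the two reductions of `f ∈ R_z` are regular at `z` and at `β z`. -/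
theorem InR.regAt [Infinite k] (hP : HasPrincipalDivisors K L) {z : Place k L₁} {f : L}
    (hf : T.InR z f) : RegAt z (T.p₁.rd f) ∧ RegAt (T.β z) (T.p₂.rd f) := by
  have hfin := (finite_bad z (T.p₁.rd f)).union (finite_bad (T.β z) (T.p₂.rd f))
  obtain ⟨α, hα⟩ := hfin.exists_notMem
  simp only [Set.mem_union, Set.mem_ofPred_eq, not_or] at hα
  obtain ⟨⟨hα1, hα2⟩, hα3, hα4⟩ := hα
  obtain ⟨a, ha1, ha2, hr1, hr2⟩ := T.exists_lift α
  set g : L := f - algebraMap K L a with hg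
  have hgR : T.InR z g := hf.sub (T.inR_const z ha1)
  have hr1' : T.p₁.rd g = T.p₁.rd f - algebraMap k L₁ α := by
    rw [hg, T.p₁.rd_sub hf.1 ha1, hr1]
  have hr2' : T.p₂.rd g = T.p₂.rd f - algebraMap k L₂ α := by
    rw [hg, T.p₂.rd_sub hf.2.1 ha2, hr2]
  have hGU1 : T.p₁.IsGU g := ⟨hgR.1, by rw [hr1']; exact sub_ne_zero.mpr hα1⟩
  have hGU2 : T.p₂.IsGU g := ⟨hgR.2.1, by rw [hr2']; exact sub_ne_zero.mpr hα3⟩
  have htot := T.tot_bal hP hGU1 hGU2 z
  have hnn : 0 ≤ fsum {P | T.ρ P = z} (dv hP g) := by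
    refine fsum_nonneg fun P' hP' => ?_
    rw [dv_apply]
    exact hgR.ord_nonneg hP'
  have ho1 : z.ord (T.p₁.rd g) ≤ 0 := by
    by_contra hcon
    push Not at hcon
    exact hα2 (by rw [← hr1']; exact vanAt_of_ord_pos hcon)
  have ho2 : (T.β z).ord (T.p₂.rd g) ≤ 0 := by
    by_contra hcon
    push Not at hcon
    exact hα4 (by rw [← hr2']; exact vanAt_of_ord_pos hcon)
  have e1 : T.p₁.rd f = T.p₁.rd g + algebraMap k L₁ α := by rw [hr1']; ring
  have e2 : T.p₂.rd f = T.p₂.rd g + algebraMap k L₂ α := by rw [hr2']; ring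
  constructor
  · rw [e1]
    exact (regAt_of_ord_nonneg (by omega)).add (regAt_algebraMap z α)
  · rw [e2]
    exact (regAt_of_ord_nonneg (by omega)).add (regAt_algebraMap _ α)

theorem InR.regAt₁ [Infinite k] (hP : HasPrincipalDivisors K L) {z : Place k L₁} {f : L}
    (hf : T.InR z f) : RegAt z (T.p₁.rd f) := (hf.regAt hP).1

theorem InR.regAt₂ [Infinite k] (hP : HasPrincipalDivisors K L) {z : Place k L₁} {f : L}
    (hf : T.InR z f) : RegAt (T.β z) (T.p₂.rd f) := (hf.regAt hP).2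

/-- If `f ∈ R_z` vanishes at a place of the fibre, one of the two reductions vanishes. -/
theorem InR.vanAt_cases [Infinite k] (hP : HasPrincipalDivisors K L) {z : Place k L₁} {f : L}
    (hf : T.InR z f) {P : Place K L} (hPz : T.ρ P = z) (hfP : VanAt P f) :
    VanAt z (T.p₁.rd f) ∨ VanAt (T.β z) (T.p₂.rd f) := by
  by_cases h1 : T.p₁.rd f = 0
  · left; rw [h1]; exact vanAt_zero z
  by_cases h2 : T.p₂.rd f = 0
  · right; rw [h2]; exact vanAt_zero _
  have hGU1 : T.p₁.IsGU f := ⟨hf.1, h1⟩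
  have hGU2 : T.p₂.IsGU f := ⟨hf.2.1, h2⟩
  have htot := T.tot_bal hP hGU1 hGU2 z
  have hle : dv hP f P ≤ fsum {P | T.ρ P = z} (dv hP f) :=
    le_fsum (fun P' hP' => by rw [dv_apply]; exact hf.ord_nonneg hP') hPz
  rw [dv_apply] at hle
  have hpos := hfP.ord_pos hGU1.ne_zero
  have hn1 := (hf.regAt₁ hP).ord_nonneg
  have hn2 := (hf.regAt₂ hP).ord_nonneg
  by_cases h3 : 0 < z.ord (T.p₁.rd f)
  · exact Or.inl (vanAt_of_ord_pos h3)
  · exact Or.inr (vanAt_of_ord_pos (by omega))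

/-- **VAL**: the reduction of the value of `f ∈ R_z` at a place of the fibre is the value of
one of the two reductions. -/
theorem InR.val_cases [Infinite k] (hP : HasPrincipalDivisors K L) {z : Place k L₁} {f : L}
    (hf : T.InR z f) {P : Place K L} (hPz : T.ρ P = z) {a : K}
    (ha : VanAt P (f - algebraMap K L a)) :
    VanAt z (T.p₁.rd f - T.p₁.rd (algebraMap K L a)) ∨
      VanAt (T.β z) (T.p₂.rd f - T.p₂.rd (algebraMap K L a)) := by
  have hmem := hf.const_mem hP hPz ha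
  have hR := hf.sub_value hP hPz ha
  have := hR.vanAt_cases hP hPz ha
  rwa [T.p₁.rd_sub hf.1 hmem, T.p₂.rd_sub hf.2.1 (T.const_mem₂ hmem)] at this

end TotData

end Fermat.Agent.BAD.H79
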