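import Fermat.Agent.BAD.H79_Sides

/-!
# Item 65, package CONS-ss (helper79): coordinates and cut-offs over a point which is not a node

Over `z` with a cut-off `ε`:
* `exists_coord_at` : for `P` on the first side, a function `s`, unit for both valuations, with
  `ord_z (red₁ s) = 1`, whose only zero on the fibre is a simple zero at `P`;
* `exists_cut` : for finitely many places `Q` of the second side and multiplicities `n Q`, a
  function `H ∈ R_z` with value `1` at `z` (first component) and `ord_Q H ≥ n Q`;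
* `exists_unit_prod` : a product of coordinates with prescribed orders on the first side.
-/

set_option autoImplicit false
set_option linter.style.haveILetI false

noncomputable section

open AlgebraicCurve

attribute [local instance] Classical.propDecidable

namespace Fermat.Agent.BAD.H79

open Fermat.Agent.RED.H17 Fermat.Agent.RED Fermat.Agent.BAD

section GU

variable {K F k F' : Type*} [Field K] [Field F] [Algebra K F] [Field k] [Field F']
  [Algebra k F'] {S : PRed K F k F'}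

theorem isGU_zpow {f : F} (h : S.IsGU f) (n : ℤ) :
    S.IsGU (f ^ n) ∧ S.rd (f ^ n) = S.rd f ^ n := by
  cases n with
  | ofNat m =>
    rw [Int.ofNat_eq_natCast, zpow_natCast, zpow_natCast]
    exact ⟨h.pow m, S.rd_pow h.1 m⟩
  | negSucc m =>
    rw [zpow_negSucc, zpow_negSucc]
    refine ⟨(h.pow (m + 1)).inv, ?_⟩
    rw [(h.pow (m + 1)).rd_inv, S.rd_pow h.1]

theorem vanAt_iff_ordGe {K F : Type*} [Field K] [Field F] [Algebra K F] (v : Place K F)
    (f : F) : VanAt v f ↔ H51.OrdGe v 1 f := by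
  rw [vanAt_iff_ord]
  unfold H51.OrdGe
  constructor
  · rintro (h | h)
    · exact Or.inl h
    · exact Or.inr (by omega)
  · rintro (h | h)
    · exact Or.inl h
    · exact Or.inr (by omega)

end GU

namespace TotData

variable {K L k L₁ L₂ : Type*} [Field K] [Field L] [Algebra K L] [Field k] [Field L₁]
  [Algebra k L₁] [Field L₂] [Algebra k L₂] {T : TotData K L k L₁ L₂}

/-- The places of the fibre of `z` on the first side. -/
def S₁ (T : TotData K L k L₁ L₂) (z : Place k L₁) : Set (Place K L) :=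
  {P | T.ρ P = z ∧ T.OnSide₁ P}

/-- The places of the fibre of `z` on the second side. -/
def S₂ (T : TotData K L k L₁ L₂) (z : Place k L₁) : Set (Place K L) :=
  {P | T.ρ P = z ∧ T.OnSide₂ P}

/-- `H ∈ R_z` with value `1` at `z` on the first component. -/
structure IsCut (T : TotData K L k L₁ L₂) (z : Place k L₁) (H : L) : Prop where
  inR : T.InR z H
  van₁ : VanAt z (T.p₁.rd H - 1)

theorem IsEps.isCut {z : Place k L₁} {ε : L} (h : T.IsEps z ε) : T.IsCut z ε := ⟨h.inR, h.van₁⟩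

variable (T) in
theorem isCut_one (z : Place k L₁) : T.IsCut z (1 : L) :=
  ⟨T.inR_one z, by rw [T.p₁.rd_one, sub_self]; exact vanAt_zero z⟩

namespace IsCut

variable {z : Place k L₁} {H H' : L}

theorem regAt₁ (h : T.IsCut z H) : RegAt z (T.p₁.rd H) := by
  have h1 : VanAt z (T.p₁.rd H - algebraMap k L₁ 1) := by rw [map_one]; exact h.van₁
  exact RegAt.of_vanAt_sub h1

theorem not_vanAt₁ (h : T.IsCut z H) : ¬ VanAt z (T.p₁.rd H) := by
  intro h0
  have := h0.sub h.van₁
  rw [sub_sub_cancel] at this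
  have h1 : VanAt z (algebraMap k L₁ 1) := by rwa [map_one]
  exact one_ne_zero (const_eq_zero_of_vanAt h1)

theorem rd₁_ne_zero (h : T.IsCut z H) : T.p₁.rd H ≠ 0 := by
  intro h0
  apply h.not_vanAt₁
  rw [h0]
  exact vanAt_zero z

theorem isGU₁ (h : T.IsCut z H) : T.p₁.IsGU H := ⟨h.inR.1, h.rd₁_ne_zero⟩

theorem ne_zero (h : T.IsCut z H) : H ≠ 0 := h.isGU₁.ne_zero

theorem ord₁ (h : T.IsCut z H) : z.ord (T.p₁.rd H) = 0 := by
  have h1 := h.regAt₁.ord_nonneg
  have h2 : ¬ 0 < z.ord (T.p₁.rd H) := fun hpos => h.not_vanAt₁ (vanAt_of_ord_pos hpos)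
  omega

theorem mul (h : T.IsCut z H) (h' : T.IsCut z H') : T.IsCut z (H * H') := by
  refine ⟨h.inR.mul h'.inR, ?_⟩
  rw [T.p₁.rd_mul h.inR.1 h'.inR.1]
  have e : T.p₁.rd H * T.p₁.rd H' - 1 = (T.p₁.rd H - 1) * T.p₁.rd H' + (T.p₁.rd H' - 1) := by
    ring
  rw [e]
  exact (h.van₁.mul_regAt h'.regAt₁).add h'.van₁

theorem pow (h : T.IsCut z H) (n : ℕ) : T.IsCut z (H ^ n) := by
  induction n with
  | zero => rw [pow_zero]; exact T.isCut_one z
  | succ n ih => rw [pow_succ]; exact ih.mul h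

/-- A cut has no zero on the first side. -/
theorem ord_eq_zero (h : T.IsCut z H) {P : Place K L} (hP : P ∈ T.S₁ z) : P.ord H = 0 := by
  obtain ⟨hPz, hS⟩ := hP
  subst hPz
  have h1 := h.inR.ord_nonneg (P := P) rfl
  by_contra hne
  have hpos : 0 < P.ord H := by omega
  have hv : VanAt P (H - algebraMap K L 0) := by
    rw [map_zero, sub_zero]; exact vanAt_of_ord_pos hpos
  have := hS H h.inR 0 hv
  rw [map_zero, T.p₁.rd_zero, sub_zero] at this
  exact h.not_vanAt₁ this

end IsCut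

/-- The cut-off vanishing at a given place of the second side. -/
theorem IsEps.exists_cut_at (hP : HasPrincipalDivisors K L) (hd : ∀ v : Place K L, v.deg = 1)
    {z : Place k L₁} {ε : L} (hε : T.IsEps z ε) {Q : Place K L} (hQz : T.ρ Q = z)
    (hQ : T.OnSide₂ Q) : ∃ e : L, T.IsCut z e ∧ 1 ≤ Q.ord e := by
  obtain ⟨a, ha⟩ := exists_value Q (hd Q) (hε.inR.reg hQz)
  have h0 := (hε.value₂ hP hQz hQ ha).1
  have hmem := hε.inR.const_mem hP hQz ha
  have hR := hε.inR.sub_value hP hQz ha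
  have hcut : T.IsCut z (ε - algebraMap K L a) := by
    refine ⟨hR, ?_⟩
    rw [T.p₁.rd_sub hε.inR.1 hmem, h0, sub_zero]
    exact hε.van₁
  refine ⟨_, hcut, ?_⟩
  have := ha.ord_pos hcut.ne_zero
  omega

/-- Cutting finitely many places of the second side with multiplicities. -/
theorem IsEps.exists_cut (hP : HasPrincipalDivisors K L) (hd : ∀ v : Place K L, v.deg = 1)
    {z : Place k L₁} {ε : L} (hε : T.IsEps z ε) (n : Place K L → ℕ) (S : Finset (Place K L))
    (hS : ∀ Q ∈ S, T.ρ Q = z ∧ T.OnSide₂ Q) :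
    ∃ H : L, T.IsCut z H ∧ ∀ Q ∈ S, (n Q : ℤ) ≤ Q.ord H := by
  induction S using Finset.induction_on with
  | empty => exact ⟨1, T.isCut_one z, fun Q hQ => absurd hQ (Finset.notMem_empty Q)⟩
  | insert Q S hQS ih =>
    obtain ⟨H, hH, hHS⟩ := ih fun Q' hQ' => hS Q' (Finset.mem_insert_of_mem hQ')
    obtain ⟨hQz, hQ2⟩ := hS Q (Finset.mem_insert_self Q S)
    obtain ⟨e, he, heQ⟩ := hε.exists_cut_at hP hd hQz hQ2
    refine ⟨H * e ^ n Q, hH.mul (he.pow _), fun Q' hQ' => ?_⟩
    have hord : Q'.ord (H * e ^ n Q) = Q'.ord H + n Q * Q'.ord e := by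
      rw [Q'.ord_mul hH.ne_zero (pow_ne_zero _ he.ne_zero), ord_pow]
    rw [hord]
    rcases Finset.mem_insert.mp hQ' with rfl | hQ''
    · have h1 := hH.inR.ord_nonneg (P := Q') hQz
      have h2 : (n Q' : ℤ) * 1 ≤ n Q' * Q'.ord e :=
        mul_le_mul_of_nonneg_left heQ (Int.natCast_nonneg _)
      omega
    · have h1 := hHS Q' hQ''
      have h2 := he.inR.ord_nonneg (P := Q') (hS Q' hQ').1
      have h3 : (0 : ℤ) ≤ n Q * Q'.ord e := mul_nonneg (Int.natCast_nonneg _) h2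
      omega

/-- A coordinate of the first component at `z`: `u ∈ R_z`, `ord_z (red₁ u) = 1`, with value `1`
at `β z` on the second component. -/
theorem IsEps.exists_coord [Infinite k] (hP : HasPrincipalDivisors K L)
    {z : Place k L₁} {ε : L} (hε : T.IsEps z ε) :
    ∃ u : L, T.InR z u ∧ z.ord (T.p₁.rd u) = 1 ∧ VanAt (T.β z) (T.p₂.rd u - 1) := by
  obtain ⟨t, ht₁, ht₂, htreg, htord⟩ := T.unif z
  have htR : T.InR z t := ⟨ht₁, ht₂, fun P hPz => regAt_of_ord_nonneg (htreg P hPz)⟩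
  have htord' : z.ord (T.p₁.rd t) = 1 := by rw [T.p₁.rd_of_mem ht₁]; exact htord
  have h1R : T.InR z (1 - ε) := (T.inR_one z).sub hε.inR
  have h2R : T.InR z ((1 - ε) ^ 2) := h1R.pow 2
  have h3R : T.InR z (t * ε) := htR.mul hε.inR
  refine ⟨t * ε + (1 - ε) ^ 2, h3R.add h2R, ?_, ?_⟩
  · rw [T.p₁.rd_add h3R.1 h2R.1, T.p₁.rd_mul htR.1 hε.inR.1, T.p₁.rd_pow h1R.1,
      T.p₁.rd_sub T.p₁.V.one_mem hε.inR.1, T.p₁.rd_one]
    have ht0 : T.p₁.rd t ≠ 0 := by
      intro h0
      rw [h0, Place.ord_zero] at htord'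
      exact zero_ne_one htord'
    have hf0 : T.p₁.rd t * T.p₁.rd ε ≠ 0 := mul_ne_zero ht0 hε.rd₁_ne_zero
    have hford : z.ord (T.p₁.rd t * T.p₁.rd ε) = 1 := by
      rw [z.ord_mul ht0 hε.rd₁_ne_zero, htord', hε.isCut.ord₁, add_zero]
    have hg : H51.OrdGe z (z.ord (T.p₁.rd t * T.p₁.rd ε) + 1) ((1 - T.p₁.rd ε) ^ 2) := by
      rw [hford]
      have h1 : H51.OrdGe z 1 (1 - T.p₁.rd ε) := by
        have := ((vanAt_iff_ordGe z _).mp hε.van₁).neg
        rwa [neg_sub] at this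
      have := H51.ordGe_pow h1 2
      simpa using this
    rw [(H51.ord_add_eq z hf0 hg).2, hford]
  · rw [T.p₂.rd_add h3R.2.1 h2R.2.1, T.p₂.rd_mul htR.2.1 hε.inR.2.1, T.p₂.rd_pow h1R.2.1,
      T.p₂.rd_sub T.p₂.V.one_mem hε.inR.2.1, T.p₂.rd_one]
    have e : T.p₂.rd t * T.p₂.rd ε + (1 - T.p₂.rd ε) ^ 2 - 1
        = T.p₂.rd ε * (T.p₂.rd t + T.p₂.rd ε - (1 + 1)) := by ring
    rw [e]
    exact hε.van₂.mul_regAt ((((htR.regAt₂ hP).add hε.van₂.regAt).sub
      ((regAt_one _).add (regAt_one _))))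

/-- A coordinate with its zero at a given place of the first side. -/
theorem IsEps.exists_coord_at [Infinite k] (hP : HasPrincipalDivisors K L)
    (hd : ∀ v : Place K L, v.deg = 1)
    {z : Place k L₁} {ε : L} (hε : T.IsEps z ε) {P : Place K L} (hPS : P ∈ T.S₁ z) :
    ∃ s : L, T.p₁.IsGU s ∧ T.p₂.IsGU s ∧ z.ord (T.p₁.rd s) = 1 ∧
      ∀ P', T.ρ P' = z → P'.ord s = if P' = P then 1 else 0 := by
  obtain ⟨u, huR, hu1, hu2⟩ := hε.exists_coord hP
  obtain ⟨hPz, hS⟩ := hPS
  obtain ⟨a, ha⟩ := exists_value P (hd P) (huR.reg hPz)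
  have hmem := huR.const_mem hP hPz ha
  have hR := huR.sub_value hP hPz ha
  -- the value of `u` at `P` is in the maximal ideal
  have hra : T.p₁.rd (algebraMap K L a) = 0 := by
    obtain ⟨α, hα₁, -⟩ := T.const_rd hmem
    have h1 : VanAt z (T.p₁.rd u - T.p₁.rd (algebraMap K L a)) := by
      have := hS u (hPz ▸ huR) a ha
      rwa [hPz] at this
    have h2 : VanAt z (T.p₁.rd u) := vanAt_of_ord_pos (by omega)
    have h3 := h2.sub h1
    rw [sub_sub_cancel, hα₁] at h3
    rw [hα₁, const_eq_zero_of_vanAt h3, map_zero]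
  have hra' : T.p₂.rd (algebraMap K L a) = 0 := T.const_rd₂_eq_zero hmem hra
  have hr1 : T.p₁.rd (u - algebraMap K L a) = T.p₁.rd u := by
    rw [T.p₁.rd_sub huR.1 hmem, hra, sub_zero]
  have hr2 : T.p₂.rd (u - algebraMap K L a) = T.p₂.rd u := by
    rw [T.p₂.rd_sub huR.2.1 (T.const_mem₂ hmem), hra', sub_zero]
  have hu0 : T.p₁.rd u ≠ 0 := by
    intro h0
    rw [h0, Place.ord_zero] at hu1
    exact zero_ne_one hu1
  have hnv : ¬ VanAt (T.β z) (T.p₂.rd u) := by
    intro h0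
    have := h0.sub hu2
    rw [sub_sub_cancel] at this
    have h1 : VanAt (T.β z) (algebraMap k L₂ 1) := by rwa [map_one]
    exact one_ne_zero (const_eq_zero_of_vanAt h1)
  have hu0' : T.p₂.rd u ≠ 0 := by
    intro h0
    apply hnv
    rw [h0]
    exact vanAt_zero _
  have hGU1 : T.p₁.IsGU (u - algebraMap K L a) := ⟨hR.1, by rw [hr1]; exact hu0⟩
  have hGU2 : T.p₂.IsGU (u - algebraMap K L a) := ⟨hR.2.1, by rw [hr2]; exact hu0'⟩
  have ho2 : (T.β z).ord (T.p₂.rd u) = 0 := by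
    have h1 := (huR.regAt₂ hP).ord_nonneg
    have h2 : ¬ 0 < (T.β z).ord (T.p₂.rd u) := fun hpos => hnv (vanAt_of_ord_pos hpos)
    omega
  have htot := T.tot_bal hP hGU1 hGU2 z
  rw [hr1, hr2, hu1, ho2, add_zero] at htot
  have hnn : ∀ P' ∈ {P | T.ρ P = z}, 0 ≤ dv hP (u - algebraMap K L a) P' := by
    intro P' hP'
    rw [dv_apply]
    exact hR.ord_nonneg hP'
  have hpos : 1 ≤ P.ord (u - algebraMap K L a) := by
    have := ha.ord_pos hGU1.ne_zero
    omega
  have hle := le_fsum hnn (P := P) hPz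
  rw [htot, dv_apply] at hle
  refine ⟨_, hGU1, hGU2, by rw [hr1]; exact hu1, fun P' hP' => ?_⟩
  split_ifs with hPP
  · rw [hPP]; omega
  · have h2 := add_le_fsum hnn (P := P) (P' := P') hPz hP' hPP
    rw [htot, dv_apply, dv_apply] at h2
    have h3 := hR.ord_nonneg hP'
    omega

/-- A product of coordinates with prescribed orders on the first side. -/
theorem IsEps.exists_unit_prod [Infinite k] (hP : HasPrincipalDivisors K L)
    (hd : ∀ v : Place K L, v.deg = 1)
    {z : Place k L₁} {ε : L} (hε : T.IsEps z ε) (m : Place K L → ℤ) (S : Finset (Place K L))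
    (hS : ∀ P ∈ S, P ∈ T.S₁ z) :
    ∃ U : L, T.p₁.IsGU U ∧ T.p₂.IsGU U ∧ z.ord (T.p₁.rd U) = ∑ P ∈ S, m P ∧
      ∀ P', T.ρ P' = z → P'.ord U = if P' ∈ S then m P' else 0 := by
  induction S using Finset.induction_on with
  | empty =>
    refine ⟨1, T.p₁.isGU_one, T.p₂.isGU_one, ?_, fun P' _ => ?_⟩
    · rw [T.p₁.rd_one, Place.ord_one, Finset.sum_empty]
    · rw [Place.ord_one, if_neg (Finset.notMem_empty P')]
  | insert P S hPS ih =>
    obtain ⟨U, hU1, hU2, hUo, hUP⟩ := ih fun P' hP' => hS P' (Finset.mem_insert_of_mem hP')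
    obtain ⟨s, hs1, hs2, hso, hsP⟩ := hε.exists_coord_at hP hd (hS P (Finset.mem_insert_self P S))
    obtain ⟨hz1, hzr1⟩ := isGU_zpow hs1 (m P)
    obtain ⟨hz2, -⟩ := isGU_zpow hs2 (m P)
    refine ⟨U * s ^ m P, hU1.mul hz1, hU2.mul hz2, ?_, fun P' hP' => ?_⟩
    · rw [T.p₁.rd_mul hU1.1 hz1.1, hzr1, z.ord_mul hU1.2 (zpow_ne_zero _ hs1.2), z.ord_zpow, hUo,
        hso, Finset.sum_insert hPS]
      ring
    · rw [P'.ord_mul hU1.ne_zero hz1.ne_zero, P'.ord_zpow, hUP P' hP', hsP P' hP']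
      by_cases hPP : P' = P
      · subst hPP
        rw [if_neg hPS, if_pos rfl, if_pos (Finset.mem_insert_self _ _)]
        ring
      · rw [if_neg hPP]
        by_cases hmem : P' ∈ S
        · rw [if_pos hmem, if_pos (Finset.mem_insert_of_mem hmem)]
          ring
        · rw [if_neg hmem, if_neg fun h => (Finset.mem_insert.mp h).elim hPP hmem]
          ring

end TotData

end Fermat.Agent.BAD.H79
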