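import Fermat.Agent.BAD.H79_Coord

/-!
# Item 65, package CONS-ss (helper79): the divisor identity on the first side

Over a point `z` with a cut-off `ε` (i.e. `z` is not a node):
* `IsEps.fsum_le` : `∑_{P on side 1 over z} ord_P g ≤ ord_z (red₁ g)` for a unit `g` of `V₁`
  which is integral for `V₂`;
* `IsEps.fsum_eq_of_bal` : equality for units of both valuations (apply `fsum_le` to `g`, `g⁻¹`);
* `exists_imbalance` : elements `e` with `v₁ e = 0`, `v₂ e = v d` for every constant `d` of the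
  maximal ideal (separating element + rank one);
* `IsEps.fsum_eq` : equality for all units `g` of `V₁` (the value group of an algebraically
  closed field is divisible, and a homomorphism from a divisible group to `ℤ` vanishes).
-/

set_option autoImplicit false
set_option linter.style.haveILetI false

noncomputable section

open AlgebraicCurve

attribute [local instance] Classical.propDecidable

namespace Fermat.Agent.BAD.H79

open Fermat.Agent.RED.H17 Fermat.Agent.RED Fermat.Agent.BAD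

namespace TotData

variable {K L k L₁ L₂ : Type*} [Field K] [Field L] [Algebra K L] [Field k] [Field L₁]
  [Algebra k L₁] [Field L₂] [Algebra k L₂] {T : TotData K L k L₁ L₂}

/-- **The inequality on the first side.** -/
theorem IsEps.fsum_le [Infinite k] (hP : HasPrincipalDivisors K L)
    (hd : ∀ v : Place K L, v.deg = 1) {z : Place k L₁} {ε : L} (hε : T.IsEps z ε) {g : L}
    (hg₁ : T.p₁.IsGU g) (hg₂ : g ∈ T.b₂.V) :
    fsum (T.S₁ z) (dv hP g) ≤ z.ord (T.p₁.rd g) := by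
  set Sa : Finset (Place K L) := (dv hP g).support.filter (fun P => P ∈ T.S₁ z) with hSa
  set Sb : Finset (Place K L) :=
    (dv hP g).support.filter (fun Q => T.ρ Q = z ∧ ¬ T.OnSide₁ Q) with hSb
  obtain ⟨U, hU1, hU2, hUo, hUP⟩ := hε.exists_unit_prod hP hd (fun P => P.ord g) Sa
    (fun P hP' => (Finset.mem_filter.mp hP').2)
  obtain ⟨H, hH, hHS⟩ := hε.exists_cut hP hd (fun Q => (-(Q.ord g)).toNat) Sb
    (fun Q hQ => ⟨(Finset.mem_filter.mp hQ).2.1,
      (onSide_or hP Q).resolve_left (Finset.mem_filter.mp hQ).2.2⟩)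
  have hGU : T.p₁.IsGU (g * H * U⁻¹) := (hg₁.mul hH.isGU₁).mul hU1.inv
  have hmem₂ : g * H * U⁻¹ ∈ T.b₂.V :=
    T.b₂.V.mul_mem _ _ (T.b₂.V.mul_mem _ _ hg₂ hH.inR.2.1) hU2.inv_mem
  have hordh : ∀ P' : Place K L, P'.ord (g * H * U⁻¹) = P'.ord g + P'.ord H - P'.ord U := by
    intro P'
    rw [P'.ord_mul (mul_ne_zero hg₁.ne_zero hH.ne_zero) (inv_ne_zero hU1.ne_zero),
      P'.ord_mul hg₁.ne_zero hH.ne_zero, P'.ord_inv]
    ring
  have hreg : ∀ P', T.ρ P' = z → RegAt P' (g * H * U⁻¹) := by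
    intro P' hP'z
    apply regAt_of_ord_nonneg
    rw [hordh, hUP P' hP'z]
    by_cases hS1 : T.OnSide₁ P'
    · have hmemS : P' ∈ T.S₁ z := ⟨hP'z, hS1⟩
      rw [hH.ord_eq_zero hmemS]
      by_cases hmem : P' ∈ Sa
      · rw [if_pos hmem]; omega
      · rw [if_neg hmem]
        have : P'.ord g = 0 := by
          by_contra hne
          apply hmem
          rw [hSa, Finset.mem_filter, Finsupp.mem_support_iff, dv_apply]
          exact ⟨hne, hmemS⟩
        omega
    · have hmem : P' ∉ Sa := by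
        intro hmem
        exact hS1 (Finset.mem_filter.mp hmem).2.2
      rw [if_neg hmem]
      have h1 := hH.inR.ord_nonneg hP'z
      by_cases hneg : P'.ord g < 0
      · have hmemb : P' ∈ Sb := by
          rw [hSb, Finset.mem_filter, Finsupp.mem_support_iff, dv_apply]
          exact ⟨by omega, hP'z, hS1⟩
        have h2 := hHS P' hmemb
        have h3 : ((-(P'.ord g)).toNat : ℤ) = -(P'.ord g) := Int.toNat_of_nonneg (by omega)
        omega
      · omega
  have hR : T.InR z (g * H * U⁻¹) := ⟨hGU.1, hmem₂, hreg⟩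
  have hord := (hR.regAt₁ hP).ord_nonneg
  have hrd : T.p₁.rd (g * H * U⁻¹) = T.p₁.rd g * T.p₁.rd H * (T.p₁.rd U)⁻¹ := by
    rw [T.p₁.rd_mul (T.p₁.V.mul_mem _ _ hg₁.1 hH.inR.1) hU1.inv_mem,
      T.p₁.rd_mul hg₁.1 hH.inR.1, hU1.rd_inv]
  rw [hrd, z.ord_mul (mul_ne_zero hg₁.2 hH.rd₁_ne_zero) (inv_ne_zero hU1.2),
    z.ord_mul hg₁.2 hH.rd₁_ne_zero, z.ord_inv, hH.ord₁, hUo] at hord
  have hfs : fsum (T.S₁ z) (dv hP g) = ∑ P ∈ Sa, P.ord g := by
    rw [fsum_apply, hSa, Finset.sum_filter]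
    refine Finset.sum_congr rfl fun P _ => ?_
    rw [dv_apply]
  rw [hfs]
  omega

/-- The divisor identity on the first side for units of both valuations. -/
theorem IsEps.fsum_eq_of_bal [Infinite k] (hP : HasPrincipalDivisors K L)
    (hd : ∀ v : Place K L, v.deg = 1) {z : Place k L₁} {ε : L} (hε : T.IsEps z ε) {g : L}
    (hg₁ : T.p₁.IsGU g) (hg₂ : T.p₂.IsGU g) :
    fsum (T.S₁ z) (dv hP g) = z.ord (T.p₁.rd g) := by
  have h1 := hε.fsum_le hP hd hg₁ hg₂.1
  have h2 := hε.fsum_le hP hd hg₁.inv hg₂.inv_mem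
  rw [dv_inv', map_neg, hg₁.rd_inv, z.ord_inv] at h2
  omega

/-- The defect of the divisor identity on the first side. -/
def defect (T : TotData K L k L₁ L₂) (hP : HasPrincipalDivisors K L) (z : Place k L₁) (g : L) :
    ℤ :=
  fsum (T.S₁ z) (dv hP g) - z.ord (T.p₁.rd g)

theorem defect_mul (hP : HasPrincipalDivisors K L) (z : Place k L₁) {g h : L}
    (hg : T.p₁.IsGU g) (hh : T.p₁.IsGU h) :
    T.defect hP z (g * h) = T.defect hP z g + T.defect hP z h := by
  unfold defect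
  rw [dv_mul' hP hg.ne_zero hh.ne_zero, map_add, T.p₁.rd_mul hg.1 hh.1, z.ord_mul hg.2 hh.2]
  ring

theorem defect_inv (hP : HasPrincipalDivisors K L) (z : Place k L₁) {g : L}
    (hg : T.p₁.IsGU g) : T.defect hP z g⁻¹ = -T.defect hP z g := by
  unfold defect
  rw [dv_inv', map_neg, hg.rd_inv, z.ord_inv]
  ring

theorem defect_pow (hP : HasPrincipalDivisors K L) (z : Place k L₁) {g : L}
    (hg : T.p₁.IsGU g) (n : ℕ) : T.defect hP z (g ^ n) = n * T.defect hP z g := by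
  induction n with
  | zero =>
    unfold defect
    rw [pow_zero, T.p₁.rd_one, Place.ord_one]
    have : dv hP (1 : L) = 0 := by
      ext P
      rw [dv_apply, Place.ord_one, Finsupp.zero_apply]
    rw [this, map_zero]
    simp
  | succ n ih =>
    rw [pow_succ, defect_mul hP z (hg.pow n) hg, ih]
    push_cast
    ring

/-- **Imbalance elements**: for every non-zero constant `d` of the maximal ideal there is `e`,
unit for `V₁`, such that `e / d` is a unit for `V₂`. -/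
theorem exists_imbalance (T : TotData K L k L₁ L₂) {d : K} (hd0 : d ≠ 0)
    (hd : algebraMap K L d ∈ T.b₁.V) (hdr : T.p₁.rd (algebraMap K L d) = 0) :
    ∃ e : L, T.p₁.IsGU e ∧ e ∈ T.b₂.V ∧ T.p₂.IsGU (algebraMap K L d⁻¹ * e) := by
  obtain ⟨e₀, h₁, h₂, hr₁, hr₂⟩ := T.sep
  have hr₁' : T.p₁.rd e₀ ≠ 0 := by rw [T.p₁.rd_of_mem h₁]; exact hr₁
  have hr₂' : T.p₂.rd e₀ = 0 := by rw [T.p₂.rd_of_mem h₂]; exact hr₂
  have he₀ : e₀ ≠ 0 := by
    rintro rfl
    exact hr₁' T.p₁.rd_zero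
  obtain ⟨c', hc'0, hGU⟩ := T.p₂.exists_isGU_scale he₀
  have hc'n : algebraMap K L c' ∉ T.p₂.V := by
    intro hmem
    apply hGU.2
    rw [T.p₂.rd_mul hmem h₂, hr₂', mul_zero]
  obtain ⟨hc₀, hc₀r⟩ := T.p₂.inv_const_of_not_mem hc'n
  have hc₀1 : algebraMap K L c'⁻¹ ∈ T.b₁.V := (T.const_mem _).mpr hc₀
  have hc₀r1 : T.p₁.rd (algebraMap K L c'⁻¹) = 0 := T.const_rd₁_eq_zero hc₀1 hc₀r
  have hc₀r1' : T.b₁.red ⟨_, hc₀1⟩ = 0 := by
    have := hc₀r1
    rwa [T.p₁.rd_of_mem hc₀1] at this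
  obtain ⟨m, hm⟩ := T.arch c'⁻¹ d hc₀1 hc₀r1' hd0
  -- `x = c₀ ^ (m + 1) / d` is in the maximal ideal
  have hx : algebraMap K L (c'⁻¹ ^ (m + 1) / d) = algebraMap K L c'⁻¹ *
      algebraMap K L (c'⁻¹ ^ m / d) := by
    rw [← map_mul]
    congr 1
    rw [pow_succ]
    ring
  have hx1 : algebraMap K L (c'⁻¹ ^ (m + 1) / d) ∈ T.b₁.V := by
    rw [hx]; exact T.b₁.V.mul_mem _ _ hc₀1 hm
  have hxr1 : T.p₁.rd (algebraMap K L (c'⁻¹ ^ (m + 1) / d)) = 0 := by
    rw [hx, T.p₁.rd_mul hc₀1 hm, hc₀r1, zero_mul]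
  have hx2 : algebraMap K L (c'⁻¹ ^ (m + 1) / d) ∈ T.b₂.V := T.const_mem₂ hx1
  have hxr2 : T.p₂.rd (algebraMap K L (c'⁻¹ ^ (m + 1) / d)) = 0 := T.const_rd₂_eq_zero hx1 hxr1
  -- `y = e₀ ^ (m + 1) / d`
  have hw := hGU.pow (m + 1)
  have hy : algebraMap K L d⁻¹ * e₀ ^ (m + 1) =
      algebraMap K L (c'⁻¹ ^ (m + 1) / d) * (algebraMap K L c' * e₀) ^ (m + 1) := by
    rw [map_div₀, map_pow, map_inv₀, map_inv₀, mul_pow, inv_pow]
    have : algebraMap K L c' ≠ 0 := (map_ne_zero_iff _ (algebraMap K L).injective).mpr hc'0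
    have hd' : algebraMap K L d ≠ 0 := (map_ne_zero_iff _ (algebraMap K L).injective).mpr hd0
    field_simp
  have hy2 : algebraMap K L d⁻¹ * e₀ ^ (m + 1) ∈ T.b₂.V := by
    rw [hy]; exact T.b₂.V.mul_mem _ _ hx2 hw.1
  have hyr2 : T.p₂.rd (algebraMap K L d⁻¹ * e₀ ^ (m + 1)) = 0 := by
    rw [hy, T.p₂.rd_mul hx2 hw.1, hxr2, zero_mul]
  have hp1 : e₀ ^ (m + 1) ∈ T.b₁.V := T.b₁.V.pow_mem h₁ _
  have hp2 : e₀ ^ (m + 1) ∈ T.b₂.V := T.b₂.V.pow_mem h₂ _
  refine ⟨algebraMap K L d + e₀ ^ (m + 1), ⟨T.b₁.V.add_mem _ _ hd hp1, ?_⟩,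
    T.b₂.V.add_mem _ _ (T.const_mem₂ hd) hp2, ?_⟩
  · rw [T.p₁.rd_add hd hp1, hdr, zero_add, T.p₁.rd_pow h₁]
    exact pow_ne_zero _ hr₁'
  · have e : algebraMap K L d⁻¹ * (algebraMap K L d + e₀ ^ (m + 1)) =
        1 + algebraMap K L d⁻¹ * e₀ ^ (m + 1) := by
      rw [mul_add, ← map_mul, inv_mul_cancel₀ hd0, map_one]
    rw [e]
    refine ⟨T.b₂.V.add_mem _ _ T.b₂.V.one_mem hy2, ?_⟩
    rw [T.p₂.rd_add T.p₂.V.one_mem hy2, hyr2, add_zero, T.p₂.rd_one]
    exact one_ne_zero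

/-- A root of a constant of the maximal ideal is in the maximal ideal. -/
theorem root_mem (T : TotData K L k L₁ L₂) {d d' : K} {n : ℕ} (hn : 0 < n) (hdd : d' ^ n = d)
    (hd : algebraMap K L d ∈ T.b₁.V) (hdr : T.p₁.rd (algebraMap K L d) = 0) :
    algebraMap K L d' ∈ T.b₁.V ∧ T.p₁.rd (algebraMap K L d') = 0 := by
  have hmem : algebraMap K L d' ∈ T.b₁.V := by
    by_contra hne
    obtain ⟨h1, h2⟩ := T.p₁.inv_const_of_not_mem hne
    have h3 : algebraMap K L d'⁻¹ ^ n ∈ T.p₁.V := T.p₁.V.pow_mem h1 n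
    have h4 : algebraMap K L d * algebraMap K L d'⁻¹ ^ n = 1 := by
      have hd'0 : d' ≠ 0 := by
        rintro rfl
        rw [map_zero] at hne
        exact hne T.b₁.V.zero_mem
      rw [← hdd, ← map_pow, ← map_mul, ← mul_pow, mul_inv_cancel₀ hd'0, one_pow,
        map_one]
    have h5 := T.p₁.rd_mul hd h3
    rw [h4, T.p₁.rd_one, hdr, zero_mul] at h5
    exact one_ne_zero h5
  refine ⟨hmem, ?_⟩
  have h1 := T.p₁.rd_pow hmem n
  rw [← map_pow, hdd, hdr] at h1
  exact (pow_eq_zero_iff hn.ne').mp h1.symm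

/-- The defect vanishes on elements with `v₁ = 0 < v₂`. -/
theorem IsEps.defect_eq_zero_of_pos [Infinite k] [IsAlgClosed K]
    (hP : HasPrincipalDivisors K L) (hd : ∀ v : Place K L, v.deg = 1) {z : Place k L₁} {ε : L}
    (hε : T.IsEps z ε) {g : L} (hg₁ : T.p₁.IsGU g) {d : K} (hd0 : d ≠ 0)
    (hdm : algebraMap K L d ∈ T.b₁.V) (hdr : T.p₁.rd (algebraMap K L d) = 0)
    (hg₂ : T.p₂.IsGU (algebraMap K L d⁻¹ * g)) : T.defect hP z g = 0 := by
  have hdL : algebraMap K L d ≠ 0 := (map_ne_zero_iff _ (algebraMap K L).injective).mpr hd0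
  have hgm₂ : g ∈ T.b₂.V := by
    have : g = algebraMap K L d * (algebraMap K L d⁻¹ * g) := by
      rw [← mul_assoc, ← map_mul, mul_inv_cancel₀ hd0, map_one, one_mul]
    rw [this]
    exact T.b₂.V.mul_mem _ _ (T.const_mem₂ hdm) hg₂.1
  have hle : T.defect hP z g ≤ 0 := by
    have := hε.fsum_le hP hd hg₁ hgm₂
    unfold defect
    omega
  by_contra hne
  set n : ℕ := (-(T.defect hP z g)).toNat + 1 with hn
  have hnpos : 0 < n := Nat.succ_pos _
  obtain ⟨d', hdd⟩ := IsAlgClosed.exists_pow_nat_eq d hnpos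
  have hd'0 : d' ≠ 0 := by
    rintro rfl
    rw [zero_pow hnpos.ne'] at hdd
    exact hd0 hdd.symm
  obtain ⟨hd'm, hd'r⟩ := T.root_mem hnpos hdd hdm hdr
  obtain ⟨e, he₁, hem₂, he₂⟩ := T.exists_imbalance hd'0 hd'm hd'r
  have hd'L : algebraMap K L d' ≠ 0 := (map_ne_zero_iff _ (algebraMap K L).injective).mpr hd'0
  -- `g / e ^ n` is a unit for both valuations
  have hq₁ : T.p₁.IsGU (g / e ^ n) := hg₁.div (he₁.pow n)
  have hq₂ : T.p₂.IsGU (g / e ^ n) := by
    have h := hg₂.div (he₂.pow n)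
    have e' : algebraMap K L d⁻¹ * g / (algebraMap K L d'⁻¹ * e) ^ n = g / e ^ n := by
      rw [mul_pow, ← map_pow, inv_pow, hdd]
      have he0 : e ≠ 0 := he₁.ne_zero
      rw [map_inv₀]
      field_simp
    rwa [e'] at h
  have h0 := hε.fsum_eq_of_bal hP hd hq₁ hq₂
  have hdef : T.defect hP z (g / e ^ n) = 0 := by
    unfold defect
    omega
  have hsplit : T.defect hP z g = T.defect hP z (g / e ^ n) + n * T.defect hP z e := by
    rw [← defect_pow hP z he₁, ← defect_mul hP z hq₁ (he₁.pow n),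
      div_mul_cancel₀ _ (pow_ne_zero _ he₁.ne_zero)]
  rw [hdef, zero_add] at hsplit
  have hele : T.defect hP z e ≤ 0 := by
    have := hε.fsum_le hP hd he₁ hem₂
    unfold defect
    omega
  have hene : T.defect hP z e ≠ 0 := by
    intro h0'
    rw [h0', mul_zero] at hsplit
    exact hne hsplit
  have h1 : T.defect hP z e ≤ -1 := by omega
  have h2 : (n : ℤ) * T.defect hP z e ≤ n * (-1) :=
    mul_le_mul_of_nonneg_left h1 (Int.natCast_nonneg n)
  have h3 : ((-(T.defect hP z g)).toNat : ℤ) = -(T.defect hP z g) :=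
    Int.toNat_of_nonneg (by omega)
  have h4 : (n : ℤ) = -(T.defect hP z g) + 1 := by
    rw [hn]
    push_cast
    rw [h3]
  rw [← hsplit] at h2
  rw [h4] at h2
  omega

/-- **The divisor identity on the first side**, over a point with a cut-off. -/
theorem IsEps.fsum_eq [Infinite k] [IsAlgClosed K] (hP : HasPrincipalDivisors K L)
    (hd : ∀ v : Place K L, v.deg = 1) {z : Place k L₁} {ε : L} (hε : T.IsEps z ε) {g : L}
    (hg₁ : T.p₁.IsGU g) : fsum (T.S₁ z) (dv hP g) = z.ord (T.p₁.rd g) := by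
  have key : T.defect hP z g = 0 := by
    obtain ⟨c, hc0, hGU⟩ := T.p₂.exists_isGU_scale hg₁.ne_zero
    by_cases hcm : algebraMap K L c ∈ T.b₁.V
    · by_cases hcr : T.p₁.rd (algebraMap K L c) = 0
      · -- `c` in the maximal ideal: apply the lemma to `g⁻¹`
        have h2 : T.p₂.IsGU (algebraMap K L c⁻¹ * g⁻¹) := by
          have := hGU.inv
          rwa [mul_inv, ← map_inv₀] at this
        have := hε.defect_eq_zero_of_pos hP hd hg₁.inv hc0 hcm hcr h2
        rw [defect_inv hP z hg₁] at this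
        omega
      · -- `c` is a unit: `g` is a unit for both valuations
        have hc2 : T.p₂.IsGU (algebraMap K L c) :=
          ⟨T.const_mem₂ hcm, fun h0 => hcr (T.const_rd₁_eq_zero hcm h0)⟩
        have h2 : T.p₂.IsGU g := by
          have := hc2.inv.mul hGU
          have hcL : algebraMap K L c ≠ 0 :=
            (map_ne_zero_iff _ (algebraMap K L).injective).mpr hc0
          rwa [inv_mul_cancel_left₀ hcL] at this
        have := hε.fsum_eq_of_bal hP hd hg₁ h2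
        unfold defect
        omega
    · -- `c⁻¹` in the maximal ideal
      obtain ⟨h1, h2⟩ := T.p₁.inv_const_of_not_mem hcm
      have h3 : T.p₂.IsGU (algebraMap K L c⁻¹⁻¹ * g) := by rwa [inv_inv]
      exact hε.defect_eq_zero_of_pos hP hd hg₁ (inv_ne_zero hc0) h1 h2 h3
  unfold defect at key
  omega

end TotData

end Fermat.Agent.BAD.H79
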