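import Fermat.Agent.BAD.H79_Defs

/-!
# Item 65, package CONS-ss (helper79): sums of orders over a set of places

`fsum A D = ∑_{P ∈ A} D P` as an additive map on divisors, `dv` of products, inverses and
constants.
-/

set_option autoImplicit false
set_option linter.style.haveILetI false

noncomputable section

open AlgebraicCurve

attribute [local instance] Classical.propDecidable

namespace Fermat.Agent.BAD.H79

open Fermat.Agent.RED.H17 Fermat.Agent.RED Fermat.Agent.BAD

section Fsum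

variable {α : Type*}

/-- The sum of the values of `D` over the set `A`. -/
def fsum (A : Set α) : (α →₀ ℤ) →+ ℤ :=
  Finsupp.liftAddHom fun P => if P ∈ A then AddMonoidHom.id ℤ else 0

theorem fsum_apply (A : Set α) (D : α →₀ ℤ) :
    fsum A D = ∑ P ∈ D.support, if P ∈ A then D P else 0 := by
  unfold fsum
  rw [Finsupp.liftAddHom_apply, Finsupp.sum]
  refine Finset.sum_congr rfl fun P _ => ?_
  split_ifs <;> rfl

theorem mapDomain_eq_fsum {β : Type*} (r : α → β) (D : α →₀ ℤ) (Q : β) :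
    Finsupp.mapDomain r D Q = fsum {P | r P = Q} D := by
  rw [mapDomain_apply_eq_sum, fsum_apply]
  rfl

theorem fsum_congr {A B : Set α} (D : α →₀ ℤ) (h : ∀ P, D P ≠ 0 → (P ∈ A ↔ P ∈ B)) :
    fsum A D = fsum B D := by
  rw [fsum_apply, fsum_apply]
  refine Finset.sum_congr rfl fun P hP => ?_
  rw [Finsupp.mem_support_iff] at hP
  by_cases hA : P ∈ A
  · rw [if_pos hA, if_pos ((h P hP).mp hA)]
  · rw [if_neg hA, if_neg fun hB => hA ((h P hP).mpr hB)]

theorem fsum_nonneg {A : Set α} {D : α →₀ ℤ} (h : ∀ P ∈ A, 0 ≤ D P) : 0 ≤ fsum A D := by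
  rw [fsum_apply]
  refine Finset.sum_nonneg fun P _ => ?_
  split_ifs with hA
  · exact h P hA
  · exact le_rfl

theorem fsum_eq_zero {A : Set α} {D : α →₀ ℤ} (h : ∀ P ∈ A, D P = 0) : fsum A D = 0 := by
  rw [fsum_apply]
  refine Finset.sum_eq_zero fun P _ => ?_
  split_ifs with hA
  · exact h P hA
  · rfl

theorem le_fsum {A : Set α} {D : α →₀ ℤ} (h : ∀ P ∈ A, 0 ≤ D P) {P : α} (hP : P ∈ A) :
    D P ≤ fsum A D := by
  rw [fsum_apply]
  by_cases hmem : P ∈ D.support
  · have hnn : ∀ P' ∈ D.support, 0 ≤ (if P' ∈ A then D P' else 0) := by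
      intro P' _
      split_ifs with hA
      · exact h P' hA
      · exact le_rfl
    have := Finset.single_le_sum hnn hmem
    rwa [if_pos hP] at this
  · rw [Finsupp.notMem_support_iff] at hmem
    rw [hmem]
    refine Finset.sum_nonneg fun P' _ => ?_
    split_ifs with hA
    · exact h P' hA
    · exact le_rfl

/-- If `fsum A D = 0` and `D ≥ 0` on `A`, then `D = 0` on `A`. -/
theorem eq_zero_of_fsum_eq_zero {A : Set α} {D : α →₀ ℤ} (h : ∀ P ∈ A, 0 ≤ D P)
    (h0 : fsum A D ≤ 0) {P : α} (hP : P ∈ A) : D P = 0 :=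
  le_antisymm ((le_fsum h hP).trans h0) (h P hP)

theorem fsum_union {A B : Set α} (D : α →₀ ℤ) (h : ∀ P, P ∈ A → P ∈ B → False) :
    fsum (A ∪ B) D = fsum A D + fsum B D := by
  rw [fsum_apply, fsum_apply, fsum_apply, ← Finset.sum_add_distrib]
  refine Finset.sum_congr rfl fun P _ => ?_
  by_cases hA : P ∈ A
  · have hB : P ∉ B := fun hB => h P hA hB
    have hAB : P ∈ A ∪ B := Or.inl hA
    rw [if_pos hAB, if_pos hA, if_neg hB, add_zero]
  · by_cases hB : P ∈ B
    · have hAB : P ∈ A ∪ B := Or.inr hB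
      rw [if_pos hAB, if_neg hA, if_pos hB, zero_add]
    · have hAB : P ∉ A ∪ B := fun h' => h'.elim hA hB
      rw [if_neg hAB, if_neg hA, if_neg hB, add_zero]

/-- If `D` vanishes on `A` except at `P ∈ A`, then `fsum A D = D P`. -/
theorem fsum_eq_single {A : Set α} {D : α →₀ ℤ} {P : α} (hP : P ∈ A)
    (h : ∀ P' ∈ A, P' ≠ P → D P' = 0) : fsum A D = D P := by
  rw [fsum_apply]
  by_cases hmem : P ∈ D.support
  · rw [Finset.sum_eq_single_of_mem P hmem, if_pos hP]
    intro P' _ hne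
    split_ifs with hA
    · exact h P' hA hne
    · rfl
  · rw [Finsupp.notMem_support_iff] at hmem
    rw [hmem]
    refine Finset.sum_eq_zero fun P' hP' => ?_
    split_ifs with hA
    · by_cases hne : P' = P
      · rw [hne, hmem]
      · exact h P' hA hne
    · rfl

/-- Two distinct places of `A`: the sum of their values is at most `fsum A D`. -/
theorem add_le_fsum {A : Set α} {D : α →₀ ℤ} (h : ∀ P ∈ A, 0 ≤ D P) {P P' : α} (hP : P ∈ A)
    (hP' : P' ∈ A) (hne : P' ≠ P) : D P + D P' ≤ fsum A D := by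
  have e : A = {P} ∪ {Q | Q ∈ A ∧ Q ≠ P} := by
    ext Q
    constructor
    · intro hQ
      by_cases hQP : Q = P
      · exact Or.inl hQP
      · exact Or.inr ⟨hQ, hQP⟩
    · rintro (hQ | hQ)
      · rw [Set.mem_singleton_iff] at hQ
        rw [hQ]; exact hP
      · exact hQ.1
  have h1 : fsum A D = fsum {P} D + fsum {Q | Q ∈ A ∧ Q ≠ P} D := by
    conv_lhs => rw [e]
    refine fsum_union D fun Q hQ hQ' => ?_
    rw [Set.mem_singleton_iff] at hQ
    exact hQ'.2 hQ
  have h2 : fsum ({P} : Set α) D = D P :=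
    fsum_eq_single (Set.mem_singleton P) fun P' hP' hne' => absurd hP' hne'
  have h3 : D P' ≤ fsum {Q | Q ∈ A ∧ Q ≠ P} D :=
    le_fsum (fun Q hQ => h Q hQ.1) ⟨hP', hne⟩
  rw [h1, h2]
  omega

end Fsum

section Dv

variable {K F : Type*} [Field K] [Field F] [Algebra K F]

theorem dv_mul' (hP : HasPrincipalDivisors K F) {f g : F} (hf : f ≠ 0) (hg : g ≠ 0) :
    dv hP (f * g) = dv hP f + dv hP g := by
  ext P
  rw [Finsupp.add_apply, dv_apply, dv_apply, dv_apply, P.ord_mul hf hg]

theorem dv_inv' (hP : HasPrincipalDivisors K F) (f : F) : dv hP f⁻¹ = -dv hP f := by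
  ext P
  rw [Finsupp.neg_apply, dv_apply, dv_apply, P.ord_inv]

theorem dv_div' (hP : HasPrincipalDivisors K F) {f g : F} (hf : f ≠ 0) (hg : g ≠ 0) :
    dv hP (f / g) = dv hP f - dv hP g := by
  rw [div_eq_mul_inv, dv_mul' hP hf (inv_ne_zero hg), dv_inv', sub_eq_add_neg]

theorem dv_algebraMap' (hP : HasPrincipalDivisors K F) (c : K) :
    dv hP (algebraMap K F c) = 0 := by
  ext P
  rw [dv_apply, Finsupp.zero_apply, ord_algebraMap]

theorem dv_const_mul' (hP : HasPrincipalDivisors K F) {c : K} (hc : c ≠ 0) (f : F) :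
    dv hP (algebraMap K F c * f) = dv hP f := by
  ext P
  rw [dv_apply, dv_apply, ord_algebraMap_mul P hc]

theorem dv_pow' (hP : HasPrincipalDivisors K F) (f : F) (n : ℕ) :
    dv hP (f ^ n) = n • dv hP f := by
  ext P
  rw [Finsupp.smul_apply, dv_apply, dv_apply, ord_pow, nsmul_eq_mul]

end Dv

end Fermat.Agent.BAD.H79
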