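import Fermat.Agent.BAD.H79_SSD

/-!
# Item 65, package CONS-ss (helper79): inertial automorphisms

`TotData.Inert T σ` : the semilinear automorphism `σ` preserves the two valuation rings, acts
trivially on the two reductions and preserves the reduction map `ρ`.
`TotData.Inert.isInertial` : then `σ` is inertial for the semistable Deuring datum `T.toSSD`.
-/

set_option autoImplicit false
set_option linter.style.haveILetI false

noncomputable section

open AlgebraicCurve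

attribute [local instance] Classical.propDecidable

namespace Fermat.Agent.BAD.H79

open Fermat.Agent.RED.H17 Fermat.Agent.RED Fermat.Agent.BAD

section Smul

variable {K F : Type*} [Field K] [Field F] [Algebra K F]

theorem smul_eq_zero_iff' (σ : SemilinearAut K F) (x : F) : σ • x = 0 ↔ x = 0 := by
  rw [SemilinearAut.smul_def]
  exact map_eq_zero_iff _ (SemilinearAut.toRingAut σ).injective

theorem regAt_smul_iff (σ : SemilinearAut K F) (P : Place K F) (x : F) :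
    RegAt (σ • P) (σ • x) ↔ RegAt P x := by
  rw [regAt_iff_ord, regAt_iff_ord, SemilinearAut.ord_smul, smul_eq_zero_iff']

theorem vanAt_smul_iff (σ : SemilinearAut K F) (P : Place K F) (x : F) :
    VanAt (σ • P) (σ • x) ↔ VanAt P x := by
  rw [vanAt_iff_ord, vanAt_iff_ord, SemilinearAut.ord_smul, smul_eq_zero_iff']

end Smul

namespace TotData

variable {K L k L₁ L₂ : Type*} [Field K] [Field L] [Algebra K L] [Field k] [Field L₁]
  [Algebra k L₁] [Field L₂] [Algebra k L₂] {T : TotData K L k L₁ L₂}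

/-- `σ` preserves the total conservation datum and acts trivially on the two reductions. -/
structure Inert (T : TotData K L k L₁ L₂) (σ : SemilinearAut K L) : Prop where
  mem₁ : ∀ f : L, f ∈ T.b₁.V → σ • f ∈ T.b₁.V
  mem₂ : ∀ f : L, f ∈ T.b₂.V → σ • f ∈ T.b₂.V
  red₁ : ∀ (f : L) (h : f ∈ T.b₁.V) (h' : σ • f ∈ T.b₁.V), T.b₁.red ⟨_, h'⟩ = T.b₁.red ⟨f, h⟩
  red₂ : ∀ (f : L) (h : f ∈ T.b₂.V) (h' : σ • f ∈ T.b₂.V), T.b₂.red ⟨_, h'⟩ = T.b₂.red ⟨f, h⟩
  ρ_smul : ∀ P : Place K L, T.ρ (σ • P) = T.ρ P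

/-- An automorphism which preserves a valuation ring and acts trivially on the reduction: its
inverse preserves the valuation ring. -/
private theorem inv_mem_of {F' : Type*} [Field F'] [Algebra k F'] (S : PRed K L k F')
    (σ : SemilinearAut K L) (hmem : ∀ f : L, f ∈ S.V → σ • f ∈ S.V)
    (hred : ∀ f : L, f ∈ S.V → S.rd (σ • f) = S.rd f) (f : L) (hf : f ∈ S.V) :
    σ⁻¹ • f ∈ S.V := by
  by_contra hne
  have hinv : (σ⁻¹ • f)⁻¹ ∈ S.V := (S.V.mem_or_inv_mem _).resolve_left hne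
  have hr0 : S.rd (σ⁻¹ • f)⁻¹ = 0 := by
    by_contra h0
    have hGU : S.IsGU (σ⁻¹ • f)⁻¹ := ⟨hinv, h0⟩
    have := hGU.inv_mem
    rw [inv_inv] at this
    exact hne this
  have h1 : σ • (σ⁻¹ • f)⁻¹ = f⁻¹ := by
    rw [smul_inv'', smul_inv_smul]
  have h2 : f⁻¹ ∈ S.V := by
    rw [← h1]; exact hmem _ hinv
  have h3 : S.rd f⁻¹ = 0 := by
    rw [← h1, hred _ hinv, hr0]
  have hf0 : f ≠ 0 := by
    rintro rfl
    rw [smul_zero] at hne
    exact hne S.V.zero_mem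
  have h4 := S.rd_mul hf h2
  rw [mul_inv_cancel₀ hf0, S.rd_one, h3, mul_zero] at h4
  exact one_ne_zero h4

namespace Inert

variable {σ : SemilinearAut K L}

theorem rd₁ (h : T.Inert σ) {f : L} (hf : f ∈ T.b₁.V) : T.p₁.rd (σ • f) = T.p₁.rd f := by
  rw [T.p₁.rd_of_mem (h.mem₁ f hf), T.p₁.rd_of_mem hf]
  exact h.red₁ f hf (h.mem₁ f hf)

theorem rd₂ (h : T.Inert σ) {f : L} (hf : f ∈ T.b₂.V) : T.p₂.rd (σ • f) = T.p₂.rd f := by
  rw [T.p₂.rd_of_mem (h.mem₂ f hf), T.p₂.rd_of_mem hf]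
  exact h.red₂ f hf (h.mem₂ f hf)

theorem inv (h : T.Inert σ) : T.Inert σ⁻¹ := by
  have m₁ : ∀ f : L, f ∈ T.b₁.V → σ⁻¹ • f ∈ T.b₁.V :=
    inv_mem_of T.p₁ σ h.mem₁ (fun f hf => h.rd₁ hf)
  have m₂ : ∀ f : L, f ∈ T.b₂.V → σ⁻¹ • f ∈ T.b₂.V :=
    inv_mem_of T.p₂ σ h.mem₂ (fun f hf => h.rd₂ hf)
  refine ⟨m₁, m₂, fun f hf hf' => ?_, fun f hf hf' => ?_, fun P => ?_⟩
  · have h1 : σ • σ⁻¹ • f ∈ T.b₁.V := by rw [smul_inv_smul]; exact hf
    have := h.red₁ (σ⁻¹ • f) hf' h1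
    rw [← this]
    congr 1
    exact Subtype.ext (smul_inv_smul σ f)
  · have h1 : σ • σ⁻¹ • f ∈ T.b₂.V := by rw [smul_inv_smul]; exact hf
    have := h.red₂ (σ⁻¹ • f) hf' h1
    rw [← this]
    congr 1
    exact Subtype.ext (smul_inv_smul σ f)
  · have := h.ρ_smul (σ⁻¹ • P)
    rw [smul_inv_smul] at this
    exact this.symm

theorem inR (h : T.Inert σ) {z : Place k L₁} {f : L} (hf : T.InR z f) : T.InR z (σ • f) := by
  refine ⟨h.mem₁ f hf.1, h.mem₂ f hf.2.1, fun P hPz => ?_⟩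
  have h1 : RegAt (σ⁻¹ • P) f := hf.2.2 _ (by rw [h.inv.ρ_smul]; exact hPz)
  have := (regAt_smul_iff σ (σ⁻¹ • P) f).mpr h1
  rwa [smul_inv_smul] at this

theorem onSide₁ (h : T.Inert σ) (hP : HasPrincipalDivisors K L) {P : Place K L}
    (hS : T.OnSide₁ P) : T.OnSide₁ (σ • P) := by
  intro f hf a ha
  rw [h.ρ_smul] at hf ⊢
  have hmem : algebraMap K L a ∈ T.b₁.V := hf.const_mem hP (h.ρ_smul P) ha
  have hf' : T.InR (T.ρ P) (σ⁻¹ • f) := h.inv.inR hf
  have e1 : σ⁻¹ • algebraMap K L a = algebraMap K L (SemilinearAut.baseAut σ⁻¹ a) :=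
    SemilinearAut.smul_algebraMap σ⁻¹ a
  have ha' : VanAt P (σ⁻¹ • f - algebraMap K L (SemilinearAut.baseAut σ⁻¹ a)) := by
    rw [← e1, ← smul_sub]
    have := (vanAt_smul_iff σ⁻¹ (σ • P) (f - algebraMap K L a)).mpr ha
    rwa [inv_smul_smul] at this
  have := hS (σ⁻¹ • f) hf' _ ha'
  rwa [h.inv.rd₁ hf.1, ← e1, h.inv.rd₁ hmem] at this

theorem onSide₂ (h : T.Inert σ) (hP : HasPrincipalDivisors K L) {P : Place K L}
    (hS : T.OnSide₂ P) : T.OnSide₂ (σ • P) := by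
  intro f hf a ha
  rw [h.ρ_smul] at hf ⊢
  have hmem : algebraMap K L a ∈ T.b₁.V := hf.const_mem hP (h.ρ_smul P) ha
  have hf' : T.InR (T.ρ P) (σ⁻¹ • f) := h.inv.inR hf
  have e1 : σ⁻¹ • algebraMap K L a = algebraMap K L (SemilinearAut.baseAut σ⁻¹ a) :=
    SemilinearAut.smul_algebraMap σ⁻¹ a
  have ha' : VanAt P (σ⁻¹ • f - algebraMap K L (SemilinearAut.baseAut σ⁻¹ a)) := by
    rw [← e1, ← smul_sub]
    have := (vanAt_smul_iff σ⁻¹ (σ • P) (f - algebraMap K L a)).mpr ha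
    rwa [inv_smul_smul] at this
  have := hS (σ⁻¹ • f) hf' _ ha'
  rwa [h.inv.rd₂ hf.2.1, ← e1, h.inv.rd₂ (T.const_mem₂ hmem)] at this

theorem onSide₁_iff (h : T.Inert σ) (hP : HasPrincipalDivisors K L) (P : Place K L) :
    T.OnSide₁ (σ • P) ↔ T.OnSide₁ P := by
  refine ⟨fun hS => ?_, h.onSide₁ hP⟩
  have := h.inv.onSide₁ hP hS
  rwa [inv_smul_smul] at this

theorem onSide₂_iff (h : T.Inert σ) (hP : HasPrincipalDivisors K L) (P : Place K L) :
    T.OnSide₂ (σ • P) ↔ T.OnSide₂ P := by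
  refine ⟨fun hS => ?_, h.onSide₂ hP⟩
  have := h.inv.onSide₂ hP hS
  rwa [inv_smul_smul] at this

theorem r₁_smul (h : T.Inert σ) (hP : HasPrincipalDivisors K L) (P : Place K L) :
    T.r₁ (σ • P) = T.r₁ P := by
  unfold TotData.r₁
  by_cases hS : T.OnSide₁ P
  · rw [if_pos hS, if_pos ((h.onSide₁_iff hP P).mpr hS), h.ρ_smul]
  · rw [if_neg hS, if_neg fun h' => hS ((h.onSide₁_iff hP P).mp h')]

theorem r₂_smul (h : T.Inert σ) (hP : HasPrincipalDivisors K L) (P : Place K L) :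
    T.r₂ (σ • P) = T.r₂ P := by
  unfold TotData.r₂
  by_cases hS : T.OnSide₂ P
  · rw [if_pos hS, if_pos ((h.onSide₂_iff hP P).mpr hS), h.ρ_smul]
  · rw [if_neg hS, if_neg fun h' => hS ((h.onSide₂_iff hP P).mp h')]

/-- **An inertial automorphism of the total conservation datum is inertial for the semistable
Deuring datum.** -/
theorem isInertial [Infinite k] [IsAlgClosed K] (h : T.Inert σ)
    (hP : HasPrincipalDivisors K L) (hd : ∀ v : Place K L, v.deg = 1)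
    (hP₁ : HasPrincipalDivisors k L₁) (hd₁ : ∀ v : Place k L₁, v.deg = 1)
    (hd₂ : ∀ v : Place k L₂, v.deg = 1) (hne : ∃ z, T.IsNode z) :
    (T.toSSD hP hd hP₁ hd₁ hd₂ hne).IsInertial σ where
  mem₁ := h.mem₁
  mem₂ := h.mem₂
  red₁ := h.red₁
  red₂ := h.red₂
  r₁ := h.r₁_smul hP
  r₂ := h.r₂_smul hP

end Inert

end TotData

end Fermat.Agent.BAD.H79
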