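import Fermat.Agent.BAD.H79_SSD
import Fermat.Prelude.Def_AlgebraicCurve_Correspondence

/-!
# Item 65 / S35 (helper79): the MIRROR law of total conservation and conservation at the lower
level (clauses (E2), (E4) of `S35.H89.Stmt_ModSt`), abstract form

* `place_ext_ord` : a place is determined by its order function.
* `TotData.mirror` : for a total conservation datum `T` whose second valuation is the transport
  of the first under an involution `w` of `L` (`x ∈ V₂ ↔ w x ∈ V₁`, `red₂ x = red₁ (w x)`;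
  modular: `w = w_q`) and a map `ω` on places with `ord_{ω P} f = ord_P (w f)`:
  `∑_{ρ (ω P) = z} ord_P u₁ = ord_z (red₂ u₂) + ord_{β z} (red₁ u₁)`.
* `TotData.mirror_smul` : the same with `ω P = w • P` for `w : L ≃ₐ[K] L`.
* `toSSD_tot`, `toSSD_mirror` : both laws in the shape of `Stmt_ModSt` (for `S = T.toSSD ..`).
* `conserve_level`, `conserve_along` : if `ρ P = r_M (P | E)` (up to an injective transport `κ`)
  and all inertia degrees of `L / E` are one, then `α_* D` principal implies that `ρ_* D` is the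
  divisor of a function of the residue field.
* `restrictAlong_comp_smul` : `P | (w ∘ φ) = (w⁻¹ • P) | φ`;
  `restrictAlong_smul_of_involutive`, `conserve_along_mirror` : (E4) for `ρ' P = ρ (w • P)` and
  `β = w ∘ α`, `w` an involution.
-/

set_option autoImplicit false
set_option linter.style.haveILetI false

noncomputable section

open AlgebraicCurve

attribute [local instance] Classical.propDecidable

namespace Fermat.Agent.BAD.H79

open Fermat.Agent.RED.H17 Fermat.Agent.RED Fermat.Agent.BAD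

section Places

variable {K F : Type*} [Field K] [Field F] [Algebra K F]

/-- A place is determined by its order function. -/
theorem place_ext_ord {P Q : Place K F} (h : ∀ f : F, P.ord f = Q.ord f) : P = Q := by
  apply Place.ext
  ext f
  rw [← regAt_iff_mem, ← regAt_iff_mem, regAt_iff_ord, regAt_iff_ord, h f]

/-- A map on places which transports the orders along an involution is an involution. -/
theorem omega_involutive {w : F → F} (hww : ∀ x, w (w x) = x) {ω : Place K F → Place K F}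
    (hω : ∀ (P : Place K F) (f : F), (ω P).ord f = P.ord (w f)) (P : Place K F) :
    ω (ω P) = P :=
  place_ext_ord fun f => by rw [hω, hω, hww]

/-- Transport of a divisor along an involution of the places. -/
theorem mapDomain_omega_apply {ω : Place K F → Place K F} (hωω : ∀ P, ω (ω P) = P)
    (D : Divisor K F) (P : Place K F) : Finsupp.mapDomain ω D P = D (ω P) := by
  have hinj : Function.Injective ω := fun a b hab => by rw [← hωω a, ← hωω b, hab]
  conv_lhs => rw [← hωω P]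
  exact Finsupp.mapDomain_apply hinj D (ω P)

end Places

namespace TotData

variable {K L k E : Type*} [Field K] [Field L] [Algebra K L] [Field k] [Field E]
  [Algebra k E] (T : TotData K L k E E)

/-- **The mirror law (E2).**  If the second valuation of `T` is the transport of the first under
an involution `w` (modular: the Atkin-Lehner involution `w_q`), then total conservation holds
for `ρ ∘ ω` with the roles of the two reductions exchanged. -/
theorem mirror (w : L → L) (ω : Place K L → Place K L) (hww : ∀ x, w (w x) = x)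
    (hwc : ∀ (c : K) (x : L), w (algebraMap K L c * x) = algebraMap K L c * w x)
    (hω : ∀ (P : Place K L) (f : L), (ω P).ord f = P.ord (w f))
    (hV : ∀ x : L, x ∈ T.b₂.V ↔ w x ∈ T.b₁.V)
    (hred : ∀ (x : L) (h₂ : x ∈ T.b₂.V) (h₁ : w x ∈ T.b₁.V),
      T.b₂.red ⟨x, h₂⟩ = T.b₁.red ⟨w x, h₁⟩) :
    ∀ (u₁ : T.b₁.V) (u₂ : T.b₂.V), T.b₁.red u₁ ≠ 0 → T.b₂.red u₂ ≠ 0 →
      (∃ c : K, (u₂ : L) = algebraMap K L c * (u₁ : L)) →
      ∀ D : Divisor K L, (∀ P, D P = P.ord (u₁ : L)) → ∀ z : Place k E,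
        Finsupp.mapDomain (fun P => T.ρ (ω P)) D z
          = z.ord (T.b₂.red u₂) + (T.β z).ord (T.b₁.red u₁) := by
  intro u₁ u₂ h1 h2 hc D hD z
  obtain ⟨c, hc⟩ := hc
  have hu₂0 : (u₂ : L) ≠ 0 := fun h => h2 (by
    have : u₂ = 0 := Subtype.ext h
    rw [this, map_zero])
  have hc0 : c ≠ 0 := by
    rintro rfl
    apply hu₂0
    rw [hc, map_zero, zero_mul]
  have hωω : ∀ P, ω (ω P) = P := omega_involutive hww hω
  -- the mirrored functions
  have hm₁ : w (u₂ : L) ∈ T.b₁.V := (hV _).1 u₂.2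
  have hm₂ : w (u₁ : L) ∈ T.b₂.V := (hV _).2 (by rw [hww]; exact u₁.2)
  have hr₁ : T.b₁.red ⟨w (u₂ : L), hm₁⟩ = T.b₂.red u₂ := (hred _ u₂.2 hm₁).symm
  have hr₂ : T.b₂.red ⟨w (u₁ : L), hm₂⟩ = T.b₁.red u₁ := by
    rw [hred _ hm₂ (by rw [hww]; exact u₁.2)]
    congr 1
    exact Subtype.ext (hww _)
  have hrel : ∃ d : K, ((⟨w (u₁ : L), hm₂⟩ : T.b₂.V) : L)
      = algebraMap K L d * ((⟨w (u₂ : L), hm₁⟩ : T.b₁.V) : L) := by
    refine ⟨c⁻¹, ?_⟩
    change w (u₁ : L) = algebraMap K L c⁻¹ * w (u₂ : L)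
    rw [hc, hwc, ← mul_assoc, ← map_mul, inv_mul_cancel₀ hc0, map_one, one_mul]
  -- the transported divisor
  have hD' : ∀ P, Finsupp.mapDomain ω D P = P.ord ((⟨w (u₂ : L), hm₁⟩ : T.b₁.V) : L) := by
    intro P
    rw [mapDomain_omega_apply hωω, hD, hω]
    change P.ord (w (u₁ : L)) = P.ord (w (u₂ : L))
    rw [hc, hwc, ord_algebraMap_mul P hc0]
  have key := T.tot ⟨w (u₂ : L), hm₁⟩ ⟨w (u₁ : L), hm₂⟩ (by rw [hr₁]; exact h2)
    (by rw [hr₂]; exact h1) hrel (Finsupp.mapDomain ω D) hD' z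
  rw [hr₁, hr₂, ← Finsupp.mapDomain_comp] at key
  exact key

/-- The mirror law for `ω P = w • P`, `w` an involutive `K`-automorphism of `L`. -/
theorem mirror_smul (w : L ≃ₐ[K] L) (hww : ∀ x, w (w x) = x)
    (hV : ∀ x : L, x ∈ T.b₂.V ↔ w x ∈ T.b₁.V)
    (hred : ∀ (x : L) (h₂ : x ∈ T.b₂.V) (h₁ : w x ∈ T.b₁.V),
      T.b₂.red ⟨x, h₂⟩ = T.b₁.red ⟨w x, h₁⟩) :
    ∀ (u₁ : T.b₁.V) (u₂ : T.b₂.V), T.b₁.red u₁ ≠ 0 → T.b₂.red u₂ ≠ 0 →
      (∃ c : K, (u₂ : L) = algebraMap K L c * (u₁ : L)) →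
      ∀ D : Divisor K L, (∀ P, D P = P.ord (u₁ : L)) → ∀ z : Place k E,
        Finsupp.mapDomain (fun P => T.ρ (w • P)) D z
          = z.ord (T.b₂.red u₂) + (T.β z).ord (T.b₁.red u₁) :=
  T.mirror w (fun P => w • P) hww (fun c x => by rw [map_mul, AlgEquiv.commutes])
    (fun P f => by
      have h := Place.ord_smul w P (w f)
      rw [hww] at h
      exact h) hV hred

section ssd

variable [Infinite k] [IsAlgClosed K]
  (hP : HasPrincipalDivisors K L) (hd : ∀ v : Place K L, v.deg = 1)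
  (hP₁ : HasPrincipalDivisors k E) (hd₁ : ∀ v : Place k E, v.deg = 1)
  (hd₂ : ∀ v : Place k E, v.deg = 1) (hne : ∃ z, T.IsNode z)

/-- Total conservation in the shape of `S35.H89.Stmt_ModSt` (for `S = T.toSSD ..`). -/
theorem toSSD_tot :
    ∀ (u₁ : (T.toSSD hP hd hP₁ hd₁ hd₂ hne).c₁.V) (u₂ : (T.toSSD hP hd hP₁ hd₁ hd₂ hne).c₂.V),
      (T.toSSD hP hd hP₁ hd₁ hd₂ hne).c₁.red u₁ ≠ 0 →
      (T.toSSD hP hd hP₁ hd₁ hd₂ hne).c₂.red u₂ ≠ 0 →
      (∃ a : K, (u₂ : L) = algebraMap K L a * (u₁ : L)) →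
      ∀ D : Divisor K L, (∀ P, D P = P.ord (u₁ : L)) → ∀ z : Place k E,
        Finsupp.mapDomain T.ρ D z
          = z.ord ((T.toSSD hP hd hP₁ hd₁ hd₂ hne).c₁.red u₁)
            + (T.β z).ord ((T.toSSD hP hd hP₁ hd₁ hd₂ hne).c₂.red u₂) :=
  T.tot

/-- The mirror law in the shape of `S35.H89.Stmt_ModSt` (for `S = T.toSSD ..`). -/
theorem toSSD_mirror (w : L → L) (ω : Place K L → Place K L) (hww : ∀ x, w (w x) = x)
    (hwc : ∀ (c : K) (x : L), w (algebraMap K L c * x) = algebraMap K L c * w x)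
    (hω : ∀ (P : Place K L) (f : L), (ω P).ord f = P.ord (w f))
    (hV : ∀ x : L, x ∈ T.b₂.V ↔ w x ∈ T.b₁.V)
    (hred : ∀ (x : L) (h₂ : x ∈ T.b₂.V) (h₁ : w x ∈ T.b₁.V),
      T.b₂.red ⟨x, h₂⟩ = T.b₁.red ⟨w x, h₁⟩) :
    ∀ (u₁ : (T.toSSD hP hd hP₁ hd₁ hd₂ hne).c₁.V) (u₂ : (T.toSSD hP hd hP₁ hd₁ hd₂ hne).c₂.V),
      (T.toSSD hP hd hP₁ hd₁ hd₂ hne).c₁.red u₁ ≠ 0 →
      (T.toSSD hP hd hP₁ hd₁ hd₂ hne).c₂.red u₂ ≠ 0 →
      (∃ a : K, (u₂ : L) = algebraMap K L a * (u₁ : L)) →
      ∀ D : Divisor K L, (∀ P, D P = P.ord (u₁ : L)) → ∀ z : Place k E,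
        Finsupp.mapDomain (fun P => T.ρ (ω P)) D z
          = z.ord ((T.toSSD hP hd hP₁ hd₁ hd₂ hne).c₂.red u₂)
            + (T.β z).ord ((T.toSSD hP hd hP₁ hd₁ hd₂ hne).c₁.red u₁) :=
  T.mirror w ω hww hwc hω hV hred

end ssd

end TotData

/-! ### Conservation at the lower level (E4) -/

section Level

variable {K E L k E' L₁ : Type*} [Field K] [Field E] [Field L] [Field k] [Field E'] [Field L₁]
  [Algebra K E] [Algebra K L] [Algebra k E'] [Algebra k L₁]

/-- If all inertia degrees are one, the push-forward of divisors is `mapDomain` of the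
restriction of places. -/
theorem pushforward_eq_mapDomain_restrict [Algebra E L] [IsScalarTower K E L]
    [Algebra.IsIntegral E L] (hin : ∀ w : Place K L, w.inertiaDeg E = 1) (D : Divisor K L) :
    Divisor.pushforward E D = Finsupp.mapDomain (fun P : Place K L => P.restrict E) D := by
  induction D using Finsupp.induction_linear with
  | zero => simp
  | add D₁ D₂ h₁ h₂ => rw [map_add, Finsupp.mapDomain_add, h₁, h₂]
  | single w n =>
    rw [Divisor.pushforward_single, Finsupp.mapDomain_single, hin w, Nat.cast_one, mul_one]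

/-- **(E4), tower form.**  `ρ P = κ⁻¹ (r_M (P | E))`, all inertia degrees one: if the
push-forward of `D` to `E` is principal, then `ρ_* D` is the divisor of a function. -/
theorem conserve_level [Algebra E L] [IsScalarTower K E L] [Algebra.IsIntegral E L]
    (SE : RedSetup K E k E') (hin : ∀ w : Place K L, w.inertiaDeg E = 1)
    (ρ : Place K L → Place k L₁) (κ : Place k L₁ → Place k E') (hκ : Function.Injective κ)
    (hρ : ∀ P : Place K L, κ (ρ P) = SE.r (P.restrict E))
    (D : Divisor K L) (hD : (Divisor.pushforward E D).IsPrincipal) :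
    ∃ h : E', h ≠ 0 ∧ ∀ z : Place k L₁, Finsupp.mapDomain ρ D z = (κ z).ord h := by
  obtain ⟨f, hf0, hf⟩ := hD
  obtain ⟨c, hc0, hm, hr⟩ := SE.exists_scale f hf0
  refine ⟨SE.red ⟨_, hm⟩, hr, fun z => ?_⟩
  have hDI := SE.DI ⟨_, hm⟩ hr (Divisor.pushforward E D)
    (fun P => by rw [hf P]; exact (ord_algebraMap_mul P hc0 f).symm) (κ z)
  rw [← hDI, ← Finsupp.mapDomain_apply hκ (Finsupp.mapDomain ρ D) z,
    ← Finsupp.mapDomain_comp]
  rw [pushforward_eq_mapDomain_restrict hin D, ← Finsupp.mapDomain_comp]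
  have e : κ ∘ ρ = SE.r ∘ fun P : Place K L => P.restrict E := funext hρ
  rw [e]

/-- **(E4), along a homomorphism** (the shape of `S35.H89.Stmt_ModSt`). -/
theorem conserve_along (φ : E →ₐ[K] L) (hφ : φ.toRingHom.IsIntegral)
    (SE : RedSetup K E k E') (hin : ∀ w : Place K L, w.inertiaDegAlong φ hφ = 1)
    (ρ : Place K L → Place k L₁) (κ : Place k L₁ → Place k E') (hκ : Function.Injective κ)
    (hρ : ∀ P : Place K L, κ (ρ P) = SE.r (P.restrictAlong φ hφ))
    (D : Divisor K L) (hD : (Divisor.pushforwardAlong φ hφ D).IsPrincipal) :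
    ∃ h : E', h ≠ 0 ∧ ∀ z : Place k L₁, Finsupp.mapDomain ρ D z = (κ z).ord h := by
  letI := algebraAlong φ
  haveI := isScalarTower_along φ
  haveI := isIntegral_along φ hφ
  exact conserve_level SE hin ρ κ hκ hρ D hD

/-- `P | (w ∘ φ) = (w⁻¹ • P) | φ` for a `K`-automorphism `w` of `L`. -/
theorem restrictAlong_comp_smul (φ : E →ₐ[K] L) (hφ : φ.toRingHom.IsIntegral) (w : L ≃ₐ[K] L)
    (hwφ : ((w : L →ₐ[K] L).comp φ).toRingHom.IsIntegral) (P : Place K L) :
    P.restrictAlong ((w : L →ₐ[K] L).comp φ) hwφ = (w⁻¹ • P).restrictAlong φ hφ := by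
  apply Place.ext
  ext x
  change (w (φ x)) ∈ P.toValuationSubring ↔ φ x ∈ (w⁻¹ • P).toValuationSubring
  rw [Place.smul_toValuationSubring]
  constructor
  · intro h
    refine ⟨w (φ x), h, ?_⟩
    change w⁻¹ (w (φ x)) = φ x
    exact w.symm_apply_apply _
  · rintro ⟨y, hy, hyx⟩
    have : w (φ x) = y := by
      rw [← hyx]
      change w (w⁻¹ y) = y
      exact w.apply_symm_apply _
    rw [this]
    exact hy

/-- `(w • P) | α = P | β` if `β = w ∘ α` and `w` is an involution. -/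
theorem restrictAlong_smul_of_involutive (α : E →ₐ[K] L) (hα : α.toRingHom.IsIntegral)
    (w : L ≃ₐ[K] L) (hww : ∀ x, w (w x) = x) (β' : E →ₐ[K] L)
    (hβ' : β'.toRingHom.IsIntegral) (hβα : ∀ x, β' x = w (α x)) (P : Place K L) :
    (w • P).restrictAlong α hα = P.restrictAlong β' hβ' := by
  apply Place.ext
  ext x
  change α x ∈ (w • P).toValuationSubring ↔ β' x ∈ P.toValuationSubring
  rw [Place.smul_toValuationSubring, hβα]
  constructor
  · rintro ⟨y, hy, hyx⟩
    have hyx' : w y = α x := hyx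
    rw [← hyx', hww]
    exact hy
  · intro h
    exact ⟨w (α x), h, hww _⟩

/-- **(E4) for the mirrored reduction map** `ρ' P = ρ (w • P)` and `β = w ∘ α`. -/
theorem conserve_along_mirror (α : E →ₐ[K] L) (hα : α.toRingHom.IsIntegral)
    (w : L ≃ₐ[K] L) (hww : ∀ x, w (w x) = x) (β' : E →ₐ[K] L)
    (hβ' : β'.toRingHom.IsIntegral) (hβα : ∀ x, β' x = w (α x))
    (SE : RedSetup K E k E') (hin : ∀ P : Place K L, P.inertiaDegAlong β' hβ' = 1)
    (ρ : Place K L → Place k L₁) (κ : Place k L₁ → Place k E') (hκ : Function.Injective κ)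
    (hρ : ∀ P : Place K L, κ (ρ P) = SE.r (P.restrictAlong α hα))
    (D : Divisor K L) (hD : (Divisor.pushforwardAlong β' hβ' D).IsPrincipal) :
    ∃ h : E', h ≠ 0 ∧ ∀ z : Place k L₁,
      Finsupp.mapDomain (fun P => ρ (w • P)) D z = (κ z).ord h :=
  conserve_along β' hβ' SE hin (fun P => ρ (w • P)) κ hκ
    (fun P => by rw [hρ, restrictAlong_smul_of_involutive α hα w hww β' hβ' hβα]) D hD

end Level

end Fermat.Agent.BAD.H79
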