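import Fermat.Agent.BAD.H79_DI

/-!
# Item 65, package CONS-ss (helper79): the semistable Deuring datum of a total conservation datum

`TotData.toSSD T hP hd hP₁ hd₁ hd₂ hne : SSD K L k L₁ L₂` with
* `c₁.V = T.b₁.V`, `c₁.red = T.b₁.red`, `c₁.r = T.r₁`, `c₁.good = {z | ¬ T.IsNode z}`;
* `c₂.V = T.b₂.V`, `c₂.red = T.b₂.red`, `c₂.r = T.r₂`, `c₂.good = {w | ¬ T.IsNode (β⁻¹ w)}`;
* `nodes = {(z, β z) | T.IsNode z}`.

Also: `isNode_of_ord_ne_zero` (a zero or pole of the reduction of a function without zero or pole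
on the fibre is a node) and `card_le_card_nodes`.
-/

set_option autoImplicit false
set_option linter.style.haveILetI false

noncomputable section

open AlgebraicCurve

attribute [local instance] Classical.propDecidable

namespace Fermat.Agent.BAD.H79

open Fermat.Agent.RED.H17 Fermat.Agent.RED Fermat.Agent.BAD

namespace TotData

variable {K L k L₁ L₂ : Type*} [Field K] [Field L] [Algebra K L] [Field k] [Field L₁]
  [Algebra k L₁] [Field L₂] [Algebra k L₂] {T : TotData K L k L₁ L₂}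

/-! ### The partial reduction maps -/

theorem r₁_eq_some_iff {P : Place K L} {z : Place k L₁} :
    T.r₁ P = some z ↔ T.ρ P = z ∧ T.OnSide₁ P := by
  unfold r₁
  split_ifs with h
  · rw [Option.some_inj]
    exact ⟨fun h' => ⟨h', h⟩, fun h' => h'.1⟩
  · exact ⟨fun h' => absurd h' (by simp), fun h' => absurd h'.2 h⟩

theorem r₂_eq_some_iff {P : Place K L} {w : Place k L₂} :
    T.r₂ P = some w ↔ T.β (T.ρ P) = w ∧ T.OnSide₂ P := by
  unfold r₂
  split_ifs with h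
  · rw [Option.some_inj]
    exact ⟨fun h' => ⟨h', h⟩, fun h' => h'.1⟩
  · exact ⟨fun h' => absurd h' (by simp), fun h' => absurd h'.2 h⟩

theorem r₁_eq_none_iff {P : Place K L} : T.r₁ P = none ↔ ¬ T.OnSide₁ P := by
  unfold r₁
  split_ifs with h
  · exact ⟨fun h' => absurd h' (by simp), fun h' => absurd h h'⟩
  · exact ⟨fun _ => h, fun _ => rfl⟩

theorem r₂_eq_none_iff {P : Place K L} : T.r₂ P = none ↔ ¬ T.OnSide₂ P := by
  unfold r₂
  split_ifs with h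
  · exact ⟨fun h' => absurd h' (by simp), fun h' => absurd h h'⟩
  · exact ⟨fun _ => h, fun _ => rfl⟩

theorem fibre_r₁ (z : Place k L₁) : {P | T.r₁ P = some z} = T.S₁ z := by
  ext P
  exact r₁_eq_some_iff

theorem fibre_r₂ (z : Place k L₁) : {P | T.r₂ P = some (T.β z)} = T.S₂ z := by
  ext P
  rw [Set.mem_ofPred_eq, r₂_eq_some_iff, T.β.apply_eq_iff_eq]
  rfl

/-! ### The divisor identities -/

/-- The divisor identity on the first side (as sums). -/
theorem fsum_S₁ [Infinite k] [IsAlgClosed K] (hP : HasPrincipalDivisors K L)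
    (hd : ∀ v : Place K L, v.deg = 1) (hd₁ : ∀ v : Place k L₁, v.deg = 1)
    (hd₂ : ∀ v : Place k L₂, v.deg = 1) {z : Place k L₁} (hz : ¬ T.IsNode z) {g : L}
    (hg : T.p₁.IsGU g) : fsum (T.S₁ z) (dv hP g) = z.ord (T.p₁.rd g) := by
  obtain ⟨ε, hε⟩ := exists_eps hP hd₁ hd₂ hz
  exact hε.fsum_eq hP hd hg

/-- The divisor identity on the second side (as sums). -/
theorem fsum_S₂ [Infinite k] [IsAlgClosed K] (hP : HasPrincipalDivisors K L)
    (hd : ∀ v : Place K L, v.deg = 1) (hd₁ : ∀ v : Place k L₁, v.deg = 1)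
    (hd₂ : ∀ v : Place k L₂, v.deg = 1) {z : Place k L₁} (hz : ¬ T.IsNode z) {g : L}
    (hg : T.p₂.IsGU g) : fsum (T.S₂ z) (dv hP g) = (T.β z).ord (T.p₂.rd g) := by
  obtain ⟨ε, hε⟩ := exists_eps hP hd₁ hd₂ hz
  obtain ⟨c, hc0, hGU⟩ := T.p₁.exists_isGU_scale hg.ne_zero
  have hcL : algebraMap K L c ≠ 0 := (map_ne_zero_iff _ (algebraMap K L).injective).mpr hc0
  have e : algebraMap K L c⁻¹ * (algebraMap K L c * g) = g := by
    rw [map_inv₀, inv_mul_cancel_left₀ hcL]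
  have hGU2 : T.p₂.IsGU (algebraMap K L c⁻¹ * (algebraMap K L c * g)) := by rwa [e]
  have htot := T.tot_fsum hP hGU hGU2 z
  rw [e, dv_const_mul' hP hc0] at htot
  have h1 := hε.fsum_eq hP hd hGU
  rw [dv_const_mul' hP hc0] at h1
  have hset : {P | T.ρ P = z} = T.S₁ z ∪ T.S₂ z := by
    ext P
    constructor
    · intro hPz
      rcases onSide_or (T := T) hP P with h | h
      · exact Or.inl ⟨hPz, h⟩
      · exact Or.inr ⟨hPz, h⟩
    · rintro (h | h)
      · exact h.1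
      · exact h.1
  rw [hset, fsum_union _ (fun P h₁ h₂ => hε.not_both hP hd h₁.1 h₁.2 h₂.2)] at htot
  omega

/-- **(C-reg)** for the first component. -/
theorem DI₁ [Infinite k] [IsAlgClosed K] (hP : HasPrincipalDivisors K L)
    (hd : ∀ v : Place K L, v.deg = 1) (hd₁ : ∀ v : Place k L₁, v.deg = 1)
    (hd₂ : ∀ v : Place k L₂, v.deg = 1) (u : T.b₁.V) (hu : T.b₁.red u ≠ 0) (D : Divisor K L)
    (hD : ∀ P, D P = P.ord (u : L)) (z : Place k L₁) (hz : ¬ T.IsNode z) :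
    Finsupp.mapDomain T.r₁ D (some z) = z.ord (T.b₁.red u) := by
  have hGU : T.p₁.IsGU (u : L) := ⟨u.2, by rw [T.p₁.rd_of_mem u.2]; exact hu⟩
  rw [mapDomain_eq_fsum, fibre_r₁, eq_dv hP hD, fsum_S₁ hP hd hd₁ hd₂ hz hGU,
    T.p₁.rd_of_mem u.2]
  rfl

/-- **(C-reg)** for the second component. -/
theorem DI₂ [Infinite k] [IsAlgClosed K] (hP : HasPrincipalDivisors K L)
    (hd : ∀ v : Place K L, v.deg = 1) (hd₁ : ∀ v : Place k L₁, v.deg = 1)
    (hd₂ : ∀ v : Place k L₂, v.deg = 1) (u : T.b₂.V) (hu : T.b₂.red u ≠ 0) (D : Divisor K L)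
    (hD : ∀ P, D P = P.ord (u : L)) (w : Place k L₂) (hw : ¬ T.IsNode (T.β.symm w)) :
    Finsupp.mapDomain T.r₂ D (some w) = w.ord (T.b₂.red u) := by
  have hGU : T.p₂.IsGU (u : L) := ⟨u.2, by rw [T.p₂.rd_of_mem u.2]; exact hu⟩
  have hwz : w = T.β (T.β.symm w) := (T.β.apply_symm_apply w).symm
  rw [mapDomain_eq_fsum]
  conv_lhs => rw [hwz]
  rw [fibre_r₂, eq_dv hP hD, fsum_S₂ hP hd hd₁ hd₂ hw hGU, T.p₂.rd_of_mem u.2, ← hwz]
  rfl

/-- **(C-node)**. -/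
theorem DIn' [Infinite k] (hP : HasPrincipalDivisors K L) (z : Place k L₁) (hz : T.IsNode z)
    (u₁ : T.b₁.V) (u₂ : T.b₂.V) (h₁ : T.b₁.red u₁ ≠ 0) (h₂ : T.b₂.red u₂ ≠ 0)
    (hc : ∃ c : K, (u₂ : L) = algebraMap K L c * (u₁ : L)) (D : Divisor K L)
    (hD : ∀ P, D P = P.ord (u₁ : L)) :
    Finsupp.mapDomain T.r₁ D (some z) = z.ord (T.b₁.red u₁) + (T.β z).ord (T.b₂.red u₂) := by
  rw [← T.tot u₁ u₂ h₁ h₂ hc D hD z, mapDomain_eq_fsum, mapDomain_eq_fsum, fibre_r₁]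
  refine fsum_congr D fun P _ => ?_
  constructor
  · exact fun h => h.1
  · intro h
    have h' : T.ρ P = z := h
    exact ⟨h', IsNode.onSide₁ hP (by rw [h']; exact hz)⟩

/-- **(C-glue)**. -/
theorem glue' [Infinite k] (hP : HasPrincipalDivisors K L)
    (hd₁ : ∀ v : Place k L₁, v.deg = 1) (z : Place k L₁) (hz : T.IsNode z)
    (f : L) (h₁ : f ∈ T.b₁.V) (h₂ : f ∈ T.b₂.V)
    (hreg : ∀ P, T.r₁ P = some z → 0 ≤ P.ord f) :
    ∃ a : k, VanAt z (T.b₁.red ⟨f, h₁⟩ - algebraMap k L₁ a) ∧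
      VanAt (T.β z) (T.b₂.red ⟨f, h₂⟩ - algebraMap k L₂ a) := by
  have hR : T.InR z f := by
    refine ⟨h₁, h₂, fun P hPz => regAt_of_ord_nonneg (hreg P ?_)⟩
    rw [r₁_eq_some_iff]
    exact ⟨hPz, IsNode.onSide₁ hP (by rw [hPz]; exact hz)⟩
  obtain ⟨a, ha⟩ := exists_value z (hd₁ z) (hR.regAt₁ hP)
  refine ⟨a, ?_, ?_⟩
  · have := ha
    rwa [T.p₁.rd_of_mem h₁] at this
  · have := (hz f hR a).mp ha
    rwa [T.p₂.rd_of_mem h₂] at this

/-! ### Finiteness of the set of nodes -/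

theorem finite_nodes [Infinite k] (hP : HasPrincipalDivisors K L)
    (hP₁ : HasPrincipalDivisors k L₁) (T : TotData K L k L₁ L₂) : {z | T.IsNode z}.Finite := by
  obtain ⟨e₀, h₁, h₂, hr₁, hr₂⟩ := T.sep
  have hr₁' : T.p₁.rd e₀ ≠ 0 := by rw [T.p₁.rd_of_mem h₁]; exact hr₁
  have hr₂' : T.p₂.rd e₀ = 0 := by rw [T.p₂.rd_of_mem h₂]; exact hr₂
  have hfin : (T.ρ '' {P : Place K L | P.ord e₀ ≠ 0} ∪
      {z : Place k L₁ | z.ord (T.p₁.rd e₀) ≠ 0}).Finite :=
    ((finite_ord_ne_zero hP e₀).image _).union (finite_ord_ne_zero hP₁ _)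
  refine hfin.subset fun z hz => ?_
  by_contra hcon
  rw [Set.mem_union, not_or] at hcon
  obtain ⟨hc1, hc2⟩ := hcon
  have hR : T.InR z e₀ := by
    refine ⟨h₁, h₂, fun P hPz => regAt_of_ord_nonneg ?_⟩
    have : P.ord e₀ = 0 := by
      by_contra hne
      exact hc1 ⟨P, hne, hPz⟩
    omega
  have hv : VanAt z (T.p₁.rd e₀ - algebraMap k L₁ 0) := by
    refine (hz e₀ hR 0).mpr ?_
    rw [hr₂', map_zero, sub_zero]
    exact vanAt_zero _
  rw [map_zero, sub_zero] at hv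
  have := hv.ord_pos hr₁'
  rw [Set.mem_ofPred_eq, not_not] at hc2
  omega

/-- **A zero or pole of the first reduction of a function without zero or pole on the fibre is a
node.** -/
theorem isNode_of_ord_ne_zero [Infinite k] [IsAlgClosed K] (hP : HasPrincipalDivisors K L)
    (hd : ∀ v : Place K L, v.deg = 1) (hd₁ : ∀ v : Place k L₁, v.deg = 1)
    (hd₂ : ∀ v : Place k L₂, v.deg = 1) {z : Place k L₁} {g : L} (hg : T.p₁.IsGU g)
    (h0 : ∀ P, T.ρ P = z → P.ord g = 0) (hne : z.ord (T.p₁.rd g) ≠ 0) : T.IsNode z := by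
  by_contra hz
  have h1 := fsum_S₁ hP hd hd₁ hd₂ hz hg
  have h2 : fsum (T.S₁ z) (dv hP g) = 0 :=
    fsum_eq_zero fun P hPS => by rw [dv_apply]; exact h0 P hPS.1
  omega

/-- The same for the second reduction. -/
theorem isNode_of_ord_ne_zero₂ [Infinite k] [IsAlgClosed K] (hP : HasPrincipalDivisors K L)
    (hd : ∀ v : Place K L, v.deg = 1) (hd₁ : ∀ v : Place k L₁, v.deg = 1)
    (hd₂ : ∀ v : Place k L₂, v.deg = 1) {z : Place k L₁} {g : L} (hg : T.p₂.IsGU g)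
    (h0 : ∀ P, T.ρ P = z → P.ord g = 0) (hne : (T.β z).ord (T.p₂.rd g) ≠ 0) : T.IsNode z := by
  by_contra hz
  have h1 := fsum_S₂ hP hd hd₁ hd₂ hz hg
  have h2 : fsum (T.S₂ z) (dv hP g) = 0 :=
    fsum_eq_zero fun P hPS => by rw [dv_apply]; exact h0 P hPS.1
  omega

/-! ### The semistable Deuring datum -/

/-- The set of nodes as a finset of pairs of branches. -/
def nodes [Infinite k] (T : TotData K L k L₁ L₂) (hP : HasPrincipalDivisors K L)
    (hP₁ : HasPrincipalDivisors k L₁) : Finset (Place k L₁ × Place k L₂) :=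
  (finite_nodes hP hP₁ T).toFinset.image fun z => (z, T.β z)

theorem mem_nodes [Infinite k] (hP : HasPrincipalDivisors K L)
    (hP₁ : HasPrincipalDivisors k L₁) {s : Place k L₁ × Place k L₂} :
    s ∈ T.nodes hP hP₁ ↔ T.IsNode s.1 ∧ s.2 = T.β s.1 := by
  unfold nodes
  rw [Finset.mem_image]
  constructor
  · rintro ⟨z, hz, rfl⟩
    rw [Set.Finite.mem_toFinset] at hz
    exact ⟨hz, rfl⟩
  · rintro ⟨h1, h2⟩
    refine ⟨s.1, ?_, ?_⟩
    · rw [Set.Finite.mem_toFinset]; exact h1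
    · rw [← h2]

theorem card_le_card_nodes [Infinite k] (hP : HasPrincipalDivisors K L)
    (hP₁ : HasPrincipalDivisors k L₁) (Z : Finset (Place k L₁)) (hZ : ∀ z ∈ Z, T.IsNode z) :
    Z.card ≤ (T.nodes hP hP₁).card := by
  have h1 : Z.card = (Z.image fun z => (z, T.β z)).card := by
    rw [Finset.card_image_of_injective]
    intro z z' h
    exact (Prod.mk.inj h).1
  rw [h1]
  refine Finset.card_le_card fun s hs => ?_
  obtain ⟨z, hz, rfl⟩ := Finset.mem_image.mp hs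
  exact (mem_nodes hP hP₁).mpr ⟨hZ z hz, rfl⟩

/-- **The semistable Deuring datum of a total conservation datum.** -/
def toSSD [Infinite k] [IsAlgClosed K] (T : TotData K L k L₁ L₂)
    (hP : HasPrincipalDivisors K L) (hd : ∀ v : Place K L, v.deg = 1)
    (hP₁ : HasPrincipalDivisors k L₁) (hd₁ : ∀ v : Place k L₁, v.deg = 1)
    (hd₂ : ∀ v : Place k L₂, v.deg = 1) (hne : ∃ z, T.IsNode z) : SSD K L k L₁ L₂ where
  c₁ :=
    { V := T.b₁.V
      red := T.b₁.red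
      red_eq_zero_iff := T.b₁.red_eq_zero_iff
      red_surj := T.b₁.red_surj
      exists_scale := T.b₁.exists_scale
      red_const := T.b₁.red_const
      const_surj := T.b₁.const_surj
      r := T.r₁
      good := {z | ¬ T.IsNode z}
      DI := fun u hu D hD z hz => DI₁ hP hd hd₁ hd₂ u hu D hD z hz }
  c₂ :=
    { V := T.b₂.V
      red := T.b₂.red
      red_eq_zero_iff := T.b₂.red_eq_zero_iff
      red_surj := T.b₂.red_surj
      exists_scale := T.b₂.exists_scale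
      red_const := T.b₂.red_const
      const_surj := T.b₂.const_surj
      r := T.r₂
      good := {w | ¬ T.IsNode (T.β.symm w)}
      DI := fun u hu D hD w hw => DI₂ hP hd hd₁ hd₂ u hu D hD w hw }
  nodes := T.nodes hP hP₁
  nodes_nonempty := by
    obtain ⟨z, hz⟩ := hne
    exact ⟨(z, T.β z), (mem_nodes hP hP₁).mpr ⟨hz, rfl⟩⟩
  inj₁ := by
    intro s hs s' hs' h
    obtain ⟨-, h2⟩ := (mem_nodes hP hP₁).mp hs
    obtain ⟨-, h2'⟩ := (mem_nodes hP hP₁).mp hs'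
    refine Prod.ext h ?_
    rw [h2, h2', h]
  inj₂ := by
    intro s hs s' hs' h
    obtain ⟨-, h2⟩ := (mem_nodes hP hP₁).mp hs
    obtain ⟨-, h2'⟩ := (mem_nodes hP hP₁).mp hs'
    refine Prod.ext ?_ h
    rw [h2, h2'] at h
    exact T.β.injective h
  good₁ := by
    intro Q
    constructor
    · intro hQ s hs hsQ
      exact hQ (hsQ ▸ ((mem_nodes hP hP₁).mp hs).1)
    · intro h hQ
      exact h (Q, T.β Q) ((mem_nodes hP hP₁).mpr ⟨hQ, rfl⟩) rfl
  good₂ := by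
    intro Q
    constructor
    · intro hQ s hs hsQ
      obtain ⟨h1, h2⟩ := (mem_nodes hP hP₁).mp hs
      apply hQ
      rw [← hsQ, h2, T.β.symm_apply_apply]
      exact h1
    · intro h hQ
      exact h (T.β.symm Q, Q) ((mem_nodes hP hP₁).mpr ⟨hQ, (T.β.apply_symm_apply Q).symm⟩) rfl
  r_cases := by
    intro P
    by_cases hz : T.IsNode (T.ρ P)
    · right; right
      exact ⟨(T.ρ P, T.β (T.ρ P)), (mem_nodes hP hP₁).mpr ⟨hz, rfl⟩,
        r₁_eq_some_iff.mpr ⟨rfl, IsNode.onSide₁ hP hz⟩,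
        r₂_eq_some_iff.mpr ⟨rfl, IsNode.onSide₂ hP hz⟩⟩
    · rcases onSide_or (T := T) hP P with h | h
      · left
        exact ⟨T.ρ P, hz, r₁_eq_some_iff.mpr ⟨rfl, h⟩,
          r₂_eq_none_iff.mpr fun h' => not_onSide_both hP hd hd₁ hd₂ hz h h'⟩
      · right; left
        refine ⟨T.β (T.ρ P), ?_, r₂_eq_some_iff.mpr ⟨rfl, h⟩,
          r₁_eq_none_iff.mpr fun h' => not_onSide_both hP hd hd₁ hd₂ hz h' h⟩
        show ¬ T.IsNode (T.β.symm (T.β (T.ρ P)))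
        rw [T.β.symm_apply_apply]
        exact hz
  const_mem := T.const_mem
  const_red := T.const_red
  DIn := by
    intro s hs u₁ u₂ h₁ h₂ hc D hD
    obtain ⟨h1, h2⟩ := (mem_nodes hP hP₁).mp hs
    rw [h2]
    exact DIn' hP s.1 h1 u₁ u₂ h₁ h₂ hc D hD
  glue := by
    intro s hs f h₁ h₂ hreg
    obtain ⟨h1, h2⟩ := (mem_nodes hP hP₁).mp hs
    rw [h2]
    exact glue' hP hd₁ s.1 h1 f h₁ h₂ hreg

section simp

variable [Infinite k] [IsAlgClosed K] (T : TotData K L k L₁ L₂)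
  (hP : HasPrincipalDivisors K L) (hd : ∀ v : Place K L, v.deg = 1)
  (hP₁ : HasPrincipalDivisors k L₁) (hd₁ : ∀ v : Place k L₁, v.deg = 1)
  (hd₂ : ∀ v : Place k L₂, v.deg = 1) (hne : ∃ z, T.IsNode z)

@[simp] theorem toSSD_c₁_V : (T.toSSD hP hd hP₁ hd₁ hd₂ hne).c₁.V = T.b₁.V := rfl

@[simp] theorem toSSD_c₂_V : (T.toSSD hP hd hP₁ hd₁ hd₂ hne).c₂.V = T.b₂.V := rfl

@[simp] theorem toSSD_c₁_red : (T.toSSD hP hd hP₁ hd₁ hd₂ hne).c₁.red = T.b₁.red := rfl

@[simp] theorem toSSD_c₂_red : (T.toSSD hP hd hP₁ hd₁ hd₂ hne).c₂.red = T.b₂.red := rfl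

@[simp] theorem toSSD_c₁_r : (T.toSSD hP hd hP₁ hd₁ hd₂ hne).c₁.r = T.r₁ := rfl

@[simp] theorem toSSD_c₂_r : (T.toSSD hP hd hP₁ hd₁ hd₂ hne).c₂.r = T.r₂ := rfl

@[simp] theorem toSSD_nodes : (T.toSSD hP hd hP₁ hd₁ hd₂ hne).nodes = T.nodes hP hP₁ := rfl

theorem card_le_toSSD_nodes (Z : Finset (Place k L₁)) (hZ : ∀ z ∈ Z, T.IsNode z) :
    Z.card ≤ (T.toSSD hP hd hP₁ hd₁ hd₂ hne).nodes.card :=
  card_le_card_nodes hP hP₁ Z hZ

end simp

end TotData

end Fermat.Agent.BAD.H79
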