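import Fermat.Agent.BAD.H79_Basic

/-!
# Item 65, package CONS-ss (helper79): the two sides of a fibre, nodes

* `onSide_or` : every place lies on the first or on the second side;
* `IsNode.onSide₁`, `IsNode.onSide₂` : over a node every place lies on both sides;
* `exists_eps` : over a point which is not a node there is `ε ∈ R_z` with values `(1, 0)`;
* `not_onSide_both` : over a point which is not a node the two sides are disjoint.
-/

set_option autoImplicit false
set_option linter.style.haveILetI false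

noncomputable section

open AlgebraicCurve

attribute [local instance] Classical.propDecidable

namespace Fermat.Agent.BAD.H79

open Fermat.Agent.RED.H17 Fermat.Agent.RED Fermat.Agent.BAD

namespace TotData

variable {K L k L₁ L₂ : Type*} [Field K] [Field L] [Algebra K L] [Field k] [Field L₁]
  [Algebra k L₁] [Field L₂] [Algebra k L₂] {T : TotData K L k L₁ L₂}

/-- Every place lies on the first or on the second side. -/
theorem onSide_or [Infinite k] (hP : HasPrincipalDivisors K L) (P : Place K L) :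
    T.OnSide₁ P ∨ T.OnSide₂ P := by
  by_contra hcon
  rw [not_or] at hcon
  obtain ⟨h1, h2⟩ := hcon
  unfold OnSide₁ at h1
  unfold OnSide₂ at h2
  push Not at h1 h2
  obtain ⟨f₁, hf₁, a₁, ha₁, hn₁⟩ := h1
  obtain ⟨f₂, hf₂, a₂, ha₂, hn₂⟩ := h2
  have hm₁ := hf₁.const_mem hP rfl ha₁
  have hm₂ := hf₂.const_mem hP rfl ha₂
  have hg₁ := hf₁.sub_value hP rfl ha₁
  have hg₂ := hf₂.sub_value hP rfl ha₂
  rw [← T.p₁.rd_sub hf₁.1 hm₁] at hn₁
  rw [← T.p₂.rd_sub hf₂.2.1 (T.const_mem₂ hm₂)] at hn₂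
  have hv₁ : VanAt (T.β (T.ρ P)) (T.p₂.rd (f₁ - algebraMap K L a₁)) :=
    (hg₁.vanAt_cases hP rfl ha₁).resolve_left hn₁
  have hv₂ : VanAt (T.ρ P) (T.p₁.rd (f₂ - algebraMap K L a₂)) :=
    (hg₂.vanAt_cases hP rfl ha₂).resolve_right hn₂
  have hg := hg₁.add hg₂
  rcases hg.vanAt_cases hP rfl (ha₁.add ha₂) with h | h
  · rw [T.p₁.rd_add hg₁.1 hg₂.1] at h
    have := h.sub hv₂
    rw [add_sub_cancel_right] at this
    exact hn₁ this
  · rw [T.p₂.rd_add hg₁.2.1 hg₂.2.1] at h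
    have := h.sub hv₁
    rw [add_sub_cancel_left] at this
    exact hn₂ this

/-- Over a node every place lies on the first side. -/
theorem IsNode.onSide₁ [Infinite k] (hP : HasPrincipalDivisors K L) {P : Place K L}
    (hz : T.IsNode (T.ρ P)) : T.OnSide₁ P := by
  intro f hf a ha
  rcases hf.val_cases hP rfl ha with h | h
  · exact h
  · obtain ⟨α, h1, h2⟩ := T.const_rd (hf.const_mem hP rfl ha)
    rw [h1]
    rw [h2] at h
    exact (hz f hf α).mpr h

/-- Over a node every place lies on the second side. -/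
theorem IsNode.onSide₂ [Infinite k] (hP : HasPrincipalDivisors K L) {P : Place K L}
    (hz : T.IsNode (T.ρ P)) : T.OnSide₂ P := by
  intro f hf a ha
  rcases hf.val_cases hP rfl ha with h | h
  · obtain ⟨α, h1, h2⟩ := T.const_rd (hf.const_mem hP rfl ha)
    rw [h2]
    rw [h1] at h
    exact (hz f hf α).mp h
  · exact h

/-- `ε` is a **cut-off** at `z`: `ε ∈ R_z` with values `1` at `z` and `0` at `β z`. -/
structure IsEps (T : TotData K L k L₁ L₂) (z : Place k L₁) (ε : L) : Prop where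
  inR : T.InR z ε
  van₁ : VanAt z (T.p₁.rd ε - 1)
  van₂ : VanAt (T.β z) (T.p₂.rd ε)

/-- Over a point which is not a node there is a cut-off. -/
theorem exists_eps [Infinite k] (hP : HasPrincipalDivisors K L)
    (hd₁ : ∀ v : Place k L₁, v.deg = 1) (hd₂ : ∀ v : Place k L₂, v.deg = 1)
    {z : Place k L₁} (hz : ¬ T.IsNode z) : ∃ ε : L, T.IsEps z ε := by
  unfold IsNode at hz
  push Not at hz
  obtain ⟨f, hf, α, hα⟩ := hz
  obtain ⟨α₁, hα₁⟩ := exists_value z (hd₁ z) (hf.regAt₁ hP)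
  obtain ⟨α₂, hα₂⟩ := exists_value (T.β z) (hd₂ _) (hf.regAt₂ hP)
  have hne : α₁ ≠ α₂ := by
    rintro rfl
    rcases hα with ⟨h, hn⟩ | ⟨hn, h⟩
    · apply hn
      rw [value_unique z h hα₁]
      exact hα₂
    · apply hn
      rw [value_unique _ h hα₂]
      exact hα₁
  -- `f' = f - a₂` has values `(γ, 0)`, `γ = α₁ - α₂ ≠ 0`
  obtain ⟨a₂, ha₂, ha₂', hr₁, hr₂⟩ := T.exists_lift α₂
  obtain ⟨c, hc, hc', hc₁, hc₂⟩ := T.exists_lift (α₁ - α₂)⁻¹
  have hf' : T.InR z (f - algebraMap K L a₂) := hf.sub (T.inR_const z ha₂)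
  have hε : T.InR z (algebraMap K L c * (f - algebraMap K L a₂)) := (T.inR_const z hc).mul hf'
  refine ⟨_, hε, ?_, ?_⟩
  · rw [T.p₁.rd_mul hc hf'.1, T.p₁.rd_sub hf.1 ha₂, hc₁, hr₁]
    have e : algebraMap k L₁ (α₁ - α₂)⁻¹ * (T.p₁.rd f - algebraMap k L₁ α₂) - 1
        = algebraMap k L₁ (α₁ - α₂)⁻¹ * (T.p₁.rd f - algebraMap k L₁ α₁) := by
      have h1 : algebraMap k L₁ (α₁ - α₂)⁻¹ * algebraMap k L₁ (α₁ - α₂) = 1 := by
        rw [← map_mul, inv_mul_cancel₀ (sub_ne_zero.mpr hne), map_one]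
      rw [map_sub] at h1
      linear_combination h1
    rw [e]
    exact (regAt_algebraMap z _).mul_vanAt hα₁
  · rw [T.p₂.rd_mul hc' hf'.2.1, T.p₂.rd_sub hf.2.1 ha₂', hc₂, hr₂]
    exact (regAt_algebraMap _ _).mul_vanAt hα₂

namespace IsEps

variable {z : Place k L₁} {ε : L}

theorem rd₁_ne_zero (h : T.IsEps z ε) : T.p₁.rd ε ≠ 0 := by
  intro h0
  have := h.van₁
  rw [h0, zero_sub] at this
  have h1 : VanAt z (algebraMap k L₁ 1) := by
    rw [map_one]
    have := this.neg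
    rwa [neg_neg] at this
  exact one_ne_zero (const_eq_zero_of_vanAt h1)

theorem isGU₁ (h : T.IsEps z ε) : T.p₁.IsGU ε := ⟨h.inR.1, h.rd₁_ne_zero⟩

/-- The first reduction of a cut-off does not vanish at `z`. -/
theorem not_vanAt₁ (h : T.IsEps z ε) : ¬ VanAt z (T.p₁.rd ε) := by
  intro h0
  have := h0.sub h.van₁
  rw [sub_sub_cancel] at this
  have h1 : VanAt z (algebraMap k L₁ 1) := by rwa [map_one]
  exact one_ne_zero (const_eq_zero_of_vanAt h1)

theorem ord₁ [Infinite k] (hP : HasPrincipalDivisors K L) (h : T.IsEps z ε) :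
    z.ord (T.p₁.rd ε) = 0 := by
  have h1 := (h.inR.regAt₁ hP).ord_nonneg
  have h2 : ¬ 0 < z.ord (T.p₁.rd ε) := fun hpos => h.not_vanAt₁ (vanAt_of_ord_pos hpos)
  omega

/-- The value of a cut-off at a place of the first side reduces to `1`. -/
theorem value₁ (hP : HasPrincipalDivisors K L) (h : T.IsEps z ε) {P : Place K L}
    (hPz : T.ρ P = z) (hS : T.OnSide₁ P) {a : K} (ha : VanAt P (ε - algebraMap K L a)) :
    T.p₁.rd (algebraMap K L a) = 1 ∧ T.p₂.rd (algebraMap K L a) = 1 := by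
  subst hPz
  have h1 := hS ε h.inR a ha
  obtain ⟨α, hα₁, hα₂⟩ := T.const_rd (h.inR.const_mem hP rfl ha)
  have h2 := h.van₁.sub h1
  rw [hα₁] at h2
  have h3 : T.p₁.rd ε - 1 - (T.p₁.rd ε - algebraMap k L₁ α) = algebraMap k L₁ (α - 1) := by
    rw [map_sub, map_one]; ring
  rw [h3] at h2
  have h4 : α = 1 := sub_eq_zero.mp (const_eq_zero_of_vanAt h2)
  rw [hα₁, hα₂, h4, map_one, map_one]
  exact ⟨rfl, rfl⟩

/-- The value of a cut-off at a place of the second side reduces to `0`. -/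
theorem value₂ (hP : HasPrincipalDivisors K L) (h : T.IsEps z ε) {P : Place K L}
    (hPz : T.ρ P = z) (hS : T.OnSide₂ P) {a : K} (ha : VanAt P (ε - algebraMap K L a)) :
    T.p₁.rd (algebraMap K L a) = 0 ∧ T.p₂.rd (algebraMap K L a) = 0 := by
  subst hPz
  have h1 := hS ε h.inR a ha
  obtain ⟨α, hα₁, hα₂⟩ := T.const_rd (h.inR.const_mem hP rfl ha)
  have h2 := h.van₂.sub h1
  rw [hα₂, sub_sub_cancel] at h2
  have h4 : α = 0 := const_eq_zero_of_vanAt h2
  rw [hα₁, hα₂, h4, map_zero, map_zero]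
  exact ⟨rfl, rfl⟩

end IsEps

/-- Over a point with a cut-off, no place lies on both sides. -/
theorem IsEps.not_both (hP : HasPrincipalDivisors K L) (hd : ∀ v : Place K L, v.deg = 1)
    {z : Place k L₁} {ε : L} (h : T.IsEps z ε) {P : Place K L} (hPz : T.ρ P = z)
    (h₁ : T.OnSide₁ P) (h₂ : T.OnSide₂ P) : False := by
  obtain ⟨a, ha⟩ := exists_value P (hd P) (h.inR.reg hPz)
  have e1 := (h.value₁ hP hPz h₁ ha).1
  have e2 := (h.value₂ hP hPz h₂ ha).1
  rw [e1] at e2
  exact one_ne_zero e2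

/-- Over a point which is not a node, no place lies on both sides. -/
theorem not_onSide_both [Infinite k] (hP : HasPrincipalDivisors K L)
    (hd : ∀ v : Place K L, v.deg = 1)
    (hd₁ : ∀ v : Place k L₁, v.deg = 1) (hd₂ : ∀ v : Place k L₂, v.deg = 1)
    {P : Place K L} (hz : ¬ T.IsNode (T.ρ P)) (h₁ : T.OnSide₁ P) (h₂ : T.OnSide₂ P) : False := by
  obtain ⟨ε, hε⟩ := exists_eps hP hd₁ hd₂ hz
  exact hε.not_both hP hd rfl h₁ h₂

end TotData

end Fermat.Agent.BAD.H79
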