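import Mathlib

/-!
# Item 65, package V2 (helper82): valuation rings of `Q̄` over a prime have rank one

`L` a field of characteristic `0`, algebraic over `ℚ` (every element is algebraic over `ℤ`),
`A` a valuation subring of `L` such that the prime `q` is not a unit of `A`.

* `valuation_int_eq_one` : integers prime to `q` are units of `A`;
* `exists_pow_le_q` : `c ∈ m_A ⇒ ∃ i, q ∣ c ^ i` in `A`  (`v c ^ i ≤ v q`);
* `exists_q_pow_le` : `d ≠ 0 ⇒ ∃ k, d ∣ q ^ k` in `A`   (`v q ^ k ≤ v d`);
* `arch` : `c ∈ m_A`, `d ≠ 0` `⇒ ∃ m, c ^ m / d ∈ A`   (**rank one**).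
-/

set_option autoImplicit false

noncomputable section

open Polynomial

namespace Fermat.Agent.BAD.H82

variable {L : Type*} [Field L] (A : ValuationSubring L)

theorem aeval_int_mem {c : L} (hc : c ∈ A) (P : ℤ[X]) : aeval c P ∈ A := by
  induction P using Polynomial.induction_on' with
  | add p r hp hr => rw [map_add]; exact A.add_mem _ _ hp hr
  | monomial n a =>
    rw [aeval_monomial]
    refine A.mul_mem _ _ ?_ (pow_mem hc n)
    rw [eq_intCast]
    exact intCast_mem A a

theorem valuation_aeval_le_one {c : L} (hc : c ∈ A) (P : ℤ[X]) :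
    A.valuation (aeval c P) ≤ 1 :=
  (A.valuation_le_one_iff _).2 (aeval_int_mem A hc P)

theorem valuation_int_le_one (a : ℤ) : A.valuation (a : L) ≤ 1 :=
  (A.valuation_le_one_iff _).2 (intCast_mem A a)

variable {q : ℕ} (hq : q.Prime) (hA : (q : L) ∈ A.nonunits)

include hA in
theorem valuation_q_lt_one : A.valuation (q : L) < 1 :=
  (A.mem_nonunits_iff).1 hA

include hq hA in
/-- Integers prime to `q` are units of `A`. -/
theorem valuation_int_eq_one (u : ℤ) (hu : ¬ (q : ℤ) ∣ u) : A.valuation (u : L) = 1 := by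
  have hcop : IsCoprime (q : ℤ) u := by
    rw [Int.isCoprime_iff_gcd_eq_one]
    have h1 : ¬ q ∣ u.natAbs := fun h => hu (Int.natCast_dvd.mpr h)
    exact (Nat.Prime.coprime_iff_not_dvd hq).mpr h1
  obtain ⟨s, t, hst⟩ := hcop
  have h1 : (t : L) * (u : L) = 1 - (s : L) * (q : L) := by
    have := congrArg (fun z : ℤ => (z : L)) hst
    push_cast at this
    linear_combination this
  have h2 : A.valuation ((s : L) * (q : L)) < 1 := by
    rw [map_mul]
    calc A.valuation (s : L) * A.valuation (q : L)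
        ≤ 1 * A.valuation (q : L) := mul_le_mul_left (valuation_int_le_one A s) _
      _ = A.valuation (q : L) := one_mul _
      _ < 1 := valuation_q_lt_one A hA
  have h3 : A.valuation ((t : L) * (u : L)) = 1 := by
    rw [h1]
    exact Valuation.map_one_sub_of_lt _ h2
  rw [map_mul] at h3
  refine le_antisymm (valuation_int_le_one A u) ?_
  calc (1 : A.ValueGroup) = A.valuation (t : L) * A.valuation (u : L) := h3.symm
    _ ≤ 1 * A.valuation (u : L) := mul_le_mul_left (valuation_int_le_one A t) _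
    _ = A.valuation (u : L) := one_mul _

include hq hA in
/-- `v (a) = v (q) ^ k` for a non-zero integer `a`, for some `k`. -/
theorem exists_valuation_int_eq (a : ℤ) (ha : a ≠ 0) :
    ∃ k : ℕ, A.valuation (a : L) = A.valuation (q : L) ^ k := by
  obtain ⟨k, n', hn', hk⟩ := Nat.exists_eq_pow_mul_and_not_dvd (Int.natAbs_ne_zero.mpr ha) q
    hq.ne_one
  refine ⟨k, ?_⟩
  have h1 : A.valuation (a : L) = A.valuation ((a.natAbs : ℤ) : L) := by
    rcases Int.natAbs_eq a with h | h
    · rw [← h]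
    · conv_lhs => rw [h]
      rw [Int.cast_neg, Valuation.map_neg]
  rw [h1, hk]
  push_cast
  rw [map_mul, map_pow]
  have h2 : A.valuation ((n' : ℕ) : L) = 1 := by
    have := valuation_int_eq_one A hq hA (n' : ℤ) (by exact_mod_cast hn')
    simpa using this
  rw [h2, mul_one]

include hq hA in
/-- `d ∣ q ^ k` for some `k`, `d ≠ 0` algebraic. -/
theorem exists_q_pow_le {d : L} (hd : d ≠ 0) (halg : IsAlgebraic ℤ d) :
    ∃ k : ℕ, A.valuation (q : L) ^ k ≤ A.valuation d := by
  by_cases h1 : 1 ≤ A.valuation d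
  · exact ⟨0, by rw [pow_zero]; exact h1⟩
  rw [not_le] at h1
  have hdA : d ∈ A := (A.valuation_le_one_iff _).1 h1.le
  obtain ⟨P, hP0, hP⟩ := halg.exists_nonzero_coeff_and_aeval_eq_zero
    (mem_nonZeroDivisors_of_ne_zero hd)
  obtain ⟨k, hk⟩ := exists_valuation_int_eq A hq hA (P.coeff 0) hP0
  refine ⟨k, ?_⟩
  rw [← hk]
  have h2 : ((P.coeff 0 : ℤ) : L) = -(aeval d P.divX * d) := by
    have h3 := congrArg (aeval d) (divX_mul_X_add P)
    rw [map_add, map_mul, aeval_X, aeval_C, hP, eq_intCast] at h3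
    linear_combination h3
  rw [h2, Valuation.map_neg, map_mul]
  calc A.valuation (aeval d P.divX) * A.valuation d
      ≤ 1 * A.valuation d := mul_le_mul_left (valuation_aeval_le_one A hdA _) _
    _ = A.valuation d := one_mul _

include hq hA in
/-- `q ∣ c ^ i` for some `i`, `c ∈ m_A` algebraic. -/
theorem exists_pow_le_q [CharZero L] {c : L} (hc : A.valuation c < 1) (halg : IsAlgebraic ℤ c) :
    ∃ i : ℕ, A.valuation c ^ i ≤ A.valuation (q : L) := by
  have hcA : c ∈ A := (A.valuation_le_one_iff _).1 hc.le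
  have : Fact q.Prime := ⟨hq⟩
  obtain ⟨P₀, hP₀, hP₀c⟩ := halg
  -- a primitive polynomial vanishing at `c`
  set P := P₀.primPart with hPdef
  have hPc : aeval c P = 0 := aeval_primPart_eq_zero hP₀ hP₀c
  have hprim : P.IsPrimitive := isPrimitive_primPart P₀
  -- its reduction mod `q` is not zero
  set Pbar := P.map (Int.castRingHom (ZMod q)) with hPbar
  have hPbar0 : Pbar ≠ 0 := by
    intro h0
    have h1 : C (q : ℤ) ∣ P := by
      rw [C_dvd_iff_dvd_coeff]
      intro i
      have h2 : (Pbar.coeff i) = 0 := by rw [h0, coeff_zero]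
      rw [hPbar, coeff_map, eq_intCast] at h2
      exact (ZMod.intCast_zmod_eq_zero_iff_dvd _ _).1 h2
    have h3 := (isPrimitive_iff_isUnit_of_C_dvd.1 hprim) _ h1
    have h4 : (q : ℤ).natAbs = 1 := Int.isUnit_iff_natAbs_eq.1 h3
    rw [Int.natAbs_natCast] at h4
    exact hq.ne_one h4
  -- `Pbar = X ^ i * Qbar`, `Qbar (0) ≠ 0`
  obtain ⟨Qbar, hQ1, hQ2⟩ := exists_eq_pow_rootMultiplicity_mul_and_not_dvd Pbar hPbar0 0
  rw [C_0, sub_zero] at hQ1 hQ2
  set i := rootMultiplicity 0 Pbar with hi
  obtain ⟨Q, hQ⟩ := map_surjective (Int.castRingHom (ZMod q)) (ZMod.intCast_surjective) Qbar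
  have hQ0 : ¬ (q : ℤ) ∣ Q.coeff 0 := by
    intro hdvd
    apply hQ2
    rw [X_dvd_iff, ← hQ, coeff_map, eq_intCast]
    exact (ZMod.intCast_zmod_eq_zero_iff_dvd _ _).2 hdvd
  -- `P = X ^ i * Q + q R`
  have hdvd : C (q : ℤ) ∣ P - X ^ i * Q := by
    rw [C_dvd_iff_dvd_coeff]
    intro n
    apply (ZMod.intCast_zmod_eq_zero_iff_dvd _ _).1
    have h1 : ((P - X ^ i * Q).map (Int.castRingHom (ZMod q))).coeff n = 0 := by
      rw [Polynomial.map_sub, Polynomial.map_mul, Polynomial.map_pow, map_X, hQ, ← hPbar, hQ1,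
        sub_self, coeff_zero]
    rwa [coeff_map, eq_intCast] at h1
  obtain ⟨R, hR⟩ := hdvd
  -- evaluate at `c`
  have h1 : c ^ i * aeval c Q = -((q : L) * aeval c R) := by
    have h2 := congrArg (aeval c) hR
    rw [map_sub, map_mul, map_mul, map_pow, aeval_X, aeval_C, hPc, eq_intCast] at h2
    have h3 : ((q : ℤ) : L) = (q : L) := by push_cast; rfl
    rw [h3] at h2
    linear_combination -h2
  -- `Q (c)` is a unit
  have h2 : A.valuation (aeval c Q) = 1 := by
    have h3 := congrArg (aeval c) (divX_mul_X_add Q)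
    rw [map_add, map_mul, aeval_X, aeval_C, eq_intCast] at h3
    rw [← h3]
    have h4 : A.valuation (aeval c Q.divX * c) < 1 := by
      rw [map_mul]
      calc A.valuation (aeval c Q.divX) * A.valuation c
          ≤ 1 * A.valuation c := mul_le_mul_left (valuation_aeval_le_one A hcA _) _
        _ = A.valuation c := one_mul _
        _ < 1 := hc
    have h5 : A.valuation ((Q.coeff 0 : ℤ) : L) = 1 := valuation_int_eq_one A hq hA _ hQ0
    rw [add_comm]
    have := Valuation.map_add_eq_of_lt_left A.valuation (x := ((Q.coeff 0 : ℤ) : L))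
      (y := aeval c Q.divX * c) (by rw [h5]; exact h4)
    rw [this, h5]
  refine ⟨i, ?_⟩
  have h3 := congrArg A.valuation h1
  rw [map_mul, map_pow, h2, mul_one, Valuation.map_neg, map_mul] at h3
  rw [h3]
  calc A.valuation (q : L) * A.valuation (aeval c R)
      ≤ A.valuation (q : L) * 1 := mul_le_mul_right (valuation_aeval_le_one A hcA _) _
    _ = A.valuation (q : L) := mul_one _

include hq hA in
/-- **Rank one**: for `c` in the maximal ideal and `d ≠ 0`, some power of `c` is divisible by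
`d` in `A`. -/
theorem arch_valuation [CharZero L] (halg : ∀ x : L, IsAlgebraic ℤ x) {c d : L}
    (hc : A.valuation c < 1) (hd : d ≠ 0) :
    ∃ m : ℕ, A.valuation c ^ m ≤ A.valuation d := by
  obtain ⟨i, hi⟩ := exists_pow_le_q A hq hA hc (halg c)
  obtain ⟨k, hk⟩ := exists_q_pow_le A hq hA hd (halg d)
  refine ⟨i * k, ?_⟩
  rw [pow_mul]
  exact (pow_le_pow_left₀ zero_le hi k).trans hk

include hq hA in
/-- **Rank one**, membership form. -/
theorem arch [CharZero L] (halg : ∀ x : L, IsAlgebraic ℤ x) {c d : L}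
    (hc : c ∈ A.nonunits) (hd : d ≠ 0) : ∃ m : ℕ, c ^ m / d ∈ A := by
  obtain ⟨m, hm⟩ := arch_valuation A hq hA halg ((A.mem_nonunits_iff).1 hc) hd
  refine ⟨m, ?_⟩
  rw [← A.valuation_le_one_iff, map_div₀, map_pow]
  have hd0 : A.valuation d ≠ 0 := (Valuation.ne_zero_iff _).2 hd
  exact (div_le_one₀ (lt_of_le_of_ne zero_le hd0.symm)).2 hm

end Fermat.Agent.BAD.H82
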