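import Fermat.Agent.S24.Closure.Phi

/-!
# Item 65 (BAD_q), package V2 (helper88): the Atkin–Lehner involution `w_q` on `F_N · Q̄`

`N = M q`, `q ∤ M`.  `W = !![q a, b; M q, q]` with `q a - M b = 1` has determinant `q` and
normalises `Γ₀(N)`; composition with `W` on holomorphic functions swaps `j (d τ)` and
`j (d q τ)` for `d ∣ M`.  Through the analytic embedding `F_N → Frac (Hol)` of S24 this gives the
`Q̄`-automorphism `wq` of `F_N = Q̄(j(q^d) : d ∣ N) ⊂ Q̄((q))`.

Part 1 (this file): composition operators on `Hol` and on `Frac (Hol)`, the embedding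
`emb N : F_N → Frac (Hol)`.
-/

set_option autoImplicit false

noncomputable section

namespace Fermat.Agent.BAD.H88

open Fermat.Agent.S24 ModularCurve UpperHalfPlane
open scoped MatrixGroups Manifold

/-! ## Composition with a Möbius transformation on `Hol` -/

/-- `f ↦ f ∘ W`, for an integer matrix `W` of positive determinant. -/
def compHol (W : Matrix (Fin 2) (Fin 2) ℤ) (hW : 0 < W.det) : Hol →ₐ[Kbar] Hol where
  toFun f := ⟨fun τ => (f : ℍ → ℂ) (intGL W hW • τ),
    f.2.comp (mdifferentiable_smul (intGL_det_pos W hW))⟩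
  map_one' := rfl
  map_mul' _ _ := rfl
  map_zero' := rfl
  map_add' _ _ := rfl
  commutes' _ := rfl

theorem compHol_apply (W : Matrix (Fin 2) (Fin 2) ℤ) (hW : 0 < W.det) (f : Hol) (τ : ℍ) :
    (compHol W hW f : ℍ → ℂ) τ = (f : ℍ → ℂ) (intGL W hW • τ) := rfl

theorem compHol_injective (W : Matrix (Fin 2) (Fin 2) ℤ) (hW : 0 < W.det) :
    Function.Injective (compHol W hW) := by
  intro f g h
  apply Subtype.ext
  funext τ
  have := congrArg (fun x : Hol => (x : ℍ → ℂ) ((intGL W hW)⁻¹ • τ)) h
  simpa [compHol_apply, smul_smul] using this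

/-- `(j ∘ A) ∘ W = j ∘ (A W)`. -/
theorem compHol_JA (W A : Matrix (Fin 2) (Fin 2) ℤ) (hW : 0 < W.det) (hA : 0 < A.det) :
    compHol W hW (JA A) = JA (A * W) := by
  have hAW : 0 < (A * W).det := by rw [Matrix.det_mul]; exact mul_pos hA hW
  apply Subtype.ext
  funext τ
  rw [compHol_apply, JA_apply A hA, JA_apply _ hAW, intGL_mul_smul A W hA hW hAW]

/-- Scalar matrices act trivially: `j ∘ (c A) = j ∘ A` for `c > 0`. -/
theorem JA_smul (c : ℤ) (hc : 0 < c) (A : Matrix (Fin 2) (Fin 2) ℤ) (hA : 0 < A.det) :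
    JA (c • A) = JA A := by
  have hcA : 0 < (c • A).det := by
    rw [Matrix.det_smul]
    simpa using mul_pos (pow_pos hc 2) hA
  apply Subtype.ext
  funext τ
  rw [JA_apply A hA, JA_apply _ hcA]
  congr 1
  apply UpperHalfPlane.ext
  rw [coe_intGL_smul, coe_intGL_smul]
  have hc' : (c : ℂ) ≠ 0 := by exact_mod_cast hc.ne'
  simp only [Matrix.smul_apply, smul_eq_mul, Int.cast_mul]
  have hden : ((A 1 0 : ℂ) * τ + A 1 1) ≠ 0 := by
    have := UpperHalfPlane.denom_ne_zero (intGL A hA) τ
    simpa [denom, intGL_val] using this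
  field_simp

/-! ## The field of fractions of `Hol` -/

/-- The field of fractions of `Hol` ("meromorphic functions"). -/
abbrev MerH : Type := FractionRing Hol

/-- `Hol → Frac Hol`, as a `Q̄`-algebra homomorphism. -/
def holToMer : Hol →ₐ[Kbar] MerH := IsScalarTower.toAlgHom Kbar Hol MerH

theorem holToMer_injective : Function.Injective holToMer :=
  IsFractionRing.injective Hol MerH

theorem holToMer_comp_compHol_injective (W : Matrix (Fin 2) (Fin 2) ℤ) (hW : 0 < W.det) :
    Function.Injective (holToMer.comp (compHol W hW)) := fun _ _ h =>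
  compHol_injective W hW (holToMer_injective h)

/-- Composition with `W` on `Frac Hol`. -/
def compMer (W : Matrix (Fin 2) (Fin 2) ℤ) (hW : 0 < W.det) : MerH →ₐ[Kbar] MerH :=
  IsFractionRing.liftAlgHom (holToMer_comp_compHol_injective W hW)

theorem compMer_holToMer (W : Matrix (Fin 2) (Fin 2) ℤ) (hW : 0 < W.det) (f : Hol) :
    compMer W hW (holToMer f) = holToMer (compHol W hW f) := by
  rw [compMer, IsFractionRing.liftAlgHom_apply]
  exact IsFractionRing.lift_algebraMap (holToMer_comp_compHol_injective W hW) f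

/-- `AT N → Hol`. -/
def inclAT (N : ℕ) : AT N →ₐ[Kbar] Hol := (Atil N).val.comp (toAT N).symm.toAlgHom

theorem inclAT_injective (N : ℕ) : Function.Injective (inclAT N) :=
  Subtype.val_injective.comp (toAT N).symm.injective

theorem inclAT_toAT (N : ℕ) (f : Atil N) : inclAT N (toAT N f) = (f : Hol) := rfl

theorem holToMer_comp_inclAT_injective (N : ℕ) :
    Function.Injective (holToMer.comp (inclAT N)) := fun _ _ h =>
  inclAT_injective N (holToMer_injective h)

/-- `LN N = Frac (AT N) → Frac Hol`. -/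
def inclLN (N : ℕ) : LN N →ₐ[Kbar] MerH :=
  IsFractionRing.liftAlgHom (holToMer_comp_inclAT_injective N)

theorem inclLN_algebraMap (N : ℕ) (f : AT N) :
    inclLN N (algebraMap (AT N) (LN N) f) = holToMer (inclAT N f) := by
  rw [inclLN, IsFractionRing.liftAlgHom_apply]
  exact IsFractionRing.lift_algebraMap (holToMer_comp_inclAT_injective N) f

/-- The analytic embedding `F_N → Frac Hol`. -/
def emb (N : ℕ) [NeZero N] : FN N →ₐ[Kbar] MerH := (inclLN N).comp (phi N)

theorem emb_injective (N : ℕ) [NeZero N] : Function.Injective (emb N) :=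
  (emb N).toRingHom.injective

/-- `j (q ^ d) ↦ j (d τ)`. -/
theorem emb_jdF (N : ℕ) [NeZero N] (d : ℕ) [NeZero d] (hd : d ∣ N) :
    emb N (jdF N d hd) = holToMer (JA !![(d : ℤ), 0; 0, 1]) := by
  show inclLN N (phi N (jdF N d hd)) = _
  rw [phi_jdF, inclLN_algebraMap, inclAT_toAT, jdA_coe N d (Nat.pos_of_ne_zero (NeZero.ne d)) hd]

end Fermat.Agent.BAD.H88
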