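import Fermat.Agent.BAD.H88_V2
import Fermat.Agent.RED.H73_GAMainA
import Fermat.Prelude.Def_ModularCurve_HeckeOperator

/-!
# Item 65 (BAD_q), package V2 (helper88), part 5: `V₁ ∩ F_M = V₂ ∩ F_M = V_M`

`N = M q`, `α, β : F_M → F_N` the two degeneracy maps (`α` the inclusion, `β = (q ↦ q^q)`).
* `wq ∘ α = β`, `wq ∘ β = α`;
* `α x ∈ V₁ ↔ x ∈ V_M`, `β x ∈ V₁ ↔ x ∈ V_M`, and the same for `V₂`;
* `red₁ (α x) = red_M x`, `red₁ (β x) = (red_M x)(q^q)`, `red₂ (α x) = (red_M x)(q^q)`,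
  `red₂ (β x) = red_M x` inside `k((q))`.
-/

set_option autoImplicit false
set_option synthInstance.maxHeartbeats 400000
set_option maxHeartbeats 1000000
set_option linter.unusedSectionVars false
set_option linter.style.haveILetI false

noncomputable section

namespace Fermat.Agent.BAD.H88

open Fermat.Agent.S24 ModularCurve Fermat.Agent.S28 Fermat.Agent.S28.H73 Fermat.Agent.RED.H73

section Level

variable (A : ValuationSubring Kbar) (q M : ℕ) [NeZero M] [NeZero q]

/-- The scaling property of `F_M`. -/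
theorem hScM : HasScale A (modularFunctionFieldBar M) :=
  hasScale_laurentBaseChange A M

/-- The Gauss valuation ring of `F_M`. -/
abbrev VM : ValuationSubring (FN M) :=
  gaussValSub A (modularFunctionFieldBar M) (hScM A M)

/-- The residue field of `V_M`, inside `k((q))`. -/
abbrev FM : Type := ↥(redField A (modularFunctionFieldBar M) (hScM A M))

/-- The residue map of `V_M`. -/
abbrev redM : ↥(VM A M) →+* FM A M := gaussResF' A (hScM A M)

/-- `α (j (q^d)) = j (q^d)`. -/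
theorem alpha_jdF (d : ℕ) [NeZero d] (hd : d ∣ M) :
    heckeAlphaBar Kbar M q (jdF M d hd) = jdF (M * q) d (Dvd.dvd.mul_right hd q) :=
  Subtype.ext (coe_heckeAlphaBar M q _)

/-- `β (j (q^d)) = j (q^(d q))`. -/
theorem beta_jdF (d : ℕ) [NeZero d] (hd : d ∣ M) :
    heckeBetaBar Kbar M q (jdF M d hd) = jdF (M * q) (d * q) (Nat.mul_dvd_mul_right hd q) := by
  apply Subtype.ext
  rw [coe_heckeBetaBar]
  show qExpand Kbar q (coeffEmb Kbar (qExpand ℚ d jq)) = coeffEmb Kbar (qExpand ℚ (d * q) jq)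
  rw [coeffEmb_qExpand_jq, coeffEmb_qExpand_jq, qExpand_qExpand]
  exact qExpand_congr (mul_comm q d) _

/-- `α x ∈ V₁ ↔ x ∈ V_M`. -/
theorem alpha_mem_V1_iff (x : FN M) :
    heckeAlphaBar Kbar M q x ∈ V1 A q M ↔ x ∈ VM A M := by
  rw [mem_gaussValSub_iff, mem_gaussValSub_iff, coe_heckeAlphaBar]

/-- The unit scaling at level `M`. -/
theorem exists_scaleM (f : FN M) (hf : f ≠ 0) :
    ∃ c : Kbar, c ≠ 0 ∧ ∃ h : algebraMap Kbar (FN M) c * f ∈ VM A M,
      redM A M ⟨_, h⟩ ≠ 0 := by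
  obtain ⟨c, u, hc, hfu⟩ := exists_unit_scale A (hScM A M) f hf
  refine ⟨c⁻¹, inv_ne_zero hc, ?_⟩
  have e : algebraMap Kbar (FN M) c⁻¹ * f = ((u : ↥(VM A M)) : FN M) := by
    rw [hfu, ← mul_assoc, ← map_mul, inv_mul_cancel₀ hc, map_one, one_mul]
  have hmem : algebraMap Kbar (FN M) c⁻¹ * f ∈ VM A M := e ▸ (u : ↥(VM A M)).2
  refine ⟨hmem, ?_⟩
  have e2 : (⟨_, hmem⟩ : ↥(VM A M)) = u := Subtype.ext e
  rw [e2]
  exact (Fermat.Agent.RED.H17.gaussResF'_ne_zero_iff_isUnit A (hScM A M) _).mpr u.isUnit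

theorem const_memM (c : Kbar) : algebraMap Kbar (FN M) c ∈ VM A M ↔ c ∈ A :=
  algebraMap_mem_gaussValSub_iff A (hScM A M) c

/-- `β x ∈ V₁ ↔ x ∈ V_M`: the Gauss norm is invariant under `q ↦ q^q`. -/
theorem beta_mem_V1_iff (x : FN M) :
    heckeBetaBar Kbar M q x ∈ V1 A q M ↔ x ∈ VM A M := by
  constructor
  · intro h
    by_cases hx : x = 0
    · rw [hx]; exact zero_mem _
    obtain ⟨c, hc, hm, hr⟩ := exists_scaleM A M x hx
    -- `u = c x` is a unit of `V_M`, hence `β u` is a unit of `V₁`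
    set u : FN M := algebraMap Kbar (FN M) c * x with hu
    have hu0 : u ≠ 0 := mul_ne_zero (by
      rw [Ne, map_eq_zero_iff _ (algebraMap Kbar (FN M)).injective]; exact hc) hx
    have huinv : u⁻¹ ∈ VM A M := by
      have hunit : IsUnit (⟨u, hm⟩ : ↥(VM A M)) :=
        (Fermat.Agent.RED.H17.gaussResF'_ne_zero_iff_isUnit A (hScM A M) _).mp hr
      obtain ⟨v, hv⟩ := hunit.exists_right_inv
      have hv' : u * (v : FN M) = 1 := congrArg Subtype.val hv
      have e : u⁻¹ = (v : FN M) := by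
        rw [inv_eq_iff_eq_inv]
        exact eq_inv_of_mul_eq_one_left hv'
      rw [e]; exact v.2
    have hβinv : heckeBetaBar Kbar M q u⁻¹ ∈ V1 A q M := by
      rw [mem_gaussValSub_iff, coe_heckeBetaBar]
      exact qExpand_mem_gaussRingV A q ((mem_gaussValSub_iff A (hScM A M) _).mp huinv)
    -- `c⁻¹ = β x * β u⁻¹ ∈ V₁`, hence `c⁻¹ ∈ A`
    have hcinv : algebraMap Kbar (FN (M * q)) c⁻¹ ∈ V1 A q M := by
      have e : algebraMap Kbar (FN (M * q)) c⁻¹
          = heckeBetaBar Kbar M q x * heckeBetaBar Kbar M q u⁻¹ := by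
        rw [← map_mul, hu, mul_inv, ← mul_assoc, mul_comm x, mul_assoc, mul_inv_cancel₀ hx,
          mul_one, ← map_inv₀, AlgHom.commutes]
      rw [e]; exact mul_mem h hβinv
    have hcA : c⁻¹ ∈ A := (const_mem1 A q M c⁻¹).mp hcinv
    have e : x = algebraMap Kbar (FN M) c⁻¹ * u := by
      rw [hu, ← mul_assoc, ← map_mul, inv_mul_cancel₀ hc, map_one, one_mul]
    rw [e]
    exact mul_mem ((const_memM A M c⁻¹).mpr hcA) hm
  · intro h
    rw [mem_gaussValSub_iff, coe_heckeBetaBar]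
    exact qExpand_mem_gaussRingV A q ((mem_gaussValSub_iff A (hScM A M) _).mp h)

/-- The underlying series of the reduction. -/
theorem coe_gaussResF'_eq {C : Type} [Field C] (O : ValuationSubring C)
    {F : IntermediateField C (LaurentSeries C)} (h : HasScale O F) (x : ↥(gaussValSub O F h)) :
    ((gaussResF' O h x : ↥(redField O F h)) : LaurentSeries (kV O))
      = gaussRedV O ⟨((x : F) : LaurentSeries C), x.2⟩ := rfl

/-- `red₁ (α x) = red_M x` in `k((q))`. -/
theorem red1_alpha (x : FN M) (h : x ∈ VM A M) (h' : heckeAlphaBar Kbar M q x ∈ V1 A q M) :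
    ((red1 A q M ⟨_, h'⟩ : F1 A q M) : LaurentSeries (kV A))
      = ((redM A M ⟨x, h⟩ : FM A M) : LaurentSeries (kV A)) := by
  rw [coe_gaussResF'_eq, coe_gaussResF'_eq]
  congr 1

/-- `red₁ (β x) = (red_M x)(q^q)` in `k((q))`. -/
theorem red1_beta (x : FN M) (h : x ∈ VM A M) (h' : heckeBetaBar Kbar M q x ∈ V1 A q M) :
    ((red1 A q M ⟨_, h'⟩ : F1 A q M) : LaurentSeries (kV A))
      = qExpand (kV A) q ((redM A M ⟨x, h⟩ : FM A M) : LaurentSeries (kV A)) := by
  rw [coe_gaussResF'_eq, coe_gaussResF'_eq]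
  exact gaussRedV_qExpand A q ⟨(x : LaurentSeries Kbar), h⟩ _

end Level

end Fermat.Agent.BAD.H88
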