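import Fermat.Agent.BAD.H88_Wq
import Fermat.Prelude.Def_ModularCurve_ArithmeticGalois

/-!
# Item 65 (BAD_q), package V2 (helper88), part 3: `w_q` commutes with `Gal(Q̄/ℚ)`

The coefficientwise action `arithmeticRingAut` of `σ ∈ Gal(Q̄/ℚ)` on `F_N · Q̄ ⊂ Q̄((q))` fixes
the generators `j (q^d)` and `w_q` permutes them, so the two commute.
-/

set_option autoImplicit false
set_option synthInstance.maxHeartbeats 400000
set_option maxHeartbeats 1000000
set_option linter.unusedSectionVars false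
set_option linter.style.haveILetI false

noncomputable section

namespace Fermat.Agent.BAD.H88

open Fermat.Agent.S24 ModularCurve

/-- The coefficientwise Galois action fixes `j (q^d)`. -/
theorem arith_jdF (N : ℕ) [NeZero N] (d : ℕ) [NeZero d] (hd : d ∣ N) (σ : Kbar ≃ₐ[ℚ] Kbar) :
    arithmeticRingAut (modularFunctionFieldFull N) σ (jdF N d hd) = jdF N d hd := by
  apply Subtype.ext
  rw [coe_arithmeticRingAut_apply]
  exact coeffMap_coeffEmb σ _

section Wq

variable (q M : ℕ) (a b : ℤ) (hab : a * q + b * M = 1) (hq : q.Prime) [NeZero (M * q)]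

include hab hq

/-- `w_q` permutes the generators. -/
theorem wq_gen (x : FN (M * q))
    (hx : x ∈ {x : FN (M * q) | ∃ (d : ℕ) (_ : NeZero d) (hd : d ∣ M * q),
      x = jdF (M * q) d hd}) :
    wq q M a b hab hq x ∈ {x : FN (M * q) | ∃ (d : ℕ) (_ : NeZero d) (hd : d ∣ M * q),
      x = jdF (M * q) d hd} := by
  obtain ⟨D, hD0, hD, rfl⟩ := hx
  rcases dvd_cases q M a b hab hq D hD with ⟨e, he⟩ | ⟨d, e, rfl, he⟩
  · haveI : NeZero (D * q) := ⟨(Nat.mul_pos (Nat.pos_of_ne_zero (NeZero.ne D)) hq.pos).ne'⟩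
    exact ⟨D * q, inferInstance, Nat.mul_dvd_mul_right ⟨e, he⟩ q,
      wqHom_jdF q M a b hab hq D ⟨e, he⟩⟩
  · have hdpos : 0 < d := by
      rcases Nat.eq_zero_or_pos d with h | h
      · exfalso; apply NeZero.ne (d * q); rw [h, zero_mul]
      · exact h
    haveI : NeZero d := ⟨hdpos.ne'⟩
    exact ⟨d, inferInstance, Dvd.dvd.mul_right ⟨e, he⟩ q,
      wqHom_jdF_mul q M a b hab hq d ⟨e, he⟩⟩

/-- **`w_q` commutes with the Galois action on coefficients.** -/
theorem wq_arith (σ : Kbar ≃ₐ[ℚ] Kbar) (x : FN (M * q)) :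
    wq q M a b hab hq (arithmeticRingAut (modularFunctionFieldFull (M * q)) σ x)
      = arithmeticRingAut (modularFunctionFieldFull (M * q)) σ (wq q M a b hab hq x) := by
  have hx : x ∈ IntermediateField.adjoin Kbar
      {x : FN (M * q) | ∃ (d : ℕ) (_ : NeZero d) (hd : d ∣ M * q), x = jdF (M * q) d hd} := by
    rw [adjoin_jdF]; exact IntermediateField.mem_top
  induction hx using IntermediateField.adjoin_induction with
  | mem y hy =>
    obtain ⟨D', hD0', hD', hw⟩ := wq_gen q M a b hab hq y hy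
    obtain ⟨D, hD0, hD, rfl⟩ := hy
    rw [arith_jdF, hw, arith_jdF]
  | algebraMap c =>
    rw [arithmeticRingAut_algebraMap, AlgEquiv.commutes, AlgEquiv.commutes,
      arithmeticRingAut_algebraMap]
  | add y z _ _ hy hz => rw [map_add, map_add, map_add, map_add, hy, hz]
  | inv y _ hy => rw [map_inv₀, map_inv₀, map_inv₀, map_inv₀, hy]
  | mul y z _ _ hy hz => rw [map_mul, map_mul, map_mul, map_mul, hy, hz]

end Wq

end Fermat.Agent.BAD.H88
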