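import Fermat.Agent.BAD.H28_Skel
import Fermat.Agent.BAD.H55_Alg

/-!
# Item 65, package ABS: leaf `Stmt_Linearise` (helper90)

A `k`-subspace `I` of pairs `(ψ₁, ψ₂)` satisfying the `n`-th power gluing condition
`ψ₁(s₁)^n = γ(s₂) ψ₂(s₂)^n` at every node satisfies a linear gluing condition
`ψ₁(s₁) = lam_s ψ₂(s₂)` with `lam_s ≠ 0`.

Proof: the values `A ψ = ψ₁(s₁)`, `B ψ = ψ₂(s₂)` are linear in `ψ`; if `A = 0` on `I` then `B = 0`
on `I` and `lam_s = 1` works; otherwise pick `ψ⁰` with `A ψ⁰ ≠ 0` and apply `H55.stmt_Ratio` to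
`ψ + t ψ⁰`.
-/

set_option autoImplicit false

noncomputable section

open AlgebraicCurve

namespace Fermat.Agent.BAD.H90

open Fermat.Agent.RED.H17

variable {k F : Type*} [Field k] [Field F] [Algebra k F]

/-- Values multiply. -/
theorem vanAt_mul_sub {v : Place k F} {f g : F} {a b : k}
    (hf : VanAt v (f - algebraMap k F a)) (hg : VanAt v (g - algebraMap k F b)) :
    VanAt v (f * g - algebraMap k F (a * b)) := by
  have hg' : RegAt v g := RegAt.of_vanAt_sub hg
  have h1 := (hf.mul_regAt hg').add ((regAt_algebraMap v a).mul_vanAt hg)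
  have e : (f - algebraMap k F a) * g + algebraMap k F a * (g - algebraMap k F b)
      = f * g - algebraMap k F (a * b) := by
    rw [map_mul]; ring
  rwa [e] at h1

/-- Values of powers. -/
theorem vanAt_pow_sub {v : Place k F} {f : F} {a : k}
    (hf : VanAt v (f - algebraMap k F a)) (n : ℕ) :
    VanAt v (f ^ n - algebraMap k F (a ^ n)) := by
  induction n with
  | zero =>
    simp only [pow_zero, map_one, sub_self]
    exact vanAt_zero v
  | succ m ih =>
    rw [pow_succ, pow_succ]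
    exact vanAt_mul_sub ih hf

/-- Values add. -/
theorem vanAt_add_sub {v : Place k F} {f g : F} {a b : k}
    (hf : VanAt v (f - algebraMap k F a)) (hg : VanAt v (g - algebraMap k F b)) :
    VanAt v (f + g - algebraMap k F (a + b)) := by
  have h1 := hf.add hg
  have e : f - algebraMap k F a + (g - algebraMap k F b) = f + g - algebraMap k F (a + b) := by
    rw [map_add]; ring
  rwa [e] at h1

/-- Values of scalar multiples. -/
theorem vanAt_smul_sub {v : Place k F} {f : F} {a : k} (t : k)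
    (hf : VanAt v (f - algebraMap k F a)) :
    VanAt v (t • f - algebraMap k F (t * a)) := by
  have h1 := (regAt_algebraMap v t).mul_vanAt hf
  have e : algebraMap k F t * (f - algebraMap k F a) = t • f - algebraMap k F (t * a) := by
    rw [map_mul, Algebra.smul_def]; ring
  rwa [e] at h1

/-- If a power of `f` is regular at `v`, so is `f`. -/
theorem regAt_of_pow {v : Place k F} {f : F} {n : ℕ} (hn : n ≠ 0) (h : RegAt v (f ^ n)) :
    RegAt v f := by
  rcases (regAt_iff_ord v (f ^ n)).mp h with h0 | h1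
  · rw [pow_eq_zero_iff hn] at h0
    rw [h0]; exact regAt_zero v
  · rw [ord_pow] at h1
    apply regAt_of_ord_nonneg
    have hn' : (0 : ℤ) < (n : ℤ) := by exact_mod_cast Nat.pos_of_ne_zero hn
    by_contra hneg
    have hneg' : v.ord f < 0 := not_le.mp hneg
    have : (n : ℤ) * v.ord f < 0 := mul_neg_of_pos_of_neg hn' hneg'
    omega

/-- A function with `ord = 0` at a place of degree one has a non-zero value. -/
theorem exists_value_ne_zero {v : Place k F} (hdeg : v.deg = 1) {γ : F} (hγ : γ ≠ 0)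
    (h : v.ord γ = 0) : ∃ c : k, c ≠ 0 ∧ VanAt v (γ - algebraMap k F c) := by
  have hreg : RegAt v γ := regAt_of_ord_nonneg (le_of_eq h.symm)
  obtain ⟨c, hc⟩ := exists_value v hdeg hreg
  refine ⟨c, ?_, hc⟩
  rintro rfl
  rw [map_zero, sub_zero] at hc
  have := hc.ord_pos hγ
  omega

end Fermat.Agent.BAD.H90

namespace Fermat.Agent.BAD.H90

open Fermat.Agent.RED.H17

/-- The local statement at one node. -/
theorem linearise_node (k F₁ F₂ : Type) [Field k] [Field F₁] [Algebra k F₁] [Field F₂]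
    [Algebra k F₂] [Infinite k] (s₁ : Place k F₁) (s₂ : Place k F₂) (hd₁ : s₁.deg = 1)
    (hd₂ : s₂.deg = 1) (n : ℕ) (hn : (n : k) ≠ 0) (γ : F₂) (hγ : γ ≠ 0) (hγs : s₂.ord γ = 0)
    (I : Submodule k (F₁ × F₂))
    (hI : ∀ ψ ∈ I, ∃ a : k, VanAt s₁ (ψ.1 ^ n - algebraMap k F₁ a) ∧
        VanAt s₂ (γ * ψ.2 ^ n - algebraMap k F₂ a)) :
    ∃ l : k, l ≠ 0 ∧ ∀ ψ ∈ I, ∃ a : k, VanAt s₁ (ψ.1 - algebraMap k F₁ a) ∧
          VanAt s₂ (algebraMap k F₂ l * ψ.2 - algebraMap k F₂ a) := by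
  have hn0 : n ≠ 0 := by
    rintro rfl
    exact hn (by simp)
  obtain ⟨c, hc0, hc⟩ := exists_value_ne_zero hd₂ hγ hγs
  have hγinv : RegAt s₂ γ⁻¹ := regAt_inv_of_ord_eq_zero hγs
  -- values exist and satisfy the `n`-th power relation
  have hval : ∀ ψ ∈ I, ∃ A B : k, VanAt s₁ (ψ.1 - algebraMap k F₁ A) ∧
      VanAt s₂ (ψ.2 - algebraMap k F₂ B) := by
    intro ψ hψ
    obtain ⟨a, ha1, ha2⟩ := hI ψ hψ
    have r1 : RegAt s₁ ψ.1 := regAt_of_pow hn0 (RegAt.of_vanAt_sub ha1)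
    have r2' : RegAt s₂ (γ * ψ.2 ^ n) := RegAt.of_vanAt_sub ha2
    have r2'' : RegAt s₂ (ψ.2 ^ n) := by
      have := hγinv.mul r2'
      rwa [← mul_assoc, inv_mul_cancel₀ hγ, one_mul] at this
    have r2 : RegAt s₂ ψ.2 := regAt_of_pow hn0 r2''
    obtain ⟨A, hA⟩ := exists_value s₁ hd₁ r1
    obtain ⟨B, hB⟩ := exists_value s₂ hd₂ r2
    exact ⟨A, B, hA, hB⟩
  have hrel : ∀ ψ ∈ I, ∀ A B : k, VanAt s₁ (ψ.1 - algebraMap k F₁ A) →
      VanAt s₂ (ψ.2 - algebraMap k F₂ B) → A ^ n = c * B ^ n := by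
    intro ψ hψ A B hA hB
    obtain ⟨a, ha1, ha2⟩ := hI ψ hψ
    have e1 : a = A ^ n := value_unique s₁ ha1 (vanAt_pow_sub hA n)
    have e2 : a = c * B ^ n := value_unique s₂ ha2 (vanAt_mul_sub hc (vanAt_pow_sub hB n))
    rw [← e1, e2]
  by_cases hall : ∀ ψ ∈ I, VanAt s₁ ψ.1
  · -- `A = 0` on `I`
    refine ⟨1, one_ne_zero, fun ψ hψ => ⟨0, ?_, ?_⟩⟩
    · rw [map_zero, sub_zero]; exact hall ψ hψ
    · obtain ⟨A, B, hA, hB⟩ := hval ψ hψ
      have hA0 : A = 0 := by
        have h0 : VanAt s₁ (ψ.1 - algebraMap k F₁ 0) := by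
          rw [map_zero, sub_zero]; exact hall ψ hψ
        exact value_unique s₁ hA h0
      have h1 := hrel ψ hψ A B hA hB
      rw [hA0, zero_pow hn0] at h1
      have hB0 : B = 0 := by
        rcases mul_eq_zero.mp h1.symm with h | h
        · exact absurd h hc0
        · exact (pow_eq_zero_iff hn0).mp h
      rw [hB0, map_zero, sub_zero] at hB
      rw [map_one, one_mul, map_zero, sub_zero]
      exact hB
  · -- there is `ψ⁰` with `A ψ⁰ ≠ 0`
    have hex : ∃ ψ ∈ I, ¬ VanAt s₁ ψ.1 := by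
      by_contra hne
      apply hall
      intro ψ hψ
      by_contra h
      exact hne ⟨ψ, hψ, h⟩
    obtain ⟨ψ0, hψ0, hnv⟩ := hex
    obtain ⟨A0, B0, hA0, hB0⟩ := hval ψ0 hψ0
    have hA0ne : A0 ≠ 0 := by
      rintro rfl
      rw [map_zero, sub_zero] at hA0
      exact hnv hA0
    have h0rel := hrel ψ0 hψ0 A0 B0 hA0 hB0
    have hB0ne : B0 ≠ 0 := by
      rintro rfl
      rw [zero_pow hn0, mul_zero] at h0rel
      exact hA0ne ((pow_eq_zero_iff hn0).mp h0rel)
    refine ⟨A0 / B0, div_ne_zero hA0ne hB0ne, fun ψ hψ => ?_⟩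
    obtain ⟨A, B, hA, hB⟩ := hval ψ hψ
    have hratio : A * B0 = B * A0 := by
      apply H55.stmt_Ratio k n hn A A0 B B0 c hA0ne
      intro t
      have hmem : ψ + t • ψ0 ∈ I := I.add_mem hψ (I.smul_mem t hψ0)
      have v1 : VanAt s₁ ((ψ + t • ψ0).1 - algebraMap k F₁ (A + t * A0)) := by
        rw [Prod.fst_add, Prod.smul_fst]
        exact vanAt_add_sub hA (vanAt_smul_sub t hA0)
      have v2 : VanAt s₂ ((ψ + t • ψ0).2 - algebraMap k F₂ (B + t * B0)) := by
        rw [Prod.snd_add, Prod.smul_snd]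
        exact vanAt_add_sub hB (vanAt_smul_sub t hB0)
      exact hrel _ hmem _ _ v1 v2
    refine ⟨A, hA, ?_⟩
    have hAeq : A = A0 / B0 * B := by
      field_simp
      linear_combination hratio
    have h1 := (regAt_algebraMap s₂ (A0 / B0)).mul_vanAt hB
    have e : algebraMap k F₂ (A0 / B0) * (ψ.2 - algebraMap k F₂ B)
        = algebraMap k F₂ (A0 / B0) * ψ.2 - algebraMap k F₂ A := by
      rw [hAeq, map_mul]; ring
    rwa [e] at h1

theorem stmt_Linearise : Fermat.Agent.BAD.Stmt_Linearise := by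
  classical
  intro k F₁ F₂ _ _ _ _ _ _ H₁ H₂ nodes n hn γ hγ hγs I hI
  have key : ∀ s : Place k F₁ × Place k F₂, s ∈ nodes → ∃ l : k, l ≠ 0 ∧ ∀ ψ ∈ I, ∃ a : k,
      VanAt s.1 (ψ.1 - algebraMap k F₁ a) ∧
        VanAt s.2 (algebraMap k F₂ l * ψ.2 - algebraMap k F₂ a) := by
    intro s hs
    exact linearise_node k F₁ F₂ s.1 s.2 (H₁.deg_one s.1) (H₂.deg_one s.2) n hn γ hγ
      (hγs s hs) I (fun ψ hψ => hI ψ hψ s hs)
  choose! lam hlam0 hlam using key
  exact ⟨lam, hlam0, fun ψ hψ s hs => hlam s hs ψ hψ⟩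

end Fermat.Agent.BAD.H90
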