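import Fermat.Agent.BAD.H91_B0
import Fermat.Agent.RED.H73_GAMainC

/-!
# BAD_q: assembly of the S34 slice  (helper91)

* `b1core_of_ABS : Stmt_ABS → q.Prime → Stmt_ModSSD N q → Stmt_B1core N q`
  (helper28's abstract theorem applied to the modular semistable Deuring datum);
* `torsUnip_of_ABS` : `Stmt_ABS` and `Stmt_ModSSD N q` for all `q ‖ N`, `q ≠ p`, give
  `Stmt_TorsUnip N p`.
-/

set_option autoImplicit false

noncomputable section

open AlgebraicCurve ModularCurve Fermat.Agent.S28.H73 Fermat.Agent.RED.H73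

namespace Fermat.Agent.BAD.H91

open Fermat.Agent.BAD

/-- `n` is invertible in the residue field of a valuation ring over `q` if `q ∤ n`. -/
theorem natCast_kV_ne_zero (A : ValuationSubring (AlgebraicClosure ℚ)) {q : ℕ} (hq : q.Prime)
    (hA : A.LiesOverPrime q) {n : ℕ} (hn : ¬ q ∣ n) : ((n : ℕ) : kV A) ≠ 0 := by
  intro h0
  have hqA : ((q : ℕ) : AlgebraicClosure ℚ) ∈ A := natCast_mem A q
  have hq0 : ((q : ℕ) : kV A) = 0 := by
    have hmem : (⟨((q : ℕ) : AlgebraicClosure ℚ), hqA⟩ : ↥A) ∈ IsLocalRing.maximalIdeal ↥A := by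
      obtain ⟨hm, hmax⟩ := (A.mem_nonunits_iff_exists_mem_maximalIdeal
        (a := ((q : ℕ) : AlgebraicClosure ℚ))).1 hA
      exact hmax
    have h1 : IsLocalRing.residue ↥A ⟨((q : ℕ) : AlgebraicClosure ℚ), hqA⟩ = 0 :=
      (IsLocalRing.residue_eq_zero_iff _).2 hmem
    have h2 : (⟨((q : ℕ) : AlgebraicClosure ℚ), hqA⟩ : ↥A) = ((q : ℕ) : ↥A) := Subtype.ext (by simp)
    rw [h2, map_natCast] at h1
    exact h1
  have hco : Nat.Coprime n q := ((Nat.Prime.coprime_iff_not_dvd hq).2 hn).symm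
  obtain ⟨u, v, huv⟩ := Nat.isCoprime_iff_coprime.2 hco
  have h1 : ((u * (n : ℤ) + v * (q : ℤ) : ℤ) : kV A) = 1 := by rw [huv]; simp
  push_cast at h1
  rw [h0, hq0, mul_zero, mul_zero, add_zero] at h1
  exact zero_ne_one h1

/-- **(B1), Kummer form, from the abstract theorem ABS and the modular datum.** -/
theorem b1core_of_ABS (N : ℕ) {q : ℕ} (hABS : Stmt_ABS) (hq : q.Prime)
    (hS : Stmt_ModSSD N q) : Stmt_B1core N q := by
  intro A hA σ hσ n hn f hres hdiv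
  obtain ⟨F₁, F₂, iF₁, iA₁, iF₂, iA₂, S, hFF, hFF₁, hFF₂, g, g₁, g₂, c, c₁, c₂, hg, hg₁, hg₂,
    hnum, hV, hred, hin⟩ := hS A hA
  have : IsAlgClosed (kV A) := isAlgClosed_kV A
  have hf : ((f : ↥(gaussV A N)) : ↥(FNbar N)) ∈ S.c₁.V := hV _ f.2
  exact hABS (AlgebraicClosure ℚ) ↥(FNbar N) (kV A) F₁ F₂ S hFF hFF₁ hFF₂ g g₁ g₂ c c₁ c₂ hg hg₁
    hg₂ hnum n (natCast_kV_ne_zero A hq hA hn) (galF N σ) (hin σ hσ)
    ((f : ↥(gaussV A N)) : ↥(FNbar N)) hf (hred f hf hres) hdiv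

/-- **(UNIP) from ABS and the modular data.** -/
theorem torsUnip_of_ABS (N : ℕ) [NeZero N] {p : ℕ} (hp : p.Prime) (hABS : Stmt_ABS)
    (hS : ∀ q : ℕ, q.Prime → q ∣ N → ¬ q ^ 2 ∣ N → q ≠ p → Stmt_ModSSD N q) :
    Stmt_TorsUnip N p :=
  torsUnip_of_B1core N hp (fun q hq hqN hq2 hqp =>
    b1core_of_ABS N hABS hq (hS q hq hqN hq2 hqp))

end Fermat.Agent.BAD.H91
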