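import Fermat.Agent.RED.H73_GAVal
import Fermat.Agent.S05.H95_Inertia

/-!
# BAD_q / G-RED: inertia acts trivially on the reduction of the Gauss ring  (helper91)

`C` a field, `O : ValuationSubring C`, `σ : C →+* C` with `σ O ⊆ O` and `σ a ≡ a` modulo the
maximal ideal for `a ∈ O` (an element of the inertia group).  Then the coefficientwise action
`coeffMap σ` on `C((t))` preserves the Gauss ring `gaussRingV O` and commutes with the reduction
`gaussRedV O`:

* `InertialOn O σ` : the hypothesis;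
* `coeffMap_mem_gaussRingV` : `x ∈ gaussRingV O → coeffMap σ x ∈ gaussRingV O`;
* `gaussRedV_coeffMap` : `gaussRedV O (coeffMap σ x) = gaussRedV O x`;
* `gaussUnit_coeffMap` : Gauss units are preserved;
* `inertialOn_of_mem_inertia` : elements of `A.inertiaSubgroupIn K` are inertial.
-/

set_option autoImplicit false

noncomputable section

open ModularCurve Fermat.Agent.S28.H73 Fermat.Agent.RED.H73

namespace Fermat.Agent.BAD.H91

variable {C : Type} [Field C] (O : ValuationSubring C)

/-- `σ` maps `O` to itself and acts trivially on the residue field. -/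
def InertialOn (σ : C →+* C) : Prop :=
  ∀ a : C, a ∈ O → σ a ∈ O ∧ σ a - a ∈ O.nonunits

variable {O}

/-- the restriction of `σ` to `O`. -/
def restrO {σ : C →+* C} (hσ : InertialOn O σ) : ↥O →+* ↥O :=
  (σ.comp O.subtype).codRestrict O.toSubring (fun a => (hσ a a.2).1)

@[simp] theorem coe_restrO {σ : C →+* C} (hσ : InertialOn O σ) (a : ↥O) :
    ((restrO hσ a : ↥O) : C) = σ (a : C) := rfl

theorem subtype_comp_restrO {σ : C →+* C} (hσ : InertialOn O σ) :
    O.subtype.comp (restrO hσ) = σ.comp O.subtype :=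
  RingHom.ext fun _ => rfl

theorem resV_comp_restrO {σ : C →+* C} (hσ : InertialOn O σ) :
    (resV O).comp (restrO hσ) = resV O := by
  ext a
  show IsLocalRing.residue ↥O (restrO hσ a) = IsLocalRing.residue ↥O a
  rw [← sub_eq_zero, ← map_sub, IsLocalRing.residue_eq_zero_iff]
  have h := (hσ a a.2).2
  obtain ⟨hm, hmax⟩ := (O.mem_nonunits_iff_exists_mem_maximalIdeal (a := σ (a : C) - (a : C))).1 h
  have e : (restrO hσ a - a : ↥O) = ⟨σ (a : C) - (a : C), hm⟩ := Subtype.ext rfl
  rw [e]
  exact hmax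

theorem coeffMap_iotaV {σ : C →+* C} (hσ : InertialOn O σ) (g : LaurentSeries ↥O) :
    coeffMap σ (iotaV O g) = iotaV O (coeffMap (restrO hσ) g) := by
  rw [iotaV, coeffMap_coeffMap, coeffMap_coeffMap, subtype_comp_restrO]

theorem redV_coeffMap {σ : C →+* C} (hσ : InertialOn O σ) (g : LaurentSeries ↥O) :
    redV O (coeffMap (restrO hσ) g) = redV O g := by
  rw [redV, coeffMap_coeffMap, resV_comp_restrO]

/-- The coefficientwise action of an inertial `σ` preserves the Gauss ring. -/
theorem coeffMap_mem_gaussRingV {σ : C →+* C} (hσ : InertialOn O σ) {x : LaurentSeries C}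
    (hx : x ∈ gaussRingV O) : coeffMap σ x ∈ gaussRingV O := by
  obtain ⟨g, h, hg, e⟩ := hx
  refine ⟨coeffMap (restrO hσ) g, coeffMap (restrO hσ) h, ?_, ?_⟩
  · rw [redV_coeffMap]; exact hg
  · rw [← coeffMap_iotaV, ← coeffMap_iotaV, ← map_mul, e]

/-- The coefficientwise action of an inertial `σ` commutes with the reduction of the Gauss
ring. -/
theorem gaussRedV_coeffMap {σ : C →+* C} (hσ : InertialOn O σ) {x : LaurentSeries C}
    (hx : x ∈ gaussRingV O) (hx' : coeffMap σ x ∈ gaussRingV O) :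
    gaussRedV O ⟨coeffMap σ x, hx'⟩ = gaussRedV O ⟨x, hx⟩ := by
  have hx0 := hx
  obtain ⟨g, h, hg, e⟩ := hx0
  have hg' : redV O (coeffMap (restrO hσ) g) ≠ 0 := by rw [redV_coeffMap]; exact hg
  have e' : iotaV O (coeffMap (restrO hσ) g) * coeffMap σ x = iotaV O (coeffMap (restrO hσ) h) := by
    rw [← coeffMap_iotaV, ← coeffMap_iotaV, ← map_mul, e]
  rw [gaussRedV_eq O ⟨coeffMap σ x, hx'⟩ hg' e', gaussRedV_eq O ⟨x, hx⟩ hg e, redV_coeffMap,
    redV_coeffMap]

/-- Gauss units are preserved by the coefficientwise action of an inertial `σ`. -/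
theorem gaussUnit_coeffMap {σ : C →+* C} (hσ : InertialOn O σ) {x : LaurentSeries C}
    (hx : GaussUnit O x) : GaussUnit O (coeffMap σ x) := by
  obtain ⟨g, h, hg, hh, e⟩ := hx
  refine ⟨coeffMap (restrO hσ) g, coeffMap (restrO hσ) h, ?_, ?_, ?_⟩
  · rw [redV_coeffMap]; exact hg
  · rw [redV_coeffMap]; exact hh
  · rw [← coeffMap_iotaV, ← coeffMap_iotaV, ← map_mul, e]

/-- Elements of the inertia group of `A` are inertial. -/
theorem inertialOn_of_mem_inertia {K L : Type} [Field K] [Field L] [Algebra K L]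
    (A : ValuationSubring L) {σ : L ≃ₐ[K] L} (hσ : σ ∈ A.inertiaSubgroupIn K) :
    InertialOn A (σ : L →+* L) := fun _ ha =>
  ⟨(Fermat.Agent.S05.H95.mem_iff_of_mem_inertia A hσ).2 ha,
    Fermat.Agent.S05.H95.sub_mem_nonunits_of_mem_inertia A hσ ha⟩

end Fermat.Agent.BAD.H91
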