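import Fermat.Agent.BAD.Defs
import Fermat.Agent.BAD.H91_GaussInertia

/-!
# BAD_q, package B0 (helper91): `(σ - 1) J₀(N)[n] ⊆ K1(n)` for `σ` in inertia

For every level `N`, every valuation ring `A` of `ℚ̄`, every `σ` in the inertia group of `A` and
every `n`: if `n x = 0` then `σ x - x` is the class of a divisor `D₁` with `n D₁ = div f₁`,
`f₁ = σ u / u` a Gauss unit with reduction `1` (`n D = div (c u)`, `u` a Gauss unit).

* `galF_mem_gaussV`, `gaussRes_galF` : inertia preserves the Gauss valuation ring of `F_N · ℚ̄` and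
  acts trivially on its residue field;
* `stmt_B0 N : Stmt_B0 N`;
* `b1_of_core : Stmt_B1core N q → Stmt_B1 N q`;
* `torsUnip_of_B1 : (∀ q, q.Prime → q ∣ N → ¬ q ^ 2 ∣ N → q ≠ p → Stmt_B1 N q) → Stmt_TorsUnip N p`.
-/

set_option autoImplicit false

noncomputable section

open AlgebraicCurve ModularCurve Fermat.Agent.S28.H73 Fermat.Agent.RED.H73

namespace Fermat.Agent.BAD.H91

open Fermat.Agent.BAD

/-- constants have order zero at every place. -/
theorem ord_algebraMap_zero {K F : Type*} [Field K] [Field F] [Algebra K F] (v : Place K F)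
    (c : K) : v.ord (algebraMap K F c) = 0 := by
  rcases eq_or_ne c 0 with rfl | hc
  · rw [map_zero, v.ord_zero]
  · have h1 : algebraMap K F c ∈ v.toValuationSubring := v.algebraMap_mem' c
    have h2 : algebraMap K F c⁻¹ ∈ v.toValuationSubring := v.algebraMap_mem' c⁻¹
    have h3 : algebraMap K F c * algebraMap K F c⁻¹ = 1 := by
      rw [← map_mul, mul_inv_cancel₀ hc, map_one]
    have h4 : algebraMap K F c⁻¹ * algebraMap K F c = 1 := by
      rw [← map_mul, inv_mul_cancel₀ hc, map_one]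
    let u : v.toValuationSubringˣ :=
      ⟨⟨algebraMap K F c, h1⟩, ⟨algebraMap K F c⁻¹, h2⟩, Subtype.ext h3, Subtype.ext h4⟩
    exact v.ord_coe_unit u

variable (A : ValuationSubring (AlgebraicClosure ℚ)) (N : ℕ)

/-- Inertia preserves the Gauss valuation ring of `F_N · ℚ̄`. -/
theorem galF_mem_gaussV {σ : GalQ} (hσ : σ ∈ A.inertiaSubgroupIn ℚ) {f : ↥(FNbar N)}
    (hf : f ∈ gaussV A N) : galF N σ • f ∈ gaussV A N := by
  show ((galF N σ • f : ↥(FNbar N)) : LaurentSeries (AlgebraicClosure ℚ)) ∈ gaussRingV A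
  rw [coe_arithmeticGalois_smul]
  exact coeffMap_mem_gaussRingV (inertialOn_of_mem_inertia A hσ) hf

/-- Inertia acts trivially on the residue field of the Gauss valuation of `F_N · ℚ̄`. -/
theorem gaussRes_galF {σ : GalQ} (hσ : σ ∈ A.inertiaSubgroupIn ℚ) {f : ↥(FNbar N)}
    (hf : f ∈ gaussV A N) :
    gaussRes A N ⟨galF N σ • f, galF_mem_gaussV A N hσ hf⟩ = gaussRes A N ⟨f, hf⟩ := by
  apply Subtype.ext
  show gaussResF A (hasScale_laurentBaseChange A N) ⟨galF N σ • f, _⟩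
    = gaussResF A (hasScale_laurentBaseChange A N) ⟨f, hf⟩
  rw [gaussResF_apply, gaussResF_apply]
  exact gaussRedV_coeffMap (inertialOn_of_mem_inertia A hσ) hf _

/-- the order of `σ f` at `P` is the order of `f` at `σ⁻¹ P`. -/
theorem ord_galF_smul (σ : GalQ) (P : Place (AlgebraicClosure ℚ) ↥(FNbar N)) (f : ↥(FNbar N)) :
    P.ord (galF N σ • f) = ((galF N σ)⁻¹ • P).ord f := by
  have h := SemilinearAut.ord_smul (galF N σ) ((galF N σ)⁻¹ • P) f
  rwa [smul_inv_smul] at h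

/-- A divisor class killed by `n` is represented by `D` with `n D = div f`. -/
theorem exists_kummer_of_nsmul_eq_zero (n : ℕ)
    (D : Divisor.degZero (K := AlgebraicClosure ℚ) (F := ↥(FNbar N)))
    (h : n • (Pic0.mk D : JZero N) = 0) :
    ∃ f : ↥(FNbar N), f ≠ 0 ∧ ∀ P : Place (AlgebraicClosure ℚ) ↥(FNbar N),
      (n : ℤ) * (D : Divisor (AlgebraicClosure ℚ) ↥(FNbar N)) P = P.ord f := by
  have h1 : (Pic0.mk (n • D) : JZero N) = 0 := by
    rw [← h]; rfl
  have h2 : (n • D : Divisor.degZero (K := AlgebraicClosure ℚ) (F := ↥(FNbar N))) ∈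
      (Divisor.principal (K := AlgebraicClosure ℚ) (F := ↥(FNbar N))).addSubgroupOf
        (Divisor.degZero (K := AlgebraicClosure ℚ) (F := ↥(FNbar N))) :=
    (QuotientAddGroup.eq_zero_iff _).1 h1
  rw [AddSubgroup.mem_addSubgroupOf] at h2
  obtain ⟨f, hf0, hf⟩ := h2
  refine ⟨f, hf0, fun P => ?_⟩
  rw [← hf P]
  simp

/-- **(B0)**: `(σ - 1)` maps the `n`-torsion of `J₀(N)` into `K1(n)`. -/
theorem stmt_B0 : Stmt_B0 N := by
  intro A σ hσ n x hx
  obtain ⟨D, rfl⟩ := Pic0.mk_surjective x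
  obtain ⟨f, hf0, hfD⟩ := exists_kummer_of_nsmul_eq_zero N n D hx
  obtain ⟨c, u, hc, hfu⟩ := exists_unit_scale A (hasScale_laurentBaseChange A N) f hf0
  have hu : ((u : ↥(gaussV A N)) : ↥(FNbar N)) ∈ gaussV A N := (u : ↥(gaussV A N)).2
  have hu0 : ((u : ↥(gaussV A N)) : ↥(FNbar N)) ≠ 0 := by
    intro h0
    apply hf0
    rw [hfu, h0, mul_zero]
  -- the function `f₁ = σ u / u`
  let σu : ↥(gaussV A N) := ⟨galF N σ • ((u : ↥(gaussV A N)) : ↥(FNbar N)),
    galF_mem_gaussV A N hσ hu⟩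
  let f₁ : ↥(gaussV A N) := σu * ((u⁻¹ : (↥(gaussV A N))ˣ) : ↥(gaussV A N))
  have hres : gaussRes A N f₁ = 1 := by
    show gaussRes A N (σu * ((u⁻¹ : (↥(gaussV A N))ˣ) : ↥(gaussV A N))) = 1
    rw [map_mul]
    have e1 : gaussRes A N σu = gaussRes A N (u : ↥(gaussV A N)) :=
      gaussRes_galF A N hσ hu
    rw [e1, ← map_mul, Units.mul_inv, map_one]
  have hf₁ : ((f₁ : ↥(gaussV A N)) : ↥(FNbar N))
      = (galF N σ • ((u : ↥(gaussV A N)) : ↥(FNbar N))) * (((u : ↥(gaussV A N)) : ↥(FNbar N)))⁻¹ := by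
    show (galF N σ • ((u : ↥(gaussV A N)) : ↥(FNbar N)))
        * (((u⁻¹ : (↥(gaussV A N))ˣ) : ↥(gaussV A N)) : ↥(FNbar N)) = _
    congr 1
    have : ((u : ↥(gaussV A N)) : ↥(FNbar N))
        * (((u⁻¹ : (↥(gaussV A N))ˣ) : ↥(gaussV A N)) : ↥(FNbar N)) = 1 := by
      have h := congrArg (fun z : ↥(gaussV A N) => (z : ↥(FNbar N))) (Units.mul_inv u)
      exact h
    exact (eq_inv_of_mul_eq_one_right this)
  -- orders of `u`
  have hordu : ∀ P : Place (AlgebraicClosure ℚ) ↥(FNbar N),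
      P.ord ((u : ↥(gaussV A N)) : ↥(FNbar N))
        = (n : ℤ) * (D : Divisor (AlgebraicClosure ℚ) ↥(FNbar N)) P := by
    intro P
    rw [hfD P, hfu, Place.ord_mul _ ((map_ne_zero _).2 hc) hu0, ord_algebraMap_zero, zero_add]
  refine ⟨SemilinearAut.degZeroSMulHom (galF N σ) D - D, f₁, ?_, hres, fun P => ?_⟩
  · show galF N σ • (Pic0.mk D) - Pic0.mk D = _
    rw [SemilinearAut.pic0_smul_mk]
    rfl
  · have hσu0 : galF N σ • ((u : ↥(gaussV A N)) : ↥(FNbar N)) ≠ 0 := by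
      intro h0
      apply hu0
      have h1 := congrArg (fun z => (galF N σ)⁻¹ • z) h0
      simp only [inv_smul_smul, smul_zero] at h1
      exact h1
    rw [hf₁, Place.ord_mul _ hσu0 (inv_ne_zero hu0), Place.ord_inv, ord_galF_smul, hordu, hordu]
    have e : ((SemilinearAut.degZeroSMulHom (galF N σ) D - D :
        Divisor.degZero (K := AlgebraicClosure ℚ) (F := ↥(FNbar N))) :
          Divisor (AlgebraicClosure ℚ) ↥(FNbar N)) P
        = (D : Divisor (AlgebraicClosure ℚ) ↥(FNbar N)) ((galF N σ)⁻¹ • P)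
          - (D : Divisor (AlgebraicClosure ℚ) ↥(FNbar N)) P := by
      rw [AddSubgroup.coe_sub, SemilinearAut.coe_degZeroSMulHom, Finsupp.sub_apply,
        SemilinearAut.divisor_smul_apply]
    rw [e]
    ring

/-- **(B1)** from its Kummer form. -/
theorem b1_of_core {q : ℕ} (h : Stmt_B1core N q) : Stmt_B1 N q := by
  rintro A hA σ hσ n hn x ⟨D, f, rfl, hres, hD⟩
  have hn0 : (n : ℤ) ≠ 0 := by
    intro h0
    apply hn
    have : n = 0 := by exact_mod_cast h0
    rw [this]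
    exact dvd_zero q
  have hf0 : ((f : ↥(gaussV A N)) : ↥(FNbar N)) ≠ 0 := by
    intro h0
    have e : f = 0 := Subtype.ext h0
    rw [e, map_zero] at hres
    exact zero_ne_one hres
  obtain ⟨t, ht⟩ := h A hA σ hσ n hn f hres (fun P => ⟨_, (hD P).symm⟩)
  have hσf0 : galF N σ • ((f : ↥(gaussV A N)) : ↥(FNbar N)) ≠ 0 := by
    intro h0
    apply hf0
    have h1 := congrArg (fun z => (galF N σ)⁻¹ • z) h0
    simp only [inv_smul_smul, smul_zero] at h1
    exact h1
  have ht0 : t ≠ 0 := by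
    rintro rfl
    have hn' : n ≠ 0 := fun h0 => hn0 (by rw [h0]; rfl)
    rw [zero_pow hn'] at ht
    exact (div_ne_zero hσf0 hf0) ht.symm
  -- `σ D - D = div t`
  have hprin : ((SemilinearAut.degZeroSMulHom (galF N σ) D - D :
      Divisor.degZero (K := AlgebraicClosure ℚ) (F := ↥(FNbar N))) :
        Divisor (AlgebraicClosure ℚ) ↥(FNbar N)) ∈
      Divisor.principal (K := AlgebraicClosure ℚ) (F := ↥(FNbar N)) := by
    refine ⟨t, ht0, fun P => ?_⟩
    have e : ((SemilinearAut.degZeroSMulHom (galF N σ) D - D :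
        Divisor.degZero (K := AlgebraicClosure ℚ) (F := ↥(FNbar N))) :
          Divisor (AlgebraicClosure ℚ) ↥(FNbar N)) P
        = (D : Divisor (AlgebraicClosure ℚ) ↥(FNbar N)) ((galF N σ)⁻¹ • P)
          - (D : Divisor (AlgebraicClosure ℚ) ↥(FNbar N)) P := by
      rw [AddSubgroup.coe_sub, SemilinearAut.coe_degZeroSMulHom, Finsupp.sub_apply,
        SemilinearAut.divisor_smul_apply]
    rw [e]
    apply mul_left_cancel₀ hn0
    have h1 : (n : ℤ) * P.ord t = P.ord (t ^ n) := by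
      have := Place.ord_zpow P t (n : ℤ)
      rw [zpow_natCast] at this
      exact this.symm
    rw [h1, ht, div_eq_mul_inv, Place.ord_mul _ hσf0 (inv_ne_zero hf0), Place.ord_inv,
      ord_galF_smul, ← hD, ← hD]
    ring
  have hzero : (Pic0.mk (SemilinearAut.degZeroSMulHom (galF N σ) D - D) : JZero N) = 0 :=
    (QuotientAddGroup.eq_zero_iff _).2 (AddSubgroup.mem_addSubgroupOf.2 hprin)
  have hsub : galF N σ • (Pic0.mk D : JZero N) - Pic0.mk D = 0 := by
    rw [SemilinearAut.pic0_smul_mk]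
    exact hzero
  exact sub_eq_zero.1 hsub

/-- **(UNIP) from (B1)** (and the free statement (B0)). -/
theorem torsUnip_of_B1 [NeZero N] {p : ℕ} (hp : p.Prime)
    (h : ∀ q : ℕ, q.Prime → q ∣ N → ¬ q ^ 2 ∣ N → q ≠ p → Stmt_B1 N q) :
    Stmt_TorsUnip N p := by
  rintro q hq hqN hq2 hqp A hA σ hσ τ hτ x ⟨k, hk⟩
  have hK : InK1 A N (p ^ k) (τ • x - x) := stmt_B0 N A τ hτ (p ^ k) x hk
  have hqpk : ¬ q ∣ p ^ k := by
    intro hd
    exact hqp ((Nat.prime_dvd_prime_iff_eq hq hp).1 (hq.dvd_of_dvd_pow hd))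
  have h1 := h q hq hqN hq2 hqp A hA σ hσ (p ^ k) hqpk (τ • x - x) hK
  rw [smul_sub] at h1
  have h2 : σ • τ • x - σ • x - τ • x + x = (σ • τ • x - σ • x) - (τ • x - x) := by abel
  rw [h2, h1, sub_self]

/-- **(UNIP) from the Kummer form of (B1)**. -/
theorem torsUnip_of_B1core [NeZero N] {p : ℕ} (hp : p.Prime)
    (h : ∀ q : ℕ, q.Prime → q ∣ N → ¬ q ^ 2 ∣ N → q ≠ p → Stmt_B1core N q) :
    Stmt_TorsUnip N p :=
  torsUnip_of_B1 N hp (fun q hq hqN hq2 hqp => b1_of_core N (h q hq hqN hq2 hqp))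

end Fermat.Agent.BAD.H91
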