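import Fermat.Agent.BAD.H91_Rho
import Fermat.Agent.BAD.H42_Cusp
import Fermat.Agent.BAD.H30_UnitL
import Fermat.Agent.RED.H73_GAFinal
import Fermat.Agent.RED.H17_LiftMove

/-!
# BAD_q, final assembly, part 2 (helper91): the unit has no zero or pole over a non-cusp

`q ∤ M` tame, `A` over `q`.

* `ord_jF_nonneg_of_rM` : if `j~` is regular at `r_M P` then `j` is regular at `P`
  (helper42's CUSP for the chart `j` of level `M`, degrees by GA);
* `ord_unitF_eq_zero_of_rhoM` : if `j~` is regular at `ρ_M P`, `P` a place of level `M q`, then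
  the modular unit `Δ(z)/Δ(qz)` has order `0` at `P` (helper30's `ord_unitF`).
-/

set_option autoImplicit false
set_option linter.style.haveILetI false
set_option synthInstance.maxHeartbeats 400000
set_option maxHeartbeats 400000

noncomputable section

open HahnSeries IntermediateField AlgebraicCurve ModularCurve
open Fermat.Agent.S28.H73 Fermat.Agent.RED.H73 Fermat.Agent.RED

namespace Fermat.Agent.BAD.H91

open Fermat.Agent.BAD

variable {A : ValuationSubring (AlgebraicClosure ℚ)} {M q : ℕ} [NeZero M]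

/-- `j` of level `M` as a Gauss-integral function. -/
theorem jF_mem_gaussV (A : ValuationSubring (AlgebraicClosure ℚ)) (M : ℕ) [NeZero M] :
    RED.H73.jF (L := AlgebraicClosure ℚ) M ∈ gaussV A M :=
  jF_mem A M

/-- The reduction `j~` of `j` at level `M`. -/
abbrev jRed (A : ValuationSubring (AlgebraicClosure ℚ)) (M : ℕ) [NeZero M] :
    ↥(redField A (laurentBaseChange (AlgebraicClosure ℚ) (modularFunctionFieldFull M))
        (hasScale_laurentBaseChange A M)) :=
  (redSetting A (hasScale_laurentBaseChange A M)).red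
    ⟨RED.H73.jF (L := AlgebraicClosure ℚ) M, jF_mem A M⟩

/-- **CUSP, abstract helper**: the statement for a reduction datum whose `V`, `red` are those of
the Gauss valuation. -/
theorem ord_jF_nonneg_aux (hq : q.Prime) (hqM : ¬ q ∣ M) (hA : A.LiesOverPrime q)
    (SE : RED.H17.RedSetup (AlgebraicClosure ℚ)
      ↥(laurentBaseChange (AlgebraicClosure ℚ) (modularFunctionFieldFull M)) (kV A)
      ↥(redField A (laurentBaseChange (AlgebraicClosure ℚ) (modularFunctionFieldFull M))
        (hasScale_laurentBaseChange A M)))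
    (hmem : RED.H73.jF (L := AlgebraicClosure ℚ) M ∈ SE.V)
    (hred : SE.red ⟨RED.H73.jF (L := AlgebraicClosure ℚ) M, hmem⟩ = jRed A M)
    (hFF' : IsFF (kV A)
      ↥(redField A (laurentBaseChange (AlgebraicClosure ℚ) (modularFunctionFieldFull M))
        (hasScale_laurentBaseChange A M)))
    (P : Place (AlgebraicClosure ℚ)
      ↥(laurentBaseChange (AlgebraicClosure ℚ) (modularFunctionFieldFull M)))
    (h : 0 ≤ (SE.r P).ord (jRed A M)) :
    0 ≤ P.ord (RED.H73.jF (L := AlgebraicClosure ℚ) M) := by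
  haveI : IsAlgClosed (kV A) := isAlgClosed_kV A
  have hFF : IsFF (AlgebraicClosure ℚ)
      ↥(laurentBaseChange (AlgebraicClosure ℚ) (modularFunctionFieldFull M)) :=
    H95.stmt_HKA_isFF M
  obtain ⟨hxt', hfd, -, hdeg, -⟩ := goodChart_pre M q hq hqM A hA
  haveI := hfd
  have H := RED.H17.ffHyp_of_isFF _ _ hFF
  have H' := RED.H17.ffHyp_of_isFF _ _ hFF'
  have hrd : SE.rd (RED.H73.jF (L := AlgebraicClosure ℚ) M) = jRed A M :=
    (SE.rd_of_mem hmem).trans hred
  have hxt : Transcendental (AlgebraicClosure ℚ) (RED.H73.jF (L := AlgebraicClosure ℚ) M) :=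
    RED.H34.RedSetting.transcendental_x (S := redSetting A (hasScale_laurentBaseChange A M))
      (jF_mem A M) hxt'
  have hz := RED.H42.zerosAll _ _ hFF
  have hz' := RED.H42.zerosAll _ _ hFF'
  -- generalize the reduction of `j`
  have key : ∀ y : ↥(redField A (laurentBaseChange (AlgebraicClosure ℚ)
      (modularFunctionFieldFull M)) (hasScale_laurentBaseChange A M)),
      SE.rd (RED.H73.jF (L := AlgebraicClosure ℚ) M) = y → Transcendental (kV A) y →
      Module.finrank ↥((kV A)⟮y⟯)
        ↥(redField A (laurentBaseChange (AlgebraicClosure ℚ) (modularFunctionFieldFull M))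
          (hasScale_laurentBaseChange A M))
        = Module.finrank ↥((AlgebraicClosure ℚ)⟮RED.H73.jF (L := AlgebraicClosure ℚ) M⟯)
          ↥(laurentBaseChange (AlgebraicClosure ℚ) (modularFunctionFieldFull M)) →
      0 ≤ (SE.r P).ord y → 0 ≤ P.ord (RED.H73.jF (L := AlgebraicClosure ℚ) M) := by
    intro y hy hyt hyd hy0
    subst hy
    have hx : SE.IsGU (RED.H73.jF (L := AlgebraicClosure ℚ) M) :=
      ⟨hmem, fun h0 => hyt (h0 ▸ isAlgebraic_zero)⟩
    haveI hfd' : FiniteDimensional
        ↥((kV A)⟮SE.rd (RED.H73.jF (L := AlgebraicClosure ℚ) M)⟯)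
        ↥(redField A (laurentBaseChange (AlgebraicClosure ℚ) (modularFunctionFieldFull M))
          (hasScale_laurentBaseChange A M)) := by
      apply Module.finite_of_finrank_pos
      rw [hyd]
      exact Module.finrank_pos
    exact Fermat.Agent.BAD.H42.ord_nonneg_of_ord_rd_nonneg SE H.principal
      H'.principal hz hz' hx hxt hyt hyd.ge P hy0
  exact key _ hrd hxt' hdeg h

/-- **CUSP at level `M`**: if `j~` is regular at `r_M P`, then `j` is regular at `P`. -/
theorem ord_jF_nonneg_of_rM (hq : q.Prime) (hqM : ¬ q ∣ M) (ht : TameAt M q)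
    (hA : A.LiesOverPrime q) (P : Place (AlgebraicClosure ℚ) ↥(FNbar M))
    (h : 0 ≤ (rM hq hqM ht hA P).ord (jRed A M)) :
    0 ≤ P.ord (RED.H73.jF (L := AlgebraicClosure ℚ) M) :=
  ord_jF_nonneg_aux hq hqM hA (seM hq hqM ht hA) (jF_mem A M) rfl (isFF_redM hq hqM ht hA) P h


omit [NeZero M] in
/-- The two versions of `j` in `F_{M q}` agree. -/
theorem incl_jF [NeZero (M * q)] :
    incl M q (RED.H73.jF (L := AlgebraicClosure ℚ) M) = Fermat.Agent.S24.jF (M * q) := by
  apply Subtype.ext
  rw [coe_incl]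
  show jqModC (AlgebraicClosure ℚ) = coeffEmb (AlgebraicClosure ℚ) jq
  have h := RED.H73.coeffEmb_qExpand_jq (L := AlgebraicClosure ℚ) 1
  rw [qExpand_one_apply, qExpand_one_apply] at h
  exact h.symm

/-- **The unit has order `0` over the non-cusps**: if `j~` is regular at `ρ_M P`, then
`Δ(z)/Δ(qz)` has neither zero nor pole at `P`. -/
theorem ord_unitF_eq_zero_of_rhoM [NeZero (M * q)] [NeZero q] (hq : q.Prime) (hqM : ¬ q ∣ M)
    (ht : TameAt M q) (hA : A.LiesOverPrime q) (hd : q ∣ M * q)
    (P : Place (AlgebraicClosure ℚ) ↥(FNbar (M * q)))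
    (h : 0 ≤ (rhoM hq hqM ht hA P).ord (jRed A M)) :
    P.ord (Fermat.Agent.BAD.H30.unitF (M * q) q hd) = 0 := by
  have h1 := ord_jF_nonneg_of_rM hq hqM ht hA _ h
  have h2 : 0 ≤ P.ord (incl M q (RED.H73.jF (L := AlgebraicClosure ℚ) M)) := by
    rw [Place.ord_restrictAlong (incl M q) (incl_isIntegral M q) P]
    exact mul_nonneg (Int.natCast_nonneg _) h1
  rw [incl_jF] at h2
  exact Fermat.Agent.BAD.H30.ord_unitF (M * q) q hd P h2

end Fermat.Agent.BAD.H91
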