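import Fermat.Agent.BAD.H91_Assemble
import Fermat.Agent.S18.Final
import Fermat.Agent.RED.KD.H22_KD
import Fermat.Agent.BAD.ABS

/-!
# BAD_q: descent of (B1) to all levels  (helper91)

The modular semistable Deuring datum `Stmt_ModSSD M q` is built on the Deuring reduction datum
of level `M / q` at `q`, which G-RED provides at the TAME levels only (`Stmt_DR2`: `q ≥ 5`, or
`q = 3` and `2 ∣ M`, or `q = 2` and `3 ∣ M`).  As for `TIcore`, the Kummer form of (B1) descends
from level `M` to level `N ∣ M`, `M ∣ 36 N`, by Kummer descent (`Stmt_KD`, proved by helper22).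

* `b1core_descend : Stmt_B1core M q → Stmt_B1core N q` for `N ∣ M ∣ 36 N`;
* `b1core_all` : `Stmt_B1core N q` for all `q ‖ N` from `Stmt_B1core` at the tame levels;
* `torsUnip_of_tame` : `Stmt_TorsUnip N p` from `Stmt_ABS` and `Stmt_ModSSD` at the tame levels.
-/

set_option autoImplicit false
set_option linter.style.haveILetI false
set_option synthInstance.maxHeartbeats 400000
set_option maxHeartbeats 400000

noncomputable section

open HahnSeries IntermediateField AlgebraicCurve ModularCurve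
open Fermat.Agent.S28.H73 Fermat.Agent.RED.H73 Fermat.Agent.RED

namespace Fermat.Agent.BAD.H91

open Fermat.Agent.BAD

/-- The tame case at `(M, q)`: the levels at which the modular datum is constructed. -/
def Tame (M q : ℕ) : Prop := 5 ≤ q ∨ (q = 3 ∧ 2 ∣ M) ∨ (q = 2 ∧ 3 ∣ M)

/-- **Descent of (B1), Kummer form**, from level `M` to level `N ∣ M`, `M ∣ 36 N`. -/
theorem b1core_descend {N M q : ℕ} [NeZero N] [NeZero M] (hNM : N ∣ M) (hM36 : M ∣ 36 * N)
    (hM : Stmt_B1core M q) : Stmt_B1core N q := by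
  intro A hA σ hσ n hn f hres hdiv
  have hn0 : 0 < n := Nat.pos_of_ne_zero (by rintro rfl; exact hn (dvd_zero q))
  have hle : modularFunctionFieldBar N ≤ modularFunctionFieldBar M :=
    S18.modularFunctionFieldBar_mono hNM
  have hint : (IntermediateField.inclusion hle).toRingHom.IsIntegral :=
    (H51.stmt_FFB_finite _ _ _ (H95.stmt_HKA_isFF N) (H95.stmt_HKA_isFF M) _).1
  set φ : ↥(FNbar N) →ₐ[AlgebraicClosure ℚ] ↥(FNbar M) := IntermediateField.inclusion hle
    with hφdef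
  set f' : ↥(FNbar M) := φ (f : ↥(FNbar N)) with hf'
  have hcoe : ((f' : ↥(FNbar M)) : LaurentSeries (AlgebraicClosure ℚ))
      = ((f : ↥(FNbar N)) : LaurentSeries (AlgebraicClosure ℚ)) :=
    IntermediateField.coe_inclusion hle (f : ↥(FNbar N))
  have hfV : ((f : ↥(FNbar N)) : LaurentSeries (AlgebraicClosure ℚ)) ∈ gaussRingV A :=
    (mem_gaussValSub_iff A (hasScale_laurentBaseChange A N) _).mp f.2
  have hf'V : f' ∈ gaussV A M := by
    show ((f' : ↥(FNbar M)) : LaurentSeries (AlgebraicClosure ℚ)) ∈ gaussRingV A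
    rw [hcoe]
    exact hfV
  have hres' : gaussRes A M ⟨f', hf'V⟩ = 1 := by
    apply Subtype.ext
    have e1 : gaussResF A (hasScale_laurentBaseChange A N) f = 1 := congrArg Subtype.val hres
    rw [gaussResF_apply] at e1
    show gaussResF A (hasScale_laurentBaseChange A M) ⟨f', hf'V⟩ = 1
    rw [gaussResF_apply, ← e1]
    congr 1
  have hdiv' : ∀ P' : Place (AlgebraicClosure ℚ) ↥(FNbar M), (n : ℤ) ∣ P'.ord f' := by
    intro P'
    letI := algebraAlong φ
    haveI := isScalarTower_along φ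
    haveI := isIntegral_along φ hint
    have h1 := P'.ord_restrict (F := ↥(FNbar N)) (f : ↥(FNbar N))
    have h2 : f' = algebraMap ↥(FNbar N) ↥(FNbar M) (f : ↥(FNbar N)) := rfl
    rw [h2, h1]
    exact Dvd.dvd.mul_left (hdiv _) _
  obtain ⟨t, ht⟩ := hM A hA σ hσ n hn ⟨f', hf'V⟩ hres' hdiv'
  -- the quotient `σ f / f` at level `N`
  have hf0 : ((f : ↥(gaussV A N)) : ↥(FNbar N)) ≠ 0 := by
    intro h0
    have e : f = 0 := Subtype.ext h0
    rw [e, map_zero] at hres
    exact zero_ne_one hres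
  have hσf0 : galF N σ • ((f : ↥(gaussV A N)) : ↥(FNbar N)) ≠ 0 := by
    intro h0
    apply hf0
    have h1 := congrArg (fun z => (galF N σ)⁻¹ • z) h0
    simp only [inv_smul_smul, smul_zero] at h1
    exact h1
  have hdivg : ∀ P : Place (AlgebraicClosure ℚ) ↥(FNbar N),
      (n : ℤ) ∣ P.ord ((galF N σ • ((f : ↥(gaussV A N)) : ↥(FNbar N)))
        / ((f : ↥(gaussV A N)) : ↥(FNbar N))) := by
    intro P
    rw [div_eq_mul_inv, Place.ord_mul _ hσf0 (inv_ne_zero hf0), Place.ord_inv, ord_galF_smul]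
    exact dvd_add (hdiv _) ((dvd_neg).2 (hdiv _))
  refine Fermat.Agent.RED.KD.H22.stmt_KD N M n hNM hM36 hn0 _ hdivg ⟨(t : LaurentSeries (AlgebraicClosure ℚ)), t.2, ?_⟩
  have h3 := congrArg (Subtype.val : ↥(FNbar M) → LaurentSeries (AlgebraicClosure ℚ)) ht
  have h4 : ((t : ↥(FNbar M)) : LaurentSeries (AlgebraicClosure ℚ)) ^ n
      = ((galF M σ • f' : ↥(FNbar M)) : LaurentSeries (AlgebraicClosure ℚ))
        / ((f' : ↥(FNbar M)) : LaurentSeries (AlgebraicClosure ℚ)) := h3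
  rw [h4]
  show ((galF M σ • f' : ↥(FNbar M)) : LaurentSeries (AlgebraicClosure ℚ))
      / ((f' : ↥(FNbar M)) : LaurentSeries (AlgebraicClosure ℚ))
    = ((galF N σ • ((f : ↥(gaussV A N)) : ↥(FNbar N)) : ↥(FNbar N)) :
        LaurentSeries (AlgebraicClosure ℚ))
      / (((f : ↥(gaussV A N)) : ↥(FNbar N)) : LaurentSeries (AlgebraicClosure ℚ))
  rw [coe_arithmeticGalois_smul, coe_arithmeticGalois_smul, hcoe]

/-- **(B1), Kummer form, at every level** `N` with `q ‖ N`, from the tame levels. -/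
theorem b1core_all
    (h : ∀ (M q : ℕ) [NeZero M], q.Prime → q ∣ M → ¬ q ^ 2 ∣ M → Tame M q → Stmt_B1core M q)
    (N q : ℕ) [NeZero N] (hq : q.Prime) (hqN : q ∣ N) (hq2 : ¬ q ^ 2 ∣ N) : Stmt_B1core N q := by
  by_cases h5 : 5 ≤ q
  · exact h N q hq hqN hq2 (Or.inl h5)
  have hq2' : 2 ≤ q := hq.two_le
  have h23 : q = 2 ∨ q = 3 ∨ q = 4 := by omega
  have hN0 : N ≠ 0 := NeZero.ne N
  rcases h23 with rfl | rfl | rfl
  · -- `q = 2`, `M = 3 N`
    haveI : NeZero (3 * N) := ⟨Nat.mul_ne_zero (by norm_num) hN0⟩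
    have h1 : 2 ∣ 3 * N := Dvd.dvd.mul_left hqN 3
    have h2 : ¬ 2 ^ 2 ∣ 3 * N := by
      intro hd
      apply hq2
      have hco : Nat.Coprime (2 ^ 2) 3 := by decide
      exact hco.dvd_of_dvd_mul_left hd
    exact b1core_descend (Dvd.intro_left 3 rfl) (Nat.mul_dvd_mul_right (by norm_num) N)
      (h (3 * N) 2 hq h1 h2 (Or.inr (Or.inr ⟨rfl, Dvd.intro N rfl⟩)))
  · -- `q = 3`, `M = 2 N`
    haveI : NeZero (2 * N) := ⟨Nat.mul_ne_zero (by norm_num) hN0⟩
    have h1 : 3 ∣ 2 * N := Dvd.dvd.mul_left hqN 2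
    have h2 : ¬ 3 ^ 2 ∣ 2 * N := by
      intro hd
      apply hq2
      have hco : Nat.Coprime (3 ^ 2) 2 := by decide
      exact hco.dvd_of_dvd_mul_left hd
    exact b1core_descend (Dvd.intro_left 2 rfl) (Nat.mul_dvd_mul_right (by norm_num) N)
      (h (2 * N) 3 hq h1 h2 (Or.inr (Or.inl ⟨rfl, Dvd.intro N rfl⟩)))
  · exact absurd hq (by decide)

/-- **(UNIP) at every level** from the modular semistable Deuring datum at the tame levels
(ABS and Kummer descent are proved). -/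
theorem torsUnip_of_tame
    (hS : ∀ (M q : ℕ) [NeZero M], q.Prime → q ∣ M → ¬ q ^ 2 ∣ M → Tame M q → Stmt_ModSSD M q)
    (N : ℕ) [NeZero N] (p : ℕ) (hp : p.Prime) : Stmt_TorsUnip N p :=
  torsUnip_of_B1core N hp (fun q hq hqN hq2 _ =>
    b1core_all (fun M q' _ hq' hqM hqM2 ht => b1core_of_ABS M stmt_ABS hq' (hS M q' hq' hqM hqM2 ht))
      N q hq hqN hq2)

end Fermat.Agent.BAD.H91
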