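import Fermat.Agent.BAD.H91_Rho
import Fermat.Agent.BAD.H82_Deg

/-!
# BAD_q, final assembly, part 3 (helper91): transport of places along (D)

(D) (helper82, helper73): the residue fields of the Gauss valuations of levels `M q` and `M`
are the same subfield of `k((t))`.

* `placeCongr h : Place k ↥E₁ ≃ Place k ↥E₂` for equal intermediate fields, `placeCongr_ord`;
* `kappa : Place k F₁ ≃ Place k (redM)`, `kappa_ord`, `kappa_symm_ord`;
* `rhoF1 P := kappa.symm (rhoM P)` : the reduction map of `TotData` with values in the places of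
  `F₁`, `kappa_rhoF1`, `rhoF1_inertia`.
-/

set_option autoImplicit false
set_option linter.style.haveILetI false
set_option synthInstance.maxHeartbeats 400000
set_option maxHeartbeats 400000

noncomputable section

open HahnSeries IntermediateField AlgebraicCurve ModularCurve
open Fermat.Agent.S28.H73 Fermat.Agent.RED.H73 Fermat.Agent.RED Fermat.Agent.S24
open Fermat.Agent.BAD.H88

namespace Fermat.Agent.BAD.H91

open Fermat.Agent.BAD

section Abs

variable {k X : Type*} [Field k] [Field X] [Algebra k X]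

/-- Transport of places along an equality of intermediate fields. -/
def placeCongr {E₁ E₂ : IntermediateField k X} (h : E₁ = E₂) : Place k ↥E₁ ≃ Place k ↥E₂ :=
  Equiv.cast (by rw [h])

theorem placeCongr_ord {E₁ E₂ : IntermediateField k X} (h : E₁ = E₂) (z : Place k ↥E₁)
    (y₁ : ↥E₁) (y₂ : ↥E₂) (hy : (y₁ : X) = (y₂ : X)) :
    (placeCongr h z).ord y₂ = z.ord y₁ := by
  subst h
  have e : y₁ = y₂ := Subtype.ext hy
  rw [e]
  rfl

theorem placeCongr_symm_ord {E₁ E₂ : IntermediateField k X} (h : E₁ = E₂) (z : Place k ↥E₂)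
    (y₁ : ↥E₁) (y₂ : ↥E₂) (hy : (y₁ : X) = (y₂ : X)) :
    ((placeCongr h).symm z).ord y₁ = z.ord y₂ := by
  subst h
  have e : y₁ = y₂ := Subtype.ext hy
  rw [e]
  rfl

end Abs

section Mod

variable (A : ValuationSubring Kbar) (q M : ℕ) (a b : ℤ) (hab : a * q + b * M = 1)
  (hq : q.Prime) [NeZero M] [NeZero (M * q)] (hA : A.LiesOverPrime q)

/-- **`κ`**: the places of `F₁` (residue field of level `M q`) are the places of the residue
field of level `M`. -/
def kappa : Place (kV A) (F1 A q M) ≃ Place (kV A) ↥(redM A M) :=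
  placeCongr (H82.redField_eq_redField q M a b hab hq A hA)

omit [NeZero M] in
theorem kappa_ord (z : Place (kV A) (F1 A q M)) (y₁ : F1 A q M) (y₂ : ↥(redM A M))
    (hy : (y₁ : LaurentSeries (kV A)) = (y₂ : LaurentSeries (kV A))) :
    (kappa A q M a b hab hq hA z).ord y₂ = z.ord y₁ :=
  placeCongr_ord _ z y₁ y₂ hy

omit [NeZero M] in
theorem kappa_symm_ord (z : Place (kV A) ↥(redM A M)) (y₁ : F1 A q M) (y₂ : ↥(redM A M))
    (hy : (y₁ : LaurentSeries (kV A)) = (y₂ : LaurentSeries (kV A))) :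
    ((kappa A q M a b hab hq hA).symm z).ord y₁ = z.ord y₂ :=
  placeCongr_symm_ord _ z y₁ y₂ hy

variable {A q M}

/-- **`ρ`** with values in the places of `F₁`. -/
def rhoF1 (hqM : ¬ q ∣ M) (ht : TameAt M q) (P : Place Kbar (FN (M * q))) :
    Place (kV A) (F1 A q M) :=
  (kappa A q M a b hab hq hA).symm (rhoM hq hqM ht hA P)

theorem kappa_rhoF1 (hqM : ¬ q ∣ M) (ht : TameAt M q) (P : Place Kbar (FN (M * q))) :
    kappa A q M a b hab hq hA (rhoF1 a b hab hq hA hqM ht P) = rhoM hq hqM ht hA P :=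
  (kappa A q M a b hab hq hA).apply_symm_apply _

/-- `ρ` is invariant under inertia. -/
theorem rhoF1_inertia (hqM : ¬ q ∣ M) (ht : TameAt M q) {σ : GalQ}
    (hσ : σ ∈ A.inertiaSubgroupIn ℚ) (P : Place Kbar (FN (M * q))) :
    rhoF1 a b hab hq hA hqM ht (galF (M * q) σ • P) = rhoF1 a b hab hq hA hqM ht P := by
  unfold rhoF1
  rw [rhoM_inertia hq hqM ht hA hσ]

end Mod

end Fermat.Agent.BAD.H91
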