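import Fermat.Agent.BAD.H91_Nodes
import Fermat.Agent.BAD.H30_NumFinal
import Fermat.Agent.BAD.H17_Genus
import Fermat.Agent.BAD.H91_Descend

/-!
# BAD_q, final assembly (helper91): `Stmt_ModSSD M q` at all tame `(M, q)`, `q ‖ M`

Input (the last leaf):

* `Stmt_TotMod` : the law of TOTAL conservation for the two Gauss valuations of level `M q`,
  `ρ = rhoF1`, `β = betaF1` (helper23's TOT-MOD, from helper28's TOT-ABS).

Everything else is proved: V2 (helper88), sep/arch/(D) (helper82, helper73), β (helper73),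
UNIF (helper28), CUSP (helper42), UNIT (helper30), NUM (helper21, helper30, helper94),
GENUS (helper17; RH-R helper76, helper94), CONS-ss (helper79), G-RED `stmt_DR2`.

* `modSSD_tame_of : Stmt_TotMod → ∀ M q, q ‖ M → Tame M q → Stmt_ModSSD M q`.
-/

set_option autoImplicit false
set_option linter.style.haveILetI false
set_option synthInstance.maxHeartbeats 400000
set_option maxHeartbeats 400000

noncomputable section

open HahnSeries IntermediateField AlgebraicCurve ModularCurve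
open Fermat.Agent.S28.H73 Fermat.Agent.RED.H73 Fermat.Agent.RED Fermat.Agent.S24
open Fermat.Agent.BAD.H88

namespace Fermat.Agent.BAD.H91

open Fermat.Agent.BAD

/-- **TOT-MOD**: the law of total conservation for the modular datum of level `M q`. -/
def Stmt_TotMod : Prop :=
  ∀ (A : ValuationSubring Kbar) (q M : ℕ) (a b : ℤ) (hab : a * q + b * M = 1) (hq : q.Prime)
    [NeZero M] [NeZero (M * q)] (hA : A.LiesOverPrime q) (hqM : ¬ q ∣ M) (ht : TameAt M q)
    (u₁ : ↥(V1 A q M)) (u₂ : ↥(V2 A q M a b hab hq)), red1 A q M u₁ ≠ 0 →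
    red2 A q M a b hab hq u₂ ≠ 0 →
    (∃ c : Kbar, (u₂ : FN (M * q)) = algebraMap Kbar (FN (M * q)) c * (u₁ : FN (M * q))) →
    ∀ D : Divisor Kbar (FN (M * q)), (∀ P, D P = P.ord (u₁ : FN (M * q))) →
      ∀ z : Place (kV A) (F1 A q M),
        Finsupp.mapDomain (rhoF1 a b hab hq hA hqM ht) D z
          = z.ord (red1 A q M u₁)
            + (H73.betaF1 A q M hq hA M (H82.redField_eq_fullC q M a b hab hq A hA) z).ord
                (red2 A q M a b hab hq u₂)

section Abs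

variable {k X : Type*} [Field k] [Field X] [Algebra k X]

/-- Transport of Riemann's theorem along an equality of intermediate fields. -/
theorem isGenus_congr {E₁ E₂ : IntermediateField k X} (h : E₁ = E₂) {g : ℕ} {c : ℤ}
    (hg : RED.H17.IsGenus k ↥E₁ g c) : RED.H17.IsGenus k ↥E₂ g c := by
  subst h
  exact hg

end Abs

section Main

variable (hTot : Stmt_TotMod)

include hTot in
/-- The body of `Stmt_ModSSD (M q) q` at `A`, for `q ∤ M` tame. -/
theorem modSSD_body (A : ValuationSubring Kbar) (q M : ℕ) (a b : ℤ)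
    (hab : a * q + b * M = 1) (hq : q.Prime) [NeZero M] [NeZero (M * q)] [NeZero q]
    (hA : A.LiesOverPrime q) (hqM : ¬ q ∣ M) (ht : TameAt M q) :
    ∃ (F₁ F₂ : Type) (_ : Field F₁) (_ : Algebra (kV A) F₁) (_ : Field F₂)
      (_ : Algebra (kV A) F₂)
      (S : SSD (AlgebraicClosure ℚ) ↥(FNbar (M * q)) (kV A) F₁ F₂)
      (_ : RED.H17.FFHyp (AlgebraicClosure ℚ) ↥(FNbar (M * q))) (_ : RED.H17.FFHyp (kV A) F₁)
      (_ : RED.H17.FFHyp (kV A) F₂) (g g₁ g₂ : ℕ) (c c₁ c₂ : ℤ),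
      RED.H17.IsGenus (AlgebraicClosure ℚ) ↥(FNbar (M * q)) g c ∧
      RED.H17.IsGenus (kV A) F₁ g₁ c₁ ∧ RED.H17.IsGenus (kV A) F₂ g₂ c₂ ∧
      g + 1 ≤ g₁ + g₂ + S.nodes.card ∧
      (∀ f : ↥(FNbar (M * q)), f ∈ gaussV A (M * q) → f ∈ S.c₁.V) ∧
      (∀ (f : ↥(gaussV A (M * q))) (hf : (f : ↥(FNbar (M * q))) ∈ S.c₁.V),
        gaussRes A (M * q) f = 1 → S.c₁.red ⟨(f : ↥(FNbar (M * q))), hf⟩ = 1) ∧
      ∀ σ ∈ A.inertiaSubgroupIn ℚ, S.IsInertial (galF (M * q) σ) := by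
  haveI : IsAlgClosed (kV A) := isAlgClosed_kV A
  -- function fields, Riemann's theorem
  have hFFL : IsFF Kbar ↥(FNbar (M * q)) := H95.stmt_HKA_isFF (M * q)
  have hFF1 : IsFF (kV A) (F1 A q M) := isFF_F1 a b hab hq hA hqM ht
  have H := RED.H17.ffHyp_of_isFF _ _ hFFL
  have H₁ := RED.H17.ffHyp_of_isFF _ _ hFF1
  obtain ⟨g, c, hg⟩ := RED.H17.exists_isGenus _ _ hFFL
  obtain ⟨g₁, c₁, hg₁⟩ := RED.H17.exists_isGenus _ _ hFF1
  have hg₁' : RED.H17.IsGenus (kV A) ↥(redM A M) g₁ c₁ :=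
    isGenus_congr (H82.redField_eq_redField q M a b hab hq A hA) hg₁
  -- NUM
  obtain ⟨Z, hZne, hZc, hZo, hnum⟩ :=
    Fermat.Agent.BAD.H30.num_final_tame M q hq ht hqM A hA (Dvd.intro_left M rfl)
  -- the datum
  have htot := hTot A q M a b hab hq hA hqM ht
  -- the nodes
  have hZ' : ∀ z ∈ Z.map (kappa A q M a b hab hq hA).symm.toEmbedding,
      (modT a b hab hq hA hqM ht
        (H73.betaF1 A q M hq hA M (H82.redField_eq_fullC q M a b hab hq A hA)) htot).IsNode z := by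
    intro z hz
    obtain ⟨z₀, hz₀, rfl⟩ := Finset.mem_map.mp hz
    exact isNode_modT a b hab hq hA hqM ht _ htot _ z₀ (hZc z₀ hz₀) (hZo z₀ hz₀)
  have hnum' : g + 1 ≤ g₁ + g₁ + (Z.map (kappa A q M a b hab hq hA).symm.toEmbedding).card := by
    rw [Finset.card_map]
    exact Fermat.Agent.BAD.H17.genus_ineq hq hqM ht hA hg hg₁' Z.card hnum
  exact modSSD_of_totData A q M a b hab hq hA
    (H73.betaF1 A q M hq hA M (H82.redField_eq_fullC q M a b hab hq A hA))
    (rhoF1 a b hab hq hA hqM ht) htot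
    (hunif_mod a b hab hq hA hqM ht) H H₁ g g₁ c c₁ hg hg₁ _ (hZne.map) hZ' hnum'
    (fun s hs P => rhoF1_inertia a b hab hq hA hqM ht hs P)

include hTot in
/-- **The modular semistable Deuring datum at all tame `(M, q)`, `q ‖ M`.** -/
theorem modSSD_tame_of (M q : ℕ) [NeZero M] (hq : q.Prime) (hqM : q ∣ M)
    (hq2 : ¬ q ^ 2 ∣ M) (ht : Tame M q) : Stmt_ModSSD M q := by
  obtain ⟨M', rfl⟩ : ∃ M', M = M' * q := ⟨M / q, (Nat.div_mul_cancel hqM).symm⟩
  intro A hA
  have hqM' : ¬ q ∣ M' := fun h => hq2 (by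
    rw [pow_two]
    exact Nat.mul_dvd_mul h (dvd_refl q))
  haveI : NeZero M' := ⟨fun h0 => NeZero.ne (M' * q) (by rw [h0, zero_mul])⟩
  haveI : NeZero q := ⟨hq.ne_zero⟩
  have ht' : TameAt M' q := by
    rcases ht with h | ⟨h3, h2⟩ | ⟨h2, h3⟩
    · exact Or.inl h
    · right; left
      refine ⟨h3, ?_⟩
      have h2' : 2 ∣ M' * 3 := h3 ▸ h2
      exact Nat.Coprime.dvd_of_dvd_mul_right (by decide) h2'
    · right; right
      refine ⟨h2, ?_⟩
      have h3' : 3 ∣ M' * 2 := h2 ▸ h3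
      exact Nat.Coprime.dvd_of_dvd_mul_right (by decide) h3'
  obtain ⟨a, b, hab⟩ : ∃ a b : ℤ, a * q + b * M' = 1 := by
    have hcop : Nat.Coprime q M' := (Nat.Prime.coprime_iff_not_dvd hq).2 hqM'
    obtain ⟨a, b, h⟩ := Nat.isCoprime_iff_coprime.2 hcop
    exact ⟨a, b, h⟩
  exact modSSD_body hTot A q M' a b hab hq hA hqM' ht'

end Main

end Fermat.Agent.BAD.H91
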