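import Fermat.Agent.BAD.H91_B0
import Fermat.Agent.BAD.H79_Inert
import Fermat.Agent.BAD.H88_V2
import Fermat.Agent.BAD.H82_ArchF
import Fermat.Agent.BAD.H82_KronF
import Fermat.Agent.RED.H73_GAMainC

/-!
# BAD_q, final assembly, part 1 (helper91): the modular `TotData` from its leaves

`N = M q`, `A` over `q`, `K = ℚ̄`, `L = F_N · K`, `k = kV A`, `L₁ = L₂ = F1 A q M` (helper88).

* `vred1`, `vred2` : the two valuation rings with their reductions (helper88's `V1`, `V2`);
* `totDataOf β ρ htot hunif` : the `TotData` with the fields `sep`, `arch` (helper82),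
  `const_mem`, `const_red` (helper88) filled in;
* `inert_totDataOf` : an element of the inertia group of `A` which preserves `ρ` is inertial for
  the `TotData` (`mem₁`, `red₁` from `H91_B0`, `mem₂`, `red₂` from helper88's `arith_*`);
* `modSSD_of_totData` : the body of `BAD.Stmt_ModSSD (M q) q` at `A` from a `TotData` of this
  form, one node, Riemann's theorem and the numerical inequality.
-/

set_option autoImplicit false
set_option linter.style.haveILetI false
set_option synthInstance.maxHeartbeats 400000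
set_option maxHeartbeats 400000

noncomputable section

open AlgebraicCurve ModularCurve
open Fermat.Agent.S28.H73 Fermat.Agent.RED.H73 Fermat.Agent.RED Fermat.Agent.S24
open Fermat.Agent.BAD.H88

namespace Fermat.Agent.BAD.H91

open Fermat.Agent.BAD

section Build

variable (A : ValuationSubring Kbar) (q M : ℕ) (a b : ℤ) (hab : a * q + b * M = 1)
  (hq : q.Prime) [NeZero (M * q)]

/-- The first valuation ring (Gauss valuation at `∞`) with its reduction. -/
def vred1 : H79.VRed Kbar (FN (M * q)) (kV A) (F1 A q M) where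
  V := V1 A q M
  red := red1 A q M
  red_eq_zero_iff := red1_eq_zero_iff A q M
  red_surj := red1_surjective A q M
  exists_scale := exists_scale1 A q M
  red_const := fun c h =>
    ⟨resV A ⟨c, (const_mem1 A q M c).1 h⟩, red1_const A q M ⟨c, (const_mem1 A q M c).1 h⟩ h⟩
  const_surj := fun c' => by
    obtain ⟨c, rfl⟩ := IsLocalRing.residue_surjective (R := ↥A) c'
    exact ⟨(c : Kbar), (const_mem1 A q M (c : Kbar)).2 c.2, red1_const A q M c _⟩

/-- The second valuation ring `V₂ = V₁ ∘ w_q` with its reduction. -/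
def vred2 : H79.VRed Kbar (FN (M * q)) (kV A) (F1 A q M) where
  V := V2 A q M a b hab hq
  red := red2 A q M a b hab hq
  red_eq_zero_iff := red2_eq_zero_iff A q M a b hab hq
  red_surj := red2_surjective A q M a b hab hq
  exists_scale := exists_scale2 A q M a b hab hq
  red_const := fun c h => by
    have h1 : algebraMap Kbar (FN (M * q)) c ∈ V1 A q M := (const_mem2 A q M a b hab hq c).1 h
    refine ⟨resV A ⟨c, (const_mem1 A q M c).1 h1⟩, ?_⟩
    rw [const_red2 A q M a b hab hq c h1 h]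
    exact red1_const A q M ⟨c, (const_mem1 A q M c).1 h1⟩ h1
  const_surj := fun c' => by
    obtain ⟨c, rfl⟩ := IsLocalRing.residue_surjective (R := ↥A) c'
    have h1 : algebraMap Kbar (FN (M * q)) (c : Kbar) ∈ V1 A q M :=
      (const_mem1 A q M (c : Kbar)).2 c.2
    have h2 : algebraMap Kbar (FN (M * q)) (c : Kbar) ∈ V2 A q M a b hab hq :=
      (const_mem2 A q M a b hab hq (c : Kbar)).2 h1
    refine ⟨(c : Kbar), h2, ?_⟩
    rw [const_red2 A q M a b hab hq (c : Kbar) h1 h2]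
    exact red1_const A q M c h1

variable (hA : A.LiesOverPrime q)

/-- **The modular total conservation datum**, from the reduction map `ρ`, the bijection `β`,
the law of total conservation and the uniformizers. -/
def totDataOf (β : Place (kV A) (F1 A q M) ≃ Place (kV A) (F1 A q M))
    (ρ : Place Kbar (FN (M * q)) → Place (kV A) (F1 A q M))
    (htot : ∀ (u₁ : ↥(V1 A q M)) (u₂ : ↥(V2 A q M a b hab hq)), red1 A q M u₁ ≠ 0 →
      red2 A q M a b hab hq u₂ ≠ 0 →
      (∃ c : Kbar, (u₂ : FN (M * q)) = algebraMap Kbar (FN (M * q)) c * (u₁ : FN (M * q))) →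
      ∀ D : Divisor Kbar (FN (M * q)), (∀ P, D P = P.ord (u₁ : FN (M * q))) →
        ∀ z : Place (kV A) (F1 A q M),
          Finsupp.mapDomain ρ D z = z.ord (red1 A q M u₁) + (β z).ord (red2 A q M a b hab hq u₂))
    (hunif : ∀ z : Place (kV A) (F1 A q M), ∃ (t : FN (M * q)) (h₁ : t ∈ V1 A q M),
      t ∈ V2 A q M a b hab hq ∧ (∀ P, ρ P = z → 0 ≤ P.ord t) ∧
        z.ord (red1 A q M ⟨t, h₁⟩) = 1) :
    H79.TotData Kbar (FN (M * q)) (kV A) (F1 A q M) (F1 A q M) where
  b₁ := vred1 A q M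
  b₂ := vred2 A q M a b hab hq
  const_mem := fun c => (const_mem2 A q M a b hab hq c).symm
  const_red := fun c h₁ h₂ x hx => by
    show red2 A q M a b hab hq ⟨_, h₂⟩ = _
    rw [const_red2 A q M a b hab hq c h₁ h₂]
    exact hx
  ρ := ρ
  β := β
  tot := htot
  unif := hunif
  sep := by
    obtain ⟨e, h1, h2, he1, he2⟩ := H82.exists_sep q M a b hab hq A hA
    refine ⟨e, h1, h2, ?_, he2⟩
    show gaussRes A (M * q) ⟨e, h1⟩ ≠ 0
    rw [he1]
    exact one_ne_zero
  arch := fun c d h h0 hd => H82.arch_gaussV A hq hA (M * q) c d h h0 hd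

end Build

section Inert

variable (A : ValuationSubring Kbar) (q M : ℕ) (a b : ℤ) (hab : a * q + b * M = 1)
  (hq : q.Prime) [NeZero (M * q)] (hA : A.LiesOverPrime q)
  (β : Place (kV A) (F1 A q M) ≃ Place (kV A) (F1 A q M))
  (ρ : Place Kbar (FN (M * q)) → Place (kV A) (F1 A q M))
  (htot : ∀ (u₁ : ↥(V1 A q M)) (u₂ : ↥(V2 A q M a b hab hq)), red1 A q M u₁ ≠ 0 →
    red2 A q M a b hab hq u₂ ≠ 0 →
    (∃ c : Kbar, (u₂ : FN (M * q)) = algebraMap Kbar (FN (M * q)) c * (u₁ : FN (M * q))) →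
    ∀ D : Divisor Kbar (FN (M * q)), (∀ P, D P = P.ord (u₁ : FN (M * q))) →
      ∀ z : Place (kV A) (F1 A q M),
        Finsupp.mapDomain ρ D z = z.ord (red1 A q M u₁) + (β z).ord (red2 A q M a b hab hq u₂))
  (hunif : ∀ z : Place (kV A) (F1 A q M), ∃ (t : FN (M * q)) (h₁ : t ∈ V1 A q M),
    t ∈ V2 A q M a b hab hq ∧ (∀ P, ρ P = z → 0 ≤ P.ord t) ∧
      z.ord (red1 A q M ⟨t, h₁⟩) = 1)

/-- An element of the inertia group of `A` which preserves `ρ` is inertial for the modular
total conservation datum. -/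
theorem inert_totDataOf {s : GalQ} (hs : s ∈ A.inertiaSubgroupIn ℚ)
    (hρ : ∀ P : Place Kbar (FN (M * q)), ρ (galF (M * q) s • P) = ρ P) :
    (totDataOf A q M a b hab hq hA β ρ htot hunif).Inert (galF (M * q) s) where
  mem₁ := fun _ hf => galF_mem_gaussV A (M * q) hs hf
  mem₂ := fun f hf =>
    arith_mem_V2 A q M a b hab hq s (fun _ hf => galF_mem_gaussV A (M * q) hs hf) f hf
  red₁ := fun _ h _ => gaussRes_galF A (M * q) hs h
  red₂ := fun f h h' =>
    arith_red2 A q M a b hab hq s (fun _ h _ => gaussRes_galF A (M * q) hs h) f h h'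
  ρ_smul := hρ

/-- **The body of `Stmt_ModSSD (M q) q` at `A`** from the modular total conservation datum,
Riemann's theorem, a set of nodes and the numerical inequality. -/
theorem modSSD_of_totData
    (H : RED.H17.FFHyp Kbar (FN (M * q))) (H₁ : RED.H17.FFHyp (kV A) (F1 A q M))
    (g g₁ : ℕ) (c c₁ : ℤ) (hg : RED.H17.IsGenus Kbar (FN (M * q)) g c)
    (hg₁ : RED.H17.IsGenus (kV A) (F1 A q M) g₁ c₁)
    (Z : Finset (Place (kV A) (F1 A q M))) (hZ0 : Z.Nonempty)
    (hZ : ∀ z ∈ Z, (totDataOf A q M a b hab hq hA β ρ htot hunif).IsNode z)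
    (hnum : g + 1 ≤ g₁ + g₁ + Z.card)
    (hρ : ∀ s ∈ A.inertiaSubgroupIn ℚ, ∀ P : Place Kbar (FN (M * q)),
      ρ (galF (M * q) s • P) = ρ P) :
    ∃ (F₁ F₂ : Type) (_ : Field F₁) (_ : Algebra (kV A) F₁) (_ : Field F₂)
      (_ : Algebra (kV A) F₂)
      (S : SSD (AlgebraicClosure ℚ) ↥(FNbar (M * q)) (kV A) F₁ F₂)
      (_ : RED.H17.FFHyp (AlgebraicClosure ℚ) ↥(FNbar (M * q))) (_ : RED.H17.FFHyp (kV A) F₁)
      (_ : RED.H17.FFHyp (kV A) F₂) (g g₁ g₂ : ℕ) (c c₁ c₂ : ℤ),
      RED.H17.IsGenus (AlgebraicClosure ℚ) ↥(FNbar (M * q)) g c ∧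
      RED.H17.IsGenus (kV A) F₁ g₁ c₁ ∧ RED.H17.IsGenus (kV A) F₂ g₂ c₂ ∧
      g + 1 ≤ g₁ + g₂ + S.nodes.card ∧
      (∀ f : ↥(FNbar (M * q)), f ∈ gaussV A (M * q) → f ∈ S.c₁.V) ∧
      (∀ (f : ↥(gaussV A (M * q))) (hf : (f : ↥(FNbar (M * q))) ∈ S.c₁.V),
        gaussRes A (M * q) f = 1 → S.c₁.red ⟨(f : ↥(FNbar (M * q))), hf⟩ = 1) ∧
      ∀ σ ∈ A.inertiaSubgroupIn ℚ, S.IsInertial (galF (M * q) σ) := by
  haveI : IsAlgClosed (kV A) := isAlgClosed_kV A
  set T := totDataOf A q M a b hab hq hA β ρ htot hunif with hT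
  have hne : ∃ z, T.IsNode z := by
    obtain ⟨z, hz⟩ := hZ0
    exact ⟨z, hZ z hz⟩
  refine ⟨F1 A q M, F1 A q M, inferInstance, inferInstance, inferInstance, inferInstance,
    T.toSSD H.principal H.deg_one H₁.principal H₁.deg_one H₁.deg_one hne, H, H₁, H₁,
    g, g₁, g₁, c, c₁, c₁, hg, hg₁, hg₁, ?_, ?_, ?_, ?_⟩
  · have h1 := T.card_le_toSSD_nodes H.principal H.deg_one H₁.principal H₁.deg_one H₁.deg_one
      hne Z hZ
    omega
  · intro f hf
    exact hf
  · intro f hf h1
    exact h1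
  · intro s hs
    exact (inert_totDataOf A q M a b hab hq hA β ρ htot hunif hs (hρ s hs)).isInertial
      H.principal H.deg_one H₁.principal H₁.deg_one H₁.deg_one hne

end Inert

end Fermat.Agent.BAD.H91
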