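import Fermat.Agent.BAD.H91_Kappa
import Fermat.Agent.BAD.H91_Cusp
import Fermat.Agent.BAD.H91_TotData
import Fermat.Agent.BAD.H88_VM2
import Fermat.Agent.BAD.H28_Unif
import Fermat.Agent.BAD.H73_BetaF1
import Fermat.Agent.BAD.H30_UnitGauss

/-!
# BAD_q, final assembly, part 4 (helper91): uniformizers and nodes of the modular `TotData`

`q ∤ M` tame, `A` over `q`, `ρ = rhoF1`, `β` any bijection.

* `hunif_mod` : the field `unif` of the modular `TotData` (helper28's `unif_of_level` for the
  reduction datum `seM` of level `M`);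
* `modT` : the modular `TotData`, from the law of total conservation `htot`;
* `isNode_modT` : a place `z₀` of the reduced field of level `M` which is not a pole of `j~`
  and at which the reduction of the modular unit `Δ(z)/Δ(qz)` has a zero is a node
  (as the place `κ⁻¹ z₀` of `F₁`).
-/

set_option autoImplicit false
set_option linter.style.haveILetI false
set_option synthInstance.maxHeartbeats 400000
set_option maxHeartbeats 400000

noncomputable section

open HahnSeries IntermediateField AlgebraicCurve ModularCurve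
open Fermat.Agent.S28.H73 Fermat.Agent.RED.H73 Fermat.Agent.RED Fermat.Agent.S24
open Fermat.Agent.BAD.H88

namespace Fermat.Agent.BAD.H91

open Fermat.Agent.BAD

variable {A : ValuationSubring Kbar} {q M : ℕ} (a b : ℤ) (hab : a * q + b * M = 1)
  (hq : q.Prime) [NeZero M] [NeZero (M * q)] [NeZero q] (hA : A.LiesOverPrime q)
  (hqM : ¬ q ∣ M) (ht : TameAt M q)

omit [NeZero (M * q)] in
/-- The inclusion is helper88's `α`. -/
theorem incl_eq_alpha (x : FN M) : incl M q x = heckeAlphaBar Kbar M q x := rfl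

include hab hq in
/-- **UNIF** for the modular datum. -/
theorem hunif_mod (z : Place (kV A) (F1 A q M)) :
    ∃ (t : FN (M * q)) (h₁ : t ∈ V1 A q M), t ∈ V2 A q M a b hab hq ∧
      (∀ P, rhoF1 a b hab hq hA hqM ht P = z → 0 ≤ P.ord t) ∧
        z.ord (red1 A q M ⟨t, h₁⟩) = 1 := by
  haveI : IsAlgClosed (kV A) := isAlgClosed_kV A
  have hFF : IsFF Kbar ↥(FNbar M) := H95.stmt_HKA_isFF M
  have hFF' : IsFF (kV A) ↥(redM A M) := isFF_redM hq hqM ht hA
  have H := RED.H17.ffHyp_of_isFF _ _ hFF
  have H' := RED.H17.ffHyp_of_isFF _ _ hFF'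
  refine Fermat.Agent.BAD.H28.unif_of_level (seM hq hqM ht hA) H H' (seM_genusLE' hq hqM ht hA)
    (incl M q) (incl_isIntegral M q) (V1 A q M) (V2 A q M a b hab hq) (red1 A q M)
    ?_ ?_ (rhoF1 a b hab hq hA hqM ht) (kappa A q M a b hab hq hA) ?_ ?_ z
  · intro u hu
    rw [incl_eq_alpha]
    exact (alpha_mem_V1_iff A q M u).2 hu
  · intro u hu
    rw [incl_eq_alpha]
    exact (alpha_mem_V2_iff A q M a b hab hq u).2 hu
  · intro P
    exact kappa_rhoF1 a b hab hq hA hqM ht P
  · intro z u h
    refine (kappa_ord A q M a b hab hq hA z _ _ ?_).symm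
    exact red1_alpha A q M (u : FN M) u.2 h

omit [NeZero q] in
include hab hq hA hqM ht in
/-- The residue field `F₁` of level `M q` is a function field over `k`. -/
theorem isFF_F1 : IsFF (kV A) (F1 A q M) := by
  have h := isFF_redM hq hqM ht hA
  show IsFF (kV A) ↥(redField A (modularFunctionFieldBar (M * q)) (hSc A q M))
  rw [H82.redField_eq_redField q M a b hab hq A hA]
  exact h

section T

variable (β : Place (kV A) (F1 A q M) ≃ Place (kV A) (F1 A q M))
  (htot : ∀ (u₁ : ↥(V1 A q M)) (u₂ : ↥(V2 A q M a b hab hq)), red1 A q M u₁ ≠ 0 →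
    red2 A q M a b hab hq u₂ ≠ 0 →
    (∃ c : Kbar, (u₂ : FN (M * q)) = algebraMap Kbar (FN (M * q)) c * (u₁ : FN (M * q))) →
    ∀ D : Divisor Kbar (FN (M * q)), (∀ P, D P = P.ord (u₁ : FN (M * q))) →
      ∀ z : Place (kV A) (F1 A q M),
        Finsupp.mapDomain (rhoF1 a b hab hq hA hqM ht) D z
          = z.ord (red1 A q M u₁) + (β z).ord (red2 A q M a b hab hq u₂))

/-- **The modular total conservation datum** (from the law of total conservation). -/
def modT : H79.TotData Kbar (FN (M * q)) (kV A) (F1 A q M) (F1 A q M) :=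
  totDataOf A q M a b hab hq hA β (rhoF1 a b hab hq hA hqM ht) htot
    (hunif_mod a b hab hq hA hqM ht)

/-- **NODE**: a place `z₀` of the reduced field of level `M` which is not a pole of `j~` and at
which the reduction of the modular unit has a zero is a node. -/
theorem isNode_modT (hd : q ∣ M * q) (z₀ : Place (kV A) ↥(redM A M))
    (h0 : 0 ≤ z₀.ord (jRed A M))
    (h1 : ∀ y : ↥(redM A M), (y : LaurentSeries (kV A))
        = ((gaussRes A (M * q) ⟨Fermat.Agent.BAD.H30.unitF (M * q) q hd,
            Fermat.Agent.BAD.H30.unitF_mem_gaussV A (M * q) q hd⟩ :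
              ↥(redField A (FNbar (M * q)) (hasScale_laurentBaseChange A (M * q)))) :
              LaurentSeries (kV A)) → 0 < z₀.ord y) :
    (modT a b hab hq hA hqM ht β htot).IsNode ((kappa A q M a b hab hq hA).symm z₀) := by
  haveI : IsAlgClosed (kV A) := isAlgClosed_kV A
  have hFFL : IsFF Kbar ↥(FNbar (M * q)) := H95.stmt_HKA_isFF (M * q)
  have hFF1 : IsFF (kV A) (F1 A q M) := isFF_F1 a b hab hq hA hqM ht
  have H := RED.H17.ffHyp_of_isFF _ _ hFFL
  have H₁ := RED.H17.ffHyp_of_isFF _ _ hFF1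
  have hu : Fermat.Agent.BAD.H30.unitF (M * q) q hd ∈ V1 A q M :=
    Fermat.Agent.BAD.H30.unitF_mem_gaussV A (M * q) q hd
  have hg : (modT a b hab hq hA hqM ht β htot).p₁.IsGU
      (Fermat.Agent.BAD.H30.unitF (M * q) q hd) := by
    refine ⟨hu, ?_⟩
    rw [(modT a b hab hq hA hqM ht β htot).p₁.rd_of_mem hu]
    exact Fermat.Agent.BAD.H30.gaussRes_unitF_ne_zero A (M * q) q hd
  refine (modT a b hab hq hA hqM ht β htot).isNode_of_ord_ne_zero H.principal H.deg_one
    H₁.deg_one H₁.deg_one hg ?_ ?_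
  · intro P hP
    apply ord_unitF_eq_zero_of_rhoM hq hqM ht hA hd P
    have e : rhoM hq hqM ht hA P = z₀ := by
      rw [← kappa_rhoF1 a b hab hq hA hqM ht P]
      have hP' : rhoF1 a b hab hq hA hqM ht P = (kappa A q M a b hab hq hA).symm z₀ := hP
      rw [hP']
      exact Equiv.apply_symm_apply _ _
    rw [e]
    exact h0
  · rw [(modT a b hab hq hA hqM ht β htot).p₁.rd_of_mem hu]
    have hmem : ((red1 A q M ⟨Fermat.Agent.BAD.H30.unitF (M * q) q hd, hu⟩ : F1 A q M) :
        LaurentSeries (kV A)) ∈ redM A M := by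
      have h : ∀ s : LaurentSeries (kV A),
          s ∈ redField A (modularFunctionFieldBar (M * q)) (hSc A q M) → s ∈ redM A M := by
        intro s hs
        rw [H82.redField_eq_redField q M a b hab hq A hA] at hs
        exact hs
      exact h _ (red1 A q M ⟨Fermat.Agent.BAD.H30.unitF (M * q) q hd, hu⟩).2
    have h2 := h1 ⟨_, hmem⟩ rfl
    have h3 := kappa_symm_ord A q M a b hab hq hA z₀
      (red1 A q M ⟨Fermat.Agent.BAD.H30.unitF (M * q) q hd, hu⟩) ⟨_, hmem⟩ rfl
    have h4 : ((kappa A q M a b hab hq hA).symm z₀).ord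
        ((modT a b hab hq hA hqM ht β htot).p₁.red
          ⟨Fermat.Agent.BAD.H30.unitF (M * q) q hd, hu⟩) = z₀.ord ⟨_, hmem⟩ := h3
    rw [h4]
    exact h2.ne'

end T

end Fermat.Agent.BAD.H91
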