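import Fermat.Agent.BAD.H91_WRhoAbs
import Fermat.Agent.BAD.H91_ModSSD
import Fermat.Agent.BAD.H23_TotMod
import Fermat.Agent.S15.H26_CuspEisGood

/-!
# S43 (helper91), leaf MOD-W, modular part: `ρ (w_q⁻¹ P) = β (ρ P)` over a node

`q ∤ M` tame, `A` over `q`, `T = modT` the modular total conservation datum of level `M q`
(`ρ = rhoF1`, any `β` with `ord_{β z} y = ord_z (φ y)`).

* `restrictAlong_inv_smul` : `(w⁻¹ P) | φ = P | ψ` if `w ∘ φ = ψ`.
* `zero_of_zero_of_finrank` : zeros of a Gauss unit with non-dropping degree reduce to zeros.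
* `lowerBeta_mod` : helper91's `LowerBeta` for the modular datum (second degeneracy map
  `heckeBetaBar`, `ρ' P = ρ (w_q⁻¹ P)`).
* `rhoW_eq_beta_mod` : **over a node, `ρ (w_q⁻¹ P) = β (ρ P)`.**
-/

set_option autoImplicit false
set_option linter.style.haveILetI false
set_option synthInstance.maxHeartbeats 400000
set_option maxHeartbeats 400000
set_option linter.unusedSectionVars false

noncomputable section

open HahnSeries IntermediateField AlgebraicCurve ModularCurve
open Fermat.Agent.S28.H73 Fermat.Agent.RED.H73 Fermat.Agent.RED Fermat.Agent.S24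
open Fermat.Agent.BAD.H88

namespace Fermat.Agent.BAD.H91

open Fermat.Agent.BAD Fermat.Agent.RED.H17

section AbsW

variable {K F F' : Type*} [Field K] [Field F] [Field F'] [Algebra K F] [Algebra K F']

/-- `(w⁻¹ P) | φ = P | ψ` if `w ∘ φ = ψ`. -/
theorem restrictAlong_inv_smul (φ ψ : F →ₐ[K] F') (hφ : φ.toRingHom.IsIntegral)
    (hψ : ψ.toRingHom.IsIntegral) (w : SemilinearAut K F') (hw : ∀ x : F, w • φ x = ψ x)
    (P : Place K F') :
    (w⁻¹ • P).restrictAlong φ hφ = P.restrictAlong ψ hψ := by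
  apply Place.ext
  ext x
  rw [mem_restrictAlong_iff, mem_restrictAlong_iff, ← regAt_iff_mem, ← regAt_iff_mem, ← hw,
    ← H79.regAt_smul_iff w (w⁻¹ • P) (φ x), smul_inv_smul]

end AbsW

section AbsZero

variable {K F k F' : Type*} [Field K] [Field F] [Algebra K F] [Field k] [Field F']
  [Algebra k F'] (S : RedSetup K F k F')

/-- **Zeros reduce to zeros**: if `[F : K(x)] ≤ [F' : k(rd x)]`, zeros of the Gauss unit `x`
reduce to zeros of `rd x`. -/
theorem zero_of_zero_of_finrank (hP : HasPrincipalDivisors K F)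
    (hP' : HasPrincipalDivisors k F') (hz : S24.H59.ZerosStmt K F)
    (hz' : S24.H59.ZerosStmt k F')
    {x : F} (hx : S.IsGU x) (hxt : Transcendental K x) (hxt' : Transcendental k (S.rd x))
    [FiniteDimensional K⟮x⟯ F] [FiniteDimensional k⟮S.rd x⟯ F']
    (hdeg : Module.finrank K⟮x⟯ F ≤ Module.finrank k⟮S.rd x⟯ F')
    (P : Place K F) (hPx : 0 < P.ord x) : 0 < (S.r P).ord (S.rd x) := by
  have hxi : S.IsGU x⁻¹ := hx.inv
  have hxit : Transcendental K x⁻¹ := fun h => hxt (IsAlgebraic.inv_iff.mp h)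
  have hyit : Transcendental k (S.rd x)⁻¹ := fun h => hxt' (IsAlgebraic.inv_iff.mp h)
  haveI : FiniteDimensional K⟮x⁻¹⟯ F := S24.ff_finite_of_transcendental x hxt x⁻¹ hxit
  haveI : FiniteDimensional k⟮(S.rd x)⁻¹⟯ F' :=
    S24.ff_finite_of_transcendental (S.rd x) hxt' (S.rd x)⁻¹ hyit
  have key : ∀ y : F', S.rd x⁻¹ = y → Transcendental k y → FiniteDimensional k⟮y⟯ F' →
      Module.finrank K⟮x⁻¹⟯ F ≤ Module.finrank k⟮y⟯ F' → (S.r P).ord y < 0 := by
    intro y hy hyt hfd hd
    subst hy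
    exact Fermat.Agent.BAD.H42.pole_of_pole_of_finrank S hP hP' hz hz' hxi hxit hyt hd P
      (by rw [Place.ord_inv]; omega)
  have h := key _ hx.rd_inv hyit inferInstance (by
    rw [S24.H59.finrank_adjoin_inv, S24.H59.finrank_adjoin_inv]
    exact hdeg)
  rw [Place.ord_inv] at h
  omega

end AbsZero

section Mod

variable {A : ValuationSubring Kbar} {q M : ℕ} (a b : ℤ) (hab : a * q + b * M = 1)
  (hq : q.Prime) [NeZero M] [NeZero (M * q)] [NeZero q] (hA : A.LiesOverPrime q)
  (hqM : ¬ q ∣ M) (ht : TameAt M q)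

/-- The second degeneracy map is integral. -/
theorem beta_isIntegral (M q : ℕ) [NeZero M] [NeZero (M * q)] [NeZero q] :
    (heckeBetaBar Kbar M q).toRingHom.IsIntegral :=
  (H51.stmt_FFB_finite _ _ _ (H95.stmt_HKA_isFF M) (H95.stmt_HKA_isFF (M * q)) _).1

/-- `w_q` as a semilinear automorphism of `F_{M q} · ℚ̄`. -/
def wSemi : SemilinearAut Kbar (FN (M * q)) := SemilinearAut.ofAlgAut (wq q M a b hab hq)

omit [NeZero M] [NeZero q] in
theorem wSemi_smul (x : FN (M * q)) : wSemi a b hab hq • x = wq q M a b hab hq x := rfl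

omit [NeZero M] [NeZero q] in
theorem wSemi_mul_self : wSemi a b hab hq * wSemi a b hab hq = 1 := by
  unfold wSemi
  rw [← map_mul]
  have h : wq q M a b hab hq * wq q M a b hab hq = 1 :=
    AlgEquiv.ext fun x => wq_wq q M a b hab hq x
  rw [h, map_one]

omit [NeZero M] [NeZero q] in
theorem wSemi_inv : (wSemi a b hab hq)⁻¹ = wSemi a b hab hq :=
  inv_eq_of_mul_eq_one_left (wSemi_mul_self a b hab hq)

/-- `(w_q⁻¹ P) | α = P | β`. -/
theorem restrictAlong_wSemi (P : Place Kbar (FN (M * q))) :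
    ((wSemi a b hab hq)⁻¹ • P).restrictAlong (incl M q) (incl_isIntegral M q)
      = P.restrictAlong (heckeBetaBar Kbar M q) (beta_isIntegral M q) :=
  restrictAlong_inv_smul (incl M q) (heckeBetaBar Kbar M q) (incl_isIntegral M q)
    (beta_isIntegral M q) (wSemi a b hab hq) (fun x => wq_alpha q M a b hab hq x) P

omit [NeZero (M * q)] [NeZero q] in
/-- **Zeros of `j` reduce to zeros of `j~`, abstract helper** (as `ord_jF_nonneg_aux`). -/
theorem ord_jRed_pos_aux (hq : q.Prime) (hqM : ¬ q ∣ M) (hA : A.LiesOverPrime q)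
    (SE : RED.H17.RedSetup (AlgebraicClosure ℚ)
      ↥(laurentBaseChange (AlgebraicClosure ℚ) (modularFunctionFieldFull M)) (kV A)
      ↥(redField A (laurentBaseChange (AlgebraicClosure ℚ) (modularFunctionFieldFull M))
        (hasScale_laurentBaseChange A M)))
    (hmem : RED.H73.jF (L := AlgebraicClosure ℚ) M ∈ SE.V)
    (hred : SE.red ⟨RED.H73.jF (L := AlgebraicClosure ℚ) M, hmem⟩ = jRed A M)
    (hFF' : IsFF (kV A)
      ↥(redField A (laurentBaseChange (AlgebraicClosure ℚ) (modularFunctionFieldFull M))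
        (hasScale_laurentBaseChange A M)))
    (P : Place (AlgebraicClosure ℚ)
      ↥(laurentBaseChange (AlgebraicClosure ℚ) (modularFunctionFieldFull M)))
    (h : 0 < P.ord (RED.H73.jF (L := AlgebraicClosure ℚ) M)) :
    0 < (SE.r P).ord (jRed A M) := by
  haveI : IsAlgClosed (kV A) := isAlgClosed_kV A
  have hFF : IsFF (AlgebraicClosure ℚ)
      ↥(laurentBaseChange (AlgebraicClosure ℚ) (modularFunctionFieldFull M)) :=
    H95.stmt_HKA_isFF M
  obtain ⟨hxt', hfd, -, hdeg, -⟩ := goodChart_pre M q hq hqM A hA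
  haveI := hfd
  have H := RED.H17.ffHyp_of_isFF _ _ hFF
  have H' := RED.H17.ffHyp_of_isFF _ _ hFF'
  have hrd : SE.rd (RED.H73.jF (L := AlgebraicClosure ℚ) M) = jRed A M :=
    (SE.rd_of_mem hmem).trans hred
  have hxt : Transcendental (AlgebraicClosure ℚ) (RED.H73.jF (L := AlgebraicClosure ℚ) M) :=
    RED.H34.RedSetting.transcendental_x (S := redSetting A (hasScale_laurentBaseChange A M))
      (jF_mem A M) hxt'
  have hz := RED.H42.zerosAll _ _ hFF
  have hz' := RED.H42.zerosAll _ _ hFF'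
  have key : ∀ y : ↥(redField A (laurentBaseChange (AlgebraicClosure ℚ)
      (modularFunctionFieldFull M)) (hasScale_laurentBaseChange A M)),
      SE.rd (RED.H73.jF (L := AlgebraicClosure ℚ) M) = y → Transcendental (kV A) y →
      Module.finrank ↥((kV A)⟮y⟯)
        ↥(redField A (laurentBaseChange (AlgebraicClosure ℚ) (modularFunctionFieldFull M))
          (hasScale_laurentBaseChange A M))
        = Module.finrank ↥((AlgebraicClosure ℚ)⟮RED.H73.jF (L := AlgebraicClosure ℚ) M⟯)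
          ↥(laurentBaseChange (AlgebraicClosure ℚ) (modularFunctionFieldFull M)) →
      0 < (SE.r P).ord y := by
    intro y hy hyt hyd
    subst hy
    have hx : SE.IsGU (RED.H73.jF (L := AlgebraicClosure ℚ) M) :=
      ⟨hmem, fun h0 => hyt (h0 ▸ isAlgebraic_zero)⟩
    haveI hfd' : FiniteDimensional
        ↥((kV A)⟮SE.rd (RED.H73.jF (L := AlgebraicClosure ℚ) M)⟯)
        ↥(redField A (laurentBaseChange (AlgebraicClosure ℚ) (modularFunctionFieldFull M))
          (hasScale_laurentBaseChange A M)) := by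
      apply Module.finite_of_finrank_pos
      rw [hyd]
      exact Module.finrank_pos
    exact zero_of_zero_of_finrank SE H.principal H'.principal hz hz' hx hxt hyt hyd.ge P h
  exact key _ hrd hxt' hdeg

omit [NeZero (M * q)] [NeZero q] in
/-- **Zeros of `j` reduce to zeros of `j~`** (level `M`). -/
theorem ord_jRed_pos_of_rM (P : Place (AlgebraicClosure ℚ) ↥(FNbar M))
    (h : 0 < P.ord (RED.H73.jF (L := AlgebraicClosure ℚ) M)) :
    0 < (rM hq hqM ht hA P).ord (jRed A M) :=
  ord_jRed_pos_aux hq hqM hA (seM hq hqM ht hA) (jF_mem A M) rfl (isFF_redM hq hqM ht hA) P h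

omit [NeZero (M * q)] [NeZero q] in
/-- **Poles of `j` reduce to poles of `j~`** (level `M`). -/
theorem ord_jRed_neg_of_rM (P : Place (AlgebraicClosure ℚ) ↥(FNbar M))
    (h : P.ord (RED.H73.jF (L := AlgebraicClosure ℚ) M) < 0) :
    (rM hq hqM ht hA P).ord (jRed A M) < 0 := by
  by_contra hc
  have := ord_jF_nonneg_of_rM hq hqM ht hA P (not_lt.mp hc)
  omega

omit [NeZero (M * q)] [NeZero q] in
/-- `j` of level `M` is a Gauss unit. -/
theorem isGU_jF : (seM hq hqM ht hA).IsGU (RED.H73.jF (L := AlgebraicClosure ℚ) M) := by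
  refine ⟨jF_mem A M, ?_⟩
  rw [(seM hq hqM ht hA).rd_of_mem (jF_mem A M)]
  intro h0
  have h1 : ((jRed A M : ↥(redM A M)) : LaurentSeries (kV A)) = 0 := by
    have h2 : jRed A M = 0 := h0
    rw [h2]
    rfl
  rw [show ((jRed A M : ↥(redM A M)) : LaurentSeries (kV A)) = jqModC (kV A) from
    RED.H73.red_jF A M] at h1
  exact (RED.H73.transcendental_red_jF A M) (by
    have h2 : jRed A M = 0 := h0
    rw [show (redSetting A (hasScale_laurentBaseChange A M)).red
      ⟨RED.H73.jF (L := AlgebraicClosure ℚ) M, jF_mem A M⟩ = 0 from h2]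
    exact isAlgebraic_zero)

omit [NeZero (M * q)] [NeZero q] in
theorem rd_jF : (seM hq hqM ht hA).rd (RED.H73.jF (L := AlgebraicClosure ℚ) M) = jRed A M :=
  (seM hq hqM ht hA).rd_of_mem (jF_mem A M)

/-- `β j = j (q z)`. -/
theorem beta_jF (hd : q ∣ M * q) :
    heckeBetaBar Kbar M q (RED.H73.jF (L := AlgebraicClosure ℚ) M) = S24.jdF (M * q) q hd := by
  apply Subtype.ext
  rw [coe_heckeBetaBar]
  exact (RED.H73.coeffEmb_qExpand_jq (L := AlgebraicClosure ℚ) q).symm

section T

variable (β : Place (kV A) (F1 A q M) ≃ Place (kV A) (F1 A q M))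
  (htot : ∀ (u₁ : ↥(V1 A q M)) (u₂ : ↥(V2 A q M a b hab hq)), red1 A q M u₁ ≠ 0 →
    red2 A q M a b hab hq u₂ ≠ 0 →
    (∃ c : Kbar, (u₂ : FN (M * q)) = algebraMap Kbar (FN (M * q)) c * (u₁ : FN (M * q))) →
    ∀ D : Divisor Kbar (FN (M * q)), (∀ P, D P = P.ord (u₁ : FN (M * q))) →
      ∀ z : Place (kV A) (F1 A q M),
        Finsupp.mapDomain (rhoF1 a b hab hq hA hqM ht) D z
          = z.ord (red1 A q M u₁) + (β z).ord (red2 A q M a b hab hq u₂))

/-- **The compatibilities of the modular datum of level `M q` with the reduction datum of level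
`M` along the second degeneracy map.** -/
theorem lowerBeta_mod :
    LowerBeta (modT a b hab hq hA hqM ht β htot) (seM hq hqM ht hA) (heckeBetaBar Kbar M q)
      (beta_isIntegral M q)
      (fun P => rhoF1 a b hab hq hA hqM ht ((wSemi a b hab hq)⁻¹ • P))
      (kappa A q M a b hab hq hA) (H23.eRed A q M a b hab hq hA).toAlgHom where
  kappa_inj := (kappa A q M a b hab hq hA).injective
  kappa_ord := fun z y =>
    kappa_ord A q M a b hab hq hA z _ y (H23.coe_eRed A q M a b hab hq hA y)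
  rho' := fun P => by
    show kappa A q M a b hab hq hA (rhoF1 a b hab hq hA hqM ht ((wSemi a b hab hq)⁻¹ • P)) = _
    rw [kappa_rhoF1]
    unfold rhoM
    rw [restrictAlong_wSemi]
    rfl
  mem₁ := fun x hx => (beta_mem_V1_iff A q M x).2 hx
  mem₂ := fun x hx => (beta_mem_V2_iff A q M a b hab hq x).2 hx
  rd₂ := fun x hx => by
    have h' : heckeBetaBar Kbar M q x ∈ V2 A q M a b hab hq :=
      (beta_mem_V2_iff A q M a b hab hq x).2 hx
    rw [(modT a b hab hq hA hqM ht β htot).p₂.rd_of_mem h', (seM hq hqM ht hA).rd_of_mem hx]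
    apply Subtype.ext
    show ((red2 A q M a b hab hq ⟨_, h'⟩ : F1 A q M) : LaurentSeries (kV A)) = _
    rw [red2_beta A q M a b hab hq x hx h']
    exact (H23.coe_eRed A q M a b hab hq hA _).symm

include β htot in
/-- **CUSP-W, modular form**: if `ρ P` is not a cusp, then `ρ (w_q⁻¹ P)` is not a cusp. -/
theorem cuspW_mod (P : Place Kbar (FN (M * q)))
    (hPz : 0 ≤ (rhoF1 a b hab hq hA hqM ht P).ord (H23.eRed A q M a b hab hq hA (jRed A M))) :
    0 ≤ (rhoF1 a b hab hq hA hqM ht ((wSemi a b hab hq)⁻¹ • P)).ord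
      (H23.eRed A q M a b hab hq hA (jRed A M)) := by
  haveI : IsAlgClosed (kV A) := isAlgClosed_kV A
  have hFFL : IsFF Kbar ↥(FNbar (M * q)) := H95.stmt_HKA_isFF (M * q)
  have hFF0 : IsFF Kbar ↥(FNbar M) := H95.stmt_HKA_isFF M
  have H := RED.H17.ffHyp_of_isFF _ _ hFFL
  have H₀ := RED.H17.ffHyp_of_isFF _ _ hFF0
  have hd : q ∣ M * q := Dvd.intro_left M rfl
  have hLB := lowerBeta_mod a b hab hq hA hqM ht β htot
  have hJ := isGU_jF hq hA hqM ht
  have hrd := rd_jF hq hA hqM ht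
  have key : ∀ y : ↥(redM A M),
      (seM hq hqM ht hA).rd (RED.H73.jF (L := AlgebraicClosure ℚ) M) = y → y = jRed A M →
      0 ≤ (rhoF1 a b hab hq hA hqM ht P).ord (H23.eRed A q M a b hab hq hA y) →
      0 ≤ (rhoF1 a b hab hq hA hqM ht ((wSemi a b hab hq)⁻¹ • P)).ord
        (H23.eRed A q M a b hab hq hA y) := by
    intro y hy hy' hPy
    subst hy
    refine hLB.cuspW H.principal H.deg_one H₀.principal hJ ?_ ?_ P hPy
    · intro Q hQ
      rw [hy']
      exact ord_jRed_pos_of_rM hq hA hqM ht Q hQ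
    · intro P' hP'
      have h1 : 0 ≤ (rhoM hq hqM ht hA P').ord (jRed A M) := by
        rw [← kappa_rhoF1 a b hab hq hA hqM ht P',
          kappa_ord A q M a b hab hq hA _ (H23.eRed A q M a b hab hq hA (jRed A M))
            (jRed A M) (H23.coe_eRed A q M a b hab hq hA _)]
        have h2 : 0 ≤ (rhoF1 a b hab hq hA hqM ht P').ord
            (H23.eRed A q M a b hab hq hA
              ((seM hq hqM ht hA).rd (RED.H73.jF (L := AlgebraicClosure ℚ) M))) := hP'
        rwa [hy'] at h2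
      have h2 := ord_jF_nonneg_of_rM hq hqM ht hA _ h1
      have h3 : 0 ≤ P'.ord (incl M q (RED.H73.jF (L := AlgebraicClosure ℚ) M)) := by
        rw [Place.ord_restrictAlong (incl M q) (incl_isIntegral M q) P']
        exact mul_nonneg (Int.natCast_nonneg _) h2
      rw [incl_jF] at h3
      rw [beta_jF hd]
      exact Fermat.Agent.S15.H26.ord_jdF_nonneg (M * q) q hd P' h3
  have hPz' : 0 ≤ (rhoF1 a b hab hq hA hqM ht P).ord (H23.eRed A q M a b hab hq hA
      ((seM hq hqM ht hA).rd (RED.H73.jF (L := AlgebraicClosure ℚ) M))) := by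
    rw [hrd]
    exact hPz
  have h := key _ rfl hrd hPz'
  rwa [hrd] at h

omit [NeZero (M * q)] [NeZero q] in
include hq hA hqM ht in
/-- `j` of level `M` has a pole and a zero. -/
theorem exists_pole_zero_jF :
    (∃ P₀ : Place Kbar (FN M), P₀.ord (RED.H73.jF (L := AlgebraicClosure ℚ) M) < 0) ∧
    (∃ P₀ : Place Kbar (FN M), 0 < P₀.ord (RED.H73.jF (L := AlgebraicClosure ℚ) M)) := by
  have hFF0 : IsFF Kbar ↥(FNbar M) := H95.stmt_HKA_isFF M
  have H₀ := RED.H17.ffHyp_of_isFF _ _ hFF0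
  have hxt : Transcendental (AlgebraicClosure ℚ) (RED.H73.jF (L := AlgebraicClosure ℚ) M) :=
    RED.H34.RedSetting.transcendental_x (S := redSetting A (hasScale_laurentBaseChange A M))
      (jF_mem A M) (RED.H73.transcendental_red_jF A M)
  have hxit : Transcendental (AlgebraicClosure ℚ) (RED.H73.jF (L := AlgebraicClosure ℚ) M)⁻¹ :=
    fun h => hxt (IsAlgebraic.inv_iff.mp h)
  constructor
  · obtain ⟨v, hv⟩ := H₀.exists_zero (f := (RED.H73.jF (L := AlgebraicClosure ℚ) M)⁻¹) (by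
      rintro ⟨c, hc⟩
      exact hxit (hc ▸ isAlgebraic_algebraMap c))
    refine ⟨v, ?_⟩
    rw [Place.ord_inv] at hv
    omega
  · exact H₀.exists_zero (by
      rintro ⟨c, hc⟩
      exact hxt (hc ▸ isAlgebraic_algebraMap c))

/-- **Over a node, `ρ (w_q⁻¹ P) = β (ρ P)`.** -/
theorem rhoW_eq_beta_mod
    (hβJ : ∀ z : Place (kV A) (F1 A q M),
      (β z).ord (H23.eRed A q M a b hab hq hA (jRed A M))
        = z.ord (H23.eRed A q M a b hab hq hA (jRed A M)))
    {P : Place Kbar (FN (M * q))}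
    (hz : (modT a b hab hq hA hqM ht β htot).IsNode (rhoF1 a b hab hq hA hqM ht P)) :
    rhoF1 a b hab hq hA hqM ht ((wSemi a b hab hq)⁻¹ • P)
      = β (rhoF1 a b hab hq hA hqM ht P) := by
  haveI : IsAlgClosed (kV A) := isAlgClosed_kV A
  haveI : Infinite (kV A) := IsAlgClosed.instInfinite
  have hFFL : IsFF Kbar ↥(FNbar (M * q)) := H95.stmt_HKA_isFF (M * q)
  have hFF0 : IsFF Kbar ↥(FNbar M) := H95.stmt_HKA_isFF M
  have hFF' : IsFF (kV A) ↥(redM A M) := isFF_redM hq hqM ht hA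
  have H := RED.H17.ffHyp_of_isFF _ _ hFFL
  have H₀ := RED.H17.ffHyp_of_isFF _ _ hFF0
  have H' := RED.H17.ffHyp_of_isFF _ _ hFF'
  obtain ⟨g', c', hg⟩ := RED.H17.exists_isGenus _ _ hFF'
  have hLB := lowerBeta_mod a b hab hq hA hqM ht β htot
  have hWW : ∀ P' : Place Kbar (FN (M * q)),
      (wSemi a b hab hq)⁻¹ • ((wSemi a b hab hq)⁻¹ • P') = P' := by
    intro P'
    rw [wSemi_inv, ← mul_smul, wSemi_mul_self, one_smul]
  obtain ⟨⟨Pp, hPp⟩, ⟨Pz, hPz⟩⟩ := exists_pole_zero_jF hq hA hqM ht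
  have hord : ∀ (z : Place (kV A) (F1 A q M)) (Q : Place Kbar (FN M)),
      kappa A q M a b hab hq hA z = rM hq hqM ht hA Q →
      z.ord (H23.eRed A q M a b hab hq hA (jRed A M)) = (rM hq hqM ht hA Q).ord (jRed A M) := by
    intro z Q hzQ
    rw [← hzQ]
    exact (kappa_ord A q M a b hab hq hA z _ (jRed A M)
      (H23.coe_eRed A q M a b hab hq hA _)).symm
  refine hLB.rho'_eq_beta H.principal H.deg_one H₀ H' (seM_genusLE' hq hqM ht hA) hg
    (H23.eRed A q M a b hab hq hA (jRed A M)) ?_ ?_ ?_ ?_ hz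
  · intro P'
    constructor
    · intro h
      have h1 := cuspW_mod a b hab hq hA hqM ht β htot _ h
      rwa [hWW] at h1
    · intro h
      exact cuspW_mod a b hab hq hA hqM ht β htot _ h
  · intro z
    show 0 ≤ (β z).ord _ ↔ _
    rw [hβJ]
  · refine ⟨Pp, fun z hzp => ?_⟩
    rw [hord z Pp hzp]
    exact ord_jRed_neg_of_rM hq hA hqM ht Pp hPp
  · refine ⟨Pz, fun z hzp => ?_⟩
    rw [hord z Pz hzp]
    exact (ord_jRed_pos_of_rM hq hA hqM ht Pz hPz).le

end T

end Mod

end Fermat.Agent.BAD.H91
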