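import Fermat.Agent.RED.H17_Lift

/-!
# BAD_q, package SIGMA, leaf Σ3 (helper94): the separating lift

Abstract over helper17's `RedSetup S` (with `S.GenusLE'`, `FFHyp` on both sides and Riemann's theorem
`IsGenus k F' g' c'` on the reduced side): for a place `P₀` of `F` and two distinct places
`w₁ ≠ w₂` of the reduced field, both different from `S.r P₀`, there is a Gauss-integral function
`x` of `F` whose only pole is at `P₀` and whose reduction vanishes at `w₁` and does not vanish at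
`w₂`.

Proof: `D = n P₀`, `r_* D = n z₀` (`z₀ = S.r P₀`); Riemann gives
`y ∈ L(n z₀ - w₁) \ L(n z₀ - w₁ - w₂)` for `n` large; `RedSetup.exists_lift`.
-/

set_option autoImplicit false
set_option linter.style.haveILetI false

noncomputable section

open AlgebraicCurve

attribute [local instance] Classical.propDecidable

namespace Fermat.Agent.BAD.H94

open Fermat.Agent.RED.H17

local notation "L" => riemannRochSpace

variable {k F' : Type*} [Field k] [Field F'] [Algebra k F']

/-- Riemann: for `n` large there is `y ∈ L(n z₀)` vanishing at `w₁` and not at `w₂`. -/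
theorem exists_sep_function (H' : FFHyp k F') {g' : ℕ} {c' : ℤ} (hg : IsGenus k F' g' c')
    (z₀ : Place k F') {w₁ w₂ : Place k F'} (h12 : w₁ ≠ w₂) (h1 : w₁ ≠ z₀) (h2 : w₂ ≠ z₀)
    (n : ℤ) (hn : c' + 2 ≤ n) :
    ∃ y : F', y ∈ L (Finsupp.single z₀ n : Divisor k F') ∧ y ≠ 0 ∧ 0 < w₁.ord y ∧
      w₂.ord y = 0 := by
  set D₁ : Divisor k F' := Finsupp.single z₀ n - Finsupp.single w₁ 1 with hD₁
  set D₂ : Divisor k F' := D₁ - Finsupp.single w₂ 1 with hD₂
  have hdeg1 : Divisor.degree D₁ = n - 1 := by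
    rw [hD₁, map_sub, Divisor.degree_single, Divisor.degree_single, H'.deg_one, H'.deg_one]
    push_cast
    ring
  have hdeg2 : Divisor.degree D₂ = n - 2 := by
    rw [hD₂, map_sub, hdeg1, Divisor.degree_single, H'.deg_one]
    push_cast
    ring
  have hl1 := (hg D₁).2 (by rw [hdeg1]; omega)
  have hl2 := (hg D₂).2 (by rw [hdeg2]; omega)
  rw [hdeg1] at hl1
  rw [hdeg2] at hl2
  have hle : L D₂ ≤ L D₁ := by
    refine L_mono' fun v => ?_
    rw [hD₂, Finsupp.sub_apply, Finsupp.single_apply]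
    split_ifs <;> omega
  have hlt : L D₂ < L D₁ := by
    refine lt_of_le_of_ne hle fun heq => ?_
    rw [heq] at hl2
    omega
  obtain ⟨y, hy1, hy2⟩ := SetLike.exists_of_lt hlt
  have hy0 : y ≠ 0 := fun h => hy2 (h ▸ (L D₂).zero_mem)
  have hD₁z : ∀ v, D₁ v ≤ (Finsupp.single z₀ n : Divisor k F') v := by
    intro v
    rw [hD₁, Finsupp.sub_apply, Finsupp.single_apply, Finsupp.single_apply]
    split_ifs <;> omega
  have hw1 : D₁ w₁ = -1 := by
    rw [hD₁, Finsupp.sub_apply, Finsupp.single_apply, Finsupp.single_apply,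
      if_neg (Ne.symm h1), if_pos rfl]
    omega
  have hw2 : D₁ w₂ = 0 := by
    rw [hD₁, Finsupp.sub_apply, Finsupp.single_apply, Finsupp.single_apply,
      if_neg (Ne.symm h2), if_neg h12]
    omega
  refine ⟨y, L_mono' hD₁z hy1, hy0, ?_, ?_⟩
  · have := ord_ge_of_mem_L hy1 hy0 w₁
    rw [hw1] at this
    omega
  · have h3 := ord_ge_of_mem_L hy1 hy0 w₂
    rw [hw2] at h3
    by_contra hne
    apply hy2
    rw [mem_L_iff_ord]
    intro v
    right
    by_cases hv : v = w₂
    · subst hv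
      rw [hD₂, Finsupp.sub_apply, hw2, Finsupp.single_apply, if_pos rfl]
      omega
    · have h4 := ord_ge_of_mem_L hy1 hy0 v
      rw [hD₂, Finsupp.sub_apply, Finsupp.single_apply, if_neg (Ne.symm hv)]
      omega

variable {K F : Type*} [Field K] [Field F] [Algebra K F]

/-- **Σ3 (separating lift).** -/
theorem exists_sep_lift (S : RedSetup K F k F') (H : FFHyp K F) (H' : FFHyp k F') [Infinite k]
    (hG : S.GenusLE') {g' : ℕ} {c' : ℤ} (hg : IsGenus k F' g' c')
    (P₀ : Place K F) {w₁ w₂ : Place k F'} (h12 : w₁ ≠ w₂) (h1 : w₁ ≠ S.r P₀)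
    (h2 : w₂ ≠ S.r P₀) :
    ∃ x : F, x ∈ S.V ∧ (∀ P : Place K F, P ≠ P₀ → 0 ≤ P.ord x) ∧
      VanAt w₁ (S.rd x) ∧ ¬ VanAt w₂ (S.rd x) := by
  obtain ⟨c, hc⟩ := hG
  set n : ℤ := max c (c' + 2) with hn
  have hnc : c ≤ n := le_max_left _ _
  have hnc' : c' + 2 ≤ n := le_max_right _ _
  set D : Divisor K F := Finsupp.single P₀ n with hD
  have hrD : Finsupp.mapDomain S.r D = Finsupp.single (S.r P₀) n := by
    rw [hD, Finsupp.mapDomain_single]
  have hdegD : c ≤ Divisor.degree D := by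
    rw [hD, Divisor.degree_single, H.deg_one, Nat.cast_one, mul_one]
    exact hnc
  obtain ⟨y, hy, hy0, hyw1, hyw2⟩ := exists_sep_function H' hg (S.r P₀) h12 h1 h2 n hnc'
  rw [← hrD] at hy
  obtain ⟨u, hu, huD, huy⟩ := S.exists_lift H H' (hc D hdegD) hy
  have hu0 : u ≠ 0 := by
    rintro rfl
    rw [S.rd_zero] at huy
    exact hy0 huy.symm
  refine ⟨u, hu, fun P hP => ?_, ?_, ?_⟩
  · have h3 := ord_ge_of_mem_L huD hu0 P
    rw [hD, Finsupp.single_apply, if_neg (Ne.symm hP)] at h3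
    omega
  · rw [huy]
    exact vanAt_of_ord_pos hyw1
  · rw [huy, vanAt_iff_ord]
    rintro (h | h)
    · exact hy0 h
    · omega

/-- Variant with a prescribed value at `w₁`: the reduction of `x` takes the value `a` at `w₁`
and a different value at `w₂` (used with the test function `x - a`). -/
theorem exists_sep_lift_val (S : RedSetup K F k F') (H : FFHyp K F) (H' : FFHyp k F')
    [Infinite k] (hG : S.GenusLE') {g' : ℕ} {c' : ℤ} (hg : IsGenus k F' g' c')
    (P₀ : Place K F) {w₁ w₂ : Place k F'} (h12 : w₁ ≠ w₂) (h1 : w₁ ≠ S.r P₀)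
    (h2 : w₂ ≠ S.r P₀) :
    ∃ (x : F) (a : k), x ∈ S.V ∧ (∀ P : Place K F, P ≠ P₀ → 0 ≤ P.ord x) ∧
      VanAt w₁ (S.rd x - algebraMap k F' a) ∧ ¬ VanAt w₂ (S.rd x - algebraMap k F' a) := by
  obtain ⟨x, hx, hreg, hv1, hv2⟩ := exists_sep_lift S H H' hG hg P₀ h12 h1 h2
  exact ⟨x, 0, hx, hreg, by rwa [map_zero, sub_zero], by rwa [map_zero, sub_zero]⟩

end Fermat.Agent.BAD.H94
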