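import Fermat.Agent.BAD.H79_Mirror
import Fermat.Agent.BAD.H94_SepLift

/-!
# S43 (helper91), leaf MOD-W, abstract part: the reduction of `w⁻¹ P` over a node

`T : TotData K L k E E` (modular: the datum of level `M q`), `SE` a reduction datum of the lower
level `E₀` (modular: `F_M` with its Gauss valuation), `φ : E₀ → L` the SECOND degeneracy map
(`β`), `ρ' P` the reduction of `P | φ` (modular: `ρ' P = ρ (w_q⁻¹ P)`).

* `LowerBeta` : the compatibilities between `T`, `SE`, `φ`, `ρ'`.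
* `LowerBeta.cuspW` : **CUSP-W**: for a Gauss unit `J` of the lower level whose zeros reduce to
  zeros of `rd J` and such that `φ J` is regular over the places `z` with `J~` regular at `z`:
  if `J~` is regular at `ρ P` then `J~` is regular at `ρ' P`.
* `LowerBeta.rho'_eq_beta` : **over a node, `ρ' P = β (ρ P)`** (test functions `φ x`, `x` with
  one pole, which separate the places of the reduced field: helper94's `exists_sep_lift_val`).
-/

set_option autoImplicit false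
set_option linter.style.haveILetI false

noncomputable section

open AlgebraicCurve

attribute [local instance] Classical.propDecidable

namespace Fermat.Agent.BAD.H91

open Fermat.Agent.RED.H17 Fermat.Agent.RED Fermat.Agent.BAD Fermat.Agent.BAD.H79

section Restrict

variable {K F F' : Type*} [Field K] [Field F] [Field F'] [Algebra K F] [Algebra K F']

/-- A zero of `φ g` at `P` is a zero of `g` at `P | φ`. -/
theorem vanAt_restrictAlong (φ : F →ₐ[K] F') (hφ : φ.toRingHom.IsIntegral) (P : Place K F')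
    {g : F} (h : VanAt P (φ g)) : VanAt (P.restrictAlong φ hφ) g := by
  rw [vanAt_iff_ord] at h ⊢
  rcases h with h | h
  · left
    exact (map_eq_zero_iff φ φ.toRingHom.injective).mp h
  · right
    rw [Place.ord_restrictAlong φ hφ] at h
    by_contra hle
    have h1 : (P.restrictAlong φ hφ).ord g ≤ 0 := not_lt.mp hle
    have h2 : (Place.ramificationIndexAlong φ P : ℤ) * (P.restrictAlong φ hφ).ord g ≤ 0 :=
      mul_nonpos_of_nonneg_of_nonpos (Int.natCast_nonneg _) h1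
    omega

/-- `φ x` is regular at `P` if `x` is regular at `P | φ`. -/
theorem regAt_of_restrictAlong (φ : F →ₐ[K] F') (hφ : φ.toRingHom.IsIntegral) (P : Place K F')
    {x : F} (h : 0 ≤ (P.restrictAlong φ hφ).ord x) : RegAt P (φ x) := by
  apply regAt_of_ord_nonneg
  rw [Place.ord_restrictAlong φ hφ]
  exact mul_nonneg (Int.natCast_nonneg _) h

end Restrict

section Abs

variable {K L k E E₀ E' : Type*} [Field K] [Field L] [Algebra K L] [Field k] [Field E]
  [Algebra k E] [Field E₀] [Algebra K E₀] [Field E'] [Algebra k E']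

/-- The compatibilities of the datum `T` of the upper level with the reduction datum `SE` of the
lower level along the second degeneracy map `φ`. -/
structure LowerBeta (T : TotData K L k E E) (SE : RedSetup K E₀ k E') (φ : E₀ →ₐ[K] L)
    (hφ : φ.toRingHom.IsIntegral) (ρ' : Place K L → Place k E) (κ : Place k E → Place k E')
    (ι : E' →ₐ[k] E) : Prop where
  kappa_inj : Function.Injective κ
  kappa_ord : ∀ (z : Place k E) (y : E'), (κ z).ord y = z.ord (ι y)
  rho' : ∀ P : Place K L, κ (ρ' P) = SE.r (P.restrictAlong φ hφ)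
  mem₁ : ∀ x : E₀, x ∈ SE.V → φ x ∈ T.b₁.V
  mem₂ : ∀ x : E₀, x ∈ SE.V → φ x ∈ T.b₂.V
  rd₂ : ∀ x : E₀, x ∈ SE.V → T.p₂.rd (φ x) = ι (SE.rd x)

namespace LowerBeta

variable {T : TotData K L k E E} {SE : RedSetup K E₀ k E'} {φ : E₀ →ₐ[K] L}
  {hφ : φ.toRingHom.IsIntegral} {ρ' : Place K L → Place k E} {κ : Place k E → Place k E'}
  {ι : E' →ₐ[k] E}

theorem vanAt_kappa (h : LowerBeta T SE φ hφ ρ' κ ι) (z : Place k E) (y : E') :
    VanAt (κ z) y ↔ VanAt z (ι y) := by
  rw [vanAt_iff_ord, vanAt_iff_ord, h.kappa_ord, map_eq_zero_iff ι ι.toRingHom.injective]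

/-- The second reduction of a constant. -/
theorem rd₂_const (h : LowerBeta T SE φ hφ ρ' κ ι) {a : K}
    (ha : algebraMap K E₀ a ∈ SE.V) :
    T.p₂.rd (algebraMap K L a) = ι (SE.rd (algebraMap K E₀ a)) := by
  rw [← h.rd₂ _ ha, AlgHom.commutes]

/-- **CUSP-W.** -/
theorem cuspW (h : LowerBeta T SE φ hφ ρ' κ ι) (hP : HasPrincipalDivisors K L)
    (hd : ∀ v : Place K L, v.deg = 1) (hP₀ : HasPrincipalDivisors K E₀)
    {J : E₀} (hJ : SE.IsGU J)
    (hzero : ∀ Q : Place K E₀, 0 < Q.ord J → 0 < (SE.r Q).ord (SE.rd J))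
    (hreg : ∀ P : Place K L, 0 ≤ (T.ρ P).ord (ι (SE.rd J)) → 0 ≤ P.ord (φ J))
    (P : Place K L) (hPz : 0 ≤ (T.ρ P).ord (ι (SE.rd J))) :
    0 ≤ (ρ' P).ord (ι (SE.rd J)) := by
  have hf : T.InR (T.ρ P) (φ J) :=
    ⟨h.mem₁ J hJ.mem, h.mem₂ J hJ.mem, fun P' hP' =>
      regAt_of_ord_nonneg (hreg P' (by rw [hP']; exact hPz))⟩
  obtain ⟨b, hb⟩ := exists_value P (hd P) (hf.2.2 P rfl)
  have hbV : algebraMap K L b ∈ T.b₁.V := hf.const_mem hP rfl hb
  by_contra hneg
  have hneg' : (ρ' P).ord (ι (SE.rd J)) < 0 := not_le.mp hneg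
  set Q := P.restrictAlong φ hφ with hQdef
  have hQ : VanAt Q (J - algebraMap K E₀ b) := by
    apply vanAt_restrictAlong φ hφ P
    rw [map_sub, AlgHom.commutes]
    exact hb
  have hy : (SE.r Q).ord (SE.rd J) < 0 := by
    rw [← h.rho', h.kappa_ord]
    exact hneg'
  have hJ0 : J ≠ 0 := hJ.ne_zero
  have hb0 : b ≠ 0 := by
    rintro rfl
    rw [map_zero, sub_zero] at hQ
    have := hzero Q (hQ.ord_pos hJ0)
    omega
  have hordJ : Q.ord J = 0 := by
    have h1 : 0 ≤ Q.ord J := (RegAt.of_vanAt_sub hQ).ord_nonneg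
    by_contra hne
    have h2 : VanAt Q J := vanAt_of_ord_pos (by omega)
    have h3 : VanAt Q (algebraMap K E₀ b) := by
      have := h2.sub hQ
      rwa [sub_sub_cancel] at this
    exact not_vanAt_algebraMap Q hb0 h3
  have hw : J⁻¹ ∈ SE.V := hJ.inv_mem
  have hwreg : ∀ Q', SE.r Q' = SE.r Q → 0 ≤ Q'.ord J⁻¹ := by
    intro Q' hQ'
    rw [Place.ord_inv]
    by_contra hlt
    have h1 : 0 < Q'.ord J := by omega
    have h2 := hzero Q' h1
    rw [hQ'] at h2
    omega
  have he : VanAt Q (J⁻¹ - algebraMap K E₀ b⁻¹) := by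
    have e : J⁻¹ - algebraMap K E₀ b⁻¹
        = (-(J⁻¹ * algebraMap K E₀ b⁻¹)) * (J - algebraMap K E₀ b) := by
      rw [map_inv₀]
      have hb' : algebraMap K E₀ b ≠ 0 := by
        rw [Ne, map_eq_zero_iff _ (algebraMap K E₀).injective]
        exact hb0
      field_simp
      ring
    rw [e]
    exact (((regAt_inv_of_ord_eq_zero hordJ).mul (regAt_algebraMap Q b⁻¹)).neg).mul_vanAt hQ
  obtain ⟨hm, hv⟩ := SE.const_of_vanAt hP₀ hw hwreg rfl he
  have hvan : VanAt (SE.r Q) (SE.rd J⁻¹) := by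
    rw [hJ.rd_inv]
    apply vanAt_of_ord_pos
    rw [Place.ord_inv]
    omega
  obtain ⟨c', hc'⟩ := SE.rd_const_eq b⁻¹ hm
  have hvc : VanAt (SE.r Q) (algebraMap k E' c') := by
    have := hvan.sub hv
    rwa [sub_sub_cancel, hc'] at this
  have hc0 : c' = 0 := const_eq_zero_of_vanAt hvc
  have h2 : T.p₂.rd (algebraMap K L b⁻¹) = 0 := by
    rw [h.rd₂_const hm, hc', hc0, map_zero, map_zero]
  have hb2 : algebraMap K L b ∈ T.p₂.V := T.const_mem₂ hbV
  have hbi2 : algebraMap K L b⁻¹ ∈ T.p₂.V := by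
    have := h.mem₂ _ hm
    rwa [AlgHom.commutes] at this
  have h3 := T.p₂.rd_mul hb2 hbi2
  rw [← map_mul, mul_inv_cancel₀ hb0, map_one, T.p₂.rd_one, h2, mul_zero] at h3
  exact one_ne_zero h3

/-- **Over a node, `ρ' P = β (ρ P)`.** -/
theorem rho'_eq_beta [Infinite k] (h : LowerBeta T SE φ hφ ρ' κ ι)
    (hP : HasPrincipalDivisors K L) (hd : ∀ v : Place K L, v.deg = 1)
    (H₀ : FFHyp K E₀) (H' : FFHyp k E') (hG : SE.GenusLE') {g' : ℕ} {c' : ℤ}
    (hg : IsGenus k E' g' c') (Jt : E)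
    (hCW : ∀ P : Place K L, 0 ≤ (ρ' P).ord Jt ↔ 0 ≤ (T.ρ P).ord Jt)
    (hCβ : ∀ z : Place k E, 0 ≤ (T.β z).ord Jt ↔ 0 ≤ z.ord Jt)
    (hC₁ : ∃ P₀ : Place K E₀, ∀ z : Place k E, κ z = SE.r P₀ → z.ord Jt < 0)
    (hC₂ : ∃ P₀ : Place K E₀, ∀ z : Place k E, κ z = SE.r P₀ → 0 ≤ z.ord Jt)
    {P : Place K L} (hz : T.IsNode (T.ρ P)) : ρ' P = T.β (T.ρ P) := by
  by_contra hne
  -- the pole `P₀` of the test function
  have hP₀ : ∃ P₀ : Place K E₀, ∀ z : Place k E, κ z = SE.r P₀ →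
      (0 ≤ z.ord Jt ↔ ¬ 0 ≤ (T.ρ P).ord Jt) := by
    by_cases hc : 0 ≤ (T.ρ P).ord Jt
    · obtain ⟨P₀, h₀⟩ := hC₁
      refine ⟨P₀, fun z hz => ?_⟩
      have := h₀ z hz
      constructor
      · intro h1; omega
      · intro h1; exact absurd hc h1
    · obtain ⟨P₀, h₀⟩ := hC₂
      refine ⟨P₀, fun z hz => ?_⟩
      have := h₀ z hz
      constructor
      · intro _; exact hc
      · intro _; exact this
  obtain ⟨P₀, hP₀⟩ := hP₀
  have h12 : κ (ρ' P) ≠ κ (T.β (T.ρ P)) := fun e => hne (h.kappa_inj e)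
  have h1 : κ (ρ' P) ≠ SE.r P₀ := by
    intro e
    have h2 := hP₀ _ e
    have h3 := hCW P
    tauto
  have h2 : κ (T.β (T.ρ P)) ≠ SE.r P₀ := by
    intro e
    have h2 := hP₀ _ e
    have h3 := hCβ (T.ρ P)
    tauto
  obtain ⟨x, c, hxV, hxreg, hv1, hv2⟩ :=
    Fermat.Agent.BAD.H94.exists_sep_lift_val SE H₀ H' hG hg P₀ h12 h1 h2
  -- `φ x ∈ R_z`
  have hf : T.InR (T.ρ P) (φ x) := by
    refine ⟨h.mem₁ x hxV, h.mem₂ x hxV, fun P' hP' => ?_⟩
    apply regAt_of_restrictAlong φ hφ P'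
    apply hxreg
    intro e
    have h4 : κ (ρ' P') = SE.r P₀ := by rw [h.rho', e]
    have h5 := hP₀ _ h4
    have h6 := hCW P'
    rw [hP'] at h6
    tauto
  obtain ⟨a, ha⟩ := exists_value P (hd P) (hf.2.2 P rfl)
  have hside := TotData.IsNode.onSide₂ hP hz (φ x) hf a ha
  -- the value at the lower level
  have hQ : VanAt (P.restrictAlong φ hφ) (x - algebraMap K E₀ a) := by
    apply vanAt_restrictAlong φ hφ P
    rw [map_sub, AlgHom.commutes]
    exact ha
  have hreg' : ∀ Q', SE.r Q' = κ (ρ' P) → 0 ≤ Q'.ord x := by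
    intro Q' hQ'
    apply hxreg
    rintro rfl
    exact h1 hQ'.symm
  obtain ⟨hm, hv⟩ := SE.const_of_vanAt H₀.principal hxV hreg' (h.rho' P).symm hQ
  obtain ⟨c₀, hc₀⟩ := SE.rd_const_eq a hm
  rw [hc₀] at hv
  have hcc : c = c₀ := value_unique _ hv1 hv
  rw [h.rd₂ x hxV, h.rd₂_const hm, hc₀, ← hcc, ← map_sub, ← h.vanAt_kappa] at hside
  exact hv2 hside

end LowerBeta

end Abs

end Fermat.Agent.BAD.H91
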